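/-
S55 / GLOBAL block — OBJECTS (owner: helper78, Global sub-architect).

Language (B): abstract number fields, Mathlib completions, Mathlib `groupCohomology` of `Rep ℤ G`.

For a finite Galois extension `L/K` of number fields, `G = Gal(L/K)`, and a finite set `T` of finite
places of `K` we use the **`T`-idele class module of `L`** in its restricted-product-free form

  `J_{L,T} := (L ⊗[K] K_T)ˣ`,  `K_T := ∏_{v ∈ T} K_v`  (`K_v = v.adicCompletion K`),
  `E_{L,T} := T_L`-units of `L`  (`T_L` = places of `L` above `T`),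
  `C_{L,T} := J_{L,T} ⧸ E_{L,T}`     (a `ℤ[G]`-module, `G` acts on the left tensor factor).

`L ⊗[K] K_v = ∏_{w | v} L_w` canonically, so `J_{L,T} = ∏_{w ∈ T_L} L_wˣ` and when `Cl_T(L) = 1`,
`C_{L,T} = C_L / U_{L,T}` (`U_{L,T} = ∏_{w ∉ T_L} U_w`, cohomologically trivial once `T ⊇ Ram(L/K)`).
Archimedean places are dropped: all our base fields contain `μ_p`, `p` odd, hence are totally complex.
-/
import Mathlib

set_option autoImplicit false
set_option linter.unusedSectionVars false

open NumberField IsDedekindDomain TensorProduct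

namespace Fermat.Agent.S55.Global.Objects

variable (K : Type) [Field K] [NumberField K]
variable (L : Type) [Field L] [NumberField L] [Algebra K L]

/-- Finite places of a number field. -/
abbrev Place := HeightOneSpectrum (𝓞 K)

/-- `K_T = ∏_{v ∈ T} K_v`. -/
abbrev KT (T : Finset (Place K)) : Type := (v : T) → (v : Place K).adicCompletion K

/-- The semilocal algebra `L ⊗[K] K_T`. -/
abbrev LT (T : Finset (Place K)) : Type := L ⊗[K] KT K T

/-- The places of `L` above a set `T` of places of `K`. -/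
def placesAbove (T : Finset (Place K)) : Set (Place L) :=
  {w | ∃ v ∈ T, w.asIdeal.under (𝓞 K) = (v : Place K).asIdeal}

section action

variable {K L}
variable (A : Type) [CommRing A] [Algebra K A]

/-- `Gal(L/K)` acts on `L ⊗[K] A` through the left factor. -/
noncomputable def tensorAct (σ : L ≃ₐ[K] L) : L ⊗[K] A ≃ₐ[K] L ⊗[K] A :=
  Algebra.TensorProduct.congr σ AlgEquiv.refl

@[simp] theorem tensorAct_tmul (σ : L ≃ₐ[K] L) (x : L) (a : A) :
    tensorAct A σ (x ⊗ₜ[K] a) = σ x ⊗ₜ[K] a := rfl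

theorem tensorAct_one : tensorAct A (1 : L ≃ₐ[K] L) = AlgEquiv.refl := by
  apply AlgEquiv.ext
  intro z
  induction z using TensorProduct.induction_on with
  | zero => simp
  | tmul x a => rfl
  | add x y hx hy => rw [map_add, hx, hy]; rfl

theorem tensorAct_mul (σ τ : L ≃ₐ[K] L) (z : L ⊗[K] A) :
    tensorAct A (σ * τ) z = tensorAct A σ (tensorAct A τ z) := by
  induction z using TensorProduct.induction_on with
  | zero => simp
  | tmul x a => rfl
  | add x y hx hy => rw [map_add, map_add, map_add, hx, hy]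

noncomputable instance : MulSemiringAction (L ≃ₐ[K] L) (L ⊗[K] A) where
  smul σ z := tensorAct A σ z
  one_smul z := by
    show tensorAct A 1 z = z
    rw [tensorAct_one]; rfl
  mul_smul σ τ z := tensorAct_mul A σ τ z
  smul_zero σ := map_zero _
  smul_add σ x y := map_add _ x y
  smul_one σ := map_one _
  smul_mul σ x y := map_mul _ x y

theorem smul_def (σ : L ≃ₐ[K] L) (z : L ⊗[K] A) : σ • z = tensorAct A σ z := rfl

@[simp] theorem smul_tmul' (σ : L ≃ₐ[K] L) (x : L) (a : A) :
    σ • (x ⊗ₜ[K] a : L ⊗[K] A) = σ x ⊗ₜ[K] a := rfl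

end action

section modules

variable {K L}
variable (A : Type) [CommRing A] [Algebra K A]

noncomputable instance instMDMAUnits : MulDistribMulAction (L ≃ₐ[K] L) (L ⊗[K] A)ˣ :=
  Units.mulDistribMulActionRight

@[simp] theorem val_smul_units (σ : L ≃ₐ[K] L) (u : (L ⊗[K] A)ˣ) :
    ((σ • u : (L ⊗[K] A)ˣ) : L ⊗[K] A) = σ • (u : L ⊗[K] A) := rfl

variable (K L) in
/-- The `G`-module `(L ⊗[K] A)ˣ` (written additively), `G = Gal(L/K)`. -/
noncomputable abbrev JRep : Rep ℤ (L ≃ₐ[K] L) :=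
  Rep.ofMulDistribMulAction (L ≃ₐ[K] L) (L ⊗[K] A)ˣ

variable (K L) in
/-- `Lˣ → (L ⊗[K] A)ˣ`, `x ↦ x ⊗ 1`. -/
noncomputable def inclUnits : Lˣ →* (L ⊗[K] A)ˣ :=
  Units.map (Algebra.TensorProduct.includeLeft : L →ₐ[K] L ⊗[K] A).toMonoidHom

@[simp] theorem val_inclUnits (x : Lˣ) :
    ((inclUnits K L A x : (L ⊗[K] A)ˣ) : L ⊗[K] A) = (x : L) ⊗ₜ[K] (1 : A) := rfl

theorem smul_inclUnits (σ : L ≃ₐ[K] L) (x : Lˣ) :
    σ • inclUnits K L A x = inclUnits K L A (σ • x) := by
  apply Units.ext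
  rfl

end modules

section Tunits

/-- The `T_L`-units of `L`, in the manifestly Galois-stable form: all conjugates of `x` are units
at every place of `L` not above `T`.  (Equal to `Set.unit (placesAbove K L T) L`, row `G.obj2`.) -/
noncomputable def EUnits (T : Finset (Place K)) : Subgroup Lˣ :=
  ⨅ σ : L ≃ₐ[K] L, (Set.unit (placesAbove K L T) L).comap (MulDistribMulAction.toMonoidHom Lˣ σ)

variable {K L}

theorem mem_EUnits {T : Finset (Place K)} {x : Lˣ} :
    x ∈ EUnits K L T ↔ ∀ σ : L ≃ₐ[K] L, σ • x ∈ Set.unit (placesAbove K L T) L := by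
  simp [EUnits, Subgroup.mem_iInf]

theorem smul_mem_EUnits {T : Finset (Place K)} {x : Lˣ} (hx : x ∈ EUnits K L T)
    (τ : L ≃ₐ[K] L) : τ • x ∈ EUnits K L T := by
  rw [mem_EUnits] at hx ⊢
  intro σ
  rw [← mul_smul]
  exact hx (σ * τ)

theorem EUnits_le (T : Finset (Place K)) : EUnits K L T ≤ Set.unit (placesAbove K L T) L := by
  intro x hx
  have := (mem_EUnits.mp hx) 1
  rwa [one_smul] at this

variable (K L) in
/-- The image of the `T_L`-units in `J_{L,T} = (L ⊗[K] K_T)ˣ`. -/
noncomputable def EImage (T : Finset (Place K)) : Subgroup (L ⊗[K] KT K T)ˣ :=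
  (EUnits K L T).map (inclUnits K L (KT K T))

theorem smul_mem_EImage {T : Finset (Place K)} {u : (L ⊗[K] KT K T)ˣ} (hu : u ∈ EImage K L T)
    (σ : L ≃ₐ[K] L) : σ • u ∈ EImage K L T := by
  obtain ⟨x, hx, rfl⟩ := hu
  exact ⟨σ • x, smul_mem_EUnits hx σ, (smul_inclUnits _ σ x).symm⟩

variable (K L) in
/-- `J_{L,T}` as a `Rep ℤ G`. -/
noncomputable abbrev J (T : Finset (Place K)) : Rep ℤ (L ≃ₐ[K] L) := JRep K L (KT K T)

variable (K L) in
/-- The `T_L`-units as a `ℤ`-submodule of `J_{L,T}`. -/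
noncomputable def ESub (T : Finset (Place K)) :
    @Submodule ℤ (J K L T) _ _ (J K L T).hV2 :=
  @Submodule.mk ℤ (J K L T) _ _ (J K L T).hV2
    ⟨⟨{a | Additive.toMul (Rep.toAdditive a) ∈ EImage K L T},
      fun {a b} ha hb => (EImage K L T).mul_mem ha hb⟩, (EImage K L T).one_mem⟩
    (fun n a ha => by
      have h1 := int_smul_eq_zsmul (J K L T).hV2 n a
      have h2 : Additive.toMul (Rep.toAdditive (n • a : J K L T)) ∈ EImage K L T :=
        (EImage K L T).zpow_mem ha n
      show Additive.toMul (Rep.toAdditive (@SMul.smul ℤ (J K L T) (J K L T).hV2.toSMul n a))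
        ∈ EImage K L T
      rw [h1]
      exact h2)

theorem mem_ESub {T : Finset (Place K)} {a : J K L T} :
    a ∈ ESub K L T ↔ Additive.toMul (Rep.toAdditive a) ∈ EImage K L T := Iff.rfl

theorem ESub_stable (T : Finset (Place K)) (σ : L ≃ₐ[K] L) :
    ESub K L T ≤ (ESub K L T).comap ((J K L T).ρ σ) := by
  intro a ha
  rw [Submodule.mem_comap, mem_ESub]
  exact smul_mem_EImage (mem_ESub.mp ha) σ

variable (K L) in
/-- The `T`-idele class module `C_{L,T} = J_{L,T} ⧸ E_{L,T}` as a `Rep ℤ G`. -/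
noncomputable abbrev C (T : Finset (Place K)) : Rep ℤ (L ≃ₐ[K] L) :=
  Rep.quotient (J K L T) (ESub K L T) (ESub_stable T)

variable (K L) in
/-- The `T_L`-units `E_{L,T}` as a `Rep ℤ G` (subrepresentation of `J_{L,T}`). -/
noncomputable abbrev E (T : Finset (Place K)) : Rep ℤ (L ≃ₐ[K] L) :=
  Rep.subrepresentation (J K L T) (ESub K L T) (ESub_stable T)

variable (K L) in
/-- `E_{L,T} ⟶ J_{L,T}`. -/
noncomputable abbrev EtoJ (T : Finset (Place K)) : E K L T ⟶ J K L T :=
  Rep.subtype (J K L T) (ESub K L T) (ESub_stable T)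

variable (K L) in
/-- `J_{L,T} ⟶ C_{L,T}`. -/
noncomputable abbrev JtoC (T : Finset (Place K)) : J K L T ⟶ C K L T :=
  Rep.mkQ (J K L T) (ESub K L T) (ESub_stable T)

variable (K L) in
/-- The multiplicative group `L^×` as a `Rep ℤ G` (Mathlib's `Rep.ofAlgebraAutOnUnits`). -/
noncomputable abbrev Lx : Rep ℤ (L ≃ₐ[K] L) := Rep.ofAlgebraAutOnUnits K L

end Tunits

end Fermat.Agent.S55.Global.Objects
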