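/-
S55 / GLOBAL block — OBJECTS, FINAL (`ℚ`-based) FORM (owner: helper78, Global sub-architect).

INTERFACE v3.  The idele-type modules are built over `ℚ` and `ℚ_[q]` (Mathlib `Padic`), NOT over
the completions of the base field:

  `ℚ_T := ∏_{q ∈ T} ℚ_[q]`   (`T : Finset Nat.Primes`, a finite set of RATIONAL primes),
  `JQ L T := (L ⊗[ℚ] ℚ_T)ˣ`  (`= ∏_{w | T} L_wˣ`),   acted on by `Aut(L/ℚ)` via the left factor,
  `EQ L T := T_L`-units of `L`,   `CQ L T := JQ L T ⧸ EQ L T`   as `Rep ℤ (L ≃ₐ[ℚ] L)`.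

For a base field `K ⊆ L` the `Gal(L/K)`-modules are the RESTRICTIONS along
`AlgEquiv.restrictScalarsHom ℚ : (L ≃ₐ[K] L) →* (L ≃ₐ[ℚ] L)`:  `Jn K L T`, `En K L T`, `Cn K L T`.

Why: (1) restriction to a subgroup `Gal(L/E) ≤ Gal(L/K)` is then LITERALLY the same module — the
dévissage needs no base change `E ⊗[K] K_v ≅ ∏ E_u`; (2) `(L ⊗[ℚ] ℚ_T)^H = L^H ⊗[ℚ] ℚ_T` by flatness —
descent is absolute; (3) `L ⊗[ℚ] ℚ_[q]` is a finite free `ℚ_[q]`-module: its topology, lattices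
`𝓞 L ⊗ ℤ_[q]`, congruences `x ≡ 1 mod q^k`, and the norm to `ℚ_[q]` are elementary — this is what
the cyclotomic reciprocity computations use; (4) the local factors are finite extensions of `ℚ_[q]`,
the setting of the Local block (`Local/LocalDatum.lean`) and of the Prelude bridge
(`ℚ_q(ι F) ⊆ PadicAlgCl q`); (5) `S` in S55 IS a set of rational primes.
-/
import Fermat.Agent.S55.Global.Objects

set_option autoImplicit false
set_option linter.unusedSectionVars false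

open NumberField IsDedekindDomain TensorProduct

namespace Fermat.Agent.S55.Global.Objects2

open Fermat.Agent.S55.Global.Objects

/-- Primes in `Nat.Primes` are prime (global instance so that `ℚ_[q]` is a field). -/
instance instFactPrimeNatPrimes (q : Nat.Primes) : Fact (q : ℕ).Prime := ⟨q.2⟩

/-- `ℚ_T = ∏_{q ∈ T} ℚ_[q]`. -/
abbrev QT (T : Finset Nat.Primes) : Type := (q : T) → ℚ_[((q : Nat.Primes) : ℕ)]

section generic

/-! ### Generic quotient module `(L ⊗[K] A)ˣ ⧸ U` for a Galois-stable subgroup `U ≤ Lˣ` -/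

variable {K L : Type} [Field K] [NumberField K] [Field L] [NumberField L] [Algebra K L]
variable (A : Type) [CommRing A] [Algebra K A]

/-- The `ℤ`-submodule of `JRep K L A` given by the image of a subgroup `U ≤ Lˣ`. -/
noncomputable def imageSub (U : Subgroup Lˣ) :
    @Submodule ℤ (JRep K L A) _ _ (JRep K L A).hV2 :=
  @Submodule.mk ℤ (JRep K L A) _ _ (JRep K L A).hV2
    ⟨⟨{a | Additive.toMul (Rep.toAdditive a) ∈ U.map (inclUnits K L A)},
      fun {a b} ha hb => (U.map (inclUnits K L A)).mul_mem ha hb⟩,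
      (U.map (inclUnits K L A)).one_mem⟩
    (fun n a ha => by
      have h1 := int_smul_eq_zsmul (JRep K L A).hV2 n a
      have h2 : Additive.toMul (Rep.toAdditive (n • a : JRep K L A)) ∈ U.map (inclUnits K L A) :=
        (U.map (inclUnits K L A)).zpow_mem ha n
      show Additive.toMul (Rep.toAdditive (@SMul.smul ℤ (JRep K L A) (JRep K L A).hV2.toSMul n a))
        ∈ U.map (inclUnits K L A)
      rw [h1]
      exact h2)

theorem mem_imageSub {U : Subgroup Lˣ} {a : JRep K L A} :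
    a ∈ imageSub A U ↔ Additive.toMul (Rep.toAdditive a) ∈ U.map (inclUnits K L A) := Iff.rfl

theorem imageSub_stable {U : Subgroup Lˣ} (hU : ∀ (σ : L ≃ₐ[K] L) (x : Lˣ), x ∈ U → σ • x ∈ U)
    (σ : L ≃ₐ[K] L) : imageSub A U ≤ (imageSub A U).comap ((JRep K L A).ρ σ) := by
  intro a ha
  rw [Submodule.mem_comap, mem_imageSub]
  obtain ⟨x, hx, hxa⟩ := (mem_imageSub A).mp ha
  refine ⟨σ • x, hU σ x hx, ?_⟩
  rw [← smul_inclUnits, hxa]
  rfl

end generic

section Qbased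

variable (L : Type) [Field L] [NumberField L]

/-- The places of `L` above the rational primes in `T`. -/
def placesAboveQ (T : Finset Nat.Primes) : Set (Place L) :=
  {w | ∃ q ∈ T, (((q : Nat.Primes) : ℕ) : 𝓞 L) ∈ w.asIdeal}

/-- The `T_L`-units of `L` in manifestly `Aut(L/ℚ)`-stable form (all conjugates are units outside
`T_L`).  Equal to `Set.unit (placesAboveQ L T) L` (row `G.obj2`). -/
noncomputable def EUnitsQ (T : Finset Nat.Primes) : Subgroup Lˣ :=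
  ⨅ σ : L ≃ₐ[ℚ] L, (Set.unit (placesAboveQ L T) L).comap (MulDistribMulAction.toMonoidHom Lˣ σ)

variable {L}

theorem mem_EUnitsQ {T : Finset Nat.Primes} {x : Lˣ} :
    x ∈ EUnitsQ L T ↔ ∀ σ : L ≃ₐ[ℚ] L, σ • x ∈ Set.unit (placesAboveQ L T) L := by
  simp [EUnitsQ, Subgroup.mem_iInf]

theorem smul_mem_EUnitsQ {T : Finset Nat.Primes} (τ : L ≃ₐ[ℚ] L) (x : Lˣ)
    (hx : x ∈ EUnitsQ L T) : τ • x ∈ EUnitsQ L T := by
  rw [mem_EUnitsQ] at hx ⊢
  intro σ
  rw [← mul_smul]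
  exact hx (σ * τ)

theorem EUnitsQ_le (T : Finset Nat.Primes) : EUnitsQ L T ≤ Set.unit (placesAboveQ L T) L := by
  intro x hx
  have := (mem_EUnitsQ.mp hx) 1
  rwa [one_smul] at this

variable (L)

/-- `JQ L T = (L ⊗[ℚ] ℚ_T)ˣ` as a `Rep ℤ (Aut(L/ℚ))`. -/
noncomputable abbrev JQ (T : Finset Nat.Primes) : Rep ℤ (L ≃ₐ[ℚ] L) := JRep ℚ L (QT T)

/-- The `T_L`-units inside `JQ L T`. -/
noncomputable abbrev ESubQ (T : Finset Nat.Primes) :
    @Submodule ℤ (JQ L T) _ _ (JQ L T).hV2 :=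
  imageSub (QT T) (EUnitsQ L T)

theorem ESubQ_stable (T : Finset Nat.Primes) (σ : L ≃ₐ[ℚ] L) :
    ESubQ L T ≤ (ESubQ L T).comap ((JQ L T).ρ σ) :=
  imageSub_stable (QT T) (fun τ x hx => smul_mem_EUnitsQ τ x hx) σ

/-- `CQ L T = JQ L T ⧸ EQ L T`: the `T`-idele class module of `L`, as a `Rep ℤ (Aut(L/ℚ))`. -/
noncomputable abbrev CQ (T : Finset Nat.Primes) : Rep ℤ (L ≃ₐ[ℚ] L) :=
  Rep.quotient (JQ L T) (ESubQ L T) (ESubQ_stable L T)

/-- `EQ L T`: the `T_L`-units as a `Rep ℤ (Aut(L/ℚ))`. -/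
noncomputable abbrev EQ (T : Finset Nat.Primes) : Rep ℤ (L ≃ₐ[ℚ] L) :=
  Rep.subrepresentation (JQ L T) (ESubQ L T) (ESubQ_stable L T)

/-- `EQ ⟶ JQ`. -/
noncomputable abbrev EQtoJQ (T : Finset Nat.Primes) : EQ L T ⟶ JQ L T :=
  Rep.subtype (JQ L T) (ESubQ L T) (ESubQ_stable L T)

/-- `JQ ⟶ CQ`. -/
noncomputable abbrev JQtoCQ (T : Finset Nat.Primes) : JQ L T ⟶ CQ L T :=
  Rep.mkQ (JQ L T) (ESubQ L T) (ESubQ_stable L T)

/-- `Lˣ` as a `Rep ℤ (Aut(L/ℚ))`. -/
noncomputable abbrev LxQ : Rep ℤ (L ≃ₐ[ℚ] L) := Rep.ofAlgebraAutOnUnits ℚ L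

/-- `Lˣ ⟶ JQ L T`, `x ↦ x ⊗ 1`. -/
noncomputable def LxQtoJQ (T : Finset Nat.Primes) : LxQ L ⟶ JQ L T :=
  Rep.ofHom
    { toLinearMap := (MonoidHom.toAdditive (inclUnits ℚ L (QT T))).toIntLinearMap
      isIntertwining' := fun σ => by
        ext a
        rfl }

end Qbased

section relative

variable (K L : Type) [Field K] [NumberField K] [Field L] [NumberField L] [Algebra K L]

/-- `Gal(L/K) → Aut(L/ℚ)`. -/
noncomputable abbrev resHom : (L ≃ₐ[K] L) →* (L ≃ₐ[ℚ] L) := AlgEquiv.restrictScalarsHom ℚ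

/-- `J_{L,T}` as a `Gal(L/K)`-module. -/
noncomputable abbrev Jn (T : Finset Nat.Primes) : Rep ℤ (L ≃ₐ[K] L) :=
  Rep.res (resHom K L) (JQ L T)

/-- `E_{L,T}` as a `Gal(L/K)`-module. -/
noncomputable abbrev En (T : Finset Nat.Primes) : Rep ℤ (L ≃ₐ[K] L) :=
  Rep.res (resHom K L) (EQ L T)

/-- `C_{L,T}` as a `Gal(L/K)`-module: THE module of the Global block. -/
noncomputable abbrev Cn (T : Finset Nat.Primes) : Rep ℤ (L ≃ₐ[K] L) :=
  Rep.res (resHom K L) (CQ L T)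

/-- `Lˣ` as a `Gal(L/K)`-module (restriction of `LxQ`; same carrier and action as
`Rep.ofAlgebraAutOnUnits K L`). -/
noncomputable abbrev Lxn : Rep ℤ (L ≃ₐ[K] L) := Rep.res (resHom K L) (LxQ L)

end relative

end Fermat.Agent.S55.Global.Objects2
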