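/-
S55 / GLOBAL block — INTERFACE v3 (`ℚ`-based modules; owner: helper78).  Closed Props only.
SUPERSEDES the Props of `Blocks.lean` (same names, now for `Objects2.Cn K L T`,
`T : Finset Nat.Primes`).

Conventions: `p` an odd prime; `K` a number field containing a primitive `p`-th root of unity
(hence totally complex); `L/K` finite Galois, `G = Gal(L/K)`; `T` a finite set of RATIONAL primes;
`Cn K L T` = the `T`-idele class module `(L ⊗[ℚ] ℚ_T)ˣ ⧸ E_{L,T}` with its `Gal(L/K)`-action.
All cohomology is Mathlib `groupCohomology` of `Rep ℤ G`.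
-/
import Fermat.Agent.S55.Global.Objects2

set_option autoImplicit false
set_option linter.unusedSectionVars false

open NumberField IsDedekindDomain TensorProduct CategoryTheory

namespace Fermat.Agent.S55.Global.Blocks2

open Fermat.Agent.S55.Global.Objects Fermat.Agent.S55.Global.Objects2

section admissible

/-- A nonzero ideal of `𝓞 E` all of whose prime factors lie above rational primes in `T`. -/
def SupportedAboveQ (E : Type) [Field E] [NumberField E] (T : Finset Nat.Primes)
    (J : Ideal (𝓞 E)) : Prop :=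
  J ≠ ⊥ ∧ ∀ P : Ideal (𝓞 E), P.IsPrime → J ≤ P → ∃ q ∈ T, (((q : Nat.Primes) : ℕ) : 𝓞 E) ∈ P

variable (K : Type) [Field K] [NumberField K]
variable (L : Type) [Field L] [NumberField L] [Algebra K L]

/-- `T` (a finite set of rational primes) is **admissible** for `L/K` at `p`:
* `p ∈ T`;
* every place of `L` with nontrivial inertia group in `Gal(L/K)` lies above `T`;
* `Cl_T(E) = 1` for every number field `E` admitting an embedding into `L` (all subfields of `L`,
  in particular `K`, `L` and every intermediate field; `L` has finitely many subfields): every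
  nonzero ideal of `𝓞 E` is principal up to ideals supported above `T`.  This form is hereditary
  for free: `AdmissibleQ K L p T → AdmissibleQ E L p T` and `→ AdmissibleQ K F p T` (`F ⊆ L`).
Every finite `T₀` is contained in an admissible `T`; admissibility is monotone in `T`
(row `G.admissible`). -/
structure AdmissibleQ (p : ℕ) (T : Finset Nat.Primes) : Prop where
  mem_p : ∃ q ∈ T, ((q : Nat.Primes) : ℕ) = p
  ram : ∀ w : Place L, (∃ σ : L ≃ₐ[K] L, σ ∈ w.asIdeal.inertia (L ≃ₐ[K] L) ∧ σ ≠ 1) →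
    w ∈ placesAboveQ L T
  principal : ∀ (E : Type) [Field E] [NumberField E] (_ : E →+* L) (I : Ideal (𝓞 E)), I ≠ ⊥ →
    ∃ (a b : 𝓞 E) (J J' : Ideal (𝓞 E)), a ≠ 0 ∧ b ≠ 0 ∧ SupportedAboveQ E T J ∧
      SupportedAboveQ E T J' ∧ Ideal.span {a} * I * J = Ideal.span {b} * J'

end admissible

/-- Common hypotheses: `K ∋ ζ_p`, `L/K` Galois of `p`-power degree, `T` admissible. -/
structure Setting (p : ℕ) (K L : Type) [Field K] [NumberField K] [Field L] [NumberField L]
    [Algebra K L] (T : Finset Nat.Primes) : Prop where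
  prime : p.Prime
  odd : p ≠ 2
  zeta : ∃ ζ : K, IsPrimitiveRoot ζ p
  galois : IsGalois K L
  ppower : ∃ n : ℕ, Module.finrank K L = p ^ n
  adm : AdmissibleQ K L p T

/-- **(G-i)** `H¹(Gal(L/K), C_{L,T}) = 0`. -/
def H1Vanish (p : ℕ) : Prop :=
  ∀ (K L : Type) [Field K] [NumberField K] [Field L] [NumberField L] [Algebra K L]
    (T : Finset Nat.Primes), Setting p K L T →
    Limits.IsZero (groupCohomology (Cn K L T) 1)

/-- **(G-ii)** `H²(Gal(L/K), C_{L,T})` is cyclic of order `[L:K]`. -/
def H2Cyclic (p : ℕ) : Prop :=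
  ∀ (K L : Type) [Field K] [NumberField K] [Field L] [NumberField L] [Algebra K L]
    (T : Finset Nat.Primes), Setting p K L T →
    Nat.card (groupCohomology (Cn K L T) 2) = Module.finrank K L ∧
      ∃ u : groupCohomology (Cn K L T) 2, ∀ x : groupCohomology (Cn K L T) 2, ∃ n : ℤ, x = n • u

/-- **(G-ii, weak form)** `card H²(Gal(L/K), C_{L,T})` divides `[L:K]` (what dévissage gives). -/
def H2CardDvd (p : ℕ) : Prop :=
  ∀ (K L : Type) [Field K] [NumberField K] [Field L] [NumberField L] [Algebra K L]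
    (T : Finset Nat.Primes), Setting p K L T →
    Finite (groupCohomology (Cn K L T) 2) ∧
      Nat.card (groupCohomology (Cn K L T) 2) ∣ Module.finrank K L

/-! ### Internal rows: the two inequalities for a cyclic layer of degree `p`

For `L/K` cyclic of degree `p` with generator `σ`, additively on `C = Cn K L T`:
`Nm = ∑_τ τ`, `D = σ - 1`;  `h0 := [ker D : Nm C]`, `h1 := [ker Nm : D C]`. -/

section cyclic

variable (K L : Type) [Field K] [NumberField K] [Field L] [NumberField L] [Algebra K L]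
variable (T : Finset Nat.Primes)

/-- The norm endomorphism `x ↦ ∑_τ τ x` of `C_{L,T}`. -/
noncomputable def normC [Fintype (L ≃ₐ[K] L)] : (Cn K L T) →+ (Cn K L T) :=
  AddMonoidHom.mk' (fun x => ∑ τ : L ≃ₐ[K] L, (Cn K L T).ρ τ x)
    (fun x y => by simp only [map_add, Finset.sum_add_distrib])

/-- `σ - 1` on `C_{L,T}`. -/
noncomputable def diffC (σ : L ≃ₐ[K] L) : (Cn K L T) →+ (Cn K L T) :=
  AddMonoidHom.mk' (fun x => (Cn K L T).ρ σ x - x)
    (fun x y => by simp only [map_add]; abel)

/-- `h0 = [ker (σ-1) : Nm C]`. -/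
noncomputable def h0 [Fintype (L ≃ₐ[K] L)] (σ : L ≃ₐ[K] L) : ℕ :=
  (normC K L T).range.relIndex (diffC K L T σ).ker

/-- `h1 = [ker Nm : (σ-1) C]`. -/
noncomputable def h1 [Fintype (L ≃ₐ[K] L)] (σ : L ≃ₐ[K] L) : ℕ :=
  (diffC K L T σ).range.relIndex (normC K L T).ker

end cyclic

/-- Hypotheses for a cyclic layer of degree `p` with generator `σ`. -/
structure CyclicSetting (p : ℕ) (K L : Type) [Field K] [NumberField K] [Field L] [NumberField L]
    [Algebra K L] (T : Finset Nat.Primes) (σ : L ≃ₐ[K] L) : Prop extends Setting p K L T where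
  degree : Module.finrank K L = p
  gen : ∀ τ : L ≃ₐ[K] L, τ ∈ Subgroup.zpowers σ

/-- **First inequality (Herbrand quotient)**: `h0 = p * h1 ≠ 0` for a cyclic layer of degree `p`.
Owner: helper31. -/
def FirstIneq (p : ℕ) : Prop :=
  ∀ (K L : Type) [Field K] [NumberField K] [Field L] [NumberField L] [Algebra K L]
    [Fintype (L ≃ₐ[K] L)] (T : Finset Nat.Primes) (σ : L ≃ₐ[K] L), CyclicSetting p K L T σ →
    h0 K L T σ ≠ 0 ∧ h0 K L T σ = p * h1 K L T σ

/-- **Second inequality**: `h0 ≤ p` (with `h0 ≠ 0`) for a cyclic layer of degree `p`.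
Owners: helper42 + helper2 + helper11 (`RaySecondIneq`, on main) and the bridge `G.bridge2`. -/
def SecondIneq (p : ℕ) : Prop :=
  ∀ (K L : Type) [Field K] [NumberField K] [Field L] [NumberField L] [Algebra K L]
    [Fintype (L ≃ₐ[K] L)] (T : Finset Nat.Primes) (σ : L ≃ₐ[K] L), CyclicSetting p K L T σ →
    h0 K L T σ ≠ 0 ∧ h0 K L T σ ≤ p

/-- **Cyclic layer**: `h0 = p` and `h1 = 1` (i.e. `Ĥ⁰` has order `p`, `Ĥ⁻¹ = H¹ = 0`). -/
def CyclicLayer (p : ℕ) : Prop :=
  ∀ (K L : Type) [Field K] [NumberField K] [Field L] [NumberField L] [Algebra K L]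
    [Fintype (L ≃ₐ[K] L)] (T : Finset Nat.Primes) (σ : L ≃ₐ[K] L), CyclicSetting p K L T σ →
    h0 K L T σ = p ∧ h1 K L T σ = 1

theorem cyclicLayer_of_ineqs {p : ℕ} (h1' : FirstIneq p) (h2' : SecondIneq p) : CyclicLayer p := by
  intro K L _ _ _ _ _ _ T σ hs
  obtain ⟨hne, heq⟩ := h1' K L T σ hs
  obtain ⟨-, hle⟩ := h2' K L T σ hs
  have hp : 0 < p := hs.prime.pos
  have h1ne : h1 K L T σ ≠ 0 := by
    intro h0'
    rw [h0', Nat.mul_zero] at heq
    exact hne heq
  have h1le : h1 K L T σ ≤ 1 := by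
    by_contra hcon
    have hcon' : 2 ≤ h1 K L T σ := by omega
    have : p * 2 ≤ p * h1 K L T σ := Nat.mul_le_mul_left p hcon'
    omega
  have h1eq : h1 K L T σ = 1 := by omega
  exact ⟨by rw [heq, h1eq, Nat.mul_one], h1eq⟩

/-- **Cyclic layer, cohomological form**: for a cyclic layer of degree `p`,
`H¹(G, C) = 0` and `card H²(G, C) = p`. -/
def CyclicCoh (p : ℕ) : Prop :=
  ∀ (K L : Type) [Field K] [NumberField K] [Field L] [NumberField L] [Algebra K L]
    (T : Finset Nat.Primes) (σ : L ≃ₐ[K] L), CyclicSetting p K L T σ →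
    Limits.IsZero (groupCohomology (Cn K L T) 1) ∧ Nat.card (groupCohomology (Cn K L T) 2) = p

end Fermat.Agent.S55.Global.Blocks2
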