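/-
S55 / GLOBAL block — OBJECTS, part 3 (owner: helper78): base-field independence of the `ℚ`-based
modules (all `rfl`), the norm of `Gal(L/K)` on `JQ`, and the local-norm predicate.
-/
import Fermat.Agent.S55.Global.Objects2

set_option autoImplicit false
set_option linter.unusedSectionVars false

open NumberField IsDedekindDomain TensorProduct

namespace Fermat.Agent.S55.Global.Objects3

open Fermat.Agent.S55.Global.Objects Fermat.Agent.S55.Global.Objects2

section tower

variable (K E L : Type) [Field K] [NumberField K] [Field E] [NumberField E] [Field L]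
  [NumberField L] [Algebra K E] [Algebra E L] [Algebra K L] [IsScalarTower K E L]

/-- `Gal(L/E) → Gal(L/K)` for a tower `K ⊆ E ⊆ L`. -/
noncomputable abbrev subHom : (L ≃ₐ[E] L) →* (L ≃ₐ[K] L) := AlgEquiv.restrictScalarsHom K

/-- **Base-field independence**: restricting `Cn K L T` to `Gal(L/E)` IS `Cn E L T`. -/
theorem res_Cn (T : Finset Nat.Primes) : Rep.res (subHom K E L) (Cn K L T) = Cn E L T := rfl

theorem res_Jn (T : Finset Nat.Primes) : Rep.res (subHom K E L) (Jn K L T) = Jn E L T := rfl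

theorem res_En (T : Finset Nat.Primes) : Rep.res (subHom K E L) (En K L T) = En E L T := rfl

end tower

section subgroup

variable (K L : Type) [Field K] [NumberField K] [Field L] [NumberField L] [Algebra K L]

/-- Restriction of `Cn K L T` to a subgroup `H ≤ Gal(L/K)` is the restriction of `CQ L T` along
`H → Gal(L/K) → Aut(L/ℚ)`. -/
theorem res_subgroup_Cn (T : Finset Nat.Primes) (H : Subgroup (L ≃ₐ[K] L)) :
    Rep.res H.subtype (Cn K L T) = Rep.res ((resHom K L).comp H.subtype) (CQ L T) := rfl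

end subgroup

section localnorm

variable (K M : Type) [Field K] [NumberField K] [Field M] [NumberField M] [Algebra K M]

/-- The norm `∏_{τ ∈ Gal(M/K)} τ • y` on `(M ⊗[ℚ] A)ˣ` (`A` any commutative `ℚ`-algebra). -/
noncomputable def galNorm (A : Type) [CommRing A] [Algebra ℚ A] [Fintype (M ≃ₐ[K] M)]
    (y : (M ⊗[ℚ] A)ˣ) : (M ⊗[ℚ] A)ˣ :=
  ∏ τ : M ≃ₐ[K] M, (resHom K M τ) • y

/-- `b ∈ Kˣ` is a **local norm from `M` at the rational prime `q`**: `b ⊗ 1 = ∏_τ τ • y` for some
`y ∈ (M ⊗[ℚ] ℚ_[q])ˣ` (the product over `Gal(M/K)`; `M/K` Galois in the applications). -/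
def IsLocalNormQ [Fintype (M ≃ₐ[K] M)] (q : Nat.Primes) (b : Kˣ) : Prop :=
  ∃ y : (M ⊗[ℚ] ℚ_[((q : Nat.Primes) : ℕ)])ˣ,
    galNorm K M ℚ_[((q : Nat.Primes) : ℕ)] y =
      inclUnits ℚ M ℚ_[((q : Nat.Primes) : ℕ)] (Units.map (algebraMap K M).toMonoidHom b)

end localnorm

end Fermat.Agent.S55.Global.Objects3
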