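/-
S55 / GLOBAL block — INTERFACE v3, part 2 (owner: helper78): LOCAL COMPONENTS in the `ℚ`-based
language and the reciprocity export **(G-iv)**.

A *place of `K` above the rational prime `q`* is a maximal ideal `𝔪` of the finite étale
`ℚ_[q]`-algebra `K ⊗[ℚ] ℚ_[q]`; its *completion* is the residue field
`Kloc K q 𝔪 = (K ⊗[ℚ] ℚ_[q]) ⧸ 𝔪`, a finite extension of `ℚ_[q]` and a `K`-algebra (left factor).
For the Prelude bridge: an embedding `e : K →+* PadicAlgCl q` gives `x ⊗ a ↦ e x * a`, whose kernel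
is such an `𝔪` and whose image is `ℚ_q(e K)` — no comparison of completions is needed.
The local module of `L/K` at `𝔪` is `Jloc K L q 𝔪 = (L ⊗[K] Kloc K q 𝔪)ˣ` (`Objects.JRep`), and
`(L ⊗[ℚ] ℚ_[q])ˣ ≅ ∏_{𝔪 | q} Jloc K L q 𝔪` as `Gal(L/K)`-modules (row `G.localProd`).
-/
import Fermat.Agent.S55.Global.Blocks2
import Fermat.Agent.S55.Global.Objects3

set_option autoImplicit false
set_option linter.unusedSectionVars false

open NumberField IsDedekindDomain TensorProduct CategoryTheory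

namespace Fermat.Agent.S55.Global.Blocks3

open Fermat.Agent.S55.Global.Objects Fermat.Agent.S55.Global.Objects2

section localobjects

variable (K : Type) [Field K] [NumberField K]
variable (L : Type) [Field L] [NumberField L] [Algebra K L]

/-- `K ⊗[ℚ] ℚ_[q]`, the semilocal algebra of `K` at the rational prime `q` (a `K`-algebra through
the left factor). -/
abbrev Ksemi (q : Nat.Primes) : Type := K ⊗[ℚ] ℚ_[((q : Nat.Primes) : ℕ)]

/-- The completion of `K` at the place `𝔪` above `q`: the residue field of `K ⊗[ℚ] ℚ_[q]` at the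
maximal ideal `𝔪`. -/
abbrev Kloc (q : Nat.Primes) (𝔪 : Ideal (Ksemi K q)) : Type := Ksemi K q ⧸ 𝔪

/-- The local `Gal(L/K)`-module `(L ⊗[K] K_𝔪)ˣ` at the place `𝔪` of `K`. -/
noncomputable abbrev Jloc (q : Nat.Primes) (𝔪 : Ideal (Ksemi K q)) : Rep ℤ (L ≃ₐ[K] L) :=
  JRep K L (Kloc K q 𝔪)

/-- `Lˣ ⟶ (L ⊗[K] A)ˣ`, `x ↦ x ⊗ 1`, as a morphism of `Gal(L/K)`-modules (`A` any `K`-algebra). -/
noncomputable def LxToJ (A : Type) [CommRing A] [Algebra K A] :
    Rep.ofAlgebraAutOnUnits K L ⟶ JRep K L A :=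
  Rep.ofHom
    { toLinearMap := (MonoidHom.toAdditive (inclUnits K L A)).toIntLinearMap
      isIntertwining' := fun σ => by
        ext a
        rfl }

/-- Localisation `Hⁿ(Gal(L/K), Lˣ) ⟶ Hⁿ(Gal(L/K), (L ⊗[K] A)ˣ)`. -/
noncomputable def locH (A : Type) [CommRing A] [Algebra K A] (n : ℕ) :
    groupCohomology (Rep.ofAlgebraAutOnUnits K L) n ⟶ groupCohomology (JRep K L A) n :=
  groupCohomology.map (MonoidHom.id (L ≃ₐ[K] L)) (LxToJ K L A) n

end localobjects

/-- **(G-iv) No single support** (reciprocity, tame form).  `K ∋ ζ_p`, `L/K` Galois of `p`-power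
degree.  A class `x ∈ H²(Gal(L/K), Lˣ)` that is locally trivial at every place `(q, 𝔪)` of `K`
other than `(q₀, 𝔪₀)` is locally trivial at `(q₀, 𝔪₀)` too. -/
def NoSingleSupport (p : ℕ) : Prop :=
  ∀ (K L : Type) [Field K] [NumberField K] [Field L] [NumberField L] [Algebra K L] [IsGalois K L],
    p.Prime → p ≠ 2 → (∃ ζ : K, IsPrimitiveRoot ζ p) → (∃ n : ℕ, Module.finrank K L = p ^ n) →
    ∀ (x : groupCohomology (Rep.ofAlgebraAutOnUnits K L) 2)
      (q₀ : Nat.Primes) (𝔪₀ : Ideal (Ksemi K q₀)), 𝔪₀.IsMaximal →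
      (∀ (q : Nat.Primes) (𝔪 : Ideal (Ksemi K q)), 𝔪.IsMaximal →
        ¬ (∃ h : q = q₀, h ▸ 𝔪 = 𝔪₀) → locH K L (Kloc K q 𝔪) 2 x = 0) →
      locH K L (Kloc K q₀ 𝔪₀) 2 x = 0

/-- **Hasse principle for `H²(Gal(L/K), Lˣ)`** (consequence of (G-i); stated here because Middle's
`HBN-inj` and the proof of (G-iv) both use it): a class that is locally trivial at every place of
`K` is trivial. -/
def HasseH2 (p : ℕ) : Prop :=
  ∀ (K L : Type) [Field K] [NumberField K] [Field L] [NumberField L] [Algebra K L] [IsGalois K L],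
    p.Prime → p ≠ 2 → (∃ ζ : K, IsPrimitiveRoot ζ p) → (∃ n : ℕ, Module.finrank K L = p ^ n) →
    ∀ (x : groupCohomology (Rep.ofAlgebraAutOnUnits K L) 2),
      (∀ (q : Nat.Primes) (𝔪 : Ideal (Ksemi K q)), 𝔪.IsMaximal →
        locH K L (Kloc K q 𝔪) 2 x = 0) → x = 0

end Fermat.Agent.S55.Global.Blocks3
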