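import Mathlib

/-!
# S55 / Global / G.semilocal.valued (V2): finite extensions of a local field are local fields

(LF) := `[NontriviallyNormedField F] [IsUltrametricDist F] [ProperSpace F]` (see
`S55/Local/Basic.lean`).  For a field `E` with `[Algebra F E] [FiniteDimensional F E]` we provide,
as reducible definitions / theorems to be installed with `letI` / `haveI`:

```
letI := nontriviallyNormedFieldExt F E
letI := normedAlgebraExt F E
haveI := isUltrametricDistExt F E
haveI := properSpaceExt F E
```
after which `E` is (LF), `NormedAlgebra F E` holds, `‖algebraMap F E x‖ = ‖x‖`, and every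
`σ : E ≃ₐ[F] E` is an isometry.
-/

set_option autoImplicit false

namespace Fermat.Agent.S55.Global.FiniteExtLF

variable (F : Type*) [NontriviallyNormedField F] [IsUltrametricDist F] [ProperSpace F]
  (E : Type*) [Field E] [Algebra F E] [FiniteDimensional F E]

/-- The spectral norm makes `E` a nontrivially normed field. -/
@[reducible] noncomputable def nontriviallyNormedFieldExt : NontriviallyNormedField E :=
  spectralNorm.nontriviallyNormedField F E

/-- `E` is a normed `F`-algebra for the spectral norm. -/
@[reducible] noncomputable def normedAlgebraExt :
    letI := nontriviallyNormedFieldExt F E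
    NormedAlgebra F E :=
  spectralNorm.normedAlgebra F E

theorem norm_def (x : E) :
    letI := nontriviallyNormedFieldExt F E
    ‖x‖ = spectralNorm F E x := rfl

theorem isUltrametricDistExt :
    letI := nontriviallyNormedFieldExt F E
    IsUltrametricDist E :=
  letI := nontriviallyNormedFieldExt F E
  letI := normedAlgebraExt F E
  IsUltrametricDist.of_normedAlgebra F

theorem properSpaceExt :
    letI := nontriviallyNormedFieldExt F E
    ProperSpace E :=
  letI := nontriviallyNormedFieldExt F E
  letI := normedAlgebraExt F E
  FiniteDimensional.proper F E

theorem norm_algebraMap (x : F) :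
    letI := nontriviallyNormedFieldExt F E
    ‖algebraMap F E x‖ = ‖x‖ :=
  spectralNorm_extends x

/-- `F`-automorphisms of `E` are isometries. -/
theorem norm_algEquiv (σ : E ≃ₐ[F] E) (x : E) :
    letI := nontriviallyNormedFieldExt F E
    ‖σ x‖ = ‖x‖ :=
  (spectralNorm_eq_of_equiv σ x).symm

/-- Same for automorphisms over an intermediate field. -/
theorem norm_algEquiv_tower (M : Type*) [Field M] [Algebra F M] [Algebra M E] [IsScalarTower F M E]
    (σ : E ≃ₐ[M] E) (x : E) :
    letI := nontriviallyNormedFieldExt F E
    ‖σ x‖ = ‖x‖ :=
  norm_algEquiv F E (σ.restrictScalars F) x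

/-- Uniqueness: any normed-field structure on `E` making it a normed `F`-algebra has the
spectral norm. -/
theorem norm_unique (E' : Type*) [NormedField E'] [NormedAlgebra F E'] [FiniteDimensional F E']
    (x : E') : ‖x‖ = spectralNorm F E' x :=
  NormedAlgebra.norm_eq_spectralNorm F x

example : True := by
  letI := nontriviallyNormedFieldExt F E
  letI := normedAlgebraExt F E
  haveI := isUltrametricDistExt F E
  haveI := properSpaceExt F E
  have : CompleteSpace E := inferInstance
  trivial

end Fermat.Agent.S55.Global.FiniteExtLF
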