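import Mathlib

/-!
# Semilocal cohomology (abstract half of G.semilocal)

Abstract setting: a finite group `G` acts on a commutative ring `B`; `D ≤ G` acts on a commutative
ring `E`; `π : B →+* E` is `D`-equivariant and `b ↦ (g ↦ π (g • b))` identifies `B` with the ring of
`D`-equivariant functions `G → E` (this is what CRT + transitivity give for `B = L ⊗[K] F`).

Exports: `Bˣ ≅ Coind_D^G Eˣ` in `Rep ℤ G`, Shapiro, Hilbert 90, norm comparison.
-/

set_option autoImplicit false
set_option linter.unusedSectionVars false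
set_option linter.style.haveILetI false

namespace Fermat.Agent.S55.Global.SemilocalCoh

open CategoryTheory CategoryTheory.Limits groupCohomology

section Setting

variable {G : Type} [Group G] {B : Type} [CommRing B] [MulSemiringAction G B]
  (D : Subgroup G) {E : Type} [CommRing E] [MulSemiringAction D E] (π : B →+* E)

/-- The semilocal datum: `π` is `D`-equivariant and `b ↦ (g ↦ π (g • b))` identifies `B`
with the ring of `D`-equivariant functions `G → E`. -/
structure IsSemilocal : Prop where
  equivariant : ∀ (d : D) (b : B), π ((d : G) • b) = d • π b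
  injective : ∀ b b' : B, (∀ g : G, π (g • b) = π (g • b')) → b = b'
  surjective : ∀ f : G → E, (∀ (d : D) (g : G), f ((d : G) * g) = d • f g) →
    ∃ b : B, ∀ g, π (g • b) = f g

variable {D π}

lemma IsSemilocal.isUnit (h : IsSemilocal D π) (b : B) (hb : ∀ g : G, IsUnit (π (g • b))) :
    IsUnit b := by
  classical
  choose u hu using hb
  obtain ⟨b', hb'⟩ := h.surjective (fun g => ((u g)⁻¹ : Eˣ)) (by
    intro d g
    have h1 : ((u ((d : G) * g) : Eˣ) : E) = d • ((u g : Eˣ) : E) := by
      rw [hu, hu, mul_smul, h.equivariant]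
    have h3 : d • (((u g)⁻¹ : Eˣ) : E) * ((u ((d : G) * g) : Eˣ) : E) = 1 := by
      rw [h1, ← smul_mul', Units.inv_mul, smul_one]
    exact (Units.inv_eq_of_mul_eq_one_left h3))
  refine IsUnit.of_mul_eq_one b' (h.injective _ _ fun g => ?_)
  rw [smul_mul', map_mul, hb', ← hu, smul_one, map_one]
  exact Units.mul_inv _

end Setting

section Units

variable {G : Type} [Group G] {B : Type} [CommRing B] [MulSemiringAction G B]
  {D : Subgroup G} {E : Type} [CommRing E] [MulSemiringAction D E] {π : B →+* E}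
  [MulDistribMulAction G Bˣ] [MulDistribMulAction D Eˣ]

/-- The comparison map on units, as an additive hom into functions. -/
def unitsFun (π : B →+* E) : Additive Bˣ →+ (G → Additive Eˣ) where
  toFun a g := Additive.ofMul (Units.map (π : B →* E) (g • Additive.toMul a))
  map_zero' := by
    funext g
    simp
  map_add' a b := by
    funext g
    simp [smul_mul']

lemma unitsFun_apply (a : Additive Bˣ) (g : G) :
    unitsFun π a g = Additive.ofMul (Units.map (π : B →* E) (g • Additive.toMul a)) := rfl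

lemma unitsFun_mem (h : IsSemilocal D π)
    (hB : ∀ (g : G) (u : Bˣ), ((g • u : Bˣ) : B) = g • (u : B))
    (hE : ∀ (d : D) (e : Eˣ), ((d • e : Eˣ) : E) = d • (e : E)) (a : Additive Bˣ) :
    unitsFun π a ∈ Representation.coindV D.subtype (Representation.ofMulDistribMulAction D Eˣ) := by
  intro d g
  simp only [unitsFun_apply, Representation.ofMulDistribMulAction_apply_apply, toMul_ofMul]
  congr 1
  ext
  simp only [Units.coe_map, MonoidHom.coe_coe, hB, hE, Subgroup.subtype_apply]
  rw [mul_smul, h.equivariant]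

/-- The comparison map as a `ℤ`-linear map into the coinduced module. -/
def unitsLin (h : IsSemilocal D π)
    (hB : ∀ (g : G) (u : Bˣ), ((g • u : Bˣ) : B) = g • (u : B))
    (hE : ∀ (d : D) (e : Eˣ), ((d • e : Eˣ) : E) = d • (e : E)) :
    Additive Bˣ →ₗ[ℤ]
      Representation.coindV D.subtype (Representation.ofMulDistribMulAction D Eˣ) where
  toFun a := ⟨unitsFun π a, unitsFun_mem h hB hE a⟩
  map_add' a b := Subtype.ext (map_add (unitsFun π) a b)
  map_smul' n a := Subtype.ext (by
    simp only [eq_intCast, Int.cast_id, SetLike.val_smul]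
    exact map_zsmul (unitsFun π) n a)

lemma unitsLin_apply_coe (h : IsSemilocal D π)
    (hB : ∀ (g : G) (u : Bˣ), ((g • u : Bˣ) : B) = g • (u : B))
    (hE : ∀ (d : D) (e : Eˣ), ((d • e : Eˣ) : E) = d • (e : E)) (a : Additive Bˣ) (g : G) :
    (unitsLin h hB hE a).1 g = Additive.ofMul (Units.map (π : B →* E) (g • Additive.toMul a)) :=
  rfl

lemma unitsLin_bijective (h : IsSemilocal D π)
    (hB : ∀ (g : G) (u : Bˣ), ((g • u : Bˣ) : B) = g • (u : B))
    (hE : ∀ (d : D) (e : Eˣ), ((d • e : Eˣ) : E) = d • (e : E)) :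
    Function.Bijective (unitsLin h hB hE) := by
  constructor
  · intro a b hab
    have h1 : ∀ g : G, π (g • ((Additive.toMul a : Bˣ) : B)) =
        π (g • ((Additive.toMul b : Bˣ) : B)) := by
      intro g
      have := congrArg (fun f => ((Additive.toMul (f.1 g) : Eˣ) : E)) hab
      simpa [unitsLin_apply_coe, hB] using this
    have h2 := h.injective _ _ h1
    exact Additive.toMul.injective (Units.ext h2)
  · intro f
    obtain ⟨b, hb⟩ := h.surjective (fun g => ((Additive.toMul (f.1 g) : Eˣ) : E)) (by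
      intro d g
      have := f.2 d g
      simp only [Subgroup.subtype_apply, Representation.ofMulDistribMulAction_apply_apply] at this
      rw [this, toMul_ofMul, hE])
    have hu : IsUnit b := h.isUnit b fun g => by
      rw [hb]
      exact Units.isUnit _
    refine ⟨Additive.ofMul hu.unit, Subtype.ext (funext fun g => ?_)⟩
    rw [unitsLin_apply_coe]
    apply Additive.toMul.injective
    ext
    simp only [toMul_ofMul, Units.coe_map, MonoidHom.coe_coe, hB, IsUnit.unit_spec, hb]

/-- `Bˣ ≅ Coind_D^G Eˣ` as representations. -/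
noncomputable def unitsEquiv (h : IsSemilocal D π)
    (hB : ∀ (g : G) (u : Bˣ), ((g • u : Bˣ) : B) = g • (u : B))
    (hE : ∀ (d : D) (e : Eˣ), ((d • e : Eˣ) : E) = d • (e : E)) :
    (Representation.ofMulDistribMulAction G Bˣ).Equiv
      (Representation.coind D.subtype (Representation.ofMulDistribMulAction D Eˣ)) :=
  Representation.Equiv.mk (LinearEquiv.ofBijective (unitsLin h hB hE) (unitsLin_bijective h hB hE))
    (by
      intro g
      refine LinearMap.ext fun a => Subtype.ext (funext fun x => ?_)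
      simp only [LinearMap.coe_comp, Function.comp_apply, LinearEquiv.coe_coe,
        LinearEquiv.ofBijective_apply, Representation.coind_apply, unitsLin_apply_coe,
        Representation.ofMulDistribMulAction_apply_apply, toMul_ofMul]
      rw [← mul_smul]
      rfl)

/-- `Bˣ ≅ Coind_D^G Eˣ` in `Rep ℤ G`. -/
noncomputable def unitsIso (h : IsSemilocal D π)
    (hB : ∀ (g : G) (u : Bˣ), ((g • u : Bˣ) : B) = g • (u : B))
    (hE : ∀ (d : D) (e : Eˣ), ((d • e : Eˣ) : E) = d • (e : E)) :
    Rep.ofMulDistribMulAction G Bˣ ≅ Rep.coind D.subtype (Rep.ofMulDistribMulAction D Eˣ) :=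
  Rep.mkIso (unitsEquiv h hB hE)

/-- Shapiro: `Hⁿ(G, Bˣ) ≅ Hⁿ(D, Eˣ)`. -/
noncomputable def shapiroIso (h : IsSemilocal D π)
    (hB : ∀ (g : G) (u : Bˣ), ((g • u : Bˣ) : B) = g • (u : B))
    (hE : ∀ (d : D) (e : Eˣ), ((d • e : Eˣ) : E) = d • (e : E)) (n : ℕ) :
    groupCohomology (Rep.ofMulDistribMulAction G Bˣ) n ≅
      groupCohomology (Rep.ofMulDistribMulAction D Eˣ) n :=
  (groupCohomology.functor ℤ G n).mapIso (unitsIso h hB hE) ≪≫
    groupCohomology.coindIso (Rep.ofMulDistribMulAction D Eˣ) n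

end Units

section H90

variable {F E : Type} [Field F] [Field E] [Algebra F E] [FiniteDimensional F E]
  {D : Type} [Group D] [MulDistribMulAction D Eˣ]

/-- Hilbert 90 for a group `D` identified with `Gal(E/F)`. -/
theorem isZero_H1_of_mulEquiv (e : D ≃* (E ≃ₐ[F] E))
    (he : ∀ (d : D) (x : Eˣ), ((d • x : Eˣ) : E) = e d (x : E)) :
    IsZero (groupCohomology (Rep.ofMulDistribMulAction D Eˣ) 1) := by
  have hsub : Subsingleton (H1 (Rep.ofMulDistribMulAction D Eˣ)) := by
    refine ⟨fun a b => ?_⟩
    suffices h0 : ∀ a : H1 (Rep.ofMulDistribMulAction D Eˣ), a = 0 by rw [h0 a, h0 b]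
    intro a
    refine H1_induction_on a fun x => (H1π_eq_zero_iff _).2 ?_
    let c : D → Eˣ := x.1
    have hx : IsMulCocycle₁ c := isMulCocycle₁_of_mem_cocycles₁ _ x.2
    have hsmul : ∀ (d : D) (y : Eˣ), d • y = Units.map (e d : E →* E) y := by
      intro d y
      ext
      rw [he]
      rfl
    let f : (E ≃ₐ[F] E) → Eˣ := fun σ => c (e.symm σ)
    have hf : IsMulCocycle₁ f := by
      intro σ τ
      have := hx (e.symm σ) (e.symm τ)
      simp only [f, map_mul]
      rw [this, hsmul]
      simp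
    obtain ⟨β, hβ⟩ := isMulCoboundary₁_of_isMulCocycle₁_of_aut_to_units f hf
    refine (coboundariesOfIsMulCoboundary₁ (G := D) (M := Eˣ) (f := c) ?_).2
    refine ⟨β, fun d => ?_⟩
    have := hβ (e d)
    simp only [f, MulEquiv.symm_apply_apply, AlgEquiv.smul_units_def] at this
    rw [hsmul]
    exact this
  exact ModuleCat.isZero_of_subsingleton _

end H90

section Norm

variable {G : Type} [Group G] [Fintype G] {B : Type} [CommRing B] [MulSemiringAction G B]
  {D : Subgroup G} [Fintype D] {E : Type} [CommRing E] [MulSemiringAction D E] {π : B →+* E}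

variable (D) in
/-- The `D`-norm on `E`. -/
def normD (y : E) : E := ∏ d : D, d • y

lemma normD_mul (y z : E) : normD D (y * z) = normD D y * normD D z := by
  simp [normD, smul_mul', Finset.prod_mul_distrib]

lemma normD_one : normD D (1 : E) = 1 := by simp [normD]

lemma normD_prod {ι : Type} (s : Finset ι) (y : ι → E) :
    normD D (∏ i ∈ s, y i) = ∏ i ∈ s, normD D (y i) := by
  classical
  induction s using Finset.induction_on with
  | empty => simp [normD_one]
  | insert a s ha ih => rw [Finset.prod_insert ha, Finset.prod_insert ha, normD_mul, ih]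

/-- Decomposition of a product over `G` along left cosets of `D`. -/
lemma prod_eq_prod_quotient_prod [Fintype (G ⧸ D)] {M : Type} [CommMonoid M] (ψ : G → M) :
    ∏ g : G, ψ g = ∏ q : G ⧸ D, ∏ d : D, ψ (Quotient.out q * (d : G)) := by
  classical
  rw [← Fintype.prod_fiberwise (fun g : G => (QuotientGroup.mk g : G ⧸ D)) ψ]
  refine Finset.prod_congr rfl fun q _ => ?_
  symm
  refine Fintype.prod_bijective
    (fun d : D => (⟨Quotient.out q * (d : G), by
      show ((Quotient.out q * (d : G) : G) : G ⧸ D) = q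
      rw [QuotientGroup.mk_mul_of_mem _ d.2]
      exact Quotient.out_eq' q⟩ : {g : G // (QuotientGroup.mk g : G ⧸ D) = q})) ?_ _ _
    (fun d => rfl)
  constructor
  · intro d d' hdd'
    have := congrArg Subtype.val hdd'
    simp only [mul_right_inj] at this
    exact Subtype.ext this
  · rintro ⟨g, hg⟩
    have hmem : (Quotient.out q)⁻¹ * g ∈ D := by
      rw [← QuotientGroup.eq]
      rw [hg]
      exact Quotient.out_eq' q
    exact ⟨⟨_, hmem⟩, Subtype.ext (by simp)⟩

/-- `π (N_G b)` is the `D`-norm of a product of values `π (g • b)`. -/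
lemma map_prod_smul_eq_normD [Fintype (G ⧸ D)] (h : IsSemilocal D π) (b : B) :
    π (∏ g : G, g • b) = normD D (∏ q : G ⧸ D, π ((Quotient.out q)⁻¹ • b)) := by
  classical
  let φ : G → E := fun g => π (g • b)
  have hφ : ∀ (d : D) (g : G), φ ((d : G) * g) = d • φ g := by
    intro d g
    simp only [φ, mul_smul, h.equivariant]
  rw [map_prod]
  change ∏ g : G, φ g = _
  rw [normD_prod]
  have h1 : ∏ g : G, φ g = ∏ g : G, φ g⁻¹ :=
    (Fintype.prod_equiv (Equiv.inv G) _ _ fun g => rfl).symm
  rw [h1, prod_eq_prod_quotient_prod (D := D) (fun g => φ g⁻¹)]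
  refine Finset.prod_congr rfl fun q _ => ?_
  have h2 : ∀ d : D, φ (Quotient.out q * (d : G))⁻¹ = d⁻¹ • φ (Quotient.out q)⁻¹ := by
    intro d
    rw [mul_inv_rev, ← hφ]
    rfl
  simp only [h2, normD]
  exact Fintype.prod_equiv (Equiv.inv D) _ _ fun d => rfl

lemma smul_prod_smul (b : B) (g : G) : g • (∏ x : G, x • b) = ∏ x : G, x • b := by
  rw [Finset.smul_prod']
  simp only [← mul_smul]
  exact Fintype.prod_equiv (Equiv.mulLeft g) _ _ fun x => rfl

lemma isUnit_smul_unit (d : D) (e : Eˣ) : IsUnit (d • (e : E)) := by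
  refine IsUnit.of_mul_eq_one (d • ((e⁻¹ : Eˣ) : E)) ?_
  rw [← smul_mul', Units.mul_inv, smul_one]

/-- **Norm comparison.** A `G`-invariant element `x` of `B` is a `G`-norm of a unit of `B` iff
`π x` is a `D`-norm of a unit of `E`. -/
theorem exists_norm_iff (h : IsSemilocal D π) (x : B) (hx : ∀ g : G, g • x = x) :
    (∃ b : Bˣ, ∏ g : G, g • (b : B) = x) ↔ ∃ e : Eˣ, normD D (e : E) = π x := by
  classical
  haveI : Fintype (G ⧸ D) := Fintype.ofFinite _
  constructor
  · rintro ⟨b, rfl⟩
    rw [map_prod_smul_eq_normD h]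
    have hu : IsUnit (∏ q : G ⧸ D, π ((Quotient.out q)⁻¹ • (b : B))) := by
      rw [← map_prod]
      refine IsUnit.map π ?_
      have : (∏ q : G ⧸ D, (Quotient.out q)⁻¹ • (b : B)) *
          (∏ q : G ⧸ D, (Quotient.out q)⁻¹ • ((b⁻¹ : Bˣ) : B)) = 1 := by
        rw [← Finset.prod_mul_distrib]
        refine Finset.prod_eq_one fun q _ => ?_
        rw [← smul_mul', Units.mul_inv, smul_one]
      exact IsUnit.of_mul_eq_one _ this
    exact ⟨hu.unit, by rw [IsUnit.unit_spec]⟩
  · rintro ⟨e, he⟩
    let f : G → E := fun g => if hg : g ∈ D then (⟨g, hg⟩ : D) • (e : E) else 1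
    have hf : ∀ (d : D) (g : G), f ((d : G) * g) = d • f g := by
      intro d g
      by_cases hg : g ∈ D
      · have hdg : (d : G) * g ∈ D := D.mul_mem d.2 hg
        simp only [f, dif_pos hg, dif_pos hdg, ← mul_smul]
        rfl
      · have hdg : ¬ (d : G) * g ∈ D := fun hdg => hg ((D.mul_mem_cancel_left d.2).1 hdg)
        simp only [f, dif_neg hg, dif_neg hdg, smul_one]
    obtain ⟨b, hb⟩ := h.surjective f hf
    have hbu : IsUnit b := h.isUnit b fun g => by
      rw [hb]
      by_cases hg : g ∈ D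
      · simp only [f, dif_pos hg]
        exact isUnit_smul_unit _ e
      · simp only [f, dif_neg hg]
        exact isUnit_one
    refine ⟨hbu.unit, h.injective _ _ fun g => ?_⟩
    rw [IsUnit.unit_spec, smul_prod_smul, hx, ← he, map_prod]
    simp only [hb]
    have h1 : ∏ g : G, f g = ∏ g ∈ Finset.univ.filter (fun g : G => g ∈ D), f g := by
      symm
      refine Finset.prod_subset (Finset.filter_subset _ _) fun g _ hg => ?_
      have hg' : g ∉ D := by simpa using hg
      simp only [f, dif_neg hg']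
    rw [h1, Finset.prod_subtype (Finset.univ.filter (fun g : G => g ∈ D)) (p := fun g => g ∈ D)
      (by simp)]
    refine Finset.prod_congr rfl fun d _ => ?_
    simp only [f, dif_pos d.2]

end Norm

section Galois

variable {G : Type} [Group G] {B : Type} [CommRing B] [MulSemiringAction G B]
  {D : Subgroup G} {F E : Type} [Field F] [Field E] [Algebra F E] [FiniteDimensional F E]
  [MulSemiringAction D E] {π : B →+* E}
  [MulDistribMulAction G Bˣ] [MulDistribMulAction D Eˣ]

/-- Transport along an identification `D ≃* Gal(E/F)`: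
`Hⁿ(D, Eˣ) ≅ Hⁿ(Gal(E/F), Eˣ)` (Mathlib's `Rep.ofAlgebraAutOnUnits`). -/
noncomputable def galoisIso (e : D ≃* (E ≃ₐ[F] E))
    (he : ∀ (d : D) (x : Eˣ), ((d • x : Eˣ) : E) = e d (x : E)) (n : ℕ) :
    groupCohomology (Rep.ofMulDistribMulAction D Eˣ) n ≅
      groupCohomology (Rep.ofAlgebraAutOnUnits F E) n :=
  groupCohomology.mapIso (A := Rep.ofAlgebraAutOnUnits F E)
    (B := Rep.ofMulDistribMulAction D Eˣ) e (LinearEquiv.refl ℤ (Additive Eˣ))
    (by
      intro d
      refine LinearMap.ext fun a => ?_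
      have h1 : ∀ y : Eˣ, d • y = Units.map ((e d : E ≃ₐ[F] E) : E →* E) y := fun y =>
        Units.ext (he d y)
      exact congrArg Additive.ofMul (h1 (Additive.toMul a))) n

/-- **Semilocal Shapiro + Galois**: `Hⁿ(G, Bˣ) ≅ Hⁿ(Gal(E/F), Eˣ)`. -/
noncomputable def shapiroGaloisIso (h : IsSemilocal D π)
    (hB : ∀ (g : G) (u : Bˣ), ((g • u : Bˣ) : B) = g • (u : B))
    (hE : ∀ (d : D) (e : Eˣ), ((d • e : Eˣ) : E) = d • (e : E))
    (e : D ≃* (E ≃ₐ[F] E)) (hDE : ∀ (d : D) (y : E), d • y = e d y) (n : ℕ) :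
    groupCohomology (Rep.ofMulDistribMulAction G Bˣ) n ≅
      groupCohomology (Rep.ofAlgebraAutOnUnits F E) n :=
  shapiroIso h hB hE n ≪≫ galoisIso e (fun d x => by rw [hE, hDE]) n

/-- **Semilocal Hilbert 90**: `H¹(G, Bˣ) = 0`. -/
theorem isZero_H1 (h : IsSemilocal D π)
    (hB : ∀ (g : G) (u : Bˣ), ((g • u : Bˣ) : B) = g • (u : B))
    (hE : ∀ (d : D) (e : Eˣ), ((d • e : Eˣ) : E) = d • (e : E))
    (e : D ≃* (E ≃ₐ[F] E)) (hDE : ∀ (d : D) (y : E), d • y = e d y) :
    IsZero (groupCohomology (Rep.ofMulDistribMulAction G Bˣ) 1) :=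
  (isZero_H1_of_mulEquiv e (fun d x => by rw [hE, hDE])).of_iso (shapiroIso h hB hE 1)

end Galois

end Fermat.Agent.S55.Global.SemilocalCoh
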