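/-
S55 / Global / G.semilocal — DECOMPOSITION half for `B = L ⊗[K] F` (helper23).

`L/K` a finite Galois extension with group `G` (Mathlib `IsGaloisGroup G K L`, `G` finite), `F` ANY
field extension of `K` (e.g. `F = v.adicCompletion K`), `B := L ⊗[K] F` with `G` acting through the
left factor (any `MulSemiringAction G (L ⊗[K] F)` with `g • (l ⊗ₜ f) = (g • l) ⊗ₜ f`, e.g. the one
of `Global/Objects.lean`).  `F`-algebra structure on `B`: Mathlib `Algebra.TensorProduct.rightAlgebra`.

Exports (ns `Fermat.Agent.S55.Global.SemilocalTensor`):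
* `isArtinianRing_tensor`, `isReduced_tensor` : `L ⊗[K] F` is a reduced Artinian ring;
* `exists_of_invariant` : `G`-invariants of `L ⊗[K] F` are `1 ⊗ F`;
* for every maximal ideal `m` of `B`, `D := MulAction.stabilizer G m`, `E := B ⧸ m`
  (`D` acts on `E` by `SemilocalDecomp.stabQuotAction m`):
  `exists_smul_eq`, `phi_injective`, `exists_phi_eq` (= helper1's `IsSemilocal`),
  `faithful_stab`, `isGaloisGroup_stab : IsGaloisGroup D F E`, `card_stab : Nat.card D = finrank F E`.
-/
import Mathlib
import Fermat.Agent.S55.Global.SemilocalDecomp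

set_option linter.unusedSectionVars false
set_option linter.style.haveILetI false

namespace Fermat.Agent.S55.Global.SemilocalTensor

open scoped TensorProduct Pointwise
open Fermat.Agent.S55.Global.SemilocalDecomp

attribute [local instance] Algebra.TensorProduct.rightAlgebra
attribute [local instance] stabQuotAction

section Ring

variable (K L F : Type*) [Field K] [Field L] [Field F] [Algebra K L] [Algebra K F]
  [FiniteDimensional K L]

theorem isArtinianRing_tensor : IsArtinianRing (L ⊗[K] F) := by
  have h1 : IsArtinianRing (F ⊗[K] L) := by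
    have : Module.Finite F (F ⊗[K] L) := inferInstance
    exact IsArtinianRing.of_finite F _
  exact (Algebra.TensorProduct.comm K F L).toRingEquiv.surjective.isArtinianRing

theorem isReduced_tensor [Algebra.IsSeparable K L] : IsReduced (L ⊗[K] F) := by
  have h1 : IsReduced (F ⊗[K] L) := by
    have : Algebra.FormallyUnramified K L := Algebra.FormallyUnramified.of_isSeparable K L
    have : Algebra.FormallyUnramified F (F ⊗[K] L) := inferInstance
    have : Algebra.EssFiniteType F (F ⊗[K] L) := inferInstance
    exact Algebra.FormallyUnramified.isReduced_of_field F (F ⊗[K] L)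
  exact isReduced_of_injective (Algebra.TensorProduct.comm K L F).toRingEquiv.toRingHom
    (Algebra.TensorProduct.comm K L F).injective

end Ring

section Invariants

variable {K L F G : Type*} [Field K] [Field L] [Field F] [Algebra K L] [Algebra K F]
  [Group G] [MulSemiringAction G L] [SMulCommClass G K L] [Algebra.IsInvariant K L G]
  [MulSemiringAction G (L ⊗[K] F)]
  (hact : ∀ (g : G) (l : L) (f : F), g • (l ⊗ₜ[K] f) = (g • l) ⊗ₜ[K] f)

include hact in
omit [Algebra.IsInvariant K L G] in
/-- Semilinearity of the coordinates with respect to an `L`-basis `1 ⊗ b i`. -/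
theorem repr_smul {ι : Type*} (b : Module.Basis ι K F) (g : G) (x : L ⊗[K] F) (i : ι) :
    (Algebra.TensorProduct.basis L b).repr (g • x) i
      = g • ((Algebra.TensorProduct.basis L b).repr x i) := by
  induction x using TensorProduct.induction_on with
  | zero => simp
  | tmul l f =>
    rw [hact, Algebra.TensorProduct.basis_repr_tmul, Algebra.TensorProduct.basis_repr_tmul]
    simp only [Finsupp.smul_apply, Finsupp.mapRange_apply, smul_eq_mul, smul_mul',
      smul_algebraMap]
  | add x y hx hy =>
    simp only [smul_add, map_add, Finsupp.add_apply, hx, hy]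

include hact in
/-- The `G`-invariants of `L ⊗[K] F` are `1 ⊗ F`. -/
theorem exists_of_invariant (x : L ⊗[K] F) (hx : ∀ g : G, g • x = x) :
    ∃ a : F, (1 : L) ⊗ₜ[K] a = x := by
  classical
  let b := Module.Free.chooseBasis K F
  let bL := Algebra.TensorProduct.basis L b
  have hcoord : ∀ i, ∃ k : K, algebraMap K L k = bL.repr x i := by
    intro i
    apply Algebra.IsInvariant.isInvariant (A := K) (B := L) (G := G)
    intro g
    rw [← repr_smul hact b g x i, hx]
  choose k hk using hcoord
  refine ⟨∑ i ∈ (bL.repr x).support, k i • b i, ?_⟩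
  conv_rhs => rw [← bL.linearCombination_repr x]
  rw [Finsupp.linearCombination_apply, Finsupp.sum, TensorProduct.tmul_sum]
  refine Finset.sum_congr rfl fun i _ => ?_
  rw [← hk i, Algebra.TensorProduct.basis_apply, TensorProduct.smul_tmul', ← TensorProduct.smul_tmul,
    Algebra.algebraMap_eq_smul_one, smul_assoc, one_smul]

end Invariants

section Main

variable {K L F G : Type*} [Field K] [Field L] [Field F] [Algebra K L] [Algebra K F]
  [Group G] [Finite G] [MulSemiringAction G L] [IsGaloisGroup G K L]
  [MulSemiringAction G (L ⊗[K] F)]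
  (hact : ∀ (g : G) (l : L) (f : F), g • (l ⊗ₜ[K] f) = (g • l) ⊗ₜ[K] f)

/-- The ring homomorphism `F → L ⊗[K] F`, `a ↦ 1 ⊗ a`. -/
noncomputable def inclF (K L F : Type*) [Field K] [Field L] [Field F] [Algebra K L] [Algebra K F] :
    F →+* L ⊗[K] F :=
  (Algebra.TensorProduct.includeRight : F →ₐ[K] L ⊗[K] F).toRingHom

omit [Finite G] [IsGaloisGroup G K L] in
theorem inclF_apply (a : F) : inclF K L F a = (1 : L) ⊗ₜ[K] a := rfl

include hact in
omit [Finite G] [IsGaloisGroup G K L] in
theorem smul_inclF (g : G) (a : F) : g • inclF K L F a = inclF K L F a := by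
  rw [inclF_apply, hact, smul_one]

include hact in
omit [Finite G] in
theorem inclF_invariant (x : L ⊗[K] F) (hx : ∀ g : G, g • x = x) :
    ∃ a : F, inclF K L F a = x := by
  have := IsGaloisGroup.commutes (G := G) (A := K) (B := L)
  have := IsGaloisGroup.isInvariant (G := G) (A := K) (B := L)
  exact exists_of_invariant hact x hx

variable (G) in
include G in
theorem isArtinianRing_tensor' : IsArtinianRing (L ⊗[K] F) := by
  have := IsGaloisGroup.finiteDimensional G K L
  exact isArtinianRing_tensor K L F

variable (G) in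
include G in
theorem isReduced_tensor' : IsReduced (L ⊗[K] F) := by
  have := IsGaloisGroup.finiteDimensional G K L
  have := IsGaloisGroup.isGalois G K L
  exact isReduced_tensor K L F

include hact in
/-- `G` acts transitively on the maximal ideals of `L ⊗[K] F`. -/
theorem exists_smul_eq (m m' : Ideal (L ⊗[K] F)) [m.IsMaximal] [m'.IsMaximal] :
    ∃ g : G, m' = g • m :=
  SemilocalDecomp.exists_smul_eq (inclF K L F) (smul_inclF hact) (inclF_invariant hact) m m'

include hact in
/-- `b ↦ (g ↦ π (g • b))` is injective. -/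
theorem phi_injective (m : Ideal (L ⊗[K] F)) [m.IsMaximal] :
    Function.Injective (fun (b : L ⊗[K] F) (g : G) => Ideal.Quotient.mk m (g • b)) := by
  have := isArtinianRing_tensor' G (K := K) (L := L) (F := F)
  have := isReduced_tensor' G (K := K) (L := L) (F := F)
  exact SemilocalDecomp.phi_injective (inclF K L F) (smul_inclF hact) (inclF_invariant hact) m

include hact in
/-- Every `D`-equivariant function `G → E` is `g ↦ π (g • b)`. -/
theorem exists_phi_eq (m : Ideal (L ⊗[K] F)) [m.IsMaximal] (f : G → (L ⊗[K] F) ⧸ m)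
    (hf : ∀ (d : MulAction.stabilizer G m) (g : G), f (d.1 * g) = d • f g) :
    ∃ b : L ⊗[K] F, ∀ g : G, Ideal.Quotient.mk m (g • b) = f g := by
  have := isArtinianRing_tensor' G (K := K) (L := L) (F := F)
  exact SemilocalDecomp.exists_phi_eq (inclF K L F) (smul_inclF hact) (inclF_invariant hact) m f hf

include hact in
/-- The stabiliser `D` of `m` acts faithfully on `E = (L ⊗[K] F) ⧸ m`. -/
theorem faithful_stab (m : Ideal (L ⊗[K] F)) [hm : m.IsMaximal] :
    FaithfulSMul (MulAction.stabilizer G m) ((L ⊗[K] F) ⧸ m) := by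
  have hfaith : FaithfulSMul G L := IsGaloisGroup.faithful K
  refine ⟨fun {d d'} h => ?_⟩
  have : Nontrivial ((L ⊗[K] F) ⧸ m) := Ideal.Quotient.nontrivial_iff.mpr hm.ne_top
  let j : L →+* (L ⊗[K] F) ⧸ m :=
    (Ideal.Quotient.mk m).comp (Algebra.TensorProduct.includeLeft : L →ₐ[K] L ⊗[K] F).toRingHom
  have hj : Function.Injective j := j.injective
  apply Subtype.ext
  apply hfaith.eq_of_smul_eq_smul
  intro l
  apply hj
  have h1 := h (Ideal.Quotient.mk m (l ⊗ₜ[K] (1 : F)))
  rw [stabQuotAction_mk, stabQuotAction_mk, hact, hact] at h1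
  exact h1

include hact in
/-- **`E/F` is Galois with group `D`**: the stabiliser `D` of a maximal ideal `m` of `L ⊗[K] F`
is a Galois group (Mathlib `IsGaloisGroup`) for `E = (L ⊗[K] F) ⧸ m` over `F`. -/
theorem isGaloisGroup_stab (m : Ideal (L ⊗[K] F)) [hm : m.IsMaximal] :
    letI := Ideal.Quotient.field m
    IsGaloisGroup (MulAction.stabilizer G m) F ((L ⊗[K] F) ⧸ m) := by
  letI := Ideal.Quotient.field m
  have := isArtinianRing_tensor' G (K := K) (L := L) (F := F)
  have := isReduced_tensor' G (K := K) (L := L) (F := F)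
  have halg : ∀ a : F, algebraMap F ((L ⊗[K] F) ⧸ m) a = Ideal.Quotient.mk m (inclF K L F a) :=
    fun a => rfl
  refine ⟨faithful_stab hact m, ⟨fun d a e => ?_⟩, ⟨fun e he => ?_⟩⟩
  · rw [Algebra.smul_def, Algebra.smul_def, smul_mul', halg, stabQuotAction_mk, smul_inclF hact]
  · obtain ⟨a, ha⟩ := SemilocalDecomp.exists_of_fixed (inclF K L F) (smul_inclF hact)
      (inclF_invariant hact) m e he
    exact ⟨a, by rw [halg, ha]⟩

include hact in
/-- `|D| = [E : F]`. -/
theorem card_stab (m : Ideal (L ⊗[K] F)) [hm : m.IsMaximal] :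
    Nat.card (MulAction.stabilizer G m) = Module.finrank F ((L ⊗[K] F) ⧸ m) := by
  letI := Ideal.Quotient.field m
  have := isGaloisGroup_stab hact m
  exact IsGaloisGroup.card_eq_finrank (MulAction.stabilizer G m) F ((L ⊗[K] F) ⧸ m)

end Main

end Fermat.Agent.S55.Global.SemilocalTensor
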