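/-
S55 / Global / G.semilocal.h3 (helper49) — SEMILOCAL SHAPIRO ON `Objects.JRep` AND `H³ = 0`.

This instantiates helper1's abstract `SemilocalCoh.shapiroGaloisIso` with helper23's
`SemilocalTensor` datum on helper78's module `JRep K L F = (L ⊗[K] F)ˣ` (`Gal(L/K)` acting through
the left factor), and feeds in the Local block:

* `isSemilocal K L F m`  : `IsSemilocal (Stab m) (Ideal.Quotient.mk m)` for `m` maximal in `L ⊗[K] F`
  (`F` ANY field over `K`);
* `stabEquiv K L F m`    : `Stab m ≃* Gal(E/F)`, `E = (L ⊗[K] F) ⧸ m`; `finiteDimensional_quot`,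
  `isGalois_quot`;
* `semilocalIso K L F m n` : `Hⁿ(Gal(L/K), JRep K L F) ≅ Hⁿ(Gal(E/F), Eˣ)`
  (Mathlib `Rep.ofAlgebraAutOnUnits F E`);
* for `F` a local field ((LF) instances, `Local/Basic.lean`):
  `isZero_H3_JRep  : Local.Reduction2.H3Vanish → IsZero (H³(Gal(L/K), JRep K L F))`,
  `card_H2_JRep    : Local.Blocks.H2Card → #H²(Gal(L/K), JRep K L F) = #Stab m`,
  `isAddCyclic_H2_JRep : Local.Blocks.H2Cyclic → IsAddCyclic (H²(Gal(L/K), JRep K L F))`;
* for `F = Blocks3.Kloc K q 𝔪` (the completion of `K` at the place `𝔪 | q`, a finite extension of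
  `ℚ_[q]`, made (LF) by `FiniteExtLF`):
  `isZero_H3_Jloc : H3Vanish → IsZero (H³(Gal(L/K), Blocks3.Jloc K L q 𝔪))`, `card_H2_Jloc`,
  `isAddCyclic_H2_Jloc`.
-/
import Mathlib
import Fermat.Agent.S55.Global.Objects
import Fermat.Agent.S55.Global.SemilocalCoh
import Fermat.Agent.S55.Global.SemilocalTensor
import Fermat.Agent.S55.Global.FiniteExtLF
import Fermat.Agent.S55.Global.Blocks3
import Fermat.Agent.S55.Local.Reduction2

set_option autoImplicit false
set_option linter.unusedSectionVars false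
set_option linter.style.haveILetI false

open TensorProduct CategoryTheory CategoryTheory.Limits
open scoped Pointwise

namespace Fermat.Agent.S55.Global.SemilocalH3

open Fermat.Agent.S55.Global.Objects
open Fermat.Agent.S55.Global.SemilocalDecomp
open Fermat.Agent.S55.Global.SemilocalCoh

attribute [local instance] Algebra.TensorProduct.rightAlgebra
attribute [local instance] stabQuotAction

section Field

variable (K L : Type) [Field K] [NumberField K] [Field L] [NumberField L] [Algebra K L]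
  [IsGalois K L]
variable (F : Type) [Field F] [Algebra K F]

/-- An extension of number fields is finite. -/
theorem finiteDimensional_nf (K L : Type) [Field K] [NumberField K] [Field L] [NumberField L]
    [Algebra K L] : FiniteDimensional K L :=
  Module.Finite.of_restrictScalars_finite ℚ K L

attribute [local instance] finiteDimensional_nf

theorem hact (g : L ≃ₐ[K] L) (l : L) (f : F) :
    g • (l ⊗ₜ[K] f : L ⊗[K] F) = (g • l) ⊗ₜ[K] f := rfl

variable (m : Ideal (L ⊗[K] F)) [hm : m.IsMaximal]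

/-- The semilocal datum for `B = L ⊗[K] F`, `E = B ⧸ m`, `D = Stab(m)`. -/
theorem isSemilocal :
    IsSemilocal (MulAction.stabilizer (L ≃ₐ[K] L) m) (Ideal.Quotient.mk m) where
  equivariant d b := (stabQuotAction_mk m d b).symm
  injective _ _ h := SemilocalTensor.phi_injective (hact K L F) m (funext h)
  surjective f hf := SemilocalTensor.exists_phi_eq (hact K L F) m f hf

/-- `D = Stab(m) ≃* Gal(E/F)`, `E = (L ⊗[K] F) ⧸ m`. -/
noncomputable def stabEquiv :
    letI := Ideal.Quotient.field m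
    MulAction.stabilizer (L ≃ₐ[K] L) m ≃* (((L ⊗[K] F) ⧸ m) ≃ₐ[F] ((L ⊗[K] F) ⧸ m)) :=
  letI := Ideal.Quotient.field m
  haveI := SemilocalTensor.isGaloisGroup_stab (hact K L F) m
  haveI : FaithfulSMul F ((L ⊗[K] F) ⧸ m) :=
    (faithfulSMul_iff_algebraMap_injective F _).mpr (algebraMap F ((L ⊗[K] F) ⧸ m)).injective
  IsGaloisGroup.mulEquivAlgEquiv (MulAction.stabilizer (L ≃ₐ[K] L) m) F ((L ⊗[K] F) ⧸ m)

theorem stabEquiv_apply (d : MulAction.stabilizer (L ≃ₐ[K] L) m) (y : (L ⊗[K] F) ⧸ m) :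
    letI := Ideal.Quotient.field m
    stabEquiv K L F m d y = d • y := rfl

theorem finiteDimensional_quot :
    letI := Ideal.Quotient.field m
    FiniteDimensional F ((L ⊗[K] F) ⧸ m) := by
  letI := Ideal.Quotient.field m
  haveI := SemilocalTensor.isGaloisGroup_stab (hact K L F) m
  exact IsGaloisGroup.finiteDimensional (MulAction.stabilizer (L ≃ₐ[K] L) m) F _

theorem isGalois_quot :
    letI := Ideal.Quotient.field m
    IsGalois F ((L ⊗[K] F) ⧸ m) := by
  letI := Ideal.Quotient.field m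
  haveI := SemilocalTensor.isGaloisGroup_stab (hact K L F) m
  exact IsGaloisGroup.isGalois (MulAction.stabilizer (L ≃ₐ[K] L) m) F _

/-- **Semilocal Shapiro + Galois on `Objects.JRep`**:
`Hⁿ(Gal(L/K), (L ⊗[K] F)ˣ) ≅ Hⁿ(Gal(E/F), Eˣ)`, `E = (L ⊗[K] F) ⧸ m`. -/
noncomputable def semilocalIso (n : ℕ) :
    letI := Ideal.Quotient.field m
    groupCohomology (JRep K L F) n ≅
      groupCohomology (Rep.ofAlgebraAutOnUnits F ((L ⊗[K] F) ⧸ m)) n :=
  letI := Ideal.Quotient.field m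
  haveI := finiteDimensional_quot K L F m
  letI : MulDistribMulAction (MulAction.stabilizer (L ≃ₐ[K] L) m) ((L ⊗[K] F) ⧸ m)ˣ :=
    Units.mulDistribMulActionRight
  shapiroGaloisIso (isSemilocal K L F m) (fun _ _ => rfl) (fun _ _ => rfl)
    (stabEquiv K L F m) (fun _ _ => rfl) n

end Field

section LF

variable (K L : Type) [Field K] [NumberField K] [Field L] [NumberField L] [Algebra K L]
  [IsGalois K L]
variable (F : Type) [NontriviallyNormedField F] [IsUltrametricDist F] [ProperSpace F]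
  [Algebra K F]

/-- **`H³(Gal(L/K), (L ⊗[K] F)ˣ) = 0`** for a local field `F` over `K`. -/
theorem isZero_H3_JRep (h3 : Local.Reduction2.H3Vanish) :
    IsZero (groupCohomology (JRep K L F) 3) := by
  obtain ⟨m, hm⟩ := Ideal.exists_maximal (L ⊗[K] F)
  letI := Ideal.Quotient.field m
  haveI := finiteDimensional_quot K L F m
  haveI := isGalois_quot K L F m
  letI := FiniteExtLF.nontriviallyNormedFieldExt F ((L ⊗[K] F) ⧸ m)
  letI := FiniteExtLF.normedAlgebraExt F ((L ⊗[K] F) ⧸ m)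
  haveI := FiniteExtLF.isUltrametricDistExt F ((L ⊗[K] F) ⧸ m)
  haveI := FiniteExtLF.properSpaceExt F ((L ⊗[K] F) ⧸ m)
  exact (h3 F ((L ⊗[K] F) ⧸ m)).of_iso (semilocalIso K L F m 3)

/-- The order of `H²(Gal(L/K), (L ⊗[K] F)ˣ)` is the local degree `[E : F] = #Stab(m)`. -/
theorem card_H2_JRep (h2 : Local.Blocks.H2Card) (m : Ideal (L ⊗[K] F)) [hm : m.IsMaximal] :
    Nat.card (groupCohomology (JRep K L F) 2) =
      Nat.card (MulAction.stabilizer (L ≃ₐ[K] L) m) := by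
  letI := Ideal.Quotient.field m
  haveI := finiteDimensional_quot K L F m
  haveI := isGalois_quot K L F m
  letI := FiniteExtLF.nontriviallyNormedFieldExt F ((L ⊗[K] F) ⧸ m)
  letI := FiniteExtLF.normedAlgebraExt F ((L ⊗[K] F) ⧸ m)
  haveI := FiniteExtLF.isUltrametricDistExt F ((L ⊗[K] F) ⧸ m)
  haveI := FiniteExtLF.properSpaceExt F ((L ⊗[K] F) ⧸ m)
  rw [SemilocalTensor.card_stab (hact K L F) m]
  exact (Nat.card_congr (semilocalIso K L F m 2).toLinearEquiv.toEquiv).trans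
    (h2 F ((L ⊗[K] F) ⧸ m))

/-- `H²(Gal(L/K), (L ⊗[K] F)ˣ)` is cyclic. -/
theorem isAddCyclic_H2_JRep (h2 : Local.Blocks.H2Cyclic) :
    IsAddCyclic (groupCohomology (JRep K L F) 2) := by
  obtain ⟨m, hm⟩ := Ideal.exists_maximal (L ⊗[K] F)
  letI := Ideal.Quotient.field m
  haveI := finiteDimensional_quot K L F m
  haveI := isGalois_quot K L F m
  letI := FiniteExtLF.nontriviallyNormedFieldExt F ((L ⊗[K] F) ⧸ m)
  letI := FiniteExtLF.normedAlgebraExt F ((L ⊗[K] F) ⧸ m)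
  haveI := FiniteExtLF.isUltrametricDistExt F ((L ⊗[K] F) ⧸ m)
  haveI := FiniteExtLF.properSpaceExt F ((L ⊗[K] F) ⧸ m)
  haveI := h2 F ((L ⊗[K] F) ⧸ m)
  exact isAddCyclic_of_surjective
    (semilocalIso K L F m 2).symm.toLinearEquiv.toAddEquiv.toAddMonoidHom
    (semilocalIso K L F m 2).symm.toLinearEquiv.surjective

end LF

section Kloc

open Blocks3 Objects2

variable (K L : Type) [Field K] [NumberField K] [Field L] [NumberField L] [Algebra K L]
  [IsGalois K L]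
variable (q : Nat.Primes) (𝔪 : Ideal (Ksemi K q)) [h𝔪 : 𝔪.IsMaximal]

theorem finiteDimensional_Kloc :
    letI := Ideal.Quotient.field 𝔪
    FiniteDimensional ℚ_[(q : ℕ)] (Kloc K q 𝔪) := by
  letI := Ideal.Quotient.field 𝔪
  haveI : Module.Finite ℚ_[(q : ℕ)] (K ⊗[ℚ] ℚ_[(q : ℕ)]) :=
    Module.Finite.of_surjective (Algebra.TensorProduct.commRight ℚ ℚ_[(q : ℕ)] K).toLinearMap
      (Algebra.TensorProduct.commRight ℚ ℚ_[(q : ℕ)] K).surjective
  exact Module.Finite.of_surjective (Ideal.Quotient.mkₐ ℚ_[(q : ℕ)] 𝔪).toLinearMap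
    (Ideal.Quotient.mkₐ_surjective ℚ_[(q : ℕ)] 𝔪)

/-- **`H³(Gal(L/K), (L ⊗[K] K_𝔪)ˣ) = 0`** at every place `(q, 𝔪)` of `K`. -/
theorem isZero_H3_Jloc (h3 : Local.Reduction2.H3Vanish) :
    IsZero (groupCohomology (Jloc K L q 𝔪) 3) := by
  letI := Ideal.Quotient.field 𝔪
  haveI := finiteDimensional_Kloc K q 𝔪
  letI := FiniteExtLF.nontriviallyNormedFieldExt ℚ_[(q : ℕ)] (Kloc K q 𝔪)
  haveI := FiniteExtLF.isUltrametricDistExt ℚ_[(q : ℕ)] (Kloc K q 𝔪)
  haveI := FiniteExtLF.properSpaceExt ℚ_[(q : ℕ)] (Kloc K q 𝔪)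
  exact isZero_H3_JRep K L (Kloc K q 𝔪) h3

/-- `#H²(Gal(L/K), (L ⊗[K] K_𝔪)ˣ)` is the local degree `#Stab(m)`. -/
theorem card_H2_Jloc (h2 : Local.Blocks.H2Card) (m : Ideal (L ⊗[K] Kloc K q 𝔪))
    [hm : m.IsMaximal] :
    Nat.card (groupCohomology (Jloc K L q 𝔪) 2) =
      Nat.card (MulAction.stabilizer (L ≃ₐ[K] L) m) := by
  letI := Ideal.Quotient.field 𝔪
  haveI := finiteDimensional_Kloc K q 𝔪
  letI := FiniteExtLF.nontriviallyNormedFieldExt ℚ_[(q : ℕ)] (Kloc K q 𝔪)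
  haveI := FiniteExtLF.isUltrametricDistExt ℚ_[(q : ℕ)] (Kloc K q 𝔪)
  haveI := FiniteExtLF.properSpaceExt ℚ_[(q : ℕ)] (Kloc K q 𝔪)
  exact card_H2_JRep K L (Kloc K q 𝔪) h2 m

/-- `H²(Gal(L/K), (L ⊗[K] K_𝔪)ˣ)` is cyclic. -/
theorem isAddCyclic_H2_Jloc (h2 : Local.Blocks.H2Cyclic) :
    IsAddCyclic (groupCohomology (Jloc K L q 𝔪) 2) := by
  letI := Ideal.Quotient.field 𝔪
  haveI := finiteDimensional_Kloc K q 𝔪
  letI := FiniteExtLF.nontriviallyNormedFieldExt ℚ_[(q : ℕ)] (Kloc K q 𝔪)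
  haveI := FiniteExtLF.isUltrametricDistExt ℚ_[(q : ℕ)] (Kloc K q 𝔪)
  haveI := FiniteExtLF.properSpaceExt ℚ_[(q : ℕ)] (Kloc K q 𝔪)
  exact isAddCyclic_H2_JRep K L (Kloc K q 𝔪) h2

end Kloc

end Fermat.Agent.S55.Global.SemilocalH3
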