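/-
S55 / GLOBAL block — row `G.admissible` (helper56).

Every finite set `T₀` of finite places of `K` is contained in a set `T` which is **admissible** for
`L/K` at `p` in the sense of `Global/Blocks.lean` (`Blocks.Admissible`):

* `exists_admissible K L p hp T₀ : ∃ T, T₀ ⊆ T ∧ Admissible K L p T`   (`p ≠ 0`).

Ingredients (all elementary, no different/discriminant):
* `finite_places_of_mem`, `finite_places_of_le` : a nonzero element / ideal lies in finitely many
  height-one primes;
* `finite_ramified` : only finitely many places of `L` have a nontrivial inertia group in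
  `Gal(L/K)` (for `σ ≠ 1` pick an integer `x_σ` with `σ x_σ ≠ x_σ`; a place with `σ` in its inertia
  group divides `σ x_σ - x_σ ≠ 0`);
* `exists_finset_principal` : for a number field `E/K` there is a finite `T` such that every nonzero
  ideal of `𝓞 E` becomes principal after multiplication by an ideal supported above `T`
  (finiteness of the class group, integral representatives of the classes);
* `supportedAbove_mono`, `supportedAbove_top`, `supportedAbove_supp`, `admissible_mono_aux`.
-/
import Fermat.Agent.S55.Global.Blocks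

set_option autoImplicit false
set_option linter.unusedSectionVars false

open NumberField IsDedekindDomain
open scoped nonZeroDivisors

namespace Fermat.Agent.S55.Global.AdmissibleExists

open Fermat.Agent.S55.Global.Objects Fermat.Agent.S55.Global.Blocks

section general

variable {K : Type} [Field K] [NumberField K]

theorem supportedAbove_mono {E : Type} [Field E] [NumberField E] [Algebra K E]
    {T T' : Finset (Place K)} (h : T ⊆ T') {J : Ideal (𝓞 E)} (hJ : SupportedAbove K E T J) :
    SupportedAbove K E T' J :=
  ⟨hJ.1, fun P hP hle => let ⟨v, hv, e⟩ := hJ.2 P hP hle; ⟨v, h hv, e⟩⟩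

theorem supportedAbove_top {E : Type} [Field E] [NumberField E] [Algebra K E]
    (T : Finset (Place K)) : SupportedAbove K E T (⊤ : Ideal (𝓞 E)) :=
  ⟨top_ne_bot, fun _ hP hle => absurd (top_le_iff.mp hle) hP.ne_top⟩

/-- Finitely many places contain a given nonzero integer. -/
theorem finite_places_of_mem {x : 𝓞 K} (hx : x ≠ 0) : {v : Place K | x ∈ v.asIdeal}.Finite := by
  have h := Ideal.finite_factors (I := Ideal.span {x}) (by simpa using hx)
  refine h.subset ?_
  intro v hv
  exact Ideal.dvd_span_singleton.mpr hv

/-- Finitely many places contain a given nonzero ideal. -/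
theorem finite_places_of_le {I : Ideal (𝓞 K)} (hI : I ≠ ⊥) :
    {v : Place K | I ≤ v.asIdeal}.Finite := by
  have h := Ideal.finite_factors (I := I) hI
  refine h.subset ?_
  intro v hv
  exact Ideal.dvd_iff_le.mpr hv

end general

section ram

variable (K : Type) [Field K] [NumberField K]
variable (L : Type) [Field L] [NumberField L] [Algebra K L]

/-- A nontrivial automorphism moves some integer. -/
theorem exists_moved_integer (σ : L ≃ₐ[K] L) (hσ : σ ≠ 1) : ∃ x : 𝓞 L, σ • x - x ≠ 0 := by
  by_contra hcon
  have hcon' : ∀ x : 𝓞 L, σ • x - x = 0 := fun x => by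
    by_contra h
    exact hcon ⟨x, h⟩
  apply hσ
  ext y
  obtain ⟨a, b, hb, rfl⟩ := IsFractionRing.div_surjective (A := 𝓞 L) y
  have ha' : σ (algebraMap (𝓞 L) L a) = algebraMap (𝓞 L) L a := by
    have := hcon' a
    rw [sub_eq_zero] at this
    exact congrArg (algebraMap (𝓞 L) L) this
  have hb' : σ (algebraMap (𝓞 L) L b) = algebraMap (𝓞 L) L b := by
    have := hcon' b
    rw [sub_eq_zero] at this
    exact congrArg (algebraMap (𝓞 L) L) this
  rw [map_div₀, ha', hb']
  rfl

/-- Only finitely many places of `L` have a nontrivial inertia group in `Gal(L/K)`. -/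
theorem finite_ramified :
    {w : Place L | ∃ σ : L ≃ₐ[K] L, σ ∈ w.asIdeal.inertia (L ≃ₐ[K] L) ∧ σ ≠ 1}.Finite := by
  classical
  choose! x hx using exists_moved_integer K L
  have hfin :
      (⋃ σ ∈ {σ : L ≃ₐ[K] L | σ ≠ 1}, {w : Place L | σ • x σ - x σ ∈ w.asIdeal}).Finite := by
    apply Set.Finite.biUnion (Set.toFinite _)
    intro σ hσ
    exact finite_places_of_mem (hx σ hσ)
  refine hfin.subset ?_
  rintro w ⟨σ, hσ, hne⟩
  rw [Set.mem_iUnion₂]
  exact ⟨σ, hne, hσ (x σ)⟩

end ram

section classgroup

variable (K : Type) [Field K] [NumberField K]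

/-- The set of places of `K` below the prime factors of a nonzero ideal of `𝓞 E`. -/
noncomputable def supp (E : Type) [Field E] [NumberField E] [Algebra K E] (J : Ideal (𝓞 E))
    (hJ : J ≠ ⊥) : Finset (Place K) := by
  classical
  exact (finite_places_of_le (K := E) hJ).toFinset.image (HeightOneSpectrum.under (𝓞 K))

theorem supportedAbove_supp (E : Type) [Field E] [NumberField E] [Algebra K E] (J : Ideal (𝓞 E))
    (hJ : J ≠ ⊥) : SupportedAbove K E (supp K E J hJ) J := by
  classical
  refine ⟨hJ, fun P hP hle => ?_⟩
  have hPne : P ≠ ⊥ := fun h => hJ (le_bot_iff.mp (h ▸ hle))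
  let w : Place E := ⟨P, hP, hPne⟩
  refine ⟨w.under (𝓞 K), ?_, rfl⟩
  unfold supp
  rw [Finset.mem_image]
  exact ⟨w, by simpa using hle, rfl⟩

/-- For a number field `E/K` there is a finite set `T` of places of `K` such that every nonzero
ideal of `𝓞 E` becomes principal after multiplication by an ideal supported above `T`. -/
theorem exists_finset_principal (E : Type) [Field E] [NumberField E] [Algebra K E] :
    ∃ T : Finset (Place K), ∀ I : Ideal (𝓞 E), I ≠ ⊥ →
      ∃ (b : 𝓞 E) (J : Ideal (𝓞 E)), b ≠ 0 ∧ SupportedAbove K E T J ∧ I * J = Ideal.span {b} := by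
  classical
  have hsurj := ClassGroup.mk0_surjective (R := 𝓞 E)
  choose rep hrep using hsurj
  have hne : ∀ c, (rep c : Ideal (𝓞 E)) ≠ ⊥ := fun c => nonZeroDivisors.coe_ne_zero _
  refine ⟨Finset.univ.biUnion (fun c => supp K E (rep c) (hne c)), fun I hI => ?_⟩
  set I0 : (Ideal (𝓞 E))⁰ := ⟨I, mem_nonZeroDivisors_of_ne_zero hI⟩ with hI0
  set c := (ClassGroup.mk0 I0)⁻¹ with hc
  have h1 : ClassGroup.mk0 (I0 * rep c) = 1 := by
    rw [map_mul, hrep c, hc, mul_inv_cancel]
  rw [ClassGroup.mk0_eq_one_iff] at h1
  obtain ⟨b, hb⟩ := h1.principal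
  have hprod : I * (rep c : Ideal (𝓞 E)) = Ideal.span {b} := by
    rw [← Ideal.submodule_span_eq, ← hb]; rfl
  refine ⟨b, rep c, ?_, ?_, hprod⟩
  · rintro rfl
    have h0 : I * (rep c : Ideal (𝓞 E)) = ⊥ := by rw [hprod]; simp
    rcases mul_eq_zero.mp h0 with h | h
    · exact hI h
    · exact hne c h
  · exact supportedAbove_mono (K := K) (Finset.subset_biUnion_of_mem _ (Finset.mem_univ c))
      (supportedAbove_supp K E _ (hne c))

end classgroup

section main

variable (K : Type) [Field K] [NumberField K]
variable (L : Type) [Field L] [NumberField L] [Algebra K L]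

/-- **Row `G.admissible`.**  Every finite set of places is contained in an admissible one. -/
theorem exists_admissible (p : ℕ) (hp : p ≠ 0) (T₀ : Finset (Place K)) :
    ∃ T : Finset (Place K), T₀ ⊆ T ∧ Admissible K L p T := by
  classical
  have hp' : ((p : ℕ) : 𝓞 K) ≠ 0 := Nat.cast_ne_zero.mpr hp
  set Tp : Finset (Place K) := (finite_places_of_mem hp').toFinset with hTp
  set Tram : Finset (Place K) :=
    (finite_ramified K L).toFinset.image (HeightOneSpectrum.under (𝓞 K)) with hTram
  have : Finite (IntermediateField K L) :=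
    Field.finite_intermediateField_of_exists_primitive_element K L
      (Field.exists_primitive_element K L)
  have := Fintype.ofFinite (IntermediateField K L)
  choose TE hTE using fun E : IntermediateField K L => exists_finset_principal K E
  set Tcl : Finset (Place K) := Finset.univ.biUnion TE with hTcl
  refine ⟨T₀ ∪ Tp ∪ Tram ∪ Tcl, ?_, ?_, ?_, ?_⟩
  · intro v hv
    simp only [Finset.mem_union]
    exact Or.inl (Or.inl (Or.inl hv))
  · intro v hv
    simp only [Finset.mem_union]
    refine Or.inl (Or.inl (Or.inr ?_))
    rw [hTp, Set.Finite.mem_toFinset]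
    exact hv
  · intro w hw
    refine ⟨w.under (𝓞 K), ?_, rfl⟩
    simp only [Finset.mem_union]
    refine Or.inl (Or.inr ?_)
    rw [hTram, Finset.mem_image]
    exact ⟨w, by rw [Set.Finite.mem_toFinset]; exact hw, rfl⟩
  · intro E I hI
    obtain ⟨b, J, hb, hJ, hIJ⟩ := hTE E I hI
    refine ⟨1, b, J, ⊤, one_ne_zero, hb, ?_, supportedAbove_top _, ?_⟩
    · refine supportedAbove_mono (K := K) ?_ hJ
      intro v hv
      simp only [Finset.mem_union]
      refine Or.inr ?_
      rw [hTcl, Finset.mem_biUnion]
      exact ⟨E, Finset.mem_univ E, hv⟩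
    · rw [Ideal.span_singleton_one, Ideal.top_mul, hIJ, Ideal.mul_top]

/-- Admissibility only depends on `T` through monotone conditions: a larger `T` is still
admissible. -/
theorem admissible_mono {p : ℕ} {T T' : Finset (Place K)} (h : T ⊆ T')
    (hT : Admissible K L p T) : Admissible K L p T' where
  above_p v hv := h (hT.above_p v hv)
  ram w hw := let ⟨v, hv, e⟩ := hT.ram w hw; ⟨v, h hv, e⟩
  principal E I hI := by
    obtain ⟨a, b, J, J', ha, hb, hJ, hJ', e⟩ := hT.principal E I hI
    exact ⟨a, b, J, J', ha, hb, supportedAbove_mono (K := K) h hJ,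
      supportedAbove_mono (K := K) h hJ', e⟩

end main

end Fermat.Agent.S55.Global.AdmissibleExists
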