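/-
S55 / GLOBAL block — row `G.admissible.inherit` (helper56).

Inheritance of `Blocks.Admissible` / `Blocks.Setting` along a tower `K ⊆ E ⊆ L` of number fields
(abstract tower: `[Algebra K E] [Algebra E L] [Algebra K L] [IsScalarTower K E L]`; in particular
`E : IntermediateField K L`).  These are the closure properties which the instantiation of the
`p`-group dévissage (`Global/Devissage.lean`: restriction to subgroups, passage to quotients) needs.

* `placesAboveFinset K E T : Finset (Place E)` : the places of `E` above `T`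
  (`mem_placesAboveFinset : u ∈ placesAboveFinset K E T ↔ u.under (𝓞 K) ∈ T`);
* `admissible_restrict` : `T` admissible for `L/K`  ⟹  `placesAboveFinset K E T` admissible for `L/E`;
* `admissible_quotient` : `L/K`, `E/K` Galois, `T` admissible for `L/K`  ⟹  `T` admissible for `E/K`;
* `setting_restrict`, `setting_quotient` : the same for `Blocks.Setting`;
* `card_inertia_eq_ramificationIdx'`, `inertia_trivial_of_tower` : auxiliary ramification facts.
-/
import Fermat.Agent.S55.Global.AdmissibleExists

set_option autoImplicit false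
set_option linter.unusedSectionVars false

open NumberField IsDedekindDomain
open scoped nonZeroDivisors

namespace Fermat.Agent.S55.Global.AdmissibleInherit

open Fermat.Agent.S55.Global.Objects Fermat.Agent.S55.Global.Blocks
open Fermat.Agent.S55.Global.AdmissibleExists

/-! ### Places above a finite set -/

section above

variable (K : Type) [Field K] [NumberField K]
variable (E : Type) [Field E] [NumberField E] [Algebra K E]

theorem finite_under_mem (T : Finset (Place K)) :
    {u : Place E | u.under (𝓞 K) ∈ T}.Finite := by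
  classical
  have : {u : Place E | u.under (𝓞 K) ∈ T} ⊆
      ⋃ v ∈ (T : Set (Place K)),
        {u : Place E | Ideal.map (algebraMap (𝓞 K) (𝓞 E)) v.asIdeal ≤ u.asIdeal} := by
    intro u hu
    rw [Set.mem_iUnion₂]
    refine ⟨u.under (𝓞 K), hu, ?_⟩
    show Ideal.map _ _ ≤ _
    rw [Ideal.map_le_iff_le_comap]
    exact le_rfl
  refine Set.Finite.subset ?_ this
  apply Set.Finite.biUnion T.finite_toSet
  intro v _
  apply finite_places_of_le
  rw [Ne, Ideal.map_eq_bot_iff_of_injective (FaithfulSMul.algebraMap_injective (𝓞 K) (𝓞 E))]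
  exact v.ne_bot

/-- The places of `E` above a finite set `T` of places of `K`, as a `Finset`. -/
noncomputable def placesAboveFinset (T : Finset (Place K)) : Finset (Place E) :=
  (finite_under_mem K E T).toFinset

variable {K E} in
theorem mem_placesAboveFinset {T : Finset (Place K)} {u : Place E} :
    u ∈ placesAboveFinset K E T ↔ u.under (𝓞 K) ∈ T := by
  unfold placesAboveFinset
  rw [Set.Finite.mem_toFinset]
  rfl

theorem placesAboveFinset_mono {T T' : Finset (Place K)} (h : T ⊆ T') :
    placesAboveFinset K E T ⊆ placesAboveFinset K E T' := by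
  intro u hu
  rw [mem_placesAboveFinset] at hu ⊢
  exact h hu

theorem coe_placesAboveFinset (T : Finset (Place K)) :
    (placesAboveFinset K E T : Set (Place E)) = placesAbove K E T := by
  ext u
  rw [Finset.mem_coe, mem_placesAboveFinset]
  constructor
  · intro h
    exact ⟨u.under (𝓞 K), h, rfl⟩
  · rintro ⟨v, hv, e⟩
    have : u.under (𝓞 K) = v := HeightOneSpectrum.ext e
    rw [this]
    exact hv

end above

/-! ### Restriction: from `L/K` to `L/E` -/

section restrict

variable (K : Type) [Field K] [NumberField K]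
variable (E : Type) [Field E] [NumberField E] [Algebra K E]
variable (L : Type) [Field L] [NumberField L] [Algebra K L] [Algebra E L] [IsScalarTower K E L]

/-- Transport of `SupportedAbove` from the base `K` to the base `E`. -/
theorem supportedAbove_base_change (E' : IntermediateField E L)
    (T : Finset (Place K)) (J : Ideal (𝓞 ↥(E'.restrictScalars K)))
    (hJ : SupportedAbove K ↥(E'.restrictScalars K) T J) (J₂ : Ideal (𝓞 ↥E')) (h : J₂ = J) :
    SupportedAbove E E' (placesAboveFinset K E T) J₂ := by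
  have hne : J₂ ≠ ⊥ := by rw [h]; exact hJ.1
  refine ⟨hne, fun P hP hle => ?_⟩
  obtain ⟨v, hv, hPv⟩ := hJ.2 P hP (by rw [← h]; exact hle)
  have hPne : P ≠ ⊥ := fun h' => hne (le_bot_iff.mp (h' ▸ hle))
  let w : Place E' := ⟨P, hP, hPne⟩
  refine ⟨w.under (𝓞 E), ?_, rfl⟩
  rw [mem_placesAboveFinset]
  have : (w.under (𝓞 E)).under (𝓞 K) = v := by
    apply HeightOneSpectrum.ext
    rw [← hPv]
    ext x
    show algebraMap (𝓞 E) (𝓞 ↥E') (algebraMap (𝓞 K) (𝓞 E) x) ∈ P ↔
      algebraMap (𝓞 K) (𝓞 ↥(E'.restrictScalars K)) x ∈ P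
    have hx : algebraMap (𝓞 E) (𝓞 ↥E') (algebraMap (𝓞 K) (𝓞 E) x) =
        algebraMap (𝓞 K) (𝓞 ↥(E'.restrictScalars K)) x := by
      apply RingOfIntegers.coe_injective
      apply Subtype.ext
      show algebraMap E L (algebraMap K E (x : K)) = algebraMap K L (x : K)
      rw [← IsScalarTower.algebraMap_apply]
    rw [hx]
    exact Iff.rfl
  rw [this]
  exact hv

/-- **Restriction.**  If `T` is admissible for `L/K` and `K ⊆ E ⊆ L`, the set of places of `E`
above `T` is admissible for `L/E`. -/
theorem admissible_restrict {p : ℕ} {T : Finset (Place K)}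
    (hT : Admissible K L p T) : Admissible E L p (placesAboveFinset K E T) where
  above_p u hu := by
    rw [mem_placesAboveFinset]
    apply hT.above_p
    show algebraMap (𝓞 K) (𝓞 E) ((p : ℕ) : 𝓞 K) ∈ u.asIdeal
    rw [map_natCast]
    exact hu
  ram w hw := by
    obtain ⟨σ, hσ, hne⟩ := hw
    have h2 : ∃ σ' : L ≃ₐ[K] L, σ' ∈ w.asIdeal.inertia (L ≃ₐ[K] L) ∧ σ' ≠ 1 := by
      refine ⟨σ.restrictScalars K, ?_, ?_⟩
      · intro x
        exact hσ x
      · intro h
        apply hne
        ext y
        have := AlgEquiv.congr_fun h y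
        exact this
    obtain ⟨v, hv, hwv⟩ := hT.ram w h2
    refine ⟨w.under (𝓞 E), ?_, rfl⟩
    rw [mem_placesAboveFinset]
    have : (w.under (𝓞 E)).under (𝓞 K) = v := by
      apply HeightOneSpectrum.ext
      rw [← hwv]
      show (w.asIdeal.under (𝓞 E)).under (𝓞 K) = _
      rw [Ideal.under_under]
    rw [this]
    exact hv
  principal E' I hI := by
    obtain ⟨a, b, J, J', ha, hb, hJ, hJ', e⟩ := hT.principal (E'.restrictScalars K) I hI
    exact ⟨a, b, J, J', ha, hb, supportedAbove_base_change K E L E' T J hJ J rfl,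
      supportedAbove_base_change K E L E' T J' hJ' J' rfl, e⟩

end restrict

/-! ### Transport along an isomorphism -/

section transport

variable (K : Type) [Field K] [NumberField K]
variable {E₁ E₂ : Type} [Field E₁] [NumberField E₁] [Algebra K E₁] [Field E₂] [NumberField E₂]
  [Algebra K E₂]

/-- The ring isomorphism of rings of integers induced by a `K`-isomorphism. -/
noncomputable abbrev intEquiv (e : E₁ ≃ₐ[K] E₂) : 𝓞 E₁ ≃+* 𝓞 E₂ :=
  RingOfIntegers.mapRingEquiv (e : E₁ ≃+* E₂)

theorem intEquiv_algebraMap (e : E₁ ≃ₐ[K] E₂) (x : 𝓞 K) :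
    intEquiv K e (algebraMap (𝓞 K) (𝓞 E₁) x) = algebraMap (𝓞 K) (𝓞 E₂) x := by
  apply RingOfIntegers.coe_injective
  show e (algebraMap K E₁ (x : K)) = algebraMap K E₂ (x : K)
  exact e.commutes _

theorem supportedAbove_map (e : E₁ ≃ₐ[K] E₂) {T : Finset (Place K)} {J : Ideal (𝓞 E₁)}
    (hJ : SupportedAbove K E₁ T J) : SupportedAbove K E₂ T (J.map (intEquiv K e)) := by
  refine ⟨?_, fun P hP hle => ?_⟩
  · rw [Ne, Ideal.map_eq_bot_iff_of_injective (intEquiv K e).injective]
    exact hJ.1
  · have hP' : (P.comap (intEquiv K e)).IsPrime := Ideal.comap_isPrime _ P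
    obtain ⟨v, hv, hPv⟩ := hJ.2 (P.comap (intEquiv K e)) hP' (Ideal.map_le_iff_le_comap.mp hle)
    refine ⟨v, hv, ?_⟩
    rw [← hPv]
    ext x
    show algebraMap (𝓞 K) (𝓞 E₂) x ∈ P ↔ intEquiv K e (algebraMap (𝓞 K) (𝓞 E₁) x) ∈ P
    rw [intEquiv_algebraMap]

theorem principal_transport (e : E₁ ≃ₐ[K] E₂) (T : Finset (Place K))
    (h : ∀ I : Ideal (𝓞 E₁), I ≠ ⊥ →
      ∃ (a b : 𝓞 E₁) (J J' : Ideal (𝓞 E₁)), a ≠ 0 ∧ b ≠ 0 ∧ SupportedAbove K E₁ T J ∧
        SupportedAbove K E₁ T J' ∧ Ideal.span {a} * I * J = Ideal.span {b} * J')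
    (I : Ideal (𝓞 E₂)) (hI : I ≠ ⊥) :
    ∃ (a b : 𝓞 E₂) (J J' : Ideal (𝓞 E₂)), a ≠ 0 ∧ b ≠ 0 ∧ SupportedAbove K E₂ T J ∧
        SupportedAbove K E₂ T J' ∧ Ideal.span {a} * I * J = Ideal.span {b} * J' := by
  set f := intEquiv K e with hf
  have hI' : I.comap f ≠ ⊥ := by
    intro h0
    apply hI
    have : (I.comap f).map f = I := Ideal.map_comap_of_surjective f f.surjective I
    rw [← this, h0, Ideal.map_bot]
  obtain ⟨a, b, J, J', ha, hb, hJ, hJ', heq⟩ := h (I.comap f) hI'
  refine ⟨f a, f b, J.map f, J'.map f, ?_, ?_, supportedAbove_map K e hJ,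
    supportedAbove_map K e hJ', ?_⟩
  · rwa [Ne, map_eq_zero_iff f f.injective]
  · rwa [Ne, map_eq_zero_iff f f.injective]
  · have := congrArg (Ideal.map f) heq
    rw [Ideal.map_mul, Ideal.map_mul, Ideal.map_mul, Ideal.map_span, Ideal.map_span,
      Set.image_singleton, Set.image_singleton,
      Ideal.map_comap_of_surjective f f.surjective I] at this
    exact this

end transport

/-! ### Quotient: from `L/K` to `E/K` -/

section ramidx

variable (K : Type) [Field K] [NumberField K]
variable (L : Type) [Field L] [NumberField L] [Algebra K L]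

/-- For `L/K` Galois, the order of the inertia group is the ramification index. -/
theorem card_inertia_eq_ramificationIdx' [IsGalois K L] (v : Place K) (Q : Ideal (𝓞 L))
    [Q.IsPrime] [Q.LiesOver v.asIdeal] :
    Nat.card (Q.inertia (L ≃ₐ[K] L)) = v.asIdeal.ramificationIdx' Q := by
  have : v.asIdeal.IsMaximal := v.isMaximal
  rw [Ideal.ramificationIdx'_eq_ramificationIdx',
    ← Ideal.ramificationIdxIn_eq_ramificationIdx v.asIdeal Q (L ≃ₐ[K] L),
    ← Ideal.card_inertia_eq_ramificationIdxIn (G := L ≃ₐ[K] L) v.asIdeal Q]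
  intro hbot
  exact v.ne_bot ((Ideal.map_eq_bot_iff_of_injective
    (RingOfIntegers.algebraMap.injective K L)).1 hbot)

end ramidx

section quotient

variable (K : Type) [Field K] [NumberField K]
variable (E : Type) [Field E] [NumberField E] [Algebra K E]
variable (L : Type) [Field L] [NumberField L] [Algebra K L] [Algebra E L] [IsScalarTower K E L]

/-- If the inertia group in `Gal(L/K)` of a prime `Q` of `L` is trivial, so is the inertia group
in `Gal(E/K)` of the prime of `E` below `Q` (`L/K`, `E/K` Galois). -/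
theorem inertia_trivial_of_tower [IsGalois K L] [IsGalois K E] (v : Place K) (u : Place E)
    (Q : Ideal (𝓞 L)) [Q.IsPrime] [hQu : Q.LiesOver u.asIdeal] [hu : u.asIdeal.LiesOver v.asIdeal]
    (h : ∀ σ : L ≃ₐ[K] L, σ ∈ Q.inertia (L ≃ₐ[K] L) → σ = 1)
    (τ : E ≃ₐ[K] E) (hτ : τ ∈ u.asIdeal.inertia (E ≃ₐ[K] E)) : τ = 1 := by
  have hQv : Q.LiesOver v.asIdeal := Ideal.LiesOver.trans Q u.asIdeal v.asIdeal
  have hI : Nat.card (Q.inertia (L ≃ₐ[K] L)) = 1 := by
    rw [Nat.card_eq_one_iff_unique]
    refine ⟨⟨fun x y => ?_⟩, ⟨1⟩⟩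
    ext1
    rw [h x.1 x.2, h y.1 y.2]
  rw [card_inertia_eq_ramificationIdx' K L v Q,
    Ideal.ramificationIdx'_algebra_tower' v.asIdeal u.asIdeal Q] at hI
  have he : v.asIdeal.ramificationIdx' u.asIdeal = 1 := Nat.eq_one_of_mul_eq_one_right hI
  rw [← card_inertia_eq_ramificationIdx' K E v u.asIdeal, Nat.card_eq_one_iff_unique] at he
  obtain ⟨hsub, -⟩ := he
  have := hsub.elim ⟨τ, hτ⟩ ⟨1, Subgroup.one_mem _⟩
  exact congrArg Subtype.val this


/-- **Quotient.**  If `T` is admissible for `L/K` and `E/K` is a Galois subextension, `T` is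
admissible for `E/K`. -/
theorem admissible_quotient [IsGalois K L] [IsGalois K E] {p : ℕ} {T : Finset (Place K)}
    (hT : Admissible K L p T) : Admissible K E p T where
  above_p := hT.above_p
  ram u hu := by
    obtain ⟨τ, hτ, hne⟩ := hu
    by_contra hcon
    have : u.asIdeal.IsMaximal := u.isMaximal
    obtain ⟨Q, hQ, hQu⟩ := Ideal.exists_maximal_ideal_liesOver_of_isIntegral (S := 𝓞 L) u.asIdeal
    have hQ0 : Q ≠ ⊥ := Ideal.ne_bot_of_liesOver_of_ne_bot u.ne_bot Q
    let w : Place L := ⟨Q, hQ.isPrime, hQ0⟩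
    let v : Place K := u.under (𝓞 K)
    have huv : u.asIdeal.LiesOver v.asIdeal := ⟨rfl⟩
    have : Q.IsPrime := hQ.isPrime
    apply hne
    refine inertia_trivial_of_tower K E L v u Q ?_ τ hτ
    intro σ hσ
    by_contra hσ1
    obtain ⟨v', hv', e⟩ := hT.ram w ⟨σ, hσ, hσ1⟩
    apply hcon
    refine ⟨v', hv', ?_⟩
    rw [← e]
    have h1 : Q.under (𝓞 E) = u.asIdeal := (hQu.over).symm
    rw [← h1, Ideal.under_under]
  principal E₁ I hI := by
    let f : E →ₐ[K] L := IsScalarTower.toAlgHom K E L
    exact principal_transport K (IntermediateField.equivMap E₁ f).symm T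
      (hT.principal (E₁.map f)) I hI


/-- **Quotient, `Setting` form.** -/
theorem setting_quotient [IsGalois K E] {p : ℕ} {T : Finset (Place K)}
    (h : Setting p K L T) : Setting p K E T where
  prime := h.prime
  odd := h.odd
  zeta := h.zeta
  galois := inferInstance
  ppower := by
    obtain ⟨n, hn⟩ := h.ppower
    have hmul := Module.finrank_mul_finrank K E L
    have hdvd : Module.finrank K E ∣ p ^ n := ⟨Module.finrank E L, by rw [← hn, ← hmul]⟩
    obtain ⟨m, -, hm⟩ := (Nat.dvd_prime_pow h.prime).1 hdvd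
    exact ⟨m, hm⟩
  adm := by
    have := h.galois
    exact admissible_quotient K E L h.adm

/-- **Restriction, `Setting` form.** -/
theorem setting_restrict {p : ℕ} {T : Finset (Place K)}
    (h : Setting p K L T) : Setting p E L (placesAboveFinset K E T) where
  prime := h.prime
  odd := h.odd
  zeta := by
    obtain ⟨ζ, hζ⟩ := h.zeta
    exact ⟨algebraMap K E ζ, hζ.map_of_injective (algebraMap K E).injective⟩
  galois := by
    have := h.galois
    exact IsGalois.tower_top_of_isGalois K E L
  ppower := by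
    obtain ⟨n, hn⟩ := h.ppower
    have hmul := Module.finrank_mul_finrank K E L
    have hdvd : Module.finrank E L ∣ p ^ n :=
      ⟨Module.finrank K E, by rw [← hn, ← hmul, mul_comm]⟩
    obtain ⟨m, -, hm⟩ := (Nat.dvd_prime_pow h.prime).1 hdvd
    exact ⟨m, hm⟩
  adm := admissible_restrict K E L h.adm

end quotient

end Fermat.Agent.S55.Global.AdmissibleInherit
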