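/-
S55 / GLOBAL block, interface v3 (`ℚ`-based) — row `G.admissible` re-targeted (helper56).

Every finite set `T₀` of rational primes is contained in a set `T` which is admissible for `L/K` at
the prime `p` in the sense of `Global/Blocks2.lean` (`Blocks2.AdmissibleQ`):

* `exists_admissibleQ K L hp T₀ : ∃ T, T₀ ⊆ T ∧ AdmissibleQ K L p T`;
* `admissibleQ_mono : T ⊆ T' → AdmissibleQ K L p T → AdmissibleQ K L p T'`.

Ingredients:
* `exists_prime_dvd_mem`, `exists_prime_mem` : a nonzero prime ideal of `𝓞 E` contains a rational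
  prime (dividing any given nonzero integer of the ideal);
* `suppQ`, `supportedAboveQ_suppQ` : a nonzero ideal is supported above the prime factors of its
  absolute norm;
* `exists_finset_principalQ` : finiteness of the class group;
* `principalQ_transport` : transport of the `principal` clause along a ring isomorphism;
* `AdmissibleExists.finite_ramified` : only finitely many places of `L` are ramified over `K`;
* the finitely many subfields `IntermediateField ℚ L` of `L`: every `E →+* L` is an isomorphism of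
  `E` onto one of them.
-/
import Fermat.Agent.S55.Global.Blocks2
import Fermat.Agent.S55.Global.AdmissibleExists

set_option autoImplicit false
set_option linter.unusedSectionVars false

open NumberField IsDedekindDomain
open scoped nonZeroDivisors

namespace Fermat.Agent.S55.Global.AdmissibleQExists

open Fermat.Agent.S55.Global.Objects Fermat.Agent.S55.Global.Objects2
open Fermat.Agent.S55.Global.Blocks2

/-! ### Rational primes in prime ideals -/

theorem exists_prime_dvd_mem {R : Type*} [CommRing R] (P : Ideal R) [hP : P.IsPrime] :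
    ∀ n : ℕ, n ≠ 0 → (n : R) ∈ P → ∃ q : ℕ, q.Prime ∧ q ∣ n ∧ (q : R) ∈ P := by
  intro n
  induction n using Nat.recOnMul with
  | zero => intro h; exact absurd rfl h
  | one =>
    intro _ h
    exfalso
    apply hP.ne_top
    rw [Ideal.eq_top_iff_one]
    simpa using h
  | prime q hq => intro _ h; exact ⟨q, hq, dvd_rfl, h⟩
  | mul a b iha ihb =>
    intro hab h
    have ha : a ≠ 0 := fun h0 => hab (by rw [h0, zero_mul])
    have hb : b ≠ 0 := fun h0 => hab (by rw [h0, mul_zero])
    rw [Nat.cast_mul] at h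
    rcases hP.mem_or_mem h with h' | h'
    · obtain ⟨q, hq, hqa, hqP⟩ := iha ha h'
      exact ⟨q, hq, hqa.mul_right b, hqP⟩
    · obtain ⟨q, hq, hqb, hqP⟩ := ihb hb h'
      exact ⟨q, hq, hqb.mul_left a, hqP⟩

section numberfield

variable (E : Type) [Field E] [NumberField E]

/-- The rational primes dividing the absolute norm of an ideal. -/
noncomputable def suppQ (J : Ideal (𝓞 E)) : Finset Nat.Primes :=
  Finset.subtype Nat.Prime (Ideal.absNorm J).primeFactors

theorem supportedAboveQ_suppQ (J : Ideal (𝓞 E)) (hJ : J ≠ ⊥) :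
    SupportedAboveQ E (suppQ E J) J := by
  refine ⟨hJ, fun P hP hle => ?_⟩
  have hN0 : Ideal.absNorm J ≠ 0 := by
    rw [Ne, Ideal.absNorm_eq_zero_iff]
    exact hJ
  have hmem : ((Ideal.absNorm J : ℕ) : 𝓞 E) ∈ P := hle (Ideal.absNorm_mem J)
  obtain ⟨q, hq, hqN, hqP⟩ := exists_prime_dvd_mem P (Ideal.absNorm J) hN0 hmem
  refine ⟨⟨q, hq⟩, ?_, hqP⟩
  exact Finset.mem_subtype.mpr (Nat.mem_primeFactors.mpr ⟨hq, hqN, hN0⟩)

/-- A nonzero prime ideal contains a rational prime. -/
theorem exists_prime_mem (P : Ideal (𝓞 E)) [P.IsPrime] (hP : P ≠ ⊥) :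
    ∃ q : Nat.Primes, (((q : Nat.Primes) : ℕ) : 𝓞 E) ∈ P := by
  obtain ⟨-, h⟩ := supportedAboveQ_suppQ E P hP
  obtain ⟨q, -, hq⟩ := h P inferInstance le_rfl
  exact ⟨q, hq⟩

variable {E} in
theorem supportedAboveQ_mono {T T' : Finset Nat.Primes} (h : T ⊆ T') {J : Ideal (𝓞 E)}
    (hJ : SupportedAboveQ E T J) : SupportedAboveQ E T' J :=
  ⟨hJ.1, fun P hP hle => let ⟨q, hq, e⟩ := hJ.2 P hP hle; ⟨q, h hq, e⟩⟩

theorem supportedAboveQ_top (T : Finset Nat.Primes) : SupportedAboveQ E T (⊤ : Ideal (𝓞 E)) :=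
  ⟨top_ne_bot, fun _ hP hle => absurd (top_le_iff.mp hle) hP.ne_top⟩

/-- There is a finite set `T` of rational primes such that every nonzero ideal of `𝓞 E` becomes
principal after multiplication by an ideal supported above `T`. -/
theorem exists_finset_principalQ :
    ∃ T : Finset Nat.Primes, ∀ I : Ideal (𝓞 E), I ≠ ⊥ →
      ∃ (b : 𝓞 E) (J : Ideal (𝓞 E)), b ≠ 0 ∧ SupportedAboveQ E T J ∧ I * J = Ideal.span {b} := by
  classical
  have hsurj := ClassGroup.mk0_surjective (R := 𝓞 E)
  choose rep hrep using hsurj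
  have hne : ∀ c, (rep c : Ideal (𝓞 E)) ≠ ⊥ := fun c => nonZeroDivisors.coe_ne_zero _
  refine ⟨Finset.univ.biUnion (fun c => suppQ E (rep c)), fun I hI => ?_⟩
  set I0 : (Ideal (𝓞 E))⁰ := ⟨I, mem_nonZeroDivisors_of_ne_zero hI⟩ with hI0
  set c := (ClassGroup.mk0 I0)⁻¹ with hc
  have h1 : ClassGroup.mk0 (I0 * rep c) = 1 := by
    rw [map_mul, hrep c, hc, mul_inv_cancel]
  rw [ClassGroup.mk0_eq_one_iff] at h1
  obtain ⟨b, hb⟩ := h1.principal
  have hprod : I * (rep c : Ideal (𝓞 E)) = Ideal.span {b} := by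
    rw [← Ideal.submodule_span_eq, ← hb]; rfl
  refine ⟨b, rep c, ?_, ?_, hprod⟩
  · rintro rfl
    have h0 : I * (rep c : Ideal (𝓞 E)) = ⊥ := by rw [hprod]; simp
    rcases mul_eq_zero.mp h0 with h | h
    · exact hI h
    · exact hne c h
  · exact supportedAboveQ_mono (Finset.subset_biUnion_of_mem _ (Finset.mem_univ c))
      (supportedAboveQ_suppQ E _ (hne c))

/-- The `principal` clause of `AdmissibleQ` for the single field `E`. -/
def PrincipalQ (T : Finset Nat.Primes) : Prop :=
  ∀ I : Ideal (𝓞 E), I ≠ ⊥ →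
    ∃ (a b : 𝓞 E) (J J' : Ideal (𝓞 E)), a ≠ 0 ∧ b ≠ 0 ∧ SupportedAboveQ E T J ∧
      SupportedAboveQ E T J' ∧ Ideal.span {a} * I * J = Ideal.span {b} * J'

variable {E} in
theorem PrincipalQ.mono {T T' : Finset Nat.Primes} (h : T ⊆ T') (hT : PrincipalQ E T) :
    PrincipalQ E T' := by
  intro I hI
  obtain ⟨a, b, J, J', ha, hb, hJ, hJ', e⟩ := hT I hI
  exact ⟨a, b, J, J', ha, hb, supportedAboveQ_mono h hJ, supportedAboveQ_mono h hJ', e⟩

theorem exists_principalQ : ∃ T : Finset Nat.Primes, PrincipalQ E T := by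
  obtain ⟨T, hT⟩ := exists_finset_principalQ E
  refine ⟨T, fun I hI => ?_⟩
  obtain ⟨b, J, hb, hJ, hIJ⟩ := hT I hI
  refine ⟨1, b, J, ⊤, one_ne_zero, hb, hJ, supportedAboveQ_top E T, ?_⟩
  rw [Ideal.span_singleton_one, Ideal.top_mul, hIJ, Ideal.mul_top]

end numberfield

/-! ### Transport along a ring isomorphism -/

section transport

variable {E₁ E₂ : Type} [Field E₁] [NumberField E₁] [Field E₂] [NumberField E₂]

theorem supportedAboveQ_map (e : E₁ ≃+* E₂) {T : Finset Nat.Primes} {J : Ideal (𝓞 E₁)}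
    (hJ : SupportedAboveQ E₁ T J) :
    SupportedAboveQ E₂ T (J.map (RingOfIntegers.mapRingEquiv e)) := by
  set f := RingOfIntegers.mapRingEquiv e with hf
  refine ⟨?_, fun P hP hle => ?_⟩
  · rw [Ne, Ideal.map_eq_bot_iff_of_injective f.injective]
    exact hJ.1
  · have hP' : (P.comap f).IsPrime := Ideal.comap_isPrime _ P
    obtain ⟨q, hq, hqP⟩ := hJ.2 (P.comap f) hP' (Ideal.map_le_iff_le_comap.mp hle)
    refine ⟨q, hq, ?_⟩
    rw [Ideal.mem_comap, map_natCast] at hqP
    exact hqP

theorem principalQ_transport (e : E₁ ≃+* E₂) {T : Finset Nat.Primes} (h : PrincipalQ E₁ T) :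
    PrincipalQ E₂ T := by
  intro I hI
  set f := RingOfIntegers.mapRingEquiv e with hf
  have hI' : I.comap f ≠ ⊥ := by
    intro h0
    apply hI
    have : (I.comap f).map f = I := Ideal.map_comap_of_surjective f f.surjective I
    rw [← this, h0, Ideal.map_bot]
  obtain ⟨a, b, J, J', ha, hb, hJ, hJ', heq⟩ := h (I.comap f) hI'
  refine ⟨f a, f b, J.map f, J'.map f, ?_, ?_, supportedAboveQ_map e hJ,
    supportedAboveQ_map e hJ', ?_⟩
  · rwa [Ne, map_eq_zero_iff f f.injective]
  · rwa [Ne, map_eq_zero_iff f f.injective]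
  · have := congrArg (Ideal.map f) heq
    rw [Ideal.map_mul, Ideal.map_mul, Ideal.map_mul, Ideal.map_span, Ideal.map_span,
      Set.image_singleton, Set.image_singleton,
      Ideal.map_comap_of_surjective f f.surjective I] at this
    exact this

end transport

/-! ### Main theorem -/

section main

variable (K : Type) [Field K] [NumberField K]
variable (L : Type) [Field L] [NumberField L] [Algebra K L]

/-- A finite set of rational primes which makes the class groups of all subfields of `L`
trivial. -/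
theorem exists_principalQ_all :
    ∃ T : Finset Nat.Primes, ∀ (E : Type) [Field E] [NumberField E] (_ : E →+* L),
      PrincipalQ E T := by
  classical
  have : Finite (IntermediateField ℚ L) :=
    Field.finite_intermediateField_of_exists_primitive_element ℚ L
      (Field.exists_primitive_element ℚ L)
  have := Fintype.ofFinite (IntermediateField ℚ L)
  choose TF hTF using fun F : IntermediateField ℚ L => exists_principalQ F
  refine ⟨Finset.univ.biUnion TF, ?_⟩
  intro E _ _ f
  let F : IntermediateField ℚ L := f.toRatAlgHom.fieldRange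
  let e : E ≃ₐ[ℚ] F := AlgEquiv.ofInjectiveField f.toRatAlgHom
  have h1 : PrincipalQ F (Finset.univ.biUnion TF) :=
    (hTF F).mono (Finset.subset_biUnion_of_mem _ (Finset.mem_univ F))
  exact principalQ_transport (e.symm : F ≃+* E) h1

/-- **Row `G.admissible` (interface v3).**  Every finite set of rational primes is contained in an
admissible one. -/
theorem exists_admissibleQ {p : ℕ} (hp : p.Prime) (T₀ : Finset Nat.Primes) :
    ∃ T : Finset Nat.Primes, T₀ ⊆ T ∧ AdmissibleQ K L p T := by
  classical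
  choose qw hqw using fun w : Place L => exists_prime_mem L w.asIdeal w.ne_bot
  set Tram : Finset Nat.Primes :=
    (AdmissibleExists.finite_ramified K L).toFinset.image qw with hTram
  obtain ⟨Tcl, hTcl⟩ := exists_principalQ_all L
  set pp : Nat.Primes := ⟨p, hp⟩ with hpp
  refine ⟨T₀ ∪ {pp} ∪ Tram ∪ Tcl, ?_, ?_, ?_, ?_⟩
  · intro q hq
    exact Finset.mem_union_left _ (Finset.mem_union_left _ (Finset.mem_union_left _ hq))
  · refine ⟨pp, ?_, rfl⟩
    exact Finset.mem_union_left _ (Finset.mem_union_left _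
      (Finset.mem_union_right _ (Finset.mem_singleton_self pp)))
  · intro w hw
    refine ⟨qw w, ?_, hqw w⟩
    refine Finset.mem_union_left _ (Finset.mem_union_right _ ?_)
    rw [hTram, Finset.mem_image]
    exact ⟨w, by rw [Set.Finite.mem_toFinset]; exact hw, rfl⟩
  · intro E _ _ f I hI
    have h1 : PrincipalQ E (T₀ ∪ {pp} ∪ Tram ∪ Tcl) :=
      (hTcl E f).mono Finset.subset_union_right
    exact h1 I hI

/-- Admissibility is monotone in `T`. -/
theorem admissibleQ_mono {p : ℕ} {T T' : Finset Nat.Primes} (h : T ⊆ T')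
    (hT : AdmissibleQ K L p T) : AdmissibleQ K L p T' where
  mem_p := let ⟨q, hq, e⟩ := hT.mem_p; ⟨q, h hq, e⟩
  ram w hw := let ⟨q, hq, e⟩ := hT.ram w hw; ⟨q, h hq, e⟩
  principal E _ _ f I hI := by
    obtain ⟨a, b, J, J', ha, hb, hJ, hJ', e⟩ := hT.principal E f I hI
    exact ⟨a, b, J, J', ha, hb, supportedAboveQ_mono h hJ, supportedAboveQ_mono h hJ', e⟩

/-- `Setting` is monotone in `T`. -/
theorem setting_mono {p : ℕ} {T T' : Finset Nat.Primes} (h : T ⊆ T')
    (hs : Setting p K L T) : Setting p K L T' :=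
  ⟨hs.prime, hs.odd, hs.zeta, hs.galois, hs.ppower, admissibleQ_mono K L h hs.adm⟩

/-- Existence of a `Setting` containing a given finite set of primes. -/
theorem exists_setting {p : ℕ} (hp : p.Prime) (hodd : p ≠ 2) (hζ : ∃ ζ : K, IsPrimitiveRoot ζ p)
    [IsGalois K L] (hpp : ∃ n : ℕ, Module.finrank K L = p ^ n) (T₀ : Finset Nat.Primes) :
    ∃ T : Finset Nat.Primes, T₀ ⊆ T ∧ Setting p K L T := by
  obtain ⟨T, hT0, hT⟩ := exists_admissibleQ K L hp T₀
  exact ⟨T, hT0, hp, hodd, hζ, inferInstance, hpp, hT⟩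

end main

end Fermat.Agent.S55.Global.AdmissibleQExists
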