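/-
S55 / GLOBAL block, interface v3 (`ℚ`-based) — heredity of `Blocks2.AdmissibleQ` / `Blocks2.Setting`
for QUOTIENTS (helper56; shape requested by helper6 #1732, consumer: `DevissageInstQ.DescentQuotQ`).

* `admissibleQ_quotient K E L` : tower `K ⊆ E ⊆ L`, `L/K` and `E/K` Galois,
  `AdmissibleQ K L p T → AdmissibleQ K E p T`;
* `setting_quotient K E L` : the same for `Blocks2.Setting`;
* `setting_fixedField hs N` : `Setting p K L T → [N.Normal] → Setting p K (fixedField N) T`.

`ram` uses `AdmissibleInherit.inertia_trivial_of_tower` (order of inertia = ramification index,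
multiplicativity in towers).
-/
import Fermat.Agent.S55.Global.Blocks2
import Fermat.Agent.S55.Global.AdmissibleInherit

set_option autoImplicit false
set_option linter.unusedSectionVars false

open NumberField IsDedekindDomain

namespace Fermat.Agent.S55.Global.AdmissibleQQuot

open Fermat.Agent.S55.Global.Objects Fermat.Agent.S55.Global.Objects2
open Fermat.Agent.S55.Global.Blocks2
open Fermat.Agent.S55.Global.AdmissibleInherit

section tower

variable (K : Type) [Field K] [NumberField K]
variable (E : Type) [Field E] [NumberField E] [Algebra K E]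
variable (L : Type) [Field L] [NumberField L] [Algebra K L] [Algebra E L] [IsScalarTower K E L]

/-- **Quotient.**  If `T` is admissible for `L/K` and `E/K` is a Galois subextension, then `T` is
admissible for `E/K`. -/
theorem admissibleQ_quotient [IsGalois K L] [IsGalois K E] {p : ℕ} {T : Finset Nat.Primes}
    (h : AdmissibleQ K L p T) : AdmissibleQ K E p T where
  mem_p := h.mem_p
  ram := by
    rintro u ⟨τ, hτ, hne⟩
    by_contra hcon
    have : u.asIdeal.IsMaximal := u.isMaximal
    obtain ⟨Q, hQ, hQu⟩ := Ideal.exists_maximal_ideal_liesOver_of_isIntegral (S := 𝓞 L) u.asIdeal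
    have hQ0 : Q ≠ ⊥ := Ideal.ne_bot_of_liesOver_of_ne_bot u.ne_bot Q
    let w : Place L := ⟨Q, hQ.isPrime, hQ0⟩
    let v : Place K := u.under (𝓞 K)
    have huv : u.asIdeal.LiesOver v.asIdeal := ⟨rfl⟩
    have : Q.IsPrime := hQ.isPrime
    apply hne
    refine inertia_trivial_of_tower K E L v u Q ?_ τ hτ
    intro σ hσ
    by_contra hσ1
    obtain ⟨q, hq, hqQ⟩ := h.ram w ⟨σ, hσ, hσ1⟩
    apply hcon
    refine ⟨q, hq, ?_⟩
    rw [hQu.over]
    show algebraMap (𝓞 E) (𝓞 L) (((q : Nat.Primes) : ℕ) : 𝓞 E) ∈ Q
    rw [map_natCast]
    exact hqQ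
  principal := fun E' _ _ f I hI => h.principal E' ((algebraMap E L).comp f) I hI

/-- **Quotient, `Setting` form.** -/
theorem setting_quotient [IsGalois K E] {p : ℕ} {T : Finset Nat.Primes}
    (h : Setting p K L T) : Setting p K E T where
  prime := h.prime
  odd := h.odd
  zeta := h.zeta
  galois := inferInstance
  ppower := by
    obtain ⟨n, hn⟩ := h.ppower
    have hmul := Module.finrank_mul_finrank K E L
    have hdvd : Module.finrank K E ∣ p ^ n := ⟨Module.finrank E L, by rw [← hn, ← hmul]⟩
    obtain ⟨m, -, hm⟩ := (Nat.dvd_prime_pow h.prime).1 hdvd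
    exact ⟨m, hm⟩
  adm := by
    have := h.galois
    exact admissibleQ_quotient K E L h.adm

end tower

section fixedField

variable {K L : Type} [Field K] [NumberField K] [Field L] [NumberField L] [Algebra K L]

/-- **Quotient by a normal subgroup** (shape of `DevissageInstQ.DescentQuotQ`). -/
theorem setting_fixedField {p : ℕ} {T : Finset Nat.Primes} (hs : Setting p K L T)
    (N : Subgroup (L ≃ₐ[K] L)) [N.Normal] :
    Setting p K (IntermediateField.fixedField N) T := by
  have := hs.galois
  have : IsGalois K (IntermediateField.fixedField N) :=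
    IsGalois.of_fixedField_normal_subgroup N
  exact setting_quotient K (IntermediateField.fixedField N) L hs

end fixedField

end Fermat.Agent.S55.Global.AdmissibleQQuot
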