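import Mathlib
import Fermat.Agent.S14.IndexInequality

/-!
# The analytic index inequality for generalized ideal class groups (second inequality)

Abstract version of `Fermat.Agent.S14.IndexInequality`, valid for ray class groups.

Data: an extension `E'/E` of number fields, a finite set `T` of primes of `E` (the support of the
modulus), a finite commutative group `G` and a monoid homomorphism
`cl : (Ideal (𝓞 E))⁰ →* G` (only its values on ideals prime to `T` matter).
`pz T cl g s` is the partial zeta function `∑ N(I)^(-s)` over the nonzero ideals `I` prime to `T`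
with `cl I = g`.

Main result `index_le_finrank`: if the partial zeta functions of any two classes differ by a
bounded function on `(1, 2]`, and `H ≤ G` contains `cl (w ∩ E)` for every prime `w` of `E'` of
relative degree one outside a finite set `T₀` (such `w ∩ E` being moreover outside `T`), then
`[G : H] ≤ [E' : E]`.
-/

set_option linter.unusedSectionVars false

namespace Fermat.Agent.S55.Global.AnalyticIndex

open NumberField IsDedekindDomain Ideal Filter Topology nonZeroDivisors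
open Fermat.Agent.S14.Zeta Fermat.Agent.S14.EulerIdeal Fermat.Agent.S14.CharProd
open Fermat.Agent.S14.IndexInequality

attribute [local instance] neZero_exponent fintypeChar

section Coprime

variable {E : Type*} [Field E] [NumberField E]
variable (T : Finset (HeightOneSpectrum (𝓞 E)))

/-- The nonzero ideal `I` is prime to all the primes in `T`. -/
def Cop (I : (Ideal (𝓞 E))⁰) : Prop := ∀ v ∈ T, ¬ (v.asIdeal ∣ (I : Ideal (𝓞 E)))

lemma cop_one : Cop T (1 : (Ideal (𝓞 E))⁰) := by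
  intro v _ hv
  have h1 : ((1 : (Ideal (𝓞 E))⁰) : Ideal (𝓞 E)) = ⊤ := by simp
  rw [h1, Ideal.dvd_iff_le] at hv
  exact v.isPrime.ne_top (top_le_iff.mp hv)

lemma cop_mul (I J : (Ideal (𝓞 E))⁰) : Cop T (I * J) ↔ Cop T I ∧ Cop T J := by
  constructor
  · intro h
    refine ⟨fun v hv hd => h v hv ?_, fun v hv hd => h v hv ?_⟩
    · rw [Submonoid.coe_mul]; exact dvd_mul_of_dvd_left hd _
    · rw [Submonoid.coe_mul]; exact dvd_mul_of_dvd_right hd _
  · rintro ⟨hI, hJ⟩ v hv hd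
    rw [Submonoid.coe_mul] at hd
    rcases v.prime.dvd_or_dvd hd with h | h
    · exact hI v hv h
    · exact hJ v hv h

lemma cop_pr (v : HeightOneSpectrum (𝓞 E)) : Cop T (pr v) ↔ v ∉ T := by
  constructor
  · intro h hv
    exact h v hv (by rw [pr_coe])
  · intro hv w hw hd
    rw [pr_coe, Ideal.dvd_iff_le] at hd
    have : v.asIdeal = w.asIdeal := v.isMaximal.eq_of_le w.isPrime.ne_top hd
    exact hv (HeightOneSpectrum.ext this ▸ hw)

open scoped Classical in
/-- The multiplicative indicator function of the ideals prime to `T`. -/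
noncomputable def ind : (Ideal (𝓞 E))⁰ →* ℝ where
  toFun I := if Cop T I then 1 else 0
  map_one' := by rw [if_pos (cop_one T)]
  map_mul' I J := by
    by_cases hI : Cop T I
    · by_cases hJ : Cop T J
      · rw [if_pos hI, if_pos hJ, if_pos ((cop_mul T I J).mpr ⟨hI, hJ⟩), one_mul]
      · rw [if_neg hJ, if_neg (fun h => hJ ((cop_mul T I J).mp h).2), mul_zero]
    · rw [if_neg hI, if_neg (fun h => hI ((cop_mul T I J).mp h).1), zero_mul]

open scoped Classical in
lemma ind_apply (I : (Ideal (𝓞 E))⁰) : ind T I = if Cop T I then 1 else 0 := rfl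

lemma ind_of_cop {I : (Ideal (𝓞 E))⁰} (h : Cop T I) : ind T I = 1 := by
  classical
  rw [ind_apply, if_pos h]

lemma ind_of_not_cop {I : (Ideal (𝓞 E))⁰} (h : ¬ Cop T I) : ind T I = 0 := by
  classical
  rw [ind_apply, if_neg h]

lemma ind_nonneg (I : (Ideal (𝓞 E))⁰) : 0 ≤ ind T I := by
  classical
  rw [ind_apply]; split_ifs <;> norm_num

lemma ind_le_one (I : (Ideal (𝓞 E))⁰) : ind T I ≤ 1 := by
  classical
  rw [ind_apply]; split_ifs <;> norm_num

lemma ind_pr_of_notMem {v : HeightOneSpectrum (𝓞 E)} (hv : v ∉ T) : ind T (pr v) = 1 :=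
  ind_of_cop T ((cop_pr T v).mpr hv)

variable (E) in
/-- `I ↦ [I prime to T] * N(I)^(-s)` as a monoid homomorphism. -/
noncomputable def normPowT (s : ℝ) : (Ideal (𝓞 E))⁰ →* ℝ := ind T * normPow E s

lemma normPowT_apply (s : ℝ) (I : (Ideal (𝓞 E))⁰) :
    normPowT E T s I = ind T I * normPow E s I := rfl

lemma normPowT_nonneg (s : ℝ) (I : (Ideal (𝓞 E))⁰) : 0 ≤ normPowT E T s I :=
  mul_nonneg (ind_nonneg T I) (normPow_nonneg E s I)

lemma normPowT_le (s : ℝ) (I : (Ideal (𝓞 E))⁰) : normPowT E T s I ≤ normPow E s I := by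
  rw [normPowT_apply]
  exact mul_le_of_le_one_left (normPow_nonneg E s I) (ind_le_one T I)

lemma summable_normPowT {s : ℝ} (hs : 1 < s) : Summable (fun I => normPowT E T s I) :=
  Summable.of_nonneg_of_le (normPowT_nonneg T s) (normPowT_le T s) (summable_normPow E hs)

variable (E) in
/-- The zeta function of `E` with the Euler factors at `T` removed, at a real point. -/
noncomputable def zetaT (s : ℝ) : ℝ := ∑' I, normPowT E T s I

lemma zetaT_nonneg (s : ℝ) : 0 ≤ zetaT E T s := tsum_nonneg (normPowT_nonneg T s)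

lemma zetaT_le_zetaR {s : ℝ} (hs : 1 < s) : zetaT E T s ≤ zetaR E s :=
  (summable_normPowT T hs).tsum_le_tsum (normPowT_le T s) (summable_normPow E hs)

lemma normPowT_pr_le_half {s : ℝ} (hs : 1 ≤ s) (v : HeightOneSpectrum (𝓞 E)) :
    normPowT E T s (pr v) ≤ 1 / 2 :=
  (normPowT_le T s _).trans (normPow_pr_le_half E hs v)

end Coprime

section Basics

variable {E : Type*} [Field E] [NumberField E]
variable (T : Finset (HeightOneSpectrum (𝓞 E)))
variable {G : Type*} [CommGroup G] [Fintype G] (cl : (Ideal (𝓞 E))⁰ →* G)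

/-- The partial zeta function of the class `g`: the sum of `N(I)^(-s)` over the nonzero ideals
`I` prime to `T` with `cl I = g` (written with the indicator function of coprimality). -/
noncomputable def pz (g : G) (s : ℝ) : ℝ :=
  ∑' I : {I : (Ideal (𝓞 E))⁰ // cl I = g}, normPowT E T s I.1

lemma pz_nonneg (g : G) (s : ℝ) : 0 ≤ pz T cl g s := tsum_nonneg (fun I => normPowT_nonneg T s I.1)

/-- `pz` as a sum over the ideals prime to `T` in the class `g`. -/
lemma pz_eq_tsum_cop (g : G) (s : ℝ) :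
    pz T cl g s = ∑' I : {I : (Ideal (𝓞 E))⁰ // cl I = g ∧ Cop T I},
      ((absNorm (I.1 : Ideal (𝓞 E)) : ℝ)) ^ (-s) := by
  classical
  let e : {I : (Ideal (𝓞 E))⁰ // cl I = g ∧ Cop T I} ≃
      {J : {I : (Ideal (𝓞 E))⁰ // cl I = g} // Cop T J.1} :=
    { toFun := fun I => ⟨⟨I.1, I.2.1⟩, I.2.2⟩
      invFun := fun J => ⟨J.1.1, J.1.2, J.2⟩
      left_inv := fun _ => rfl
      right_inv := fun _ => rfl }
  rw [pz]
  have h1 : ∑' I : {I : (Ideal (𝓞 E))⁰ // cl I = g}, normPowT E T s I.1 =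
      ∑' J : {J : {I : (Ideal (𝓞 E))⁰ // cl I = g} // Cop T J.1}, normPowT E T s J.1.1 := by
    symm
    apply tsum_subtype_eq_of_support_subset (f := fun I : {I : (Ideal (𝓞 E))⁰ // cl I = g} =>
      normPowT E T s I.1) (s := {J | Cop T J.1})
    intro J hJ
    by_contra hc
    apply hJ
    show normPowT E T s J.1 = 0
    rw [normPowT_apply, ind_of_not_cop T hc, zero_mul]
  rw [h1, ← e.tsum_eq]
  refine tsum_congr (fun I => ?_)
  show normPowT E T s I.1 = _
  rw [normPowT_apply, ind_of_cop T I.2.2, one_mul, normPow_apply]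

/-- The coefficient function `I ↦ χ(cl I) [I prime to T] N(I)^(-s)`. -/
noncomputable def twist (χ : G →* ℂˣ) (s : ℝ) : (Ideal (𝓞 E))⁰ →* ℂ :=
  ((Units.coeHom ℂ).comp (χ.comp cl)) *
    ((Complex.ofRealHom : ℝ →+* ℂ).toMonoidHom.comp (normPowT E T s))

lemma twist_apply (χ : G →* ℂˣ) (s : ℝ) (I : (Ideal (𝓞 E))⁰) :
    twist T cl χ s I = ((χ (cl I) : ℂˣ) : ℂ) * ((normPowT E T s I : ℝ) : ℂ) := rfl

lemma norm_twist (χ : G →* ℂˣ) (s : ℝ) (I : (Ideal (𝓞 E))⁰) :
    ‖twist T cl χ s I‖ = normPowT E T s I := by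
  rw [twist_apply, norm_mul, norm_char, one_mul, Complex.norm_real,
    Real.norm_of_nonneg (normPowT_nonneg T s I)]

lemma summable_norm_twist (χ : G →* ℂˣ) {s : ℝ} (hs : 1 < s) :
    Summable (fun I => ‖twist T cl χ s I‖) := by
  simp only [norm_twist]
  exact summable_normPowT T hs

/-- The `L`-series of a character of `G` at a real point. -/
noncomputable def Lfun (χ : G →* ℂˣ) (s : ℝ) : ℂ := ∑' I, twist T cl χ s I

/-- The Euler product of `Lfun χ s`. -/
theorem tendsto_euler_Lfun (χ : G →* ℂˣ) {s : ℝ} (hs : 1 < s) :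
    Tendsto (fun S : Finset (HeightOneSpectrum (𝓞 E)) =>
      ∏ v ∈ S, (1 - ((χ (cl (pr v)) : ℂˣ) : ℂ) * ((normPowT E T s (pr v) : ℝ) : ℂ))⁻¹)
      atTop (𝓝 (Lfun T cl χ s)) :=
  tendsto_prod_one_sub_inv (twist T cl χ s) (summable_norm_twist T cl χ hs)

lemma Lfun_one (s : ℝ) : Lfun T cl (1 : G →* ℂˣ) s = ((zetaT E T s : ℝ) : ℂ) := by
  rw [Lfun, zetaT, Complex.ofReal_tsum]
  refine tsum_congr (fun I => ?_)
  rw [twist_apply]
  simp

/-- The `L`-series as a combination of the partial zeta functions of the classes. -/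
theorem Lfun_eq_sum_pz (χ : G →* ℂˣ) {s : ℝ} (hs : 1 < s) :
    Lfun T cl χ s = ∑ g : G, ((χ g : ℂˣ) : ℂ) * ((pz T cl g s : ℝ) : ℂ) := by
  have hsum : Summable (fun I => twist T cl χ s I) := (summable_norm_twist T cl χ hs).of_norm
  have hsum' : Summable (fun p : (Σ g : G, {I : (Ideal (𝓞 E))⁰ // cl I = g}) =>
      twist T cl χ s p.2.1) :=
    (Equiv.sigmaFiberEquiv (fun I : (Ideal (𝓞 E))⁰ => cl I)).summable_iff.mpr hsum
  have e0 : ∀ g : G, Summable
      (fun I : {I : (Ideal (𝓞 E))⁰ // cl I = g} => twist T cl χ s I.1) :=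
    fun g => hsum.subtype _
  have e1 : Lfun T cl χ s =
      ∑' p : (Σ g : G, {I : (Ideal (𝓞 E))⁰ // cl I = g}), twist T cl χ s p.2.1 := by
    rw [Lfun, ← (Equiv.sigmaFiberEquiv (fun I : (Ideal (𝓞 E))⁰ => cl I)).tsum_eq]
    rfl
  have e2 := Summable.tsum_sigma' (f := fun p : (Σ g : G,
    {I : (Ideal (𝓞 E))⁰ // cl I = g}) => twist T cl χ s p.2.1) e0 hsum'
  rw [e1, e2, tsum_fintype]
  refine Finset.sum_congr rfl (fun g _ => ?_)
  rw [pz, Complex.ofReal_tsum, ← tsum_mul_left]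
  refine tsum_congr (fun I => ?_)
  rw [twist_apply, I.2]

/-- If the partial zeta functions differ by bounded functions on `(1, 2]`, the `L`-series of a
nontrivial character is bounded on `(1, 2]`. -/
theorem exists_bound_Lfun
    (hZ : ∀ g g' : G, ∃ B : ℝ, ∀ s : ℝ, 1 < s → s ≤ 2 →
      |pz T cl g s - pz T cl g' s| ≤ B)
    (χ : G →* ℂˣ) (hχ : χ ≠ 1) :
    ∃ B : ℝ, ∀ s : ℝ, 1 < s → s ≤ 2 → ‖Lfun T cl χ s‖ ≤ B := by
  choose B hB using fun g => hZ g 1
  refine ⟨∑ g, B g, fun s hs1 hs2 => ?_⟩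
  have hsum0 : ∑ g : G, ((χ g : ℂˣ) : ℂ) = 0 := by
    have hne : (Units.coeHom ℂ).comp χ ≠ 1 := by
      intro h
      apply hχ
      ext g
      have := DFunLike.congr_fun h g
      simpa using this
    have := sum_hom_units_eq_zero ((Units.coeHom ℂ).comp χ) hne
    simpa using this
  have h1 : Lfun T cl χ s = ∑ g : G, ((χ g : ℂˣ) : ℂ) *
      (((pz T cl g s - pz T cl 1 s : ℝ)) : ℂ) := by
    rw [Lfun_eq_sum_pz T cl χ hs1]
    have : ∑ g : G, ((χ g : ℂˣ) : ℂ) * (((pz T cl g s - pz T cl 1 s : ℝ)) : ℂ) =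
        ∑ g : G, ((χ g : ℂˣ) : ℂ) * ((pz T cl g s : ℝ) : ℂ) -
          (∑ g : G, ((χ g : ℂˣ) : ℂ)) * ((pz T cl 1 s : ℝ) : ℂ) := by
      rw [Finset.sum_mul, ← Finset.sum_sub_distrib]
      refine Finset.sum_congr rfl (fun g _ => ?_)
      push_cast
      ring
    rw [this, hsum0, zero_mul, sub_zero]
  rw [h1]
  refine (norm_sum_le _ _).trans (Finset.sum_le_sum (fun g _ => ?_))
  rw [norm_mul, norm_char, one_mul, Complex.norm_real, Real.norm_eq_abs]
  exact hB g s hs1 hs2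

end Basics

section Main

variable (E E' : Type*) [Field E] [NumberField E] [Field E'] [NumberField E'] [Algebra E E']
variable {E} (T : Finset (HeightOneSpectrum (𝓞 E)))
variable {G : Type*} [CommGroup G] [Fintype G] (cl : (Ideal (𝓞 E))⁰ →* G)
variable (H : Subgroup G)

/-- The character of `G` attached to a character of the quotient by `H`. -/
noncomputable def liftChar (ψ : (G ⧸ H) →* ℂˣ) : G →* ℂˣ := ψ.comp (QuotientGroup.mk' H)

lemma liftChar_apply (ψ : (G ⧸ H) →* ℂˣ) (g : G) : liftChar H ψ g = ψ (g : G ⧸ H) := rfl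

lemma liftChar_one : liftChar H (1 : (G ⧸ H) →* ℂˣ) = 1 := rfl

lemma liftChar_ne_one {ψ : (G ⧸ H) →* ℂˣ} (hψ : ψ ≠ 1) : liftChar H ψ ≠ 1 := by
  intro h
  apply hψ
  refine MonoidHom.ext (fun a => ?_)
  obtain ⟨g, rfl⟩ := QuotientGroup.mk_surjective a
  have := DFunLike.congr_fun h g
  simpa [liftChar_apply] using this

/-- The Euler factor at `v` of the product of all `L`-series of characters of `G / H`. -/
noncomputable def eulerFactor (s : ℝ) (v : HeightOneSpectrum (𝓞 E)) : ℂ :=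
  ∏ ψ : (G ⧸ H) →* ℂˣ,
    (1 - ((liftChar H ψ (cl (pr v)) : ℂˣ) : ℂ) * ((normPowT E T s (pr v) : ℝ) : ℂ))⁻¹

lemma one_le_norm_eulerFactor {s : ℝ} (hs : 1 ≤ s) (v : HeightOneSpectrum (𝓞 E)) :
    1 ≤ ‖eulerFactor T cl H s v‖ := by
  have hx := normPowT_pr_le_half T hs v
  exact one_le_norm_prod_inv ((cl (pr v) : G) : G ⧸ H)
    (normPowT_nonneg T s (pr v)) (by linarith)

lemma norm_eulerFactor_of_mem {s : ℝ} (hs : 1 ≤ s) (v : HeightOneSpectrum (𝓞 E))
    (hvT : v ∉ T) (hv : cl (pr v) ∈ H) :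
    ‖eulerFactor T cl H s v‖ = ((1 - normPow E s (pr v))⁻¹) ^ H.index := by
  have hx := normPow_pr_le_half E hs v
  have h1 : ((cl (pr v) : G) : G ⧸ H) = 1 := (QuotientGroup.eq_one_iff _).mpr hv
  have h0 : normPowT E T s (pr v) = normPow E s (pr v) := by
    rw [normPowT_apply, ind_pr_of_notMem T hvT, one_mul]
  have h2 : eulerFactor T cl H s v = (((1 - normPow E s (pr v))⁻¹ : ℝ) : ℂ) ^ H.index := by
    unfold eulerFactor
    simp only [liftChar_apply, h1, h0]
    rw [prod_inv_one]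
    push_cast
    rfl
  rw [h2, norm_pow, Complex.norm_real, Real.norm_of_nonneg]
  exact inv_nonneg.mpr (by linarith)

/-- Lower bound for the product of the `L`-series by finitely many Euler factors at primes
outside `T` whose class lies in `H`. -/
theorem prod_le_norm_prod_Lfun {s : ℝ} (hs : 1 < s) (S : Finset (HeightOneSpectrum (𝓞 E)))
    (hS : ∀ v ∈ S, v ∉ T ∧ cl (pr v) ∈ H) :
    ∏ v ∈ S, ((1 - normPow E s (pr v))⁻¹) ^ H.index ≤
      ‖∏ ψ : (G ⧸ H) →* ℂˣ, Lfun T cl (liftChar H ψ) s‖ := by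
  classical
  have htend : Tendsto (fun S' : Finset (HeightOneSpectrum (𝓞 E)) =>
      ∏ v ∈ S', eulerFactor T cl H s v) atTop
      (𝓝 (∏ ψ : (G ⧸ H) →* ℂˣ, Lfun T cl (liftChar H ψ) s)) := by
    have h1 := tendsto_finsetProd (Finset.univ : Finset ((G ⧸ H) →* ℂˣ))
      (fun ψ _ => tendsto_euler_Lfun T cl (liftChar H ψ) hs)
    refine h1.congr (fun S' => ?_)
    rw [Finset.prod_comm]
    rfl
  have hnorm := htend.norm
  refine ge_of_tendsto hnorm ?_
  filter_upwards [eventually_ge_atTop S] with S' hS'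
  rw [norm_prod]
  calc ∏ v ∈ S, ((1 - normPow E s (pr v))⁻¹) ^ H.index
      = ∏ v ∈ S, ‖eulerFactor T cl H s v‖ :=
        Finset.prod_congr rfl (fun v hv =>
          (norm_eulerFactor_of_mem T cl H hs.le v (hS v hv).1 (hS v hv).2).symm)
    _ ≤ ∏ v ∈ S', ‖eulerFactor T cl H s v‖ :=
        Finset.prod_le_prod_of_subset_of_one_le hS' (fun v _ => norm_nonneg _)
          (fun v _ _ => one_le_norm_eulerFactor T cl H hs.le v)

open scoped Classical in
/-- The key inequality between `ζ_{E'}` and the product of the `L`-series, for a real `s > 1`. -/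
theorem zetaR_pow_le {s : ℝ} (hs1 : 1 < s) (T₀ : Finset (HeightOneSpectrum (𝓞 E')))
    (hH : ∀ w : HeightOneSpectrum (𝓞 E'), w ∉ T₀ → w.asIdeal.inertiaDeg (𝓞 E) = 1 →
      w.under (𝓞 E) ∉ T ∧ cl (pr (w.under (𝓞 E))) ∈ H) :
    zetaR E' s ^ H.index ≤
      (2 ^ T₀.card * Real.exp (2 * ((Module.finrank E E' : ℝ) * zetaR E 2))) ^ H.index *
        ‖∏ ψ : (G ⧸ H) →* ℂˣ, Lfun T cl (liftChar H ψ) s‖ ^ (Module.finrank E E') := by
  refine le_of_tendsto' ((tendsto_euler_zetaR E' hs1).pow H.index) (fun U => ?_)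
  set C₀ : ℝ := 2 ^ T₀.card * Real.exp (2 * ((Module.finrank E E' : ℝ) * zetaR E 2)) with hC₀
  have hC₀pos : 0 ≤ C₀ := by positivity
  set good : HeightOneSpectrum (𝓞 E') → Prop :=
    fun w => w ∉ T₀ ∧ w.asIdeal.inertiaDeg (𝓞 E) = 1 with hgood
  have hfac0 : ∀ w : HeightOneSpectrum (𝓞 E'), 0 ≤ (1 - normPow E' s (pr w))⁻¹ := by
    intro w
    have := normPow_pr_le_half E' hs1.le w
    exact inv_nonneg.mpr (by linarith)
  have hfacE : ∀ v : HeightOneSpectrum (𝓞 E), 0 ≤ (1 - normPow E s (pr v))⁻¹ := by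
    intro v
    have := normPow_pr_le_half E hs1.le v
    exact inv_nonneg.mpr (by linarith)
  have hb := prod_bad_le E E' hs1.le T₀ (U.filter (fun w => ¬ good w))
    (fun w hw => (Finset.mem_filter.mp hw).2)
  have hg := prod_good_le E E' hs1.le (U.filter good)
    (fun w hw => ((Finset.mem_filter.mp hw).2).2)
  set S := (U.filter good).image (fun w => w.under (𝓞 E)) with hS
  have hSH : ∀ v ∈ S, v ∉ T ∧ cl (pr v) ∈ H := by
    intro v hv
    obtain ⟨w, hw, rfl⟩ := Finset.mem_image.mp hv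
    obtain ⟨_, hw1, hw2⟩ := Finset.mem_filter.mp hw
    exact hH w hw1 hw2
  have hL := prod_le_norm_prod_Lfun T cl H hs1 S hSH
  have h1 : ∏ w ∈ U, (1 - normPow E' s (pr w))⁻¹ ≤
      (∏ v ∈ S, ((1 - normPow E s (pr v))⁻¹) ^ (Module.finrank E E')) * C₀ := by
    rw [← Finset.prod_filter_mul_prod_filter_not U good]
    exact mul_le_mul hg hb (Finset.prod_nonneg (fun w _ => hfac0 w))
      (Finset.prod_nonneg (fun v _ => pow_nonneg (hfacE v) _))
  calc (∏ w ∈ U, (1 - normPow E' s (pr w))⁻¹) ^ H.index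
      ≤ ((∏ v ∈ S, ((1 - normPow E s (pr v))⁻¹) ^ (Module.finrank E E')) * C₀) ^ H.index :=
        pow_le_pow_left₀ (Finset.prod_nonneg (fun w _ => hfac0 w)) h1 _
    _ = C₀ ^ H.index *
        (∏ v ∈ S, ((1 - normPow E s (pr v))⁻¹) ^ H.index) ^ (Module.finrank E E') := by
        rw [mul_pow, Finset.prod_pow, Finset.prod_pow, ← pow_mul, ← pow_mul,
          mul_comm (Module.finrank E E') H.index, mul_comm]
    _ ≤ C₀ ^ H.index *
        ‖∏ ψ : (G ⧸ H) →* ℂˣ, Lfun T cl (liftChar H ψ) s‖ ^ (Module.finrank E E') := by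
        refine mul_le_mul_of_nonneg_left ?_ (pow_nonneg hC₀pos _)
        exact pow_le_pow_left₀ (Finset.prod_nonneg (fun v _ => pow_nonneg (hfacE v) _)) hL _

/-- Bound for the product of all `L`-series of characters of `G / H` on `(1, 2]`. -/
theorem exists_bound_prod_Lfun
    (hZ : ∀ g g' : G, ∃ B : ℝ, ∀ s : ℝ, 1 < s → s ≤ 2 →
      |pz T cl g s - pz T cl g' s| ≤ B) :
    ∃ B' : ℝ, 0 ≤ B' ∧ ∀ s : ℝ, 1 < s → s ≤ 2 →
      ‖∏ ψ : (G ⧸ H) →* ℂˣ, Lfun T cl (liftChar H ψ) s‖ ≤ zetaR E s * B' := by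
  classical
  have hex : ∀ ψ : (G ⧸ H) →* ℂˣ, ∃ B : ℝ, 0 ≤ B ∧
      (ψ ≠ 1 → ∀ s : ℝ, 1 < s → s ≤ 2 → ‖Lfun T cl (liftChar H ψ) s‖ ≤ B) := by
    intro ψ
    by_cases hψ : ψ = 1
    · exact ⟨0, le_rfl, fun h => absurd hψ h⟩
    · obtain ⟨B, hB⟩ := exists_bound_Lfun T cl hZ _ (liftChar_ne_one H hψ)
      exact ⟨max B 0, le_max_right _ _, fun _ s h1 h2 => (hB s h1 h2).trans (le_max_left _ _)⟩
  choose B hB0 hB using hex
  refine ⟨∏ ψ ∈ Finset.univ.erase (1 : (G ⧸ H) →* ℂˣ), B ψ,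
    Finset.prod_nonneg (fun ψ _ => hB0 ψ), fun s hs1 hs2 => ?_⟩
  rw [norm_prod, ← Finset.mul_prod_erase Finset.univ _ (Finset.mem_univ
    (1 : (G ⧸ H) →* ℂˣ))]
  have h1 : ‖Lfun T cl (liftChar H (1 : (G ⧸ H) →* ℂˣ)) s‖ = zetaT E T s := by
    rw [liftChar_one, Lfun_one, Complex.norm_real, Real.norm_of_nonneg (zetaT_nonneg T s)]
  rw [h1]
  refine mul_le_mul (zetaT_le_zetaR T hs1) ?_
    (Finset.prod_nonneg (fun ψ _ => norm_nonneg _)) (zetaR_nonneg E s)
  refine Finset.prod_le_prod (fun ψ _ => norm_nonneg _) (fun ψ hψ => ?_)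
  exact hB ψ (Finset.ne_of_mem_erase hψ) s hs1 hs2

/-- **The analytic index inequality for generalized class groups.**  Let `E'/E` be an extension
of number fields, `T` a finite set of primes of `E`, `cl` a monoid homomorphism from the nonzero
ideals of `E` to a finite commutative group `G`, and `H ≤ G` a subgroup such that for every prime
`w` of `E'` of relative degree one outside a finite set `T₀`, the prime `w ∩ E` is outside `T` and
its class lies in `H`.  If the partial zeta functions `pz T cl g` of any two classes differ by a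
bounded function on `(1, 2]`, then `[G : H] ≤ [E' : E]`. -/
theorem index_le_finrank (T₀ : Finset (HeightOneSpectrum (𝓞 E')))
    (hH : ∀ w : HeightOneSpectrum (𝓞 E'), w ∉ T₀ → w.asIdeal.inertiaDeg (𝓞 E) = 1 →
      w.under (𝓞 E) ∉ T ∧ cl (pr (w.under (𝓞 E))) ∈ H)
    (hZ : ∀ g g' : G, ∃ B : ℝ, ∀ s : ℝ, 1 < s → s ≤ 2 →
      |pz T cl g s - pz T cl g' s| ≤ B) :
    H.index ≤ Module.finrank E E' := by
  by_contra hlt
  rw [not_le] at hlt
  obtain ⟨B', hB'0, hB'⟩ := exists_bound_prod_Lfun T cl H hZ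
  set n := Module.finrank E E' with hn
  set h := H.index with hh
  set C₀ : ℝ := 2 ^ T₀.card * Real.exp (2 * ((n : ℝ) * zetaR E 2)) with hC₀
  have hC₀pos : 0 ≤ C₀ := by positivity
  set K : ℝ := C₀ ^ h * B' ^ n with hK
  have hK0 : 0 ≤ K := by positivity
  have hineq : ∀ s : ℝ, 1 < s → s ≤ 2 → zetaR E' s ^ h ≤ K * zetaR E s ^ n := by
    intro s hs1 hs2
    have h1 := zetaR_pow_le E' T cl H hs1 T₀ hH
    have h2 := hB' s hs1 hs2
    calc zetaR E' s ^ h ≤ C₀ ^ h *
          ‖∏ ψ : (G ⧸ H) →* ℂˣ, Lfun T cl (liftChar H ψ) s‖ ^ n := h1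
      _ ≤ C₀ ^ h * (zetaR E s * B') ^ n := by
          refine mul_le_mul_of_nonneg_left ?_ (pow_nonneg hC₀pos _)
          exact pow_le_pow_left₀ (norm_nonneg _) h2 _
      _ = K * zetaR E s ^ n := by rw [hK, mul_pow]; ring
  have hρ' := tendsto_sub_one_mul_zetaR E'
  have hρ := tendsto_sub_one_mul_zetaR E
  have hF : Tendsto (fun s : ℝ => ((s - 1) * zetaR E' s) ^ h) (𝓝[>] 1)
      (𝓝 (dedekindZeta_residue E' ^ h)) := hρ'.pow h
  have hpow : Tendsto (fun s : ℝ => (s - 1) ^ (h - n)) (𝓝[>] 1) (𝓝 0) := by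
    have hc : Continuous (fun s : ℝ => (s - 1) ^ (h - n)) := by fun_prop
    have h0 : ((1 : ℝ) - 1) ^ (h - n) = 0 := by
      rw [sub_self, zero_pow (by omega)]
    have := hc.tendsto 1
    rw [h0] at this
    exact this.mono_left nhdsWithin_le_nhds
  have hG : Tendsto (fun s : ℝ => K * ((s - 1) * zetaR E s) ^ n * (s - 1) ^ (h - n)) (𝓝[>] 1)
      (𝓝 (K * dedekindZeta_residue E ^ n * 0)) :=
    ((hρ.pow n).const_mul K).mul hpow
  have hev : ∀ᶠ s : ℝ in 𝓝[>] 1, ((s - 1) * zetaR E' s) ^ h ≤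
      K * ((s - 1) * zetaR E s) ^ n * (s - 1) ^ (h - n) := by
    filter_upwards [Ioc_mem_nhdsGT (show (1 : ℝ) < 2 by norm_num)] with s hs
    have hs0 : 0 ≤ s - 1 := by linarith [hs.1]
    have h3 := hineq s hs.1 hs.2
    have h4 : (s - 1) ^ h = (s - 1) ^ n * (s - 1) ^ (h - n) := by
      rw [← pow_add]
      congr 1
      omega
    calc ((s - 1) * zetaR E' s) ^ h = (s - 1) ^ h * zetaR E' s ^ h := mul_pow _ _ _
      _ ≤ (s - 1) ^ h * (K * zetaR E s ^ n) :=
          mul_le_mul_of_nonneg_left h3 (pow_nonneg hs0 _)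
      _ = K * ((s - 1) * zetaR E s) ^ n * (s - 1) ^ (h - n) := by
          rw [h4, mul_pow]; ring
  have hle := le_of_tendsto_of_tendsto hF hG hev
  rw [mul_zero] at hle
  have hpos : 0 < dedekindZeta_residue E' ^ h := pow_pos (dedekindZeta_residue_pos E') _
  linarith

end Main

end Fermat.Agent.S55.Global.AnalyticIndex
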