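import Mathlib
import Fermat.Agent.S55.Global.AnalyticIndex

/-!
# The analytic index inequality with hypotheses only at primes of absolute degree one

Variant of `AnalyticIndex.index_le_finrank`: the hypothesis on the subgroup `H` is only required
at the primes `w` of `E'` (outside a finite set) whose absolute norm is a prime number.
The other primes of `E'` have absolute degree `≥ 2` and contribute a bounded factor to the Euler
product of `ζ_{E'}` (apply `IndexInequality.prod_bad_le` with base field `ℚ`).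
-/

set_option autoImplicit false
set_option linter.unusedSectionVars false

namespace Fermat.Agent.S55.Global.AnalyticIndexAbs

open NumberField IsDedekindDomain Ideal Filter Topology nonZeroDivisors
open Fermat.Agent.S14.Zeta Fermat.Agent.S14.EulerIdeal Fermat.Agent.S14.CharProd
open Fermat.Agent.S14.IndexInequality Fermat.Agent.S55.Global.AnalyticIndex

attribute [local instance] neZero_exponent fintypeChar

/-- The absolute norm of a nonzero prime of `𝓞 ℚ` is a prime number. -/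
lemma prime_absNorm_rat (v : HeightOneSpectrum (𝓞 ℚ)) : (absNorm v.asIdeal).Prime := by
  have hmax := v.isMaximal
  let _ : Field (𝓞 ℚ ⧸ v.asIdeal) := Ideal.Quotient.field v.asIdeal
  have : Finite (𝓞 ℚ ⧸ v.asIdeal) := Ideal.finiteQuotientOfFreeOfNeBot v.asIdeal v.ne_bot
  obtain ⟨p, hp⟩ := CharP.exists (𝓞 ℚ ⧸ v.asIdeal)
  have hpp : p.Prime := by
    rcases CharP.char_is_prime_or_zero (𝓞 ℚ ⧸ v.asIdeal) p with h | h
    · exact h
    · exfalso
      subst h
      have := CharP.charP_to_charZero (𝓞 ℚ ⧸ v.asIdeal)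
      exact not_finite (𝓞 ℚ ⧸ v.asIdeal)
  have hmem : (p : 𝓞 ℚ) ∈ v.asIdeal := by
    rw [← Ideal.Quotient.eq_zero_iff_mem, map_natCast]
    exact CharP.cast_eq_zero (𝓞 ℚ ⧸ v.asIdeal) p
  have hdvd : v.asIdeal ∣ span {(p : 𝓞 ℚ)} :=
    Ideal.dvd_iff_le.mpr ((span_singleton_le_iff_mem _).mpr hmem)
  have h1 : absNorm v.asIdeal ∣ absNorm (span {(p : 𝓞 ℚ)}) := map_dvd absNorm hdvd
  rw [absNorm_span_natCast, RingOfIntegers.rank, Module.finrank_self, pow_one] at h1
  rcases (Nat.dvd_prime hpp).mp h1 with h | h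
  · exfalso
    exact v.isPrime.ne_top (absNorm_eq_one_iff.mp h)
  · rw [h]
    exact hpp

section Tower

variable (E E' : Type*) [Field E] [NumberField E] [Field E'] [NumberField E'] [Algebra E E']

/-- A prime of absolute degree one has prime absolute norm. -/
lemma prime_absNorm_of_inertiaDeg_rat (w : HeightOneSpectrum (𝓞 E'))
    (h : w.asIdeal.inertiaDeg (𝓞 ℚ) = 1) : (absNorm w.asIdeal).Prime := by
  rw [← Fermat.Agent.S14.PrimeArith.absNorm_under_eq ℚ E' w h]
  exact prime_absNorm_rat _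

/-- A prime of absolute degree one has relative degree one. -/
lemma inertiaDeg_eq_one_of_rat (w : HeightOneSpectrum (𝓞 E'))
    (h : w.asIdeal.inertiaDeg (𝓞 ℚ) = 1) : w.asIdeal.inertiaDeg (𝓞 E) = 1 := by
  have hlies : w.asIdeal.LiesOver (w.under (𝓞 E)).asIdeal := ⟨rfl⟩
  have ht := Ideal.inertiaDeg_tower (R := 𝓞 ℚ) (S := 𝓞 E) (T := 𝓞 E')
    (w.under (𝓞 E)).asIdeal w.asIdeal
  rw [h] at ht
  exact Nat.eq_one_of_mul_eq_one_left ht.symm

end Tower

section Main

variable {E : Type*} [Field E] [NumberField E]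
variable (E' : Type*) [Field E'] [NumberField E'] [Algebra E E']
variable (T : Finset (HeightOneSpectrum (𝓞 E)))
variable {G : Type*} [CommGroup G] [Fintype G] (cl : (Ideal (𝓞 E))⁰ →* G) (H : Subgroup G)

open scoped Classical in
/-- The key inequality between `ζ_{E'}` and the product of the `L`-series, for a real `s > 1`,
with the hypothesis on `H` only at the primes of prime absolute norm. -/
theorem zetaR_pow_le_abs {s : ℝ} (hs1 : 1 < s) (T₀ : Finset (HeightOneSpectrum (𝓞 E')))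
    (hH : ∀ w : HeightOneSpectrum (𝓞 E'), w ∉ T₀ → (absNorm w.asIdeal).Prime →
      w.under (𝓞 E) ∉ T ∧ cl (pr (w.under (𝓞 E))) ∈ H) :
    zetaR E' s ^ H.index ≤
      (2 ^ T₀.card * Real.exp (2 * ((Module.finrank ℚ E' : ℝ) * zetaR ℚ 2))) ^ H.index *
        ‖∏ ψ : (G ⧸ H) →* ℂˣ, Lfun T cl (liftChar H ψ) s‖ ^ (Module.finrank E E') := by
  refine le_of_tendsto' ((tendsto_euler_zetaR E' hs1).pow H.index) (fun U => ?_)
  set C₀ : ℝ := 2 ^ T₀.card * Real.exp (2 * ((Module.finrank ℚ E' : ℝ) * zetaR ℚ 2)) with hC₀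
  have hC₀pos : 0 ≤ C₀ := by positivity
  set good : HeightOneSpectrum (𝓞 E') → Prop :=
    fun w => w ∉ T₀ ∧ w.asIdeal.inertiaDeg (𝓞 ℚ) = 1 with hgood
  have hfac0 : ∀ w : HeightOneSpectrum (𝓞 E'), 0 ≤ (1 - normPow E' s (pr w))⁻¹ := by
    intro w
    have := normPow_pr_le_half E' hs1.le w
    exact inv_nonneg.mpr (by linarith)
  have hfacE : ∀ v : HeightOneSpectrum (𝓞 E), 0 ≤ (1 - normPow E s (pr v))⁻¹ := by
    intro v
    have := normPow_pr_le_half E hs1.le v
    exact inv_nonneg.mpr (by linarith)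
  have hb := prod_bad_le ℚ E' hs1.le T₀ (U.filter (fun w => ¬ good w))
    (fun w hw => (Finset.mem_filter.mp hw).2)
  have hg := prod_good_le E E' hs1.le (U.filter good)
    (fun w hw => inertiaDeg_eq_one_of_rat E E' w ((Finset.mem_filter.mp hw).2).2)
  set S := (U.filter good).image (fun w => w.under (𝓞 E)) with hS
  have hSH : ∀ v ∈ S, v ∉ T ∧ cl (pr v) ∈ H := by
    intro v hv
    obtain ⟨w, hw, rfl⟩ := Finset.mem_image.mp hv
    obtain ⟨_, hw1, hw2⟩ := Finset.mem_filter.mp hw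
    exact hH w hw1 (prime_absNorm_of_inertiaDeg_rat E' w hw2)
  have hL := prod_le_norm_prod_Lfun T cl H hs1 S hSH
  have h1 : ∏ w ∈ U, (1 - normPow E' s (pr w))⁻¹ ≤
      (∏ v ∈ S, ((1 - normPow E s (pr v))⁻¹) ^ (Module.finrank E E')) * C₀ := by
    rw [← Finset.prod_filter_mul_prod_filter_not U good]
    exact mul_le_mul hg hb (Finset.prod_nonneg (fun w _ => hfac0 w))
      (Finset.prod_nonneg (fun v _ => pow_nonneg (hfacE v) _))
  calc (∏ w ∈ U, (1 - normPow E' s (pr w))⁻¹) ^ H.index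
      ≤ ((∏ v ∈ S, ((1 - normPow E s (pr v))⁻¹) ^ (Module.finrank E E')) * C₀) ^ H.index :=
        pow_le_pow_left₀ (Finset.prod_nonneg (fun w _ => hfac0 w)) h1 _
    _ = C₀ ^ H.index *
        (∏ v ∈ S, ((1 - normPow E s (pr v))⁻¹) ^ H.index) ^ (Module.finrank E E') := by
        rw [mul_pow, Finset.prod_pow, Finset.prod_pow, ← pow_mul, ← pow_mul,
          mul_comm (Module.finrank E E') H.index, mul_comm]
    _ ≤ C₀ ^ H.index *
        ‖∏ ψ : (G ⧸ H) →* ℂˣ, Lfun T cl (liftChar H ψ) s‖ ^ (Module.finrank E E') := by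
        refine mul_le_mul_of_nonneg_left ?_ (pow_nonneg hC₀pos _)
        exact pow_le_pow_left₀ (Finset.prod_nonneg (fun v _ => pow_nonneg (hfacE v) _)) hL _

/-- **The analytic index inequality, absolute-degree-one form.**  As `index_le_finrank`, but the
hypothesis on `H` is only required at the primes `w` of `E'` outside `T₀` whose absolute norm is a
prime number. -/
theorem index_le_finrank_abs (T₀ : Finset (HeightOneSpectrum (𝓞 E')))
    (hH : ∀ w : HeightOneSpectrum (𝓞 E'), w ∉ T₀ → (absNorm w.asIdeal).Prime →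
      w.under (𝓞 E) ∉ T ∧ cl (pr (w.under (𝓞 E))) ∈ H)
    (hZ : ∀ g g' : G, ∃ B : ℝ, ∀ s : ℝ, 1 < s → s ≤ 2 →
      |pz T cl g s - pz T cl g' s| ≤ B) :
    H.index ≤ Module.finrank E E' := by
  by_contra hlt
  rw [not_le] at hlt
  obtain ⟨B', hB'0, hB'⟩ := exists_bound_prod_Lfun T cl H hZ
  set n := Module.finrank E E' with hn
  set h := H.index with hh
  set C₀ : ℝ := 2 ^ T₀.card * Real.exp (2 * ((Module.finrank ℚ E' : ℝ) * zetaR ℚ 2)) with hC₀
  have hC₀pos : 0 ≤ C₀ := by positivity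
  set K : ℝ := C₀ ^ h * B' ^ n with hK
  have hK0 : 0 ≤ K := by positivity
  have hineq : ∀ s : ℝ, 1 < s → s ≤ 2 → zetaR E' s ^ h ≤ K * zetaR E s ^ n := by
    intro s hs1 hs2
    have h1 := zetaR_pow_le_abs E' T cl H hs1 T₀ hH
    have h2 := hB' s hs1 hs2
    calc zetaR E' s ^ h ≤ C₀ ^ h *
          ‖∏ ψ : (G ⧸ H) →* ℂˣ, Lfun T cl (liftChar H ψ) s‖ ^ n := h1
      _ ≤ C₀ ^ h * (zetaR E s * B') ^ n := by
          refine mul_le_mul_of_nonneg_left ?_ (pow_nonneg hC₀pos _)
          exact pow_le_pow_left₀ (norm_nonneg _) h2 _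
      _ = K * zetaR E s ^ n := by rw [hK, mul_pow]; ring
  have hρ' := tendsto_sub_one_mul_zetaR E'
  have hρ := tendsto_sub_one_mul_zetaR E
  have hF : Tendsto (fun s : ℝ => ((s - 1) * zetaR E' s) ^ h) (𝓝[>] 1)
      (𝓝 (dedekindZeta_residue E' ^ h)) := hρ'.pow h
  have hpow : Tendsto (fun s : ℝ => (s - 1) ^ (h - n)) (𝓝[>] 1) (𝓝 0) := by
    have hc : Continuous (fun s : ℝ => (s - 1) ^ (h - n)) := by fun_prop
    have h0 : ((1 : ℝ) - 1) ^ (h - n) = 0 := by
      rw [sub_self, zero_pow (by omega)]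
    have := hc.tendsto 1
    rw [h0] at this
    exact this.mono_left nhdsWithin_le_nhds
  have hG : Tendsto (fun s : ℝ => K * ((s - 1) * zetaR E s) ^ n * (s - 1) ^ (h - n)) (𝓝[>] 1)
      (𝓝 (K * dedekindZeta_residue E ^ n * 0)) :=
    ((hρ.pow n).const_mul K).mul hpow
  have hev : ∀ᶠ s : ℝ in 𝓝[>] 1, ((s - 1) * zetaR E' s) ^ h ≤
      K * ((s - 1) * zetaR E s) ^ n * (s - 1) ^ (h - n) := by
    filter_upwards [Ioc_mem_nhdsGT (show (1 : ℝ) < 2 by norm_num)] with s hs
    have hs0 : 0 ≤ s - 1 := by linarith [hs.1]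
    have h3 := hineq s hs.1 hs.2
    have h4 : (s - 1) ^ h = (s - 1) ^ n * (s - 1) ^ (h - n) := by
      rw [← pow_add]
      congr 1
      omega
    calc ((s - 1) * zetaR E' s) ^ h = (s - 1) ^ h * zetaR E' s ^ h := mul_pow _ _ _
      _ ≤ (s - 1) ^ h * (K * zetaR E s ^ n) :=
          mul_le_mul_of_nonneg_left h3 (pow_nonneg hs0 _)
      _ = K * ((s - 1) * zetaR E s) ^ n * (s - 1) ^ (h - n) := by
          rw [h4, mul_pow]; ring
  have hle := le_of_tendsto_of_tendsto hF hG hev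
  rw [mul_zero] at hle
  have hpos : 0 < dedekindZeta_residue E' ^ h := pow_pos (dedekindZeta_residue_pos E') _
  linarith

end Main

end Fermat.Agent.S55.Global.AnalyticIndexAbs
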