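/-
S55 / Global / G.bridge2.powQ — abstract Hensel-type `p`-th root extraction in a `π`-adically
complete ring (helper2).  Mathlib only.

`A` a commutative ring, `π : A` a non-zero-divisor such that `A` is `π`-adically complete and
separated (sequence form), `p * w = π`.  Then every `1 + π ^ N * l` (`N ≥ 3`) is a `p`-th power
of an element of `1 + π ^ 2 A`.  (For `A = 𝓞_K ⊗ ℤ_T`, `π = ∏_{q ∈ T} q`, `p ∈ T`.)
-/
import Mathlib

set_option autoImplicit false

open Polynomial

namespace Fermat.Agent.S55.Global.PowAbstract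

variable {A : Type*} [CommRing A]

/-- `A` is `π`-adically complete and separated, `π` a non-zero-divisor (sequence form). -/
structure IsPiComplete (π : A) : Prop where
  regular : ∀ x : A, π * x = 0 → x = 0
  complete : ∀ f : ℕ → A, (∀ n, π ^ n ∣ f (n + 1) - f n) → ∃ z, ∀ n, π ^ n ∣ z - f n
  separated : ∀ z : A, (∀ n, π ^ n ∣ z) → z = 0

/-- `(1 + X)^p = 1 + p X + X² S`. -/
theorem exists_binom_rem (p : ℕ) :
    ∃ S : A[X], (1 + X) ^ p = 1 + C (p : A) * X + X ^ 2 * S := by
  have h : (X : A[X]) ^ 2 ∣ (1 + X) ^ p - 1 - C (p : A) * X := by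
    rw [Polynomial.X_pow_dvd_iff]
    intro d hd
    interval_cases d
    · simp [Polynomial.coeff_zero_eq_eval_zero]
    · rw [Polynomial.coeff_sub, Polynomial.coeff_sub, Polynomial.coeff_one_add_X_pow]
      simp [Polynomial.coeff_one]
  obtain ⟨S, hS⟩ := h
  exact ⟨S, by rw [← hS]; ring⟩

/-- Fixed points of `z ↦ c - π * G(z)` exist in a `π`-complete ring. -/
theorem exists_fixed_point {π : A} (h : IsPiComplete π) (G : A[X]) (c : A) :
    ∃ z : A, z = c - π * G.eval z := by
  let F : A → A := fun z => c - π * G.eval z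
  have hF : ∀ a b : A, ∀ n, π ^ n ∣ a - b → π ^ (n + 1) ∣ F a - F b := by
    intro a b n hab
    have h1 : a - b ∣ G.eval a - G.eval b := Polynomial.sub_dvd_eval_sub a b G
    obtain ⟨t, ht⟩ := hab.trans h1
    refine ⟨-t, ?_⟩
    show c - π * G.eval a - (c - π * G.eval b) = π ^ (n + 1) * -t
    have : c - π * G.eval a - (c - π * G.eval b) = -(π * (G.eval a - G.eval b)) := by ring
    rw [this, ht]
    ring
  let f : ℕ → A := fun n => F^[n] 0
  have hf : ∀ n, π ^ n ∣ f (n + 1) - f n := by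
    intro n
    induction n with
    | zero => simp
    | succ n ih =>
      show π ^ (n + 1) ∣ F^[n + 2] 0 - F^[n + 1] 0
      rw [Function.iterate_succ_apply' F (n + 1), Function.iterate_succ_apply' F n]
      have ih' : π ^ n ∣ F (F^[n] 0) - F^[n] 0 := by
        rw [← Function.iterate_succ_apply' F n]; exact ih
      exact hF _ _ n ih'
  obtain ⟨z, hz⟩ := h.complete f hf
  refine ⟨z, ?_⟩
  have hsep : ∀ n, π ^ n ∣ z - F z := by
    intro n
    have h1 : π ^ (n + 1) ∣ z - f (n + 1) := hz (n + 1)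
    have h2 : π ^ (n + 1) ∣ F (f n) - F z := by
      apply hF
      have := hz n
      rw [← dvd_neg] at this
      simpa using this
    have h3 : f (n + 1) = F (f n) := Function.iterate_succ_apply' F n 0
    have h4 : z - F z = (z - f (n + 1)) + (F (f n) - F z) := by rw [h3]; ring
    rw [h4]
    exact (pow_dvd_pow π (Nat.le_succ n)).trans (dvd_add h1 h2)
  have := h.separated _ hsep
  exact sub_eq_zero.mp this

/-- **Hensel for `p`-th powers**: if `p * w = π` then `1 + π ^ N * l` (`N ≥ 3`) is the `p`-th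
power of some `1 + π ^ 2 * z`. -/
theorem exists_pow_eq {π : A} (h : IsPiComplete π) (p : ℕ) (w : A) (hpw : (p : A) * w = π)
    (l : A) {N : ℕ} (hN : 3 ≤ N) :
    ∃ z : A, (1 + π ^ 2 * z) ^ p = 1 + π ^ N * l := by
  obtain ⟨S, hS⟩ := exists_binom_rem (A := A) p
  -- `G(z) = w * z² * S(π² z)`
  let G : A[X] := C w * (X ^ 2 * S.comp (C (π ^ 2) * X))
  obtain ⟨M, rfl⟩ : ∃ M, N = 3 + M := ⟨N - 3, by omega⟩
  obtain ⟨z, hz⟩ := exists_fixed_point h G (π ^ M * w * l)
  refine ⟨z, ?_⟩
  have hGz : G.eval z = w * (z ^ 2 * S.eval (π ^ 2 * z)) := by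
    simp [G, Polynomial.eval_comp]
  have hbin : (1 + π ^ 2 * z) ^ p =
      1 + (p : A) * (π ^ 2 * z) + (π ^ 2 * z) ^ 2 * S.eval (π ^ 2 * z) := by
    have := congrArg (Polynomial.eval (π ^ 2 * z)) hS
    simpa using this
  -- `w` is a non-zero-divisor
  have hwreg : ∀ x : A, w * x = 0 → x = 0 := by
    intro x hx
    apply h.regular
    rw [← hpw, mul_assoc, hx, mul_zero]
  have hkey : w * ((1 + π ^ 2 * z) ^ p - (1 + π ^ (3 + M) * l)) = 0 := by
    rw [hbin]
    have e1 : w * (1 + (p : A) * (π ^ 2 * z) + (π ^ 2 * z) ^ 2 * S.eval (π ^ 2 * z) -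
        (1 + π ^ (3 + M) * l)) =
        ((p : A) * w) * π ^ 2 * z + π ^ 4 * (w * (z ^ 2 * S.eval (π ^ 2 * z))) -
          π ^ 3 * (π ^ M * w * l) := by
      ring
    rw [e1, hpw, ← hGz]
    have e2 : π * π ^ 2 * z + π ^ 4 * G.eval z - π ^ 3 * (π ^ M * w * l) =
        π ^ 3 * (z - (π ^ M * w * l - π * G.eval z)) := by ring
    rw [e2, ← hz, sub_self, mul_zero]
  exact sub_eq_zero.mp (hwreg _ hkey)

/-- In a `π`-complete ring, `1 + π * l` is a unit. -/
theorem isUnit_one_add {π : A} (h : IsPiComplete π) (l : A) : IsUnit (1 + π * l) := by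
  -- solve `z = 1 - π * (l * z)`
  obtain ⟨z, hz⟩ := exists_fixed_point h (C l * X) 1
  refine IsUnit.of_mul_eq_one z ?_
  have : (C l * X : A[X]).eval z = l * z := by simp
  rw [this] at hz
  linear_combination hz

end Fermat.Agent.S55.Global.PowAbstract
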