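import Mathlib

/-!
# S55 / Global, row `G.bridge2`, leaf L2: `n`-th roots of elements close to `1` in a
`ϖ`-adically complete commutative ring (no domain / local hypothesis)

`R` a commutative ring, `ϖ : R`, Hausdorff and precomplete with respect to divisibility by powers
of `ϖ` (elementary forms).  Then for every `n` and `t : R` there is `y` with `ϖ ∣ y` and

  `(1 + n * y) ^ n = 1 + n ^ 2 * (ϖ * t)`.

Proof: `(1 + n y)^n = 1 + n² (y + S y)` with `S y = ∑_{k ≥ 2} C(n,k) n^(k-2) y^k`, and the map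
`y ↦ ϖ t - S y` is a contraction on `ϖ R` because `S` has no constant or linear term.
Owner: helper54.
-/

set_option autoImplicit false

namespace Fermat.Agent.S55.Global.PthRootAdic

open Finset

variable {R : Type*} [CommRing R]

/-- The higher-order part: `S n y = ∑_{k < n - 1} C(n, k+2) n^k y^(k+2)`. -/
def S (n : ℕ) (y : R) : R :=
  ∑ k ∈ range (n - 1), ((n.choose (k + 2) * n ^ k : ℕ) : R) * y ^ (k + 2)

theorem S_zero (n : ℕ) : S n (0 : R) = 0 := by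
  unfold S
  apply Finset.sum_eq_zero
  intro k _
  rw [zero_pow (by omega), mul_zero]

/-- `(1 + n y)^n = 1 + n² (y + S n y)`. -/
theorem one_add_mul_pow (n : ℕ) (y : R) :
    (1 + (n : R) * y) ^ n = 1 + (n : R) ^ 2 * (y + S n y) := by
  rcases n with _ | _ | k
  · simp [S]
  · simp [S]
  · rw [add_comm 1 (((k + 1 + 1 : ℕ) : R) * y), add_pow]
    rw [Finset.sum_range_succ', Finset.sum_range_succ']
    simp only [one_pow, mul_one, pow_zero, Nat.choose_zero_right, Nat.cast_one, zero_add, pow_one,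
      Nat.choose_one_right]
    have hS : S (k + 1 + 1) y = ∑ i ∈ range (k + 1),
        (((k + 1 + 1).choose (i + 2) * (k + 1 + 1) ^ i : ℕ) : R) * y ^ (i + 2) := by
      unfold S
      rfl
    rw [hS, mul_add, Finset.mul_sum]
    have : ∀ i ∈ range (k + 1),
        (((k + 1 + 1 : ℕ) : R) * y) ^ (i + 1 + 1) * (((k + 1 + 1).choose (i + 1 + 1) : ℕ) : R) =
        ((k + 1 + 1 : ℕ) : R) ^ 2 *
          ((((k + 1 + 1).choose (i + 2) * (k + 1 + 1) ^ i : ℕ) : R) * y ^ (i + 2)) := by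
      intro i _
      rw [Nat.cast_mul, Nat.cast_pow, mul_pow]
      generalize ((k + 1 + 1 : ℕ) : R) = c
      generalize (((k + 1 + 1).choose (i + 1 + 1) : ℕ) : R) = d
      ring
    rw [Finset.sum_congr rfl this]
    ring

/-- `ϖ (a - b) ∣ a^(j+2) - b^(j+2)` when `ϖ ∣ a` and `ϖ ∣ b`. -/
theorem mul_sub_dvd_pow_sub_pow {ϖ a b : R} (ha : ϖ ∣ a) (hb : ϖ ∣ b) (j : ℕ) :
    ϖ * (a - b) ∣ a ^ (j + 2) - b ^ (j + 2) := by
  rw [← geom_sum₂_mul a b (j + 2)]
  apply mul_dvd_mul _ (dvd_refl _)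
  apply Finset.dvd_sum
  intro i hi
  rw [Finset.mem_range] at hi
  rcases Nat.eq_zero_or_pos i with h0 | h0
  · subst h0
    have : j + 2 - 1 - 0 = j + 1 := by omega
    rw [this, pow_zero, one_mul, pow_succ]
    exact Dvd.dvd.mul_left hb _
  · obtain ⟨i', rfl⟩ : ∃ i', i = i' + 1 := ⟨i - 1, by omega⟩
    rw [pow_succ, mul_assoc]
    exact Dvd.dvd.mul_left (Dvd.dvd.mul_right ha _) _

theorem mul_sub_dvd_S_sub {ϖ a b : R} (ha : ϖ ∣ a) (hb : ϖ ∣ b) (n : ℕ) :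
    ϖ * (a - b) ∣ S n a - S n b := by
  unfold S
  rw [← Finset.sum_sub_distrib]
  apply Finset.dvd_sum
  intro k _
  rw [← mul_sub]
  exact Dvd.dvd.mul_left (mul_sub_dvd_pow_sub_pow ha hb k) _

theorem dvd_S {ϖ a : R} (ha : ϖ ∣ a) (n : ℕ) : ϖ ∣ S n a := by
  have h := mul_sub_dvd_S_sub ha (dvd_zero ϖ) n
  rw [S_zero, sub_zero, sub_zero] at h
  exact (Dvd.intro _ rfl).trans h

/-- The iteration `y₀ = 0`, `y_{m+1} = ϖ t - S n y_m`. -/
def iter (n : ℕ) (ϖ t : R) : ℕ → R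
  | 0 => 0
  | m + 1 => ϖ * t - S n (iter n ϖ t m)

theorem dvd_iter (n : ℕ) (ϖ t : R) (m : ℕ) : ϖ ∣ iter n ϖ t m := by
  induction m with
  | zero => exact dvd_zero _
  | succ m ih => exact dvd_sub (Dvd.intro _ rfl) (dvd_S ih n)

theorem pow_dvd_iter_succ_sub (n : ℕ) (ϖ t : R) (m : ℕ) :
    ϖ ^ (m + 1) ∣ iter n ϖ t (m + 1) - iter n ϖ t m := by
  induction m with
  | zero =>
    show ϖ ^ 1 ∣ ϖ * t - S n (0 : R) - 0
    rw [S_zero, sub_zero, sub_zero, pow_one]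
    exact Dvd.intro _ rfl
  | succ m ih =>
    have h1 : iter n ϖ t (m + 1 + 1) - iter n ϖ t (m + 1) =
        -(S n (iter n ϖ t (m + 1)) - S n (iter n ϖ t m)) := by
      show ϖ * t - S n (iter n ϖ t (m + 1)) - (ϖ * t - S n (iter n ϖ t m)) = _
      ring
    rw [h1, dvd_neg]
    refine Dvd.dvd.trans ?_ (mul_sub_dvd_S_sub (dvd_iter n ϖ t (m + 1)) (dvd_iter n ϖ t m) n)
    rw [pow_succ']
    exact mul_dvd_mul (dvd_refl _) ih

/-- **Leaf L2.** -/
theorem exists_one_add_mul_pow_eq (n : ℕ) (ϖ : R)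
    (hHaus : ∀ x : R, (∀ k, ϖ ^ k ∣ x) → x = 0)
    (hPrec : ∀ f : ℕ → R, (∀ k, ϖ ^ k ∣ f (k + 1) - f k) → ∃ L, ∀ k, ϖ ^ k ∣ L - f k)
    (t : R) : ∃ y : R, ϖ ∣ y ∧ (1 + (n : R) * y) ^ n = 1 + (n : R) ^ 2 * (ϖ * t) := by
  obtain ⟨L, hL⟩ := hPrec (iter n ϖ t) (fun k =>
    (pow_dvd_pow ϖ (Nat.le_succ k)).trans (pow_dvd_iter_succ_sub n ϖ t k))
  have hϖL : ϖ ∣ L := by
    have h1 := hL 1
    rw [pow_one] at h1
    have := dvd_add h1 (dvd_iter n ϖ t 1)
    rwa [sub_add_cancel] at this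
  have hfix : L + S n L - ϖ * t = 0 := by
    apply hHaus
    intro k
    rcases k with _ | k
    · rw [pow_zero]; exact one_dvd _
    · have h1 : L + S n L - ϖ * t =
          (L - iter n ϖ t (k + 1)) + (S n L - S n (iter n ϖ t k)) := by
        show _ = (L - (ϖ * t - S n (iter n ϖ t k))) + _
        ring
      rw [h1]
      refine dvd_add (hL (k + 1)) ?_
      refine Dvd.dvd.trans ?_ (mul_sub_dvd_S_sub hϖL (dvd_iter n ϖ t k) n)
      rw [pow_succ']
      exact mul_dvd_mul (dvd_refl _) (hL k)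
  refine ⟨L, hϖL, ?_⟩
  rw [one_add_mul_pow]
  congr 2
  exact sub_eq_zero.mp hfix

end Fermat.Agent.S55.Global.PthRootAdic
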