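import Mathlib
import Fermat.Agent.S55.Global.Objects2
import Fermat.Agent.S55.Global.PthRootAdic

/-!
# S55 / Global, row `G.bridge2`, leaves L3/L4: the lattice `𝓞 K ⊗ ∏ ℤ_q` inside `K ⊗[ℚ] ℚ_T`

`B := K ⊗[ℚ] QT T`, `ϖ := ∏_{q ∈ T} q`.  In the coordinates of an integral basis of `K`,
`Lam n ⊆ B` consists of the elements all of whose coordinates `x ∈ ∏ ℚ_q` satisfy
`‖x q‖ ≤ q^(-n)` for all `q ∈ T`.  `Lam 0` is a subring, `Lam n = ϖ^n Lam 0`, and `Lam 0` is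
`ϖ`-adically separated and complete.  Consequences (with `PthRootAdic`):

* `exists_pow_eq` : `u ∈ 1 + p² ϖ Lam 0` is a `p`-th power in `B`;
* `powClose` : `a : 𝓞 K`, `a ≠ 0`, `a - 1 ∈ (p² ϖ)` ⇒ `a ⊗ 1` is a `p`-th power of a unit of `B`;
* `approxPow` : every unit `y` of `B` is `(a ⊗ 1) * z ^ p` with `a : Kˣ` (given `ℚ` dense in `ℚ_T`).
Owner: helper54.
-/

set_option autoImplicit false
set_option linter.unusedSectionVars false

open NumberField TensorProduct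

namespace Fermat.Agent.S55.Global.TensorLattice

open Fermat.Agent.S55.Global.Objects Fermat.Agent.S55.Global.Objects2

/-! ### The coefficient ring `QT T = ∏_{q ∈ T} ℚ_q` -/

section coeff

variable (T : Finset Nat.Primes)

/-- `ϖ = ∏_{q ∈ T} q`. -/
def varpi : ℕ := ∏ q ∈ T, ((q : Nat.Primes) : ℕ)

theorem varpi_ne_zero : varpi T ≠ 0 :=
  Finset.prod_ne_zero_iff.mpr (fun q _ => q.2.ne_zero)

theorem varpi_pos : 0 < varpi T := Nat.pos_of_ne_zero (varpi_ne_zero T)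

/-- `‖ϖ‖_q = q⁻¹` for `q ∈ T`. -/
theorem norm_varpi (q : T) :
    ‖((varpi T : ℕ) : ℚ_[((q : Nat.Primes) : ℕ)])‖ = (((q : Nat.Primes) : ℕ) : ℝ)⁻¹ := by
  classical
  have hq : (q : Nat.Primes) ∈ T := q.2
  have h1 : varpi T = ((q : Nat.Primes) : ℕ) * ∏ r ∈ T.erase (q : Nat.Primes), ((r : Nat.Primes) : ℕ) := by
    unfold varpi
    rw [Finset.mul_prod_erase T (fun r : Nat.Primes => (r : ℕ)) hq]
  rw [h1, Nat.cast_mul, norm_mul, Padic.norm_p]
  have h2 : ‖((∏ r ∈ T.erase (q : Nat.Primes), ((r : Nat.Primes) : ℕ) : ℕ) :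
      ℚ_[((q : Nat.Primes) : ℕ)])‖ = 1 := by
    rw [Padic.norm_natCast_eq_one_iff]
    apply Nat.Coprime.prod_right
    intro r hr
    rw [Finset.mem_erase] at hr
    rw [Nat.coprime_primes (q : Nat.Primes).2 r.2]
    intro h
    exact hr.1 (Subtype.ext h.symm)
  rw [h2, mul_one]

/-- The elements of `QT T` of norm `≤ q^(-n)` at every `q ∈ T`. -/
def zn (n : ℕ) : AddSubgroup (QT T) where
  carrier := {x | ∀ q : T, ‖x q‖ ≤ (((q : Nat.Primes) : ℕ) : ℝ) ^ (-(n : ℤ))}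
  zero_mem' := fun q => by
    simp only [Pi.zero_apply, norm_zero]
    positivity
  add_mem' := fun {x y} hx hy q => by
    simp only [Pi.add_apply]
    exact (Padic.nonarchimedean _ _).trans (max_le (hx q) (hy q))
  neg_mem' := fun {x} hx q => by
    simp only [Pi.neg_apply, norm_neg]
    exact hx q

variable {T}

theorem mem_zn {n : ℕ} {x : QT T} :
    x ∈ zn T n ↔ ∀ q : T, ‖x q‖ ≤ (((q : Nat.Primes) : ℕ) : ℝ) ^ (-(n : ℤ)) := Iff.rfl

theorem mul_mem_zn {m n : ℕ} {x y : QT T} (hx : x ∈ zn T m) (hy : y ∈ zn T n) :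
    x * y ∈ zn T (m + n) := by
  intro q
  simp only [Pi.mul_apply, norm_mul]
  have h0 : (0 : ℝ) < (((q : Nat.Primes) : ℕ) : ℝ) := by exact_mod_cast (q : Nat.Primes).2.pos
  calc ‖x q‖ * ‖y q‖ ≤ (((q : Nat.Primes) : ℕ) : ℝ) ^ (-(m : ℤ)) *
        (((q : Nat.Primes) : ℕ) : ℝ) ^ (-(n : ℤ)) :=
        mul_le_mul (hx q) (hy q) (norm_nonneg _) (by positivity)
    _ = (((q : Nat.Primes) : ℕ) : ℝ) ^ (-((m + n : ℕ) : ℤ)) := by
        rw [← zpow_add₀ h0.ne']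
        congr 1
        push_cast
        ring

theorem one_mem_zn : (1 : QT T) ∈ zn T 0 := by
  intro q
  simp

theorem zn_anti {m n : ℕ} (h : m ≤ n) : zn T n ≤ zn T m := by
  intro x hx q
  refine (hx q).trans ?_
  have h1 : (1 : ℝ) ≤ (((q : Nat.Primes) : ℕ) : ℝ) := by exact_mod_cast (q : Nat.Primes).2.one_le
  apply zpow_le_zpow_right₀ h1
  omega

theorem intCast_mem_zn (k : ℤ) : ((k : ℤ) : QT T) ∈ zn T 0 := by
  intro q
  simp only [Pi.intCast_apply, Nat.cast_zero, neg_zero, zpow_zero]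
  exact Padic.norm_int_le_one k

theorem zsmul_mem_zn {n : ℕ} (k : ℤ) {x : QT T} (hx : x ∈ zn T n) : k • x ∈ zn T n :=
  (zn T n).zsmul_mem hx k

/-- `ϖ^m • x` for a rational scalar. -/
theorem ratCast_varpi_pow_smul_mem_zn {n : ℕ} (m : ℕ) {x : QT T} (hx : x ∈ zn T n) :
    ((varpi T : ℚ) ^ m) • x ∈ zn T (n + m) := by
  intro q
  have h0 : (0 : ℝ) < (((q : Nat.Primes) : ℕ) : ℝ) := by exact_mod_cast (q : Nat.Primes).2.pos
  have h1 : (((varpi T : ℚ) ^ m) • x) q = (((varpi T : ℕ) : ℚ_[((q : Nat.Primes) : ℕ)]) ^ m) * x q := by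
    rw [Pi.smul_apply, Algebra.smul_def]
    congr 1
  rw [h1, norm_mul, norm_pow, norm_varpi]
  calc ((((q : Nat.Primes) : ℕ) : ℝ)⁻¹) ^ m * ‖x q‖
      ≤ ((((q : Nat.Primes) : ℕ) : ℝ)⁻¹) ^ m * (((q : Nat.Primes) : ℕ) : ℝ) ^ (-(n : ℤ)) :=
        mul_le_mul_of_nonneg_left (hx q) (by positivity)
    _ = (((q : Nat.Primes) : ℕ) : ℝ) ^ (-((n + m : ℕ) : ℤ)) := by
        rw [inv_pow, ← zpow_natCast, ← zpow_neg, ← zpow_add₀ h0.ne']
        congr 1
        push_cast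
        ring

/-- Division by `ϖ^m`. -/
theorem ratCast_varpi_pow_inv_smul_mem_zn {n : ℕ} (m : ℕ) {x : QT T} (hx : x ∈ zn T (n + m)) :
    (((varpi T : ℚ) ^ m)⁻¹) • x ∈ zn T n := by
  intro q
  have h0 : (0 : ℝ) < (((q : Nat.Primes) : ℕ) : ℝ) := by exact_mod_cast (q : Nat.Primes).2.pos
  have h1 : ((((varpi T : ℚ) ^ m)⁻¹) • x) q =
      ((((varpi T : ℕ) : ℚ_[((q : Nat.Primes) : ℕ)]) ^ m)⁻¹) * x q := by
    rw [Pi.smul_apply, Algebra.smul_def]
    congr 1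
    simp
  rw [h1, norm_mul, norm_inv, norm_pow, norm_varpi]
  calc (((((q : Nat.Primes) : ℕ) : ℝ)⁻¹) ^ m)⁻¹ * ‖x q‖
      ≤ (((((q : Nat.Primes) : ℕ) : ℝ)⁻¹) ^ m)⁻¹ *
          (((q : Nat.Primes) : ℕ) : ℝ) ^ (-((n + m : ℕ) : ℤ)) :=
        mul_le_mul_of_nonneg_left (hx q) (by positivity)
    _ = (((q : Nat.Primes) : ℕ) : ℝ) ^ (-(n : ℤ)) := by
        rw [inv_pow, inv_inv, ← zpow_natCast, ← zpow_add₀ h0.ne']
        congr 1
        push_cast
        ring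

/-- Hausdorff. -/
theorem eq_zero_of_forall_mem_zn {x : QT T} (hx : ∀ n, x ∈ zn T n) : x = 0 := by
  funext q
  have h1 : (1 : ℝ) < (((q : Nat.Primes) : ℕ) : ℝ) := by exact_mod_cast (q : Nat.Primes).2.one_lt
  by_contra hne
  have hpos : 0 < ‖x q‖ := norm_pos_iff.mpr hne
  obtain ⟨n, hn⟩ := exists_pow_lt_of_lt_one hpos (inv_lt_one_of_one_lt₀ h1)
  have := hx n q
  rw [zpow_neg, zpow_natCast, ← inv_pow] at this
  exact absurd (lt_of_le_of_lt this hn) (lt_irrefl _)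

/-- Absorbing. -/
theorem exists_varpi_pow_smul_mem_zn (x : QT T) : ∃ M : ℕ, ((varpi T : ℚ) ^ M) • x ∈ zn T 0 := by
  classical
  have h : ∀ q : T, ∃ M : ℕ, ‖x q‖ ≤ (((q : Nat.Primes) : ℕ) : ℝ) ^ M := by
    intro q
    have h1 : (1 : ℝ) < (((q : Nat.Primes) : ℕ) : ℝ) := by exact_mod_cast (q : Nat.Primes).2.one_lt
    obtain ⟨M, hM⟩ := pow_unbounded_of_one_lt ‖x q‖ h1
    exact ⟨M, hM.le⟩
  choose M hM using h
  refine ⟨Finset.univ.sup M, fun q => ?_⟩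
  have h0 : (0 : ℝ) < (((q : Nat.Primes) : ℕ) : ℝ) := by exact_mod_cast (q : Nat.Primes).2.pos
  have h1 : (1 : ℝ) ≤ (((q : Nat.Primes) : ℕ) : ℝ) := by exact_mod_cast (q : Nat.Primes).2.one_le
  have h2 : (((varpi T : ℚ) ^ (Finset.univ.sup M)) • x) q =
      (((varpi T : ℕ) : ℚ_[((q : Nat.Primes) : ℕ)]) ^ (Finset.univ.sup M)) * x q := by
    rw [Pi.smul_apply, Algebra.smul_def]
    congr 1
  rw [h2, norm_mul, norm_pow, norm_varpi]
  simp only [Nat.cast_zero, neg_zero, zpow_zero]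
  have hle : M q ≤ Finset.univ.sup M := Finset.le_sup (Finset.mem_univ q)
  calc ((((q : Nat.Primes) : ℕ) : ℝ)⁻¹) ^ (Finset.univ.sup M) * ‖x q‖
      ≤ ((((q : Nat.Primes) : ℕ) : ℝ)⁻¹) ^ (Finset.univ.sup M) *
          (((q : Nat.Primes) : ℕ) : ℝ) ^ (Finset.univ.sup M) :=
        mul_le_mul_of_nonneg_left ((hM q).trans (pow_le_pow_right₀ h1 hle)) (by positivity)
    _ = 1 := by
        rw [inv_pow, inv_mul_cancel₀ (pow_ne_zero _ h0.ne')]

/-- Sharp ultrametric limit: a sequence with `‖f (n+1) - f n‖ ≤ r^n`, `r < 1`, in a complete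
ultrametric normed group converges to some `L` with `‖L - f n‖ ≤ r^n`. -/
theorem exists_limit_of_norm_sub_le {E : Type*} [NormedAddCommGroup E] [IsUltrametricDist E]
    [CompleteSpace E] (r : ℝ) (hr0 : 0 < r) (hr : r < 1) (f : ℕ → E)
    (hf : ∀ n, ‖f (n + 1) - f n‖ ≤ r ^ n) : ∃ L : E, ∀ n, ‖L - f n‖ ≤ r ^ n := by
  have hcau : CauchySeq f := by
    apply cauchySeq_of_le_geometric r 1 hr
    intro n
    rw [dist_eq_norm, one_mul, ← norm_neg, neg_sub]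
    exact hf n
  obtain ⟨L, hL⟩ := cauchySeq_tendsto_of_complete hcau
  refine ⟨L, fun n => ?_⟩
  have hbound : ∀ k, ‖f (n + k) - f n‖ ≤ r ^ n := by
    intro k
    induction k with
    | zero => simp only [add_zero, sub_self, norm_zero]; positivity
    | succ k ih =>
      have h1 : f (n + (k + 1)) - f n = (f (n + k + 1) - f (n + k)) + (f (n + k) - f n) := by
        rw [← add_assoc]; abel
      rw [h1]
      refine (IsUltrametricDist.norm_add_le_max _ _).trans (max_le ?_ ih)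
      refine (hf (n + k)).trans ?_
      exact pow_le_pow_of_le_one hr0.le hr.le (Nat.le_add_right n k)
  have htend : Filter.Tendsto (fun k => f (n + k) - f n) Filter.atTop (nhds (L - f n)) := by
    apply Filter.Tendsto.sub _ tendsto_const_nhds
    have := (Filter.tendsto_add_atTop_iff_nat n).mpr hL
    simpa [add_comm] using this
  exact le_of_tendsto (htend.norm) (Filter.Eventually.of_forall hbound)

/-- Precompleteness of `QT T`. -/
theorem exists_limit_zn (f : ℕ → QT T) (hf : ∀ n, f (n + 1) - f n ∈ zn T n) :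
    ∃ L : QT T, ∀ n, L - f n ∈ zn T n := by
  have h : ∀ q : T, ∃ L : ℚ_[((q : Nat.Primes) : ℕ)], ∀ n,
      ‖L - f n q‖ ≤ ((((q : Nat.Primes) : ℕ) : ℝ)⁻¹) ^ n := by
    intro q
    have h1 : (1 : ℝ) < (((q : Nat.Primes) : ℕ) : ℝ) := by exact_mod_cast (q : Nat.Primes).2.one_lt
    have h0 : (0 : ℝ) < (((q : Nat.Primes) : ℕ) : ℝ) := by linarith
    apply exists_limit_of_norm_sub_le _ (inv_pos.mpr h0) (inv_lt_one_of_one_lt₀ h1)
    intro n
    have := hf n q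
    rw [zpow_neg, zpow_natCast, ← inv_pow] at this
    exact this
  choose L hL using h
  refine ⟨fun q => L q, fun n q => ?_⟩
  have := hL q n
  rw [zpow_neg, zpow_natCast, ← inv_pow]
  exact this

end coeff

/-! ### Coordinates in an integral basis and the lattices `Lam n` -/

section lattice

variable (K : Type) [Field K] [NumberField K] (T : Finset Nat.Primes)

/-- The index type of the integral basis. -/
abbrev ι : Type := Module.Free.ChooseBasisIndex ℤ (𝓞 K)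

/-- The coordinates of `K ⊗[ℚ] QT T` in the integral basis of `K`. -/
noncomputable def crd : K ⊗[ℚ] QT T ≃ₗ[ℚ] (ι K →₀ QT T) :=
  haveI := Classical.decEq (ι K)
  TensorProduct.equivFinsuppOfBasisLeft (integralBasis K)

variable {K T}

theorem crd_tmul (k : K) (a : QT T) (i : ι K) :
    crd K T (k ⊗ₜ[ℚ] a) i = (integralBasis K).repr k i • a := by
  classical
  unfold crd
  convert TensorProduct.equivFinsuppOfBasisLeft_apply_tmul_apply (integralBasis K) k a i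

theorem crd_tmul_int (r : 𝓞 K) (a : QT T) (i : ι K) :
    crd K T ((r : K) ⊗ₜ[ℚ] a) i = ((RingOfIntegers.basis K).repr r i : ℤ) • a := by
  rw [crd_tmul]
  have := integralBasis_repr_apply K r i
  rw [show ((r : K)) = algebraMap (𝓞 K) K r from rfl, this]
  rw [eq_intCast, Int.cast_smul_eq_zsmul]

theorem eq_sum_tmul (z : K ⊗[ℚ] QT T) :
    z = ∑ i : ι K, (integralBasis K i) ⊗ₜ[ℚ] (crd K T z i) := by
  classical
  have h := (crd K T).symm_apply_apply z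
  conv_lhs => rw [← h]
  unfold crd
  rw [TensorProduct.equivFinsuppOfBasisLeft_symm_apply, Finsupp.sum_fintype]
  intro i
  exact tmul_zero _ _

theorem crd_injective : Function.Injective (crd K T) := (crd K T).injective

variable (K T)

/-- The lattice of elements with coordinates in `zn T n`. -/
def Lam (n : ℕ) : AddSubgroup (K ⊗[ℚ] QT T) where
  carrier := {z | ∀ i, crd K T z i ∈ zn T n}
  zero_mem' := fun i => by
    rw [map_zero, Finsupp.zero_apply]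
    exact (zn T n).zero_mem
  add_mem' := fun {x y} hx hy i => by
    rw [map_add, Finsupp.add_apply]
    exact (zn T n).add_mem (hx i) (hy i)
  neg_mem' := fun {x} hx i => by
    rw [map_neg, Finsupp.neg_apply]
    exact (zn T n).neg_mem (hx i)

variable {K T}

theorem mem_Lam {n : ℕ} {z : K ⊗[ℚ] QT T} : z ∈ Lam K T n ↔ ∀ i, crd K T z i ∈ zn T n := Iff.rfl

theorem Lam_anti {m n : ℕ} (h : m ≤ n) : Lam K T n ≤ Lam K T m :=
  fun _ hz i => zn_anti h (hz i)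

theorem tmul_mem_Lam (r : 𝓞 K) {n : ℕ} {a : QT T} (ha : a ∈ zn T n) :
    ((r : K) ⊗ₜ[ℚ] a) ∈ Lam K T n := by
  intro i
  rw [crd_tmul_int]
  exact zsmul_mem_zn _ ha

theorem one_mem_Lam : (1 : K ⊗[ℚ] QT T) ∈ Lam K T 0 := by
  have : (1 : K ⊗[ℚ] QT T) = (((1 : 𝓞 K) : K)) ⊗ₜ[ℚ] (1 : QT T) := by
    rw [show (((1 : 𝓞 K) : K)) = algebraMap (𝓞 K) K 1 from rfl, map_one]; rfl
  rw [this]
  exact tmul_mem_Lam 1 one_mem_zn

theorem mul_mem_Lam {m n : ℕ} {z w : K ⊗[ℚ] QT T} (hz : z ∈ Lam K T m) (hw : w ∈ Lam K T n) :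
    z * w ∈ Lam K T (m + n) := by
  rw [eq_sum_tmul z, eq_sum_tmul w, Finset.sum_mul]
  refine (Lam K T (m + n)).sum_mem fun i _ => ?_
  rw [Finset.mul_sum]
  refine (Lam K T (m + n)).sum_mem fun j _ => ?_
  rw [Algebra.TensorProduct.tmul_mul_tmul, integralBasis_apply, integralBasis_apply, ← map_mul]
  exact tmul_mem_Lam _ (mul_mem_zn (hz i) (hw j))

theorem crd_smul (c : ℚ) (z : K ⊗[ℚ] QT T) (i : ι K) : crd K T (c • z) i = c • crd K T z i := by
  rw [map_smul, Finsupp.smul_apply]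

theorem varpi_pow_smul_mem_Lam {n : ℕ} (m : ℕ) {z : K ⊗[ℚ] QT T} (hz : z ∈ Lam K T n) :
    ((varpi T : ℚ) ^ m) • z ∈ Lam K T (n + m) := by
  intro i
  rw [crd_smul]
  exact ratCast_varpi_pow_smul_mem_zn m (hz i)

theorem varpi_pow_inv_smul_mem_Lam {n : ℕ} (m : ℕ) {z : K ⊗[ℚ] QT T} (hz : z ∈ Lam K T (n + m)) :
    (((varpi T : ℚ) ^ m)⁻¹) • z ∈ Lam K T n := by
  intro i
  rw [crd_smul]
  exact ratCast_varpi_pow_inv_smul_mem_zn m (hz i)

/-- `Lam n = ϖ^n Lam 0`. -/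
theorem mem_Lam_iff_exists {n : ℕ} {z : K ⊗[ℚ] QT T} :
    z ∈ Lam K T n ↔ ∃ c ∈ Lam K T 0, z = ((varpi T : ℚ) ^ n) • c := by
  constructor
  · intro hz
    refine ⟨(((varpi T : ℚ) ^ n)⁻¹) • z, varpi_pow_inv_smul_mem_Lam n (by rwa [zero_add]), ?_⟩
    rw [smul_smul, mul_inv_cancel₀, one_smul]
    exact pow_ne_zero _ (by exact_mod_cast varpi_ne_zero T)
  · rintro ⟨c, hc, rfl⟩
    have := varpi_pow_smul_mem_Lam n hc
    rwa [zero_add] at this

/-- Hausdorff. -/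
theorem eq_zero_of_forall_mem_Lam {z : K ⊗[ℚ] QT T} (hz : ∀ n, z ∈ Lam K T n) : z = 0 := by
  apply crd_injective
  rw [map_zero]
  ext i : 1
  rw [Finsupp.zero_apply]
  exact eq_zero_of_forall_mem_zn (fun n => hz n i)

/-- Precomplete. -/
theorem exists_limit_Lam (f : ℕ → K ⊗[ℚ] QT T) (hf : ∀ n, f (n + 1) - f n ∈ Lam K T n) :
    ∃ L : K ⊗[ℚ] QT T, ∀ n, L - f n ∈ Lam K T n := by
  have h : ∀ i : ι K, ∃ L : QT T, ∀ n, L - crd K T (f n) i ∈ zn T n := by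
    intro i
    apply exists_limit_zn
    intro n
    have := hf n i
    rwa [map_sub, Finsupp.sub_apply] at this
  choose L hL using h
  refine ⟨(crd K T).symm (Finsupp.equivFunOnFinite.symm L), fun n i => ?_⟩
  rw [map_sub, Finsupp.sub_apply, LinearEquiv.apply_symm_apply]
  exact hL i n

/-- Absorbing. -/
theorem exists_varpi_pow_smul_mem_Lam (z : K ⊗[ℚ] QT T) :
    ∃ M : ℕ, ((varpi T : ℚ) ^ M) • z ∈ Lam K T 0 := by
  classical
  choose M hM using fun i : ι K => exists_varpi_pow_smul_mem_zn (crd K T z i)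
  refine ⟨Finset.univ.sup M, fun i => ?_⟩
  rw [crd_smul]
  have hle : M i ≤ Finset.univ.sup M := Finset.le_sup (Finset.mem_univ i)
  obtain ⟨d, hd⟩ := Nat.exists_eq_add_of_le hle
  rw [hd, pow_add, mul_comm, ← smul_smul]
  have := ratCast_varpi_pow_smul_mem_zn d (hM i)
  exact zn_anti (Nat.zero_le _) this

end lattice

/-! ### The subring `Lam 0`, `p`-th roots -/

section subring

variable (K : Type) [Field K] [NumberField K] (T : Finset Nat.Primes)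

/-- `Lam 0` as a subring of `K ⊗[ℚ] QT T`. -/
def LamRing : Subring (K ⊗[ℚ] QT T) where
  carrier := {z | z ∈ Lam K T 0}
  mul_mem' := fun {z w} hz hw => by
    have := mul_mem_Lam hz hw
    rwa [add_zero] at this
  one_mem' := one_mem_Lam
  add_mem' := fun {z w} hz hw => (Lam K T 0).add_mem hz hw
  zero_mem' := (Lam K T 0).zero_mem
  neg_mem' := fun {z} hz => (Lam K T 0).neg_mem hz

variable {K T}

theorem mem_LamRing {z : K ⊗[ℚ] QT T} : z ∈ LamRing K T ↔ z ∈ Lam K T 0 := Iff.rfl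

theorem varpi_smul_one_mem : (varpi T : ℚ) • (1 : K ⊗[ℚ] QT T) ∈ Lam K T 1 := by
  have h := varpi_pow_smul_mem_Lam (K := K) (T := T) 1 one_mem_Lam
  rwa [zero_add, pow_one] at h

variable (K T)

/-- `ϖ` as an element of the subring. -/
noncomputable def varpiR : LamRing K T :=
  ⟨(varpi T : ℚ) • (1 : K ⊗[ℚ] QT T), Lam_anti (Nat.zero_le 1) varpi_smul_one_mem⟩

variable {K T}

theorem coe_varpiR_pow (n : ℕ) :
    ((varpiR K T ^ n : LamRing K T) : K ⊗[ℚ] QT T) =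
      ((varpi T : ℚ) ^ n) • (1 : K ⊗[ℚ] QT T) := by
  rw [SubmonoidClass.coe_pow]
  show ((varpi T : ℚ) • (1 : K ⊗[ℚ] QT T)) ^ n = _
  rw [smul_pow]
  congr 1
  exact one_pow (M := K ⊗[ℚ] QT T) n

theorem varpiR_pow_dvd_iff (n : ℕ) (x : LamRing K T) :
    varpiR K T ^ n ∣ x ↔ (x : K ⊗[ℚ] QT T) ∈ Lam K T n := by
  constructor
  · rintro ⟨c, rfl⟩
    rw [mem_Lam_iff_exists]
    refine ⟨(c : K ⊗[ℚ] QT T), c.2, ?_⟩
    rw [Subring.coe_mul, coe_varpiR_pow, smul_mul_assoc, one_mul]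
  · intro hx
    obtain ⟨c, hc, hxc⟩ := mem_Lam_iff_exists.mp hx
    refine ⟨⟨c, hc⟩, ?_⟩
    apply Subtype.ext
    rw [Subring.coe_mul, coe_varpiR_pow, hxc, smul_mul_assoc, one_mul]

theorem LamRing_haus (x : LamRing K T) (hx : ∀ k, varpiR K T ^ k ∣ x) : x = 0 := by
  apply Subtype.ext
  exact eq_zero_of_forall_mem_Lam (fun n => (varpiR_pow_dvd_iff n x).mp (hx n))

theorem LamRing_prec (f : ℕ → LamRing K T) (hf : ∀ k, varpiR K T ^ k ∣ f (k + 1) - f k) :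
    ∃ L : LamRing K T, ∀ k, varpiR K T ^ k ∣ L - f k := by
  obtain ⟨L, hL⟩ := exists_limit_Lam (fun k => ((f k : LamRing K T) : K ⊗[ℚ] QT T)) (fun k => by
    have := (varpiR_pow_dvd_iff k _).mp (hf k)
    rwa [AddSubgroupClass.coe_sub] at this)
  have hL0 : L ∈ Lam K T 0 := by
    have h1 := hL 0
    have h2 : L = (L - (f 0 : K ⊗[ℚ] QT T)) + (f 0 : K ⊗[ℚ] QT T) := by abel
    rw [h2]
    exact (Lam K T 0).add_mem h1 (f 0).2
  refine ⟨⟨L, hL0⟩, fun k => ?_⟩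
  rw [varpiR_pow_dvd_iff, AddSubgroupClass.coe_sub]
  exact hL k

/-- **`n`-th roots**: `u ∈ 1 + n² ϖ Lam 0` is an `n`-th power of an element of `Lam 0`. -/
theorem exists_pow_eq (n : ℕ) (u : K ⊗[ℚ] QT T)
    (hu : ∃ c ∈ Lam K T 0, u = 1 + (((n : ℚ) ^ 2 * (varpi T : ℚ)) • c)) :
    ∃ z : K ⊗[ℚ] QT T, z ∈ Lam K T 0 ∧ z ^ n = u := by
  obtain ⟨c, hc, rfl⟩ := hu
  obtain ⟨y, -, hy⟩ := PthRootAdic.exists_one_add_mul_pow_eq n (varpiR K T) LamRing_haus
    LamRing_prec ⟨c, hc⟩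
  refine ⟨((1 + (n : LamRing K T) * y : LamRing K T) : K ⊗[ℚ] QT T),
    (1 + (n : LamRing K T) * y).2, ?_⟩
  have := congrArg (fun w : LamRing K T => (w : K ⊗[ℚ] QT T)) hy
  simp only [SubmonoidClass.coe_pow] at this
  rw [this]
  simp only [Subring.coe_add, Subring.coe_one, Subring.coe_mul, SubmonoidClass.coe_pow,
    SubringClass.coe_natCast]
  congr 1
  show ((n : K ⊗[ℚ] QT T)) ^ 2 * (((varpi T : ℚ) • (1 : K ⊗[ℚ] QT T)) * c) = _
  rw [smul_mul_assoc, one_mul, mul_smul, ← Nat.cast_pow, ← nsmul_eq_mul, ← Nat.cast_pow]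
  exact (Nat.cast_smul_eq_nsmul ℚ _ _).symm

end subring

/-! ### PowClose -/

section powClose

variable {K : Type} [Field K] [NumberField K] {T : Finset Nat.Primes}

/-- **PowClose**: an integer `a ≡ 1 mod p² ϖ` of `K` becomes a `p`-th power of a unit in
`K ⊗[ℚ] QT T`. -/
theorem powClose (p : ℕ) (hp : p ≠ 0) (a : 𝓞 K) (a' : Kˣ) (ha' : (a' : K) = (a : K))
    (h : a - 1 ∈ Ideal.span {(((p ^ 2 * varpi T : ℕ)) : 𝓞 K)}) :
    ∃ z : (K ⊗[ℚ] QT T)ˣ, z ^ p = inclUnits ℚ K (QT T) a' := by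
  obtain ⟨c, hc⟩ := Ideal.mem_span_singleton'.mp h
  have hK : (a : K) = 1 + ((p ^ 2 * varpi T : ℕ) : ℚ) • (c : K) := by
    have h1 : ((c * (((p ^ 2 * varpi T : ℕ)) : 𝓞 K) : 𝓞 K) : K) = ((a - 1 : 𝓞 K) : K) := by
      rw [hc]
    rw [show ((c * (((p ^ 2 * varpi T : ℕ)) : 𝓞 K) : 𝓞 K) : K) =
        (c : K) * ((p ^ 2 * varpi T : ℕ) : K) by
          rw [show ∀ x : 𝓞 K, (x : K) = algebraMap (𝓞 K) K x from fun _ => rfl, map_mul,
            map_natCast]] at h1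
    rw [show ((a - 1 : 𝓞 K) : K) = (a : K) - 1 by
          rw [show ∀ x : 𝓞 K, (x : K) = algebraMap (𝓞 K) K x from fun _ => rfl, map_sub,
            map_one]] at h1
    rw [Nat.cast_smul_eq_nsmul ℚ, nsmul_eq_mul, mul_comm, h1]
    ring
  have hu : ((a : K) ⊗ₜ[ℚ] (1 : QT T)) =
      1 + (((p : ℚ) ^ 2 * (varpi T : ℚ)) • ((c : K) ⊗ₜ[ℚ] (1 : QT T))) := by
    rw [hK, add_tmul, TensorProduct.smul_tmul']
    push_cast
    rfl
  obtain ⟨z, -, hz⟩ := exists_pow_eq p _ ⟨(c : K) ⊗ₜ[ℚ] (1 : QT T), tmul_mem_Lam c one_mem_zn, hu⟩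
  have hval : ((inclUnits ℚ K (QT T) a' : (K ⊗[ℚ] QT T)ˣ) : K ⊗[ℚ] QT T) =
      (a : K) ⊗ₜ[ℚ] (1 : QT T) := by
    rw [val_inclUnits, ha']
  have hunit : IsUnit z := by
    have h1 : IsUnit (z ^ p) := by
      rw [hz, ← hval]
      exact Units.isUnit _
    exact (isUnit_pow_iff hp).mp h1
  refine ⟨hunit.unit, Units.ext ?_⟩
  rw [Units.val_pow_eq_pow_val, IsUnit.unit_spec, hz, hval]

end powClose

end Fermat.Agent.S55.Global.TensorLattice
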