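/-
S55 / Global / G.bridge2, leaves (WA) + (J) (helper2), on top of helper54's `TensorLattice`.

`B := K ⊗[ℚ] QT T`, `ϖ := varpi T`, `Lam K T n` the lattices of `TensorLattice`.

* `exists_nat_close`, `exists_rat_close` : `ℤ` (resp. `ℚ`) is dense in `∏_{q ∈ T} ℤ_q` (resp. `ℚ_T`)
  (CRT).
* `exists_approx` **(WA)** : `∀ x : B, ∀ n, ∃ a : K, x - a ⊗ₜ 1 ∈ Lam K T n`.
* `isUnit_one_add` : `1 + ϖ • l` is a unit of `B` for `l ∈ Lam K T 0`.
* `approxPow` **(J)** : `∀ y : Bˣ, ∃ a : Kˣ, ∃ z : Bˣ, y = inclUnits ℚ K (QT T) a * z ^ p` (`p ≠ 0`).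
-/
import Fermat.Agent.S55.Global.TensorLattice
import Fermat.Agent.S55.Global.PowAbstract

set_option autoImplicit false

open NumberField TensorProduct

namespace Fermat.Agent.S55.Global.ApproxPowQ

open Fermat.Agent.S55.Global.Objects Fermat.Agent.S55.Global.Objects2
open Fermat.Agent.S55.Global.TensorLattice

/-! ### Density of `ℤ` and `ℚ` -/

section Dense

variable {T : Finset Nat.Primes}

/-- **CRT**: an integral element of `ℚ_T` is approximated by a natural number. -/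
theorem exists_nat_close (y : QT T) (hy : y ∈ zn T 0) (N : ℕ) :
    ∃ k : ℕ, y - (k : QT T) ∈ zn T N := by
  classical
  have hy1 : ∀ q : T, ‖y q‖ ≤ 1 := fun q => by simpa using hy q
  let a : Nat.Primes → ℕ := fun q =>
    if h : q ∈ T then PadicInt.appr (p := (q : ℕ)) ⟨y ⟨q, h⟩, hy1 ⟨q, h⟩⟩ N else 0
  let s : Nat.Primes → ℕ := fun q => (q : ℕ) ^ N
  have hs : ∀ q ∈ T, s q ≠ 0 := fun q _ => pow_ne_zero _ q.2.ne_zero
  have pp : Set.Pairwise (T : Set Nat.Primes) (Function.onFun Nat.Coprime s) := by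
    intro q _ q' _ hne
    exact Nat.Coprime.pow _ _ ((Nat.coprime_primes q.2 q'.2).mpr fun h => hne (Subtype.ext h))
  obtain ⟨k, hk⟩ := Nat.chineseRemainderOfFinset a s T hs pp
  refine ⟨k, fun q => ?_⟩
  have hq : (q : Nat.Primes) ∈ T := q.2
  set yq : ℤ_[((q : Nat.Primes) : ℕ)] := ⟨y q, hy1 q⟩ with hyq
  have ha : a (q : Nat.Primes) = yq.appr N := by
    simp only [a, dif_pos hq]
    rfl
  -- first piece
  have h1 : ‖y q - ((yq.appr N : ℕ) : ℚ_[((q : Nat.Primes) : ℕ)])‖ ≤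
      (((q : Nat.Primes) : ℕ) : ℝ) ^ (-(N : ℤ)) := by
    have := (PadicInt.norm_le_pow_iff_mem_span_pow
      (yq - ((yq.appr N : ℕ) : ℤ_[((q : Nat.Primes) : ℕ)])) N).mpr (PadicInt.appr_spec N yq)
    have h' : ‖((yq - ((yq.appr N : ℕ) : ℤ_[((q : Nat.Primes) : ℕ)]) :
        ℤ_[((q : Nat.Primes) : ℕ)]) : ℚ_[((q : Nat.Primes) : ℕ)])‖ ≤
        (((q : Nat.Primes) : ℕ) : ℝ) ^ (-(N : ℤ)) := by
      rw [← PadicInt.norm_def]; exact this
    rw [PadicInt.coe_sub, PadicInt.coe_natCast] at h'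
    exact h'
  -- second piece
  have h2 : ‖((yq.appr N : ℕ) : ℚ_[((q : Nat.Primes) : ℕ)]) - ((k : ℕ) : ℚ_[((q : Nat.Primes) : ℕ)])‖
      ≤ (((q : Nat.Primes) : ℕ) : ℝ) ^ (-(N : ℤ)) := by
    have hmod : k ≡ yq.appr N [MOD ((q : Nat.Primes) : ℕ) ^ N] := by
      have := hk (q : Nat.Primes) hq
      rwa [ha] at this
    have hdvd : ((((q : Nat.Primes) : ℕ) ^ N : ℕ) : ℤ) ∣ ((yq.appr N : ℕ) : ℤ) - ((k : ℕ) : ℤ) :=
      (Nat.modEq_iff_dvd).mp hmod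
    have := (Padic.norm_int_le_pow_iff_dvd (p := ((q : Nat.Primes) : ℕ))
      (((yq.appr N : ℕ) : ℤ) - ((k : ℕ) : ℤ)) N).mpr (by exact_mod_cast hdvd)
    simpa using this
  have e : (y - (k : QT T)) q = (y q - ((yq.appr N : ℕ) : ℚ_[((q : Nat.Primes) : ℕ)])) +
      (((yq.appr N : ℕ) : ℚ_[((q : Nat.Primes) : ℕ)]) - ((k : ℕ) : ℚ_[((q : Nat.Primes) : ℕ)])) := by
    rw [Pi.sub_apply]
    show y q - ((k : ℕ) : ℚ_[((q : Nat.Primes) : ℕ)]) = _
    ring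
  rw [e]
  exact (Padic.nonarchimedean _ _).trans (max_le h1 h2)

/-- `ℚ` is dense in `ℚ_T`. -/
theorem exists_rat_close (x : QT T) (M : ℕ) : ∃ r : ℚ, x - r • (1 : QT T) ∈ zn T M := by
  obtain ⟨s, hs⟩ := exists_varpi_pow_smul_mem_zn x
  obtain ⟨k, hk⟩ := exists_nat_close _ hs (M + s)
  have hϖ : ((varpi T : ℚ) ^ s) ≠ 0 := pow_ne_zero _ (by exact_mod_cast varpi_ne_zero T)
  refine ⟨((varpi T : ℚ) ^ s)⁻¹ * (k : ℚ), ?_⟩
  have e : x - (((varpi T : ℚ) ^ s)⁻¹ * (k : ℚ)) • (1 : QT T) =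
      (((varpi T : ℚ) ^ s)⁻¹) • (((varpi T : ℚ) ^ s) • x - (k : QT T)) := by
    rw [smul_sub, smul_smul, inv_mul_cancel₀ hϖ, one_smul, mul_smul]
    congr 2
    rw [Nat.cast_smul_eq_nsmul ℚ, nsmul_eq_mul, mul_one]
  rw [e]
  exact ratCast_varpi_pow_inv_smul_mem_zn s hk

end Dense

/-! ### Weak approximation in `K ⊗[ℚ] ℚ_T` -/

section Approx

variable {K : Type} [Field K] [NumberField K] {T : Finset Nat.Primes}

/-- **(WA)** `K` is dense in `K ⊗[ℚ] ℚ_T` for the lattice topology. -/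
theorem exists_approx (x : K ⊗[ℚ] QT T) (n : ℕ) :
    ∃ a : K, x - a ⊗ₜ[ℚ] (1 : QT T) ∈ Lam K T n := by
  choose r hr using fun i : ι K => exists_rat_close (crd K T x i) n
  refine ⟨(integralBasis K).equivFun.symm r, fun i => ?_⟩
  rw [map_sub, Finsupp.sub_apply, crd_tmul, ← Module.Basis.equivFun_apply,
    LinearEquiv.apply_symm_apply]
  exact hr i

/-- `ℚ`-scalars act through either side. -/
theorem smul_mem_Lam_of_int (k : ℤ) {n : ℕ} {z : K ⊗[ℚ] QT T} (hz : z ∈ Lam K T n) :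
    (k : ℚ) • z ∈ Lam K T n := by
  have e : (k : ℚ) • z = k • z := Int.cast_smul_eq_zsmul ℚ k z
  rw [e]
  exact (Lam K T n).zsmul_mem hz k

end Approx

/-! ### Units `1 + ϖ l` -/

section Units

variable (K : Type) [Field K] [NumberField K] (T : Finset Nat.Primes)

/-- helper54's `LamRing` is `ϖ`-adically complete in the sense of `PowAbstract`. -/
theorem isPiComplete_varpiR : PowAbstract.IsPiComplete (varpiR K T) where
  regular := by
    intro x hx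
    have h1 := congrArg (fun w : LamRing K T => (w : K ⊗[ℚ] QT T)) hx
    simp only [Subring.coe_mul, Subring.coe_zero] at h1
    have h2 : ((varpiR K T : LamRing K T) : K ⊗[ℚ] QT T) = (varpi T : ℚ) • 1 := rfl
    rw [h2, smul_mul_assoc, one_mul] at h1
    have h3 : (varpi T : ℚ) ≠ 0 := by exact_mod_cast varpi_ne_zero T
    exact Subtype.ext ((smul_eq_zero_iff_right h3).mp h1)
  complete := LamRing_prec
  separated := LamRing_haus

variable {K T}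

/-- `1 + ϖ • l` is a unit of `K ⊗[ℚ] ℚ_T` for `l` in the lattice. -/
theorem isUnit_one_add {l : K ⊗[ℚ] QT T} (hl : l ∈ Lam K T 0) :
    IsUnit (1 + (varpi T : ℚ) • l) := by
  have h := PowAbstract.isUnit_one_add (isPiComplete_varpiR K T) ⟨l, hl⟩
  have h2 := h.map (LamRing K T).subtype
  have e : (LamRing K T).subtype (1 + varpiR K T * ⟨l, hl⟩) = 1 + (varpi T : ℚ) • l := by
    show (1 : K ⊗[ℚ] QT T) + ((varpi T : ℚ) • (1 : K ⊗[ℚ] QT T)) * l = _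
    rw [smul_mul_assoc, one_mul]
  rwa [e] at h2

end Units

/-! ### `J = Kˣ · J^p` -/

section ApproxPow

variable {K : Type} [Field K] [NumberField K] {T : Finset Nat.Primes}

/-- **(J)** Every unit of `K ⊗[ℚ] ℚ_T` is a global element times a `p`-th power. -/
theorem approxPow (p : ℕ) (hp : p ≠ 0) (y : (K ⊗[ℚ] QT T)ˣ) :
    ∃ (a : Kˣ) (z : (K ⊗[ℚ] QT T)ˣ), y = inclUnits ℚ K (QT T) a * z ^ p := by
  by_cases htriv : Subsingleton (K ⊗[ℚ] QT T)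
  · refine ⟨1, 1, ?_⟩
    apply Units.ext
    exact Subsingleton.elim _ _
  rw [not_subsingleton_iff_nontrivial] at htriv
  have hp2 : ((p : ℚ) ^ 2) ≠ 0 := pow_ne_zero _ (by exact_mod_cast hp)
  have hϖ0 : (varpi T : ℚ) ≠ 0 := by exact_mod_cast varpi_ne_zero T
  -- absorb `y⁻¹`
  obtain ⟨M, hM⟩ := exists_varpi_pow_smul_mem_Lam ((y⁻¹ : (K ⊗[ℚ] QT T)ˣ) : K ⊗[ℚ] QT T)
  -- approximate `p⁻² y`
  obtain ⟨a', ha'⟩ := exists_approx ((((p : ℚ) ^ 2)⁻¹) • (y : K ⊗[ℚ] QT T)) (M + 1)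
  obtain ⟨d, hd, hde⟩ := mem_Lam_iff_exists.mp ha'
  set a : K := ((p : ℚ) ^ 2) • a' with ha
  -- the error term
  set l : K ⊗[ℚ] QT T :=
    -(d * (((varpi T : ℚ) ^ M) • ((y⁻¹ : (K ⊗[ℚ] QT T)ˣ) : K ⊗[ℚ] QT T))) with hl
  have hlmem : l ∈ Lam K T 0 := by
    refine (Lam K T 0).neg_mem ?_
    have := mul_mem_Lam hd hM
    rwa [add_zero] at this
  have hu : (a ⊗ₜ[ℚ] (1 : QT T)) * ((y⁻¹ : (K ⊗[ℚ] QT T)ˣ) : K ⊗[ℚ] QT T) =
      1 + (((p : ℚ) ^ 2 * (varpi T : ℚ)) • l) := by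
    have e1 : a ⊗ₜ[ℚ] (1 : QT T) = (y : K ⊗[ℚ] QT T) -
        ((p : ℚ) ^ 2) • (((varpi T : ℚ) ^ (M + 1)) • d) := by
      rw [← hde, smul_sub, smul_smul, mul_inv_cancel₀ hp2, one_smul, ha,
        TensorProduct.smul_tmul']
      abel
    rw [e1, hl]
    simp only [sub_mul, smul_mul_assoc, mul_smul_comm, Units.mul_inv]
    module
  -- the `p`-th root
  obtain ⟨w, -, hw⟩ := exists_pow_eq p _ ⟨l, hlmem, hu⟩
  -- `(a ⊗ 1) y⁻¹` is a unit
  have hunit_u : IsUnit (1 + (((p : ℚ) ^ 2 * (varpi T : ℚ)) • l)) := by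
    have e2 : ((p : ℚ) ^ 2 * (varpi T : ℚ)) • l = (varpi T : ℚ) • (((p ^ 2 : ℕ) : ℤ) : ℚ) • l := by
      rw [smul_smul]
      congr 1
      push_cast
      ring
    rw [e2]
    exact isUnit_one_add (smul_mem_Lam_of_int _ hlmem)
  rw [← hu] at hunit_u
  have hunit_w : IsUnit w := by
    have h1 : IsUnit (w ^ p) := by rw [hw]; exact hunit_u
    exact (isUnit_pow_iff hp).mp h1
  have hunit_a : IsUnit (a ⊗ₜ[ℚ] (1 : QT T)) := by
    have h1 : a ⊗ₜ[ℚ] (1 : QT T) =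
        ((a ⊗ₜ[ℚ] (1 : QT T)) * ((y⁻¹ : (K ⊗[ℚ] QT T)ˣ) : K ⊗[ℚ] QT T)) *
          (y : K ⊗[ℚ] QT T) := by
      rw [mul_assoc, Units.inv_mul, mul_one]
    rw [h1]
    exact hunit_u.mul y.isUnit
  have ha0 : a ≠ 0 := by
    rintro h0
    rw [h0, TensorProduct.zero_tmul] at hunit_a
    exact not_isUnit_zero (M₀ := K ⊗[ℚ] QT T) hunit_a
  obtain ⟨wu, hwu⟩ := hunit_w
  have hA : inclUnits ℚ K (QT T) (Units.mk0 a ha0) = y * wu ^ p := by
    apply Units.ext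
    rw [val_inclUnits, Units.val_mk0, Units.val_mul, Units.val_pow_eq_pow_val, hwu, hw, mul_comm,
      mul_assoc, Units.inv_mul, mul_one]
  refine ⟨Units.mk0 a ha0, wu⁻¹, ?_⟩
  rw [hA, inv_pow]
  exact (mul_inv_cancel_right y (wu ^ p)).symm

end ApproxPow

end Fermat.Agent.S55.Global.ApproxPowQ
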