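import Mathlib

/-!
# S55 / Global / G.aux: the `p`-primary quotient of a finite commutative group

For a finite group `G` with commuting elements (`hc`) and a prime `p` let `e = v_p(#G)` and
`primeToP G p hc := {y ^ (p ^ e)}` (the elements of order prime to `p`).  For a surjective
homomorphism `f : G →* Q` with kernel `primeToP G p hc`:
* `orderOf_map`: `f` preserves the order of every element of `p`-power order;
* `card_eq_pow`: `#Q` is a power of `p`.
-/

set_option autoImplicit false
set_option linter.unusedSectionVars false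

namespace Fermat.Agent.S55.Global.AuxGroup

variable (G : Type*) [Group G] [Finite G] (p : ℕ) [hp : Fact p.Prime]
  (hc : ∀ a b : G, a * b = b * a)

/-- the `p`-adic valuation of the order of `G`. -/
noncomputable def pExp : ℕ := (Nat.card G).factorization p

/-- the subgroup of `p ^ e`-th powers, `e = v_p(#G)`. -/
def primeToP : Subgroup G where
  carrier := {x | ∃ y : G, y ^ (p ^ pExp G p) = x}
  one_mem' := ⟨1, one_pow _⟩
  mul_mem' := by
    rintro _ _ ⟨a, rfl⟩ ⟨b, rfl⟩
    exact ⟨a * b, (show Commute a b from hc a b).mul_pow _⟩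
  inv_mem' := by
    rintro _ ⟨a, rfl⟩
    exact ⟨a⁻¹, inv_pow _ _⟩

theorem mem_primeToP {x : G} : x ∈ primeToP G p hc ↔ ∃ y : G, y ^ (p ^ pExp G p) = x := Iff.rfl

theorem normal_primeToP : (primeToP G p hc).Normal :=
  ⟨fun n hn g => by rwa [hc g n, mul_inv_cancel_right]⟩

/-- `#G = p ^ e * m'` with `p ∤ m'`. -/
theorem exists_card_eq : ∃ m' : ℕ, Nat.card G = p ^ pExp G p * m' ∧ ¬ p ∣ m' := by
  have h0 : Nat.card G ≠ 0 := Nat.card_pos.ne'
  refine ⟨(Nat.card G) / p ^ (Nat.card G).factorization p, ?_, Nat.not_dvd_ordCompl hp.out h0⟩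
  rw [pExp]
  exact (Nat.ordProj_mul_ordCompl_eq_self (Nat.card G) p).symm

variable {G p}

/-- an element of `p`-power order lying in `primeToP` is trivial. -/
theorem eq_one_of_mem_primeToP {x : G} (hx : x ∈ primeToP G p hc) {s : ℕ}
    (hs : x ^ (p ^ s) = 1) : x = 1 := by
  obtain ⟨m', hcard, hm'⟩ := exists_card_eq G p
  obtain ⟨y, rfl⟩ := (mem_primeToP G p hc).mp hx
  have h1 : (y ^ (p ^ pExp G p)) ^ m' = 1 := by
    rw [← pow_mul, ← hcard]
    exact pow_card_eq_one'
  have hd1 : orderOf (y ^ (p ^ pExp G p)) ∣ p ^ s := orderOf_dvd_of_pow_eq_one hs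
  have hd2 : orderOf (y ^ (p ^ pExp G p)) ∣ m' := orderOf_dvd_of_pow_eq_one h1
  have hcop : Nat.Coprime (p ^ s) m' :=
    Nat.Coprime.pow_left s ((Nat.Prime.coprime_iff_not_dvd hp.out).mpr hm')
  have : orderOf (y ^ (p ^ pExp G p)) = 1 :=
    Nat.eq_one_of_dvd_coprimes hcop hd1 hd2
  exact orderOf_eq_one_iff.mp this

variable {Q : Type*} [Group Q] (f : G →* Q) (hker : f.ker = primeToP G p hc)

include hker in
/-- a homomorphism with kernel `primeToP` preserves the order of elements of `p`-power order. -/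
theorem orderOf_map {σ : G} {s : ℕ} (hσ : orderOf σ = p ^ s) : orderOf (f σ) = p ^ s := by
  rw [← hσ]
  apply Nat.dvd_antisymm
  · exact orderOf_dvd_of_pow_eq_one (by rw [← map_pow, pow_orderOf_eq_one, map_one])
  · apply orderOf_dvd_of_pow_eq_one
    set j := orderOf (f σ) with hj
    have h1 : f (σ ^ j) = 1 := by rw [map_pow, hj, pow_orderOf_eq_one]
    have h2 : σ ^ j ∈ primeToP G p hc := by
      rw [← hker]; exact (MonoidHom.mem_ker).mpr h1
    apply eq_one_of_mem_primeToP hc h2 (s := s)
    rw [← pow_mul, mul_comm, pow_mul, ← hσ, pow_orderOf_eq_one, one_pow]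

include hker in
/-- the image of a surjective homomorphism with kernel `primeToP` is a `p`-group. -/
theorem isPGroup_of_surjective (hf : Function.Surjective f) : IsPGroup p Q := by
  intro x
  obtain ⟨g, rfl⟩ := hf x
  refine ⟨pExp G p, ?_⟩
  rw [← map_pow, ← MonoidHom.mem_ker, hker]
  exact (mem_primeToP G p hc).mpr ⟨g, rfl⟩

include hker in
theorem card_eq_pow (hf : Function.Surjective f) : ∃ n : ℕ, Nat.card Q = p ^ n := by
  have : Finite Q := Finite.of_surjective f hf
  exact (isPGroup_of_surjective hc f hker hf).exists_card_eq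

end Fermat.Agent.S55.Global.AuxGroup
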