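import Mathlib
import Fermat.Agent.S14.ArtinLemma
import Fermat.Agent.S14.CrossingDisjoint
import Fermat.Agent.S14.CrossingChar
import Fermat.Agent.S55.Global.AuxGroup

/-!
# S55 / Global / G.aux: the auxiliary cyclic `p`-extension inside `K(ζ_l)`

For a number field `K`, an odd prime `p`, a nonzero prime `v0` of `𝓞 K` and `k, B`:
* `exists_aux_prime`: a prime `l > B`, `l ≠ p`, `l ∉ v0`, prime to `discr K`, such that
  `N(v0)` has order exactly `p ^ s` modulo `l`, with `s ≥ k`;
* for such `l` and `C = K(ζ_l)`: `galEquiv : Gal(C/K) ≃* (ZMod l)ˣ`, and the subfield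
  `auxM K l C hcop p` fixed by the elements of order prime to `p`:
  it is Galois and cyclic over `K` of `p`-power degree (`isGalois_auxM`, `isCyclic_auxM`,
  `finrank_auxM`), and every `σ ∈ Gal(C/K)` with `σ ζ = ζ ^ N(v0)` (e.g. an arithmetic Frobenius
  at a prime above `v0`) restricts to an element of order exactly `p ^ s` (`orderOf_restrict`).
-/

set_option autoImplicit false
set_option linter.unusedSectionVars false
set_option linter.style.haveILetI false

open NumberField IntermediateField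

namespace Fermat.Agent.S55.Global.AuxField

open Fermat.Agent.S14 Fermat.Agent.S55.Global.AuxGroup

section prime

variable (K : Type*) [Field K] [NumberField K]

theorem two_le_absNorm (v0 : Ideal (𝓞 K)) [hv : v0.IsPrime] (hv0 : v0 ≠ ⊥) :
    2 ≤ Ideal.absNorm v0 := by
  have h0 : Ideal.absNorm v0 ≠ 0 := by rw [Ne, Ideal.absNorm_eq_zero_iff]; exact hv0
  have h1 : Ideal.absNorm v0 ≠ 1 := by rw [Ne, Ideal.absNorm_eq_one_iff]; exact hv.ne_top
  omega

/-- a rational prime not dividing `N(v0)` does not lie in `v0`. -/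
theorem natCast_notMem (v0 : Ideal (𝓞 K)) [hv : v0.IsPrime] (hv0 : v0 ≠ ⊥) {l : ℕ} (hl : l.Prime)
    (h : ¬ l ∣ Ideal.absNorm v0) : (l : 𝓞 K) ∉ v0 := by
  intro hmem
  have hle : Ideal.span {(l : 𝓞 K)} ≤ v0 := (Ideal.span_singleton_le_iff_mem _).mpr hmem
  have hdvd := Ideal.absNorm_dvd_absNorm_of_le hle
  rw [Ideal.absNorm_span_singleton] at hdvd
  have hnorm : (Algebra.norm ℤ (l : 𝓞 K)) = (l : ℤ) ^ Module.finrank ℤ (𝓞 K) := by
    have : (l : 𝓞 K) = algebraMap ℤ (𝓞 K) (l : ℤ) := by simp
    rw [this, Algebra.norm_algebraMap]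
  rw [hnorm, Int.natAbs_pow, Int.natAbs_natCast] at hdvd
  have h2 := two_le_absNorm K v0 hv0
  have hq : (Ideal.absNorm v0).minFac.Prime := Nat.minFac_prime (by omega)
  have hql : (Ideal.absNorm v0).minFac ∣ l :=
    hq.dvd_of_dvd_pow ((Nat.minFac_dvd _).trans hdvd)
  have : (Ideal.absNorm v0).minFac = l := (Nat.prime_dvd_prime_iff_eq hq hl).mp hql
  exact h (this ▸ Nat.minFac_dvd _)

/-- **The auxiliary prime.** -/
theorem exists_aux_prime (p : ℕ) [hp : Fact p.Prime] (hp2 : p ≠ 2) (v0 : Ideal (𝓞 K))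
    [hv : v0.IsPrime] (hv0 : v0 ≠ ⊥) (k B : ℕ) :
    ∃ l s : ℕ, l.Prime ∧ B < l ∧ l ≠ p ∧ (l : 𝓞 K) ∉ v0 ∧ Nat.Coprime l (discr K).natAbs ∧
      k ≤ s ∧ 1 ≤ s ∧ orderOf ((Ideal.absNorm v0 : ℕ) : ZMod l) = p ^ s := by
  obtain ⟨l, s, hl, hlp, hla, hB, hks, hs1, hord⟩ :=
    ArtinLemma.exists_prime_gt_orderOf_eq_prime_pow (Ideal.absNorm v0) (two_le_absNorm K v0 hv0)
      p hp2 (max B (discr K).natAbs) k
  refine ⟨l, s, hl, lt_of_le_of_lt (le_max_left _ _) hB, hlp, natCast_notMem K v0 hv0 hl hla, ?_,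
    hks, hs1, hord⟩
  rw [Nat.Prime.coprime_iff_not_dvd hl]
  intro hd
  have hpos : 0 < (discr K).natAbs := Int.natAbs_pos.mpr (NumberField.discr_ne_zero K)
  have := Nat.le_of_dvd hpos hd
  have := lt_of_le_of_lt (le_max_right B (discr K).natAbs) hB
  omega

end prime

section field

variable (K : Type*) [Field K] [NumberField K] (l : ℕ) [hl : Fact l.Prime]
variable (C : Type*) [Field C] [Algebra K C] [IsCyclotomicExtension {l} K C]
variable (hcop : Nat.Coprime l (discr K).natAbs)

/-- `Gal(K(ζ_l)/K) ≃ (ℤ/l)ˣ` for `l` prime to the discriminant. -/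
noncomputable def galEquiv : (C ≃ₐ[K] C) ≃* (ZMod l)ˣ :=
  IsCyclotomicExtension.autEquivPow C (CrossingDisjoint.irreducible_cyclotomic K l hcop)

include l in
theorem finiteDimensional : FiniteDimensional K C :=
  IsCyclotomicExtension.finiteDimensional {l} K C

include l in
theorem isGalois : IsGalois K C := IsCyclotomicExtension.isGalois {l} K C

/-- the order in `Gal(C/K)` of the automorphism `ζ ↦ ζ ^ a`. -/
theorem orderOf_eq_of_apply_zeta {ζ : C} (hζ : IsPrimitiveRoot ζ l) (σ : C ≃ₐ[K] C) (a : ℕ)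
    (hσ : σ ζ = ζ ^ a) : orderOf σ = orderOf ((a : ℕ) : ZMod l) := by
  rw [← orderOf_injective (hζ.autToPow K) (hζ.autToPow_injective K) σ, ← orderOf_units,
    CrossingChar.coe_autToPow_eq_of_apply_eq_pow hζ σ a hσ]

include hcop

theorem gal_comm (a b : C ≃ₐ[K] C) : a * b = b * a :=
  (galEquiv K l C hcop).injective (by rw [map_mul, map_mul, mul_comm])

theorem finite_gal : Finite (C ≃ₐ[K] C) :=
  Finite.of_injective _ (galEquiv K l C hcop).injective

theorem isCyclic_gal : IsCyclic (C ≃ₐ[K] C) := by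
  have h : IsCyclic (ZMod l)ˣ := inferInstance
  exact isCyclic_of_surjective (galEquiv K l C hcop).symm (galEquiv K l C hcop).symm.surjective

variable (p : ℕ) [hp : Fact p.Prime]

/-- the elements of `Gal(C/K)` of order prime to `p`. -/
noncomputable def auxH : Subgroup (C ≃ₐ[K] C) :=
  haveI := finite_gal K l C hcop
  primeToP (C ≃ₐ[K] C) p (gal_comm K l C hcop)

/-- the auxiliary field: the subfield of `K(ζ_l)` with Galois group the `p`-part of `(ℤ/l)ˣ`. -/
noncomputable def auxM : IntermediateField K C := fixedField (auxH K l C hcop p)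

theorem normal_auxH : (auxH K l C hcop p).Normal :=
  haveI := finite_gal K l C hcop
  normal_primeToP (C ≃ₐ[K] C) p (gal_comm K l C hcop)

theorem isGalois_auxM : IsGalois K (auxM K l C hcop p) := by
  haveI := isGalois K l C
  haveI := normal_auxH K l C hcop p
  exact IsGalois.of_fixedField_normal_subgroup (auxH K l C hcop p)

theorem restrict_ker :
    haveI := isGalois_auxM K l C hcop p
    (AlgEquiv.restrictNormalHom (auxM K l C hcop p) : (C ≃ₐ[K] C) →* _).ker
      = auxH K l C hcop p := by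
  haveI := isGalois_auxM K l C hcop p
  haveI := finiteDimensional K l C
  rw [IntermediateField.restrictNormalHom_ker]
  exact fixingSubgroup_fixedField _

theorem restrict_surjective :
    haveI := isGalois_auxM K l C hcop p
    Function.Surjective
      (AlgEquiv.restrictNormalHom (auxM K l C hcop p) : (C ≃ₐ[K] C) →* _) := by
  haveI := isGalois_auxM K l C hcop p
  haveI := isGalois K l C
  exact AlgEquiv.restrictNormalHom_surjective C

theorem isCyclic_auxM :
    IsCyclic ((auxM K l C hcop p) ≃ₐ[K] (auxM K l C hcop p)) := by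
  haveI := isGalois_auxM K l C hcop p
  haveI := isCyclic_gal K l C hcop
  exact isCyclic_of_surjective _ (restrict_surjective K l C hcop p)

/-- `[auxM : K]` is a power of `p`. -/
theorem finrank_auxM : ∃ n : ℕ, Module.finrank K (auxM K l C hcop p) = p ^ n := by
  haveI := isGalois_auxM K l C hcop p
  haveI := finite_gal K l C hcop
  haveI := finiteDimensional K l C
  obtain ⟨n, hn⟩ := card_eq_pow (gal_comm K l C hcop)
    (AlgEquiv.restrictNormalHom (auxM K l C hcop p)) (restrict_ker K l C hcop p)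
    (restrict_surjective K l C hcop p)
  exact ⟨n, by rw [← hn, IsGalois.card_aut_eq_finrank]⟩

/-- **Frobenius order.** An automorphism of `K(ζ_l)` acting on `ζ` as `ζ ↦ ζ ^ a`, where `a` has
order `p ^ s` modulo `l`, restricts to an element of order exactly `p ^ s` of `Gal(auxM/K)`. -/
theorem orderOf_restrict {ζ : C} (hζ : IsPrimitiveRoot ζ l) (σ : C ≃ₐ[K] C) (a s : ℕ)
    (hσ : σ ζ = ζ ^ a) (hord : orderOf ((a : ℕ) : ZMod l) = p ^ s) :
    haveI := isGalois_auxM K l C hcop p
    orderOf (AlgEquiv.restrictNormalHom (auxM K l C hcop p) σ) = p ^ s := by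
  haveI := isGalois_auxM K l C hcop p
  haveI := finite_gal K l C hcop
  apply orderOf_map (gal_comm K l C hcop) _ (restrict_ker K l C hcop p)
  rw [orderOf_eq_of_apply_zeta K l C hζ σ a hσ, hord]

/-- the degree of `auxM/K` is at least `p ^ s`. -/
theorem pow_le_finrank_auxM {ζ : C} (hζ : IsPrimitiveRoot ζ l) (σ : C ≃ₐ[K] C) (a s : ℕ)
    (hσ : σ ζ = ζ ^ a) (hord : orderOf ((a : ℕ) : ZMod l) = p ^ s) :
    p ^ s ∣ Module.finrank K (auxM K l C hcop p) := by
  haveI := isGalois_auxM K l C hcop p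
  haveI := finiteDimensional K l C
  rw [← orderOf_restrict K l C hcop p hζ σ a s hσ hord, ← IsGalois.card_aut_eq_finrank]
  exact orderOf_dvd_natCard _

end field

end Fermat.Agent.S55.Global.AuxField
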