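import Mathlib
import Fermat.Agent.S14.CycloFrob
import Fermat.Agent.S55.KummerRam
import Fermat.Agent.S55.Global.AuxField

/-!
# S55 / Global / G.aux, part 2: ramification and Frobenius in subfields of `K(ζ_n)`

* `eq_one_of_mem_inertia_cyclo` : `K(ζ_n)/K` is unramified outside `n`
  (inertia-group form, as in `S14.Unram` / `CycloFrob.IsArtinAway.unram`).
* `exists_mem_inertia_restrict` : for `K ⊆ M ⊆ C` (all Galois), the inertia group of a prime `Q` of
  `C` surjects onto the inertia group of `Q ∩ M`.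
* `unram_away` : every Galois subextension `M/K` of `K(ζ_n)/K` is unramified outside `n`.
* `exists_aut_of_isArithFrobAt` : an arithmetic Frobenius of `M/K` at a prime `P ∌ n` is the
  restriction of an automorphism of `K(ζ_n)` acting on `n`-th roots of unity as `ζ ↦ ζ ^ N(P ∩ K)`.
* `exists_isArtinAway` : existence of an Artin map `art` with `CycloFrob.IsArtinAway n art`.
* `orderOf_frob_auxM` : the Frobenius of `v0` in `Gal(auxM/K)` has order exactly `p ^ s`.
-/

set_option autoImplicit false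
set_option linter.unusedSectionVars false
set_option linter.style.haveILetI false

open NumberField IntermediateField
open scoped Pointwise

namespace Fermat.Agent.S55.Global.AuxUnram

open Fermat.Agent.S14 Fermat.Agent.S55

/-! ### `K(ζ_n)/K` is unramified outside `n` -/

section cyclo

variable {K C : Type*} [Field K] [Field C] [NumberField C] [Algebra K C]
  (n : ℕ) [NeZero n] [IsCyclotomicExtension {n} K C]

theorem eq_one_of_mem_inertia_cyclo (Q : Ideal (𝓞 C)) (hnQ : (n : 𝓞 C) ∉ Q) (τ : C ≃ₐ[K] C)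
    (hτ : τ ∈ Q.inertia (C ≃ₐ[K] C)) : τ = 1 := by
  obtain ⟨ζ, hζ⟩ := IsCyclotomicExtension.exists_isPrimitiveRoot K C (Set.mem_singleton n)
    (NeZero.ne n)
  set z : 𝓞 C := hζ.toInteger with hz
  have hzn : z ^ n = 1 := hζ.toInteger_isPrimitiveRoot.pow_eq_one
  have hmem : τ • z - z ∈ Q := hτ z
  set μ : 𝓞 C := (τ • z) * z ^ (n - 1) with hμ
  have hn1 : n - 1 + 1 = n := Nat.sub_add_cancel (NeZero.one_le)
  have hzz : z ^ (n - 1) * z = 1 := by rw [← pow_succ, hn1, hzn]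
  have hμn : μ ^ n = 1 := by
    rw [hμ, mul_pow, ← smul_pow', hzn, smul_one, one_mul, ← pow_mul, mul_comm, pow_mul, hzn,
      one_pow]
  have hμQ : μ - 1 ∈ Q := by
    have : μ - 1 = z ^ (n - 1) * (τ • z - z) := by rw [hμ, mul_sub, hzz]; ring
    rw [this]
    exact Q.mul_mem_left _ hmem
  have hμ1 := KummerRam.eq_one_of_pow_eq_one_of_sub_one_mem Q hnQ hμn hμQ
  have hfix : τ • z = z := by
    calc τ • z = τ • z * (z ^ (n - 1) * z) := by rw [hzz, mul_one]
      _ = μ * z := by rw [hμ]; ring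
      _ = z := by rw [hμ1, one_mul]
  have hfix' : τ ζ = ζ := congrArg (fun x : 𝓞 C => (x : C)) hfix
  exact KummerRam.eq_one_of_fix_gen (IsCyclotomicExtension.adjoin_primitive_root_eq_top hζ) τ hfix'

end cyclo

/-! ### Inertia groups surject onto those of Galois subextensions -/

section tower

variable {K M C : Type*} [Field K] [NumberField K] [Field M] [NumberField M] [Field C]
  [NumberField C] [Algebra K M] [Algebra K C] [Algebra M C] [IsScalarTower K M C]
  [IsGalois K M] [IsGalois K C]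

omit [NumberField K] [NumberField M] [NumberField C] [IsGalois K M] [IsGalois K C] in
theorem restrictScalars_smul (ν : C ≃ₐ[M] C) (x : 𝓞 C) : (ν.restrictScalars K) • x = ν • x := rfl

omit [NumberField K] [NumberField M] [NumberField C] [IsGalois K C] in
theorem restrictNormalHom_restrictScalars (ν : C ≃ₐ[M] C) :
    AlgEquiv.restrictNormalHom M (ν.restrictScalars K) = 1 := by
  ext m
  apply (algebraMap M C).injective
  have h := AlgEquiv.restrictNormal_commutes (ν.restrictScalars K) M m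
  exact h.trans (ν.commutes m)

omit [NumberField K] [NumberField M] [NumberField C] [IsGalois K M] [IsGalois K C] in
theorem algebraMap_mem_iff (P : Ideal (𝓞 M)) (Q : Ideal (𝓞 C)) (hQP : Q.under (𝓞 M) = P)
    (y : 𝓞 M) : algebraMap (𝓞 M) (𝓞 C) y ∈ Q ↔ y ∈ P := by
  rw [← hQP, Ideal.under_def, Ideal.mem_comap]

/-- **Inertia lifts.** For `K ⊆ M ⊆ C` with `M/K` and `C/K` Galois, every element of the inertia
group of `P = Q ∩ 𝓞 M` in `Gal(M/K)` is the restriction of an element of the inertia group of `Q`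
in `Gal(C/K)`. -/
theorem exists_mem_inertia_restrict (P : Ideal (𝓞 M)) [P.IsPrime] (Q : Ideal (𝓞 C)) [Q.IsPrime]
    (hQP : Q.under (𝓞 M) = P) (σ : M ≃ₐ[K] M) (hσ : σ ∈ P.inertia (M ≃ₐ[K] M)) :
    ∃ τ : C ≃ₐ[K] C, τ ∈ Q.inertia (C ≃ₐ[K] C) ∧ AlgEquiv.restrictNormalHom M τ = σ := by
  haveI : IsGalois M C := IsGalois.tower_top_of_isGalois K M C
  obtain ⟨τ0, hτ0⟩ := AlgEquiv.restrictNormalHom_surjective C σ
  have hmemQ := algebraMap_mem_iff P Q hQP
  have hσinv : ∀ x : 𝓞 M, σ⁻¹ • x - x ∈ P := inv_mem hσ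
  -- `τ0 • Q` lies over `P` as well
  have hunder : (τ0 • Q).under (𝓞 M) = Q.under (𝓞 M) := by
    ext x
    rw [Ideal.under_def, Ideal.mem_comap, Ideal.under_def, Ideal.mem_comap,
      Ideal.mem_pointwise_smul_iff_inv_smul_mem, ← CycloFrob.algebraMap_restrict_smul, map_inv,
      hτ0, hmemQ, hmemQ]
    have h1 := hσinv x
    constructor
    · intro h
      have := P.sub_mem h h1
      simpa using this
    · intro h
      have := P.add_mem h1 h
      simpa using this
  obtain ⟨ν, hν⟩ := Algebra.IsInvariant.exists_smul_of_under_eq (𝓞 M) (𝓞 C) (C ≃ₐ[M] C)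
    (τ0 • Q) Q hunder
  set τ1 : C ≃ₐ[K] C := ν.restrictScalars K * τ0 with hτ1def
  have hτ1Q : τ1 • Q = Q := by
    rw [hτ1def, mul_smul]
    exact hν.symm
  have hτ1 : AlgEquiv.restrictNormalHom M τ1 = σ := by
    rw [hτ1def, map_mul, restrictNormalHom_restrictScalars, one_mul, hτ0]
  haveI : Q.LiesOver P := ⟨hQP.symm⟩
  -- the action of `τ1` on the residue field of `Q` is `𝓞 M ⧸ P`-linear
  have hmap : Q = Q.map ((MulSemiringAction.toRingEquiv (C ≃ₐ[K] C) (𝓞 C) τ1 : 𝓞 C ≃+* 𝓞 C) :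
      𝓞 C →+* 𝓞 C) := by
    conv_lhs => rw [← hτ1Q, Ideal.pointwise_smul_def]
    rfl
  let e : (𝓞 C ⧸ Q) ≃ₐ[𝓞 M ⧸ P] (𝓞 C ⧸ Q) :=
    { __ := Ideal.quotientEquiv Q Q (MulSemiringAction.toRingEquiv (C ≃ₐ[K] C) (𝓞 C) τ1) hmap
      commutes' := by
        rintro ⟨x⟩
        show Ideal.Quotient.mk Q (τ1 • algebraMap (𝓞 M) (𝓞 C) x) =
          Ideal.Quotient.mk Q (algebraMap (𝓞 M) (𝓞 C) x)
        rw [Ideal.Quotient.eq, ← CycloFrob.algebraMap_restrict_smul, hτ1, ← map_sub, hmemQ]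
        exact hσ x }
  obtain ⟨⟨ν', hν'Q⟩, hν'⟩ := Ideal.Quotient.stabilizerHom_surjective (C ≃ₐ[M] C) P Q e
  have hkey : ∀ b : 𝓞 C, τ1 • b - ν' • b ∈ Q := by
    intro b
    have := congrArg (fun f => f (Ideal.Quotient.mk Q b)) hν'
    simp only [Ideal.Quotient.stabilizerHom_apply] at this
    rw [← Ideal.Quotient.eq]
    exact this.symm
  refine ⟨τ1 * (ν'.restrictScalars K)⁻¹, ?_, ?_⟩
  · intro b
    have h := hkey (ν'⁻¹ • b)
    rw [smul_inv_smul] at h
    rw [mul_smul]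
    exact h
  · rw [map_mul, map_inv, restrictNormalHom_restrictScalars, inv_one, mul_one, hτ1]

end tower

/-! ### Galois subextensions of `K(ζ_n)/K` -/

section sub

variable {K M C : Type*} [Field K] [NumberField K] [Field M] [NumberField M] [Field C]
  [NumberField C] [Algebra K M] [Algebra K C] [Algebra M C] [IsScalarTower K M C]
  [IsGalois K M] (n : ℕ) [NeZero n] [IsCyclotomicExtension {n} K C]

omit [NumberField K] [Algebra K M] [Algebra K C] [IsScalarTower K M C] [IsGalois K M] in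
/-- every prime of `𝓞 M` lies under a prime of `𝓞 C`. -/
theorem exists_prime_over (P : Ideal (𝓞 M)) [P.IsPrime] :
    ∃ Q : Ideal (𝓞 C), Q.IsPrime ∧ Q.under (𝓞 M) = P := by
  obtain ⟨Q, -, hQ, hQP⟩ := Ideal.exists_ideal_over_prime_of_isIntegral (S := 𝓞 C) P ⊥
    (by rw [Ideal.comap_bot_of_injective _ (RingOfIntegers.algebraMap.injective M C)]; exact bot_le)
  exact ⟨Q, hQ, hQP⟩

variable (C) in
include C in
/-- **Galois subextensions of `K(ζ_n)/K` are unramified outside `n`.** -/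
theorem unram_away (P : Ideal (𝓞 M)) [P.IsPrime] (hnP : (n : 𝓞 M) ∉ P) (σ : M ≃ₐ[K] M)
    (hσ : σ ∈ P.inertia (M ≃ₐ[K] M)) : σ = 1 := by
  haveI : IsGalois K C := IsCyclotomicExtension.isGalois {n} K C
  obtain ⟨Q, hQ, hQP⟩ := exists_prime_over (C := C) P
  obtain ⟨τ, hτ, hτσ⟩ := exists_mem_inertia_restrict P Q hQP σ hσ
  have hnQ : (n : 𝓞 C) ∉ Q := by
    rw [← CycloFrob.natCast_mem_under (A := 𝓞 M), hQP]
    exact hnP
  rw [← hτσ, eq_one_of_mem_inertia_cyclo n Q hnQ τ hτ, map_one]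

variable (C) in
include C in
/-- the `unram` field of `CycloFrob.IsArtinAway n art`, for any Galois subextension of
`K(ζ_n)/K`. -/
theorem unram_away' (P : Ideal (𝓞 M)) (hP : P.IsPrime) (_hP0 : P ≠ ⊥) (hnP : (n : 𝓞 M) ∉ P)
    (σ : M ≃ₐ[K] M) (hσ : σ ∈ P.inertia (M ≃ₐ[K] M)) : σ = 1 :=
  unram_away C n P hnP σ hσ

/-- **Explicit Frobenius.** An arithmetic Frobenius of `M/K` at a prime `P ∌ n` is the restriction
of an automorphism of `K(ζ_n)` raising the `n`-th roots of unity to the power `N(P ∩ 𝓞 K)`. -/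
theorem exists_aut_of_isArithFrobAt (P : Ideal (𝓞 M)) [P.IsPrime] (hP0 : P ≠ ⊥)
    (hnP : (n : 𝓞 M) ∉ P) (σ : M ≃ₐ[K] M) (hσ : IsArithFrobAt (𝓞 K) σ P) :
    ∃ τ : C ≃ₐ[K] C, (∀ ζ : C, ζ ^ n = 1 → τ ζ = ζ ^ Ideal.absNorm (P.under (𝓞 K))) ∧
      AlgEquiv.restrictNormalHom M τ = σ := by
  haveI : IsGalois K C := IsCyclotomicExtension.isGalois {n} K C
  obtain ⟨Q, hQ, hQP⟩ := exists_prime_over (C := C) P
  have hQ0 : Q ≠ ⊥ := by
    rintro rfl
    rw [Ideal.under_def, Ideal.comap_bot_of_injective _ (RingOfIntegers.algebraMap.injective M C)]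
      at hQP
    exact hP0 hQP.symm
  have hnQ : (n : 𝓞 C) ∉ Q := by
    rw [← CycloFrob.natCast_mem_under (A := 𝓞 M), hQP]
    exact hnP
  have : Finite (𝓞 C ⧸ Q) := Ideal.finiteQuotientOfFreeOfNeBot Q hQ0
  obtain ⟨τ, hτ⟩ := IsArithFrobAt.exists_of_isInvariant (𝓞 K) (C ≃ₐ[K] C) Q
  refine ⟨τ, fun ζ hζ => ?_, ?_⟩
  · rw [CycloFrob.frob_zeta hζ Q hnQ τ hτ, ← hQP, Ideal.under_under]
  · have h1 : IsArithFrobAt (𝓞 K) (AlgEquiv.restrictNormalHom M τ) (Q.under (𝓞 M)) :=
      CycloFrob.isArithFrobAt_restrict τ Q hτ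
    rw [hQP] at h1
    have h3 := IsArithFrobAt.mul_inv_mem_inertia h1 hσ
    have h4 := unram_away C n P hnP _ h3
    exact mul_inv_eq_one.mp h4

end sub

/-! ### An Artin map away from `n` -/

section artin

variable {K M : Type*} [Field K] [NumberField K] [Field M] [NumberField M] [Algebra K M]
  [IsGalois K M]

/-- In an abelian extension, a Frobenius at one prime over `v` is a Frobenius at all primes over
`v`. -/
theorem exists_frob_all (hcomm : ∀ a b : M ≃ₐ[K] M, a * b = b * a) (v : Ideal (𝓞 K)) [v.IsPrime]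
    (hv0 : v ≠ ⊥) :
    ∃ σ : M ≃ₐ[K] M, ∀ P : Ideal (𝓞 M), P.IsPrime → P.under (𝓞 K) = v →
      IsArithFrobAt (𝓞 K) σ P := by
  obtain ⟨P, hP, hPv⟩ := exists_prime_over (M := K) (C := M) v
  have hP0 : P ≠ ⊥ := by
    rintro rfl
    rw [Ideal.under_def, Ideal.comap_bot_of_injective _ (RingOfIntegers.algebraMap.injective K M)]
      at hPv
    exact hv0 hPv.symm
  have : Finite (𝓞 M ⧸ P) := Ideal.finiteQuotientOfFreeOfNeBot P hP0
  obtain ⟨σ, hσ⟩ := IsArithFrobAt.exists_of_isInvariant (𝓞 K) (M ≃ₐ[K] M) P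
  refine ⟨σ, fun P' hP' hP'v => ?_⟩
  obtain ⟨g, hg⟩ := Algebra.IsInvariant.exists_smul_of_under_eq (𝓞 K) (𝓞 M) (M ≃ₐ[K] M) P P'
    (hPv.trans hP'v.symm)
  have h := hσ.conj g
  rw [hcomm g σ, mul_inv_cancel_right, ← hg] at h
  exact h

open Classical in
/-- a choice of Frobenius elements at the primes not containing `n` (and `1` elsewhere). -/
noncomputable def frobFun (hcomm : ∀ a b : M ≃ₐ[K] M, a * b = b * a) (n : ℕ)
    (v : Ideal (𝓞 K)) : M ≃ₐ[K] M :=
  if h : v.IsPrime ∧ v ≠ ⊥ ∧ (n : 𝓞 K) ∉ v then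
    haveI := h.1
    Classical.choose (exists_frob_all hcomm v h.2.1)
  else 1

theorem frobFun_spec (hcomm : ∀ a b : M ≃ₐ[K] M, a * b = b * a) (n : ℕ) (v : Ideal (𝓞 K))
    (hv : v.IsPrime) (hv0 : v ≠ ⊥) (hvn : (n : 𝓞 K) ∉ v) (P : Ideal (𝓞 M)) (hP : P.IsPrime)
    (hPv : P.under (𝓞 K) = v) : IsArithFrobAt (𝓞 K) (frobFun hcomm n v) P := by
  have h : v.IsPrime ∧ v ≠ ⊥ ∧ (n : 𝓞 K) ∉ v := ⟨hv, hv0, hvn⟩
  rw [frobFun, dif_pos h]
  exact Classical.choose_spec (exists_frob_all hcomm v hv0) P hP hPv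

open scoped IsMulCommutative in
/-- the multiplicative extension of `frobFun` to all ideals. -/
noncomputable def artFun (hcomm : ∀ a b : M ≃ₐ[K] M, a * b = b * a) (n : ℕ)
    (I : Ideal (𝓞 K)) : M ≃ₐ[K] M :=
  haveI : IsMulCommutative (M ≃ₐ[K] M) := ⟨⟨hcomm⟩⟩
  ((UniqueFactorizationMonoid.normalizedFactors I).map (frobFun hcomm n)).prod

open scoped IsMulCommutative in
theorem artFun_top (hcomm : ∀ a b : M ≃ₐ[K] M, a * b = b * a) (n : ℕ) :
    artFun hcomm n (⊤ : Ideal (𝓞 K)) = 1 := by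
  rw [artFun, ← Ideal.one_eq_top, UniqueFactorizationMonoid.normalizedFactors_one]
  simp

open scoped IsMulCommutative in
theorem artFun_mul (hcomm : ∀ a b : M ≃ₐ[K] M, a * b = b * a) (n : ℕ) {I J : Ideal (𝓞 K)}
    (hI : I ≠ ⊥) (hJ : J ≠ ⊥) :
    artFun hcomm n (I * J) = artFun hcomm n I * artFun hcomm n J := by
  haveI : IsMulCommutative (M ≃ₐ[K] M) := ⟨⟨hcomm⟩⟩
  rw [artFun, UniqueFactorizationMonoid.normalizedFactors_mul hI hJ, Multiset.map_add,
    Multiset.prod_add]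
  rfl

open scoped IsMulCommutative in
theorem artFun_prime (hcomm : ∀ a b : M ≃ₐ[K] M, a * b = b * a) (n : ℕ) {v : Ideal (𝓞 K)}
    (hv : v.IsPrime) (hv0 : v ≠ ⊥) : artFun hcomm n v = frobFun hcomm n v := by
  have hprime : Prime v := Ideal.prime_of_isPrime hv0 hv
  rw [artFun, UniqueFactorizationMonoid.normalizedFactors_irreducible hprime.irreducible,
    normalize_eq]
  simp

end artin

section artinCyclo

variable {K M : Type*} [Field K] [NumberField K] [Field M] [NumberField M] [Algebra K M]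
  [IsGalois K M] (C : Type*) [Field C] [NumberField C] [Algebra K C] [Algebra M C]
  [IsScalarTower K M C] (n : ℕ) [NeZero n] [IsCyclotomicExtension {n} K C]

include C n in
/-- Galois subextensions of `K(ζ_n)/K` are abelian. -/
theorem gal_comm_of_cyclo (a b : M ≃ₐ[K] M) : a * b = b * a := by
  haveI : IsGalois K C := IsCyclotomicExtension.isGalois {n} K C
  obtain ⟨a', rfl⟩ := AlgEquiv.restrictNormalHom_surjective C a
  obtain ⟨b', rfl⟩ := AlgEquiv.restrictNormalHom_surjective C b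
  haveI := IsCyclotomicExtension.isMulCommutative {n} K C
  rw [← map_mul, ← map_mul, mul_comm' a' b']

/-- **Existence of an Artin map away from `n`** for every Galois subextension `M/K` of
`K(ζ_n)/K`. -/
theorem isArtinAway_artFun :
    CycloFrob.IsArtinAway n (artFun (gal_comm_of_cyclo (K := K) (M := M) C n) n) := by
  set hcomm := gal_comm_of_cyclo (K := K) (M := M) C n
  refine ⟨artFun_top hcomm n, fun I J hI hJ => artFun_mul hcomm n hI hJ, ?_, ?_⟩
  · intro v hv hv0 hvn P hP hPv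
    rw [artFun_prime hcomm n hv hv0]
    exact frobFun_spec hcomm n v hv hv0 hvn P hP hPv
  · intro P hP hP0 hnP σ hσ
    exact unram_away C n P hnP σ hσ

include C in
theorem exists_isArtinAway : ∃ art : Ideal (𝓞 K) → (M ≃ₐ[K] M), CycloFrob.IsArtinAway n art :=
  ⟨_, isArtinAway_artFun C n⟩

end artinCyclo

/-! ### The auxiliary field `auxM` -/

section aux

open Fermat.Agent.S55.Global.AuxField

variable (K : Type*) [Field K] [NumberField K] (l : ℕ) [hl : Fact l.Prime]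
variable (C : Type*) [Field C] [NumberField C] [Algebra K C] [IsCyclotomicExtension {l} K C]
variable (hcop : Nat.Coprime l (discr K).natAbs) (p : ℕ) [hp : Fact p.Prime]

instance isGalois_auxM_inst : IsGalois K (auxM K l C hcop p) := isGalois_auxM K l C hcop p

/-- **Frobenius order in the auxiliary field.** If `N(v0)` has order exactly `p ^ s` modulo `l`,
then every arithmetic Frobenius of `auxM/K` at a prime `P ∌ l` over `v0` has order exactly
`p ^ s`. -/
theorem orderOf_frob_auxM (P : Ideal (𝓞 (auxM K l C hcop p))) [P.IsPrime] (hP0 : P ≠ ⊥)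
    (hlP : (l : 𝓞 (auxM K l C hcop p)) ∉ P)
    (σ : (auxM K l C hcop p) ≃ₐ[K] (auxM K l C hcop p)) (hσ : IsArithFrobAt (𝓞 K) σ P) (s : ℕ)
    (hord : orderOf ((Ideal.absNorm (P.under (𝓞 K)) : ℕ) : ZMod l) = p ^ s) :
    orderOf σ = p ^ s := by
  haveI := isGalois_auxM K l C hcop p
  haveI : NeZero l := ⟨hl.out.ne_zero⟩
  obtain ⟨τ, hτ, hτσ⟩ := exists_aut_of_isArithFrobAt (C := C) l P hP0 hlP σ hσ
  obtain ⟨ζ, hζ⟩ := IsCyclotomicExtension.exists_isPrimitiveRoot K C (Set.mem_singleton l)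
    (NeZero.ne l)
  rw [← hτσ]
  exact orderOf_restrict K l C hcop p hζ τ _ s (hτ ζ hζ.pow_eq_one) hord

/-- the same for an Artin map away from `l`. -/
theorem orderOf_art_auxM
    {art : Ideal (𝓞 K) → ((auxM K l C hcop p) ≃ₐ[K] (auxM K l C hcop p))}
    (hA : CycloFrob.IsArtinAway l art)
    (v0 : Ideal (𝓞 K)) (hv : v0.IsPrime) (hv0 : v0 ≠ ⊥) (hlv : (l : 𝓞 K) ∉ v0) (s : ℕ)
    (hord : orderOf ((Ideal.absNorm v0 : ℕ) : ZMod l) = p ^ s) :
    orderOf (art v0) = p ^ s := by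
  haveI := isGalois_auxM K l C hcop p
  obtain ⟨P, hP, hPv⟩ := exists_prime_over (M := K) (C := auxM K l C hcop p) v0
  have hP0 : P ≠ ⊥ := by
    rintro rfl
    rw [Ideal.under_def, Ideal.comap_bot_of_injective _
      (RingOfIntegers.algebraMap.injective K (auxM K l C hcop p))] at hPv
    exact hv0 hPv.symm
  have hlP : (l : 𝓞 (auxM K l C hcop p)) ∉ P := by
    rw [← CycloFrob.natCast_mem_under (A := 𝓞 K), hPv]
    exact hlv
  exact orderOf_frob_auxM K l C hcop p P hP0 hlP (art v0) (hA.frob v0 hv hv0 hlv P hP hPv) s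
    (by rw [hPv]; exact hord)

end aux

/-! ### The packaged export -/

section package

open Fermat.Agent.S55.Global.AuxField

/-- **G.aux, packaged.**  For a number field `K`, an odd prime `p`, a nonzero prime `v0` of `𝓞 K`
and bounds `k, B` there are a prime `l > B`, `l ≠ p`, `l ∉ v0`, prime to `discr K`, and `s ≥ k`
such that the subfield `M = auxM` of `C = K(ζ_l)` (`CyclotomicField l K`) is Galois and cyclic of
`p`-power degree over `K`, carries an Artin map `art` away from `l` (in particular `M/K` is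
unramified outside `l`), and `art v0` has order exactly `p ^ s`. -/
theorem exists_aux_field (K : Type*) [Field K] [NumberField K] (p : ℕ) [hp : Fact p.Prime]
    (hp2 : p ≠ 2) (v0 : Ideal (𝓞 K)) [hv : v0.IsPrime] (hv0 : v0 ≠ ⊥) (k B : ℕ) :
    ∃ (l : ℕ) (_ : Fact l.Prime) (hcop : Nat.Coprime l (discr K).natAbs) (s : ℕ)
      (art : Ideal (𝓞 K) → ((auxM K l (CyclotomicField l K) hcop p) ≃ₐ[K]
        (auxM K l (CyclotomicField l K) hcop p))),
      B < l ∧ l ≠ p ∧ (l : 𝓞 K) ∉ v0 ∧ k ≤ s ∧ 1 ≤ s ∧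
      orderOf ((Ideal.absNorm v0 : ℕ) : ZMod l) = p ^ s ∧
      IsCyclic ((auxM K l (CyclotomicField l K) hcop p) ≃ₐ[K]
        (auxM K l (CyclotomicField l K) hcop p)) ∧
      (∃ n : ℕ, Module.finrank K (auxM K l (CyclotomicField l K) hcop p) = p ^ n) ∧
      p ^ s ∣ Module.finrank K (auxM K l (CyclotomicField l K) hcop p) ∧
      CycloFrob.IsArtinAway l art ∧ orderOf (art v0) = p ^ s := by
  obtain ⟨l, s, hl, hB, hlp, hlv, hcop, hks, hs1, hord⟩ := exists_aux_prime K p hp2 v0 hv0 k B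
  haveI : Fact l.Prime := ⟨hl⟩
  haveI : NeZero l := ⟨hl.ne_zero⟩
  set C := CyclotomicField l K
  have hA := isArtinAway_artFun (K := K) (M := auxM K l C hcop p) C l
  have hordA := orderOf_art_auxM K l C hcop p hA v0 hv hv0 hlv s hord
  refine ⟨l, ‹_›, hcop, s, _, hB, hlp, hlv, hks, hs1, hord, isCyclic_auxM K l C hcop p,
    finrank_auxM K l C hcop p, ?_, hA, hordA⟩
  haveI := finiteDimensional K l C
  rw [← hordA, ← IsGalois.card_aut_eq_finrank]
  exact orderOf_dvd_natCard _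

end package

end Fermat.Agent.S55.Global.AuxUnram
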