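/-
S55 / Global / G.recip — R.core (helper46).

IDEAL-THEORETIC "no single support" statement for a Galois extension `L/F` contained in an
`m`-cyclotomic extension `C/F` (`F` totally complex), possibly RAMIFIED at the primes over `m`
(tame auxiliary trick of the S55 Global plan).  No completions, no cohomology.

Built on the frozen S14 files `CycloFrob` (`IsArtinAway`, `art_eq_of_absNorm_modEq`,
`absNorm_span_singleton_modEq`) and `ArtinMapNorm` (`isArithFrobAt_pow_smul_sub_mem`).

Main results (namespace `Fermat.Agent.S55.Global.RecipCore`):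
* `pow_inertiaDeg_eq_one` : `art v ^ f(P/v) = 1` for `v ∌ m`;
  `orderOf_art_eq_inertiaDeg` : `orderOf (art v) = f(P/v)` for `v ∌ m`.
* `artm m art` : the prime-to-`m` Artin map, defined on ALL nonzero ideals (primes over `m` are
  ignored); `artm_mul`, `artm_eq_art`, `artm_relNorm`, `artm_span_intNorm`.
* `artm_span_eq_of_norm_congr` : `c * N z * d' = c' * d * N y`, `c' ≡ d' mod m`, `d'` prime to `m`
  imply `artm (c) = artm (d)`.
* `single_support` : the no-single-support theorem.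
-/
import Fermat.Agent.S14.CycloFrob
import Fermat.Agent.S14.ArtinMapNorm
import Fermat.Agent.S14.ArtinMap

set_option autoImplicit false
set_option linter.unusedSectionVars false
set_option linter.style.haveILetI false
set_option linter.unusedVariables false

open NumberField nonZeroDivisors UniqueFactorizationMonoid

namespace Fermat.Agent.S55.Global.RecipCore

open Fermat.Agent.S14 Fermat.Agent.S14.CycloFrob

section Away

variable {F L : Type*} [Field F] [NumberField F] [Field L] [NumberField L] [Algebra F L]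
  [IsGalois F L]

variable {m : ℕ} {art : Ideal (𝓞 F) → (L ≃ₐ[F] L)}

theorem ne_bot_of_under_eq {v : Ideal (𝓞 F)} (hv0 : v ≠ ⊥) {P : Ideal (𝓞 L)}
    (hPv : P.under (𝓞 F) = v) : P ≠ ⊥ := by
  rintro rfl
  rw [Ideal.under_def, Ideal.comap_bot_of_injective _ (RingOfIntegers.algebraMap.injective F L)]
    at hPv
  exact hv0 hPv.symm

/-- `art v ^ f = 1`, `f` the residue degree of any prime over `v ∌ m`. -/
theorem pow_inertiaDeg_eq_one (hA : IsArtinAway m art) (v : Ideal (𝓞 F)) (hv : v.IsPrime)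
    (hv0 : v ≠ ⊥) (hvm : (m : 𝓞 F) ∉ v) (P : Ideal (𝓞 L)) (hP : P.IsPrime)
    (hPv : P.under (𝓞 F) = v) : art v ^ P.inertiaDeg (𝓞 F) = 1 := by
  have hvmax : v.IsMaximal := hv.isMaximal hv0
  have hP0 : P ≠ ⊥ := ne_bot_of_under_eq hv0 hPv
  have hPmax : P.IsMaximal := hP.isMaximal hP0
  have hPlies : P.LiesOver v := ⟨hPv.symm⟩
  have hmP : (m : 𝓞 L) ∉ P := by
    rw [← natCast_mem_under (A := 𝓞 F), hPv]; exact hvm
  have hfrob := hA.frob v hv hv0 hvm P hP hPv
  set f := P.inertiaDeg (𝓞 F) with hf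
  set q := Nat.card (𝓞 F ⧸ v) with hq
  let _ : Field (𝓞 L ⧸ P) := Ideal.Quotient.field P
  have : Finite (𝓞 L ⧸ P) := Ideal.finiteQuotientOfFreeOfNeBot P hP0
  have hcard : q ^ f = Nat.card (𝓞 L ⧸ P) := Ideal.cardQuot_pow_inertiaDeg v P
  apply hA.unram P hP hP0 hmP
  intro x
  have h1 := isArithFrobAt_pow_smul_sub_mem hfrob f x
  rw [hPv, ← hq, hcard] at h1
  have h2 : x ^ Nat.card (𝓞 L ⧸ P) - x ∈ P := by
    rw [← Ideal.Quotient.eq, map_pow]
    have : Fintype (𝓞 L ⧸ P) := Fintype.ofFinite _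
    rw [Nat.card_eq_fintype_card]
    exact FiniteField.pow_card _
  have := P.add_mem h1 h2
  simpa using this

/-- The order of `art v` is the residue degree of any prime over `v ∌ m`. -/
theorem orderOf_art_eq_inertiaDeg (hA : IsArtinAway m art) (v : Ideal (𝓞 F)) (hv : v.IsPrime)
    (hv0 : v ≠ ⊥) (hvm : (m : 𝓞 F) ∉ v) (P : Ideal (𝓞 L)) (hP : P.IsPrime)
    (hPv : P.under (𝓞 F) = v) : orderOf (art v) = P.inertiaDeg (𝓞 F) := by
  have : v.IsPrime := hv
  have : P.IsPrime := hP
  have : P.LiesOver v := ⟨hPv.symm⟩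
  exact Nat.dvd_antisymm
    (orderOf_dvd_of_pow_eq_one (pow_inertiaDeg_eq_one hA v hv hv0 hvm P hP hPv))
    (Fermat.Agent.S14.ArtinMap.inertiaDeg_dvd_of_pow_eq_one hv0
      (hA.frob v hv hv0 hvm P hP hPv) (pow_orderOf_eq_one _))

open scoped IsMulCommutative

variable [IsMulCommutative (L ≃ₐ[F] L)]

open Classical in
/-- The Frobenius function away from `m`: primes containing `m` are sent to `1`. -/
noncomputable def fAway (m : ℕ) (art : Ideal (𝓞 F) → (L ≃ₐ[F] L)) (v : Ideal (𝓞 F)) :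
    L ≃ₐ[F] L :=
  if (m : 𝓞 F) ∈ v then 1 else art v

theorem fAway_of_mem {v : Ideal (𝓞 F)} (h : (m : 𝓞 F) ∈ v) : fAway m art v = 1 := by
  simp [fAway, h]

theorem fAway_of_not_mem {v : Ideal (𝓞 F)} (h : (m : 𝓞 F) ∉ v) : fAway m art v = art v := by
  simp [fAway, h]

/-- The prime-to-`m` Artin map on all (nonzero) ideals. -/
noncomputable def artm (m : ℕ) (art : Ideal (𝓞 F) → (L ≃ₐ[F] L)) (I : Ideal (𝓞 F)) :
    L ≃ₐ[F] L :=
  ((normalizedFactors I).map (fAway m art)).prod

theorem artm_top : artm m art (⊤ : Ideal (𝓞 F)) = 1 := by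
  rw [artm, ← Ideal.one_eq_top, normalizedFactors_one]
  simp

theorem artm_mul {I J : Ideal (𝓞 F)} (hI : I ≠ ⊥) (hJ : J ≠ ⊥) :
    artm m art (I * J) = artm m art I * artm m art J := by
  rw [artm, normalizedFactors_mul hI hJ, Multiset.map_add, Multiset.prod_add]
  rfl

theorem artm_pow (I : Ideal (𝓞 F)) (n : ℕ) : artm m art (I ^ n) = artm m art I ^ n := by
  rw [artm, normalizedFactors_pow, Multiset.map_nsmul, Multiset.prod_nsmul]
  rfl

theorem artm_prime {v : Ideal (𝓞 F)} (hv : v.IsPrime) (hv0 : v ≠ ⊥) :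
    artm m art v = fAway m art v := by
  have hprime : Prime v := Ideal.prime_of_isPrime hv0 hv
  rw [artm, normalizedFactors_irreducible hprime.irreducible, normalize_eq]
  simp

theorem not_mem_of_isCoprime_mul {p a : Ideal (𝓞 F)} (hp : p.IsPrime)
    (h : IsCoprime (p * a) (Ideal.span {(m : 𝓞 F)})) : (m : 𝓞 F) ∉ p := by
  intro hmem
  have h1 : IsCoprime p (Ideal.span {(m : 𝓞 F)}) := h.of_mul_left_left
  rw [Ideal.isCoprime_iff_sup_eq, sup_eq_left.mpr ((Ideal.span_singleton_le_iff_mem p).mpr hmem)]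
    at h1
  exact hp.ne_top h1

/-- On ideals prime to `m`, `artm` is `art`. -/
theorem artm_eq_art (hA : IsArtinAway m art) (I : Ideal (𝓞 F)) (hI : I ≠ ⊥)
    (hIm : IsCoprime I (Ideal.span {(m : 𝓞 F)})) : artm m art I = art I := by
  induction I using UniqueFactorizationMonoid.induction_on_prime with
  | h₁ => exact absurd Ideal.zero_eq_bot hI
  | h₂ x hx =>
    rw [Ideal.isUnit_iff] at hx
    subst hx
    rw [artm_top, hA.one]
  | h₃ a p ha hp ih =>
    have hp0 : p ≠ ⊥ := hp.ne_zero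
    have hpprime : p.IsPrime := (Ideal.prime_iff_isPrime hp0).mp hp
    have ha0 : a ≠ ⊥ := ha
    have hpm : (m : 𝓞 F) ∉ p := not_mem_of_isCoprime_mul hpprime hIm
    rw [artm_mul hp0 ha0, artm_prime hpprime hp0, fAway_of_not_mem hpm,
      ih ha0 hIm.of_mul_left_right, hA.mul p a hp0 ha0]

/-- `artm` kills the relative norm of a nonzero prime. -/
theorem artm_relNorm_prime (hA : IsArtinAway m art) (P : Ideal (𝓞 L)) (hP : P.IsPrime)
    (hP0 : P ≠ ⊥) : artm m art (Ideal.relNorm (𝓞 F) P) = 1 := by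
  have hPmax : P.IsMaximal := hP.isMaximal hP0
  set v : Ideal (𝓞 F) := P.under (𝓞 F) with hv
  have hPv : P.LiesOver v := ⟨rfl⟩
  have hvprime : v.IsPrime := Ideal.IsPrime.under (𝓞 F) P
  have hv0 : v ≠ ⊥ := by
    intro h0
    exact hP0 (Ideal.eq_bot_of_comap_eq_bot (R := 𝓞 F) (by rw [← Ideal.under_def, ← hv, h0]))
  have hvmax : v.IsMaximal := hvprime.isMaximal hv0
  have hrel : Ideal.relNorm (𝓞 F) P = v ^ P.inertiaDeg (𝓞 F) :=
    Ideal.relNorm_eq_pow_of_isMaximal P v
  rw [hrel, artm_pow, artm_prime hvprime hv0]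
  by_cases hm : (m : 𝓞 F) ∈ v
  · rw [fAway_of_mem hm, one_pow]
  · rw [fAway_of_not_mem hm]
    exact pow_inertiaDeg_eq_one hA v hvprime hv0 hm P hP rfl

/-- `artm` kills relative norms of nonzero ideals. -/
theorem artm_relNorm (hA : IsArtinAway m art) (J : Ideal (𝓞 L)) (hJ : J ≠ ⊥) :
    artm m art (Ideal.relNorm (𝓞 F) J) = 1 := by
  induction J using UniqueFactorizationMonoid.induction_on_prime with
  | h₁ => exact absurd Ideal.zero_eq_bot hJ
  | h₂ x hx =>
    rw [Ideal.isUnit_iff] at hx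
    subst hx
    rw [Ideal.relNorm_top, artm_top]
  | h₃ a P ha hP ih =>
    have hP0 : P ≠ ⊥ := hP.ne_zero
    have hPprime : P.IsPrime := (Ideal.prime_iff_isPrime hP0).mp hP
    have ha0 : a ≠ ⊥ := ha
    have h1 : Ideal.relNorm (𝓞 F) P ≠ ⊥ := by rwa [Ne, Ideal.relNorm_eq_bot_iff]
    have h2 : Ideal.relNorm (𝓞 F) a ≠ ⊥ := by rwa [Ne, Ideal.relNorm_eq_bot_iff]
    rw [map_mul, artm_mul h1 h2, artm_relNorm_prime hA P hPprime hP0, ih ha0, one_mul]

/-- `artm` kills the principal ideals generated by norms. -/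
theorem artm_span_intNorm (hA : IsArtinAway m art) (y : 𝓞 L) (hy : y ≠ 0) :
    artm m art (Ideal.span {Algebra.intNorm (𝓞 F) (𝓞 L) y}) = 1 := by
  rw [← Ideal.relNorm_singleton]
  exact artm_relNorm hA _ (by rwa [Ne, Ideal.span_singleton_eq_bot])

/-- Finset form of `artm`. -/
theorem artm_eq_prod [DecidableEq (Ideal (𝓞 F))] (I : Ideal (𝓞 F)) (S : Finset (Ideal (𝓞 F)))
    (hS : (normalizedFactors I).toFinset ⊆ S) :
    artm m art I = ∏ v ∈ S, fAway m art v ^ (normalizedFactors I).count v := by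
  rw [artm, Finset.prod_multiset_map_count]
  refine Finset.prod_subset hS (fun v _ hv => ?_)
  rw [Multiset.mem_toFinset] at hv
  rw [Multiset.count_eq_zero_of_notMem hv, pow_zero]

end Away

section Main

variable {F L C : Type*} [Field F] [NumberField F] [Field L] [NumberField L] [Field C]
  [NumberField C] [Algebra F L] [Algebra F C] [Algebra L C] [IsScalarTower F L C]
  [IsGalois F L] [IsGalois F C]

variable {m : ℕ} {art : Ideal (𝓞 F) → (L ≃ₐ[F] L)}

open scoped IsMulCommutative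

/-- Explicit cyclotomic reciprocity modulo norms: if `b = c/d` and `b / N(y/z) = c'/d'` with
`c' ≡ d' mod m`, `d'` prime to `m`, then the prime-to-`m` Artin symbols of `(c)` and `(d)`
agree. -/
theorem artm_span_eq_of_norm_congr [IsMulCommutative (L ≃ₐ[F] L)] [IsTotallyComplex F]
    [IsCyclotomicExtension {m} F C] (hA : IsArtinAway m art)
    (c d : 𝓞 F) (hc : c ≠ 0) (hd : d ≠ 0) (y z : 𝓞 L) (hy : y ≠ 0) (hz : z ≠ 0)
    (c' d' : 𝓞 F) (hd' : d' ≠ 0)
    (hd'm : IsCoprime (Ideal.span {d'}) (Ideal.span {(m : 𝓞 F)}))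
    (hcd' : c' - d' ∈ Ideal.span {(m : 𝓞 F)})
    (heq : c * Algebra.intNorm (𝓞 F) (𝓞 L) z * d' = c' * d * Algebra.intNorm (𝓞 F) (𝓞 L) y) :
    artm m art (Ideal.span {c}) = artm m art (Ideal.span {d}) := by
  have hNy : Algebra.intNorm (𝓞 F) (𝓞 L) y ≠ 0 := by rwa [Ne, Algebra.intNorm_eq_zero]
  have hNz : Algebra.intNorm (𝓞 F) (𝓞 L) z ≠ 0 := by rwa [Ne, Algebra.intNorm_eq_zero]
  have hc' : c' ≠ 0 := by
    rintro rfl
    rw [zero_mul, zero_mul] at heq
    exact mul_ne_zero (mul_ne_zero hc hNz) hd' heq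
  have hc'm : IsCoprime (Ideal.span {c'}) (Ideal.span {(m : 𝓞 F)}) := by
    rw [Ideal.isCoprime_iff_sup_eq, eq_top_iff, ← Ideal.isCoprime_iff_sup_eq.mp hd'm]
    refine sup_le ?_ le_sup_right
    rw [Ideal.span_singleton_le_iff_mem]
    have : d' = c' - (c' - d') := by ring
    rw [this]
    exact sub_mem (Ideal.mem_sup_left (Ideal.mem_span_singleton_self c'))
      (Ideal.mem_sup_right hcd')
  have hs : ∀ {x : 𝓞 F}, x ≠ 0 → Ideal.span {x} ≠ ⊥ := fun hx => by
    rwa [Ne, Ideal.span_singleton_eq_bot]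
  -- the explicit cyclotomic formula
  have hkey : art (Ideal.span {c'}) = art (Ideal.span {d'}) :=
    art_eq_of_absNorm_modEq (C := C) hA _ _ (hs hc') (hs hd') hc'm hd'm
      (absNorm_span_singleton_modEq m c' d' hcd')
  have hkey' : artm m art (Ideal.span {c'}) = artm m art (Ideal.span {d'}) := by
    rw [artm_eq_art hA _ (hs hc') hc'm, artm_eq_art hA _ (hs hd') hd'm, hkey]
  -- apply `artm` to the ideal identity
  have hid : Ideal.span {c} * Ideal.span {Algebra.intNorm (𝓞 F) (𝓞 L) z} * Ideal.span {d'} =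
      Ideal.span {c'} * Ideal.span {d} * Ideal.span {Algebra.intNorm (𝓞 F) (𝓞 L) y} := by
    rw [Ideal.span_singleton_mul_span_singleton, Ideal.span_singleton_mul_span_singleton,
      Ideal.span_singleton_mul_span_singleton, Ideal.span_singleton_mul_span_singleton, heq]
  have h := congrArg (artm m art) hid
  rw [artm_mul (mul_ne_zero (hs hc) (hs hNz)) (hs hd'), artm_mul (hs hc) (hs hNz),
    artm_mul (mul_ne_zero (hs hc') (hs hd)) (hs hNy), artm_mul (hs hc') (hs hd),
    artm_span_intNorm hA y hy, artm_span_intNorm hA z hz, mul_one, mul_one, hkey'] at h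
  -- cancel
  rw [mul_comm (artm m art (Ideal.span {c}))] at h
  exact mul_left_cancel h

/-- **No single support (ideal-theoretic core of tame reciprocity).**
`F` totally complex, `L/F` Galois inside the `m`-cyclotomic extension `C/F`, `art` an Artin map of
`L/F` away from `m`, `v₀` a prime of `F` not over `m`, `b = c / d ∈ Fˣ`.  If
(H1) at every prime `v ≠ v₀` not over `m` the order of `art v` (= residue degree) divides `v(b)`,
(H2) `b` is congruent to `1` modulo `m` up to a global norm from `L`,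
then the order of `art v₀` divides `v₀(b)`. -/
theorem single_support [IsTotallyComplex F] [IsCyclotomicExtension {m} F C]
    (hA : IsArtinAway m art)
    (v₀ : Ideal (𝓞 F)) (hv₀ : v₀.IsPrime) (hv₀0 : v₀ ≠ ⊥) (hv₀m : (m : 𝓞 F) ∉ v₀)
    (c d : 𝓞 F) (hc : c ≠ 0) (hd : d ≠ 0)
    (H1 : ∀ v : Ideal (𝓞 F), v.IsPrime → v ≠ ⊥ → v ≠ v₀ → (m : 𝓞 F) ∉ v →
      ((orderOf (art v) : ℕ) : ℤ) ∣ ((normalizedFactors (Ideal.span {c})).count v : ℤ) -
        ((normalizedFactors (Ideal.span {d})).count v : ℤ))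
    (H2 : ∃ (y z : 𝓞 L) (c' d' : 𝓞 F), y ≠ 0 ∧ z ≠ 0 ∧ d' ≠ 0 ∧
      IsCoprime (Ideal.span {d'}) (Ideal.span {(m : 𝓞 F)}) ∧
      c' - d' ∈ Ideal.span {(m : 𝓞 F)} ∧
      c * Algebra.intNorm (𝓞 F) (𝓞 L) z * d' = c' * d * Algebra.intNorm (𝓞 F) (𝓞 L) y) :
    ((orderOf (art v₀) : ℕ) : ℤ) ∣ ((normalizedFactors (Ideal.span {c})).count v₀ : ℤ) -
        ((normalizedFactors (Ideal.span {d})).count v₀ : ℤ) := by
  classical
  haveI : IsAbelianGalois F C := IsCyclotomicExtension.isAbelianGalois {m} F C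
  haveI : IsAbelianGalois F L := IsAbelianGalois.tower_bot F L C
  obtain ⟨y, z, c', d', hy, hz, hd', hd'm, hcd', heq⟩ := H2
  have hmain := artm_span_eq_of_norm_congr (C := C) hA c d hc hd y z hy hz c' d' hd' hd'm hcd' heq
  set nc := normalizedFactors (Ideal.span {c}) with hnc
  set nd := normalizedFactors (Ideal.span {d}) with hnd
  set S : Finset (Ideal (𝓞 F)) := insert v₀ (nc.toFinset ∪ nd.toFinset) with hS
  have hSc : nc.toFinset ⊆ S := fun v hv =>
    Finset.mem_insert_of_mem (Finset.mem_union_left _ hv)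
  have hSd : nd.toFinset ⊆ S := fun v hv =>
    Finset.mem_insert_of_mem (Finset.mem_union_right _ hv)
  rw [artm_eq_prod _ S hSc, artm_eq_prod _ S hSd] at hmain
  have hv₀S : v₀ ∈ S := Finset.mem_insert_self _ _
  rw [← Finset.mul_prod_erase S _ hv₀S, ← Finset.mul_prod_erase S _ hv₀S] at hmain
  -- the products over `S.erase v₀` agree termwise
  have hrest : ∏ v ∈ S.erase v₀, fAway m art v ^ nc.count v =
      ∏ v ∈ S.erase v₀, fAway m art v ^ nd.count v := by
    refine Finset.prod_congr rfl (fun v hv => ?_)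
    rw [Finset.mem_erase] at hv
    obtain ⟨hvne, hvS⟩ := hv
    by_cases hm : (m : 𝓞 F) ∈ v
    · rw [fAway_of_mem hm, one_pow, one_pow]
    · rw [fAway_of_not_mem hm]
      -- `v` is a prime factor of `(c)` or `(d)`
      have hvfac : v ∈ nc ∨ v ∈ nd := by
        rw [hS, Finset.mem_insert, Finset.mem_union, Multiset.mem_toFinset,
          Multiset.mem_toFinset] at hvS
        rcases hvS with h | h
        · exact absurd h hvne
        · exact h
      have hvprime' : Prime v := by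
        rcases hvfac with h | h
        · exact prime_of_normalized_factor v h
        · exact prime_of_normalized_factor v h
      have hv0 : v ≠ ⊥ := hvprime'.ne_zero
      have hvprime : v.IsPrime := (Ideal.prime_iff_isPrime hv0).mp hvprime'
      have hdvd := H1 v hvprime hv0 hvne hm
      rw [pow_eq_pow_iff_modEq]
      exact ((Nat.modEq_iff_dvd).mpr (by
        have : ((nd.count v : ℤ) - (nc.count v : ℤ)) = -((nc.count v : ℤ) - (nd.count v : ℤ)) := by
          ring
        rw [this]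
        exact (dvd_neg).mpr hdvd))
  rw [hrest] at hmain
  have hfinal := mul_right_cancel hmain
  rw [fAway_of_not_mem hv₀m, pow_eq_pow_iff_modEq] at hfinal
  have := (Nat.modEq_iff_dvd).mp hfinal.symm
  exact this

end Main

end Fermat.Agent.S55.Global.RecipCore
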