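import Mathlib
import Fermat.Agent.S55.Global.AuxUnram
import Fermat.Agent.S55.Global.RecipCore

/-!
# S55 / Global / G.aux, part 3: residue degrees in the auxiliary field

`inertiaDeg_auxM` : every prime `P₀` of `auxM` above `v0` has residue degree exactly `p ^ s`
over `K`, when `N(v0)` has order `p ^ s` modulo `l` (the form consumed by
`RecipCyclo.single_support_inertiaDeg`).
-/

set_option autoImplicit false
set_option linter.unusedSectionVars false
set_option linter.style.haveILetI false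

open NumberField IntermediateField

namespace Fermat.Agent.S55.Global.AuxDeg

open Fermat.Agent.S14 Fermat.Agent.S55.Global.AuxField Fermat.Agent.S55.Global.AuxUnram

variable (K : Type*) [Field K] [NumberField K] (l : ℕ) [hl : Fact l.Prime]
variable (C : Type*) [Field C] [NumberField C] [Algebra K C] [IsCyclotomicExtension {l} K C]
variable (hcop : Nat.Coprime l (discr K).natAbs) (p : ℕ) [hp : Fact p.Prime]

/-- the `hunr` hypothesis of `RecipCyclo.single_support_inertiaDeg` for `auxM`. -/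
theorem hunr_auxM (P : Ideal (𝓞 (auxM K l C hcop p))) (hP : P.IsPrime) (hP0 : P ≠ ⊥)
    (hlP : (l : 𝓞 (auxM K l C hcop p)) ∉ P)
    (σ : (auxM K l C hcop p) ≃ₐ[K] (auxM K l C hcop p))
    (hσ : σ ∈ P.inertia ((auxM K l C hcop p) ≃ₐ[K] (auxM K l C hcop p))) : σ = 1 :=
  haveI : NeZero l := ⟨hl.out.ne_zero⟩
  unram_away' C l P hP hP0 hlP σ hσ

/-- **Residue degree at `v0` in the auxiliary field.** -/
theorem inertiaDeg_auxM (v0 : Ideal (𝓞 K)) (hv : v0.IsPrime) (hv0 : v0 ≠ ⊥)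
    (hlv : (l : 𝓞 K) ∉ v0) (s : ℕ) (hord : orderOf ((Ideal.absNorm v0 : ℕ) : ZMod l) = p ^ s)
    (P₀ : Ideal (𝓞 (auxM K l C hcop p))) (hP₀ : P₀.IsPrime) (hP₀v : P₀.under (𝓞 K) = v0) :
    P₀.inertiaDeg (𝓞 K) = p ^ s := by
  haveI : NeZero l := ⟨hl.out.ne_zero⟩
  have hA := isArtinAway_artFun (K := K) (M := auxM K l C hcop p) C l
  rw [← RecipCore.orderOf_art_eq_inertiaDeg hA v0 hv hv0 hlv P₀ hP₀ hP₀v]
  exact orderOf_art_auxM K l C hcop p hA v0 hv hv0 hlv s hord

/-- the degree of `auxM / K` is divisible by `p ^ s`. -/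
theorem pow_dvd_finrank_auxM (v0 : Ideal (𝓞 K)) (hv : v0.IsPrime) (hv0 : v0 ≠ ⊥)
    (hlv : (l : 𝓞 K) ∉ v0) (s : ℕ) (hord : orderOf ((Ideal.absNorm v0 : ℕ) : ZMod l) = p ^ s) :
    p ^ s ∣ Module.finrank K (auxM K l C hcop p) := by
  haveI : NeZero l := ⟨hl.out.ne_zero⟩
  haveI := finiteDimensional K l C
  have hA := isArtinAway_artFun (K := K) (M := auxM K l C hcop p) C l
  rw [← orderOf_art_auxM K l C hcop p hA v0 hv hv0 hlv s hord, ← IsGalois.card_aut_eq_finrank]
  exact orderOf_dvd_natCard _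

end Fermat.Agent.S55.Global.AuxDeg
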