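/-
S55 / GLOBAL block — OBJECTS, part 5 (owner: helper78): the fundamental short exact sequence
`0 → E_{L,T} → J_{L,T} → C_{L,T} → 0` (over `Aut(L/ℚ)` and over `Gal(L/K)`), the `T`-units as a
sub-representation `EUn L T` of `Lˣ`, and the comparison `EUn L T ⟶ EQ L T` (`x ↦ x ⊗ 1`;
surjective always, injective as soon as `T ≠ ∅`).
-/
import Fermat.Agent.S55.Global.Objects3

set_option autoImplicit false
set_option linter.unusedSectionVars false

open NumberField IsDedekindDomain TensorProduct CategoryTheory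

namespace Fermat.Agent.S55.Global.Objects5

open Fermat.Agent.S55.Global.Objects Fermat.Agent.S55.Global.Objects2

/-- Elementwise criterion for exactness of a short complex of representations. -/
theorem exact_of_forall_rep {k G : Type} [CommRing k] [Group G] (S : ShortComplex (Rep.{0} k G))
    (h : ∀ x : S.X₂, S.g.hom x = 0 → ∃ y : S.X₁, S.f.hom y = x) : S.Exact := by
  rw [← ShortComplex.exact_map_iff_of_faithful S (forget₂ (Rep.{0} k G) (ModuleCat.{0} k)),
    ShortComplex.moduleCat_exact_iff]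
  exact h

section ses

variable (L : Type) [Field L] [NumberField L]

/-- `0 → E_{L,T} → J_{L,T} → C_{L,T} → 0` as a short complex of `Aut(L/ℚ)`-modules. -/
noncomputable def sesQ (T : Finset Nat.Primes) : ShortComplex (Rep ℤ (L ≃ₐ[ℚ] L)) :=
  ShortComplex.mk (EQtoJQ L T) (JQtoCQ L T) (by
    ext x
    exact (@Submodule.Quotient.mk_eq_zero ℤ (JQ L T) _ _ _ (JQ L T).hV2 (ESubQ L T)).2 x.2)

theorem sesQ_shortExact (T : Finset Nat.Primes) : (sesQ L T).ShortExact := by
  refine { exact := ?_, mono_f := ?_, epi_g := ?_ }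
  · refine exact_of_forall_rep (sesQ L T) ?_
    intro x hx
    exact ⟨⟨x, (@Submodule.Quotient.mk_eq_zero ℤ (JQ L T) _ _ _ (JQ L T).hV2 (ESubQ L T)).1 hx⟩,
      rfl⟩
  · exact (Rep.mono_iff_injective _).2 (fun f f' h => Subtype.ext h)
  · exact (Rep.epi_iff_surjective _).2 (@Submodule.Quotient.mk_surjective ℤ (JQ L T) _ _ (JQ L T).hV2 (ESubQ L T))

end ses

section sesrel

variable (K L : Type) [Field K] [NumberField K] [Field L] [NumberField L] [Algebra K L]

/-- `0 → En K L T → Jn K L T → Cn K L T → 0` as a short complex of `Gal(L/K)`-modules. -/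
noncomputable abbrev sesn (T : Finset Nat.Primes) : ShortComplex (Rep ℤ (L ≃ₐ[K] L)) :=
  (sesQ L T).map (Rep.resFunctor (resHom K L))

theorem sesn_shortExact (T : Finset Nat.Primes) : (sesn K L T).ShortExact :=
  (Rep.shortExact_res (resHom K L)).2 (sesQ_shortExact L T)

/-- `En K L T ⟶ Jn K L T` (`= (sesn K L T).f`). -/
noncomputable abbrev EnToJn (T : Finset Nat.Primes) : En K L T ⟶ Jn K L T :=
  (Rep.resFunctor (resHom K L)).map (EQtoJQ L T)

/-- `Jn K L T ⟶ Cn K L T` (`= (sesn K L T).g`). -/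
noncomputable abbrev JnToCn (T : Finset Nat.Primes) : Jn K L T ⟶ Cn K L T :=
  (Rep.resFunctor (resHom K L)).map (JQtoCQ L T)

theorem sesn_f (T : Finset Nat.Primes) : (sesn K L T).f = EnToJn K L T := rfl
theorem sesn_g (T : Finset Nat.Primes) : (sesn K L T).g = JnToCn K L T := rfl

theorem sesn_X₁ (T : Finset Nat.Primes) : (sesn K L T).X₁ = En K L T := rfl
theorem sesn_X₂ (T : Finset Nat.Primes) : (sesn K L T).X₂ = Jn K L T := rfl
theorem sesn_X₃ (T : Finset Nat.Primes) : (sesn K L T).X₃ = Cn K L T := rfl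

end sesrel

section eun

variable (L : Type) [Field L] [NumberField L]

/-- The `T_L`-units as a `ℤ`-submodule of `LxQ L` (additive `Lˣ`). -/
noncomputable def EUnSub (T : Finset Nat.Primes) :
    @Submodule ℤ (LxQ L) _ _ (LxQ L).hV2 :=
  @Submodule.mk ℤ (LxQ L) _ _ (LxQ L).hV2
    ⟨⟨{a | Additive.toMul (Rep.toAdditive a) ∈ EUnitsQ L T},
      fun {a b} ha hb => (EUnitsQ L T).mul_mem ha hb⟩, (EUnitsQ L T).one_mem⟩
    (fun n a ha => by
      have h1 := int_smul_eq_zsmul (LxQ L).hV2 n a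
      have h2 : Additive.toMul (Rep.toAdditive (n • a : LxQ L)) ∈ EUnitsQ L T :=
        (EUnitsQ L T).zpow_mem ha n
      show Additive.toMul (Rep.toAdditive (@SMul.smul ℤ (LxQ L) (LxQ L).hV2.toSMul n a))
        ∈ EUnitsQ L T
      rw [h1]
      exact h2)

theorem mem_EUnSub {T : Finset Nat.Primes} {a : LxQ L} :
    a ∈ EUnSub L T ↔ Additive.toMul (Rep.toAdditive a) ∈ EUnitsQ L T := Iff.rfl

theorem EUnSub_stable (T : Finset Nat.Primes) (σ : L ≃ₐ[ℚ] L) :
    EUnSub L T ≤ (EUnSub L T).comap ((LxQ L).ρ σ) := by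
  intro a ha
  rw [Submodule.mem_comap, mem_EUnSub]
  exact smul_mem_EUnitsQ σ _ ((mem_EUnSub L).mp ha)

/-- The `T_L`-units of `L` as a sub-representation of `Lˣ` (`Aut(L/ℚ)`-module). -/
noncomputable abbrev EUn (T : Finset Nat.Primes) : Rep ℤ (L ≃ₐ[ℚ] L) :=
  Rep.subrepresentation (LxQ L) (EUnSub L T) (EUnSub_stable L T)

/-- `E_{L,T} ⟶ Lˣ`. -/
noncomputable abbrev EUnToLxQ (T : Finset Nat.Primes) : EUn L T ⟶ LxQ L :=
  Rep.subtype (LxQ L) (EUnSub L T) (EUnSub_stable L T)

theorem LxQtoJQ_mem (T : Finset Nat.Primes) (a : LxQ L) (ha : a ∈ EUnSub L T) :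
    (LxQtoJQ L T).hom a ∈ ESubQ L T :=
  ⟨Additive.toMul (Rep.toAdditive a), ha, rfl⟩

/-- `E_{L,T} ⟶ EQ L T`, `x ↦ x ⊗ 1` (the units inside `Lˣ` onto their image in `J_{L,T}`). -/
noncomputable def EUnToEQ (T : Finset Nat.Primes) : EUn L T ⟶ EQ L T :=
  Rep.ofHom
    { toLinearMap := (LxQtoJQ L T).hom.toLinearMap.restrict (LxQtoJQ_mem L T)
      isIntertwining' := fun σ => by
        ext a
        exact Rep.hom_comm_apply (LxQtoJQ L T) σ a.1 }

theorem EUnToEQ_comp (T : Finset Nat.Primes) :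
    EUnToEQ L T ≫ EQtoJQ L T = EUnToLxQ L T ≫ LxQtoJQ L T := by
  ext a
  rfl

theorem EUnToEQ_surjective (T : Finset Nat.Primes) :
    Function.Surjective (EUnToEQ L T).hom := by
  rintro ⟨b, x, hx, hxb⟩
  exact ⟨⟨Additive.ofMul x, hx⟩, Subtype.ext hxb⟩

theorem inclUnitsQ_injective {T : Finset Nat.Primes} (hT : T.Nonempty) :
    Function.Injective (inclUnits ℚ L (QT T)) := by
  have : Nonempty T := hT.to_subtype
  have hb : Function.Injective (algebraMap ℚ (QT T)) := (algebraMap ℚ (QT T)).injective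
  have h1 : Function.Injective
      (Algebra.TensorProduct.includeLeft : L →ₐ[ℚ] L ⊗[ℚ] QT T) :=
    Algebra.TensorProduct.includeLeft_injective (S := ℚ) hb
  intro x y hxy
  apply Units.ext
  apply h1
  exact congrArg Units.val hxy

theorem EUnToEQ_injective {T : Finset Nat.Primes} (hT : T.Nonempty) :
    Function.Injective (EUnToEQ L T).hom := by
  intro a b hab
  apply Subtype.ext
  have h1 : (LxQtoJQ L T).hom a.1 = (LxQtoJQ L T).hom b.1 := congrArg Subtype.val hab
  have h2 : inclUnits ℚ L (QT T) (Additive.toMul (Rep.toAdditive a.1)) =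
      inclUnits ℚ L (QT T) (Additive.toMul (Rep.toAdditive b.1)) := h1
  exact inclUnitsQ_injective L hT h2

/-- `EUn L T ≅ EQ L T` for `T ≠ ∅`. -/
theorem EUnToEQ_isIso {T : Finset Nat.Primes} (hT : T.Nonempty) : IsIso (EUnToEQ L T) := by
  have : Mono (EUnToEQ L T) := (Rep.mono_iff_injective _).2 (EUnToEQ_injective L hT)
  have : Epi (EUnToEQ L T) := (Rep.epi_iff_surjective _).2 (EUnToEQ_surjective L T)
  exact isIso_of_mono_of_epi _

end eun

section eunrel

variable (K L : Type) [Field K] [NumberField K] [Field L] [NumberField L] [Algebra K L]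

/-- The `T_L`-units of `L` as a `Gal(L/K)`-module. -/
noncomputable abbrev EUnn (T : Finset Nat.Primes) : Rep ℤ (L ≃ₐ[K] L) :=
  Rep.res (resHom K L) (EUn L T)

/-- `E_{L,T} ⟶ Lˣ` over `Gal(L/K)`. -/
noncomputable abbrev EUnnToLxn (T : Finset Nat.Primes) : EUnn K L T ⟶ Lxn K L :=
  (Rep.resFunctor (resHom K L)).map (EUnToLxQ L T)

/-- `E_{L,T} ⟶ En K L T` over `Gal(L/K)` (iso for `T ≠ ∅`). -/
noncomputable abbrev EUnnToEn (T : Finset Nat.Primes) : EUnn K L T ⟶ En K L T :=
  (Rep.resFunctor (resHom K L)).map (EUnToEQ L T)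

/-- `Lˣ ⟶ Jn K L T` over `Gal(L/K)`. -/
noncomputable abbrev LxnToJn (T : Finset Nat.Primes) : Lxn K L ⟶ Jn K L T :=
  (Rep.resFunctor (resHom K L)).map (LxQtoJQ L T)

theorem EUnnToEn_comp (T : Finset Nat.Primes) :
    EUnnToEn K L T ≫ (sesn K L T).f = EUnnToLxn K L T ≫ LxnToJn K L T := by
  ext a
  rfl

theorem EUnnToEn_isIso {T : Finset Nat.Primes} (hT : T.Nonempty) : IsIso (EUnnToEn K L T) := by
  have := EUnToEQ_isIso L hT
  exact Functor.map_isIso _ _

/-- `Lxn K L` and Mathlib's `Rep.ofAlgebraAutOnUnits K L` are the same representation. -/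
theorem Lxn_eq : Lxn K L = Rep.ofAlgebraAutOnUnits K L := rfl

end eunrel

end Fermat.Agent.S55.Global.Objects5
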