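/-
S55 / GLOBAL block — TRANSITION maps (row G.trans, lemma 148; author: helper70).

Tower `K ⊆ L ⊆ M` of number fields (`[IsScalarTower K L M]`), `L/K` normal, `A` any `K`-algebra.

* `transAlg K L M A : L ⊗[K] A →ₐ[K] M ⊗[K] A` (`= map (L → M) id`), `transAlg_injective`,
  equivariance `smul_transAlg : τ • transAlg z = transAlg (restrictNormalHom L τ • z)`.
* `transUnits K L M A : (L ⊗[K] A)ˣ →* (M ⊗[K] A)ˣ`, `transUnits_injective`, `smul_transUnits`,
  `transUnits_inclUnits`.
* `baseUnits L M : Lˣ →* Mˣ`, `smul_baseUnits`, `baseUnits_mem_unit`, `baseUnits_mem_EUnits`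
  (`T_L`-units map to `T_M`-units), `transUnits_mem_EImage`.
* `resHom K L M : Gal(M/K) →* Gal(L/K)`; `transLin`; the `Rep` morphisms
  `transJRep K L M A : Rep.res (resHom K L M) (JRep K L A) ⟶ JRep K M A`,
  `transJ / transE / transC K L M T : Rep.res (resHom K L M) (J/E/C K L T) ⟶ J/E/C K M T`,
  the commuting squares `transE_comp_EtoJ`, `transJ_comp_JtoC`.
* `inflJ / inflE / inflC K L M T n := groupCohomology.map (resHom K L M) (trans…) n` and the
  commuting squares in cohomology `inflE_comp_EtoJ`, `inflJ_comp_JtoC`.
-/
import Mathlib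
import Fermat.Agent.S55.Global.Objects

set_option autoImplicit false
set_option linter.unusedSectionVars false
set_option linter.unusedVariables false

open NumberField IsDedekindDomain TensorProduct CategoryTheory

namespace Fermat.Agent.S55.Global.Transition

open Fermat.Agent.S55.Global.Objects

variable (K : Type) [Field K] [NumberField K]
variable (L : Type) [Field L] [NumberField L] [Algebra K L]
variable (M : Type) [Field M] [NumberField M] [Algebra K M] [Algebra L M] [IsScalarTower K L M]

section algebra

variable (A : Type) [CommRing A] [Algebra K A]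

/-- The transition map `L ⊗[K] A → M ⊗[K] A` of a tower `K ⊆ L ⊆ M`. -/
noncomputable def transAlg : L ⊗[K] A →ₐ[K] M ⊗[K] A :=
  Algebra.TensorProduct.map (IsScalarTower.toAlgHom K L M) (AlgHom.id K A)

@[simp] theorem transAlg_tmul (x : L) (a : A) :
    transAlg K L M A (x ⊗ₜ[K] a) = algebraMap L M x ⊗ₜ[K] a := rfl

theorem transAlg_injective : Function.Injective (transAlg K L M A) := by
  have h : Function.Injective (LinearMap.rTensor A (IsScalarTower.toAlgHom K L M).toLinearMap) :=
    Module.Flat.rTensor_preserves_injective_linearMap _ (algebraMap L M).injective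
  intro x y hxy
  apply h
  have key : ∀ z : L ⊗[K] A,
      LinearMap.rTensor A (IsScalarTower.toAlgHom K L M).toLinearMap z = transAlg K L M A z := by
    intro z
    induction z using TensorProduct.induction_on with
    | zero => simp
    | tmul x a => rfl
    | add x y hx hy => rw [map_add, map_add, hx, hy]
  rw [key, key, hxy]

/-- **Equivariance** of the transition map: `τ • transAlg z = transAlg (τ|_L • z)`. -/
theorem smul_transAlg [Normal K L] (τ : M ≃ₐ[K] M) (z : L ⊗[K] A) :
    τ • transAlg K L M A z = transAlg K L M A (AlgEquiv.restrictNormalHom L τ • z) := by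
  induction z using TensorProduct.induction_on with
  | zero => simp
  | tmul x a =>
    rw [transAlg_tmul, Objects.smul_tmul', Objects.smul_tmul', transAlg_tmul]
    congr 1
    exact (AlgEquiv.restrictNormal_commutes τ L x).symm
  | add x y hx hy => rw [map_add, smul_add, hx, hy, smul_add, map_add]

/-- The transition map on units. -/
noncomputable def transUnits : (L ⊗[K] A)ˣ →* (M ⊗[K] A)ˣ :=
  Units.map (transAlg K L M A).toMonoidHom

@[simp] theorem val_transUnits (u : (L ⊗[K] A)ˣ) :
    ((transUnits K L M A u : (M ⊗[K] A)ˣ) : M ⊗[K] A) = transAlg K L M A (u : L ⊗[K] A) := rfl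

theorem transUnits_injective : Function.Injective (transUnits K L M A) := by
  intro u v h
  apply Units.ext
  apply transAlg_injective K L M A
  have := congrArg (fun w : (M ⊗[K] A)ˣ => (w : M ⊗[K] A)) h
  simpa using this

theorem smul_transUnits [Normal K L] (τ : M ≃ₐ[K] M) (u : (L ⊗[K] A)ˣ) :
    τ • transUnits K L M A u = transUnits K L M A (AlgEquiv.restrictNormalHom L τ • u) := by
  apply Units.ext
  rw [val_smul_units, val_transUnits, val_transUnits, val_smul_units]
  exact smul_transAlg K L M A τ (u : L ⊗[K] A)

theorem transUnits_inclUnits (x : Lˣ) :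
    transUnits K L M A (inclUnits K L A x) =
      inclUnits K M A (Units.map (algebraMap L M).toMonoidHom x) := by
  apply Units.ext
  rfl

end algebra

section units

/-- `Lˣ → Mˣ`. -/
noncomputable def baseUnits : Lˣ →* Mˣ := Units.map (algebraMap L M : L →* M)

@[simp] theorem val_baseUnits (x : Lˣ) : ((baseUnits L M x : Mˣ) : M) = algebraMap L M (x : L) := rfl

theorem baseUnits_injective : Function.Injective (baseUnits L M) := by
  intro x y h
  apply Units.ext
  apply (algebraMap L M).injective
  have := congrArg (fun w : Mˣ => (w : M)) h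
  simpa using this

theorem smul_baseUnits [Normal K L] (τ : M ≃ₐ[K] M) (x : Lˣ) :
    τ • baseUnits L M x = baseUnits L M (AlgEquiv.restrictNormalHom L τ • x) := by
  apply Units.ext
  show τ (algebraMap L M (x : L)) = algebraMap L M ((AlgEquiv.restrictNormalHom L τ) (x : L))
  exact (AlgEquiv.restrictNormal_commutes τ L (x : L)).symm

theorem mem_unit_iff {R : Type*} [CommRing R] [IsDedekindDomain R]
    (S : Set (HeightOneSpectrum R)) (F : Type*) [Field F] [Algebra R F] [IsFractionRing R F]
    (x : Fˣ) : x ∈ S.unit F ↔ ∀ v ∉ S, v.valuation F (x : F) = 1 := Iff.rfl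

/-- A place `w'` of `M` is above `T` iff its restriction to `L` is. -/
theorem under_mem_placesAbove_iff (T : Finset (Place K)) (w' : Place M) :
    HeightOneSpectrum.under (𝓞 L) w' ∈ placesAbove K L T ↔ w' ∈ placesAbove K M T := by
  unfold placesAbove
  simp only [Set.mem_ofPred_eq, HeightOneSpectrum.under_asIdeal]
  rw [Ideal.under_under]

/-- `Set.unit`s of `L` map to `Set.unit`s of `M`. -/
theorem baseUnits_mem_unit (T : Finset (Place K)) {x : Lˣ}
    (hx : x ∈ Set.unit (placesAbove K L T) L) :
    baseUnits L M x ∈ Set.unit (placesAbove K M T) M := by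
  rw [mem_unit_iff] at hx ⊢
  intro w' hw'
  have hw : HeightOneSpectrum.under (𝓞 L) w' ∉ placesAbove K L T := by
    rwa [under_mem_placesAbove_iff]
  have h1 := hx _ hw
  have : w'.asIdeal.LiesOver (HeightOneSpectrum.under (𝓞 L) w').asIdeal := by
    rw [HeightOneSpectrum.under_asIdeal]; infer_instance
  have h2 := HeightOneSpectrum.valuation_liesOver M (HeightOneSpectrum.under (𝓞 L) w') w' (x : L)
  rw [h1, one_pow] at h2
  exact h2.symm

/-- `T_L`-units map to `T_M`-units. -/
theorem baseUnits_mem_EUnits [Normal K L] (T : Finset (Place K)) {x : Lˣ}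
    (hx : x ∈ EUnits K L T) : baseUnits L M x ∈ EUnits K M T := by
  rw [mem_EUnits] at hx ⊢
  intro τ
  rw [smul_baseUnits K L M]
  exact baseUnits_mem_unit K L M T (hx _)

variable (A : Type) [CommRing A] [Algebra K A]

theorem transUnits_inclUnits' (x : Lˣ) :
    transUnits K L M A (inclUnits K L A x) = inclUnits K M A (baseUnits L M x) := by
  apply Units.ext
  rfl

/-- The image of the `T_L`-units maps into the image of the `T_M`-units. -/
theorem transUnits_mem_EImage [Normal K L] (T : Finset (Place K)) {u : (L ⊗[K] KT K T)ˣ}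
    (hu : u ∈ EImage K L T) : transUnits K L M (KT K T) u ∈ EImage K M T := by
  obtain ⟨x, hx, rfl⟩ := hu
  exact ⟨baseUnits L M x, baseUnits_mem_EUnits K L M T hx, (transUnits_inclUnits' K L M _ x).symm⟩

end units

/-- The restriction homomorphism `Gal(M/K) → Gal(L/K)`. -/
noncomputable abbrev resHom [Normal K L] : (M ≃ₐ[K] M) →* (L ≃ₐ[K] L) :=
  AlgEquiv.restrictNormalHom (F := K) (K₁ := M) L

theorem resHom_commutes [Normal K L] (τ : M ≃ₐ[K] M) (x : L) :
    algebraMap L M (resHom K L M τ x) = τ (algebraMap L M x) :=
  AlgEquiv.restrictNormal_commutes τ L x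

section reps

variable (A : Type) [CommRing A] [Algebra K A]

/-- The underlying `ℤ`-linear map of the transition morphism. -/
noncomputable def transLin : (JRep K L A) →ₗ[ℤ] (JRep K M A) :=
  (MonoidHom.toAdditive (transUnits K L M A)).toIntLinearMap

theorem transLin_apply (a : JRep K L A) :
    transLin K L M A a = Additive.ofMul (transUnits K L M A (Additive.toMul (Rep.toAdditive a))) := rfl

/-- The transition morphism `Res (J_L) ⟶ J_M` of `Gal(M/K)`-representations. -/
noncomputable def transJRep [Normal K L] :
    Rep.res (resHom K L M) (JRep K L A) ⟶ JRep K M A :=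
  Rep.ofHom ⟨transLin K L M A, fun τ => LinearMap.ext fun a =>
    congrArg Additive.ofMul (smul_transUnits K L M A τ (Additive.toMul (Rep.toAdditive a))).symm⟩

theorem transJRep_hom_apply [Normal K L] (a : JRep K L A) :
    (transJRep K L M A).hom a = transLin K L M A a := rfl

theorem transLin_injective : Function.Injective (transLin K L M A) := by
  intro a b h
  have h' : transUnits K L M A (Additive.toMul (Rep.toAdditive a)) =
      transUnits K L M A (Additive.toMul (Rep.toAdditive b)) := congrArg Additive.toMul h
  exact congrArg Additive.ofMul (transUnits_injective K L M A h')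

/-- Inflation-type map `Hⁿ(Gal(L/K), (L ⊗[K] A)ˣ) ⟶ Hⁿ(Gal(M/K), (M ⊗[K] A)ˣ)`. -/
noncomputable def inflJRep [Normal K L] (n : ℕ) :
    groupCohomology (JRep K L A) n ⟶ groupCohomology (JRep K M A) n :=
  groupCohomology.map (resHom K L M) (transJRep K L M A) n

end reps

section TJ

variable [Normal K L] (T : Finset (Place K))

/-- `Res (J_{L,T}) ⟶ J_{M,T}`. -/
noncomputable abbrev transJ :
    Rep.res (resHom K L M) (J K L T) ⟶ J K M T :=
  transJRep K L M (KT K T)

theorem transLin_mem_ESub {a : J K L T} (ha : a ∈ ESub K L T) :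
    transLin K L M (KT K T) a ∈ ESub K M T := by
  rw [mem_ESub] at ha ⊢
  exact transUnits_mem_EImage K L M T ha

theorem ESub_le_comap_transLin :
    ESub K L T ≤ (ESub K M T).comap (transLin K L M (KT K T)) :=
  fun _ ha => transLin_mem_ESub K L M T ha

/-- `Res (E_{L,T}) ⟶ E_{M,T}`. -/
noncomputable def transE :
    Rep.res (resHom K L M) (E K L T) ⟶ E K M T :=
  Rep.ofHom ⟨(transLin K L M (KT K T)).restrict (fun a ha => transLin_mem_ESub K L M T ha),
    fun τ => LinearMap.ext fun a => Subtype.ext
      (congrArg Additive.ofMul (smul_transUnits K L M (KT K T) τ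
        (Additive.toMul (Rep.toAdditive (a : J K L T)))).symm)⟩

/-- `Res (C_{L,T}) ⟶ C_{M,T}`. -/
noncomputable def transC :
    Rep.res (resHom K L M) (C K L T) ⟶ C K M T :=
  Rep.ofHom ⟨Submodule.mapQ (ESub K L T) (ESub K M T) (transLin K L M (KT K T))
      (ESub_le_comap_transLin K L M T),
    fun τ => by
      apply LinearMap.ext
      intro q
      obtain ⟨a, rfl⟩ := Submodule.mkQ_surjective _ q
      exact congrArg (Submodule.mkQ (ESub K M T))
        (congrArg Additive.ofMul (smul_transUnits K L M (KT K T) τ
          (Additive.toMul (Rep.toAdditive (a : J K L T)))).symm)⟩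

end TJ

section squares

variable [Normal K L] (T : Finset (Place K))

theorem transJ_hom_apply (a : J K L T) :
    (transJ K L M T).hom a = transLin K L M (KT K T) a := rfl

theorem transE_hom_apply_coe (a : E K L T) :
    (((transE K L M T).hom a : E K M T) : J K M T) = transLin K L M (KT K T) (a : J K L T) := rfl

theorem transC_hom_mkQ (a : J K L T) :
    (transC K L M T).hom ((JtoC K L T).hom a) = (JtoC K M T).hom (transLin K L M (KT K T) a) := rfl

theorem transJ_hom_injective : Function.Injective (transJ K L M T).hom :=
  transLin_injective K L M (KT K T)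

theorem transE_hom_injective : Function.Injective (transE K L M T).hom := by
  intro a b h
  apply Subtype.ext
  apply transLin_injective K L M (KT K T)
  have := congrArg (fun x : E K M T => (x : J K M T)) h
  exact this

/-- The square `E → J` commutes with the transition morphisms. -/
theorem transE_comp_EtoJ :
    transE K L M T ≫ EtoJ K M T =
      (Rep.resFunctor (resHom K L M)).map (EtoJ K L T) ≫ transJ K L M T := by
  apply Rep.hom_ext
  apply Representation.IntertwiningMap.ext
  rfl

/-- The square `J → C` commutes with the transition morphisms. -/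
theorem transJ_comp_JtoC :
    transJ K L M T ≫ JtoC K M T =
      (Rep.resFunctor (resHom K L M)).map (JtoC K L T) ≫ transC K L M T := by
  apply Rep.hom_ext
  apply Representation.IntertwiningMap.ext
  rfl

end squares

section cohomology

variable [Normal K L] (T : Finset (Place K)) (n : ℕ)

/-- Inflation-type map `Hⁿ(Gal(L/K), J_{L,T}) ⟶ Hⁿ(Gal(M/K), J_{M,T})`. -/
noncomputable def inflJ : groupCohomology (J K L T) n ⟶ groupCohomology (J K M T) n :=
  groupCohomology.map (resHom K L M) (transJ K L M T) n

/-- Inflation-type map `Hⁿ(Gal(L/K), E_{L,T}) ⟶ Hⁿ(Gal(M/K), E_{M,T})`. -/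
noncomputable def inflE : groupCohomology (E K L T) n ⟶ groupCohomology (E K M T) n :=
  groupCohomology.map (resHom K L M) (transE K L M T) n

/-- Inflation-type map `Hⁿ(Gal(L/K), C_{L,T}) ⟶ Hⁿ(Gal(M/K), C_{M,T})`. -/
noncomputable def inflC : groupCohomology (C K L T) n ⟶ groupCohomology (C K M T) n :=
  groupCohomology.map (resHom K L M) (transC K L M T) n

theorem inflE_comp_EtoJ :
    inflE K L M T n ≫ groupCohomology.map (MonoidHom.id _) (EtoJ K M T) n =
      groupCohomology.map (MonoidHom.id _) (EtoJ K L T) n ≫ inflJ K L M T n := by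
  unfold inflE inflJ
  rw [← groupCohomology.map_comp, ← groupCohomology.map_comp]
  exact groupCohomology.map_congr rfl (by rfl) n

theorem inflJ_comp_JtoC :
    inflJ K L M T n ≫ groupCohomology.map (MonoidHom.id _) (JtoC K M T) n =
      groupCohomology.map (MonoidHom.id _) (JtoC K L T) n ≫ inflC K L M T n := by
  unfold inflJ inflC
  rw [← groupCohomology.map_comp, ← groupCohomology.map_comp]
  exact groupCohomology.map_congr rfl (by rfl) n

end cohomology

end Fermat.Agent.S55.Global.Transition
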