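/-
S55 / GLOBAL block — TRANSITION maps for INTERFACE v3 (`ℚ`-based modules; owner: helper78, built on
helper70's `Transition.lean` with `K := ℚ`).

Tower `K ⊆ L ⊆ M` of number fields (`[IsScalarTower K L M]`), `L/K` normal.

* `EUnitsQ_eq : EUnitsQ L T = Set.unit (placesAboveQ L T) L`; `baseUnits_mem_EUnitsQ`.
* `transQ L M A : L ⊗[ℚ] A →ₐ[ℚ] M ⊗[ℚ] A`, injective, and its equivariance for `τ ∈ Gal(M/K)`:
  `resHom K M τ • transQ z = transQ (resHom K L (τ|_L) • z)`.
* `rnHom K L M : Gal(M/K) →* Gal(L/K)` (restriction), and the morphisms of `Gal(M/K)`-modules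
  `transJn / transEn / transCn / transLxn K L M T : Rep.res (rnHom K L M) (Xn K L T) ⟶ Xn K M T`,
  with the commuting squares.
* `inflJn / inflEn / inflCn / inflLxn K L M T n` in cohomology and their commuting squares.
-/
import Fermat.Agent.S55.Global.Objects5
import Fermat.Agent.S55.Global.Transition
import Fermat.Agent.S14.GalPrimes

set_option autoImplicit false
set_option linter.unusedSectionVars false
set_option linter.unusedVariables false

open NumberField IsDedekindDomain TensorProduct CategoryTheory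

namespace Fermat.Agent.S55.Global.TransitionQ

open Fermat.Agent.S55.Global.Objects Fermat.Agent.S55.Global.Objects2
  Fermat.Agent.S55.Global.Objects5
open Fermat.Agent.S14.NormIndexConcrete Fermat.Agent.S14.GalPrimes

/-! ### `EUnitsQ` is the group of `T_L`-units -/

section eunits

variable (L : Type) [Field L] [NumberField L]

theorem primePerm_mem_placesAboveQ (T : Finset Nat.Primes) (σ : L ≃ₐ[ℚ] L) (w : Place L) :
    primePerm ℚ L σ w ∈ placesAboveQ L T ↔ w ∈ placesAboveQ L T := by
  unfold placesAboveQ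
  simp only [Set.mem_ofPred_eq]
  constructor
  · rintro ⟨q, hq, h⟩
    refine ⟨q, hq, ?_⟩
    rw [mem_primePerm, map_natCast] at h
    exact h
  · rintro ⟨q, hq, h⟩
    refine ⟨q, hq, ?_⟩
    rw [mem_primePerm, map_natCast]
    exact h

theorem smul_mem_unitQ (T : Finset Nat.Primes) (σ : L ≃ₐ[ℚ] L) {x : Lˣ}
    (hx : x ∈ Set.unit (placesAboveQ L T) L) : σ • x ∈ Set.unit (placesAboveQ L T) L := by
  intro w hw
  have h1 := valuation_primePerm ℚ L σ ((primePerm ℚ L σ).symm w) (x : L)
  rw [Equiv.apply_symm_apply] at h1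
  have h2 : (primePerm ℚ L σ).symm w ∉ placesAboveQ L T := by
    intro hmem
    apply hw
    have := (primePerm_mem_placesAboveQ L T σ ((primePerm ℚ L σ).symm w)).mpr hmem
    rwa [Equiv.apply_symm_apply] at this
  have h3 := hx _ h2
  show w.valuation L (σ (x : L)) = 1
  rw [h1, h3]

/-- **`EUnitsQ L T` is the group of `T_L`-units.** -/
theorem EUnitsQ_eq (T : Finset Nat.Primes) : EUnitsQ L T = Set.unit (placesAboveQ L T) L := by
  refine le_antisymm (EUnitsQ_le T) fun x hx => ?_
  rw [mem_EUnitsQ]
  exact fun σ => smul_mem_unitQ L T σ hx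

theorem mem_EUnitsQ_iff (T : Finset Nat.Primes) (x : Lˣ) :
    x ∈ EUnitsQ L T ↔ ∀ w : Place L, w ∉ placesAboveQ L T → w.valuation L (x : L) = 1 := by
  rw [EUnitsQ_eq]
  rfl

end eunits

/-! ### Towers -/

section tower

variable (L : Type) [Field L] [NumberField L]
variable (M : Type) [Field M] [NumberField M] [Algebra L M]

/-- A place `w'` of `M` is above `T` iff its restriction to `L` is. -/
theorem under_mem_placesAboveQ_iff (T : Finset Nat.Primes) (w' : Place M) :
    HeightOneSpectrum.under (𝓞 L) w' ∈ placesAboveQ L T ↔ w' ∈ placesAboveQ M T := by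
  unfold placesAboveQ
  simp only [Set.mem_ofPred_eq, HeightOneSpectrum.under_asIdeal, Ideal.mem_comap, map_natCast]

/-- `T_L`-units map to `T_M`-units. -/
theorem baseUnits_mem_EUnitsQ (T : Finset Nat.Primes) {x : Lˣ} (hx : x ∈ EUnitsQ L T) :
    Transition.baseUnits L M x ∈ EUnitsQ M T := by
  rw [mem_EUnitsQ_iff] at hx ⊢
  intro w' hw'
  have hw : HeightOneSpectrum.under (𝓞 L) w' ∉ placesAboveQ L T := by
    rwa [under_mem_placesAboveQ_iff]
  have h1 := hx _ hw
  have : w'.asIdeal.LiesOver (HeightOneSpectrum.under (𝓞 L) w').asIdeal := by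
    rw [HeightOneSpectrum.under_asIdeal]; infer_instance
  have h2 := HeightOneSpectrum.valuation_liesOver M (HeightOneSpectrum.under (𝓞 L) w') w' (x : L)
  rw [h1, one_pow] at h2
  exact h2.symm

variable (A : Type) [CommRing A] [Algebra ℚ A]

/-- The transition map `L ⊗[ℚ] A → M ⊗[ℚ] A`. -/
noncomputable abbrev transQ : L ⊗[ℚ] A →ₐ[ℚ] M ⊗[ℚ] A := Transition.transAlg ℚ L M A

theorem transQ_tmul (x : L) (a : A) : transQ L M A (x ⊗ₜ[ℚ] a) = algebraMap L M x ⊗ₜ[ℚ] a := rfl

theorem transQ_injective : Function.Injective (transQ L M A) :=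
  Transition.transAlg_injective ℚ L M A

/-- The transition map on units. -/
noncomputable abbrev transUnitsQ : (L ⊗[ℚ] A)ˣ →* (M ⊗[ℚ] A)ˣ := Transition.transUnits ℚ L M A

theorem transUnitsQ_injective : Function.Injective (transUnitsQ L M A) :=
  Transition.transUnits_injective ℚ L M A

theorem transUnitsQ_inclUnits (x : Lˣ) :
    transUnitsQ L M A (inclUnits ℚ L A x) = inclUnits ℚ M A (Transition.baseUnits L M x) :=
  Transition.transUnits_inclUnits' ℚ L M A x

end tower

section equivariance

variable (K : Type) [Field K] [NumberField K]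
variable (L : Type) [Field L] [NumberField L] [Algebra K L]
variable (M : Type) [Field M] [NumberField M] [Algebra K M] [Algebra L M] [IsScalarTower K L M]
variable [Normal K L]

/-- Restriction `Gal(M/K) → Gal(L/K)`. -/
noncomputable abbrev rnHom : (M ≃ₐ[K] M) →* (L ≃ₐ[K] L) :=
  AlgEquiv.restrictNormalHom (F := K) (K₁ := M) L

theorem rnHom_commutes (τ : M ≃ₐ[K] M) (x : L) :
    algebraMap L M (rnHom K L M τ x) = τ (algebraMap L M x) :=
  AlgEquiv.restrictNormal_commutes τ L x

variable (A : Type) [CommRing A] [Algebra ℚ A]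

/-- **Equivariance** of the transition map for `τ ∈ Gal(M/K)`. -/
theorem smul_transQ (τ : M ≃ₐ[K] M) (z : L ⊗[ℚ] A) :
    resHom K M τ • transQ L M A z = transQ L M A (resHom K L (rnHom K L M τ) • z) := by
  induction z using TensorProduct.induction_on with
  | zero => simp
  | tmul x a =>
    rw [transQ_tmul, Objects.smul_tmul', Objects.smul_tmul', transQ_tmul]
    congr 1
    exact (rnHom_commutes K L M τ x).symm
  | add x y hx hy => rw [map_add, smul_add, hx, hy, smul_add, map_add]

theorem smul_transUnitsQ (τ : M ≃ₐ[K] M) (u : (L ⊗[ℚ] A)ˣ) :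
    resHom K M τ • transUnitsQ L M A u =
      transUnitsQ L M A (resHom K L (rnHom K L M τ) • u) := by
  apply Units.ext
  exact smul_transQ K L M A τ (u : L ⊗[ℚ] A)

theorem smul_baseUnitsQ (τ : M ≃ₐ[K] M) (x : Lˣ) :
    resHom K M τ • Transition.baseUnits L M x =
      Transition.baseUnits L M (resHom K L (rnHom K L M τ) • x) := by
  apply Units.ext
  exact (rnHom_commutes K L M τ (x : L)).symm

end equivariance

/-! ### Morphisms of representations -/

section reps

variable (K : Type) [Field K] [NumberField K]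
variable (L : Type) [Field L] [NumberField L] [Algebra K L]
variable (M : Type) [Field M] [NumberField M] [Algebra K M] [Algebra L M] [IsScalarTower K L M]
variable [Normal K L] (T : Finset Nat.Primes)

/-- The underlying `ℤ`-linear map `J_{L,T} → J_{M,T}`. -/
noncomputable def transLinQ : (JQ L T) →ₗ[ℤ] (JQ M T) :=
  (MonoidHom.toAdditive (transUnitsQ L M (QT T))).toIntLinearMap

theorem transLinQ_apply (a : JQ L T) :
    transLinQ L M T a =
      Additive.ofMul (transUnitsQ L M (QT T) (Additive.toMul (Rep.toAdditive a))) := rfl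

theorem transLinQ_injective : Function.Injective (transLinQ L M T) := by
  intro a b h
  have h' : transUnitsQ L M (QT T) (Additive.toMul (Rep.toAdditive a)) =
      transUnitsQ L M (QT T) (Additive.toMul (Rep.toAdditive b)) := congrArg Additive.toMul h
  exact congrArg Additive.ofMul (transUnitsQ_injective L M (QT T) h')

theorem transLinQ_mem_ESubQ {a : JQ L T} (ha : a ∈ ESubQ L T) :
    transLinQ L M T a ∈ ESubQ M T := by
  obtain ⟨x, hx, hxa⟩ := ha
  refine ⟨Transition.baseUnits L M x, baseUnits_mem_EUnitsQ L M T hx, ?_⟩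
  rw [← transUnitsQ_inclUnits, hxa]
  rfl

theorem ESubQ_le_comap_transLinQ :
    ESubQ L T ≤ (ESubQ M T).comap (transLinQ L M T) :=
  fun _ ha => transLinQ_mem_ESubQ L M T ha

theorem transLinQ_comm (τ : M ≃ₐ[K] M) (a : JQ L T) :
    transLinQ L M T ((JQ L T).ρ (resHom K L (rnHom K L M τ)) a) =
      (JQ M T).ρ (resHom K M τ) (transLinQ L M T a) :=
  congrArg Additive.ofMul (smul_transUnitsQ K L M (QT T) τ
    (Additive.toMul (Rep.toAdditive a))).symm

/-- `Res (Jn K L T) ⟶ Jn K M T`. -/
noncomputable def transJn : Rep.res (rnHom K L M) (Jn K L T) ⟶ Jn K M T :=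
  Rep.ofHom ⟨transLinQ L M T, fun τ => LinearMap.ext fun a => transLinQ_comm K L M T τ a⟩

/-- `Res (En K L T) ⟶ En K M T`. -/
noncomputable def transEn : Rep.res (rnHom K L M) (En K L T) ⟶ En K M T :=
  Rep.ofHom ⟨(transLinQ L M T).restrict (fun a ha => transLinQ_mem_ESubQ L M T ha),
    fun τ => LinearMap.ext fun a => Subtype.ext (transLinQ_comm K L M T τ (a : JQ L T))⟩

/-- `Res (Cn K L T) ⟶ Cn K M T`. -/
noncomputable def transCn : Rep.res (rnHom K L M) (Cn K L T) ⟶ Cn K M T :=
  Rep.ofHom ⟨Submodule.mapQ (ESubQ L T) (ESubQ M T) (transLinQ L M T)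
      (ESubQ_le_comap_transLinQ L M T),
    fun τ => by
      apply LinearMap.ext
      intro q
      obtain ⟨a, rfl⟩ := Submodule.mkQ_surjective _ q
      exact congrArg (Submodule.mkQ (ESubQ M T)) (transLinQ_comm K L M T τ a)⟩

theorem baseLin_comm (τ : M ≃ₐ[K] M) (a : LxQ L) :
    (MonoidHom.toAdditive (Transition.baseUnits L M)).toIntLinearMap
        ((LxQ L).ρ (resHom K L (rnHom K L M τ)) a) =
      (LxQ M).ρ (resHom K M τ)
        ((MonoidHom.toAdditive (Transition.baseUnits L M)).toIntLinearMap a) :=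
  congrArg Additive.ofMul (smul_baseUnitsQ K L M τ (Additive.toMul (Rep.toAdditive a))).symm

/-- `Res (Lˣ) ⟶ Mˣ`. -/
noncomputable def transLxn : Rep.res (rnHom K L M) (Lxn K L) ⟶ Lxn K M :=
  Rep.ofHom ⟨(MonoidHom.toAdditive (Transition.baseUnits L M)).toIntLinearMap,
    fun τ => LinearMap.ext fun a => baseLin_comm K L M τ a⟩

theorem transJn_hom_apply (a : Jn K L T) : (transJn K L M T).hom a = transLinQ L M T a := rfl

theorem transEn_hom_apply_coe (a : En K L T) :
    (((transEn K L M T).hom a : En K M T) : JQ M T) = transLinQ L M T (a : JQ L T) := rfl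

theorem transCn_hom_mkQ (a : Jn K L T) :
    (transCn K L M T).hom ((JnToCn K L T).hom a) = (JnToCn K M T).hom (transLinQ L M T a) := rfl

theorem transJn_hom_injective : Function.Injective (transJn K L M T).hom :=
  transLinQ_injective L M T

/-- The square `E → J` commutes with the transition morphisms. -/
theorem transEn_comp :
    transEn K L M T ≫ (EnToJn K M T) =
      (Rep.resFunctor (rnHom K L M)).map (EnToJn K L T) ≫ transJn K L M T := by
  apply Rep.hom_ext
  apply Representation.IntertwiningMap.ext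
  rfl

/-- The square `J → C` commutes with the transition morphisms. -/
theorem transJn_comp :
    transJn K L M T ≫ (JnToCn K M T) =
      (Rep.resFunctor (rnHom K L M)).map (JnToCn K L T) ≫ transCn K L M T := by
  apply Rep.hom_ext
  apply Representation.IntertwiningMap.ext
  rfl

/-- The square `Lˣ → J` commutes with the transition morphisms. -/
theorem transLxn_comp :
    transLxn K L M ≫ LxnToJn K M T =
      (Rep.resFunctor (rnHom K L M)).map (LxnToJn K L T) ≫ transJn K L M T := by
  apply Rep.hom_ext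
  apply Representation.IntertwiningMap.ext
  apply LinearMap.ext
  intro (a : LxQ L)
  exact congrArg Additive.ofMul
    (transUnitsQ_inclUnits L M (QT T) (Additive.toMul (Rep.toAdditive a))).symm

end reps

/-! ### Inflation maps in cohomology -/

section cohomology

variable (K : Type) [Field K] [NumberField K]
variable (L : Type) [Field L] [NumberField L] [Algebra K L]
variable (M : Type) [Field M] [NumberField M] [Algebra K M] [Algebra L M] [IsScalarTower K L M]
variable [Normal K L] (T : Finset Nat.Primes) (n : ℕ)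

/-- Inflation `Hⁿ(Gal(L/K), J_{L,T}) ⟶ Hⁿ(Gal(M/K), J_{M,T})`. -/
noncomputable def inflJn : groupCohomology (Jn K L T) n ⟶ groupCohomology (Jn K M T) n :=
  groupCohomology.map (rnHom K L M) (transJn K L M T) n

/-- Inflation `Hⁿ(Gal(L/K), E_{L,T}) ⟶ Hⁿ(Gal(M/K), E_{M,T})`. -/
noncomputable def inflEn : groupCohomology (En K L T) n ⟶ groupCohomology (En K M T) n :=
  groupCohomology.map (rnHom K L M) (transEn K L M T) n

/-- Inflation `Hⁿ(Gal(L/K), C_{L,T}) ⟶ Hⁿ(Gal(M/K), C_{M,T})`. -/
noncomputable def inflCn : groupCohomology (Cn K L T) n ⟶ groupCohomology (Cn K M T) n :=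
  groupCohomology.map (rnHom K L M) (transCn K L M T) n

/-- Inflation `Hⁿ(Gal(L/K), Lˣ) ⟶ Hⁿ(Gal(M/K), Mˣ)`. -/
noncomputable def inflLxn : groupCohomology (Lxn K L) n ⟶ groupCohomology (Lxn K M) n :=
  groupCohomology.map (rnHom K L M) (transLxn K L M) n

theorem inflEn_comp :
    inflEn K L M T n ≫ groupCohomology.map (MonoidHom.id _) (EnToJn K M T) n =
      groupCohomology.map (MonoidHom.id _) (EnToJn K L T) n ≫ inflJn K L M T n := by
  unfold inflEn inflJn
  rw [← groupCohomology.map_comp, ← groupCohomology.map_comp]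
  exact groupCohomology.map_congr rfl (by rfl) n

theorem inflJn_comp :
    inflJn K L M T n ≫ groupCohomology.map (MonoidHom.id _) (JnToCn K M T) n =
      groupCohomology.map (MonoidHom.id _) (JnToCn K L T) n ≫ inflCn K L M T n := by
  unfold inflJn inflCn
  rw [← groupCohomology.map_comp, ← groupCohomology.map_comp]
  exact groupCohomology.map_congr rfl (by rfl) n

theorem inflLxn_comp :
    inflLxn K L M n ≫ groupCohomology.map (MonoidHom.id _) (LxnToJn K M T) n =
      groupCohomology.map (MonoidHom.id _) (LxnToJn K L T) n ≫ inflJn K L M T n := by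
  unfold inflLxn inflJn
  rw [← groupCohomology.map_comp, ← groupCohomology.map_comp]
  refine groupCohomology.map_congr rfl ?_ n
  exact congrArg (fun f => (Rep.Hom.hom f).toLinearMap) (transLxn_comp K L M T)

end cohomology

end Fermat.Agent.S55.Global.TransitionQ
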