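/-
S55 / GLOBAL block — INTERFACE v3, part 3 (owner: helper78): the EXACT form of (G-ii) and the
cyclotomic generation statement (G-iii), in the only form in which they are needed and provable
without changing `T`: **`T` is admissible for the big field `M ⊇ L, F`** (`F/K` a cyclic layer of a
`p`-power cyclotomic extension with `[F:K] = [L:K]`; think `M = L·F`).

Ruling (#1783, DECISION 2 = (h1)): `Blocks2.H2Cyclic p` (which only assumes `T` admissible for
`L/K`) would need `T`-monotonicity of `Hⁱ(G, C_{L,T})`; nobody needs it.  Consumers choose
`T` admissible for `M/K` (it is then admissible for `L/K`, `F/K`, `M/L`, `M/F` by heredity).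
-/
import Fermat.Agent.S55.Global.TransitionQ
import Fermat.Agent.S55.Global.Blocks3

set_option autoImplicit false
set_option linter.unusedSectionVars false

open NumberField IsDedekindDomain TensorProduct CategoryTheory

namespace Fermat.Agent.S55.Global.Blocks4

open Fermat.Agent.S55.Global.Objects Fermat.Agent.S55.Global.Objects2
  Fermat.Agent.S55.Global.Objects5 Fermat.Agent.S55.Global.Blocks2
  Fermat.Agent.S55.Global.TransitionQ

/-- Two towers `K ⊆ L ⊆ M`, `K ⊆ F ⊆ M` of number fields: `M/K` Galois of `p`-power degree with
`T` admissible for `M/K` (`Setting p K M T`), `L/K` and `F/K` Galois (instance binders of the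
Props below), `F/K` cyclic, `F` embeds into a `p^k`-cyclotomic extension of `K`, and
`[F:K] = [L:K]` (EQUALITY: the restriction to `L` of the fundamental class of `F/K` vanishes only
then; cyclic layers of every `p`-power degree exist, `CycloLayer.exists_cyclic_layer`). -/
structure CycloSetting (p : ℕ) (K L F M : Type) [Field K] [NumberField K] [Field L]
    [NumberField L] [Field F] [NumberField F] [Field M] [NumberField M] [Algebra K L]
    [Algebra K F] [Algebra K M] [Algebra L M] [Algebra F M] [IsScalarTower K L M]
    [IsScalarTower K F M] (T : Finset Nat.Primes) : Prop where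
  big : Setting p K M T
  cyclicF : IsCyclic (F ≃ₐ[K] F)
  cycloF : ∃ (k : ℕ) (C : Type) (_ : Field C) (_ : Algebra K C),
    IsCyclotomicExtension {p ^ k} K C ∧ Nonempty (F →ₐ[K] C)
  degree : Module.finrank K F = Module.finrank K L

/-- **(G-ii), exact form**: in a `CycloSetting`, `H²(Gal(L/K), C_{L,T})` is cyclic of order
`[L:K]`.  (Take `L = F = M` for the cyclic cyclotomic layers themselves.) -/
def H2CyclicIn (p : ℕ) : Prop :=
  ∀ (K L F M : Type) [Field K] [NumberField K] [Field L] [NumberField L] [Field F]
    [NumberField F] [Field M] [NumberField M] [Algebra K L] [Algebra K F] [Algebra K M]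
    [Algebra L M] [Algebra F M] [IsScalarTower K L M] [IsScalarTower K F M] [IsGalois K L]
    [IsGalois K F] (T : Finset Nat.Primes), CycloSetting p K L F M T →
    Nat.card (groupCohomology (Cn K L T) 2) = Module.finrank K L ∧
      ∃ u : groupCohomology (Cn K L T) 2, ∀ x : groupCohomology (Cn K L T) 2, ∃ n : ℤ, x = n • u

/-- **(G-iii) cyclotomic generation**: in a `CycloSetting`, the inflation to `M` of every class of
`H²(Gal(L/K), C_{L,T})` comes from `H²(Gal(M/K), J_{M,T})`.
(It is the inflation of a class of the cyclic layer `F/K`, and `H²(J) → H²(C)` is onto for cyclic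
layers because `Ĥ⁰(C_F) = C_K / N C_F` is a quotient of `J_K`.) -/
def CycloGen (p : ℕ) : Prop :=
  ∀ (K L F M : Type) [Field K] [NumberField K] [Field L] [NumberField L] [Field F]
    [NumberField F] [Field M] [NumberField M] [Algebra K L] [Algebra K F] [Algebra K M]
    [Algebra L M] [Algebra F M] [IsScalarTower K L M] [IsScalarTower K F M] [IsGalois K L]
    [IsGalois K F] (T : Finset Nat.Primes), CycloSetting p K L F M T →
    ∀ c : groupCohomology (Cn K L T) 2,
      ∃ j : groupCohomology (Jn K M T) 2,
        (groupCohomology.map (MonoidHom.id _) (JnToCn K M T) 2).hom j =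
          (inflCn K L M T 2).hom c

/-- **(G-iii), consequence used by Middle's (HBN-H3)**: in a `CycloSetting`, the connecting map
`H²(C_{L,T}) → H³(E_{L,T})` followed by inflation to `M` is zero; stated on the level of `E`:
every class of `H³(Gal(L/K), E_{L,T})` that dies in `H³(Gal(L/K), J_{L,T})` dies in
`H³(Gal(M/K), E_{M,T})`. -/
def CycloKillsH3 (p : ℕ) : Prop :=
  ∀ (K L F M : Type) [Field K] [NumberField K] [Field L] [NumberField L] [Field F]
    [NumberField F] [Field M] [NumberField M] [Algebra K L] [Algebra K F] [Algebra K M]
    [Algebra L M] [Algebra F M] [IsScalarTower K L M] [IsScalarTower K F M] [IsGalois K L]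
    [IsGalois K F] (T : Finset Nat.Primes), CycloSetting p K L F M T →
    ∀ y : groupCohomology (En K L T) 3,
      (groupCohomology.map (MonoidHom.id _) (EnToJn K L T) 3).hom y = 0 →
        (inflEn K L M T 3).hom y = 0

end Fermat.Agent.S55.Global.Blocks4
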