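import Mathlib
import Fermat.Agent.S14.MovingLemma

/-!
# Ray class groups of a Dedekind domain (ideal-theoretic, no sign conditions)

For a Dedekind domain `R` and a nonzero ideal `m`, the ray class group `RayClassGroup m` is the
monoid of nonzero ideals coprime to `m` modulo the congruence
`I ~ J ↔ ∃ a b ≠ 0, a ≡ b ≡ 1 mod m, (a) I = (b) J`.
It is a commutative group, finite when `ClassGroup R` and `R ⧸ m` are finite, and receives a
total monoid homomorphism `cl m : (Ideal R)⁰ →* RayClassGroup m` (ignoring the primes dividing `m`).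
-/

set_option autoImplicit false
set_option linter.unusedSectionVars false

namespace Fermat.Agent.S55.Global.RayClass

open Ideal
open scoped nonZeroDivisors

variable {R : Type*} [CommRing R] [IsDedekindDomain R] (m : Ideal R)

/-- The submonoid of nonzero ideals coprime to `m`. -/
def copSub : Submonoid (Ideal R)⁰ where
  carrier := {I | IsCoprime (I : Ideal R) m}
  one_mem' := by
    show IsCoprime ((1 : (Ideal R)⁰) : Ideal R) m
    rw [Submonoid.coe_one]
    exact isCoprime_one_left
  mul_mem' := by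
    intro I J hI hJ
    show IsCoprime ((I * J : (Ideal R)⁰) : Ideal R) m
    rw [Submonoid.coe_mul]
    exact IsCoprime.mul_left hI hJ

lemma mem_copSub {I : (Ideal R)⁰} : I ∈ copSub m ↔ IsCoprime (I : Ideal R) m := Iff.rfl

/-- The underlying ideal of an element of `copSub m`. -/
abbrev toIdeal (I : copSub m) : Ideal R := ((I : (Ideal R)⁰) : Ideal R)

lemma toIdeal_ne_bot (I : copSub m) : toIdeal m I ≠ ⊥ := by
  have := mem_nonZeroDivisors_iff_ne_zero.mp (I : (Ideal R)⁰).2
  simpa using this

lemma toIdeal_mul (I J : copSub m) : toIdeal m (I * J) = toIdeal m I * toIdeal m J := rfl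

lemma toIdeal_one : toIdeal m (1 : copSub m) = ⊤ := by
  show ((1 : (Ideal R)⁰) : Ideal R) = ⊤
  simp

/-- The relation defining ray classes. -/
def RayRel (I J : copSub m) : Prop :=
  ∃ a b : R, a ≠ 0 ∧ b ≠ 0 ∧ a - 1 ∈ m ∧ b - 1 ∈ m ∧
    span {a} * toIdeal m I = span {b} * toIdeal m J

lemma mul_sub_one_mem {a b : R} (ha : a - 1 ∈ m) (hb : b - 1 ∈ m) : a * b - 1 ∈ m := by
  have : a * b - 1 = (a - 1) * b + (b - 1) := by ring
  rw [this]
  exact m.add_mem (m.mul_mem_right _ ha) hb

lemma rayRel_refl (I : copSub m) : RayRel m I I :=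
  ⟨1, 1, one_ne_zero, one_ne_zero, by simp, by simp, rfl⟩

lemma rayRel_symm {I J : copSub m} (h : RayRel m I J) : RayRel m J I := by
  obtain ⟨a, b, ha, hb, ha1, hb1, h⟩ := h
  exact ⟨b, a, hb, ha, hb1, ha1, h.symm⟩

lemma rayRel_trans {I J K : copSub m} (h1 : RayRel m I J) (h2 : RayRel m J K) :
    RayRel m I K := by
  obtain ⟨a, b, ha, hb, ha1, hb1, h⟩ := h1
  obtain ⟨c, d, hc, hd, hc1, hd1, h'⟩ := h2
  refine ⟨a * c, b * d, mul_ne_zero ha hc, mul_ne_zero hb hd, mul_sub_one_mem m ha1 hc1,
    mul_sub_one_mem m hb1 hd1, ?_⟩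
  rw [← span_singleton_mul_span_singleton, ← span_singleton_mul_span_singleton]
  calc span {a} * span {c} * toIdeal m I = span {c} * (span {a} * toIdeal m I) := by ring
    _ = span {c} * (span {b} * toIdeal m J) := by rw [h]
    _ = span {b} * (span {c} * toIdeal m J) := by ring
    _ = span {b} * (span {d} * toIdeal m K) := by rw [h']
    _ = span {b} * span {d} * toIdeal m K := by ring

lemma rayRel_mul {I I' J J' : copSub m} (h1 : RayRel m I I') (h2 : RayRel m J J') :
    RayRel m (I * J) (I' * J') := by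
  obtain ⟨a, b, ha, hb, ha1, hb1, h⟩ := h1
  obtain ⟨c, d, hc, hd, hc1, hd1, h'⟩ := h2
  refine ⟨a * c, b * d, mul_ne_zero ha hc, mul_ne_zero hb hd, mul_sub_one_mem m ha1 hc1,
    mul_sub_one_mem m hb1 hd1, ?_⟩
  rw [← span_singleton_mul_span_singleton, ← span_singleton_mul_span_singleton, toIdeal_mul,
    toIdeal_mul]
  calc span {a} * span {c} * (toIdeal m I * toIdeal m J)
      = (span {a} * toIdeal m I) * (span {c} * toIdeal m J) := by ring
    _ = (span {b} * toIdeal m I') * (span {d} * toIdeal m J') := by rw [h, h']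
    _ = span {b} * span {d} * (toIdeal m I' * toIdeal m J') := by ring

/-- The ray class congruence. -/
def rayCon : Con (copSub m) where
  r := RayRel m
  iseqv := ⟨rayRel_refl m, rayRel_symm m, rayRel_trans m⟩
  mul' := rayRel_mul m

/-- The ray class group modulo `m` (as a type). -/
def RayClassGroup : Type _ := (rayCon m).Quotient

instance : CommMonoid (RayClassGroup m) := inferInstanceAs (CommMonoid (rayCon m).Quotient)

/-- The class of an ideal coprime to `m`. -/
def mk : copSub m →* RayClassGroup m := (rayCon m).mk'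

lemma mk_surjective : Function.Surjective (mk m) := (rayCon m).mk'_surjective

lemma mk_eq_mk_iff {I J : copSub m} : mk m I = mk m J ↔ RayRel m I J :=
  (rayCon m).eq

/-- An element `c` with `span {c}` coprime to `m` has an inverse modulo `m`, which may be chosen
nonzero. -/
lemma exists_mul_sub_one_mem {c : R} (hc : IsCoprime (span {c}) m) :
    ∃ d : R, d ≠ 0 ∧ c * d - 1 ∈ m := by
  rw [Ideal.isCoprime_iff_exists] at hc
  obtain ⟨x, hx, y, hy, hxy⟩ := hc
  obtain ⟨d, rfl⟩ := Ideal.mem_span_singleton'.mp hx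
  by_cases hd : d = 0
  · refine ⟨1, one_ne_zero, ?_⟩
    have : (1 : R) ∈ m := by
      rw [hd, zero_mul, zero_add] at hxy
      rwa [hxy] at hy
    have hm : m = ⊤ := (Ideal.eq_top_iff_one m).mpr this
    rw [hm]; trivial
  · refine ⟨d, hd, ?_⟩
    have : c * d - 1 = -y := by
      rw [← hxy]; ring
    rw [this]
    exact m.neg_mem hy

lemma isCoprime_span_of_mul_sub_one_mem {c d : R} (h : c * d - 1 ∈ m) :
    IsCoprime (span {d}) m := by
  rw [Ideal.isCoprime_iff_exists]
  refine ⟨c * d, Ideal.mem_span_singleton'.mpr ⟨c, rfl⟩, -(c * d - 1), m.neg_mem h, by ring⟩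

/-- Every ray class is invertible. -/
lemma isUnit_rayClass (x : RayClassGroup m) (hm : m ≠ ⊥) : IsUnit x := by
  obtain ⟨I, rfl⟩ := mk_surjective m x
  obtain ⟨a, J', ha0, hmul, hcop⟩ :=
    Fermat.Agent.S14.MovingLemma.exists_mul_eq_span_sup_eq_top (toIdeal m I) m
      (toIdeal_ne_bot m I) hm
  have hJ'0 : J' ≠ ⊥ := by
    rintro rfl
    rw [mul_bot] at hmul
    exact ha0 (by simpa using hmul.symm)
  have hJ'cop : IsCoprime J' m := Ideal.isCoprime_iff_sup_eq.mpr hcop
  have hacop : IsCoprime (span {a}) m := by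
    rw [← hmul]
    exact IsCoprime.mul_left I.2 hJ'cop
  obtain ⟨d, hd0, hd⟩ := exists_mul_sub_one_mem m hacop
  have hdcop : IsCoprime (span {d}) m := isCoprime_span_of_mul_sub_one_mem m hd
  have hJd0 : J' * span {d} ≠ ⊥ := by
    rw [Ne, ← Ideal.zero_eq_bot, mul_eq_zero, not_or]
    exact ⟨hJ'0, by simpa using hd0⟩
  let J : copSub m := ⟨⟨J' * span {d}, mem_nonZeroDivisors_iff_ne_zero.mpr hJd0⟩,
    IsCoprime.mul_left hJ'cop hdcop⟩
  refine IsUnit.of_mul_eq_one (mk m J) ?_
  rw [← map_mul, ← map_one (mk m), mk_eq_mk_iff]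
  refine ⟨1, a * d, one_ne_zero, mul_ne_zero ha0 hd0, by simp, hd, ?_⟩
  rw [toIdeal_mul, toIdeal_one]
  show span {1} * (toIdeal m I * (J' * span {d})) = span {a * d} * ⊤
  rw [← mul_assoc (toIdeal m I), hmul, span_singleton_mul_span_singleton, Ideal.span_singleton_one,
    mul_comm]

/-- The group structure on the ray class group (for `m ≠ ⊥`; stated with a `Fact`). -/
noncomputable instance instCommGroup [hm : Fact (m ≠ ⊥)] : CommGroup (RayClassGroup m) :=
  commGroupOfIsUnit (fun x => isUnit_rayClass m x hm.out)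

/-- Two nonzero elements coprime to `m` and congruent modulo `m` generate equivalent ideals. -/
lemma rayRel_of_sub_mem {I J : copSub m} {a c : R} (hI : toIdeal m I = span {a})
    (hJ : toIdeal m J = span {c}) (hac : a - c ∈ m) : RayRel m I J := by
  have ha0 : a ≠ 0 := by
    rintro rfl
    exact toIdeal_ne_bot m I (by rw [hI]; simp)
  have hc0 : c ≠ 0 := by
    rintro rfl
    exact toIdeal_ne_bot m J (by rw [hJ]; simp)
  have hccop : IsCoprime (span {c}) m := by rw [← hJ]; exact J.2
  obtain ⟨d, hd0, hd⟩ := exists_mul_sub_one_mem m hccop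
  refine ⟨c * d, a * d, mul_ne_zero hc0 hd0, mul_ne_zero ha0 hd0, hd, ?_, ?_⟩
  · have : a * d - 1 = (a - c) * d + (c * d - 1) := by ring
    rw [this]
    exact m.add_mem (m.mul_mem_right _ hac) hd
  · rw [hI, hJ, span_singleton_mul_span_singleton, span_singleton_mul_span_singleton]
    congr 1
    ring_nf

section Finite

variable [Fact (m ≠ ⊥)]

/-- The map to the ideal class group. -/
noncomputable def toClassGroup : RayClassGroup m →* ClassGroup R :=
  (rayCon m).lift ((ClassGroup.mk0 (R := R)).comp (copSub m).subtype) (by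
    intro I J h
    obtain ⟨a, b, ha, hb, -, -, h⟩ := h
    show ClassGroup.mk0 (I : (Ideal R)⁰) = ClassGroup.mk0 (J : (Ideal R)⁰)
    exact ClassGroup.mk0_eq_mk0_iff.mpr ⟨a, b, ha, hb, h⟩)

lemma toClassGroup_mk (I : copSub m) :
    toClassGroup m (mk m I) = ClassGroup.mk0 (I : (Ideal R)⁰) := rfl

open scoped Classical in
/-- An auxiliary function from `R ⧸ m` covering the kernel of `toClassGroup`. -/
noncomputable def kerCover (x : R ⧸ m) : RayClassGroup m :=
  if h : ∃ I : copSub m, ∃ a : R, toIdeal m I = span {a} ∧ Ideal.Quotient.mk m a = x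
  then mk m h.choose else 1

lemma ker_toClassGroup_subset_range :
    ((toClassGroup m).ker : Set (RayClassGroup m)) ⊆ Set.range (kerCover m) := by
  classical
  intro x hx
  obtain ⟨I, rfl⟩ := mk_surjective m x
  have h1 : ClassGroup.mk0 (I : (Ideal R)⁰) = 1 := hx
  rw [ClassGroup.mk0_eq_one_iff] at h1
  obtain ⟨a, ha⟩ := h1.principal
  have ha' : toIdeal m I = span {a} := by
    rw [← Ideal.submodule_span_eq]; exact ha
  have hex : ∃ I' : copSub m, ∃ a' : R, toIdeal m I' = span {a'} ∧
      Ideal.Quotient.mk m a' = Ideal.Quotient.mk m a := ⟨I, a, ha', rfl⟩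
  refine ⟨Ideal.Quotient.mk m a, ?_⟩
  rw [kerCover, dif_pos hex, mk_eq_mk_iff]
  obtain ⟨a', h1, h2⟩ := hex.choose_spec
  refine rayRel_of_sub_mem m h1 ha' ?_
  exact Ideal.Quotient.eq.mp h2

/-- The ray class group is finite when the class group and `R ⧸ m` are. -/
theorem finite_rayClassGroup [Finite (ClassGroup R)] [Finite (R ⧸ m)] :
    Finite (RayClassGroup m) := by
  rw [(toClassGroup m).finite_iff_finite_ker_range]
  refine ⟨?_, inferInstance⟩
  exact ((Set.finite_range (kerCover m)).subset (ker_toClassGroup_subset_range m)).to_subtype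

end Finite

section TotalClass

open UniqueFactorizationMonoid

open scoped Classical in
/-- The class of a nonzero ideal coprime to `m`, and `1` for all other ideals. -/
noncomputable def idealClass (P : Ideal R) : RayClassGroup m :=
  if h : P ≠ ⊥ ∧ IsCoprime P m then
    mk m ⟨⟨P, mem_nonZeroDivisors_iff_ne_zero.mpr h.1⟩, h.2⟩ else 1

lemma idealClass_of_mem (I : copSub m) : idealClass m (toIdeal m I) = mk m I := by
  classical
  have h : toIdeal m I ≠ ⊥ ∧ IsCoprime (toIdeal m I) m := ⟨toIdeal_ne_bot m I, I.2⟩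
  rw [idealClass, dif_pos h]

lemma idealClass_of_not {P : Ideal R} (h : ¬ (P ≠ ⊥ ∧ IsCoprime P m)) : idealClass m P = 1 := by
  classical
  rw [idealClass, dif_neg h]

lemma idealClass_top : idealClass m (⊤ : Ideal R) = 1 := by
  have := idealClass_of_mem m (1 : copSub m)
  rw [toIdeal_one] at this
  rw [this, map_one]

lemma idealClass_mul {P Q : Ideal R} (hP : P ≠ ⊥ ∧ IsCoprime P m) (hQ : Q ≠ ⊥ ∧ IsCoprime Q m) :
    idealClass m (P * Q) = idealClass m P * idealClass m Q := by
  let I : copSub m := ⟨⟨P, mem_nonZeroDivisors_iff_ne_zero.mpr hP.1⟩, hP.2⟩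
  let J : copSub m := ⟨⟨Q, mem_nonZeroDivisors_iff_ne_zero.mpr hQ.1⟩, hQ.2⟩
  have h1 : idealClass m P = mk m I := idealClass_of_mem m I
  have h2 : idealClass m Q = mk m J := idealClass_of_mem m J
  have h3 : idealClass m (P * Q) = mk m (I * J) := idealClass_of_mem m (I * J)
  rw [h1, h2, h3, map_mul]

/-- The total ray class map: the product of the classes of the prime factors coprime to `m`. -/
noncomputable def cl : (Ideal R)⁰ →* RayClassGroup m where
  toFun I := ((normalizedFactors (I : Ideal R)).map (idealClass m)).prod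
  map_one' := by
    have : ((1 : (Ideal R)⁰) : Ideal R) = 1 := rfl
    rw [this, normalizedFactors_one, Multiset.map_zero, Multiset.prod_zero]
  map_mul' I J := by
    have hI : (I : Ideal R) ≠ 0 := mem_nonZeroDivisors_iff_ne_zero.mp I.2
    have hJ : (J : Ideal R) ≠ 0 := mem_nonZeroDivisors_iff_ne_zero.mp J.2
    rw [Submonoid.coe_mul, normalizedFactors_mul hI hJ, Multiset.map_add, Multiset.prod_add]

lemma cl_apply (I : (Ideal R)⁰) :
    cl m I = ((normalizedFactors (I : Ideal R)).map (idealClass m)).prod := rfl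

/-- Auxiliary: the product of the classes of a multiset of ideals coprime to `m`. -/
lemma prod_map_idealClass (s : Multiset (Ideal R))
    (hs : ∀ P ∈ s, P ≠ ⊥ ∧ IsCoprime P m) :
    (s.prod ≠ ⊥ ∧ IsCoprime s.prod m) ∧ (s.map (idealClass m)).prod = idealClass m s.prod := by
  induction s using Multiset.induction_on with
  | empty =>
    simp only [Multiset.prod_zero, Multiset.map_zero]
    refine ⟨⟨by simp, isCoprime_one_left⟩, ?_⟩
    rw [Ideal.one_eq_top, idealClass_top]
  | cons P s ih =>
    have hP := hs P (Multiset.mem_cons_self P s)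
    obtain ⟨h1, h2⟩ := ih (fun Q hQ => hs Q (Multiset.mem_cons_of_mem hQ))
    rw [Multiset.prod_cons, Multiset.map_cons, Multiset.prod_cons, h2]
    refine ⟨⟨?_, IsCoprime.mul_left hP.2 h1.2⟩, (idealClass_mul m hP h1).symm⟩
    rw [Ne, ← Ideal.zero_eq_bot, mul_eq_zero, not_or]
    exact ⟨hP.1, h1.1⟩

/-- On ideals coprime to `m` the total class map is the ray class. -/
theorem cl_of_mem (I : copSub m) : cl m (I : (Ideal R)⁰) = mk m I := by
  have hI0 : toIdeal m I ≠ 0 := toIdeal_ne_bot m I
  have hs : ∀ P ∈ normalizedFactors (toIdeal m I), P ≠ ⊥ ∧ IsCoprime P m := by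
    intro P hP
    have hdvd : P ∣ toIdeal m I := dvd_of_mem_normalizedFactors hP
    refine ⟨(prime_of_normalized_factor P hP).ne_zero, ?_⟩
    exact IsCoprime.of_isCoprime_of_dvd_left I.2 hdvd
  obtain ⟨-, h2⟩ := prod_map_idealClass m _ hs
  rw [cl_apply, h2, Ideal.prod_normalizedFactors_eq_self hI0, idealClass_of_mem]

/-- `cl` is surjective, already on the ideals coprime to `m`. -/
theorem cl_surjective_on_coprime (g : RayClassGroup m) :
    ∃ I : (Ideal R)⁰, IsCoprime (I : Ideal R) m ∧ cl m I = g := by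
  obtain ⟨I, rfl⟩ := mk_surjective m g
  exact ⟨I, I.2, cl_of_mem m I⟩

/-- Principal ideals generated by elements `≡ 1 mod m` have trivial class. -/
theorem cl_span_eq_one {a : R} (ha0 : a ≠ 0) (ha : a - 1 ∈ m) :
    cl m ⟨span {a}, mem_nonZeroDivisors_iff_ne_zero.mpr (by simpa using ha0)⟩ = 1 := by
  have hcop : IsCoprime (span {a}) m := by
    have : (1 : R) * a - 1 ∈ m := by rwa [one_mul]
    exact isCoprime_span_of_mul_sub_one_mem m this
  let I : copSub m := ⟨⟨span {a}, mem_nonZeroDivisors_iff_ne_zero.mpr (by simpa using ha0)⟩, hcop⟩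
  have h1 : cl m (I : (Ideal R)⁰) = mk m I := cl_of_mem m I
  rw [show (⟨span {a}, _⟩ : (Ideal R)⁰) = (I : (Ideal R)⁰) from rfl, h1, ← map_one (mk m),
    mk_eq_mk_iff]
  refine ⟨1, a, one_ne_zero, ha0, by simp, ha, ?_⟩
  rw [toIdeal_one]
  show span {1} * span {a} = span {a} * ⊤
  rw [Ideal.span_singleton_one, mul_comm]

/-- A prime not coprime to `m` has trivial class under `cl`. -/
theorem cl_eq_one_of_not_coprime (I : (Ideal R)⁰) (hI : Prime (I : Ideal R))
    (h : ¬ IsCoprime (I : Ideal R) m) : cl m I = 1 := by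
  rw [cl_apply, normalizedFactors_irreducible hI.irreducible, normalize_eq, Multiset.map_singleton,
    Multiset.prod_singleton]
  exact idealClass_of_not m (fun hh => h hh.2)

end TotalClass

end Fermat.Agent.S55.Global.RayClass
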