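import Mathlib
import Fermat.Agent.S55.Global.RayClass
import Fermat.Agent.S55.Global.AnalyticIndex

/-!
# The analytic second inequality for ray class groups of number fields

For number fields `E'/E` and a nonzero ideal `m` of `𝓞 E`, the subgroup `normClasses m E'` of the
ray class group modulo `m` generated by the classes of relative norms of ideals of `E'` has index
at most `[E' : E]`, PROVIDED the partial zeta functions of the ray classes have bounded
differences on `(1, 2]` (hypothesis `hZ`, to be discharged by the ray-class counting theorem).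
-/

set_option autoImplicit false
set_option linter.unusedSectionVars false

namespace Fermat.Agent.S55.Global.RayClassNorm

open NumberField IsDedekindDomain Ideal nonZeroDivisors
open Fermat.Agent.S14.EulerIdeal
open Fermat.Agent.S55.Global.RayClass Fermat.Agent.S55.Global.AnalyticIndex

variable {E : Type*} [Field E] [NumberField E] (m : Ideal (𝓞 E)) [hm : Fact (m ≠ ⊥)]

/-- The finite set of primes dividing `m`. -/
noncomputable def primesDividing : Finset (HeightOneSpectrum (𝓞 E)) :=
  (Ideal.finite_factors hm.out).toFinset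

lemma mem_primesDividing {v : HeightOneSpectrum (𝓞 E)} :
    v ∈ primesDividing m ↔ v.asIdeal ∣ m := by
  simp [primesDividing]

/-- Coprimality to `m` in terms of the primes dividing `m`. -/
theorem cop_iff_isCoprime (I : (Ideal (𝓞 E))⁰) :
    Cop (primesDividing m) I ↔ IsCoprime (I : Ideal (𝓞 E)) m := by
  constructor
  · intro h
    rw [Ideal.isCoprime_iff_sup_eq]
    by_contra hne
    obtain ⟨M, hM, hle⟩ := Ideal.exists_le_maximal _ hne
    have hM0 : M ≠ ⊥ := by
      rintro rfl
      have hI : (I : Ideal (𝓞 E)) ≤ ⊥ := le_sup_left.trans hle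
      have := mem_nonZeroDivisors_iff_ne_zero.mp I.2
      exact this (le_bot_iff.mp hI)
    let v : HeightOneSpectrum (𝓞 E) := ⟨M, hM.isPrime, hM0⟩
    have hvI : v.asIdeal ∣ (I : Ideal (𝓞 E)) := Ideal.dvd_iff_le.mpr (le_sup_left.trans hle)
    have hvm : v.asIdeal ∣ m := Ideal.dvd_iff_le.mpr (le_sup_right.trans hle)
    exact h v ((mem_primesDividing m).mpr hvm) hvI
  · intro h v hv hvI
    have hvm : v.asIdeal ∣ m := (mem_primesDividing m).mp hv
    rw [Ideal.isCoprime_iff_sup_eq] at h
    have : (I : Ideal (𝓞 E)) ⊔ m ≤ v.asIdeal :=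
      sup_le (Ideal.dvd_iff_le.mp hvI) (Ideal.dvd_iff_le.mp hvm)
    rw [h] at this
    exact v.isPrime.ne_top (top_le_iff.mp this)

instance : Finite (𝓞 E ⧸ m) := Ideal.finiteQuotientOfFreeOfNeBot m hm.out

instance : Finite (RayClassGroup m) := finite_rayClassGroup m

noncomputable instance : Fintype (RayClassGroup m) := Fintype.ofFinite _

section Norm

variable (E' : Type*) [Field E'] [NumberField E'] [Algebra E E']

/-- The subgroup of the ray class group generated by the classes of relative norms of nonzero
ideals of `E'`. -/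
noncomputable def normClasses : Subgroup (RayClassGroup m) :=
  Subgroup.closure {g | ∃ (A : Ideal (𝓞 E')) (I : (Ideal (𝓞 E))⁰), A ≠ ⊥ ∧
    (I : Ideal (𝓞 E)) = Ideal.relNorm (𝓞 E) A ∧ g = cl m I}

/-- The finite set of primes of `E'` dividing `m 𝓞_{E'}`. -/
noncomputable def primesAbove : Finset (HeightOneSpectrum (𝓞 E')) :=
  (Ideal.finite_factors (I := m.map (algebraMap (𝓞 E) (𝓞 E'))) (by
    have hinj : Function.Injective (algebraMap (𝓞 E) (𝓞 E')) :=
      FaithfulSMul.algebraMap_injective (𝓞 E) (𝓞 E')
    intro h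
    exact hm.out ((Ideal.map_eq_bot_iff_of_injective hinj).mp h))).toFinset

lemma mem_primesAbove {w : HeightOneSpectrum (𝓞 E')} :
    w ∈ primesAbove m E' ↔ w.asIdeal ∣ m.map (algebraMap (𝓞 E) (𝓞 E')) := by
  simp [primesAbove]

lemma under_notMem_primesDividing {w : HeightOneSpectrum (𝓞 E')} (hw : w ∉ primesAbove m E') :
    w.under (𝓞 E) ∉ primesDividing m := by
  intro h
  apply hw
  rw [mem_primesAbove, Ideal.dvd_iff_le, Ideal.map_le_iff_le_comap]
  have h1 : (w.under (𝓞 E)).asIdeal ∣ m := (mem_primesDividing m).mp h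
  exact Ideal.dvd_iff_le.mp h1

/-- The class of the prime below a degree one prime of `E'` is a norm class. -/
lemma cl_under_mem_normClasses (w : HeightOneSpectrum (𝓞 E'))
    (hdeg : w.asIdeal.inertiaDeg (𝓞 E) = 1) :
    cl m (pr (w.under (𝓞 E))) ∈ normClasses m E' := by
  apply Subgroup.subset_closure
  refine ⟨w.asIdeal, pr (w.under (𝓞 E)), w.ne_bot, ?_, rfl⟩
  have hlies : w.asIdeal.LiesOver (w.under (𝓞 E)).asIdeal := ⟨rfl⟩
  have hwmax : w.asIdeal.IsMaximal := w.isMaximal
  have hvmax : (w.under (𝓞 E)).asIdeal.IsMaximal := (w.under (𝓞 E)).isMaximal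
  rw [pr_coe, Ideal.relNorm_eq_pow_of_isMaximal w.asIdeal (w.under (𝓞 E)).asIdeal, hdeg, pow_one]

/-- **Analytic second inequality for ray classes**, conditional on the bounded differences of the
ray class partial zeta functions. -/
theorem index_normClasses_le
    (hZ : ∀ g g' : RayClassGroup m, ∃ B : ℝ, ∀ s : ℝ, 1 < s → s ≤ 2 →
      |pz (primesDividing m) (cl m) g s - pz (primesDividing m) (cl m) g' s| ≤ B) :
    (normClasses m E').index ≤ Module.finrank E E' :=
  index_le_finrank E' (primesDividing m) (cl m) (normClasses m E') (primesAbove m E')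
    (fun w hw hdeg => ⟨under_notMem_primesDividing m E' hw, cl_under_mem_normClasses m E' w hdeg⟩)
    hZ

end Norm

end Fermat.Agent.S55.Global.RayClassNorm
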