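import Mathlib
import Fermat.Agent.S55.Global.RayClassNorm

/-!
# The second inequality for maps on ideals prime to a modulus (consumer form)

Let `E'/E` be number fields and `m ≠ ⊥` an ideal of `𝓞 E`.  Let `φ` be a plain function from the
nonzero ideals of `E` to a commutative group `G` which is multiplicative on ideals coprime to `m`,
trivial on principal ideals generated by elements `≡ 1 mod m`, surjective on ideals coprime to `m`,
and trivial on `w ∩ E` for all primes `w` of `E'` of relative degree one outside a finite set.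
Then `G` is finite of order at most `[E' : E]`, PROVIDED the ray class partial zeta functions
modulo `m` have bounded differences (`RayZ1 m`).

`φ` factors through the ray class group `RayClassGroup m` (`liftRay`), so only the universal case
`(RayClassGroup m, cl m)` of the analytic input is needed.
-/

set_option autoImplicit false
set_option linter.unusedSectionVars false

namespace Fermat.Agent.S55.Global.RaySecondIneq

open NumberField IsDedekindDomain Ideal nonZeroDivisors
open Fermat.Agent.S14.EulerIdeal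
open Fermat.Agent.S55.Global.RayClass Fermat.Agent.S55.Global.AnalyticIndex
open Fermat.Agent.S55.Global.RayClassNorm

section Dedekind

variable {R : Type*} [CommRing R] [IsDedekindDomain R] (m : Ideal R)
variable {G : Type*} [CommGroup G] (φ : (Ideal R)⁰ → G)

/-- The principal ideal generated by a nonzero element, as a nonzero ideal. -/
noncomputable def spanNZ (a : R) (ha : a ≠ 0) : (Ideal R)⁰ :=
  ⟨span {a}, mem_nonZeroDivisors_iff_ne_zero.mpr (by simpa using ha)⟩

@[simp] lemma coe_spanNZ (a : R) (ha : a ≠ 0) : ((spanNZ a ha : (Ideal R)⁰) : Ideal R) = span {a} :=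
  rfl

/-- `φ` is multiplicative on ideals coprime to `m`. -/
def MulOnCoprime : Prop :=
  ∀ I J : (Ideal R)⁰, IsCoprime (I : Ideal R) m → IsCoprime (J : Ideal R) m →
    φ (I * J) = φ I * φ J

/-- `φ` is trivial on principal ideals generated by elements `≡ 1 mod m`. -/
def TrivialOnRay : Prop :=
  ∀ (a : R) (ha : a ≠ 0), a - 1 ∈ m → φ (spanNZ a ha) = 1

/-- `φ` is surjective on ideals coprime to `m`. -/
def SurjOnCoprime : Prop :=
  ∀ g : G, ∃ I : (Ideal R)⁰, IsCoprime (I : Ideal R) m ∧ φ I = g

variable {m φ}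

lemma map_one_of_mulOnCoprime (hmul : MulOnCoprime m φ) : φ 1 = 1 := by
  have h1 : IsCoprime (((1 : (Ideal R)⁰)) : Ideal R) m := (1 : copSub m).2
  have := hmul 1 1 h1 h1
  rw [mul_one] at this
  exact (mul_eq_left.mp this.symm)

/-- The restriction of `φ` to the ideals coprime to `m`, as a monoid homomorphism. -/
noncomputable def restrictHom (hmul : MulOnCoprime m φ) : copSub m →* G where
  toFun I := φ (I : (Ideal R)⁰)
  map_one' := map_one_of_mulOnCoprime hmul
  map_mul' I J := hmul I J I.2 J.2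

lemma isCoprime_span_of_sub_one_mem {a : R} (ha : a - 1 ∈ m) : IsCoprime (span {a}) m := by
  have : (1 : R) * a - 1 ∈ m := by rwa [one_mul]
  exact isCoprime_span_of_mul_sub_one_mem m this

lemma restrictHom_eq_of_rayRel (hmul : MulOnCoprime m φ) (hray : TrivialOnRay m φ)
    {I J : copSub m} (h : RayRel m I J) : restrictHom hmul I = restrictHom hmul J := by
  obtain ⟨a, b, ha, hb, ha1, hb1, h⟩ := h
  have hA : IsCoprime ((spanNZ a ha : (Ideal R)⁰) : Ideal R) m := isCoprime_span_of_sub_one_mem ha1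
  have hB : IsCoprime ((spanNZ b hb : (Ideal R)⁰) : Ideal R) m := isCoprime_span_of_sub_one_mem hb1
  have heq : spanNZ a ha * (I : (Ideal R)⁰) = spanNZ b hb * (J : (Ideal R)⁰) :=
    Subtype.ext h
  have h1 := hmul (spanNZ a ha) I hA I.2
  have h2 := hmul (spanNZ b hb) J hB J.2
  rw [hray a ha ha1, one_mul] at h1
  rw [hray b hb hb1, one_mul] at h2
  show φ (I : (Ideal R)⁰) = φ (J : (Ideal R)⁰)
  rw [← h1, ← h2, heq]

/-- `φ` factors through the ray class group. -/
noncomputable def liftRay (hmul : MulOnCoprime m φ) (hray : TrivialOnRay m φ) :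
    RayClassGroup m →* G :=
  (rayCon m).lift (restrictHom hmul) (fun _ _ h => restrictHom_eq_of_rayRel hmul hray h)

lemma liftRay_mk (hmul : MulOnCoprime m φ) (hray : TrivialOnRay m φ) (I : copSub m) :
    liftRay hmul hray (mk m I) = φ (I : (Ideal R)⁰) := rfl

lemma liftRay_cl (hmul : MulOnCoprime m φ) (hray : TrivialOnRay m φ) (I : (Ideal R)⁰)
    (hI : IsCoprime (I : Ideal R) m) : liftRay hmul hray (cl m I) = φ I := by
  have := cl_of_mem m (⟨I, hI⟩ : copSub m)
  rw [show ((⟨I, hI⟩ : copSub m) : (Ideal R)⁰) = I from rfl] at this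
  rw [this, liftRay_mk]

lemma liftRay_surjective (hmul : MulOnCoprime m φ) (hray : TrivialOnRay m φ)
    (hsurj : SurjOnCoprime m φ) : Function.Surjective (liftRay hmul hray) := by
  intro g
  obtain ⟨I, hI, rfl⟩ := hsurj g
  exact ⟨mk m ⟨I, hI⟩, liftRay_mk hmul hray _⟩

end Dedekind

section NumberField

variable {E : Type*} [Field E] [NumberField E] (m : Ideal (𝓞 E)) [hm : Fact (m ≠ ⊥)]

/-- **(Z1-ray)**: the partial zeta functions of any two ray classes modulo `m` differ by a bounded
function on `(1, 2]`. -/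
def RayZ1 : Prop :=
  ∀ g g' : RayClassGroup m, ∃ B : ℝ, ∀ s : ℝ, 1 < s → s ≤ 2 →
    |pz (primesDividing m) (cl m) g s - pz (primesDividing m) (cl m) g' s| ≤ B

/-- The partial zeta function of a class of a plain class function `c`, summed over the ideals
coprime to `m` (the shape used by the ray zeta files). -/
noncomputable def pzCop {G : Type*} (c : (Ideal (𝓞 E))⁰ → G) (g : G) (s : ℝ) : ℝ :=
  ∑' I : {I : (Ideal (𝓞 E))⁰ // IsCoprime (I : Ideal (𝓞 E)) m ∧ c I = g},
    ((absNorm (I.1 : Ideal (𝓞 E)) : ℝ)) ^ (-s)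

lemma pz_eq_pzCop {G : Type*} [CommGroup G] [Fintype G] (c : (Ideal (𝓞 E))⁰ →* G) (g : G)
    (s : ℝ) : pz (primesDividing m) c g s = pzCop m c g s := by
  rw [pz_eq_tsum_cop, pzCop]
  let e : {I : (Ideal (𝓞 E))⁰ // c I = g ∧ Cop (primesDividing m) I} ≃
      {I : (Ideal (𝓞 E))⁰ // IsCoprime (I : Ideal (𝓞 E)) m ∧ c I = g} :=
    Equiv.subtypeEquivRight (fun I => by rw [cop_iff_isCoprime]; exact and_comm)
  rw [← e.tsum_eq]
  rfl

/-- (Z1-ray) from the bounded differences of the `pzCop`'s of the universal class map. -/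
theorem rayZ1_of_pzCop
    (h : ∀ g g' : RayClassGroup m, ∃ B : ℝ, ∀ s : ℝ, 1 < s → s ≤ 2 →
      |pzCop m (cl m) g s - pzCop m (cl m) g' s| ≤ B) : RayZ1 m := by
  intro g g'
  obtain ⟨B, hB⟩ := h g g'
  refine ⟨B, fun s h1 h2 => ?_⟩
  rw [pz_eq_pzCop, pz_eq_pzCop]
  exact hB s h1 h2

variable {m}
variable {E' : Type*} [Field E'] [NumberField E'] [Algebra E E']
variable {G : Type*} [CommGroup G] {φ : (Ideal (𝓞 E))⁰ → G}

/-- **The second inequality, consumer form** (relative degree one primes outside a finite set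
`T₀` of primes of `E'`). -/
theorem card_le_finrank (hZ : RayZ1 m) (hmul : MulOnCoprime m φ) (hray : TrivialOnRay m φ)
    (hsurj : SurjOnCoprime m φ) (T₀ : Finset (HeightOneSpectrum (𝓞 E')))
    (hnorm : ∀ w : HeightOneSpectrum (𝓞 E'), w ∉ T₀ → w.asIdeal.inertiaDeg (𝓞 E) = 1 →
      φ (pr (w.under (𝓞 E))) = 1) :
    Finite G ∧ Nat.card G ≤ Module.finrank E E' := by
  classical
  set ψ := liftRay hmul hray with hψ
  have hψs : Function.Surjective ψ := liftRay_surjective hmul hray hsurj
  have hfin : Finite G := Finite.of_surjective ψ hψs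
  refine ⟨hfin, ?_⟩
  have hidx : ψ.ker.index = Nat.card G := by
    rw [Subgroup.index_ker, MonoidHom.range_eq_top.mpr hψs]
    exact Nat.card_congr (Subgroup.topEquiv).toEquiv
  rw [← hidx]
  refine index_le_finrank E' (primesDividing m) (cl m) ψ.ker (T₀ ∪ primesAbove m E') ?_ hZ
  intro w hw hdeg
  rw [Finset.mem_union, not_or] at hw
  have hv : w.under (𝓞 E) ∉ primesDividing m := under_notMem_primesDividing m E' hw.2
  refine ⟨hv, ?_⟩
  have hcop : IsCoprime ((pr (w.under (𝓞 E)) : (Ideal (𝓞 E))⁰) : Ideal (𝓞 E)) m :=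
    (cop_iff_isCoprime m _).mp ((cop_pr _ _).mpr hv)
  rw [MonoidHom.mem_ker, hψ, liftRay_cl hmul hray _ hcop]
  exact hnorm w hw.1 hdeg

/-- **The second inequality, consumer form** with the exceptional set given by a norm bound:
`φ (Q ∩ 𝓞 E) = 1` for every nonzero prime `Q` of `𝓞 E'` of relative degree one with
`N0 < absNorm Q`. -/
theorem card_le_finrank_of_absNorm_lt (hZ : RayZ1 m) (hmul : MulOnCoprime m φ)
    (hray : TrivialOnRay m φ) (hsurj : SurjOnCoprime m φ) (N0 : ℕ)
    (hnorm : ∀ w : HeightOneSpectrum (𝓞 E'), N0 < absNorm w.asIdeal →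
      w.asIdeal.inertiaDeg (𝓞 E) = 1 → φ (pr (w.under (𝓞 E))) = 1) :
    Finite G ∧ Nat.card G ≤ Module.finrank E E' := by
  classical
  have hfin : {w : HeightOneSpectrum (𝓞 E') | absNorm w.asIdeal ≤ N0}.Finite := by
    have h1 : {I : Ideal (𝓞 E') | absNorm I ≤ N0}.Finite := by
      have : {I : Ideal (𝓞 E') | absNorm I ≤ N0} = ⋃ n ∈ Finset.range (N0 + 1),
          {I : Ideal (𝓞 E') | absNorm I = n} := by
        ext I
        simp
      rw [this]
      exact Set.Finite.biUnion (Finset.finite_toSet _)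
        (fun n _ => Ideal.finite_setOfPred_absNorm_eq n)
    refine Set.Finite.of_finite_image (f := fun w : HeightOneSpectrum (𝓞 E') => w.asIdeal)
      (h1.subset ?_) ?_
    · rintro _ ⟨w, hw, rfl⟩
      exact hw
    · intro w _ w' _ h
      exact HeightOneSpectrum.ext h
  refine card_le_finrank hZ hmul hray hsurj hfin.toFinset (fun w hw hdeg => ?_)
  rw [Set.Finite.mem_toFinset] at hw
  have hw' : ¬ absNorm w.asIdeal ≤ N0 := hw
  rw [not_le] at hw'
  exact hnorm w hw' hdeg

end NumberField

end Fermat.Agent.S55.Global.RaySecondIneq
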