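import Mathlib
import Fermat.Agent.S55.Global.RaySecondIneq
import Fermat.Agent.S55.Global.AnalyticIndexAbs

/-!
# The ray class second inequality as a closed `Prop` (absolute-degree-one form)

`RaySecondIneq` is the closed statement used by the global class formation block: for number
fields `E'/E`, a nonzero ideal `m` of `𝓞 E` and a function `φ` from the nonzero ideals of `E` to a
commutative group `G` which is multiplicative and surjective on ideals coprime to `m`, trivial on
principal ideals `(a)` with `a ≡ 1 mod m`, and trivial on `Q ∩ 𝓞 E` for every prime `Q` of `𝓞 E'`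
whose absolute norm is a prime number `> N0`: then `G` is finite of order at most `[E' : E]`.

`raySecondIneq_of_rayZ1` proves it from the analytic input `RayZ1All` (bounded differences of the
ray class partial zeta functions, for all number fields and all moduli).
-/

set_option autoImplicit false
set_option linter.unusedSectionVars false

namespace Fermat.Agent.S55.Global.RaySecondIneqProp

open NumberField IsDedekindDomain Ideal nonZeroDivisors
open Fermat.Agent.S14.EulerIdeal
open Fermat.Agent.S55.Global.RayClass Fermat.Agent.S55.Global.AnalyticIndex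
open Fermat.Agent.S55.Global.RayClassNorm Fermat.Agent.S55.Global.RaySecondIneq
open Fermat.Agent.S55.Global.AnalyticIndexAbs

section Theorem

variable {E : Type*} [Field E] [NumberField E] {m : Ideal (𝓞 E)} [hm : Fact (m ≠ ⊥)]
variable {E' : Type*} [Field E'] [NumberField E'] [Algebra E E']
variable {G : Type*} [CommGroup G] {φ : (Ideal (𝓞 E))⁰ → G}

/-- The primes of `E'` of absolute norm at most `N0` form a finite set. -/
lemma finite_setOf_absNorm_le (N0 : ℕ) :
    {w : HeightOneSpectrum (𝓞 E') | absNorm w.asIdeal ≤ N0}.Finite := by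
  have h1 : {I : Ideal (𝓞 E') | absNorm I ≤ N0}.Finite := by
    have : {I : Ideal (𝓞 E') | absNorm I ≤ N0} = ⋃ n ∈ Finset.range (N0 + 1),
        {I : Ideal (𝓞 E') | absNorm I = n} := by
      ext I
      simp
    rw [this]
    exact Set.Finite.biUnion (Finset.finite_toSet _)
      (fun n _ => Ideal.finite_setOfPred_absNorm_eq n)
  refine Set.Finite.of_finite_image (f := fun w : HeightOneSpectrum (𝓞 E') => w.asIdeal)
    (h1.subset ?_) ?_
  · rintro _ ⟨w, hw, rfl⟩
    exact hw
  · intro w _ w' _ h
    exact HeightOneSpectrum.ext h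

/-- **The second inequality, consumer form, absolute-degree-one hypothesis.** -/
theorem card_le_finrank_abs (hZ : RayZ1 m) (hmul : MulOnCoprime m φ) (hray : TrivialOnRay m φ)
    (hsurj : SurjOnCoprime m φ) (N0 : ℕ)
    (hnorm : ∀ w : HeightOneSpectrum (𝓞 E'), (absNorm w.asIdeal).Prime → N0 < absNorm w.asIdeal →
      φ (pr (w.under (𝓞 E))) = 1) :
    Finite G ∧ Nat.card G ≤ Module.finrank E E' := by
  classical
  set ψ := liftRay hmul hray with hψ
  have hψs : Function.Surjective ψ := liftRay_surjective hmul hray hsurj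
  have hfin : Finite G := Finite.of_surjective ψ hψs
  refine ⟨hfin, ?_⟩
  have hidx : ψ.ker.index = Nat.card G := by
    rw [Subgroup.index_ker, MonoidHom.range_eq_top.mpr hψs]
    exact Nat.card_congr (Subgroup.topEquiv).toEquiv
  rw [← hidx]
  have hfinset := finite_setOf_absNorm_le (E' := E') N0
  refine index_le_finrank_abs E' (primesDividing m) (cl m) ψ.ker
    (hfinset.toFinset ∪ primesAbove m E') ?_ hZ
  intro w hw hprime
  rw [Finset.mem_union, not_or, Set.Finite.mem_toFinset] at hw
  have hw1 : ¬ absNorm w.asIdeal ≤ N0 := hw.1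
  rw [not_le] at hw1
  have hv : w.under (𝓞 E) ∉ primesDividing m := under_notMem_primesDividing m E' hw.2
  refine ⟨hv, ?_⟩
  have hcop : IsCoprime ((pr (w.under (𝓞 E)) : (Ideal (𝓞 E))⁰) : Ideal (𝓞 E)) m :=
    (cop_iff_isCoprime m _).mp ((cop_pr _ _).mpr hv)
  rw [MonoidHom.mem_ker, hψ, liftRay_cl hmul hray _ hcop]
  exact hnorm w hprime hw1

end Theorem

/-- **(Z1-ray) for all number fields and all moduli**, as a closed `Prop`. -/
def RayZ1All : Prop :=
  ∀ (E : Type) [Field E] [NumberField E] (m : Ideal (𝓞 E)) [Fact (m ≠ ⊥)], RayZ1 m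

/-- **The ray class second inequality**, closed `Prop` (helper2 #1347 / helper78 #1461). -/
def RaySecondIneq : Prop :=
  ∀ (E E' : Type) [Field E] [NumberField E] [Field E'] [NumberField E'] [Algebra E E']
    (m : Ideal (𝓞 E)), m ≠ ⊥ → ∀ (G : Type) [CommGroup G] (φ : (Ideal (𝓞 E))⁰ → G) (N0 : ℕ),
    (∀ I J : (Ideal (𝓞 E))⁰, IsCoprime (I : Ideal (𝓞 E)) m → IsCoprime (J : Ideal (𝓞 E)) m →
      φ (I * J) = φ I * φ J) →
    (∀ g : G, ∃ I : (Ideal (𝓞 E))⁰, IsCoprime (I : Ideal (𝓞 E)) m ∧ φ I = g) →
    (∀ (a : 𝓞 E) (I : (Ideal (𝓞 E))⁰), a - 1 ∈ m → (I : Ideal (𝓞 E)) = span {a} → φ I = 1) →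
    (∀ (Q : Ideal (𝓞 E')) (I : (Ideal (𝓞 E))⁰), Q.IsPrime → Q ≠ ⊥ → (absNorm Q).Prime →
      N0 < absNorm Q → (I : Ideal (𝓞 E)) = Q.under (𝓞 E) → φ I = 1) →
    Finite G ∧ Nat.card G ≤ Module.finrank E E'

/-- The ray class second inequality follows from (Z1-ray). -/
theorem raySecondIneq_of_rayZ1 (hZ : RayZ1All) : RaySecondIneq := by
  intro E E' _ _ _ _ _ m hm G _ φ N0 hmul hsurj hray hnorm
  have : Fact (m ≠ ⊥) := ⟨hm⟩
  refine card_le_finrank_abs (m := m) (E' := E') (φ := φ) (hZ E m) hmul
    (fun a ha h1 => hray a (spanNZ a ha) h1 rfl) hsurj N0 (fun w hprime hlt => ?_)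
  exact hnorm w.asIdeal (pr (w.under (𝓞 E))) w.isPrime w.ne_bot hprime hlt (pr_coe _)

end Fermat.Agent.S55.Global.RaySecondIneqProp
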