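/-
S55 / Global / second inequality (helper2): weighted orbit identity.

A weighted version of `S14/Zeta/OrbitSum`: for every weight `c` on ideals,
`w_K * ∑_{I ∈ C} c(J * I) N(I)^(-s) = N(J)^s * ∑_{a ∈ J} c((a)) Fs s a` for `J ∈ C⁻¹`
(an identity in `ℝ≥0∞`).
-/
import Mathlib
import Fermat.Agent.S14.Zeta.Defs
import Fermat.Agent.S14.Zeta.OrbitSum
import Fermat.Agent.S14.Zeta.UnitSum

set_option autoImplicit false

open NumberField NumberField.mixedEmbedding NumberField.Units NumberField.InfinitePlace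
open scoped nonZeroDivisors ENNReal

namespace Fermat.Agent.S55.Global.RayOrbit

open Fermat.Agent.S14.Zeta

variable (K : Type*) [Field K] [NumberField K]

/-- Weighted form of `tsum_Fs_ideal_of`. -/
theorem tsum_weighted_Fs_ideal (c : Ideal (𝓞 K) → ℝ≥0∞) (J : (Ideal (𝓞 K))⁰) (s : ℝ) :
    ∑' a : (J : Ideal (𝓞 K)), c (Ideal.span {(a : 𝓞 K)}) *
        ENNReal.ofReal (Fs K s (mixedEmbedding K ((a : 𝓞 K) : K))) =
      (torsionOrder K : ℝ≥0∞) * ∑' I : PrincDvd J, c (I.1 : Ideal (𝓞 K)) *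
        ENNReal.ofReal (((Ideal.absNorm (I.1 : Ideal (𝓞 K)) : ℝ)) ^ (-s)) := by
  have hU := tsum_weight_unit_smul K
  set F : ↥(J : Ideal (𝓞 K)) → ℝ≥0∞ :=
    fun a => c (Ideal.span {(a : 𝓞 K)}) *
      ENNReal.ofReal (Fs K s (mixedEmbedding K ((a : 𝓞 K) : K))) with hF
  have hsupp : Function.support F ⊆ {a | a ≠ 0} := by
    intro a ha
    rw [Function.mem_support] at ha
    intro h0
    apply ha
    rw [h0, hF]
    simp only [ZeroMemClass.coe_zero]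
    rw [orbitSum_Fs_zero, ENNReal.ofReal_zero, mul_zero]
  rw [← tsum_subtype_eq_of_support_subset hsupp]
  have h2 : ∑' x : ({a | a ≠ 0} : Set ↥(J : Ideal (𝓞 K))), F x =
      ∑' p : PrincDvd J × (𝓞 K)ˣ, F ((Equiv.ofBijective _ (orbitMap_bijective J)) p).1 :=
    ((Equiv.ofBijective _ (orbitMap_bijective J)).tsum_eq
      (fun a : {a : ↥(J : Ideal (𝓞 K)) // a ≠ 0} => F a.1)).symm
  rw [h2, ENNReal.tsum_prod', ← ENNReal.tsum_mul_left]
  refine tsum_congr fun I => ?_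
  have hterm : ∀ u : (𝓞 K)ˣ,
      F ((Equiv.ofBijective _ (orbitMap_bijective J)) (I, u)).1 =
        ENNReal.ofReal (weight K (u • mixedEmbedding K ((princGen I : 𝓞 K) : K))) *
          (c (I.1 : Ideal (𝓞 K)) *
            ENNReal.ofReal (((Ideal.absNorm (I.1 : Ideal (𝓞 K)) : ℝ)) ^ (-s))) := by
    intro u
    rw [hF]
    simp only [Equiv.ofBijective_apply, orbitMap_coe]
    rw [orbitSum_Fs_unit_mul, Ideal.span_singleton_mul_left_unit u.isUnit, span_princGen,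
      ENNReal.ofReal_mul' (Real.rpow_nonneg (Nat.cast_nonneg _) _)]
    ring
  rw [tsum_congr hterm, ENNReal.tsum_mul_right, hU]
  rw [orbitSum_norm_eq_absNorm, span_princGen]
  exact Nat.cast_ne_zero.mpr (Ideal.absNorm_ne_zero_of_nonZeroDivisors I.1)

/-- Weighted form of `torsionOrder_mul_tsum_class`. -/
theorem torsionOrder_mul_tsum_weighted_class (c : Ideal (𝓞 K) → ℝ≥0∞)
    (C : ClassGroup (𝓞 K)) (J : (Ideal (𝓞 K))⁰) (hJ : ClassGroup.mk0 J = C⁻¹) (s : ℝ) :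
    (torsionOrder K : ℝ≥0∞) * ∑' I : {I : (Ideal (𝓞 K))⁰ // ClassGroup.mk0 I = C},
        c ((J : Ideal (𝓞 K)) * (I.1 : Ideal (𝓞 K))) *
          ENNReal.ofReal ((Ideal.absNorm (I.1 : Ideal (𝓞 K)) : ℝ) ^ (-s)) =
    ENNReal.ofReal ((Ideal.absNorm (J : Ideal (𝓞 K)) : ℝ) ^ s) *
      ∑' a : (J : Ideal (𝓞 K)), c (Ideal.span {(a : 𝓞 K)}) *
        ENNReal.ofReal (Fs K s (mixedEmbedding K ((a : 𝓞 K) : K))) := by
  rw [tsum_weighted_Fs_ideal K c J s]
  have h1 : ∑' I : PrincDvd J, c (I.1 : Ideal (𝓞 K)) *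
      ENNReal.ofReal (((Ideal.absNorm (I.1 : Ideal (𝓞 K)) : ℝ)) ^ (-s)) =
      ∑' I : {I : (Ideal (𝓞 K))⁰ // ClassGroup.mk0 I = C},
        c ((classEquivPrincDvd K C J hJ I).1 : Ideal (𝓞 K)) * ENNReal.ofReal
        (((Ideal.absNorm ((classEquivPrincDvd K C J hJ I).1 : Ideal (𝓞 K)) : ℝ)) ^ (-s)) :=
    ((classEquivPrincDvd K C J hJ).tsum_eq (fun I : PrincDvd J => c (I.1 : Ideal (𝓞 K)) *
      ENNReal.ofReal (((Ideal.absNorm (I.1 : Ideal (𝓞 K)) : ℝ)) ^ (-s)))).symm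
  rw [h1, mul_left_comm]
  congr 1
  rw [← ENNReal.tsum_mul_left]
  refine tsum_congr fun I => ?_
  have hJpos : (0 : ℝ) < (Ideal.absNorm (J : Ideal (𝓞 K)) : ℝ) :=
    Nat.cast_pos.mpr (Ideal.absNorm_pos_of_nonZeroDivisors J)
  have hIpos : (0 : ℝ) < (Ideal.absNorm (I.1 : Ideal (𝓞 K)) : ℝ) :=
    Nat.cast_pos.mpr (Ideal.absNorm_pos_of_nonZeroDivisors I.1)
  rw [classEquivPrincDvd_coe, map_mul, Nat.cast_mul, mul_left_comm,
    ← ENNReal.ofReal_mul (Real.rpow_nonneg hJpos.le _),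
    Real.mul_rpow hJpos.le hIpos.le, ← mul_assoc, ← Real.rpow_add hJpos, add_neg_cancel,
    Real.rpow_zero, one_mul]

end Fermat.Agent.S55.Global.RayOrbit
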