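/-
S55 / Global / second inequality (helper2): coset comparison of smooth lattice sums.

* `exists_coset_shift_bound`: if `X₁ = ⊔_i (t i + X₂)` (as an identity of indicator functions) then
  `∑_{a ∈ X₁} Fs s a = #ι * ∑_{b ∈ X₂} Fs s b + O(1)` uniformly for `s ∈ (1, 2]`.
* `exists_coset_reps`: representatives of `J / L` inside `J ⊓ M` when `J ≤ L ⊔ (J ⊓ M)`.
-/
import Mathlib
import Fermat.Agent.S14.Zeta.Defs
import Fermat.Agent.S14.Zeta.Shift

set_option autoImplicit false

open NumberField NumberField.mixedEmbedding NumberField.Units NumberField.InfinitePlace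
open scoped nonZeroDivisors ENNReal Topology

namespace Fermat.Agent.S55.Global.RayShift

open Fermat.Agent.S14.Zeta

universe u

variable (K : Type u) [Field K] [NumberField K]

/-- Abstract coset comparison for the smooth sums. -/
theorem exists_coset_shift_bound {ι : Type*} [Fintype ι] (t : ι → 𝓞 K) (X₁ X₂ : Set (𝓞 K))
    (hdec : ∀ a : 𝓞 K, X₁.indicator (fun _ => (1 : ℝ)) a =
      ∑ i, X₂.indicator (fun _ => (1 : ℝ)) (a - t i)) :
    ∃ D : ℝ, ∀ s ∈ Set.Ioc (1 : ℝ) 2,
      |(∑' a : 𝓞 K, X₁.indicator (fun a => Fs K s (iota K a)) a) -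
        (Fintype.card ι : ℝ) * ∑' b : 𝓞 K, X₂.indicator (fun b => Fs K s (iota K b)) b| ≤ D := by
  classical
  choose D hD using fun i : ι => exists_shift_sum_bound K (t i)
  refine ⟨∑ i, D i, fun s hs => ?_⟩
  have hs1 : (1 : ℝ) < s := hs.1
  have hsI : s ∈ Set.Icc (1 : ℝ) 2 := ⟨hs.1.le, hs.2⟩
  set f : 𝓞 K → ℝ := fun a => Fs K s (iota K a) with hf
  have hA : Summable f := summable_Fs_iota K hs1
  -- the shifted pieces
  let h : ι → 𝓞 K → ℝ := fun i => X₂.indicator (fun b => f (b + t i))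
  have hshift : ∀ i, Summable (fun b : 𝓞 K => f (b + t i)) := fun i =>
    hA.comp_injective (add_left_injective (t i))
  have hh : ∀ i, Summable (h i) := fun i => (hshift i).indicator X₂
  have hB : Summable (X₂.indicator f) := hA.indicator X₂
  -- pointwise decomposition
  have hpt : ∀ a : 𝓞 K, X₁.indicator f a = ∑ i, h i (a - t i) := by
    intro a
    have h1 : X₁.indicator f a = X₁.indicator (fun _ => (1 : ℝ)) a * f a := by
      by_cases ha : a ∈ X₁
      · rw [Set.indicator_of_mem ha, Set.indicator_of_mem ha, one_mul]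
      · rw [Set.indicator_of_notMem ha, Set.indicator_of_notMem ha, zero_mul]
    rw [h1, hdec a, Finset.sum_mul]
    refine Finset.sum_congr rfl fun i _ => ?_
    by_cases hi : a - t i ∈ X₂
    · rw [Set.indicator_of_mem hi]
      show 1 * f a = X₂.indicator (fun b => f (b + t i)) (a - t i)
      rw [Set.indicator_of_mem hi, one_mul, sub_add_cancel]
    · rw [Set.indicator_of_notMem hi]
      show 0 * f a = X₂.indicator (fun b => f (b + t i)) (a - t i)
      rw [Set.indicator_of_notMem hi, zero_mul]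
  have hsub : ∀ i, Summable (fun a : 𝓞 K => h i (a - t i)) := fun i =>
    (hh i).comp_injective (fun a b hab => sub_left_injective hab)
  have e1 : (∑' a : 𝓞 K, X₁.indicator f a) = ∑ i, ∑' b : 𝓞 K, h i b := by
    rw [tsum_congr hpt, Summable.tsum_finsetSum (fun i _ => hsub i)]
    refine Finset.sum_congr rfl fun i _ => ?_
    exact (Equiv.subRight (t i)).tsum_eq (h i)
  have e2 : (Fintype.card ι : ℝ) * ∑' b : 𝓞 K, X₂.indicator f b =
      ∑ _i : ι, ∑' b : 𝓞 K, X₂.indicator f b := by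
    rw [Finset.sum_const, Finset.card_univ, nsmul_eq_mul]
  rw [e1, e2, ← Finset.sum_sub_distrib]
  refine (Finset.abs_sum_le_sum_abs _ _).trans (Finset.sum_le_sum fun i _ => ?_)
  rw [← (hh i).tsum_sub hB]
  obtain ⟨hsq, hDq⟩ := hD i s hsI
  have hle : ∀ b : 𝓞 K, |h i b - X₂.indicator f b| ≤ |f (b + t i) - f b| := by
    intro b
    by_cases hb : b ∈ X₂
    · show |X₂.indicator (fun b => f (b + t i)) b - X₂.indicator f b| ≤ _
      rw [Set.indicator_of_mem hb, Set.indicator_of_mem hb]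
    · show |X₂.indicator (fun b => f (b + t i)) b - X₂.indicator f b| ≤ _
      rw [Set.indicator_of_notMem hb, Set.indicator_of_notMem hb, sub_zero, abs_zero]
      exact abs_nonneg _
  have hsq2 : Summable (fun b : 𝓞 K => |f (b + t i) - f b|) := hsq
  have hsq' : Summable (fun b : 𝓞 K => |h i b - X₂.indicator f b|) :=
    Summable.of_nonneg_of_le (fun b => abs_nonneg _) hle hsq2
  have := norm_tsum_le_tsum_norm (f := fun b : 𝓞 K => h i b - X₂.indicator f b) hsq'
  simp only [Real.norm_eq_abs] at this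
  refine this.trans (le_trans ?_ hDq)
  exact hsq'.tsum_le_tsum hle hsq2

/-- Representatives of `J / L` inside `J ⊓ M`. -/
theorem exists_coset_reps (J L M : Ideal (𝓞 K)) (hL : L ≠ ⊥) (hLJ : L ≤ J)
    (hcov : J ≤ L ⊔ (J ⊓ M)) :
    ∃ (ι : Type u) (_ : Fintype ι) (t : ι → 𝓞 K), (∀ i, t i ∈ J ∧ t i ∈ M) ∧
      (∀ a ∈ J, ∃! i, a - t i ∈ L) ∧
      Fintype.card ι * Ideal.absNorm J = Ideal.absNorm L := by
  classical
  have hfin : Finite (𝓞 K ⧸ L) := Ideal.finiteQuotientOfFreeOfNeBot _ hL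
  let φ : (𝓞 K ⧸ L) →+* (𝓞 K ⧸ J) := Ideal.Quotient.factor hLJ
  have hφmk : ∀ a : 𝓞 K, φ (Ideal.Quotient.mk L a) = Ideal.Quotient.mk J a := fun a =>
    Ideal.Quotient.factor_mk hLJ a
  have hφsurj : Function.Surjective φ := Ideal.Quotient.factor_surjective hLJ
  let ι : Type u := {q : 𝓞 K ⧸ L // φ q = 0}
  have : Finite ι := Subtype.finite
  let _ : Fintype ι := Fintype.ofFinite ι
  have hex : ∀ i : ι, ∃ m : 𝓞 K, (m ∈ J ∧ m ∈ M) ∧ Ideal.Quotient.mk L m = i.1 := by
    rintro ⟨q, hq⟩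
    obtain ⟨a, rfl⟩ := Ideal.Quotient.mk_surjective q
    have haJ : a ∈ J := by
      rw [hφmk] at hq
      exact Ideal.Quotient.eq_zero_iff_mem.mp hq
    obtain ⟨l, hl, m, hm, rfl⟩ := Submodule.mem_sup.mp (hcov haJ)
    refine ⟨m, ⟨(Submodule.mem_inf.mp hm).1, (Submodule.mem_inf.mp hm).2⟩, ?_⟩
    show Ideal.Quotient.mk L m = Ideal.Quotient.mk L (l + m)
    rw [map_add, Ideal.Quotient.eq_zero_iff_mem.mpr hl, zero_add]
  choose t ht using hex
  refine ⟨ι, inferInstance, t, fun i => (ht i).1, fun a ha => ?_, ?_⟩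
  · have h0 : φ (Ideal.Quotient.mk L a) = 0 := by
      rw [hφmk]; exact Ideal.Quotient.eq_zero_iff_mem.mpr ha
    refine ⟨⟨Ideal.Quotient.mk L a, h0⟩, ?_, ?_⟩
    · show a - t ⟨Ideal.Quotient.mk L a, h0⟩ ∈ L
      rw [← Ideal.Quotient.eq]
      exact ((ht ⟨Ideal.Quotient.mk L a, h0⟩).2).symm
    · intro i hi
      have : Ideal.Quotient.mk L a = Ideal.Quotient.mk L (t i) := Ideal.Quotient.eq.mpr hi
      apply Subtype.ext
      show i.1 = Ideal.Quotient.mk L a
      rw [this, (ht i).2]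
  · -- counting
    have hcard : Nat.card ι = Nat.card (φ.toAddMonoidHom.ker) := by
      refine Nat.card_congr (Equiv.subtypeEquivRight fun q => ?_)
      rw [AddMonoidHom.mem_ker]; rfl
    have h1 := AddSubgroup.card_mul_index (φ.toAddMonoidHom.ker)
    rw [AddSubgroup.index_ker] at h1
    have hrange : φ.toAddMonoidHom.range = ⊤ :=
      AddMonoidHom.range_eq_top.mpr hφsurj
    rw [hrange] at h1
    have h2 : Nat.card (⊤ : AddSubgroup (𝓞 K ⧸ J)) = Nat.card (𝓞 K ⧸ J) :=
      Nat.card_congr (Equiv.Set.univ _)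
    rw [h2, ← hcard, Nat.card_eq_fintype_card] at h1
    rw [Ideal.absNorm_apply, Submodule.cardQuot_apply, Ideal.absNorm_apply,
      Submodule.cardQuot_apply]
    exact h1

end Fermat.Agent.S55.Global.RayShift
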