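/-
S55 / Global / second inequality (helper2): partial zeta functions of "ray class data" have
bounded differences on `(1, 2]`.

Data: a number field `K`, an ideal `𝔪` of `𝓞 K`, a commutative group `G` and a map
`cl : (Ideal (𝓞 K))⁰ → G` which is multiplicative on ideals prime to `𝔪`, kills the principal
ideals `(a)` with `a ≡ 1 mod 𝔪`, and is surjective on ideals prime to `𝔪`.

Main result: `exists_bound_pz_sub`.
-/
import Mathlib
import Fermat.Agent.S14.Zeta.Defs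
import Fermat.Agent.S14.Zeta.Glue
import Fermat.Agent.S14.Zeta.Shift
import Fermat.Agent.S14.MovingLemma
import Fermat.Agent.S55.Global.RayOrbit
import Fermat.Agent.S55.Global.RayShift

set_option autoImplicit false

open NumberField NumberField.mixedEmbedding NumberField.Units NumberField.InfinitePlace
open scoped nonZeroDivisors ENNReal Topology
open Filter

namespace Fermat.Agent.S55.Global.RayZeta

open Fermat.Agent.S14.Zeta Fermat.Agent.S55.Global.RayOrbit Fermat.Agent.S55.Global.RayShift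

universe u v

variable {K : Type u} [Field K] [NumberField K] {G : Type v} [CommGroup G]

/-- The partial zeta function of the fibre of `cl` over `g` (ideals prime to `𝔪` only). -/
noncomputable def pz (𝔪 : Ideal (𝓞 K)) (cl : (Ideal (𝓞 K))⁰ → G) (g : G) (s : ℝ) : ℝ :=
  ∑' I : {I : (Ideal (𝓞 K))⁰ // IsCoprime (I : Ideal (𝓞 K)) 𝔪 ∧ cl I = g},
    ((Ideal.absNorm (I.1 : Ideal (𝓞 K)) : ℝ)) ^ (-s)

/-- Extension of `cl` to all ideals (value `1` at `⊥`). -/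
noncomputable def clE (cl : (Ideal (𝓞 K))⁰ → G) (I : Ideal (𝓞 K)) : G :=
  open scoped Classical in
  if h : I ≠ ⊥ then cl ⟨I, mem_nonZeroDivisors_of_ne_zero h⟩ else 1

theorem clE_coe (cl : (Ideal (𝓞 K))⁰ → G) (I : (Ideal (𝓞 K))⁰) :
    clE cl (I : Ideal (𝓞 K)) = cl I := by
  have h : (I : Ideal (𝓞 K)) ≠ ⊥ := nonZeroDivisors.coe_ne_zero I
  rw [clE, dif_pos h]

theorem clE_bot (cl : (Ideal (𝓞 K))⁰ → G) : clE cl (⊥ : Ideal (𝓞 K)) = 1 := by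
  rw [clE, dif_neg (by simp)]

/-- The hypotheses on a ray class datum. -/
structure IsRayDatum (𝔪 : Ideal (𝓞 K)) (cl : (Ideal (𝓞 K))⁰ → G) : Prop where
  mul : ∀ I J : (Ideal (𝓞 K))⁰, IsCoprime (I : Ideal (𝓞 K)) 𝔪 → IsCoprime (J : Ideal (𝓞 K)) 𝔪 →
    cl (I * J) = cl I * cl J
  ray : ∀ (a : 𝓞 K) (I : (Ideal (𝓞 K))⁰), (I : Ideal (𝓞 K)) = Ideal.span {a} → a - 1 ∈ 𝔪 →
    cl I = 1
  surj : ∀ g : G, ∃ I : (Ideal (𝓞 K))⁰, IsCoprime (I : Ideal (𝓞 K)) 𝔪 ∧ cl I = g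

section Congruence

variable {𝔪 : Ideal (𝓞 K)} {cl : (Ideal (𝓞 K))⁰ → G} (h : IsRayDatum 𝔪 cl)
include h

theorem clE_span_of_sub_one_mem (a : 𝓞 K) (ha : a - 1 ∈ 𝔪) : clE cl (Ideal.span {a}) = 1 := by
  by_cases h0 : Ideal.span {a} = ⊥
  · rw [h0, clE_bot]
  · rw [clE, dif_pos h0]
    exact h.ray a _ rfl ha

theorem clE_mul (I J : Ideal (𝓞 K)) (hI0 : I ≠ ⊥) (hJ0 : J ≠ ⊥) (hI : IsCoprime I 𝔪)
    (hJ : IsCoprime J 𝔪) : clE cl (I * J) = clE cl I * clE cl J := by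
  have e1 := clE_coe cl ⟨I, mem_nonZeroDivisors_of_ne_zero hI0⟩
  have e2 := clE_coe cl ⟨J, mem_nonZeroDivisors_of_ne_zero hJ0⟩
  have e3 := clE_coe cl (⟨I, mem_nonZeroDivisors_of_ne_zero hI0⟩ *
    ⟨J, mem_nonZeroDivisors_of_ne_zero hJ0⟩)
  simp only [Submonoid.coe_mul] at e1 e2 e3
  rw [e1, e2, e3]
  exact h.mul _ _ hI hJ

/-- `clE (a)` only depends on `a mod 𝔪` for `a` prime to `𝔪`. -/
theorem clE_span_congr (a b : 𝓞 K) (hab : a - b ∈ 𝔪) (hcop : IsCoprime (Ideal.span {a}) 𝔪) :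
    clE cl (Ideal.span {a}) = clE cl (Ideal.span {b}) := by
  by_cases htop : 𝔪 = ⊤
  · rw [clE_span_of_sub_one_mem h a (by rw [htop]; trivial),
      clE_span_of_sub_one_mem h b (by rw [htop]; trivial)]
  obtain ⟨i, hi, j, hj, hij⟩ := Ideal.isCoprime_iff_exists.mp hcop
  obtain ⟨γ, rfl⟩ := Ideal.mem_span_singleton'.mp hi
  have h1 : (1 : 𝓞 K) ∉ 𝔪 := fun h1 => htop ((Ideal.eq_top_iff_one 𝔪).mpr h1)
  have hγ0 : γ ≠ 0 := by
    rintro rfl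
    rw [zero_mul, zero_add] at hij
    exact h1 (hij ▸ hj)
  have ha0 : a ≠ 0 := by
    rintro rfl
    rw [mul_zero, zero_add] at hij
    exact h1 (hij ▸ hj)
  have hb0 : b ≠ 0 := by
    rintro rfl
    rw [sub_zero] at hab
    apply h1
    rw [← hij]
    exact 𝔪.add_mem (𝔪.mul_mem_left γ hab) hj
  have hγa : γ * a - 1 ∈ 𝔪 := by
    have : γ * a - 1 = -j := by rw [← hij]; ring
    rw [this]; exact 𝔪.neg_mem hj
  have hγb : γ * b - 1 ∈ 𝔪 := by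
    have : γ * b - 1 = (γ * a - 1) - γ * (a - b) := by ring
    rw [this]; exact 𝔪.sub_mem hγa (𝔪.mul_mem_left γ hab)
  have cop_of : ∀ x y : 𝓞 K, x * y - 1 ∈ 𝔪 → IsCoprime (Ideal.span {y}) 𝔪 := by
    intro x y hxy
    rw [Ideal.isCoprime_iff_exists]
    refine ⟨x * y, Ideal.mem_span_singleton'.mpr ⟨x, rfl⟩, -(x * y - 1), 𝔪.neg_mem hxy, by ring⟩
  have hcγ : IsCoprime (Ideal.span {γ}) 𝔪 := cop_of a γ (by rwa [mul_comm])
  have hcb : IsCoprime (Ideal.span {b}) 𝔪 := cop_of γ b hγb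
  have hsγ : Ideal.span {γ} ≠ (⊥ : Ideal (𝓞 K)) := by
    rwa [Ne, Ideal.span_singleton_eq_bot]
  have hsa : Ideal.span {a} ≠ (⊥ : Ideal (𝓞 K)) := by
    rwa [Ne, Ideal.span_singleton_eq_bot]
  have hsb : Ideal.span {b} ≠ (⊥ : Ideal (𝓞 K)) := by
    rwa [Ne, Ideal.span_singleton_eq_bot]
  have e1 := clE_span_of_sub_one_mem h (γ * a) hγa
  have e2 := clE_span_of_sub_one_mem h (γ * b) hγb
  rw [← Ideal.span_singleton_mul_span_singleton, clE_mul h _ _ hsγ hsa hcγ hcop] at e1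
  rw [← Ideal.span_singleton_mul_span_singleton, clE_mul h _ _ hsγ hsb hcγ hcb] at e2
  exact mul_left_cancel (e1.trans e2.symm)

omit h in
theorem isCoprime_span_sub_iff (a t : 𝓞 K) (ht : t ∈ 𝔪) :
    IsCoprime (Ideal.span {a - t}) 𝔪 ↔ IsCoprime (Ideal.span {a}) 𝔪 := by
  rw [Ideal.isCoprime_iff_sup_eq, Ideal.isCoprime_iff_sup_eq]
  have e : Ideal.span {a - t} ⊔ 𝔪 = Ideal.span {a} ⊔ 𝔪 := by
    apply le_antisymm
    · refine sup_le ((Ideal.span_singleton_le_iff_mem _).mpr ?_) le_sup_right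
      exact Ideal.sub_mem _ (Ideal.mem_sup_left (Ideal.mem_span_singleton_self a))
        (Ideal.mem_sup_right ht)
    · refine sup_le ((Ideal.span_singleton_le_iff_mem _).mpr ?_) le_sup_right
      have h2 : (a - t) + t ∈ Ideal.span {a - t} ⊔ 𝔪 :=
        Ideal.add_mem _ (Ideal.mem_sup_left (Ideal.mem_span_singleton_self _))
          (Ideal.mem_sup_right ht)
      rwa [sub_add_cancel] at h2
  rw [e]

/-- The predicate `(a) prime to 𝔪 ∧ clE (a) = x` is `𝔪`-periodic. -/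
theorem periodic (x : G) (a t : 𝓞 K) (ht : t ∈ 𝔪) :
    (IsCoprime (Ideal.span {a - t}) 𝔪 ∧ clE cl (Ideal.span {a - t}) = x) ↔
      (IsCoprime (Ideal.span {a}) 𝔪 ∧ clE cl (Ideal.span {a}) = x) := by
  constructor
  · rintro ⟨h1, h2⟩
    refine ⟨(isCoprime_span_sub_iff a t ht).mp h1, ?_⟩
    rw [← h2]
    refine (clE_span_congr h (a - t) a ?_ h1).symm
    have : a - t - a = -t := by ring
    rw [this]; exact 𝔪.neg_mem ht
  · rintro ⟨h1, h2⟩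
    refine ⟨(isCoprime_span_sub_iff a t ht).mpr h1, ?_⟩
    rw [← h2]
    refine (clE_span_congr h a (a - t) ?_ h1).symm
    have : a - (a - t) = t := by ring
    rw [this]; exact ht

end Congruence

section Main

variable {𝔪 : Ideal (𝓞 K)} {cl : (Ideal (𝓞 K))⁰ → G}

open scoped Classical in
/-- `ℝ≥0∞` version of `pz`, as a sum over all nonzero ideals with an indicator weight. -/
noncomputable def pzE (𝔪 : Ideal (𝓞 K)) (cl : (Ideal (𝓞 K))⁰ → G) (g : G) (s : ℝ) : ℝ≥0∞ :=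
  ∑' I : (Ideal (𝓞 K))⁰, (if IsCoprime (I : Ideal (𝓞 K)) 𝔪 ∧ cl I = g then 1 else 0) *
    ENNReal.ofReal (((Ideal.absNorm (I : Ideal (𝓞 K)) : ℝ)) ^ (-s))

theorem summable_pz (g : G) {s : ℝ} (hs : 1 < s) :
    Summable (fun I : {I : (Ideal (𝓞 K))⁰ // IsCoprime (I : Ideal (𝓞 K)) 𝔪 ∧ cl I = g} =>
      ((Ideal.absNorm (I.1 : Ideal (𝓞 K)) : ℝ)) ^ (-s)) :=
  (summable_zetaR K hs).subtype _

theorem pz_nonneg (g : G) (s : ℝ) : 0 ≤ pz 𝔪 cl g s :=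
  tsum_nonneg fun _ => Real.rpow_nonneg (Nat.cast_nonneg _) _

theorem pz_le_zetaR (g : G) {s : ℝ} (hs : 1 < s) : pz 𝔪 cl g s ≤ zetaR K s := by
  refine Summable.tsum_le_tsum_of_inj Subtype.val Subtype.val_injective
    (fun c _ => Real.rpow_nonneg (Nat.cast_nonneg _) _) (fun b => le_rfl)
    (summable_pz g hs) (summable_zetaR K hs)

theorem ofReal_pz (g : G) {s : ℝ} (hs : 1 < s) :
    ENNReal.ofReal (pz 𝔪 cl g s) = pzE 𝔪 cl g s := by
  classical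
  rw [pz, ENNReal.ofReal_tsum_of_nonneg (fun I => Real.rpow_nonneg (Nat.cast_nonneg _) _)
    (summable_pz g hs), pzE]
  have h1 := tsum_subtype {I : (Ideal (𝓞 K))⁰ | IsCoprime (I : Ideal (𝓞 K)) 𝔪 ∧ cl I = g}
    (fun I => ENNReal.ofReal (((Ideal.absNorm (I : Ideal (𝓞 K)) : ℝ)) ^ (-s)))
  refine h1.trans (tsum_congr fun I => ?_)
  simp only [Set.indicator_apply, Set.mem_setOf_eq]
  by_cases hI : IsCoprime (I : Ideal (𝓞 K)) 𝔪 ∧ cl I = g
  · rw [if_pos hI, if_pos hI, one_mul]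
  · rw [if_neg hI, if_neg hI, zero_mul]

open scoped Classical in
theorem pzE_eq_sum_class (g : G) (s : ℝ) :
    pzE 𝔪 cl g s = ∑ C : ClassGroup (𝓞 K),
      ∑' I : {I : (Ideal (𝓞 K))⁰ // ClassGroup.mk0 I = C},
        (if IsCoprime (I.1 : Ideal (𝓞 K)) 𝔪 ∧ cl I.1 = g then 1 else 0) *
          ENNReal.ofReal (((Ideal.absNorm (I.1 : Ideal (𝓞 K)) : ℝ)) ^ (-s)) := by
  rw [pzE, ← (Equiv.sigmaFiberEquiv (fun I : (Ideal (𝓞 K))⁰ => ClassGroup.mk0 I)).tsum_eq,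
    ENNReal.tsum_sigma', tsum_fintype]
  rfl

variable (h : IsRayDatum 𝔪 cl)
include h

theorem key_iff (J I : (Ideal (𝓞 K))⁰) (hJ : IsCoprime (J : Ideal (𝓞 K)) 𝔪) (x : G) :
    (IsCoprime ((J : Ideal (𝓞 K)) * (I : Ideal (𝓞 K))) 𝔪 ∧
      clE cl ((J : Ideal (𝓞 K)) * (I : Ideal (𝓞 K))) = x * cl J) ↔
    (IsCoprime (I : Ideal (𝓞 K)) 𝔪 ∧ cl I = x) := by
  have e : clE cl ((J : Ideal (𝓞 K)) * (I : Ideal (𝓞 K))) = cl (J * I) := by
    rw [← clE_coe cl (J * I)]; rfl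
  rw [IsCoprime.mul_left_iff, e]
  constructor
  · rintro ⟨⟨_, hI⟩, h2⟩
    refine ⟨hI, ?_⟩
    rw [h.mul J I hJ hI, mul_comm] at h2
    exact mul_right_cancel h2
  · rintro ⟨hI, rfl⟩
    exact ⟨⟨hJ, hI⟩, by rw [h.mul J I hJ hI, mul_comm]⟩

open scoped Classical in
/-- The weighted orbit identity for one ideal class. -/
theorem class_identity (C : ClassGroup (𝓞 K)) (J : (Ideal (𝓞 K))⁰)
    (hJ : ClassGroup.mk0 J = C⁻¹) (hJcop : IsCoprime (J : Ideal (𝓞 K)) 𝔪) (x : G) (s : ℝ) :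
    (torsionOrder K : ℝ≥0∞) * ∑' I : {I : (Ideal (𝓞 K))⁰ // ClassGroup.mk0 I = C},
        (if IsCoprime (I.1 : Ideal (𝓞 K)) 𝔪 ∧ cl I.1 = x then 1 else 0) *
          ENNReal.ofReal (((Ideal.absNorm (I.1 : Ideal (𝓞 K)) : ℝ)) ^ (-s)) =
      ENNReal.ofReal ((Ideal.absNorm (J : Ideal (𝓞 K)) : ℝ) ^ s) *
        ∑' a : (J : Ideal (𝓞 K)),
          (if IsCoprime (Ideal.span {(a : 𝓞 K)}) 𝔪 ∧ clE cl (Ideal.span {(a : 𝓞 K)}) = x * cl J
            then 1 else 0) * ENNReal.ofReal (Fs K s (mixedEmbedding K ((a : 𝓞 K) : K))) := by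
  rw [← torsionOrder_mul_tsum_weighted_class K
    (fun I' => if IsCoprime I' 𝔪 ∧ clE cl I' = x * cl J then 1 else 0) C J hJ s]
  congr 1
  refine tsum_congr fun I => ?_
  congr 1
  exact if_congr (key_iff h J I.1 hJcop x).symm rfl rfl

omit h in
/-- The smooth sum over the elements `a ∈ J` with `(a)` prime to `𝔪` and `clE (a) = x`. -/
noncomputable def A (𝔪 : Ideal (𝓞 K)) (cl : (Ideal (𝓞 K))⁰ → G) (s : ℝ) (J : Ideal (𝓞 K))
    (x : G) : ℝ :=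
  ∑' a : 𝓞 K, {a : 𝓞 K | a ∈ J ∧ IsCoprime (Ideal.span {a}) 𝔪 ∧
    clE cl (Ideal.span {a}) = x}.indicator (fun a => Fs K s (iota K a)) a

omit h in
theorem A_nonneg (s : ℝ) (J : Ideal (𝓞 K)) (x : G) : 0 ≤ A 𝔪 cl s J x :=
  tsum_nonneg fun a => Set.indicator_nonneg
    (fun a _ => Fermat.Agent.S14.Zeta.LipschitzC.Fs_nonneg K s _) a

omit h in
open scoped Classical in
theorem tsum_ideal_eq_ofReal_A (J : Ideal (𝓞 K)) (x : G) {s : ℝ} (hs : 1 < s) :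
    ∑' a : J, (if IsCoprime (Ideal.span {(a : 𝓞 K)}) 𝔪 ∧ clE cl (Ideal.span {(a : 𝓞 K)}) = x
        then 1 else 0) * ENNReal.ofReal (Fs K s (mixedEmbedding K ((a : 𝓞 K) : K))) =
      ENNReal.ofReal (A 𝔪 cl s J x) := by
  have hsum : Summable ({a : 𝓞 K | a ∈ J ∧ IsCoprime (Ideal.span {a}) 𝔪 ∧
      clE cl (Ideal.span {a}) = x}.indicator (fun a => Fs K s (iota K a))) :=
    (summable_Fs_iota K hs).indicator _
  rw [A, ENNReal.ofReal_tsum_of_nonneg (fun a => Set.indicator_nonneg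
    (fun a _ => Fermat.Agent.S14.Zeta.LipschitzC.Fs_nonneg K s _) a) hsum]
  have h1 := tsum_subtype (J : Set (𝓞 K)) (fun a : 𝓞 K =>
    (if IsCoprime (Ideal.span {a}) 𝔪 ∧ clE cl (Ideal.span {a}) = x then (1 : ℝ≥0∞) else 0) *
      ENNReal.ofReal (Fs K s (iota K a)))
  refine h1.trans (tsum_congr fun a => ?_)
  simp only [Set.indicator_apply, Set.mem_setOf_eq, SetLike.mem_coe]
  by_cases haJ : a ∈ J
  · by_cases hQ : IsCoprime (Ideal.span {a}) 𝔪 ∧ clE cl (Ideal.span {a}) = x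
    · rw [if_pos haJ, if_pos hQ, if_pos ⟨haJ, hQ⟩, one_mul]
    · rw [if_pos haJ, if_neg hQ, if_neg (fun h' => hQ h'.2), zero_mul, ENNReal.ofReal_zero]
  · rw [if_neg haJ, if_neg (fun h' => haJ h'.1), ENNReal.ofReal_zero]

/-- Real form of the orbit identity, summed over the ideal classes. -/
theorem torsionOrder_mul_pz (JC : ClassGroup (𝓞 K) → (Ideal (𝓞 K))⁰)
    (hJC : ∀ C, ClassGroup.mk0 (JC C) = C⁻¹) (hJCcop : ∀ C, IsCoprime (JC C : Ideal (𝓞 K)) 𝔪)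
    (g : G) {s : ℝ} (hs : 1 < s) :
    (torsionOrder K : ℝ) * pz 𝔪 cl g s =
      ∑ C, ((Ideal.absNorm (JC C : Ideal (𝓞 K)) : ℝ)) ^ s *
        A 𝔪 cl s (JC C : Ideal (𝓞 K)) (g * cl (JC C)) := by
  classical
  have hE : (torsionOrder K : ℝ≥0∞) * pzE 𝔪 cl g s =
      ∑ C, ENNReal.ofReal (((Ideal.absNorm (JC C : Ideal (𝓞 K)) : ℝ)) ^ s) *
        ENNReal.ofReal (A 𝔪 cl s (JC C : Ideal (𝓞 K)) (g * cl (JC C))) := by
    rw [pzE_eq_sum_class, Finset.mul_sum]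
    refine Finset.sum_congr rfl fun C _ => ?_
    rw [class_identity h C (JC C) (hJC C) (hJCcop C) g s, tsum_ideal_eq_ofReal_A _ _ hs]
  rw [← ofReal_pz g hs] at hE
  have hn : ∀ C, (0 : ℝ) ≤ ((Ideal.absNorm (JC C : Ideal (𝓞 K)) : ℝ)) ^ s := fun C =>
    Real.rpow_nonneg (Nat.cast_nonneg _) _
  have h2 : ENNReal.ofReal ((torsionOrder K : ℝ) * pz 𝔪 cl g s) =
      ENNReal.ofReal (∑ C, ((Ideal.absNorm (JC C : Ideal (𝓞 K)) : ℝ)) ^ s *
        A 𝔪 cl s (JC C : Ideal (𝓞 K)) (g * cl (JC C))) := by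
    rw [ENNReal.ofReal_mul (Nat.cast_nonneg _), ENNReal.ofReal_natCast, hE,
      ENNReal.ofReal_sum_of_nonneg (fun C _ => mul_nonneg (hn C) (A_nonneg _ _ _))]
    refine Finset.sum_congr rfl fun C _ => ?_
    rw [ENNReal.ofReal_mul (hn C)]
  exact (ENNReal.ofReal_eq_ofReal_iff (mul_nonneg (Nat.cast_nonneg _) (pz_nonneg _ _))
    (Finset.sum_nonneg fun C _ => mul_nonneg (hn C) (A_nonneg _ _ _))).mp h2

/-- The coset comparison: `A s J x = N(J₀) * A s (J * J₀) x + O(1)`. -/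
theorem exists_bound_A_sub (J J₀ : (Ideal (𝓞 K))⁰) (hJ₀ : IsCoprime (J₀ : Ideal (𝓞 K)) 𝔪)
    (x : G) :
    ∃ D : ℝ, ∀ s ∈ Set.Ioc (1 : ℝ) 2,
      |A 𝔪 cl s (J : Ideal (𝓞 K)) x - (Ideal.absNorm (J₀ : Ideal (𝓞 K)) : ℝ) *
        A 𝔪 cl s ((J : Ideal (𝓞 K)) * (J₀ : Ideal (𝓞 K))) x| ≤ D := by
  classical
  have hL0 : (J : Ideal (𝓞 K)) * (J₀ : Ideal (𝓞 K)) ≠ ⊥ :=
    mul_ne_zero (nonZeroDivisors.coe_ne_zero J) (nonZeroDivisors.coe_ne_zero J₀)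
  have hcov : (J : Ideal (𝓞 K)) ≤ (J : Ideal (𝓞 K)) * (J₀ : Ideal (𝓞 K)) ⊔
      ((J : Ideal (𝓞 K)) ⊓ 𝔪) := by
    have h1 : (J : Ideal (𝓞 K)) = (J : Ideal (𝓞 K)) * ((J₀ : Ideal (𝓞 K)) ⊔ 𝔪) := by
      rw [Ideal.isCoprime_iff_sup_eq.mp hJ₀, Ideal.mul_top]
    calc (J : Ideal (𝓞 K)) = (J : Ideal (𝓞 K)) * ((J₀ : Ideal (𝓞 K)) ⊔ 𝔪) := h1
      _ = (J : Ideal (𝓞 K)) * (J₀ : Ideal (𝓞 K)) ⊔ (J : Ideal (𝓞 K)) * 𝔪 := Ideal.mul_sup _ _ _
      _ ≤ _ := sup_le_sup_left Ideal.mul_le_inf _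
  obtain ⟨ι, _, t, ht, huniq, hcard⟩ := exists_coset_reps K (J : Ideal (𝓞 K))
    ((J : Ideal (𝓞 K)) * (J₀ : Ideal (𝓞 K))) 𝔪 hL0 Ideal.mul_le_left hcov
  have hcard' : (Fintype.card ι : ℝ) = (Ideal.absNorm (J₀ : Ideal (𝓞 K)) : ℝ) := by
    rw [map_mul, mul_comm] at hcard
    have hJ0 : Ideal.absNorm (J : Ideal (𝓞 K)) ≠ 0 := Ideal.absNorm_ne_zero_of_nonZeroDivisors J
    exact_mod_cast Nat.eq_of_mul_eq_mul_left (Nat.pos_of_ne_zero hJ0) hcard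
  set X₁ : Set (𝓞 K) := {a : 𝓞 K | a ∈ (J : Ideal (𝓞 K)) ∧ IsCoprime (Ideal.span {a}) 𝔪 ∧
    clE cl (Ideal.span {a}) = x} with hX₁
  set X₂ : Set (𝓞 K) := {a : 𝓞 K | a ∈ (J : Ideal (𝓞 K)) * (J₀ : Ideal (𝓞 K)) ∧
    IsCoprime (Ideal.span {a}) 𝔪 ∧ clE cl (Ideal.span {a}) = x} with hX₂
  have hdec : ∀ a : 𝓞 K, X₁.indicator (fun _ => (1 : ℝ)) a =
      ∑ i, X₂.indicator (fun _ => (1 : ℝ)) (a - t i) := by
    intro a
    by_cases haJ : a ∈ (J : Ideal (𝓞 K))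
    · obtain ⟨i₀, hi₀, hi₀u⟩ := huniq a haJ
      have hmem : ∀ i, (a - t i ∈ X₂) ↔ (i = i₀ ∧ a ∈ X₁) := by
        intro i
        simp only [hX₁, hX₂, Set.mem_setOf_eq]
        rw [periodic h x a (t i) (ht i).2]
        constructor
        · rintro ⟨h1, h2⟩
          exact ⟨hi₀u i h1, haJ, h2⟩
        · rintro ⟨rfl, _, h2⟩
          exact ⟨hi₀, h2⟩
      rw [Finset.sum_eq_single i₀]
      · simp only [Set.indicator_apply]
        by_cases ha1 : a ∈ X₁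
        · rw [if_pos ha1, if_pos ((hmem i₀).mpr ⟨rfl, ha1⟩)]
        · rw [if_neg ha1, if_neg (fun h' => ha1 ((hmem i₀).mp h').2)]
      · intro i _ hi
        rw [Set.indicator_of_notMem]
        exact fun h' => hi ((hmem i).mp h').1
      · intro h'; exact absurd (Finset.mem_univ _) h'
    · have h1 : a ∉ X₁ := fun h' => haJ h'.1
      rw [Set.indicator_of_notMem h1]
      symm
      refine Finset.sum_eq_zero fun i _ => ?_
      rw [Set.indicator_of_notMem]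
      intro h'
      apply haJ
      have h2 : a - t i ∈ (J : Ideal (𝓞 K)) := Ideal.mul_le_left h'.1
      have h3 := Ideal.add_mem _ h2 (ht i).1
      rwa [sub_add_cancel] at h3
  obtain ⟨D, hD⟩ := exists_coset_shift_bound K t X₁ X₂ hdec
  refine ⟨D, fun s hs => ?_⟩
  have := hD s hs
  rw [hcard'] at this
  exact this

omit h in
theorem zetaR_anti {u s : ℝ} (hu : 1 < u) (hus : u ≤ s) : zetaR K s ≤ zetaR K u := by
  unfold zetaR
  refine Summable.tsum_le_tsum (fun I => ?_) (summable_zetaR K (hu.trans_le hus))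
    (summable_zetaR K hu)
  apply Real.rpow_le_rpow_of_exponent_le
  · exact_mod_cast Nat.one_le_iff_ne_zero.mpr (Ideal.absNorm_ne_zero_of_nonZeroDivisors I)
  · linarith

omit h in
theorem exists_bound_sub_one_mul_zetaR :
    ∃ M : ℝ, ∀ s : ℝ, 1 < s → s ≤ 2 → (s - 1) * zetaR K s ≤ M := by
  have hev : ∀ᶠ s in 𝓝[>] (1 : ℝ), (s - 1) * zetaR K s < dedekindZeta_residue K + 1 :=
    (tendsto_sub_one_mul_zetaR K).eventually_lt_const (by linarith)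
  obtain ⟨u, hu, hsub⟩ := mem_nhdsGT_iff_exists_Ioo_subset.mp hev
  have hu1 : (1 : ℝ) < u := hu
  refine ⟨max (dedekindZeta_residue K + 1) (zetaR K u), fun s hs1 hs2 => ?_⟩
  by_cases hsu : s < u
  · exact (le_of_lt (hsub ⟨hs1, hsu⟩)).trans (le_max_left _ _)
  · rw [not_lt] at hsu
    refine le_trans ?_ (le_max_right _ _)
    have h5 := zetaR_anti (K := K) hu1 hsu
    have h0 := zetaR_nonneg K s
    calc (s - 1) * zetaR K s ≤ 1 * zetaR K s :=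
          mul_le_mul_of_nonneg_right (by linarith) h0
      _ = zetaR K s := one_mul _
      _ ≤ zetaR K u := h5

/-- **Z1 for ray class data**: the partial zeta functions of two fibres of `cl` differ by a
bounded function on `(1, 2]`. -/
theorem exists_bound_pz_sub (h𝔪 : 𝔪 ≠ ⊥) (g g' : G) :
    ∃ B : ℝ, ∀ s : ℝ, 1 < s → s ≤ 2 → |pz 𝔪 cl g s - pz 𝔪 cl g' s| ≤ B := by
  classical
  obtain ⟨J₀, hJ₀cop, hJ₀⟩ := h.surj (g'⁻¹ * g)
  have hex : ∀ C : ClassGroup (𝓞 K), ∃ J : (Ideal (𝓞 K))⁰,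
      ClassGroup.mk0 J = C⁻¹ ∧ IsCoprime (J : Ideal (𝓞 K)) 𝔪 := by
    intro C
    obtain ⟨J, hJ, hJc⟩ := Fermat.Agent.S14.MovingLemma.exists_mk0_eq_sup_eq_top C⁻¹ 𝔪 h𝔪
    exact ⟨J, hJ, Ideal.isCoprime_iff_sup_eq.mpr hJc⟩
  choose JC hJC hJCcop using hex
  let JC' : ClassGroup (𝓞 K) → (Ideal (𝓞 K))⁰ := fun C' => JC (C' * ClassGroup.mk0 J₀) * J₀
  have hJC' : ∀ C', ClassGroup.mk0 (JC' C') = C'⁻¹ := by
    intro C'
    show ClassGroup.mk0 (JC (C' * ClassGroup.mk0 J₀) * J₀) = C'⁻¹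
    rw [map_mul, hJC, mul_inv, mul_assoc, inv_mul_cancel, mul_one]
  have hJC'cop : ∀ C', IsCoprime (JC' C' : Ideal (𝓞 K)) 𝔪 := by
    intro C'
    show IsCoprime ((JC (C' * ClassGroup.mk0 J₀) * J₀ : (Ideal (𝓞 K))⁰) : Ideal (𝓞 K)) 𝔪
    rw [Submonoid.coe_mul]
    exact IsCoprime.mul_left (hJCcop _) hJ₀cop
  choose D hD using fun C => exists_bound_A_sub h (JC C) J₀ hJ₀cop (g * cl (JC C))
  obtain ⟨M, hM⟩ := exists_bound_sub_one_mul_zetaR (K := K)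
  set w : ℝ := (torsionOrder K : ℝ) with hw
  have hw0 : 0 < w := by rw [hw]; exact_mod_cast torsionOrder_pos K
  set n₀ : ℝ := (Ideal.absNorm (J₀ : Ideal (𝓞 K)) : ℝ) with hn₀
  have hn₀1 : 1 ≤ n₀ := by
    rw [hn₀]
    exact_mod_cast Nat.one_le_iff_ne_zero.mpr (Ideal.absNorm_ne_zero_of_nonZeroDivisors J₀)
  have hn₀0 : 0 < n₀ := by linarith
  let nC : ClassGroup (𝓞 K) → ℝ := fun C => (Ideal.absNorm (JC C : Ideal (𝓞 K)) : ℝ)
  have hnC1 : ∀ C, 1 ≤ nC C := fun C => by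
    show (1 : ℝ) ≤ (Ideal.absNorm (JC C : Ideal (𝓞 K)) : ℝ)
    exact_mod_cast Nat.one_le_iff_ne_zero.mpr (Ideal.absNorm_ne_zero_of_nonZeroDivisors (JC C))
  set E : ℝ := ∑ C, nC C ^ 2 * |D C| with hE
  refine ⟨E / w + (n₀ - 1) * |M|, fun s hs1 hs2 => ?_⟩
  have hsI : s ∈ Set.Ioc (1 : ℝ) 2 := ⟨hs1, hs2⟩
  have e1 := torsionOrder_mul_pz h JC hJC hJCcop g hs1
  have e2 := torsionOrder_mul_pz h JC' hJC' hJC'cop g' hs1
  have hx : ∀ C, g' * cl (JC C * J₀) = g * cl (JC C) := by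
    intro C
    rw [h.mul _ _ (hJCcop C) hJ₀cop, hJ₀, mul_left_comm (cl (JC C)), mul_inv_cancel_left,
      mul_comm]
  have e2' : w * pz 𝔪 cl g' s = ∑ C, (nC C * n₀) ^ s *
      A 𝔪 cl s ((JC C : Ideal (𝓞 K)) * (J₀ : Ideal (𝓞 K))) (g * cl (JC C)) := by
    rw [e2, ← Equiv.sum_comp (Equiv.mulRight (ClassGroup.mk0 J₀)⁻¹)]
    refine Finset.sum_congr rfl fun C _ => ?_
    show ((Ideal.absNorm ((JC (C * (ClassGroup.mk0 J₀)⁻¹ * ClassGroup.mk0 J₀) * J₀ :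
      (Ideal (𝓞 K))⁰) : Ideal (𝓞 K)) : ℝ)) ^ s *
      A 𝔪 cl s ((JC (C * (ClassGroup.mk0 J₀)⁻¹ * ClassGroup.mk0 J₀) * J₀ :
        (Ideal (𝓞 K))⁰) : Ideal (𝓞 K))
        (g' * cl (JC (C * (ClassGroup.mk0 J₀)⁻¹ * ClassGroup.mk0 J₀) * J₀)) = _
    rw [inv_mul_cancel_right, hx C, Submonoid.coe_mul, map_mul, Nat.cast_mul]
  -- notation
  set AC : ClassGroup (𝓞 K) → ℝ := fun C => A 𝔪 cl s (JC C : Ideal (𝓞 K)) (g * cl (JC C))
    with hAC
  set AC' : ClassGroup (𝓞 K) → ℝ := fun C =>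
    A 𝔪 cl s ((JC C : Ideal (𝓞 K)) * (J₀ : Ideal (𝓞 K))) (g * cl (JC C)) with hAC'
  have e1' : w * pz 𝔪 cl g s = ∑ C, nC C ^ s * AC C := e1
  have e2'' : w * pz 𝔪 cl g' s = ∑ C, (nC C * n₀) ^ s * AC' C := e2'
  set b : ℝ := n₀ ^ (1 - s) with hb
  have hb0 : 0 < b := Real.rpow_pos_of_pos hn₀0 _
  have hbn : b * n₀ ^ s = n₀ := by
    rw [hb, ← Real.rpow_add hn₀0]
    simp
  have hkey : w * pz 𝔪 cl g s - b * (w * pz 𝔪 cl g' s) =
      ∑ C, nC C ^ s * (AC C - n₀ * AC' C) := by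
    rw [e1', e2'', Finset.mul_sum, ← Finset.sum_sub_distrib]
    refine Finset.sum_congr rfl fun C _ => ?_
    rw [Real.mul_rpow (by linarith [hnC1 C]) hn₀0.le]
    have : b * (nC C ^ s * n₀ ^ s * AC' C) = nC C ^ s * ((b * n₀ ^ s) * AC' C) := by ring
    rw [this, hbn]
    ring
  have hbound : |w * pz 𝔪 cl g s - b * (w * pz 𝔪 cl g' s)| ≤ E := by
    rw [hkey, hE]
    refine (Finset.abs_sum_le_sum_abs _ _).trans (Finset.sum_le_sum fun C _ => ?_)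
    have hpow0 : 0 ≤ nC C ^ s := Real.rpow_nonneg (by linarith [hnC1 C]) _
    rw [abs_mul, abs_of_nonneg hpow0]
    have h1 : nC C ^ s ≤ nC C ^ 2 := by
      have := Real.rpow_le_rpow_of_exponent_le (hnC1 C) hs2
      rwa [Real.rpow_two] at this
    have h2 : |AC C - n₀ * AC' C| ≤ |D C| := (hD C s hsI).trans (le_abs_self _)
    exact mul_le_mul h1 h2 (abs_nonneg _) (by positivity)
  -- from `w * (x - b y)` to `x - y`
  set x := pz 𝔪 cl g s with hx'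
  set y := pz 𝔪 cl g' s with hy'
  have hy0 : 0 ≤ y := pz_nonneg _ _
  have hyz : y ≤ zetaR K s := pz_le_zetaR _ hs1
  have h3 : |x - b * y| ≤ E / w := by
    have : w * x - b * (w * y) = w * (x - b * y) := by ring
    rw [this, abs_mul, abs_of_pos hw0] at hbound
    rw [le_div_iff₀ hw0, mul_comm]
    exact hbound
  -- `1 - b ≤ (s - 1) * (n₀ - 1)`
  set a : ℝ := n₀ ^ (s - 1) with ha
  have ha1 : 1 ≤ a := Real.one_le_rpow hn₀1 (by linarith)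
  have hab : a - 1 ≤ (s - 1) * (n₀ - 1) := by
    have := rpow_one_add_le_one_add_mul_self (s := n₀ - 1) (by linarith) (p := s - 1)
      (by linarith) (by linarith)
    rw [show 1 + (n₀ - 1) = n₀ by ring] at this
    linarith
  have hba : b = a⁻¹ := by
    rw [hb, ha, ← Real.rpow_neg hn₀0.le]
    congr 1; ring
  have hb1 : 1 - b ≤ (s - 1) * (n₀ - 1) := by
    have ha0 : 0 < a := by linarith
    have : 1 - b = (a - 1) / a := by rw [hba]; field_simp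
    rw [this]
    calc (a - 1) / a ≤ (a - 1) / 1 := by
          apply div_le_div_of_nonneg_left (by linarith) one_pos ha1
      _ = a - 1 := div_one _
      _ ≤ _ := hab
  have hb1' : 0 ≤ 1 - b := by
    rw [hba]
    have : a⁻¹ ≤ 1 := inv_le_one_of_one_le₀ ha1
    linarith
  have h4 : (1 - b) * y ≤ (n₀ - 1) * |M| := by
    calc (1 - b) * y ≤ ((s - 1) * (n₀ - 1)) * zetaR K s := by
          apply mul_le_mul hb1 hyz hy0
          exact mul_nonneg (by linarith) (by linarith)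
      _ = (n₀ - 1) * ((s - 1) * zetaR K s) := by ring
      _ ≤ (n₀ - 1) * |M| := by
          apply mul_le_mul_of_nonneg_left ((hM s hs1 hs2).trans (le_abs_self _))
          linarith
  calc |x - y| = |(x - b * y) - (1 - b) * y| := by ring_nf
    _ ≤ |x - b * y| + |(1 - b) * y| := abs_sub _ _
    _ = |x - b * y| + (1 - b) * y := by rw [abs_of_nonneg (mul_nonneg hb1' hy0)]
    _ ≤ E / w + (n₀ - 1) * |M| := add_le_add h3 h4

end Main

end Fermat.Agent.S55.Global.RayZeta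



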