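/-
S55 / Global / second inequality (helper2): (Z1-ray) for the universal ray class map, and the
unconditional second inequality in consumer form.
-/
import Mathlib
import Fermat.Agent.S55.Global.RayZeta
import Fermat.Agent.S55.Global.RaySecondIneq

set_option autoImplicit false

namespace Fermat.Agent.S55.Global.RayZ1Proof

open NumberField IsDedekindDomain Ideal nonZeroDivisors
open Fermat.Agent.S14.EulerIdeal
open Fermat.Agent.S55.Global

variable {E : Type*} [Field E] [NumberField E] (m : Ideal (𝓞 E)) [hm : Fact (m ≠ ⊥)]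

/-- The universal ray class map is a ray datum. -/
theorem isRayDatum_cl : RayZeta.IsRayDatum m (fun I => RayClass.cl m I) where
  mul I J _ _ := map_mul _ I J
  ray a I hI ha := by
    have ha0 : a ≠ 0 := by
      rintro rfl
      have := nonZeroDivisors.coe_ne_zero I
      rw [hI] at this
      simp at this
    have h1 := RayClass.cl_span_eq_one m ha0 ha
    have h2 : I = ⟨span {a}, mem_nonZeroDivisors_iff_ne_zero.mpr (by simpa using ha0)⟩ :=
      Subtype.ext hI
    rw [h2]
    exact h1
  surj g := RayClass.cl_surjective_on_coprime m g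

/-- **(Z1-ray)**, unconditionally. -/
theorem rayZ1 : RaySecondIneq.RayZ1 m :=
  RaySecondIneq.rayZ1_of_pzCop m
    (fun g g' => RayZeta.exists_bound_pz_sub (isRayDatum_cl m) hm.out g g')

end Fermat.Agent.S55.Global.RayZ1Proof

namespace Fermat.Agent.S55.Global

open NumberField IsDedekindDomain Ideal nonZeroDivisors
open Fermat.Agent.S14.EulerIdeal
open Fermat.Agent.S55.Global.RaySecondIneq

/-- **The second inequality of global class field theory, ray class form (unconditional).**
`E'/E` number fields, `m ≠ ⊥` an ideal of `𝓞 E`, `φ` a map from the nonzero ideals of `E` to a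
commutative group `G` which is multiplicative on ideals prime to `m`, trivial on `(a)` for
`a ≡ 1 mod m`, surjective on ideals prime to `m`, and trivial on `w ∩ 𝓞 E` for every prime `w` of
`E'` of relative degree one and norm `> N0`.  Then `G` is finite of order at most `[E' : E]`. -/
theorem raySecondIneq {E : Type*} [Field E] [NumberField E] {E' : Type*} [Field E']
    [NumberField E'] [Algebra E E'] (m : Ideal (𝓞 E)) (hm : m ≠ ⊥) {G : Type*} [CommGroup G]
    (φ : (Ideal (𝓞 E))⁰ → G) (hmul : MulOnCoprime m φ) (hray : TrivialOnRay m φ)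
    (hsurj : SurjOnCoprime m φ) (N0 : ℕ)
    (hnorm : ∀ w : HeightOneSpectrum (𝓞 E'), N0 < absNorm w.asIdeal →
      w.asIdeal.inertiaDeg (𝓞 E) = 1 → φ (pr (w.under (𝓞 E))) = 1) :
    Finite G ∧ Nat.card G ≤ Module.finrank E E' :=
  haveI : Fact (m ≠ ⊥) := ⟨hm⟩
  card_le_finrank_of_absNorm_lt (RayZ1Proof.rayZ1 m) hmul hray hsurj N0 hnorm

/-- Variant with an arbitrary finite exceptional set of primes of `E'`. -/
theorem raySecondIneq' {E : Type*} [Field E] [NumberField E] {E' : Type*} [Field E']
    [NumberField E'] [Algebra E E'] (m : Ideal (𝓞 E)) (hm : m ≠ ⊥) {G : Type*} [CommGroup G]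
    (φ : (Ideal (𝓞 E))⁰ → G) (hmul : MulOnCoprime m φ) (hray : TrivialOnRay m φ)
    (hsurj : SurjOnCoprime m φ) (T₀ : Finset (HeightOneSpectrum (𝓞 E')))
    (hnorm : ∀ w : HeightOneSpectrum (𝓞 E'), w ∉ T₀ → w.asIdeal.inertiaDeg (𝓞 E) = 1 →
      φ (pr (w.under (𝓞 E))) = 1) :
    Finite G ∧ Nat.card G ≤ Module.finrank E E' :=
  haveI : Fact (m ≠ ⊥) := ⟨hm⟩
  card_le_finrank (RayZ1Proof.rayZ1 m) hmul hray hsurj T₀ hnorm

end Fermat.Agent.S55.Global
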