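import Mathlib
import Fermat.Agent.S55.Global.RayZ1Proof
import Fermat.Agent.S55.Global.RaySecondIneqProp

/-!
# The ray class second inequality: unconditional closed statement

`raySecondIneq : RaySecondIneqProp.RaySecondIneq` — the closed `Prop` consumed by the global class
formation block (absolute-degree-one hypothesis), now without any hypothesis.
-/

set_option autoImplicit false

namespace Fermat.Agent.S55.Global.RaySecondIneqFinal

open Fermat.Agent.S55.Global.RaySecondIneqProp

/-- (Z1-ray) holds for all number fields and all nonzero moduli. -/
theorem rayZ1All : RayZ1All := fun _ _ _ m _ => Fermat.Agent.S55.Global.RayZ1Proof.rayZ1 m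

/-- **The ray class second inequality** (closed `Prop`, unconditional). -/
theorem raySecondIneq : RaySecondIneq := raySecondIneq_of_rayZ1 rayZ1All

end Fermat.Agent.S55.Global.RaySecondIneqFinal
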