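import Mathlib
import Fermat.Agent.S55.Global.RaySecondIneqFinal

/-!
# The ideal-theoretic half of the bridge "ray class second inequality ⇒ `T`-idele norm index"

Abstract statement.  `L/K` number fields, `T` a finite set of primes of `K`, `m` a nonzero ideal of
`𝓞 K` supported on `T`, `X` a commutative group and `δ : Kˣ →* X` such that
* `δ` kills the `T`-units (`hunit`, in ideal form),
* `δ` kills the integers `a ≡ 1 mod m` (`hray`),
* `δ` is surjective (`hsurj`),
* `δ` kills the norms from `Lˣ` (`hnorm`),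
and `Cl_T(K) = Cl_T(L) = 1` (`hClK`, `hClL`).  Then `X` is finite and `card X ≤ [L : K]`.

For `X = K_Tˣ ⧸ (E_{K,T} · N J_{L,T})` and `δ` the class of the diagonal image this is the second
inequality for the `T`-idele class module.
-/

set_option autoImplicit false
set_option linter.unusedSectionVars false

namespace Fermat.Agent.S55.Global.Bridge2Abs

open NumberField IsDedekindDomain Ideal nonZeroDivisors UniqueFactorizationMonoid
open Fermat.Agent.S14.EulerIdeal
open Fermat.Agent.S55.Global.RayClass Fermat.Agent.S55.Global.RaySecondIneq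

section Supp

variable (K : Type*) [Field K] [NumberField K]
variable (E : Type*) [Field E] [NumberField E] [Algebra K E]

/-- A nonzero ideal of `𝓞 E` all of whose prime factors lie above places in `T`
(same body as `Blocks.SupportedAbove`). -/
def SuppAbove (T : Finset (HeightOneSpectrum (𝓞 K))) (J : Ideal (𝓞 E)) : Prop :=
  J ≠ ⊥ ∧ ∀ P : Ideal (𝓞 E), P.IsPrime → J ≤ P →
    ∃ v ∈ T, P.under (𝓞 K) = (v : HeightOneSpectrum (𝓞 K)).asIdeal

variable {K E} {T : Finset (HeightOneSpectrum (𝓞 K))}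

lemma suppAbove_top : SuppAbove K E T (⊤ : Ideal (𝓞 E)) := by
  refine ⟨top_ne_bot, fun P hP hle => ?_⟩
  exact absurd (top_le_iff.mp hle) hP.ne_top

lemma suppAbove_mul {J J' : Ideal (𝓞 E)} (h : SuppAbove K E T J) (h' : SuppAbove K E T J') :
    SuppAbove K E T (J * J') := by
  refine ⟨?_, fun P hP hle => ?_⟩
  · rw [Ne, ← Ideal.zero_eq_bot, mul_eq_zero, not_or]
    exact ⟨h.1, h'.1⟩
  · rcases hP.mul_le.mp hle with h1 | h1
    · exact h.2 P hP h1
    · exact h'.2 P hP h1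

lemma under_self (P : Ideal (𝓞 K)) :
    @Ideal.under (𝓞 K) _ (𝓞 K) _ (NumberField.inst_ringOfIntegersAlgebra K K) P = P := by
  ext x
  rw [Ideal.under_def, Ideal.mem_comap]
  have : @algebraMap (𝓞 K) (𝓞 K) _ _ (NumberField.inst_ringOfIntegersAlgebra K K) x = x := rfl
  rw [this]

end Supp

section Split

variable {K : Type*} [Field K] [NumberField K] {T : Finset (HeightOneSpectrum (𝓞 K))}

/-- Every nonzero ideal is the product of a `T`-supported ideal and an ideal coprime to any `m`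
supported on `T`. -/
lemma exists_split (m : Ideal (𝓞 K))
    (hmT : ∀ v : HeightOneSpectrum (𝓞 K), v.asIdeal ∣ m → v ∈ T)
    (I : Ideal (𝓞 K)) (hI : I ≠ ⊥) :
    ∃ I₁ I₂ : Ideal (𝓞 K), I = I₁ * I₂ ∧ SuppAbove K K T I₁ ∧ I₂ ≠ ⊥ ∧ IsCoprime I₂ m := by
  classical
  set F := normalizedFactors I with hF
  set p : Ideal (𝓞 K) → Prop := fun P => ∃ v ∈ T, P = (v : HeightOneSpectrum (𝓞 K)).asIdeal
    with hp
  have hprime : ∀ Q ∈ F, Prime Q := fun Q hQ => prime_of_normalized_factor Q hQ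
  have hne0 : ∀ s : Multiset (Ideal (𝓞 K)), (∀ Q ∈ s, Q ∈ F) → s.prod ≠ ⊥ := by
    intro s hs
    rw [Ne, ← Ideal.zero_eq_bot]
    apply Multiset.prod_ne_zero
    intro h0
    exact (hprime 0 (hs 0 h0)).ne_zero rfl
  refine ⟨(F.filter p).prod, (F.filter (fun Q => ¬ p Q)).prod, ?_, ⟨?_, ?_⟩, ?_, ?_⟩
  · rw [← Multiset.prod_add, Multiset.filter_add_not, hF,
      Ideal.prod_normalizedFactors_eq_self hI]
  · exact hne0 _ (fun Q hQ => (Multiset.mem_filter.mp hQ).1)
  · intro P hP hle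
    obtain ⟨Q, hQ, hQP⟩ := hP.multiset_prod_le.mp hle
    obtain ⟨hQF, v, hvT, rfl⟩ := Multiset.mem_filter.mp hQ
    have : v.asIdeal = P := v.isMaximal.eq_of_le hP.ne_top hQP
    exact ⟨v, hvT, by rw [under_self, this]⟩
  · exact hne0 _ (fun Q hQ => (Multiset.mem_filter.mp hQ).1)
  · rw [Ideal.isCoprime_iff_sup_eq]
    by_contra hne
    obtain ⟨M, hM, hle⟩ := Ideal.exists_le_maximal _ hne
    obtain ⟨Q, hQ, hQM⟩ := hM.isPrime.multiset_prod_le.mp (le_sup_left.trans hle)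
    obtain ⟨hQF, hQp⟩ := Multiset.mem_filter.mp hQ
    have hQprime : Prime Q := hprime Q hQF
    have hQ0 : Q ≠ ⊥ := hQprime.ne_zero
    have hQmax : Q.IsMaximal := (Ideal.isPrime_of_prime hQprime).isMaximal hQ0
    have hQM' : Q = M := hQmax.eq_of_le hM.ne_top hQM
    let v : HeightOneSpectrum (𝓞 K) := ⟨Q, Ideal.isPrime_of_prime hQprime, hQ0⟩
    have hvm : v.asIdeal ∣ m := by
      rw [Ideal.dvd_iff_le]
      show m ≤ Q
      rw [hQM']
      exact le_sup_right.trans hle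
    exact hQp ⟨v, hmT v hvm, rfl⟩

end Split

section RelNorm

variable {K : Type*} [Field K] [NumberField K] {L : Type*} [Field L] [NumberField L] [Algebra K L]
variable {T : Finset (HeightOneSpectrum (𝓞 K))}

/-- The relative norm of an ideal supported above `T` is supported on `T`. -/
lemma suppAbove_relNorm {J : Ideal (𝓞 L)} (h : SuppAbove K L T J) :
    SuppAbove K K T (Ideal.relNorm (𝓞 K) J) := by
  classical
  refine ⟨?_, fun P hP hle => ?_⟩
  · rw [Ne, Ideal.relNorm_eq_bot_iff]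
    exact h.1
  · have hJ0 : J ≠ 0 := h.1
    rw [← Ideal.prod_normalizedFactors_eq_self h.1, map_multiset_prod] at hle
    obtain ⟨N, hN, hNP⟩ := hP.multiset_prod_le.mp hle
    obtain ⟨Q, hQ, rfl⟩ := Multiset.mem_map.mp hN
    have hQprime : Prime Q := prime_of_normalized_factor Q hQ
    have hQ0 : Q ≠ ⊥ := hQprime.ne_zero
    have hQP : Q.IsPrime := Ideal.isPrime_of_prime hQprime
    have hQmax : Q.IsMaximal := hQP.isMaximal hQ0
    have hJQ : J ≤ Q := Ideal.dvd_iff_le.mp (dvd_of_mem_normalizedFactors hQ)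
    obtain ⟨v, hvT, hv⟩ := h.2 Q hQP hJQ
    have hlies : Q.LiesOver v.asIdeal := ⟨hv.symm⟩
    have hvmax : v.asIdeal.IsMaximal := v.isMaximal
    rw [Ideal.relNorm_eq_pow_of_isMaximal Q v.asIdeal] at hNP
    have hvP : v.asIdeal ≤ P := hP.le_of_pow_le hNP
    have : v.asIdeal = P := hvmax.eq_of_le hP.ne_top hvP
    exact ⟨v, hvT, by rw [under_self, this]⟩

end RelNorm

section Main

variable {K : Type*} [Field K] [NumberField K] {L : Type*} [Field L] [NumberField L] [Algebra K L]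
variable (T : Finset (HeightOneSpectrum (𝓞 K)))
variable {X : Type*} [CommGroup X] (δ : Kˣ →* X)

/-- A nonzero integer as a unit of the field. -/
noncomputable def toU (a : 𝓞 K) (ha : a ≠ 0) : Kˣ :=
  Units.mk0 (a : K) (by simpa using ha)

@[simp] lemma coe_toU (a : 𝓞 K) (ha : a ≠ 0) : ((toU a ha : Kˣ) : K) = (a : K) := rfl

lemma toU_mul (a b : 𝓞 K) (ha : a ≠ 0) (hb : b ≠ 0) :
    toU (a * b) (mul_ne_zero ha hb) = toU a ha * toU b hb := by
  apply Units.ext
  simp

lemma toU_one : toU (1 : 𝓞 K) one_ne_zero = 1 := by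
  apply Units.ext
  simp

/-- `δ` kills the `T`-units (ideal-theoretic form). -/
def KillsTUnits : Prop :=
  ∀ (x y : 𝓞 K) (hx : x ≠ 0) (hy : y ≠ 0) (J J' : Ideal (𝓞 K)), SuppAbove K K T J →
    SuppAbove K K T J' → span {x} * J = span {y} * J' → δ (toU x hx / toU y hy) = 1

/-- `Cl_T = 1`: every nonzero ideal is principal up to ideals supported above `T`. -/
def ClTrivial (E : Type*) [Field E] [NumberField E] [Algebra K E] : Prop :=
  ∀ I : Ideal (𝓞 E), I ≠ ⊥ → ∃ (a b : 𝓞 E) (J J' : Ideal (𝓞 E)), a ≠ 0 ∧ b ≠ 0 ∧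
    SuppAbove K E T J ∧ SuppAbove K E T J' ∧ span {a} * I * J = span {b} * J'

/-- `x` is the value of `δ` on a generator of `I` modulo `T`-supported ideals. -/
def Rep (I : Ideal (𝓞 K)) (x : X) : Prop :=
  ∃ (a b : 𝓞 K) (ha : a ≠ 0) (hb : b ≠ 0) (J J' : Ideal (𝓞 K)), SuppAbove K K T J ∧
    SuppAbove K K T J' ∧ span {a} * I * J = span {b} * J' ∧ x = δ (toU b hb / toU a ha)

variable {T δ}

lemma rep_unique (hunit : KillsTUnits T δ) {I : Ideal (𝓞 K)} (hI : I ≠ ⊥) {x y : X}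
    (hx : Rep T δ I x) (hy : Rep T δ I y) : x = y := by
  obtain ⟨a, b, ha, hb, J, J', hJ, hJ', h, rfl⟩ := hx
  obtain ⟨a', b', ha', hb', J₁, J₁', hJ₁, hJ₁', h', rfl⟩ := hy
  have hI0 : I ≠ 0 := hI
  have key : span {a * b'} * (J * J₁') = span {a' * b} * (J₁ * J') := by
    have e1 : I * (span {a * b'} * (J * J₁')) = (span {a} * I * J) * (span {b'} * J₁') := by
      rw [← span_singleton_mul_span_singleton]; ring
    have e2 : I * (span {a' * b} * (J₁ * J')) = (span {a'} * I * J₁) * (span {b} * J') := by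
      rw [← span_singleton_mul_span_singleton]; ring
    apply mul_left_cancel₀ hI0
    rw [e1, e2, h, h']
    ring
  have h1 := hunit (a * b') (a' * b) (mul_ne_zero ha hb') (mul_ne_zero ha' hb) _ _
    (suppAbove_mul hJ hJ₁') (suppAbove_mul hJ₁ hJ') key
  have h2 : toU b hb / toU a ha =
      (toU b' hb' / toU a' ha') * (toU (a * b') (mul_ne_zero ha hb') /
        toU (a' * b) (mul_ne_zero ha' hb))⁻¹ := by
    have ha0 : (a : K) ≠ 0 := RingOfIntegers.coe_ne_zero_iff.mpr ha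
    have hb0 : (b : K) ≠ 0 := RingOfIntegers.coe_ne_zero_iff.mpr hb
    have ha0' : (a' : K) ≠ 0 := RingOfIntegers.coe_ne_zero_iff.mpr ha'
    have hb0' : (b' : K) ≠ 0 := RingOfIntegers.coe_ne_zero_iff.mpr hb'
    apply Units.ext
    simp only [Units.val_div_eq_div_val, Units.val_mul, Units.val_inv_eq_inv_val, coe_toU,
      map_mul]
    field_simp
  rw [h2, map_mul, map_inv, h1, inv_one, mul_one]

lemma rep_mul {I I' : Ideal (𝓞 K)} {x y : X} (hx : Rep T δ I x) (hy : Rep T δ I' y) :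
    Rep T δ (I * I') (x * y) := by
  obtain ⟨a, b, ha, hb, J, J', hJ, hJ', h, rfl⟩ := hx
  obtain ⟨a', b', ha', hb', J₁, J₁', hJ₁, hJ₁', h', rfl⟩ := hy
  refine ⟨a * a', b * b', mul_ne_zero ha ha', mul_ne_zero hb hb', J * J₁, J' * J₁',
    suppAbove_mul hJ hJ₁, suppAbove_mul hJ' hJ₁', ?_, ?_⟩
  · calc span {a * a'} * (I * I') * (J * J₁)
        = (span {a} * I * J) * (span {a'} * I' * J₁) := by
          rw [← span_singleton_mul_span_singleton]; ring
      _ = (span {b} * J') * (span {b'} * J₁') := by rw [h, h']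
      _ = span {b * b'} * (J' * J₁') := by
          rw [← span_singleton_mul_span_singleton]; ring
  · rw [← map_mul, toU_mul, toU_mul]
    congr 1
    rw [div_mul_div_comm]

lemma rep_exists (hClK : ClTrivial (K := K) T K) {I : Ideal (𝓞 K)} (hI : I ≠ ⊥) :
    ∃ x : X, Rep T δ I x := by
  obtain ⟨a, b, J, J', ha, hb, hJ, hJ', h⟩ := hClK I hI
  exact ⟨_, a, b, ha, hb, J, J', hJ, hJ', h, rfl⟩

variable (T δ) in
/-- The class map on nonzero ideals induced by `δ`. -/
noncomputable def phi (hClK : ClTrivial (K := K) T K) (I : (Ideal (𝓞 K))⁰) : X :=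
  (rep_exists (δ := δ) hClK (I := (I : Ideal (𝓞 K))) (nonZeroDivisors.coe_ne_zero I)).choose

lemma rep_phi (hClK : ClTrivial (K := K) T K) (I : (Ideal (𝓞 K))⁰) :
    Rep T δ (I : Ideal (𝓞 K)) (phi T δ hClK I) :=
  (rep_exists (δ := δ) hClK (I := (I : Ideal (𝓞 K))) (nonZeroDivisors.coe_ne_zero I)).choose_spec

lemma phi_eq (hunit : KillsTUnits T δ) (hClK : ClTrivial (K := K) T K) (I : (Ideal (𝓞 K))⁰)
    {x : X} (hx : Rep T δ (I : Ideal (𝓞 K)) x) : phi T δ hClK I = x :=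
  rep_unique hunit (nonZeroDivisors.coe_ne_zero I) (rep_phi hClK I) hx

lemma phi_mul (hunit : KillsTUnits T δ) (hClK : ClTrivial (K := K) T K) (I J : (Ideal (𝓞 K))⁰) :
    phi T δ hClK (I * J) = phi T δ hClK I * phi T δ hClK J := by
  apply phi_eq hunit hClK
  rw [Submonoid.coe_mul]
  exact rep_mul (rep_phi hClK I) (rep_phi hClK J)

/-- The value of `phi` on an ideal which is principal up to a `T`-supported factor. -/
lemma phi_of_mul_eq_span (hunit : KillsTUnits T δ) (hClK : ClTrivial (K := K) T K)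
    (I : (Ideal (𝓞 K))⁰) (c : 𝓞 K) (hc : c ≠ 0) (J : Ideal (𝓞 K)) (hJ : SuppAbove K K T J)
    (h : J * (I : Ideal (𝓞 K)) = span {c}) : phi T δ hClK I = δ (toU c hc) := by
  apply phi_eq hunit hClK
  refine ⟨1, c, one_ne_zero, hc, J, ⊤, hJ, suppAbove_top, ?_, ?_⟩
  · rw [Ideal.span_singleton_one, Ideal.top_mul, Ideal.mul_top, mul_comm, h]
  · rw [toU_one, div_one]

end Main

section Final

variable {K : Type*} [Field K] [NumberField K] {L : Type*} [Field L] [NumberField L] [Algebra K L]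
variable (T : Finset (HeightOneSpectrum (𝓞 K))) (m : Ideal (𝓞 K))
variable {X : Type*} [CommGroup X] (δ : Kˣ →* X)

/-- **Abstract bridge from the ray class second inequality to a norm index bound.** -/
theorem card_le_finrank_of_delta (hm : m ≠ ⊥)
    (hmT : ∀ v : HeightOneSpectrum (𝓞 K), v.asIdeal ∣ m → v ∈ T)
    (hunit : KillsTUnits T δ)
    (hray : ∀ (a : 𝓞 K) (ha : a ≠ 0), a - 1 ∈ m → δ (toU a ha) = 1)
    (hsurj : Function.Surjective δ)
    (hnorm : ∀ b : Lˣ, δ (Units.map (Algebra.norm K : L →* K) b) = 1)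
    (hClK : ClTrivial (K := K) T K) (hClL : ClTrivial (K := K) T L) :
    Finite X ∧ Nat.card X ≤ Module.finrank K L := by
  classical
  have : Fact (m ≠ ⊥) := ⟨hm⟩
  set φ := phi T δ hClK with hφ
  have hmul : MulOnCoprime m φ := fun I J _ _ => phi_mul hunit hClK I J
  have hrayφ : TrivialOnRay m φ := by
    intro a ha h1
    rw [hφ, phi_of_mul_eq_span hunit hClK (spanNZ a ha) a ha ⊤ suppAbove_top
      (by rw [Ideal.top_mul]; rfl)]
    exact hray a ha h1
  have hprinc : ∀ (c : 𝓞 K) (hc : c ≠ 0), ∃ I : (Ideal (𝓞 K))⁰,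
      IsCoprime (I : Ideal (𝓞 K)) m ∧ φ I = δ (toU c hc) := by
    intro c hc
    obtain ⟨I₁, I₂, hsplit, hI₁, hI₂0, hI₂c⟩ :=
      exists_split m hmT (span {c}) (by simpa using hc)
    refine ⟨⟨I₂, mem_nonZeroDivisors_iff_ne_zero.mpr hI₂0⟩, hI₂c, ?_⟩
    exact phi_of_mul_eq_span hunit hClK _ c hc I₁ hI₁ hsplit.symm
  have hsurjφ : SurjOnCoprime m φ := by
    intro g
    obtain ⟨u, rfl⟩ := hsurj g
    obtain ⟨b, a, ha, hba⟩ := IsFractionRing.div_surjective (A := 𝓞 K) (u : K)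
    have ha0 : a ≠ 0 := mem_nonZeroDivisors_iff_ne_zero.mp ha
    have hb0 : b ≠ 0 := by
      rintro rfl
      rw [map_zero, zero_div] at hba
      exact u.ne_zero hba.symm
    have hu : u = toU b hb0 / toU a ha0 := by
      apply Units.ext
      rw [Units.val_div_eq_div_val]
      exact hba.symm
    obtain ⟨B, hBc, hB⟩ := hprinc b hb0
    obtain ⟨A, hAc, hA⟩ := hprinc a ha0
    set ψ := liftRay hmul hrayφ with hψ
    have hBr : φ B ∈ ψ.range := ⟨mk m ⟨B, hBc⟩, liftRay_mk hmul hrayφ _⟩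
    have hAr : φ A ∈ ψ.range := ⟨mk m ⟨A, hAc⟩, liftRay_mk hmul hrayφ _⟩
    have hmem : δ u ∈ ψ.range := by
      rw [hu, map_div, ← hB, ← hA]
      exact ψ.range.div_mem hBr hAr
    obtain ⟨c, hc⟩ := hmem
    obtain ⟨I, rfl⟩ := mk_surjective m c
    exact ⟨I, I.2, by rw [← hc, hψ, liftRay_mk]⟩
  refine Fermat.Agent.S55.Global.raySecondIneq' (E' := L) m hm φ hmul hrayφ hsurjφ ∅
    (fun w _ hdeg => ?_)
  obtain ⟨a, b, J, J', ha, hb, hJ, hJ', h⟩ := hClL w.asIdeal w.ne_bot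
  have hlies : w.asIdeal.LiesOver (w.under (𝓞 K)).asIdeal := ⟨rfl⟩
  have hwmax : w.asIdeal.IsMaximal := w.isMaximal
  have hvmax : (w.under (𝓞 K)).asIdeal.IsMaximal := (w.under (𝓞 K)).isMaximal
  have hN := congrArg (Ideal.relNorm (𝓞 K)) h
  rw [map_mul, map_mul, map_mul, Ideal.relNorm_singleton, Ideal.relNorm_singleton,
    Ideal.relNorm_eq_pow_of_isMaximal w.asIdeal (w.under (𝓞 K)).asIdeal, hdeg, pow_one] at hN
  have hNa : Algebra.intNorm (𝓞 K) (𝓞 L) a ≠ 0 := Algebra.intNorm_ne_zero.mpr ha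
  have hNb : Algebra.intNorm (𝓞 K) (𝓞 L) b ≠ 0 := Algebra.intNorm_ne_zero.mpr hb
  rw [hφ]
  apply phi_eq hunit hClK
  refine ⟨_, _, hNa, hNb, _, _, suppAbove_relNorm hJ, suppAbove_relNorm hJ', ?_, ?_⟩
  · rw [pr_coe]
    exact hN
  · have hunits : toU (Algebra.intNorm (𝓞 K) (𝓞 L) b) hNb / toU (Algebra.intNorm (𝓞 K) (𝓞 L) a) hNa
        = Units.map (Algebra.norm K : L →* K) (toU b hb / toU a ha) := by
      apply Units.ext
      rw [Units.val_div_eq_div_val, Units.coe_map, Units.val_div_eq_div_val]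
      simp only [coe_toU]
      have e1 : ((Algebra.intNorm (𝓞 K) (𝓞 L) b : 𝓞 K) : K) = Algebra.norm K (b : L) :=
        Algebra.algebraMap_intNorm (A := 𝓞 K) (B := 𝓞 L) (K := K) (L := L) b
      have e2 : ((Algebra.intNorm (𝓞 K) (𝓞 L) a : 𝓞 K) : K) = Algebra.norm K (a : L) :=
        Algebra.algebraMap_intNorm (A := 𝓞 K) (B := 𝓞 L) (K := K) (L := L) a
      rw [e1, e2]
      rw [div_eq_mul_inv, div_eq_mul_inv, map_mul, Algebra.norm_inv]
    rw [hunits, hnorm]

end Final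

end Fermat.Agent.S55.Global.Bridge2Abs
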