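import Mathlib
import Fermat.Agent.S55.Global.Blocks2
import Fermat.Agent.S55.Global.Bridge2Abs

/-!
# `Bridge2Abs` in the `ℚ`-based vocabulary of `Blocks2` (interface v3)

`T : Finset Nat.Primes` is a finite set of RATIONAL primes; ideals are `SupportedAboveQ E T`
(all prime factors contain some `q ∈ T`).  We convert to the `K`-place vocabulary of
`Bridge2Abs` with `T_K :=` the primes of `K` containing some `q ∈ T`.

Main result `card_le_finrank_of_deltaQ`: for `δ : Kˣ →* X` killing `T`-units, integers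
`≡ 1 mod m` (`m` supported above `T`), norms from `Lˣ`, surjective, and `AdmissibleQ K L p T`
(only `principal` is used): `X` is finite and `card X ≤ [L : K]`.
-/

set_option autoImplicit false
set_option linter.unusedSectionVars false

namespace Fermat.Agent.S55.Global.Bridge2AbsQ

open NumberField IsDedekindDomain Ideal
open Fermat.Agent.S55.Global.Objects Fermat.Agent.S55.Global.Objects2
open Fermat.Agent.S55.Global.Blocks2 Fermat.Agent.S55.Global.Bridge2Abs

section TK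

variable (K : Type) [Field K] [NumberField K] (T : Finset Nat.Primes)

/-- The product of the primes in `T`. -/
def prodT : ℕ := ∏ q ∈ T, ((q : Nat.Primes) : ℕ)

lemma prodT_ne_zero : prodT T ≠ 0 :=
  Finset.prod_ne_zero_iff.mpr (fun q _ => q.2.ne_zero)

lemma span_prodT_ne_bot : (span {((prodT T : ℕ) : 𝓞 K)} : Ideal (𝓞 K)) ≠ ⊥ := by
  rw [Ne, span_singleton_eq_bot]
  exact_mod_cast prodT_ne_zero T

/-- The primes of `K` above `T`. -/
noncomputable def TK : Finset (HeightOneSpectrum (𝓞 K)) :=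
  (Ideal.finite_factors (span_prodT_ne_bot K T)).toFinset

variable {K T}

lemma mem_TK {v : HeightOneSpectrum (𝓞 K)} :
    v ∈ TK K T ↔ ∃ q ∈ T, (((q : Nat.Primes) : ℕ) : 𝓞 K) ∈ v.asIdeal := by
  have hv : v.asIdeal.IsPrime := v.isPrime
  rw [TK, Set.Finite.mem_toFinset, Set.mem_ofPred_eq, Ideal.dvd_span_singleton, prodT,
    Nat.cast_prod, Ideal.IsPrime.prod_mem_iff]

end TK

section Conv

variable {K : Type} [Field K] [NumberField K] {L : Type} [Field L] [NumberField L] [Algebra K L]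
variable {T : Finset Nat.Primes}

lemma natCast_ne_zero_of_mem (E : Type) [Field E] [NumberField E] (q : Nat.Primes) :
    (((q : Nat.Primes) : ℕ) : 𝓞 E) ≠ 0 := by
  exact_mod_cast q.2.ne_zero

/-- `SuppAbove` at `T_K` implies `SupportedAboveQ` (base field). -/
lemma supportedAboveQ_of_suppAbove {J : Ideal (𝓞 K)} (h : SuppAbove K K (TK K T) J) :
    SupportedAboveQ K T J := by
  refine ⟨h.1, fun P hP hle => ?_⟩
  obtain ⟨v, hv, hPv⟩ := h.2 P hP hle
  rw [under_self] at hPv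
  obtain ⟨q, hq, hqv⟩ := mem_TK.mp hv
  exact ⟨q, hq, by rw [hPv]; exact hqv⟩

/-- `SupportedAboveQ` implies `SuppAbove` at `T_K` (base field). -/
lemma suppAbove_of_supportedAboveQ {J : Ideal (𝓞 K)} (h : SupportedAboveQ K T J) :
    SuppAbove K K (TK K T) J := by
  refine ⟨h.1, fun P hP hle => ?_⟩
  obtain ⟨q, hq, hqP⟩ := h.2 P hP hle
  have hP0 : P ≠ ⊥ := by
    rintro rfl
    exact natCast_ne_zero_of_mem K q (by simpa using hqP)
  exact ⟨⟨P, hP, hP0⟩, mem_TK.mpr ⟨q, hq, hqP⟩, under_self P⟩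

/-- `SupportedAboveQ` implies `SuppAbove` at `T_K` (extension field). -/
lemma suppAbove_of_supportedAboveQ_ext {J : Ideal (𝓞 L)} (h : SupportedAboveQ L T J) :
    SuppAbove K L (TK K T) J := by
  refine ⟨h.1, fun P hP hle => ?_⟩
  obtain ⟨q, hq, hqP⟩ := h.2 P hP hle
  have hmem : (((q : Nat.Primes) : ℕ) : 𝓞 K) ∈ P.under (𝓞 K) := by
    rw [Ideal.under_def, Ideal.mem_comap, map_natCast]
    exact hqP
  have hP' : (P.under (𝓞 K)).IsPrime := Ideal.comap_isPrime _ P
  have hP0 : P.under (𝓞 K) ≠ ⊥ := by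
    intro h0
    rw [h0] at hmem
    exact natCast_ne_zero_of_mem K q (by simpa using hmem)
  exact ⟨⟨P.under (𝓞 K), hP', hP0⟩, mem_TK.mpr ⟨q, hq, hmem⟩, rfl⟩

end Conv

section Main

variable {K : Type} [Field K] [NumberField K] {L : Type} [Field L] [NumberField L] [Algebra K L]
variable (T : Finset Nat.Primes) (m : Ideal (𝓞 K))
variable {X : Type*} [CommGroup X] (δ : Kˣ →* X)

/-- `δ` kills the `T`-units (ideal-theoretic form, rational `T`). -/
def KillsTUnitsQ : Prop :=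
  ∀ (x y : 𝓞 K) (hx : x ≠ 0) (hy : y ≠ 0) (J J' : Ideal (𝓞 K)), SupportedAboveQ K T J →
    SupportedAboveQ K T J' → span {x} * J = span {y} * J' → δ (toU x hx / toU y hy) = 1

/-- `Cl_T(E) = 1` in the `ℚ`-based vocabulary. -/
def ClTrivialQ (E : Type) [Field E] [NumberField E] : Prop :=
  ∀ I : Ideal (𝓞 E), I ≠ ⊥ → ∃ (a b : 𝓞 E) (J J' : Ideal (𝓞 E)), a ≠ 0 ∧ b ≠ 0 ∧
    SupportedAboveQ E T J ∧ SupportedAboveQ E T J' ∧ span {a} * I * J = span {b} * J'

variable {T m δ}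

/-- **Abstract bridge, `ℚ`-based form.** -/
theorem card_le_finrank_of_deltaQ' (hm : m ≠ ⊥)
    (hmT : ∀ v : HeightOneSpectrum (𝓞 K), v.asIdeal ∣ m →
      ∃ q ∈ T, (((q : Nat.Primes) : ℕ) : 𝓞 K) ∈ v.asIdeal)
    (hunit : KillsTUnitsQ T δ)
    (hray : ∀ (a : 𝓞 K) (ha : a ≠ 0), a - 1 ∈ m → δ (toU a ha) = 1)
    (hsurj : Function.Surjective δ)
    (hnorm : ∀ b : Lˣ, δ (Units.map (Algebra.norm K : L →* K) b) = 1)
    (hClK : ClTrivialQ T K) (hClL : ClTrivialQ T L) :
    Finite X ∧ Nat.card X ≤ Module.finrank K L := by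
  refine card_le_finrank_of_delta (L := L) (TK K T) m δ hm (fun v hv => mem_TK.mpr (hmT v hv))
    ?_ hray hsurj hnorm ?_ ?_
  · intro x y hx hy J J' hJ hJ' h
    exact hunit x y hx hy J J' (supportedAboveQ_of_suppAbove hJ)
      (supportedAboveQ_of_suppAbove hJ') h
  · intro I hI
    obtain ⟨a, b, J, J', ha, hb, hJ, hJ', h⟩ := hClK I hI
    exact ⟨a, b, J, J', ha, hb, suppAbove_of_supportedAboveQ hJ,
      suppAbove_of_supportedAboveQ hJ', h⟩
  · intro I hI
    obtain ⟨a, b, J, J', ha, hb, hJ, hJ', h⟩ := hClL I hI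
    exact ⟨a, b, J, J', ha, hb, suppAbove_of_supportedAboveQ_ext hJ,
      suppAbove_of_supportedAboveQ_ext hJ', h⟩

/-- **Abstract bridge, `ℚ`-based form, from `AdmissibleQ`.** -/
theorem card_le_finrank_of_deltaQ {p : ℕ} (hadm : AdmissibleQ K L p T) (hm : m ≠ ⊥)
    (hmT : ∀ v : HeightOneSpectrum (𝓞 K), v.asIdeal ∣ m →
      ∃ q ∈ T, (((q : Nat.Primes) : ℕ) : 𝓞 K) ∈ v.asIdeal)
    (hunit : KillsTUnitsQ T δ)
    (hray : ∀ (a : 𝓞 K) (ha : a ≠ 0), a - 1 ∈ m → δ (toU a ha) = 1)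
    (hsurj : Function.Surjective δ)
    (hnorm : ∀ b : Lˣ, δ (Units.map (Algebra.norm K : L →* K) b) = 1) :
    Finite X ∧ Nat.card X ≤ Module.finrank K L :=
  card_le_finrank_of_deltaQ' hm hmT hunit hray hsurj hnorm
    (fun I hI => hadm.principal K (algebraMap K L) I hI)
    (fun I hI => hadm.principal L (RingHom.id L) I hI)

end Main

end Fermat.Agent.S55.Global.Bridge2AbsQ
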