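import Mathlib
import Fermat.Agent.S55.Global.Blocks
import Fermat.Agent.S55.Global.Bridge2Abs

/-!
# From `Blocks.Admissible` to the class group hypotheses of `Bridge2Abs`

`Admissible.principal` is quantified over intermediate fields `E : IntermediateField K L`.  We
transport it along `⊥ ≃ₐ[K] K` and `⊤ ≃ₐ[K] L` to obtain the hypotheses `ClTrivial T K` and
`ClTrivial T L` of `Bridge2Abs.card_le_finrank_of_delta`.
-/

set_option autoImplicit false
set_option linter.unusedSectionVars false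

namespace Fermat.Agent.S55.Global.Bridge2Adm

open NumberField IsDedekindDomain Ideal
open Fermat.Agent.S55.Global.Objects Fermat.Agent.S55.Global.Blocks
open Fermat.Agent.S55.Global.Bridge2Abs

section Transport

variable {K : Type*} [Field K] [NumberField K] {T : Finset (HeightOneSpectrum (𝓞 K))}
variable {E₁ : Type*} [Field E₁] [NumberField E₁] [Algebra K E₁]
variable {E₂ : Type*} [Field E₂] [NumberField E₂] [Algebra K E₂]

/-- `SuppAbove` is transported by a `K`-algebra isomorphism. -/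
lemma suppAbove_map (e : E₁ ≃ₐ[K] E₂) {J : Ideal (𝓞 E₁)} (hJ : SuppAbove K E₁ T J) :
    SuppAbove K E₂ T (J.map (RingOfIntegers.mapAlgEquiv e : 𝓞 E₁ ≃ₐ[𝓞 K] 𝓞 E₂)) := by
  set e' : 𝓞 E₁ ≃ₐ[𝓞 K] 𝓞 E₂ := RingOfIntegers.mapAlgEquiv e with he'
  refine ⟨?_, fun P hP hle => ?_⟩
  · intro h
    apply hJ.1
    exact (Ideal.map_eq_bot_iff_of_injective (f := (e' : 𝓞 E₁ →+* 𝓞 E₂)) e'.injective).mp h
  · have hle' : J ≤ P.comap (e' : 𝓞 E₁ →+* 𝓞 E₂) := Ideal.map_le_iff_le_comap.mp hle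
    have hP' : (P.comap (e' : 𝓞 E₁ →+* 𝓞 E₂)).IsPrime := Ideal.comap_isPrime _ P
    obtain ⟨v, hvT, hv⟩ := hJ.2 _ hP' hle'
    refine ⟨v, hvT, ?_⟩
    rw [← hv, Ideal.under_def, Ideal.under_def, Ideal.comap_comap]
    congr 1
    apply RingHom.ext
    intro x
    exact (e'.commutes x).symm

/-- `ClTrivial` is transported by a `K`-algebra isomorphism. -/
lemma clTrivial_of_algEquiv (e : E₁ ≃ₐ[K] E₂) (h : ClTrivial (K := K) T E₁) :
    ClTrivial (K := K) T E₂ := by
  set e' : 𝓞 E₁ ≃ₐ[𝓞 K] 𝓞 E₂ := RingOfIntegers.mapAlgEquiv e with he'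
  intro I hI
  have hsurj : Function.Surjective (e' : 𝓞 E₁ →+* 𝓞 E₂) := e'.surjective
  have hmap : (I.comap (e' : 𝓞 E₁ →+* 𝓞 E₂)).map (e' : 𝓞 E₁ →+* 𝓞 E₂) = I :=
    Ideal.map_comap_of_surjective _ hsurj I
  have hI₁ : I.comap (e' : 𝓞 E₁ →+* 𝓞 E₂) ≠ ⊥ := by
    intro h0
    rw [h0, Ideal.map_bot] at hmap
    exact hI hmap.symm
  obtain ⟨a, b, J, J', ha, hb, hJ, hJ', heq⟩ := h _ hI₁
  refine ⟨e' a, e' b, J.map (e' : 𝓞 E₁ →+* 𝓞 E₂), J'.map (e' : 𝓞 E₁ →+* 𝓞 E₂),
    (EmbeddingLike.map_ne_zero_iff (f := e')).mpr ha,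
    (EmbeddingLike.map_ne_zero_iff (f := e')).mpr hb,
    suppAbove_map e hJ, suppAbove_map e hJ', ?_⟩
  have := congrArg (Ideal.map (e' : 𝓞 E₁ →+* 𝓞 E₂)) heq
  rw [Ideal.map_mul, Ideal.map_mul, Ideal.map_mul, Ideal.map_span, Ideal.map_span,
    Set.image_singleton, Set.image_singleton, hmap] at this
  exact this

end Transport

section Adm

variable {K L : Type} [Field K] [NumberField K] [Field L] [NumberField L] [Algebra K L]
variable {p : ℕ} {T : Finset (Place K)}

/-- `Cl_T(E) = 1` for every intermediate field, in `Bridge2Abs` vocabulary. -/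
lemma clTrivial_intermediate (hadm : Admissible K L p T) (E : IntermediateField K L) :
    ClTrivial (K := K) T E :=
  fun I hI => hadm.principal E I hI

/-- `Cl_T(L) = 1`. -/
theorem clTrivial_top (hadm : Admissible K L p T) : ClTrivial (K := K) T L :=
  clTrivial_of_algEquiv (IntermediateField.topEquiv : (⊤ : IntermediateField K L) ≃ₐ[K] L)
    (clTrivial_intermediate hadm ⊤)

/-- `Cl_T(K) = 1`. -/
theorem clTrivial_bot (hadm : Admissible K L p T) : ClTrivial (K := K) T K :=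
  clTrivial_of_algEquiv (IntermediateField.botEquiv K L)
    (clTrivial_intermediate hadm ⊥)

end Adm

end Fermat.Agent.S55.Global.Bridge2Adm
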