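/-
S55 / Global / G.descent, part 2a (helper38): Galois descent for `L ⊗[K] A`.

`K ⊆ F ⊆ L` fields, `N ≤ Gal(L/K)` with `F = L^N`, `A` any commutative `K`-algebra.  Then
`F ⊗[K] A → L ⊗[K] A` is injective with image the `N`-invariants (for the action on the left
factor, `Objects.tensorAct`), and the same holds for unit groups.
-/
import Mathlib
import Fermat.Agent.S55.Global.Objects

set_option autoImplicit false
set_option linter.unusedSectionVars false

open TensorProduct

namespace Fermat.Agent.S55.Global.DescentTensor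

open Fermat.Agent.S55.Global.Objects

variable {K L : Type} [Field K] [NumberField K] [Field L] [NumberField L] [Algebra K L]
variable (A : Type) [CommRing A] [Algebra K A]

section basis

variable {A}
variable {ι : Type} [DecidableEq ι] (b : Module.Basis ι K A)

/-- Coordinates of `σ • z` are `σ` of the coordinates of `z`. -/
theorem coord_tensorAct (σ : L ≃ₐ[K] L) (z : L ⊗[K] A) (i : ι) :
    TensorProduct.equivFinsuppOfBasisRight b (tensorAct A σ z) i =
      σ (TensorProduct.equivFinsuppOfBasisRight b z i) := by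
  induction z using TensorProduct.induction_on with
  | zero => simp
  | tmul x a =>
    rw [tensorAct_tmul, TensorProduct.equivFinsuppOfBasisRight_apply_tmul_apply,
      TensorProduct.equivFinsuppOfBasisRight_apply_tmul_apply]
    exact (σ.toLinearEquiv.map_smul _ x).symm
  | add x y hx hy =>
    rw [map_add, map_add, Finsupp.add_apply, hx, hy, map_add, Finsupp.add_apply, map_add]

end basis

section incl

variable (N : Subgroup (L ≃ₐ[K] L))

/-- The inclusion `L^N ⊗[K] A → L ⊗[K] A`. -/
noncomputable def incl : (IntermediateField.fixedField N) ⊗[K] A →ₐ[K] L ⊗[K] A :=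
  Algebra.TensorProduct.map (IntermediateField.fixedField N).val (AlgHom.id K A)

@[simp] theorem incl_tmul (x : IntermediateField.fixedField N) (a : A) :
    incl A N (x ⊗ₜ[K] a) = (x : L) ⊗ₜ[K] a := rfl

theorem incl_injective : Function.Injective (incl A N) := by
  have h : Function.Injective
      (LinearMap.rTensor A (IntermediateField.fixedField N).val.toLinearMap) :=
    Module.Flat.rTensor_preserves_injective_linearMap _ (Subtype.val_injective)
  intro x y hxy
  apply h
  have e : ∀ z, LinearMap.rTensor A (IntermediateField.fixedField N).val.toLinearMap z =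
      incl A N z := by
    intro z
    induction z using TensorProduct.induction_on with
    | zero => simp
    | tmul x a => rfl
    | add x y hx hy => rw [map_add, map_add, hx, hy]
  rw [e, e, hxy]

/-- Elements coming from `L^N ⊗ A` are `N`-invariant. -/
theorem tensorAct_incl {σ : L ≃ₐ[K] L} (hσ : σ ∈ N)
    (x : (IntermediateField.fixedField N) ⊗[K] A) :
    tensorAct A σ (incl A N x) = incl A N x := by
  induction x using TensorProduct.induction_on with
  | zero => simp
  | tmul x a =>
    rw [incl_tmul, tensorAct_tmul]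
    congr 1
    exact x.2 ⟨σ, hσ⟩
  | add x y hx hy => rw [map_add, map_add, hx, hy]

/-- **Descent**: `N`-invariant elements of `L ⊗[K] A` come from `L^N ⊗[K] A`. -/
theorem mem_range_incl_of_invariant (z : L ⊗[K] A)
    (hz : ∀ σ ∈ N, tensorAct A σ z = z) : z ∈ Set.range (incl A N) := by
  classical
  let b := Module.Free.chooseBasis K A
  let e := TensorProduct.equivFinsuppOfBasisRight (M := L) b
  set c := e z with hc
  have hmem : ∀ i, c i ∈ IntermediateField.fixedField N := by
    intro i
    rintro ⟨σ, hσ⟩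
    change σ (c i) = c i
    rw [hc, ← coord_tensorAct, hz σ hσ]
  have hz' : z = c.sum fun i m => m ⊗ₜ[K] b i := by
    rw [← TensorProduct.equivFinsuppOfBasisRight_symm_apply, hc]
    exact (e.symm_apply_apply z).symm
  refine ⟨∑ i ∈ c.support, (⟨c i, hmem i⟩ : IntermediateField.fixedField N) ⊗ₜ[K] b i, ?_⟩
  rw [map_sum, hz', Finsupp.sum]
  rfl

theorem range_incl :
    Set.range (incl A N) = {z : L ⊗[K] A | ∀ σ ∈ N, tensorAct A σ z = z} := by
  ext z
  constructor
  · rintro ⟨x, rfl⟩ σ hσ
    exact tensorAct_incl A N hσ x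
  · intro hz
    exact mem_range_incl_of_invariant A N z hz

/-- Equivariance: the action of `g ∈ Gal(L/K)` on `L ⊗ A` restricts to the action of
`g|_F ∈ Gal(F/K)` on `F ⊗ A`, `F = L^N`, `N` normal. -/
theorem incl_tensorAct [IsGalois K L] [N.Normal] (g : L ≃ₐ[K] L)
    (x : (IntermediateField.fixedField N) ⊗[K] A) :
    incl A N (tensorAct A (AlgEquiv.restrictNormalHom (IntermediateField.fixedField N) g) x) =
      tensorAct A g (incl A N x) := by
  induction x using TensorProduct.induction_on with
  | zero => simp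
  | tmul x a =>
    rw [tensorAct_tmul, incl_tmul, incl_tmul, tensorAct_tmul]
    congr 1
    exact AlgEquiv.restrictNormal_commutes g (IntermediateField.fixedField N) x
  | add x y hx hy => rw [map_add, map_add, hx, map_add, map_add, hy]

/-- Units version of descent: an `N`-invariant unit of `L ⊗[K] A` comes from a unit of
`L^N ⊗[K] A`. -/
theorem exists_unit_of_invariant (u : (L ⊗[K] A)ˣ)
    (hu : ∀ σ ∈ N, tensorAct A σ (u : L ⊗[K] A) = u) :
    ∃ x : ((IntermediateField.fixedField N) ⊗[K] A)ˣ,
      Units.map (incl A N).toMonoidHom x = u := by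
  have hu' : ∀ σ ∈ N, tensorAct A σ ((u⁻¹ : (L ⊗[K] A)ˣ) : L ⊗[K] A) = (u⁻¹ : (L ⊗[K] A)ˣ) := by
    intro σ hσ
    have h1 : tensorAct A σ ((u⁻¹ : (L ⊗[K] A)ˣ) : L ⊗[K] A) * (u : L ⊗[K] A) = 1 := by
      calc tensorAct A σ ((u⁻¹ : (L ⊗[K] A)ˣ) : L ⊗[K] A) * (u : L ⊗[K] A)
          = tensorAct A σ ((u⁻¹ : (L ⊗[K] A)ˣ) : L ⊗[K] A) * tensorAct A σ (u : L ⊗[K] A) := by
            rw [hu σ hσ]
        _ = tensorAct A σ (((u⁻¹ : (L ⊗[K] A)ˣ) : L ⊗[K] A) * (u : L ⊗[K] A)) :=
            ((tensorAct A σ).map_mul _ _).symm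
        _ = 1 := by rw [Units.inv_mul]; exact (tensorAct A σ).map_one
    calc tensorAct A σ ((u⁻¹ : (L ⊗[K] A)ˣ) : L ⊗[K] A)
        = tensorAct A σ ((u⁻¹ : (L ⊗[K] A)ˣ) : L ⊗[K] A) *
            ((u : L ⊗[K] A) * ((u⁻¹ : (L ⊗[K] A)ˣ) : L ⊗[K] A)) := by
          rw [Units.mul_inv, mul_one]
      _ = ((u⁻¹ : (L ⊗[K] A)ˣ) : L ⊗[K] A) := by rw [← mul_assoc, h1, one_mul]
  obtain ⟨x, hx⟩ := mem_range_incl_of_invariant A N (u : L ⊗[K] A) hu
  obtain ⟨y, hy⟩ := mem_range_incl_of_invariant A N ((u⁻¹ : (L ⊗[K] A)ˣ) : L ⊗[K] A) hu'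
  have hxy : x * y = 1 := by
    apply incl_injective A N
    have h1 : incl A N (x * y) = incl A N x * incl A N y := map_mul (incl A N) x y
    have h2 : incl A N (1 : (IntermediateField.fixedField N) ⊗[K] A) = 1 := (incl A N).map_one
    rw [h1, h2, hx, hy, Units.mul_inv]
  have hyx : y * x = 1 := by
    apply incl_injective A N
    have h1 : incl A N (y * x) = incl A N y * incl A N x := map_mul (incl A N) y x
    have h2 : incl A N (1 : (IntermediateField.fixedField N) ⊗[K] A) = 1 := (incl A N).map_one
    rw [h1, h2, hx, hy, Units.inv_mul]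
  exact ⟨⟨x, y, hxy, hyx⟩, Units.ext hx⟩

theorem unitsMap_incl_injective :
    Function.Injective (Units.map (incl A N).toMonoidHom) :=
  Units.map_injective (incl_injective A N)

end incl

end Fermat.Agent.S55.Global.DescentTensor
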