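/-
S55 / Global / G.descent, part 3a (helper38): Galois descent for `M ⊗[ℚ] A` (interface v3).

`F ⊆ M` number fields, `A` any commutative `ℚ`-algebra, `H` a set of `ℚ`-automorphisms of `M` fixing
`F` pointwise and such that every `H`-fixed element of `M` comes from `F`.  Then
`F ⊗[ℚ] A → M ⊗[ℚ] A` is injective with image the `H`-invariants (action on the left factor,
`Objects.tensorAct`), the same holds for unit groups, and the map is equivariant for compatible
automorphisms of `F` and `M`.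
-/
import Mathlib
import Fermat.Agent.S55.Global.DescentTensor

set_option autoImplicit false
set_option linter.unusedSectionVars false

open TensorProduct

namespace Fermat.Agent.S55.Global.DescentTensorQ

open Fermat.Agent.S55.Global.Objects Fermat.Agent.S55.Global.DescentTensor

variable {F M : Type} [Field F] [NumberField F] [Field M] [NumberField M] [Algebra F M]
variable (A : Type) [CommRing A] [Algebra ℚ A]

/-- The inclusion `F ⊗[ℚ] A → M ⊗[ℚ] A`. -/
noncomputable def inclQ : F ⊗[ℚ] A →ₐ[ℚ] M ⊗[ℚ] A :=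
  Algebra.TensorProduct.map ((algebraMap F M).toRatAlgHom) (AlgHom.id ℚ A)

@[simp] theorem inclQ_tmul (x : F) (a : A) :
    inclQ (M := M) A (x ⊗ₜ[ℚ] a) = (algebraMap F M x) ⊗ₜ[ℚ] a := rfl

theorem inclQ_injective : Function.Injective (inclQ (F := F) (M := M) A) := by
  have h : Function.Injective
      (LinearMap.rTensor A ((algebraMap F M).toRatAlgHom).toLinearMap) :=
    Module.Flat.rTensor_preserves_injective_linearMap _ (algebraMap F M).injective
  intro x y hxy
  apply h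
  have e : ∀ z, LinearMap.rTensor A ((algebraMap F M).toRatAlgHom).toLinearMap z =
      inclQ A z := by
    intro z
    induction z using TensorProduct.induction_on with
    | zero => simp
    | tmul x a => rfl
    | add x y hx hy => rw [map_add, map_add, hx, hy]
  rw [e, e, hxy]

/-- Elements coming from `F ⊗ A` are fixed by the automorphisms fixing `F`. -/
theorem tensorAct_inclQ {σ : M ≃ₐ[ℚ] M} (hσ : ∀ x : F, σ (algebraMap F M x) = algebraMap F M x)
    (x : F ⊗[ℚ] A) : tensorAct A σ (inclQ A x) = inclQ A x := by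
  induction x using TensorProduct.induction_on with
  | zero => simp
  | tmul x a =>
    rw [inclQ_tmul, tensorAct_tmul, hσ]
  | add x y hx hy => rw [map_add, map_add, hx, hy]

/-- **Descent**: elements of `M ⊗[ℚ] A` invariant under a set `H` of automorphisms whose fixed
elements come from `F` lie in the image of `F ⊗[ℚ] A`. -/
theorem mem_range_inclQ_of_invariant (H : Set (M ≃ₐ[ℚ] M))
    (hH : ∀ x : M, (∀ σ ∈ H, σ x = x) → x ∈ Set.range (algebraMap F M))
    (z : M ⊗[ℚ] A) (hz : ∀ σ ∈ H, tensorAct A σ z = z) :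
    z ∈ Set.range (inclQ (F := F) A) := by
  classical
  let b := Module.Free.chooseBasis ℚ A
  let e := TensorProduct.equivFinsuppOfBasisRight (M := M) b
  set c := e z with hc
  have hmem : ∀ i, c i ∈ Set.range (algebraMap F M) := by
    intro i
    apply hH
    intro σ hσ
    rw [hc, ← coord_tensorAct, hz σ hσ]
  choose d hd using hmem
  have hz' : z = c.sum fun i m => m ⊗ₜ[ℚ] b i := by
    rw [← TensorProduct.equivFinsuppOfBasisRight_symm_apply, hc]
    exact (e.symm_apply_apply z).symm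
  refine ⟨∑ i ∈ c.support, (d i) ⊗ₜ[ℚ] b i, ?_⟩
  rw [map_sum, hz', Finsupp.sum]
  refine Finset.sum_congr rfl fun i _ => ?_
  rw [inclQ_tmul, hd]

/-- Equivariance for compatible automorphisms of `F` and `M`. -/
theorem inclQ_tensorAct (g : M ≃ₐ[ℚ] M) (g' : F ≃ₐ[ℚ] F)
    (h : ∀ x : F, algebraMap F M (g' x) = g (algebraMap F M x)) (x : F ⊗[ℚ] A) :
    inclQ A (tensorAct A g' x) = tensorAct A g (inclQ (M := M) A x) := by
  induction x using TensorProduct.induction_on with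
  | zero => simp
  | tmul x a =>
    rw [tensorAct_tmul, inclQ_tmul, inclQ_tmul, tensorAct_tmul, h]
  | add x y hx hy => rw [map_add, map_add, hx, map_add, map_add, hy]

/-- Units version of descent. -/
theorem exists_unit_of_invariantQ (H : Set (M ≃ₐ[ℚ] M))
    (hH : ∀ x : M, (∀ σ ∈ H, σ x = x) → x ∈ Set.range (algebraMap F M))
    (u : (M ⊗[ℚ] A)ˣ) (hu : ∀ σ ∈ H, tensorAct A σ (u : M ⊗[ℚ] A) = u) :
    ∃ x : (F ⊗[ℚ] A)ˣ, Units.map (inclQ (F := F) (M := M) A).toMonoidHom x = u := by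
  have hu' : ∀ σ ∈ H, tensorAct A σ ((u⁻¹ : (M ⊗[ℚ] A)ˣ) : M ⊗[ℚ] A) = (u⁻¹ : (M ⊗[ℚ] A)ˣ) := by
    intro σ hσ
    have h1 : tensorAct A σ ((u⁻¹ : (M ⊗[ℚ] A)ˣ) : M ⊗[ℚ] A) * (u : M ⊗[ℚ] A) = 1 := by
      calc tensorAct A σ ((u⁻¹ : (M ⊗[ℚ] A)ˣ) : M ⊗[ℚ] A) * (u : M ⊗[ℚ] A)
          = tensorAct A σ ((u⁻¹ : (M ⊗[ℚ] A)ˣ) : M ⊗[ℚ] A) * tensorAct A σ (u : M ⊗[ℚ] A) := by
            rw [hu σ hσ]
        _ = tensorAct A σ (((u⁻¹ : (M ⊗[ℚ] A)ˣ) : M ⊗[ℚ] A) * (u : M ⊗[ℚ] A)) :=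
            ((tensorAct A σ).map_mul _ _).symm
        _ = 1 := by rw [Units.inv_mul]; exact (tensorAct A σ).map_one
    calc tensorAct A σ ((u⁻¹ : (M ⊗[ℚ] A)ˣ) : M ⊗[ℚ] A)
        = tensorAct A σ ((u⁻¹ : (M ⊗[ℚ] A)ˣ) : M ⊗[ℚ] A) *
            ((u : M ⊗[ℚ] A) * ((u⁻¹ : (M ⊗[ℚ] A)ˣ) : M ⊗[ℚ] A)) := by
          rw [Units.mul_inv, mul_one]
      _ = ((u⁻¹ : (M ⊗[ℚ] A)ˣ) : M ⊗[ℚ] A) := by rw [← mul_assoc, h1, one_mul]
  obtain ⟨x, hx⟩ := mem_range_inclQ_of_invariant (F := F) A H hH (u : M ⊗[ℚ] A) hu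
  obtain ⟨y, hy⟩ := mem_range_inclQ_of_invariant (F := F) A H hH
    ((u⁻¹ : (M ⊗[ℚ] A)ˣ) : M ⊗[ℚ] A) hu'
  have hxy : x * y = 1 := by
    apply inclQ_injective (M := M) A
    have h1 : inclQ (M := M) A (x * y) = inclQ A x * inclQ A y := map_mul (inclQ A) x y
    have h2 : inclQ (M := M) A (1 : F ⊗[ℚ] A) = 1 := (inclQ A).map_one
    rw [h1, h2, hx, hy, Units.mul_inv]
  have hyx : y * x = 1 := by
    apply inclQ_injective (M := M) A
    have h1 : inclQ (M := M) A (y * x) = inclQ A y * inclQ A x := map_mul (inclQ A) y x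
    have h2 : inclQ (M := M) A (1 : F ⊗[ℚ] A) = 1 := (inclQ A).map_one
    rw [h1, h2, hx, hy, Units.inv_mul]
  exact ⟨⟨x, y, hxy, hyx⟩, Units.ext hx⟩

theorem unitsMap_inclQ_injective :
    Function.Injective (Units.map (inclQ (F := F) (M := M) A).toMonoidHom) :=
  Units.map_injective (inclQ_injective A)

/-- Compatibility with `x ↦ x ⊗ 1`. -/
theorem unitsMap_inclQ_inclUnits (x : Fˣ) :
    Units.map (inclQ (F := F) (M := M) A).toMonoidHom (inclUnits ℚ F A x) =
      inclUnits ℚ M A (Units.map (algebraMap F M : F →* M) x) := by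
  apply Units.ext
  rfl

end Fermat.Agent.S55.Global.DescentTensorQ
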