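/-
S55 / Global / G.descent, part 1 (helper38): Galois descent for quotient modules, abstract form.

For a short exact sequence `0 → E → J → C → 0` of `G`-modules and a normal subgroup `S ≤ G` with
`H¹(S, E) = 0`, the sequence of `S`-invariants `0 → E^S → J^S → C^S → 0` is short exact as a
sequence of `G ⧸ S`-modules (Mathlib's `Rep.quotientToInvariantsFunctor`).

This is the formal half of helper78's row G.descent: `(C_{L,T})^H = J_{L,T}^H / E_{L,T}^H`.
-/
import Mathlib

set_option autoImplicit false
set_option linter.unusedSectionVars false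

namespace Fermat.Agent.S55.Global.Descent

open CategoryTheory CategoryTheory.Limits groupCohomology Rep

universe u

variable {k G : Type u} [CommRing k] [Group G]

/-- Concrete form of `H¹(S, A) = 0` (same shape as `Coh.InfRes2.H1Vanishes`). -/
def H1Vanishes (A : Rep k G) (S : Subgroup G) : Prop :=
  ∀ χ : S → A, (∀ u v : S, χ (u * v) = A.ρ u (χ v) + χ u) → ∃ a : A, ∀ u : S, χ u = A.ρ u a - a

/-- Elementwise exactness of a short exact sequence of representations. -/
theorem exists_of_shortExact {X : ShortComplex (Rep k G)} (hX : X.ShortExact) (y : X.X₂)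
    (hy : X.g.hom y = 0) : ∃ x : X.X₁, X.f.hom x = y := by
  have h1 : (X.map (forget₂ (Rep k G) (ModuleCat k))).Exact :=
    hX.exact.map (forget₂ (Rep k G) (ModuleCat k))
  rw [ShortComplex.moduleCat_exact_iff] at h1
  exact h1 y hy

theorem injective_of_shortExact {X : ShortComplex (Rep k G)} (hX : X.ShortExact) :
    Function.Injective X.f.hom :=
  (Rep.mono_iff_injective X.f).1 hX.mono_f

theorem surjective_of_shortExact {X : ShortComplex (Rep k G)} (hX : X.ShortExact) :
    Function.Surjective X.g.hom :=
  (Rep.epi_iff_surjective X.g).1 hX.epi_g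

theorem comp_apply_eq_zero (X : ShortComplex (Rep k G)) (x : X.X₁) : X.g.hom (X.f.hom x) = 0 := by
  have h1 : X.g.hom (X.f.hom x) = (X.f ≫ X.g).hom x := rfl
  rw [h1, X.zero]
  rfl

section Invariants

variable (S : Subgroup G) [S.Normal]

/-- Underlying element of the image under `quotientToInvariantsFunctor`. -/
theorem quotientToInvariantsFunctor_map_coe {A B : Rep k G} (f : A ⟶ B)
    (x : A.quotientToInvariants S) :
    ((((quotientToInvariantsFunctor k S).map f).hom x : B.quotientToInvariants S)).1 =
      f.hom x.1 := rfl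

instance preservesZeroMorphisms_quotientToInvariantsFunctor :
    (quotientToInvariantsFunctor k S).PreservesZeroMorphisms where
  map_zero A B := by
    apply Rep.hom_ext
    ext x
    rfl

/-- Membership in the invariants, unfolded. -/
theorem mem_invariants_res_iff (A : Rep k G) (a : A) :
    a ∈ Representation.invariants (A.ρ.comp S.subtype) ↔ ∀ s : S, A.ρ s a = a := Iff.rfl

/-- Injectivity on invariants. -/
theorem injective_map_invariants {A B : Rep k G} (f : A ⟶ B) (hf : Function.Injective f.hom) :
    Function.Injective ((quotientToInvariantsFunctor k S).map f).hom := by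
  intro a b hab
  have := congrArg Subtype.val hab
  exact Subtype.ext (hf this)

/-- Exactness in the middle on invariants. -/
theorem exact_map_invariants {X : ShortComplex (Rep k G)} (hX : X.ShortExact)
    (y : X.X₂.quotientToInvariants S)
    (hy : ((quotientToInvariantsFunctor k S).map X.g).hom y = 0) :
    ∃ x : X.X₁.quotientToInvariants S, ((quotientToInvariantsFunctor k S).map X.f).hom x = y := by
  have hinj := injective_of_shortExact hX
  have hy' : X.g.hom y.1 = 0 := congrArg Subtype.val hy
  obtain ⟨x, hx⟩ := exists_of_shortExact hX y.1 hy'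
  have hxinv : x ∈ Representation.invariants (X.X₁.ρ.comp S.subtype) := by
    intro s
    apply hinj
    change X.f.hom (X.X₁.ρ s x) = X.f.hom x
    rw [hom_comm_apply, hx]
    exact y.2 s
  exact ⟨⟨x, hxinv⟩, Subtype.ext hx⟩

/-- Surjectivity on invariants, from `H¹(S, E) = 0`. -/
theorem surjective_map_invariants {X : ShortComplex (Rep k G)} (hX : X.ShortExact)
    (h1 : H1Vanishes X.X₁ S) :
    Function.Surjective ((quotientToInvariantsFunctor k S).map X.g).hom := by
  have hinj := injective_of_shortExact hX
  have hsurj := surjective_of_shortExact hX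
  intro c
  obtain ⟨y, hy⟩ := hsurj c.1
  -- the obstruction cocycle
  have hex : ∀ s : S, ∃ e : X.X₁, X.f.hom e = X.X₂.ρ s y - y := by
    intro s
    apply exists_of_shortExact hX
    rw [map_sub, hom_comm_apply, hy]
    have := c.2 s
    change X.X₃.ρ s c.1 = c.1 at this
    rw [this, sub_self]
  choose e he using hex
  have hcoc : ∀ u v : S, e (u * v) = X.X₁.ρ u (e v) + e u := by
    intro u v
    apply hinj
    rw [he, map_add, hom_comm_apply, he, he]
    have : X.X₂.ρ ((u * v : S) : G) y = X.X₂.ρ u (X.X₂.ρ v y) := by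
      rw [Subgroup.coe_mul, map_mul]; rfl
    rw [this, map_sub]
    abel
  obtain ⟨a, ha⟩ := h1 e hcoc
  have hyinv : y - X.f.hom a ∈ Representation.invariants (X.X₂.ρ.comp S.subtype) := by
    intro s
    change X.X₂.ρ s (y - X.f.hom a) = y - X.f.hom a
    have h2 := he s
    rw [ha s, map_sub, hom_comm_apply] at h2
    rw [map_sub]
    have h3 : X.X₂.ρ s y - y = X.X₂.ρ s (X.f.hom a) - X.f.hom a := h2.symm
    have : X.X₂.ρ s y - X.X₂.ρ s (X.f.hom a) - (y - X.f.hom a) = 0 := by
      have : X.X₂.ρ s y - X.X₂.ρ s (X.f.hom a) - (y - X.f.hom a) =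
          (X.X₂.ρ s y - y) - (X.X₂.ρ s (X.f.hom a) - X.f.hom a) := by abel
      rw [this, h3, sub_self]
    exact sub_eq_zero.1 this
  refine ⟨⟨y - X.f.hom a, hyinv⟩, Subtype.ext ?_⟩
  change X.g.hom (y - X.f.hom a) = c.1
  rw [map_sub, comp_apply_eq_zero, sub_zero, hy]

/-- **Descent for quotients.** If `0 → E → J → C → 0` is a short exact sequence of `G`-modules and
`H¹(S, E) = 0` for the normal subgroup `S`, then `0 → E^S → J^S → C^S → 0` is a short exact
sequence of `G ⧸ S`-modules. -/
theorem shortExact_quotientToInvariants {X : ShortComplex (Rep k G)} (hX : X.ShortExact)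
    (h1 : H1Vanishes X.X₁ S) :
    (X.map (quotientToInvariantsFunctor k S)).ShortExact := by
  refine
    { exact := ?_
      mono_f := (Rep.mono_iff_injective _).2
        (injective_map_invariants S X.f (injective_of_shortExact hX))
      epi_g := (Rep.epi_iff_surjective _).2 (surjective_map_invariants S hX h1) }
  refine (forget₂ (Rep k (G ⧸ S)) (ModuleCat k)).reflects_exact_of_faithful _ ?_
  rw [ShortComplex.moduleCat_exact_iff]
  intro y hy
  exact exact_map_invariants S hX y hy

/-- The other half of the same four-term sequence: if `H¹(S, J) = 0` and `J^S → C^S` is onto,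
then `H¹(S, E) = 0`.  (Used with `J = Lˣ` (Hilbert 90), `E = O_{L,T}ˣ`, `C` = principal
`T`-ideals.) -/
theorem h1Vanishes_of_surjective_invariants {X : ShortComplex (Rep k G)} (hX : X.ShortExact)
    (S : Subgroup G)
    (h1 : H1Vanishes X.X₂ S)
    (hs : ∀ c : X.X₃, (∀ s : S, X.X₃.ρ s c = c) →
      ∃ y : X.X₂, (∀ s : S, X.X₂.ρ s y = y) ∧ X.g.hom y = c) :
    H1Vanishes X.X₁ S := by
  have hinj := injective_of_shortExact hX
  intro χ hχ
  -- push the cocycle to `J`
  obtain ⟨m, hm⟩ := h1 (fun u => X.f.hom (χ u)) (by
    intro u v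
    rw [hχ u v, map_add, hom_comm_apply])
  -- the image of `m` in `C` is invariant
  have hc : ∀ s : S, X.X₃.ρ s (X.g.hom m) = X.g.hom m := by
    intro s
    have h2 := hm s
    have h3 : X.g.hom (X.X₂.ρ s m - m) = 0 := by
      rw [← h2]; exact comp_apply_eq_zero X (χ s)
    rw [map_sub, hom_comm_apply] at h3
    exact sub_eq_zero.1 h3
  obtain ⟨y, hyinv, hy⟩ := hs (X.g.hom m) hc
  -- `m - y` comes from `E`
  obtain ⟨a, ha⟩ := exists_of_shortExact hX (m - y) (by rw [map_sub, hy, sub_self])
  refine ⟨a, fun u => hinj ?_⟩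
  rw [map_sub, hom_comm_apply, ha, hm u, map_sub, hyinv u]
  abel

end Invariants

section Adapter

/-- `H¹(S, A) = 0` in Mathlib's categorical form implies the concrete form. -/
theorem h1Vanishes_of_isZero (A : Rep k G) (S : Subgroup G)
    (h : Limits.IsZero (groupCohomology (Rep.res S.subtype A) 1)) : H1Vanishes A S := by
  intro χ hχ
  have hmem : χ ∈ cocycles₁ (res S.subtype A) := (mem_cocycles₁_iff (A := res S.subtype A) χ).2 hχ
  have h0 : H1π (res S.subtype A) ⟨χ, hmem⟩ = 0 := by
    have := h.eq_of_tgt (H1π (res S.subtype A)) 0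
    rw [this]
    rfl
  obtain ⟨a, ha⟩ := (H1π_eq_zero_iff _).1 h0
  refine ⟨a, fun u => ?_⟩
  have := congrFun ha u
  rw [d₀₁_hom_apply] at this
  exact this.symm

/-- ... and conversely. -/
theorem isZero_of_h1Vanishes (A : Rep k G) (S : Subgroup G) (h : H1Vanishes A S) :
    Limits.IsZero (groupCohomology (Rep.res S.subtype A) 1) := by
  rw [ModuleCat.isZero_iff_subsingleton]
  refine ⟨fun x y => ?_⟩
  have key : ∀ z : H1 (res S.subtype A), z = 0 := by
    intro z
    induction z using H1_induction_on with
    | h c =>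
      rw [H1π_eq_zero_iff]
      obtain ⟨a, ha⟩ := h c ((mem_cocycles₁_iff (A := res S.subtype A) c).1 c.2)
      refine ⟨a, ?_⟩
      funext u
      rw [d₀₁_hom_apply]
      exact (ha u).symm
  rw [key x, key y]

end Adapter

end Fermat.Agent.S55.Global.Descent
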