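/-
S55 / Global / G.descent, part 2c (helper38): `H¹(N, E_{M,T}) = 0` for the `ℚ`-based objects of
`Objects2` (interface v3).

`M/K` Galois, `T` admissible (`Blocks2.AdmissibleQ K M p T`), `N ≤ Gal(M/K)` ANY subgroup, `F = M^N`.
* `EUnitsQ_eq` : `EUnitsQ M T = Set.unit (placesAboveQ M T) M` (the `Aut`-stable form is the plain one);
* `exists_unit_coboundary` (relative form, `Gal(M/F)`): Hilbert 90 + the outside-`T` part of `(y)` is
  an invariant ideal with unramified support, hence extended from `F` (`DescentIdeals`), hence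
  principal up to `T`-ideals (`Cl_T(F) = 1`);
* `exists_unit_coboundary_subgroup`, `h1Vanishes_En : Descent.H1Vanishes (En K M T) N`,
  `isZero_H1_res_En`;
* `map_mem_EUnitsQ_iff` : for `x ∈ Fˣ`: `x ∈ E_{M,T} ↔ x ∈ E_{F,T}`;
* `inclUnits_injective` : `Mˣ → (M ⊗[ℚ] ℚ_T)ˣ` is injective for `T ≠ ∅`.
-/
import Mathlib
import Fermat.Agent.S14.AllNormsOfIdeals
import Fermat.Agent.S55.Global.Blocks2
import Fermat.Agent.S55.Global.Descent
import Fermat.Agent.S55.Global.DescentIdeals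

set_option autoImplicit false
set_option linter.unusedSectionVars false

open NumberField IsDedekindDomain
open scoped Pointwise

namespace Fermat.Agent.S55.Global.DescentUnits

open Fermat.Agent.S14.NormIndexConcrete Fermat.Agent.S14.GalPrimes
open Fermat.Agent.S14.AllNormsOfIdeals
open Fermat.Agent.S55.Global.Objects Fermat.Agent.S55.Global.Objects2
open Fermat.Agent.S55.Global.Blocks2

section stable

variable (K M : Type) [Field K] [NumberField K] [Field M] [NumberField M] [Algebra K M]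

/-- `T_M` is stable under every automorphism. -/
theorem primePerm_mem_placesAboveQ_iff (T : Finset Nat.Primes) (σ : M ≃ₐ[K] M) (w : Place M) :
    primePerm K M σ w ∈ placesAboveQ M T ↔ w ∈ placesAboveQ M T := by
  have key : ∀ n : ℕ, (n : 𝓞 M) ∈ (primePerm K M σ w).asIdeal ↔ (n : 𝓞 M) ∈ w.asIdeal := by
    intro n
    rw [mem_primePerm, map_natCast]
  constructor
  · rintro ⟨q, hq, hqw⟩
    exact ⟨q, hq, (key _).mp hqw⟩
  · rintro ⟨q, hq, hqw⟩
    exact ⟨q, hq, (key _).mpr hqw⟩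

end stable

section absolute

variable {M : Type} [Field M] [NumberField M]

theorem mem_unit_iff {S : Set (Place M)} {x : Mˣ} :
    x ∈ Set.unit S M ↔ ∀ w : Place M, w ∉ S → w.valuation M (x : M) = 1 := Iff.rfl

/-- `EUnitsQ M T` is the group of `T_M`-units. -/
theorem EUnitsQ_eq (T : Finset Nat.Primes) : EUnitsQ M T = Set.unit (placesAboveQ M T) M := by
  apply le_antisymm (EUnitsQ_le T)
  intro x hx
  rw [mem_EUnitsQ]
  intro σ
  rw [mem_unit_iff] at hx ⊢
  intro w hw
  obtain ⟨w', rfl⟩ := (primePerm ℚ M σ).surjective w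
  have h1 : ((σ • x : Mˣ) : M) = σ (x : M) := rfl
  rw [h1, valuation_primePerm]
  exact hx w' (fun h => hw ((primePerm_mem_placesAboveQ_iff ℚ M T σ w').mpr h))

end absolute

section relative

variable (F M : Type) [Field F] [NumberField F] [Field M] [NumberField M] [Algebra F M]
variable (T : Finset Nat.Primes)

/-- Trivial inertia implies ramification index one. -/
theorem ramificationIdx_eq_one [IsGalois F M] (w : Place M)
    (h : ∀ σ : M ≃ₐ[F] M, σ ∈ w.asIdeal.inertia (M ≃ₐ[F] M) → σ = 1) :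
    w.asIdeal.ramificationIdx (𝓞 F) = 1 := by
  have : (w.asIdeal.under (𝓞 F)).IsPrime := Ideal.IsPrime.under (𝓞 F) w.asIdeal
  have hp0 : w.asIdeal.under (𝓞 F) ≠ ⊥ := Ideal.under_ne_bot (𝓞 F) w.ne_bot
  have hmax : (w.asIdeal.under (𝓞 F)).IsMaximal := Ideal.IsPrime.isMaximal inferInstance hp0
  have h1 := Ideal.card_inertia_eq_ramificationIdxIn (G := M ≃ₐ[F] M)
    (w.asIdeal.under (𝓞 F)) w.asIdeal
  rw [Ideal.ramificationIdxIn_eq_ramificationIdx (w.asIdeal.under (𝓞 F)) w.asIdeal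
    (M ≃ₐ[F] M)] at h1
  rw [← h1]
  have : Subsingleton (w.asIdeal.inertia (M ≃ₐ[F] M)) := by
    refine ⟨fun a b => ?_⟩
    apply Subtype.ext
    rw [h a.1 a.2, h b.1 b.2]
  exact Nat.card_unique

/-- Extensions of ideals supported above `T` have multiplicity zero outside `T_M`. -/
theorem mult_map_eq_zero {J : Ideal (𝓞 F)} (hJ : SupportedAboveQ F T J) (w : Place M)
    (hw : w ∉ placesAboveQ M T) :
    multiplicity w.asIdeal (J.map (algebraMap (𝓞 F) (𝓞 M))) = 0 := by
  rw [multiplicity_eq_zero]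
  intro hdvd
  have hle : J.map (algebraMap (𝓞 F) (𝓞 M)) ≤ w.asIdeal := Ideal.le_of_dvd hdvd
  have hle' : J ≤ w.asIdeal.comap (algebraMap (𝓞 F) (𝓞 M)) := Ideal.map_le_iff_le_comap.mp hle
  obtain ⟨q, hq, hqP⟩ := hJ.2 _ (Ideal.comap_isPrime _ _) hle'
  apply hw
  refine ⟨q, hq, ?_⟩
  have h1 : algebraMap (𝓞 F) (𝓞 M) (((q : Nat.Primes) : ℕ) : 𝓞 F) ∈ w.asIdeal := hqP
  rwa [map_natCast] at h1

theorem map_ne_bot' {J : Ideal (𝓞 F)} (hJ : J ≠ ⊥) : J.map (algebraMap (𝓞 F) (𝓞 M)) ≠ ⊥ :=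
  Ideal.map_ne_bot_of_ne_bot hJ

/-- **Descent of the outside-`T` part of a principal ideal.**  If the multiplicities of the primes
outside `T_M` in `(b)` are `Gal(M/F)`-invariant, `M/F` is unramified outside `T` and `Cl_T(F) = 1`,
then there are `a, c ∈ 𝓞 F` with `ord_w(b) + ord_w(a) = ord_w(c)` for all `w ∉ T_M`. -/
theorem exists_base_quotient [IsGalois F M]
    (hram : ∀ w : Place M, (∃ σ : M ≃ₐ[F] M, σ ∈ w.asIdeal.inertia (M ≃ₐ[F] M) ∧ σ ≠ 1) →
      w ∈ placesAboveQ M T)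
    (hprin : ∀ I : Ideal (𝓞 F), I ≠ ⊥ → ∃ (a b : 𝓞 F) (J J' : Ideal (𝓞 F)), a ≠ 0 ∧ b ≠ 0 ∧
      SupportedAboveQ F T J ∧ SupportedAboveQ F T J' ∧
      Ideal.span {a} * I * J = Ideal.span {b} * J')
    (b : 𝓞 M) (hb : b ≠ 0)
    (hinv : ∀ (s : M ≃ₐ[F] M) (w : Place M), w ∉ placesAboveQ M T →
      multiplicity (primePerm F M s w).asIdeal (Ideal.span {b}) =
        multiplicity w.asIdeal (Ideal.span {b})) :
    ∃ a c : 𝓞 F, a ≠ 0 ∧ c ≠ 0 ∧ ∀ w : Place M, w ∉ placesAboveQ M T →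
      multiplicity w.asIdeal (Ideal.span {b}) +
        multiplicity w.asIdeal (Ideal.span {algebraMap (𝓞 F) (𝓞 M) a}) =
        multiplicity w.asIdeal (Ideal.span {algebraMap (𝓞 F) (𝓞 M) c}) := by
  classical
  have hsb : Ideal.span {b} ≠ (⊥ : Ideal (𝓞 M)) := by simpa using hb
  -- the outside-`T` part of the divisor of `b`
  let n : Place M →₀ ℕ := Finsupp.ofSupportFinite
    (fun w => if w ∈ placesAboveQ M T then 0 else multiplicity w.asIdeal (Ideal.span {b}))
    (by
      apply (Ideal.finite_factors hsb).subset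
      intro w hw
      rw [Function.mem_support] at hw
      by_cases h : w ∈ placesAboveQ M T
      · simp [h] at hw
      · simp only [h, if_false] at hw
        rw [Ne, multiplicity_eq_zero, not_not] at hw
        exact hw)
  have hn_apply : ∀ w, n w =
      if w ∈ placesAboveQ M T then 0 else multiplicity w.asIdeal (Ideal.span {b}) := fun w => rfl
  have hn_inv : ∀ (s : M ≃ₐ[F] M) w, n (primePerm F M s w) = n w := by
    intro s w
    rw [hn_apply, hn_apply]
    by_cases h : w ∈ placesAboveQ M T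
    · rw [if_pos h, if_pos ((primePerm_mem_placesAboveQ_iff F M T s w).mpr h)]
    · rw [if_neg h, if_neg (fun h' => h ((primePerm_mem_placesAboveQ_iff F M T s w).mp h')),
        hinv s w h]
  have hinvI : ∀ τ : M ≃ₐ[F] M, τ • idealOf n = idealOf n := by
    intro τ
    apply ideal_ext_mult (smul_ne_bot F M τ (idealOf_ne_bot n)) (idealOf_ne_bot n)
    intro v
    obtain ⟨v', rfl⟩ := (primePerm F M τ).surjective v
    rw [mult_smul, mult_idealOf, mult_idealOf, hn_inv]
  have hur : ∀ P : Ideal (𝓞 M), P.IsPrime → P ≠ ⊥ → idealOf n ≤ P →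
      P.ramificationIdx (𝓞 F) = 1 := by
    intro P hP hP0 hle
    let w : Place M := ⟨P, hP, hP0⟩
    have hnw : n w ≠ 0 := by
      rw [← mult_idealOf n w, Ne, multiplicity_eq_zero, not_not]
      exact Ideal.dvd_iff_le.mpr hle
    have hwT : w ∉ placesAboveQ M T := by
      intro h
      apply hnw
      rw [hn_apply, if_pos h]
    apply ramificationIdx_eq_one F M w
    intro σ hσ
    by_contra hne
    exact hwT (hram w ⟨σ, hσ, hne⟩)
  obtain ⟨𝔞, h𝔞⟩ := DescentIdeals.exists_map_eq_of_unramified_support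
    (A := 𝓞 F) (B := 𝓞 M) (G := M ≃ₐ[F] M) (idealOf n) (idealOf_ne_bot n) hur hinvI
  have h𝔞0 : 𝔞 ≠ ⊥ := by
    rintro rfl
    rw [Ideal.map_bot] at h𝔞
    exact idealOf_ne_bot n h𝔞.symm
  obtain ⟨a, c, J, J', ha, hc, hJ, hJ', hEq⟩ := hprin 𝔞 h𝔞0
  refine ⟨a, c, ha, hc, fun w hw => ?_⟩
  have hinj : Function.Injective (algebraMap (𝓞 F) (𝓞 M)) :=
    FaithfulSMul.algebraMap_injective (𝓞 F) (𝓞 M)
  have ha' : Ideal.span {algebraMap (𝓞 F) (𝓞 M) a} ≠ (⊥ : Ideal (𝓞 M)) := by
    simpa using (map_ne_zero_iff _ hinj).mpr ha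
  have hc' : Ideal.span {algebraMap (𝓞 F) (𝓞 M) c} ≠ (⊥ : Ideal (𝓞 M)) := by
    simpa using (map_ne_zero_iff _ hinj).mpr hc
  have hJm : J.map (algebraMap (𝓞 F) (𝓞 M)) ≠ ⊥ := map_ne_bot' F M hJ.1
  have hJm' : J'.map (algebraMap (𝓞 F) (𝓞 M)) ≠ ⊥ := map_ne_bot' F M hJ'.1
  have hmap := congrArg (Ideal.map (algebraMap (𝓞 F) (𝓞 M))) hEq
  rw [Ideal.map_mul, Ideal.map_mul, Ideal.map_mul, Ideal.map_span, Ideal.map_span,
    Set.image_singleton, Set.image_singleton, h𝔞] at hmap
  have h2 := congrArg (multiplicity w.asIdeal) hmap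
  rw [mult_mul w (mul_ne_zero ha' (idealOf_ne_bot n)) hJm, mult_mul w ha' (idealOf_ne_bot n),
    mult_mul w hc' hJm', mult_idealOf, mult_map_eq_zero F M T hJ w hw,
    mult_map_eq_zero F M T hJ' w hw, hn_apply, if_neg hw] at h2
  omega

/-- The valuation of a nonzero integer in terms of the multiplicity of the prime. -/
theorem valuation_eq_exp_mult (w : Place M) (r : 𝓞 M) (hr : r ≠ 0) :
    w.valuation M (r : M) =
      WithZero.exp (-(multiplicity w.asIdeal (Ideal.span {r}) : ℤ)) := by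
  have h1 : (r : M) = algebraMap (𝓞 M) M r := rfl
  rw [h1, HeightOneSpectrum.valuation_of_algebraMap,
    HeightOneSpectrum.intValuation_eq_exp_neg_multiplicity w hr]

/-- **`H¹(Gal(M/F), E_{M,T}) = 0`, concrete form**: a cocycle with values in the `T_M`-units is
the coboundary of a `T_M`-unit, when `M/F` is unramified outside `T` and `Cl_T(F) = 1`. -/
theorem exists_unit_coboundary [IsGalois F M]
    (hram : ∀ w : Place M, (∃ σ : M ≃ₐ[F] M, σ ∈ w.asIdeal.inertia (M ≃ₐ[F] M) ∧ σ ≠ 1) →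
      w ∈ placesAboveQ M T)
    (hprin : ∀ I : Ideal (𝓞 F), I ≠ ⊥ → ∃ (a b : 𝓞 F) (J J' : Ideal (𝓞 F)), a ≠ 0 ∧ b ≠ 0 ∧
      SupportedAboveQ F T J ∧ SupportedAboveQ F T J' ∧
      Ideal.span {a} * I * J = Ideal.span {b} * J')
    (x : (M ≃ₐ[F] M) → Mˣ) (hx : ∀ s, x s ∈ Set.unit (placesAboveQ M T) M)
    (hcoc : ∀ s t, x (s * t) = s • x t * x s) :
    ∃ y : Mˣ, y ∈ Set.unit (placesAboveQ M T) M ∧ ∀ s, x s = s • y / y := by
  obtain ⟨y₀, hy₀⟩ := groupCohomology.isMulCoboundary₁_of_isMulCocycle₁_of_aut_to_units x hcoc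
  -- `s y₀ = x s * y₀`
  have hsy : ∀ s : M ≃ₐ[F] M, s (y₀ : M) = (x s : M) * (y₀ : M) := by
    intro s
    have h1 : s • y₀ = x s * y₀ := by rw [← hy₀ s, div_mul_cancel]
    have h2 := congrArg (fun u : Mˣ => (u : M)) h1
    exact h2
  -- an integral multiple
  have halg : IsAlgebraic ℤ (y₀ : M) :=
    (IsFractionRing.isAlgebraic_iff ℤ ℚ M).mpr (Algebra.IsAlgebraic.isAlgebraic _)
  obtain ⟨m, hm, hint⟩ := halg.exists_integral_multiple
  let b : 𝓞 M := ⟨m • (y₀ : M), hint⟩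
  have hbM : (b : M) = (m : M) * (y₀ : M) := zsmul_eq_mul _ _
  have hmM : (m : M) ≠ 0 := Int.cast_ne_zero.mpr hm
  have hb : b ≠ 0 := by
    intro h
    have h1 : (b : M) = 0 := by rw [h]; rfl
    rw [hbM] at h1
    exact (mul_ne_zero hmM y₀.ne_zero) h1
  have hsb : ∀ s : M ≃ₐ[F] M, s (b : M) = (x s : M) * (b : M) := by
    intro s
    rw [hbM, map_mul, map_intCast, hsy]
    ring
  -- invariance of the valuations outside `T_M`
  have hval : ∀ (s : M ≃ₐ[F] M) (w : Place M), w ∉ placesAboveQ M T →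
      (primePerm F M s w).valuation M (b : M) = w.valuation M (b : M) := by
    intro s w hw
    have hw' : primePerm F M s w ∉ placesAboveQ M T :=
      fun h => hw ((primePerm_mem_placesAboveQ_iff F M T s w).mp h)
    have h1 := valuation_primePerm F M s w (b : M)
    rw [hsb, map_mul, (hx s) _ hw', one_mul] at h1
    exact h1
  have hinv : ∀ (s : M ≃ₐ[F] M) (w : Place M), w ∉ placesAboveQ M T →
      multiplicity (primePerm F M s w).asIdeal (Ideal.span {b}) =
        multiplicity w.asIdeal (Ideal.span {b}) := by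
    intro s w hw
    have h1 := hval s w hw
    rw [valuation_eq_exp_mult M _ b hb, valuation_eq_exp_mult M _ b hb, WithZero.exp_inj,
      neg_inj, Nat.cast_inj] at h1
    exact h1
  obtain ⟨a, c, ha, hc, hac⟩ := exists_base_quotient F M T hram hprin b hb hinv
  -- the correcting element of `F`
  have haF : (a : F) ≠ 0 := fun h => ha (RingOfIntegers.ext (by simpa using h))
  have hcF : (c : F) ≠ 0 := fun h => hc (RingOfIntegers.ext (by simpa using h))
  have hmF : (m : F) ≠ 0 := Int.cast_ne_zero.mpr hm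
  let z : Fˣ := Units.mk0 ((m : F) * (a : F) / (c : F)) (div_ne_zero (mul_ne_zero hmF haF) hcF)
  let zM : Mˣ := Units.map (algebraMap F M : F →* M) z
  have hzM : (zM : M) = (m : M) * algebraMap F M (a : F) / algebraMap F M (c : F) := by
    show algebraMap F M ((m : F) * (a : F) / (c : F)) = _
    rw [map_div₀, map_mul, map_intCast]
  have hszM : ∀ s : M ≃ₐ[F] M, s • zM = zM := by
    intro s
    apply Units.ext
    show s (algebraMap F M _) = algebraMap F M _
    exact s.commutes _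
  refine ⟨y₀ * zM, ?_, ?_⟩
  · intro w hw
    have hinj : Function.Injective (algebraMap (𝓞 F) (𝓞 M)) :=
      FaithfulSMul.algebraMap_injective (𝓞 F) (𝓞 M)
    have ha' : algebraMap (𝓞 F) (𝓞 M) a ≠ 0 := (map_ne_zero_iff _ hinj).mpr ha
    have hc' : algebraMap (𝓞 F) (𝓞 M) c ≠ 0 := (map_ne_zero_iff _ hinj).mpr hc
    have e1 : ((y₀ * zM : Mˣ) : M) = (b : M) *
        ((algebraMap (𝓞 F) (𝓞 M) a : 𝓞 M) : M) / ((algebraMap (𝓞 F) (𝓞 M) c : 𝓞 M) : M) := by
      rw [Units.val_mul, hzM, hbM]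
      have h1 : ((algebraMap (𝓞 F) (𝓞 M) a : 𝓞 M) : M) = algebraMap F M (a : F) := rfl
      have h2 : ((algebraMap (𝓞 F) (𝓞 M) c : 𝓞 M) : M) = algebraMap F M (c : F) := rfl
      rw [h1, h2]
      ring
    rw [e1, map_div₀, map_mul, valuation_eq_exp_mult M w b hb,
      valuation_eq_exp_mult M w _ ha', valuation_eq_exp_mult M w _ hc', ← WithZero.exp_add,
      ← WithZero.exp_sub, ← hac w hw]
    rw [show (-(multiplicity w.asIdeal (Ideal.span {b}) : ℤ) +
      -(multiplicity w.asIdeal (Ideal.span {algebraMap (𝓞 F) (𝓞 M) a}) : ℤ) -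
      -((multiplicity w.asIdeal (Ideal.span {b}) +
        multiplicity w.asIdeal (Ideal.span {algebraMap (𝓞 F) (𝓞 M) a}) : ℕ) : ℤ)) = 0 by
        push_cast; ring]
    exact WithZero.exp_zero
  · intro s
    rw [smul_mul', hszM, ← hy₀ s, mul_div_mul_right_eq_div]

end relative

section below

variable (F M : Type) [Field F] [NumberField F] [Field M] [NumberField M] [Algebra F M]
variable (T : Finset Nat.Primes)

theorem primeBelow_mem_placesAboveQ_iff (w : Place M) :
    primeBelow F M w ∈ placesAboveQ F T ↔ w ∈ placesAboveQ M T := by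
  have key : ∀ n : ℕ, (n : 𝓞 F) ∈ (primeBelow F M w).asIdeal ↔ (n : 𝓞 M) ∈ w.asIdeal := by
    intro n
    rw [mem_primeBelow, map_natCast]
  constructor
  · rintro ⟨q, hq, hqw⟩
    exact ⟨q, hq, (key _).mp hqw⟩
  · rintro ⟨q, hq, hqw⟩
    exact ⟨q, hq, (key _).mpr hqw⟩

/-- An element of `Fˣ` is a `T_M`-unit of `M` iff it is a `T_F`-unit of `F`. -/
theorem map_mem_EUnitsQ_iff (x : Fˣ) :
    Units.map (algebraMap F M : F →* M) x ∈ EUnitsQ M T ↔ x ∈ EUnitsQ F T := by
  rw [EUnitsQ_eq, EUnitsQ_eq, mem_unit_iff, mem_unit_iff]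
  have hval : ∀ w : Place M, (primeBelow F M w).valuation F (x : F) ^
      (primeBelow F M w).asIdeal.ramificationIdx' w.asIdeal =
      w.valuation M ((Units.map (algebraMap F M : F →* M) x : Mˣ) : M) := fun w =>
    HeightOneSpectrum.valuation_liesOver (K := F) M (primeBelow F M w) w (x : F)
  constructor
  · intro h v hv
    obtain ⟨w, rfl⟩ := primeBelow_surjective F M v
    have hw : w ∉ placesAboveQ M T := fun h' => hv ((primeBelow_mem_placesAboveQ_iff F M T w).mpr h')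
    have h1 := hval w
    rw [h w hw] at h1
    rcases pow_eq_one_iff.mp h1 with h2 | h2
    · exact h2
    · exact absurd h2 (Ideal.IsDedekindDomain.ramificationIdx'_ne_zero_of_liesOver w.asIdeal
        (primeBelow F M w).ne_bot)
  · intro h w hw
    have hv : primeBelow F M w ∉ placesAboveQ F T :=
      fun h' => hw ((primeBelow_mem_placesAboveQ_iff F M T w).mp h')
    rw [← hval w, h _ hv, one_pow]

end below

section subgroup

variable (K M : Type) [Field K] [NumberField K] [Field M] [NumberField M] [Algebra K M]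
  [IsGalois K M]
variable {T : Finset Nat.Primes} {p : ℕ}

/-- **`H¹(N, E_{M,T}) = 0` for every subgroup `N ≤ Gal(M/K)`**, on the level of `Mˣ`. -/
theorem exists_unit_coboundary_subgroup (hadm : AdmissibleQ K M p T)
    (N : Subgroup (M ≃ₐ[K] M)) (u : N → Mˣ) (hu : ∀ s, u s ∈ EUnitsQ M T)
    (hcoc : ∀ s t : N, u (s * t) = (s : M ≃ₐ[K] M) • u t * u s) :
    ∃ y : Mˣ, y ∈ EUnitsQ M T ∧ ∀ s : N, u s = (s : M ≃ₐ[K] M) • y / y := by
  let F := IntermediateField.fixedField N
  let e : N ≃* (M ≃ₐ[F] M) := IntermediateField.subgroupEquivAlgEquiv N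
  have he : ∀ (s : N) (v : Mˣ), e s • v = (s : M ≃ₐ[K] M) • v := fun s v => rfl
  have hram : ∀ w : Place M, (∃ σ : M ≃ₐ[F] M, σ ∈ w.asIdeal.inertia (M ≃ₐ[F] M) ∧ σ ≠ 1) →
      w ∈ placesAboveQ M T := by
    rintro w ⟨σ, hσ, hne⟩
    refine hadm.ram w ⟨((e.symm σ : N) : M ≃ₐ[K] M), ?_, ?_⟩
    · intro x
      exact hσ x
    · intro h1
      apply hne
      have h2 : e.symm σ = 1 := Subtype.ext h1
      rw [← e.apply_symm_apply σ, h2, map_one]
  obtain ⟨y, hy, hxy⟩ := exists_unit_coboundary F M T hram (hadm.principal F (algebraMap F M))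
    (fun σ => u (e.symm σ)) (fun σ => by rw [← EUnitsQ_eq]; exact hu _)
    (fun σ τ => by
      have h1 := hcoc (e.symm σ) (e.symm τ)
      rw [← map_mul] at h1
      rw [h1, ← he, e.apply_symm_apply])
  refine ⟨y, by rw [EUnitsQ_eq]; exact hy, fun s => ?_⟩
  have h1 := hxy (e s)
  rw [e.symm_apply_apply, he] at h1
  exact h1

end subgroup

section H1

open TensorProduct

variable (K M : Type) [Field K] [NumberField K] [Field M] [NumberField M] [Algebra K M]
variable {T : Finset Nat.Primes} {p : ℕ}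

/-- `x ↦ x ⊗ 1` is injective on units when `T` is nonempty. -/
theorem inclUnits_injective (hT : T.Nonempty) : Function.Injective (inclUnits ℚ M (QT T)) := by
  obtain ⟨q, hq⟩ := hT
  have : Nonempty T := ⟨⟨q, hq⟩⟩
  have hb : Function.Injective (algebraMap ℚ (QT T)) := (algebraMap ℚ (QT T)).injective
  exact Units.map_injective (Algebra.TensorProduct.includeLeft_injective (S := ℚ) hb)

theorem nonempty_of_admissibleQ (hadm : AdmissibleQ K M p T) : T.Nonempty := by
  obtain ⟨q, hq, -⟩ := hadm.mem_p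
  exact ⟨q, hq⟩

/-- **`H¹(N, E_{M,T}) = 0`** for every subgroup `N ≤ Gal(M/K)`, `T` admissible for `M/K`. -/
theorem h1Vanishes_En [IsGalois K M] (hadm : AdmissibleQ K M p T) (N : Subgroup (M ≃ₐ[K] M)) :
    Descent.H1Vanishes (En K M T) N := by
  intro χ hχ
  have hinj := inclUnits_injective M (nonempty_of_admissibleQ K M hadm)
  have hmem : ∀ s : N, ∃ v : Mˣ, v ∈ EUnitsQ M T ∧
      inclUnits ℚ M (QT T) v = Additive.toMul (Rep.toAdditive ((χ s).1)) := fun s => (χ s).2
  choose u hu hu' using hmem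
  have hcoc : ∀ s t : N, u (s * t) = (s : M ≃ₐ[K] M) • u t * u s := by
    intro s t
    apply hinj
    rw [hu', hχ s t, map_mul, hu' s]
    have h1 : (resHom K M (s : M ≃ₐ[K] M)) • inclUnits ℚ M (QT T) (u t) =
        inclUnits ℚ M (QT T) ((s : M ≃ₐ[K] M) • u t) := smul_inclUnits (QT T) _ (u t)
    rw [← h1, hu' t]
    rfl
  obtain ⟨y, hy, hy'⟩ := exists_unit_coboundary_subgroup K M hadm N u hu hcoc
  refine ⟨⟨Rep.toAdditive.symm (Additive.ofMul (inclUnits ℚ M (QT T) y)), ⟨y, hy, rfl⟩⟩,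
    fun s => ?_⟩
  apply Subtype.ext
  have h2 : Additive.toMul (Rep.toAdditive ((χ s).1)) =
      inclUnits ℚ M (QT T) ((s : M ≃ₐ[K] M) • y / y) := by rw [← hu' s, hy' s]
  have h3 : (χ s).1 = Rep.toAdditive.symm (Additive.ofMul
      (inclUnits ℚ M (QT T) ((s : M ≃ₐ[K] M) • y / y))) := by
    rw [← h2]; rfl
  rw [h3, map_div]
  have h1 : (resHom K M (s : M ≃ₐ[K] M)) • inclUnits ℚ M (QT T) y =
      inclUnits ℚ M (QT T) ((s : M ≃ₐ[K] M) • y) := smul_inclUnits (QT T) _ y
  rw [← h1]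
  rfl

/-- Categorical form: `H¹(N, E_{M,T}) = 0` as Mathlib group cohomology of the restriction. -/
theorem isZero_H1_res_En [IsGalois K M] (hadm : AdmissibleQ K M p T)
    (N : Subgroup (M ≃ₐ[K] M)) :
    CategoryTheory.Limits.IsZero (groupCohomology (Rep.res N.subtype (En K M T)) 1) :=
  Descent.isZero_of_h1Vanishes (En K M T) N (h1Vanishes_En K M hadm N)

end H1

end Fermat.Agent.S55.Global.DescentUnits
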