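/-
S55 / Global, row G.bridge2 (adapters (L8), (L7) of helper54's ruling #1816), interface v3.

`K ⊆ L` number fields, `L/K` Galois, `T : Finset Nat.Primes`, `B_L := L ⊗[ℚ] ℚ_T`,
`Gal(L/K)` acting on `B_Lˣ` through `resHom K L : Gal(L/K) → Aut(L/ℚ)`.

* `exists_base_unit_of_fixed` (L8): a `Gal(L/K)`-fixed unit of `B_L` comes from a unit of
  `B_K = K ⊗[ℚ] ℚ_T`.
* `exists_tunit_fixed` (L7): if `τ u / u` is (the image of) a `T`-unit of `L` for every `τ`, then
  after dividing `u` by a suitable `T`-unit it becomes `Gal(L/K)`-fixed  (`H¹(Gal(L/K), E_{L,T}) = 0`,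
  helper38 `DescentUnits`).
* `exists_base_unit_mul_tunit` : both combined: `u = (image of y ∈ B_Kˣ) * (e ⊗ 1)`, `e` a `T`-unit.
-/
import Mathlib
import Fermat.Agent.S55.Global.DescentTensorQ
import Fermat.Agent.S55.Global.DescentUnits

set_option autoImplicit false
set_option linter.unusedSectionVars false

open TensorProduct

namespace Fermat.Agent.S55.Global.Bridge2Descent

open Fermat.Agent.S55.Global.Objects Fermat.Agent.S55.Global.Objects2
open Fermat.Agent.S55.Global.Blocks2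

variable (K L : Type) [Field K] [NumberField K] [Field L] [NumberField L] [Algebra K L]
variable (T : Finset Nat.Primes)

/-- The base change map `K ⊗[ℚ] ℚ_T → L ⊗[ℚ] ℚ_T`. -/
noncomputable abbrev baseMap : K ⊗[ℚ] QT T →ₐ[ℚ] L ⊗[ℚ] QT T :=
  Algebra.TensorProduct.map (IsScalarTower.toAlgHom ℚ K L) (AlgHom.id ℚ (QT T))

theorem baseMap_eq_inclQ : baseMap K L T = DescentTensorQ.inclQ (F := K) (M := L) (QT T) := by
  apply Algebra.TensorProduct.ext'
  intro x a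
  rfl

theorem baseMap_injective : Function.Injective (baseMap K L T) := by
  rw [baseMap_eq_inclQ]
  exact DescentTensorQ.inclQ_injective (QT T)

/-- **(L8)** `Gal(L/K)`-fixed units of `L ⊗[ℚ] ℚ_T` come from `(K ⊗[ℚ] ℚ_T)ˣ`. -/
theorem exists_base_unit_of_fixed [IsGalois K L] (u : (L ⊗[ℚ] QT T)ˣ)
    (hu : ∀ τ : L ≃ₐ[K] L, resHom K L τ • u = u) :
    ∃ y : (K ⊗[ℚ] QT T)ˣ,
      u = Units.map (Algebra.TensorProduct.map (IsScalarTower.toAlgHom ℚ K L)
        (AlgHom.id ℚ (QT T))).toMonoidHom y := by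
  obtain ⟨y, hy⟩ := DescentTensorQ.exists_unit_of_invariantQ (F := K) (M := L) (QT T)
    (Set.range (resHom K L)) (fun x hx => by
      have hx' : ∀ τ : L ≃ₐ[K] L, τ x = x := fun τ => hx (resHom K L τ) ⟨τ, rfl⟩
      have := (IsGalois.mem_bot_iff_fixed (F := K) (E := L) x).mpr hx'
      rw [IntermediateField.mem_bot] at this
      exact this) u (by
      rintro σ ⟨τ, rfl⟩
      have := congrArg (fun v : (L ⊗[ℚ] QT T)ˣ => (v : L ⊗[ℚ] QT T)) (hu τ)
      exact this)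
  refine ⟨y, ?_⟩
  rw [← hy]
  apply Units.ext
  show DescentTensorQ.inclQ (F := K) (M := L) (QT T) (y : K ⊗[ℚ] QT T) = baseMap K L T y
  rw [baseMap_eq_inclQ]

variable {T} {p : ℕ}

/-- commutativity in `(L ⊗[ℚ] ℚ_T)ˣ` (instance search for `CommGroup` on this unit group is too deep
for Lean, so we state it by hand). -/
theorem units_mul_comm (a b : (L ⊗[ℚ] QT T)ˣ) : a * b = b * a :=
  Units.ext (mul_comm (a : L ⊗[ℚ] QT T) (b : L ⊗[ℚ] QT T))

theorem units_mul_div_mul_left (a b c : (L ⊗[ℚ] QT T)ˣ) : c * a / (c * b) = a / b := by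
  rw [units_mul_comm L c a, units_mul_comm L c b, mul_div_mul_right_eq_div]

/-- **(L7)** a unit of `L ⊗[ℚ] ℚ_T` which is `Gal(L/K)`-fixed modulo `T`-units becomes fixed after
division by a `T`-unit (`H¹(Gal(L/K), E_{L,T}) = 0`). -/
theorem exists_tunit_fixed [IsGalois K L] (hadm : AdmissibleQ K L p T) (u : (L ⊗[ℚ] QT T)ˣ)
    (hu : ∀ τ : L ≃ₐ[K] L,
      (resHom K L τ • u) / u ∈ (EUnitsQ L T).map (inclUnits ℚ L (QT T))) :
    ∃ e ∈ EUnitsQ L T, ∀ τ : L ≃ₐ[K] L,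
      resHom K L τ • (u / inclUnits ℚ L (QT T) e) = u / inclUnits ℚ L (QT T) e := by
  have hinj := DescentUnits.inclUnits_injective L (DescentUnits.nonempty_of_admissibleQ K L hadm)
  choose v hv hv' using hu
  have hsm : ∀ (τ : L ≃ₐ[K] L) (x : Lˣ), resHom K L τ • inclUnits ℚ L (QT T) x =
      inclUnits ℚ L (QT T) (τ • x) := fun τ x => smul_inclUnits (QT T) (resHom K L τ) x
  have hcoc : ∀ s t : (⊤ : Subgroup (L ≃ₐ[K] L)),
      v ((s * t : (⊤ : Subgroup (L ≃ₐ[K] L))) : L ≃ₐ[K] L) =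
        (s : L ≃ₐ[K] L) • v (t : L ≃ₐ[K] L) * v (s : L ≃ₐ[K] L) := by
    intro s t
    apply hinj
    rw [map_mul, ← hsm, hv', hv', hv', Subgroup.coe_mul, map_mul, mul_smul, smul_div']
    rw [div_mul_div_cancel]
  obtain ⟨y, hy, hy'⟩ := DescentUnits.exists_unit_coboundary_subgroup K L hadm ⊤
    (fun s => v (s : L ≃ₐ[K] L)) (fun s => hv _) hcoc
  refine ⟨y, hy, fun τ => ?_⟩
  have h1 := hy' ⟨τ, Subgroup.mem_top τ⟩
  have h2 : τ • y = v τ * y := by
    have : v τ = τ • y / y := h1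
    rw [this, div_mul_cancel]
  have h3 : resHom K L τ • u = inclUnits ℚ L (QT T) (v τ) * u := by
    rw [hv', div_mul_cancel]
  rw [smul_div', hsm, h2, h3, map_mul]
  exact units_mul_div_mul_left L u (inclUnits ℚ L (QT T) y) (inclUnits ℚ L (QT T) (v τ))

/-- (L7) + (L8): `u = (image of a unit of K ⊗ ℚ_T) * (T-unit ⊗ 1)`. -/
theorem exists_base_unit_mul_tunit [IsGalois K L] (hadm : AdmissibleQ K L p T)
    (u : (L ⊗[ℚ] QT T)ˣ)
    (hu : ∀ τ : L ≃ₐ[K] L,
      (resHom K L τ • u) / u ∈ (EUnitsQ L T).map (inclUnits ℚ L (QT T))) :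
    ∃ e ∈ EUnitsQ L T, ∃ y : (K ⊗[ℚ] QT T)ˣ,
      u = Units.map (Algebra.TensorProduct.map (IsScalarTower.toAlgHom ℚ K L)
        (AlgHom.id ℚ (QT T))).toMonoidHom y * inclUnits ℚ L (QT T) e := by
  obtain ⟨e, he, hfix⟩ := exists_tunit_fixed K L hadm u hu
  obtain ⟨y, hy⟩ := exists_base_unit_of_fixed K L T (u / inclUnits ℚ L (QT T) e) hfix
  exact ⟨e, he, y, by rw [← hy, div_mul_cancel]⟩

end Fermat.Agent.S55.Global.Bridge2Descent
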