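/-
S55 / Global / G.bridge2, unit and norm bookkeeping in the `ℚ`-based vocabulary (helper96).

Inputs for the hypotheses `hunit`, `hnorm` (and the "`p`-th powers are norms" half of `hray`) of
helper42's `Bridge2AbsQ.card_le_finrank_of_deltaQ`, for the map
`δ : Kˣ →* ker (σ - 1 | Cn K L T) ⧸ Nm`, `a ↦` class of `a ⊗ 1`.
-/
import Mathlib
import Fermat.Agent.S55.Global.Blocks2
import Fermat.Agent.S55.Global.Bridge2AbsQ

set_option autoImplicit false
set_option linter.unusedSectionVars false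

open NumberField IsDedekindDomain TensorProduct

namespace Fermat.Agent.S55.Global.Bridge2Units

open Fermat.Agent.S55.Global.Objects Fermat.Agent.S55.Global.Objects2
open Fermat.Agent.S55.Global.Blocks2 Fermat.Agent.S55.Global.Bridge2Abs
open Fermat.Agent.S55.Global.Bridge2AbsQ

section hunit

variable {K : Type} [Field K] [NumberField K] {L : Type} [Field L] [NumberField L]
variable {T : Finset Nat.Primes}

/-- A ring hom `𝓞 K →+* 𝓞 L` sends an ideal supported above `T` to an ideal not contained in any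
prime `w` of `L` which is not above `T`. -/
theorem not_map_le_of_supportedAboveQ (φ : 𝓞 K →+* 𝓞 L) {J : Ideal (𝓞 K)}
    (hJ : SupportedAboveQ K T J) (w : Place L) (hw : w ∉ placesAboveQ L T) :
    ¬ J.map φ ≤ w.asIdeal := by
  intro hle
  have hle' : J ≤ w.asIdeal.comap φ := Ideal.map_le_iff_le_comap.mp hle
  have hP : (w.asIdeal.comap φ).IsPrime := Ideal.comap_isPrime φ w.asIdeal
  obtain ⟨q, hq, hqP⟩ := hJ.2 _ hP hle'
  apply hw
  refine ⟨q, hq, ?_⟩
  rw [Ideal.mem_comap, map_natCast] at hqP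
  exact hqP

/-- If `(x) J = (y) J'` in `𝓞 K` with `J, J'` supported above `T`, then for any ring hom
`φ : 𝓞 K →+* 𝓞 L` the images of `x` and `y` have the same valuation at every place of `L` not
above `T`. -/
theorem intValuation_map_eq (φ : 𝓞 K →+* 𝓞 L) (hφ : Function.Injective φ) {x y : 𝓞 K}
    (hx : x ≠ 0) (hy : y ≠ 0) {J J' : Ideal (𝓞 K)} (hJ : SupportedAboveQ K T J)
    (hJ' : SupportedAboveQ K T J') (h : Ideal.span {x} * J = Ideal.span {y} * J')
    (w : Place L) (hw : w ∉ placesAboveQ L T) :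
    w.intValuation (φ x) = w.intValuation (φ y) := by
  have hx' : φ x ≠ 0 := (map_ne_zero_iff φ hφ).mpr hx
  have hy' : φ y ≠ 0 := (map_ne_zero_iff φ hφ).mpr hy
  have hmap : Ideal.span {φ x} * J.map φ = Ideal.span {φ y} * J'.map φ := by
    have := congrArg (Ideal.map φ) h
    rwa [Ideal.map_mul, Ideal.map_mul, Ideal.map_span, Ideal.map_span, Set.image_singleton,
      Set.image_singleton] at this
  have hprime : Prime w.asIdeal := w.prime
  have h1 : emultiplicity w.asIdeal (J.map φ) = 0 := by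
    rw [emultiplicity_eq_zero, Ideal.dvd_iff_le]
    exact not_map_le_of_supportedAboveQ φ hJ w hw
  have h2 : emultiplicity w.asIdeal (J'.map φ) = 0 := by
    rw [emultiplicity_eq_zero, Ideal.dvd_iff_le]
    exact not_map_le_of_supportedAboveQ φ hJ' w hw
  have h3 : emultiplicity w.asIdeal (Ideal.span {φ x}) =
      emultiplicity w.asIdeal (Ideal.span {φ y}) := by
    have := congrArg (emultiplicity w.asIdeal) hmap
    rwa [emultiplicity_mul hprime, emultiplicity_mul hprime, h1, h2, add_zero, add_zero] at this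
  rw [HeightOneSpectrum.intValuation_eq_exp_neg_multiplicity _ hx',
    HeightOneSpectrum.intValuation_eq_exp_neg_multiplicity _ hy']
  have h4 : multiplicity w.asIdeal (Ideal.span {φ x}) =
      multiplicity w.asIdeal (Ideal.span {φ y}) := by
    unfold multiplicity
    rw [h3]
  rw [h4]

end hunit

section hunit2

variable {K : Type} [Field K] [NumberField K] {L : Type} [Field L] [NumberField L] [Algebra K L]
variable {T : Finset Nat.Primes}

/-- `𝓞 K →+* 𝓞 L`, `x ↦ σ x` for `σ ∈ Aut(L/ℚ)`. -/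
noncomputable def twistHom (σ : L ≃ₐ[ℚ] L) : 𝓞 K →+* 𝓞 L :=
  RingOfIntegers.mapRingHom (((σ : L ≃+* L) : L →+* L).comp (algebraMap K L))

theorem coe_twistHom (σ : L ≃ₐ[ℚ] L) (x : 𝓞 K) :
    ((twistHom (K := K) σ x : 𝓞 L) : L) = σ (algebraMap K L (x : K)) := rfl

theorem twistHom_injective (σ : L ≃ₐ[ℚ] L) : Function.Injective (twistHom (K := K) σ) := by
  intro a b hab
  have h1 : ((twistHom (K := K) σ a : 𝓞 L) : L) = ((twistHom (K := K) σ b : 𝓞 L) : L) := by
    rw [hab]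
  rw [coe_twistHom, coe_twistHom] at h1
  have h2 : algebraMap K L (a : K) = algebraMap K L (b : K) := σ.injective h1
  exact RingOfIntegers.ext ((algebraMap K L).injective h2)

/-- **(hunit)**: if `(x) J = (y) J'` in `𝓞 K` with `J, J'` supported above `T`, then `x / y` (in
`L`) is a `T_L`-unit in the `Aut(L/ℚ)`-stable sense. -/
theorem map_div_mem_EUnitsQ {x y : 𝓞 K} (hx : x ≠ 0) (hy : y ≠ 0) {J J' : Ideal (𝓞 K)}
    (hJ : SupportedAboveQ K T J) (hJ' : SupportedAboveQ K T J')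
    (h : Ideal.span {x} * J = Ideal.span {y} * J') :
    Units.map ((algebraMap K L : K →+* L) : K →* L) (toU x hx / toU y hy) ∈ EUnitsQ L T := by
  rw [mem_EUnitsQ]
  intro σ
  show ∀ w : Place L, w ∉ placesAboveQ L T → _
  intro w hw
  have hval : ((σ • Units.map ((algebraMap K L : K →+* L) : K →* L) (toU x hx / toU y hy) : Lˣ) : L)
      = ((twistHom (K := K) σ x : 𝓞 L) : L) / ((twistHom (K := K) σ y : 𝓞 L) : L) := by
    rw [coe_twistHom, coe_twistHom, ← map_div₀, ← map_div₀]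
    show σ ((algebraMap K L) ((toU x hx / toU y hy : Kˣ) : K)) = _
    rw [Units.val_div_eq_div_val, coe_toU, coe_toU]
  have hx' : twistHom (K := K) σ x ≠ 0 := (map_ne_zero_iff _ (twistHom_injective σ)).mpr hx
  have hy' : twistHom (K := K) σ y ≠ 0 := (map_ne_zero_iff _ (twistHom_injective σ)).mpr hy
  have hiv := intValuation_map_eq (twistHom (K := K) σ) (twistHom_injective σ) hx hy hJ hJ' h w hw
  have hne : w.intValuation (twistHom (K := K) σ y) ≠ 0 :=
    HeightOneSpectrum.intValuation_ne_zero _ _ hy'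
  rw [hval, map_div₀]
  change w.valuation L (algebraMap (𝓞 L) L (twistHom (K := K) σ x)) /
    w.valuation L (algebraMap (𝓞 L) L (twistHom (K := K) σ y)) = 1
  rw [HeightOneSpectrum.valuation_of_algebraMap, HeightOneSpectrum.valuation_of_algebraMap, hiv]
  exact div_self hne

end hunit2

/-- The unit group `(L ⊗[ℚ] A)ˣ`, with the SAME instance path as in `JRep ℚ L A` (writing
`(L ⊗[ℚ] QT T)ˣ` directly makes Lean pick a different, only definitionally equal, `Monoid`
instance, and instance synthesis for `CommGroup` then fails). -/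
abbrev JU (L : Type) [Field L] [NumberField L] (A : Type) [CommRing A] [Algebra ℚ A] : Type :=
  (L ⊗[ℚ] A)ˣ

section hnorm

variable {K : Type} [Field K] [NumberField K] {L : Type} [Field L] [NumberField L] [Algebra K L]
variable (A : Type) [CommRing A] [Algebra ℚ A]

/-- The base change map `(K ⊗[ℚ] A)ˣ → (L ⊗[ℚ] A)ˣ`. -/
noncomputable abbrev baseUnits (K L : Type) [Field K] [NumberField K] [Field L] [NumberField L]
    [Algebra K L] (A : Type) [CommRing A] [Algebra ℚ A] : (K ⊗[ℚ] A)ˣ →* (L ⊗[ℚ] A)ˣ :=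
  Units.map (Algebra.TensorProduct.map (IsScalarTower.toAlgHom ℚ K L) (AlgHom.id ℚ A)).toMonoidHom

/-- `a ⊗ 1` computed in `K` or in `L`. -/
theorem inclUnits_map (a : Kˣ) :
    inclUnits ℚ L A (Units.map ((algebraMap K L : K →+* L) : K →* L) a) =
      baseUnits K L A (inclUnits ℚ K A a) := by
  apply Units.ext
  rfl

/-- The image of `(K ⊗[ℚ] A)ˣ` in `(L ⊗[ℚ] A)ˣ` is fixed by `Gal(L/K)`. -/
theorem smul_baseUnits (τ : L ≃ₐ[K] L) (y : (K ⊗[ℚ] A)ˣ) :
    resHom K L τ • baseUnits K L A y = baseUnits K L A y := by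
  apply Units.ext
  show resHom K L τ • ((Algebra.TensorProduct.map (IsScalarTower.toAlgHom ℚ K L) (AlgHom.id ℚ A))
    (y : K ⊗[ℚ] A)) = (Algebra.TensorProduct.map (IsScalarTower.toAlgHom ℚ K L) (AlgHom.id ℚ A))
    (y : K ⊗[ℚ] A)
  generalize (y : K ⊗[ℚ] A) = z
  induction z using TensorProduct.induction_on with
  | zero => simp
  | tmul x a =>
    rw [Algebra.TensorProduct.map_tmul, Objects.smul_tmul']
    congr 1
    exact τ.commutes x
  | add x y hx hy => rw [map_add, smul_add, hx, hy]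

/-- In particular `a ⊗ 1`, `a ∈ Kˣ`, is fixed by `Gal(L/K)`. -/
theorem smul_inclUnits_map (τ : L ≃ₐ[K] L) (a : Kˣ) :
    resHom K L τ • inclUnits ℚ L A (Units.map ((algebraMap K L : K →+* L) : K →* L) a) =
      inclUnits ℚ L A (Units.map ((algebraMap K L : K →+* L) : K →* L) a) := by
  rw [inclUnits_map, smul_baseUnits]

/-- **(hnorm)**: `N_{L/K}(b) ⊗ 1 = ∏_τ τ • (b ⊗ 1)`. -/
theorem inclUnits_norm [IsGalois K L] [Fintype (L ≃ₐ[K] L)] (b : Lˣ) :
    inclUnits ℚ L A (Units.map ((algebraMap K L : K →+* L) : K →* L)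
      (Units.map (Algebra.norm K : L →* K) b)) =
      ∏ τ : L ≃ₐ[K] L, resHom K L τ • inclUnits ℚ L A b := by
  have h1 : Units.map ((algebraMap K L : K →+* L) : K →* L)
      (Units.map (Algebra.norm K : L →* K) b) = ∏ τ : L ≃ₐ[K] L, τ • b := by
    apply Units.ext
    rw [Units.coe_prod]
    show algebraMap K L (Algebra.norm K (b : L)) = _
    rw [Algebra.norm_eq_prod_automorphisms]
    refine Finset.prod_congr ?_ (fun _ _ => rfl)
    ext τ
    simp only [Finset.mem_univ]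
  rw [h1, map_prod]
  refine Finset.prod_congr rfl (fun τ _ => ?_)
  rw [smul_inclUnits]
  rfl

/-- **(hfix)**: a `Gal(L/K)`-fixed unit has norm its `[L:K]`-th power. -/
theorem prod_smul_eq_pow [Fintype (L ≃ₐ[K] L)] (z : (L ⊗[ℚ] A)ˣ)
    (hz : ∀ τ : L ≃ₐ[K] L, resHom K L τ • z = z) :
    ∏ τ : L ≃ₐ[K] L, resHom K L τ • z = z ^ Fintype.card (L ≃ₐ[K] L) := by
  rw [Finset.prod_congr rfl (fun τ _ => hz τ), Finset.prod_const, Finset.card_univ]

theorem prod_smul_eq_pow' [Fintype (L ≃ₐ[K] L)] {p : ℕ} (hp : Nat.card (L ≃ₐ[K] L) = p)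
    (z : (L ⊗[ℚ] A)ˣ) (hz : ∀ τ : L ≃ₐ[K] L, resHom K L τ • z = z) :
    ∏ τ : L ≃ₐ[K] L, resHom K L τ • z = z ^ p := by
  rw [prod_smul_eq_pow A z hz, ← Nat.card_eq_fintype_card, hp]

/-- `p`-th powers of elements of `(K ⊗[ℚ] A)ˣ` are norms from `(L ⊗[ℚ] A)ˣ` when `[L:K] = p`. -/
theorem baseUnits_pow_eq_prod [Fintype (L ≃ₐ[K] L)] {p : ℕ} (hp : Nat.card (L ≃ₐ[K] L) = p)
    (y : (K ⊗[ℚ] A)ˣ) :
    baseUnits K L A (y ^ p) = ∏ τ : L ≃ₐ[K] L, resHom K L τ • baseUnits K L A y := by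
  rw [prod_smul_eq_pow' A hp _ (fun τ => smul_baseUnits A τ y), map_pow]

end hnorm

/-! ### `Rep`-level forms: the map `Kˣ → (Cn K L T)^G`, `a ↦` class of `a ⊗ 1` -/

section rep

variable (K : Type) [Field K] [NumberField K] (L : Type) [Field L] [NumberField L] [Algebra K L]
variable (T : Finset Nat.Primes)

/-- A unit of `L ⊗[ℚ] ℚ_T` as an element of (the underlying additive group of) `JQ L T`. -/
noncomputable def ofUnit : Additive (JU L (QT T)) ≃+ (JQ L T) :=
  (Rep.toAdditive (M := L ≃ₐ[ℚ] L) (G := JU L (QT T))).symm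

variable {L T}

theorem toMul_toAdditive_ofUnit (u : JU L (QT T)) :
    Additive.toMul (Rep.toAdditive (ofUnit L T (Additive.ofMul u))) = u := rfl

theorem ofUnit_mem_ESubQ_iff (u : JU L (QT T)) :
    ofUnit L T (Additive.ofMul u) ∈ ESubQ L T ↔
      u ∈ (EUnitsQ L T).map (inclUnits ℚ L (QT T)) := Iff.rfl

theorem JQtoCQ_eq_zero_iff (a : JQ L T) : (JQtoCQ L T).hom a = 0 ↔ a ∈ ESubQ L T := by
  show (ESubQ L T).mkQ a = 0 ↔ _
  rw [Submodule.mkQ_apply, Submodule.Quotient.mk_eq_zero]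

/-- `JQtoCQ` kills the `T_L`-units. -/
theorem JQtoCQ_inclUnits_eq_zero {e : Lˣ} (he : e ∈ EUnitsQ L T) :
    (JQtoCQ L T).hom (ofUnit L T (Additive.ofMul (inclUnits ℚ L (QT T) e))) = 0 := by
  rw [JQtoCQ_eq_zero_iff, ofUnit_mem_ESubQ_iff]
  exact ⟨e, he, rfl⟩

variable {K}

theorem rho_Jn_ofUnit (τ : L ≃ₐ[K] L) (u : JU L (QT T)) :
    (Jn K L T).ρ τ (ofUnit L T (Additive.ofMul u)) =
      ofUnit L T (Additive.ofMul (resHom K L τ • u)) := rfl

theorem rho_Cn_JQtoCQ (τ : L ≃ₐ[K] L) (a : JQ L T) :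
    (Cn K L T).ρ τ ((JQtoCQ L T).hom a) = (JQtoCQ L T).hom ((Jn K L T).ρ τ a) := rfl

theorem normC_JQtoCQ [Fintype (L ≃ₐ[K] L)] (u : JU L (QT T)) :
    normC K L T ((JQtoCQ L T).hom (ofUnit L T (Additive.ofMul u))) =
      (JQtoCQ L T).hom (ofUnit L T (Additive.ofMul (∏ τ : L ≃ₐ[K] L, resHom K L τ • u))) := by
  have h : ∀ τ : L ≃ₐ[K] L,
      (Cn K L T).ρ τ ((JQtoCQ L T).hom (ofUnit L T (Additive.ofMul u))) =
        (JQtoCQ L T).hom (ofUnit L T (Additive.ofMul (resHom K L τ • u))) := fun τ => rfl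
  have h' : normC K L T ((JQtoCQ L T).hom (ofUnit L T (Additive.ofMul u))) =
      ∑ τ : L ≃ₐ[K] L, (Cn K L T).ρ τ ((JQtoCQ L T).hom (ofUnit L T (Additive.ofMul u))) := rfl
  rw [h', Finset.sum_congr rfl (fun τ _ => h τ), ← map_sum, ← map_sum, ← ofMul_prod]

theorem diffC_JQtoCQ (σ : L ≃ₐ[K] L) (u : JU L (QT T)) :
    diffC K L T σ ((JQtoCQ L T).hom (ofUnit L T (Additive.ofMul u))) =
      (JQtoCQ L T).hom (ofUnit L T (Additive.ofMul (resHom K L σ • u / u))) := by
  show (Cn K L T).ρ σ ((JQtoCQ L T).hom (ofUnit L T (Additive.ofMul u))) -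
    (JQtoCQ L T).hom (ofUnit L T (Additive.ofMul u)) = _
  rw [rho_Cn_JQtoCQ, rho_Jn_ofUnit, ← map_sub, ← map_sub, ← ofMul_div]

variable (K L T)

/-- `Kˣ → C_{L,T}`, `a ↦` class of `a ⊗ 1`, as an additive map. -/
noncomputable def deltaC : Additive Kˣ →+ (Cn K L T) :=
  AddMonoidHom.mk' (fun a => (JQtoCQ L T).hom (ofUnit L T (Additive.ofMul
    (inclUnits ℚ L (QT T) (Units.map ((algebraMap K L : K →+* L) : K →* L) (Additive.toMul a))))))
    (fun a b => by
      rw [toMul_add, map_mul, map_mul, ofMul_mul, map_add, map_add])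

variable {K L T}

theorem deltaC_apply (a : Kˣ) :
    deltaC K L T (Additive.ofMul a) = (JQtoCQ L T).hom (ofUnit L T (Additive.ofMul
      (inclUnits ℚ L (QT T) (Units.map ((algebraMap K L : K →+* L) : K →* L) a)))) := rfl

/-- The class of `a ⊗ 1`, `a ∈ Kˣ`, is `Gal(L/K)`-fixed. -/
theorem diffC_deltaC (σ : L ≃ₐ[K] L) (a : Additive Kˣ) :
    diffC K L T σ (deltaC K L T a) = 0 := by
  obtain ⟨a, rfl⟩ := Additive.ofMul.surjective a
  rw [deltaC_apply, diffC_JQtoCQ, smul_inclUnits_map, div_self', ofMul_one, map_zero, map_zero]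

theorem deltaC_mem_ker (σ : L ≃ₐ[K] L) (a : Additive Kˣ) :
    deltaC K L T a ∈ (diffC K L T σ).ker := diffC_deltaC σ a

/-- **(hunit)** at the level of `C_{L,T}`. -/
theorem deltaC_eq_zero_of_ideal_eq {x y : 𝓞 K} (hx : x ≠ 0) (hy : y ≠ 0) {J J' : Ideal (𝓞 K)}
    (hJ : SupportedAboveQ K T J) (hJ' : SupportedAboveQ K T J')
    (h : Ideal.span {x} * J = Ideal.span {y} * J') :
    deltaC K L T (Additive.ofMul (toU x hx / toU y hy)) = 0 := by
  rw [deltaC_apply]
  exact JQtoCQ_inclUnits_eq_zero (map_div_mem_EUnitsQ hx hy hJ hJ' h)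

/-- **(hnorm)** at the level of `C_{L,T}`: the class of `N_{L/K} b ⊗ 1` is a norm. -/
theorem deltaC_norm [IsGalois K L] [Fintype (L ≃ₐ[K] L)] (b : Lˣ) :
    deltaC K L T (Additive.ofMul (Units.map (Algebra.norm K : L →* K) b)) =
      normC K L T ((JQtoCQ L T).hom (ofUnit L T (Additive.ofMul (inclUnits ℚ L (QT T) b)))) := by
  rw [deltaC_apply, normC_JQtoCQ, inclUnits_norm]

theorem deltaC_norm_mem_range [IsGalois K L] [Fintype (L ≃ₐ[K] L)] (b : Lˣ) :
    deltaC K L T (Additive.ofMul (Units.map (Algebra.norm K : L →* K) b)) ∈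
      (normC K L T).range :=
  ⟨_, (deltaC_norm b).symm⟩

/-- **(hray, second half)**: if `a ⊗ 1 = z ^ p` in `(K ⊗[ℚ] ℚ_T)ˣ` and `[L:K] = p`, the class of
`a ⊗ 1` is a norm. -/
theorem deltaC_eq_normC_of_pow [Fintype (L ≃ₐ[K] L)] {p : ℕ} (hp : Nat.card (L ≃ₐ[K] L) = p)
    {a : Kˣ} {z : JU K (QT T)} (hz : z ^ p = inclUnits ℚ K (QT T) a) :
    deltaC K L T (Additive.ofMul a) =
      normC K L T ((JQtoCQ L T).hom (ofUnit L T (Additive.ofMul (baseUnits K L (QT T) z)))) := by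
  rw [deltaC_apply, normC_JQtoCQ, inclUnits_map, ← hz, baseUnits_pow_eq_prod (QT T) hp]

theorem deltaC_mem_range_of_pow [Fintype (L ≃ₐ[K] L)] {p : ℕ} (hp : Nat.card (L ≃ₐ[K] L) = p)
    {a : Kˣ} {z : JU K (QT T)} (hz : z ^ p = inclUnits ℚ K (QT T) a) :
    deltaC K L T (Additive.ofMul a) ∈ (normC K L T).range :=
  ⟨_, (deltaC_eq_normC_of_pow hp hz).symm⟩

/-- More generally the class of (the image of) `z ^ p`, `z ∈ (K ⊗[ℚ] ℚ_T)ˣ`, is a norm. -/
theorem JQtoCQ_baseUnits_pow [Fintype (L ≃ₐ[K] L)] {p : ℕ} (hp : Nat.card (L ≃ₐ[K] L) = p)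
    (z : JU K (QT T)) :
    (JQtoCQ L T).hom (ofUnit L T (Additive.ofMul (baseUnits K L (QT T) (z ^ p)))) =
      normC K L T ((JQtoCQ L T).hom (ofUnit L T (Additive.ofMul (baseUnits K L (QT T) z)))) := by
  rw [normC_JQtoCQ, baseUnits_pow_eq_prod (QT T) hp]

end rep

end Fermat.Agent.S55.Global.Bridge2Units
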