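/-
S55 / Global / G.bridge2 (helper54, row-holder): the four closed INPUTS of the assembly
(`Bridge2Surj` of helper96), all in the `JU` shapes of `Bridge2Units`:

* `modulus K T p = (p² ϖ_T)`, `modulus_ne_bot`, `modulus_support` (`hm`, `hmT` of `Bridge2AbsQ`);
* `powClose_JU`    (PowClose, from `TensorLattice.powClose`);
* `approxPow_JU`   (ApproxPow, from helper2's `ApproxPowQ.approxPow`);
* `exists_fixed_of_class_fixed` (L7, from helper38's `DescentUnits.exists_unit_coboundary_subgroup`);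
* `exists_baseUnits_of_fixed`   (L8, from helper38's `DescentTensorQ.exists_unit_of_invariantQ`).
-/
import Mathlib
import Fermat.Agent.S55.Global.Blocks2
import Fermat.Agent.S55.Global.Bridge2AbsQ
import Fermat.Agent.S55.Global.Bridge2Units
import Fermat.Agent.S55.Global.TensorLattice
import Fermat.Agent.S55.Global.ApproxPowQ
import Fermat.Agent.S55.Global.DescentUnits
import Fermat.Agent.S55.Global.DescentTensorQ

set_option autoImplicit false
set_option linter.unusedSectionVars false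

open NumberField IsDedekindDomain TensorProduct

namespace Fermat.Agent.S55.Global.Bridge2Inputs

open Fermat.Agent.S55.Global.Objects Fermat.Agent.S55.Global.Objects2
open Fermat.Agent.S55.Global.Blocks2 Fermat.Agent.S55.Global.Bridge2Abs
open Fermat.Agent.S55.Global.Bridge2AbsQ Fermat.Agent.S55.Global.Bridge2Units
open Fermat.Agent.S55.Global

section modulus

variable (K : Type) [Field K] [NumberField K] (T : Finset Nat.Primes) (p : ℕ)

/-- The modulus of the bridge: `m = (p² ϖ_T)`, `ϖ_T = ∏_{q ∈ T} q`. -/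
noncomputable def modulus : Ideal (𝓞 K) :=
  Ideal.span {(((p ^ 2 * TensorLattice.varpi T : ℕ)) : 𝓞 K)}

variable {K T p}

theorem modulus_ne_bot (hp : p ≠ 0) : modulus K T p ≠ ⊥ := by
  rw [modulus, Ne, Ideal.span_singleton_eq_bot]
  have h : p ^ 2 * TensorLattice.varpi T ≠ 0 :=
    Nat.mul_ne_zero (pow_ne_zero 2 hp) (TensorLattice.varpi_ne_zero T)
  exact_mod_cast h

/-- Every prime dividing the modulus lies above `T` (as soon as `p ∈ T`). -/
theorem modulus_support (hpT : ∃ q ∈ T, ((q : Nat.Primes) : ℕ) = p)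
    (v : HeightOneSpectrum (𝓞 K)) (hv : v.asIdeal ∣ modulus K T p) :
    ∃ q ∈ T, (((q : Nat.Primes) : ℕ) : 𝓞 K) ∈ v.asIdeal := by
  have hvp : v.asIdeal.IsPrime := v.isPrime
  rw [modulus, Ideal.dvd_span_singleton] at hv
  rw [Nat.cast_mul, Nat.cast_pow] at hv
  rcases hvp.mem_or_mem hv with h | h
  · obtain ⟨q, hq, rfl⟩ := hpT
    exact ⟨q, hq, hvp.mem_of_pow_mem 2 h⟩
  · rw [TensorLattice.varpi, Nat.cast_prod, Ideal.IsPrime.prod_mem_iff] at h
    exact h

end modulus

section adapters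

variable {K : Type} [Field K] [NumberField K] {T : Finset Nat.Primes}

/-- **PowClose** in the `JU` shape: `a ≡ 1 mod (p² ϖ_T)` ⇒ `a ⊗ 1` is a `p`-th power. -/
theorem powClose_JU (p : ℕ) (hp : p ≠ 0) (a : 𝓞 K) (ha : a ≠ 0) (h : a - 1 ∈ modulus K T p) :
    ∃ z : JU K (QT T), z ^ p = inclUnits ℚ K (QT T) (toU a ha) :=
  TensorLattice.powClose p hp a (toU a ha) rfl h

/-- **ApproxPow** in the `JU` shape: `(K ⊗[ℚ] ℚ_T)ˣ = Kˣ · ((K ⊗[ℚ] ℚ_T)ˣ)^p`. -/
theorem approxPow_JU (p : ℕ) (hp : p ≠ 0) (y : JU K (QT T)) :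
    ∃ (a : Kˣ) (z : JU K (QT T)), y = inclUnits ℚ K (QT T) a * z ^ p :=
  ApproxPowQ.approxPow p hp y

end adapters

section L7

variable {K : Type} [Field K] [NumberField K] {L : Type} [Field L] [NumberField L] [Algebra K L]
variable {T : Finset Nat.Primes} {p : ℕ}

theorem resHom_smul_unit (τ : L ≃ₐ[K] L) (x : Lˣ) : resHom K L τ • x = τ • x := by
  apply Units.ext
  rfl

/-- **(L7)** A unit of `L ⊗[ℚ] ℚ_T` whose class in `C_{L,T}` is `Gal(L/K)`-fixed can be corrected
by a `T`-unit to a `Gal(L/K)`-fixed unit (`H¹(Gal(L/K), E_{L,T}) = 0`). -/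
theorem exists_fixed_of_class_fixed [IsGalois K L] (hadm : AdmissibleQ K L p T) (u : JU L (QT T))
    (h : ∀ τ : L ≃ₐ[K] L, resHom K L τ • u / u ∈ (EUnitsQ L T).map (inclUnits ℚ L (QT T))) :
    ∃ e ∈ EUnitsQ L T, ∀ τ : L ≃ₐ[K] L,
      resHom K L τ • (u / inclUnits ℚ L (QT T) e) = u / inclUnits ℚ L (QT T) e := by
  have hinj := DescentUnits.inclUnits_injective L (T := T)
    (DescentUnits.nonempty_of_admissibleQ K L hadm)
  choose e he hinc using h
  have hcoc : ∀ s t : (⊤ : Subgroup (L ≃ₐ[K] L)),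
      e ((s * t : (⊤ : Subgroup (L ≃ₐ[K] L))) : L ≃ₐ[K] L) =
        (s : L ≃ₐ[K] L) • e (t : L ≃ₐ[K] L) * e (s : L ≃ₐ[K] L) := by
    intro s t
    apply hinj
    rw [map_mul, hinc, hinc, ← resHom_smul_unit, ← smul_inclUnits, hinc, Subgroup.coe_mul, map_mul,
      mul_smul, smul_div']
    rw [div_mul_div_cancel]
  obtain ⟨y, hy, hxy⟩ := DescentUnits.exists_unit_coboundary_subgroup K L hadm ⊤
    (fun s => e (s : L ≃ₐ[K] L)) (fun s => he _) hcoc
  refine ⟨y, hy, fun τ => ?_⟩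
  have h1 := hxy ⟨τ, Subgroup.mem_top τ⟩
  simp only at h1
  have h2 : inclUnits ℚ L (QT T) (e τ) = resHom K L τ • u / u := hinc τ
  rw [h1, map_div, ← resHom_smul_unit, ← smul_inclUnits] at h2
  rw [smul_div']
  rw [div_eq_div_iff_mul_eq_mul] at h2 ⊢
  rw [← h2, mul_comm]

end L7

section L8

variable {K : Type} [Field K] [NumberField K] {L : Type} [Field L] [NumberField L] [Algebra K L]
variable (A : Type) [CommRing A] [Algebra ℚ A]

theorem baseUnits_eq (y : (K ⊗[ℚ] A)ˣ) :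
    baseUnits K L A y = Units.map (DescentTensorQ.inclQ (F := K) (M := L) A).toMonoidHom y := by
  apply Units.ext
  rfl

/-- **(L8)** `Gal(L/K)`-fixed units of `L ⊗[ℚ] A` come from `K ⊗[ℚ] A`. -/
theorem exists_baseUnits_of_fixed [IsGalois K L] (u : (L ⊗[ℚ] A)ˣ)
    (h : ∀ τ : L ≃ₐ[K] L, resHom K L τ • u = u) :
    ∃ y : (K ⊗[ℚ] A)ˣ, u = baseUnits K L A y := by
  obtain ⟨x, hx⟩ := DescentTensorQ.exists_unit_of_invariantQ (F := K) (M := L) A
    (Set.range (resHom K L)) (fun x hx => by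
      rw [IsGalois.mem_range_algebraMap_iff_fixed]
      intro τ
      exact hx (resHom K L τ) ⟨τ, rfl⟩) u (by
      rintro _ ⟨τ, rfl⟩
      have := congrArg Units.val (h τ)
      exact this)
  exact ⟨x, by rw [baseUnits_eq, hx]⟩

/-- (L8) in the `JU` shape at `A = ℚ_T`. -/
theorem exists_baseUnits_of_fixed_JU [IsGalois K L] {T : Finset Nat.Primes} (u : JU L (QT T))
    (h : ∀ τ : L ≃ₐ[K] L, resHom K L τ • u = u) :
    ∃ y : JU K (QT T), u = baseUnits K L (QT T) y :=
  exists_baseUnits_of_fixed (QT T) u h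

end L8

end Fermat.Agent.S55.Global.Bridge2Inputs
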