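/-
S55 / Global — kernel glue for the `δ`-package of `Bridge2Surj` (helper96).

For `L/K` Galois and `a ∈ Kˣ`: if the class of `a ⊗ 1` in `C_{L,T}` is a norm, then
`a ⊗ 1 = (ε ⊗ 1) · ∏_τ τ • y` with `ε ∈ Kˣ` a `T`-unit of `K` and `y ∈ (L ⊗[ℚ] ℚ_T)ˣ`
(the `E_{L,T}`-factor is Galois-fixed, hence comes from `K`).  This is the input shape of
helper2's `CycloM2Core` / helper61's `hker`.  Also: `δ` is surjective for every cyclic `L/K`.
-/
import Mathlib
import Fermat.Agent.S55.Global.Bridge2Surj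
import Fermat.Agent.S55.Global.Bridge2Inputs

set_option autoImplicit false
set_option linter.unusedSectionVars false

open NumberField IsDedekindDomain TensorProduct

namespace Fermat.Agent.S55.Global.Bridge2Ker

open Fermat.Agent.S55.Global.Objects Fermat.Agent.S55.Global.Objects2
open Fermat.Agent.S55.Global.Blocks2 Fermat.Agent.S55.Global.Bridge2Abs
open Fermat.Agent.S55.Global.Bridge2AbsQ Fermat.Agent.S55.Global.Bridge2Units
open Fermat.Agent.S55.Global.Bridge2Surj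

variable {K : Type} [Field K] [NumberField K] {L : Type} [Field L] [NumberField L] [Algebra K L]
variable {T : Finset Nat.Primes}

/-- The Galois norm of a unit of `L ⊗[ℚ] A` is `Gal(L/K)`-fixed. -/
theorem smul_prod_smul (A : Type) [CommRing A] [Algebra ℚ A] [Fintype (L ≃ₐ[K] L)]
    (σ : L ≃ₐ[K] L) (y : JU L A) :
    resHom K L σ • ∏ τ : L ≃ₐ[K] L, resHom K L τ • y = ∏ τ : L ≃ₐ[K] L, resHom K L τ • y := by
  rw [Finset.smul_prod']
  simp only [← mul_smul, ← map_mul]
  exact Finset.prod_bijective (σ * ·) (Group.mulLeft_bijective σ) (by simp) (fun _ _ => rfl)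

/-- An element of `Lˣ` fixed by `Gal(L/K)` comes from `Kˣ`. -/
theorem exists_unit_of_fixed [IsGalois K L] (e : Lˣ) (he : ∀ τ : L ≃ₐ[K] L, τ • e = e) :
    ∃ ε : Kˣ, Units.map ((algebraMap K L : K →+* L) : K →* L) ε = e := by
  have h1 : (e : L) ∈ Set.range (algebraMap K L) := by
    rw [IsGalois.mem_range_algebraMap_iff_fixed]
    intro τ
    exact congrArg Units.val (he τ)
  obtain ⟨x, hx⟩ := h1
  have hx0 : x ≠ 0 := by
    rintro rfl
    rw [map_zero] at hx
    exact e.ne_zero hx.symm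
  refine ⟨Units.mk0 x hx0, ?_⟩
  apply Units.ext
  exact hx

/-- **Kernel glue**: if the class of `a ⊗ 1` is a norm from `C_{L,T}`, then
`a ⊗ 1 = (ε ⊗ 1) · N(y)` with `ε` a `T`-unit of `K`. -/
theorem exists_decomp_of_mem_range [IsGalois K L] [Fintype (L ≃ₐ[K] L)] (hT : T.Nonempty)
    (a : Kˣ) (h : deltaC K L T (Additive.ofMul a) ∈ (normC K L T).range) :
    ∃ (ε : Kˣ) (y : JU L (QT T)), ε ∈ EUnitsQ K T ∧
      (∀ v : HeightOneSpectrum (𝓞 K), v ∉ placesAboveQ K T → v.valuation K (ε : K) = 1) ∧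
      inclUnits ℚ L (QT T) (Units.map ((algebraMap K L : K →+* L) : K →* L) a) =
        inclUnits ℚ L (QT T) (Units.map ((algebraMap K L : K →+* L) : K →* L) ε) *
          ∏ τ : L ≃ₐ[K] L, resHom K L τ • y := by
  obtain ⟨c, hc⟩ := h
  obtain ⟨y, rfl⟩ := exists_unit_lift c
  rw [normC_JQtoCQ, deltaC_apply] at hc
  -- the quotient `(a ⊗ 1) / N(y)` is (the image of) a `T_L`-unit
  have h0 : (JQtoCQ L T).hom (ofUnit L T (Additive.ofMul
      (inclUnits ℚ L (QT T) (Units.map ((algebraMap K L : K →+* L) : K →* L) a) /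
        ∏ τ : L ≃ₐ[K] L, resHom K L τ • y))) = 0 := by
    rw [ofMul_div, map_sub, map_sub, hc, sub_self]
  rw [JQtoCQ_eq_zero_iff, ofUnit_mem_ESubQ_iff] at h0
  obtain ⟨e, he, hinc⟩ := h0
  -- `e` is Galois-fixed
  have hinj := DescentUnits.inclUnits_injective L (T := T) hT
  have hfix : ∀ τ : L ≃ₐ[K] L, τ • e = e := by
    intro τ
    apply hinj
    rw [← Bridge2Inputs.resHom_smul_unit, ← smul_inclUnits, hinc, smul_div',
      smul_inclUnits_map, smul_prod_smul]
  obtain ⟨ε, hε⟩ := exists_unit_of_fixed e hfix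
  have hεT : ε ∈ EUnitsQ K T := by
    rw [← DescentUnits.map_mem_EUnitsQ_iff K L T ε]
    have : Units.map (algebraMap K L : K →* L) ε = e := hε
    rw [this]
    exact he
  refine ⟨ε, y, hεT, ?_, ?_⟩
  · have h2 := EUnitsQ_le T hεT
    exact fun v hv => h2 v hv
  · rw [hε, hinc, div_mul_cancel]

/-- Kernel glue in terms of `Bridge2Surj.delta`. -/
theorem exists_decomp_of_delta_eq_one [IsGalois K L] [Fintype (L ≃ₐ[K] L)] (hT : T.Nonempty)
    (σ : L ≃ₐ[K] L) (a : Kˣ) (h : delta K L T σ a = 1) :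
    ∃ (ε : Kˣ) (y : JU L (QT T)), ε ∈ EUnitsQ K T ∧
      (∀ v : HeightOneSpectrum (𝓞 K), v ∉ placesAboveQ K T → v.valuation K (ε : K) = 1) ∧
      inclUnits ℚ L (QT T) (Units.map ((algebraMap K L : K →+* L) : K →* L) a) =
        inclUnits ℚ L (QT T) (Units.map ((algebraMap K L : K →+* L) : K →* L) ε) *
          ∏ τ : L ≃ₐ[K] L, resHom K L τ • y :=
  exists_decomp_of_mem_range hT a ((delta_eq_one_iff σ a).mp h)

/-- **(M1)** `δ : Kˣ → Ĥ⁰(Gal(L/K), C_{L,T})` is surjective for EVERY cyclic `L/K` with `T`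
admissible. -/
theorem delta_surjective_cyclic [IsGalois K L] [Fintype (L ≃ₐ[K] L)] {p : ℕ}
    (hadm : AdmissibleQ K L p T) (σ : L ≃ₐ[K] L)
    (hgen : ∀ τ : L ≃ₐ[K] L, τ ∈ Subgroup.zpowers σ) :
    Function.Surjective (delta K L T σ) := by
  have hn : Nat.card (L ≃ₐ[K] L) ≠ 0 := Nat.card_pos.ne'
  exact delta_surjective σ (fun c hc =>
    exists_deltaC_sub_mem_range (p := Nat.card (L ≃ₐ[K] L)) rfl σ hgen
      (fun u h => Bridge2Inputs.exists_fixed_of_class_fixed hadm u h)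
      (fun u h => Bridge2Inputs.exists_baseUnits_of_fixed_JU u h)
      (fun y => Bridge2Inputs.approxPow_JU _ hn y) c hc)

end Fermat.Agent.S55.Global.Bridge2Ker
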