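/-
S55 / Global — `Gal(M/K)`-fixed classes of `C_{M,T}` come from `Kˣ` up to `n`-th powers of classes
of `(K ⊗[ℚ] ℚ_T)ˣ`, for ANY finite Galois `M/K` with `T` admissible (helper96).

`(C_{M,T})^G = image of (K ⊗ ℚ_T)ˣ` (`H¹(G, E_{M,T}) = 0` + descent) and
`(K ⊗ ℚ_T)ˣ = Kˣ · ((K ⊗ ℚ_T)ˣ)^n` (weak approximation + Hensel).  Consequently a fixed class is
`deltaC a₀ + (norm from any subgroup N₁ of order n)`.  Input for the norm statement `CycloNorm`
(row 152, (E2)).
-/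
import Mathlib
import Fermat.Agent.S55.Global.Bridge2Ker

set_option autoImplicit false
set_option linter.unusedSectionVars false

open NumberField IsDedekindDomain TensorProduct

namespace Fermat.Agent.S55.Global.Bridge2Fixed

open Fermat.Agent.S55.Global.Objects Fermat.Agent.S55.Global.Objects2
open Fermat.Agent.S55.Global.Blocks2 Fermat.Agent.S55.Global.Bridge2Abs
open Fermat.Agent.S55.Global.Bridge2AbsQ Fermat.Agent.S55.Global.Bridge2Units
open Fermat.Agent.S55.Global.Bridge2Surj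

variable {K : Type} [Field K] [NumberField K] {M : Type} [Field M] [NumberField M] [Algebra K M]
variable {T : Finset Nat.Primes}

/-- The class in `C_{M,T}` of (the image of) a unit of `K ⊗[ℚ] ℚ_T`. -/
noncomputable def baseClass (K M : Type) [Field K] [NumberField K] [Field M] [NumberField M]
    [Algebra K M] (T : Finset Nat.Primes) (z : JU K (QT T)) : Cn K M T :=
  (JQtoCQ M T).hom (ofUnit M T (Additive.ofMul (baseUnits K M (QT T) z)))

/-- Classes coming from `K ⊗ ℚ_T` are `Gal(M/K)`-fixed. -/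
theorem rho_baseClass (τ : M ≃ₐ[K] M) (z : JU K (QT T)) :
    (Cn K M T).ρ τ (baseClass K M T z) = baseClass K M T z := by
  unfold baseClass
  rw [rho_Cn_JQtoCQ, rho_Jn_ofUnit, smul_baseUnits]

theorem baseClass_pow (z : JU K (QT T)) (n : ℕ) :
    baseClass K M T (z ^ n) = n • baseClass K M T z := by
  unfold baseClass
  rw [map_pow, ofMul_pow, map_nsmul, map_nsmul]

theorem deltaC_eq_baseClass (a : Kˣ) :
    deltaC K M T (Additive.ofMul a) = baseClass K M T (inclUnits ℚ K (QT T) a) := by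
  rw [deltaC_apply, inclUnits_map]
  rfl

/-- The sum over any finite subgroup of the translates of a class from `K ⊗ ℚ_T`. -/
theorem sum_rho_baseClass (N₁ : Subgroup (M ≃ₐ[K] M)) [Fintype N₁] (z : JU K (QT T)) :
    ∑ s : N₁, (Cn K M T).ρ (s : M ≃ₐ[K] M) (baseClass K M T z) =
      Nat.card N₁ • baseClass K M T z := by
  have h : ∀ s ∈ (Finset.univ : Finset N₁),
      (Cn K M T).ρ (s : M ≃ₐ[K] M) (baseClass K M T z) = baseClass K M T z :=
    fun s _ => rho_baseClass (s : M ≃ₐ[K] M) z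
  rw [Finset.sum_congr rfl h, Finset.sum_const, Finset.card_univ, Nat.card_eq_fintype_card]

/-- **Fixed classes**: for `M/K` finite Galois and `T` admissible, every `Gal(M/K)`-fixed class of
`C_{M,T}` is the class of a unit of `K ⊗[ℚ] ℚ_T`. -/
theorem exists_baseClass_eq [IsGalois K M] {p : ℕ} (hadm : AdmissibleQ K M p T) (c : Cn K M T)
    (hc : ∀ g : M ≃ₐ[K] M, (Cn K M T).ρ g c = c) :
    ∃ y : JU K (QT T), c = baseClass K M T y := by
  obtain ⟨u, rfl⟩ := exists_unit_lift c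
  obtain ⟨e, he, hfix⟩ := Bridge2Inputs.exists_fixed_of_class_fixed hadm u
    (fun τ => smul_div_mem_of_fixed τ u (hc τ))
  obtain ⟨y, hy⟩ := Bridge2Inputs.exists_baseUnits_of_fixed_JU _ hfix
  refine ⟨y, ?_⟩
  have hu : u = inclUnits ℚ M (QT T) e * baseUnits K M (QT T) y := by
    rw [← hy, mul_div_cancel]
  unfold baseClass
  conv_lhs => rw [hu]
  rw [ofMul_mul, map_add, map_add, JQtoCQ_inclUnits_eq_zero he, zero_add]

/-- **Fixed classes, approximated**: every `Gal(M/K)`-fixed class of `C_{M,T}` is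
`deltaC a + n • (class from K ⊗ ℚ_T)`, for any `n ≠ 0`. -/
theorem exists_eq_deltaC_add_nsmul [IsGalois K M] {p : ℕ} (hadm : AdmissibleQ K M p T) {n : ℕ}
    (hn : n ≠ 0) (c : Cn K M T) (hc : ∀ g : M ≃ₐ[K] M, (Cn K M T).ρ g c = c) :
    ∃ (a : Kˣ) (z : JU K (QT T)),
      c = deltaC K M T (Additive.ofMul a) + n • baseClass K M T z := by
  obtain ⟨y, rfl⟩ := exists_baseClass_eq hadm c hc
  obtain ⟨a, z, hyz⟩ := Bridge2Inputs.approxPow_JU n hn y
  refine ⟨a, z, ?_⟩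
  rw [deltaC_eq_baseClass, ← baseClass_pow]
  unfold baseClass
  rw [← map_add, ← map_add, ← ofMul_mul, ← map_mul, ← hyz]

/-- In the shape of `CycloNorm` (row 152, (E2)): a `Gal(M/K)`-fixed class is the class of some
`a ⊗ 1`, `a ∈ Kˣ`, plus a norm from any prescribed finite subgroup `N₁ ≤ Gal(M/K)`. -/
theorem exists_eq_deltaC_add_sum [IsGalois K M] {p : ℕ} (hadm : AdmissibleQ K M p T)
    (N₁ : Subgroup (M ≃ₐ[K] M)) [Fintype N₁] (c : Cn K M T)
    (hc : ∀ g : M ≃ₐ[K] M, (Cn K M T).ρ g c = c) :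
    ∃ (a : Kˣ) (b : Cn K M T), c = deltaC K M T (Additive.ofMul a) +
      ∑ s : N₁, (Cn K M T).ρ (s : M ≃ₐ[K] M) b := by
  have hn : Nat.card N₁ ≠ 0 := Nat.card_pos.ne'
  obtain ⟨a, z, h⟩ := exists_eq_deltaC_add_nsmul hadm hn c hc
  exact ⟨a, baseClass K M T z, by rw [h, sum_rho_baseClass]⟩

/-- Hence: if every `deltaC a`, `a ∈ Kˣ`, is an `N₁`-norm, so is every `Gal(M/K)`-fixed class. -/
theorem exists_eq_sum_of_deltaC [IsGalois K M] {p : ℕ} (hadm : AdmissibleQ K M p T)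
    (N₁ : Subgroup (M ≃ₐ[K] M)) [Fintype N₁]
    (hδ : ∀ a : Kˣ, ∃ b : Cn K M T, deltaC K M T (Additive.ofMul a) =
      ∑ s : N₁, (Cn K M T).ρ (s : M ≃ₐ[K] M) b)
    (c : Cn K M T) (hc : ∀ g : M ≃ₐ[K] M, (Cn K M T).ρ g c = c) :
    ∃ b : Cn K M T, c = ∑ s : N₁, (Cn K M T).ρ (s : M ≃ₐ[K] M) b := by
  obtain ⟨a, b₁, h⟩ := exists_eq_deltaC_add_sum hadm N₁ c hc
  obtain ⟨b₂, h₂⟩ := hδ a
  refine ⟨b₂ + b₁, ?_⟩
  rw [h, h₂, ← Finset.sum_add_distrib]
  exact Finset.sum_congr rfl (fun s _ => (map_add _ _ _).symm)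

end Fermat.Agent.S55.Global.Bridge2Fixed
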