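/-
S55 / Global / G.bridge2 — the `δ`-package and the surjectivity half, hypotheses-first (helper96).

`X := ker (σ - 1 | C) ⧸ Nm C` for `C = Cn K L T`, `δ : Kˣ →* X`, `a ↦` class of `a ⊗ 1`.
We prove `Nat.card X = h0`, the hypotheses `hunit`, `hnorm` of helper42's
`Bridge2AbsQ.card_le_finrank_of_deltaQ` unconditionally, and `hray`, `hsurj` from closed inputs
(`PowClose`, `ApproxPow`, the descent adapters `L7`, `L8`), hence `Blocks2.SecondIneq p`.
-/
import Mathlib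
import Fermat.Agent.S55.Global.Bridge2Units

set_option autoImplicit false
set_option linter.unusedSectionVars false

open NumberField IsDedekindDomain TensorProduct

namespace Fermat.Agent.S55.Global.Bridge2Surj

open Fermat.Agent.S55.Global.Objects Fermat.Agent.S55.Global.Objects2
open Fermat.Agent.S55.Global.Blocks2 Fermat.Agent.S55.Global.Bridge2Abs
open Fermat.Agent.S55.Global.Bridge2AbsQ Fermat.Agent.S55.Global.Bridge2Units

variable {K : Type} [Field K] [NumberField K] {L : Type} [Field L] [NumberField L] [Algebra K L]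
variable {T : Finset Nat.Primes}

/-! ### Lifting classes and fixed classes -/

theorem exists_unit_lift (c : Cn K L T) :
    ∃ u : JU L (QT T), (JQtoCQ L T).hom (ofUnit L T (Additive.ofMul u)) = c := by
  obtain ⟨a, ha⟩ := Submodule.mkQ_surjective (ESubQ L T) c
  obtain ⟨u, rfl⟩ := (ofUnit L T).surjective a
  obtain ⟨u, rfl⟩ := Additive.ofMul.surjective u
  exact ⟨u, ha⟩

/-- A class fixed by `σ` is fixed by every element of `zpowers σ`. -/
theorem rho_eq_of_mem_zpowers {σ τ : L ≃ₐ[K] L} (hτ : τ ∈ Subgroup.zpowers σ) {c : Cn K L T}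
    (hc : (Cn K L T).ρ σ c = c) : (Cn K L T).ρ τ c = c := by
  let S : Subgroup (L ≃ₐ[K] L) :=
    { carrier := {τ | (Cn K L T).ρ τ c = c}
      one_mem' := by
        show (Cn K L T).ρ 1 c = c
        rw [map_one]; rfl
      mul_mem' := by
        intro a b ha hb
        show (Cn K L T).ρ (a * b) c = c
        rw [map_mul]
        show (Cn K L T).ρ a ((Cn K L T).ρ b c) = c
        rw [hb, ha]
      inv_mem' := by
        intro a ha
        show (Cn K L T).ρ a⁻¹ c = c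
        have h1 : (Cn K L T).ρ a⁻¹ ((Cn K L T).ρ a c) = c := by
          have h2 : (Cn K L T).ρ a⁻¹ ((Cn K L T).ρ a c) = (Cn K L T).ρ (a⁻¹ * a) c := by
            rw [map_mul]; rfl
          rw [h2, inv_mul_cancel, map_one]; rfl
        rwa [ha] at h1 }
  have hσ : σ ∈ S := hc
  exact (Subgroup.zpowers_le.mpr hσ) hτ

theorem diffC_apply (σ : L ≃ₐ[K] L) (c : Cn K L T) :
    diffC K L T σ c = (Cn K L T).ρ σ c - c := rfl

theorem mem_ker_diffC_iff (σ : L ≃ₐ[K] L) (c : Cn K L T) :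
    c ∈ (diffC K L T σ).ker ↔ (Cn K L T).ρ σ c = c := by
  rw [AddMonoidHom.mem_ker, diffC_apply, sub_eq_zero]

/-- If the class of `u` is fixed by `τ` then `τ u / u` is (the image of) a `T_L`-unit. -/
theorem smul_div_mem_of_fixed (τ : L ≃ₐ[K] L) (u : JU L (QT T))
    (h : (Cn K L T).ρ τ ((JQtoCQ L T).hom (ofUnit L T (Additive.ofMul u))) =
      (JQtoCQ L T).hom (ofUnit L T (Additive.ofMul u))) :
    resHom K L τ • u / u ∈ (EUnitsQ L T).map (inclUnits ℚ L (QT T)) := by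
  have h1 : diffC K L T τ ((JQtoCQ L T).hom (ofUnit L T (Additive.ofMul u))) = 0 := by
    rw [diffC_apply, h, sub_self]
  rw [diffC_JQtoCQ, JQtoCQ_eq_zero_iff, ofUnit_mem_ESubQ_iff] at h1
  exact h1

/-! ### The surjectivity half -/

/-- **(hsurj)**, hypotheses-first: every `σ`-fixed class of `C_{L,T}` is the class of some
`a ⊗ 1`, `a ∈ Kˣ`, up to a norm. -/
theorem exists_deltaC_sub_mem_range {p : ℕ} [Fintype (L ≃ₐ[K] L)]
    (hp : Nat.card (L ≃ₐ[K] L) = p) (σ : L ≃ₐ[K] L) (hgen : ∀ τ : L ≃ₐ[K] L, τ ∈ Subgroup.zpowers σ)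
    (hL7 : ∀ u : JU L (QT T),
      (∀ τ : L ≃ₐ[K] L, resHom K L τ • u / u ∈ (EUnitsQ L T).map (inclUnits ℚ L (QT T))) →
      ∃ e ∈ EUnitsQ L T, ∀ τ : L ≃ₐ[K] L,
        resHom K L τ • (u / inclUnits ℚ L (QT T) e) = u / inclUnits ℚ L (QT T) e)
    (hL8 : ∀ u : JU L (QT T), (∀ τ : L ≃ₐ[K] L, resHom K L τ • u = u) →
      ∃ y : JU K (QT T), u = baseUnits K L (QT T) y)
    (hApprox : ∀ y : JU K (QT T), ∃ (a : Kˣ) (z : JU K (QT T)),
      y = inclUnits ℚ K (QT T) a * z ^ p)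
    (c : Cn K L T) (hc : c ∈ (diffC K L T σ).ker) :
    ∃ a : Kˣ, c - deltaC K L T (Additive.ofMul a) ∈ (normC K L T).range := by
  rw [mem_ker_diffC_iff] at hc
  obtain ⟨u, rfl⟩ := exists_unit_lift c
  obtain ⟨e, he, hfix⟩ := hL7 u (fun τ =>
    smul_div_mem_of_fixed τ u (rho_eq_of_mem_zpowers (hgen τ) hc))
  obtain ⟨y, hy⟩ := hL8 _ hfix
  obtain ⟨a, z, hyz⟩ := hApprox y
  refine ⟨a, ?_⟩
  have hu : u = inclUnits ℚ L (QT T) e *
      (inclUnits ℚ L (QT T) (Units.map ((algebraMap K L : K →+* L) : K →* L) a) *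
        baseUnits K L (QT T) (z ^ p)) := by
    rw [inclUnits_map, ← map_mul, ← hyz, ← hy, mul_div_cancel]
  have hcls : (JQtoCQ L T).hom (ofUnit L T (Additive.ofMul u)) =
      deltaC K L T (Additive.ofMul a) +
        normC K L T ((JQtoCQ L T).hom (ofUnit L T (Additive.ofMul (baseUnits K L (QT T) z)))) := by
    conv_lhs => rw [hu]
    rw [ofMul_mul, ofMul_mul, map_add, map_add, map_add, map_add, JQtoCQ_inclUnits_eq_zero he,
      zero_add, JQtoCQ_baseUnits_pow hp, deltaC_apply]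
  rw [hcls, add_sub_cancel_left]
  exact ⟨_, rfl⟩

/-! ### The group `X = Ĥ⁰(⟨σ⟩, C_{L,T})` and `δ : Kˣ →* X` -/

section delta

variable (K L T)

/-- `Nm C ∩ ker(σ - 1)` as a subgroup of `ker(σ - 1)`. -/
noncomputable abbrev NmSub [Fintype (L ≃ₐ[K] L)] (σ : L ≃ₐ[K] L) :
    AddSubgroup (diffC K L T σ).ker :=
  (normC K L T).range.addSubgroupOf (diffC K L T σ).ker

/-- `X = ker (σ - 1) ⧸ Nm C`, written multiplicatively. -/
abbrev X [Fintype (L ≃ₐ[K] L)] (σ : L ≃ₐ[K] L) : Type :=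
  Multiplicative ((diffC K L T σ).ker ⧸ NmSub K L T σ)

theorem card_X [Fintype (L ≃ₐ[K] L)] (σ : L ≃ₐ[K] L) : Nat.card (X K L T σ) = h0 K L T σ := rfl

/-- `Kˣ → ker(σ - 1)`, additively. -/
noncomputable def deltaKer (σ : L ≃ₐ[K] L) : Additive Kˣ →+ (diffC K L T σ).ker :=
  (deltaC K L T).codRestrict (diffC K L T σ).ker (fun a => deltaC_mem_ker σ a)

/-- `δ : Kˣ →* X`, `a ↦` class of `a ⊗ 1`. -/
noncomputable def delta [Fintype (L ≃ₐ[K] L)] (σ : L ≃ₐ[K] L) : Kˣ →* X K L T σ :=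
  AddMonoidHom.toMultiplicativeRight
    ((QuotientAddGroup.mk' (NmSub K L T σ)).comp (deltaKer K L T σ))

variable {K L T}

theorem coe_deltaKer (σ : L ≃ₐ[K] L) (a : Additive Kˣ) :
    ((deltaKer K L T σ a : (diffC K L T σ).ker) : Cn K L T) = deltaC K L T a := rfl

theorem delta_apply [Fintype (L ≃ₐ[K] L)] (σ : L ≃ₐ[K] L) (a : Kˣ) :
    delta K L T σ a = Multiplicative.ofAdd
      (QuotientAddGroup.mk' (NmSub K L T σ) (deltaKer K L T σ (Additive.ofMul a))) := rfl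

theorem delta_eq_one_iff [Fintype (L ≃ₐ[K] L)] (σ : L ≃ₐ[K] L) (a : Kˣ) :
    delta K L T σ a = 1 ↔ deltaC K L T (Additive.ofMul a) ∈ (normC K L T).range := by
  rw [delta_apply]
  show Multiplicative.ofAdd _ = Multiplicative.ofAdd 0 ↔ _
  rw [Multiplicative.ofAdd.injective.eq_iff, QuotientAddGroup.mk'_apply,
    QuotientAddGroup.eq_zero_iff, AddSubgroup.mem_addSubgroupOf, coe_deltaKer]

/-- **(hunit)** in helper42's literal shape. -/
theorem killsTUnitsQ_delta [Fintype (L ≃ₐ[K] L)] (σ : L ≃ₐ[K] L) :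
    KillsTUnitsQ T (delta K L T σ) := by
  intro x y hx hy J J' hJ hJ' h
  rw [delta_eq_one_iff, deltaC_eq_zero_of_ideal_eq hx hy hJ hJ' h]
  exact zero_mem _

/-- **(hnorm)** in helper42's literal shape. -/
theorem delta_norm [IsGalois K L] [Fintype (L ≃ₐ[K] L)] (σ : L ≃ₐ[K] L) (b : Lˣ) :
    delta K L T σ (Units.map (Algebra.norm K : L →* K) b) = 1 := by
  rw [delta_eq_one_iff]
  exact deltaC_norm_mem_range b

/-- **(hray)** from `PowClose`. -/
theorem delta_ray [Fintype (L ≃ₐ[K] L)] {p : ℕ} (hp : Nat.card (L ≃ₐ[K] L) = p)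
    (σ : L ≃ₐ[K] L) {a : Kˣ} (hpow : ∃ z : JU K (QT T), z ^ p = inclUnits ℚ K (QT T) a) :
    delta K L T σ a = 1 := by
  obtain ⟨z, hz⟩ := hpow
  rw [delta_eq_one_iff]
  exact deltaC_mem_range_of_pow hp hz

/-- **(hsurj)** from the surjectivity half. -/
theorem delta_surjective [Fintype (L ≃ₐ[K] L)] (σ : L ≃ₐ[K] L)
    (h : ∀ c : Cn K L T, c ∈ (diffC K L T σ).ker →
      ∃ a : Kˣ, c - deltaC K L T (Additive.ofMul a) ∈ (normC K L T).range) :
    Function.Surjective (delta K L T σ) := by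
  intro x
  obtain ⟨x, rfl⟩ := Multiplicative.ofAdd.surjective x
  obtain ⟨c, rfl⟩ := QuotientAddGroup.mk'_surjective (NmSub K L T σ) x
  obtain ⟨a, ha⟩ := h c.1 c.2
  refine ⟨a, ?_⟩
  rw [delta_apply, Multiplicative.ofAdd.injective.eq_iff, QuotientAddGroup.mk'_apply,
    QuotientAddGroup.mk'_apply, QuotientAddGroup.eq, AddSubgroup.mem_addSubgroupOf]
  have h1 : ((-(deltaKer K L T σ (Additive.ofMul a)) + c : (diffC K L T σ).ker) : Cn K L T) =
      (c : Cn K L T) - deltaC K L T (Additive.ofMul a) := by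
    rw [AddSubgroup.coe_add, AddSubgroup.coe_neg, coe_deltaKer]
    abel
  rw [h1]
  exact ha

end delta

/-! ### The second inequality from the four closed inputs -/

section final

/-- **(L7)** descent adapter: a unit of `L ⊗ ℚ_T` whose class mod `E_{L,T}` is `Gal(L/K)`-fixed
can be corrected by a `T_L`-unit to a `Gal(L/K)`-fixed unit (`H¹(Gal(L/K), E_{L,T}) = 0`). -/
def L7Prop (p : ℕ) : Prop :=
  ∀ (K L : Type) [Field K] [NumberField K] [Field L] [NumberField L] [Algebra K L] [IsGalois K L]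
    (T : Finset Nat.Primes), AdmissibleQ K L p T → ∀ u : JU L (QT T),
      (∀ τ : L ≃ₐ[K] L, resHom K L τ • u / u ∈ (EUnitsQ L T).map (inclUnits ℚ L (QT T))) →
      ∃ e ∈ EUnitsQ L T, ∀ τ : L ≃ₐ[K] L,
        resHom K L τ • (u / inclUnits ℚ L (QT T) e) = u / inclUnits ℚ L (QT T) e

/-- **(L8)** `Gal(L/K)`-fixed units of `L ⊗ ℚ_T` come from `K ⊗ ℚ_T`. -/
def L8Prop : Prop :=
  ∀ (K L : Type) [Field K] [NumberField K] [Field L] [NumberField L] [Algebra K L] [IsGalois K L]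
    (T : Finset Nat.Primes) (u : JU L (QT T)), (∀ τ : L ≃ₐ[K] L, resHom K L τ • u = u) →
      ∃ y : JU K (QT T), u = baseUnits K L (QT T) y

/-- **ApproxPow**: `(K ⊗ ℚ_T)ˣ = Kˣ · ((K ⊗ ℚ_T)ˣ)^p` when `p ∈ T`. -/
def ApproxPowProp (p : ℕ) : Prop :=
  ∀ (K : Type) [Field K] [NumberField K] (T : Finset Nat.Primes),
    (∃ q ∈ T, ((q : Nat.Primes) : ℕ) = p) → ∀ y : JU K (QT T),
      ∃ (a : Kˣ) (z : JU K (QT T)), y = inclUnits ℚ K (QT T) a * z ^ p

/-- **PowClose**: integers `≡ 1 mod p² ϖ_T` become `p`-th powers in `(K ⊗ ℚ_T)ˣ`. -/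
def PowCloseProp (p : ℕ) : Prop :=
  p ≠ 0 → ∀ (K : Type) [Field K] [NumberField K] (T : Finset Nat.Primes) (a : 𝓞 K) (ha : a ≠ 0),
    a - 1 ∈ Ideal.span {(((p ^ 2 * prodT T : ℕ)) : 𝓞 K)} →
      ∃ z : JU K (QT T), z ^ p = inclUnits ℚ K (QT T) (toU a ha)

variable {K : Type} [Field K] [NumberField K] {T : Finset Nat.Primes}

theorem span_modulus_ne_bot {p : ℕ} (hp : p ≠ 0) :
    (Ideal.span {(((p ^ 2 * prodT T : ℕ)) : 𝓞 K)} : Ideal (𝓞 K)) ≠ ⊥ := by
  rw [Ne, Ideal.span_singleton_eq_bot]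
  have h : p ^ 2 * prodT T ≠ 0 := mul_ne_zero (pow_ne_zero 2 hp) (prodT_ne_zero T)
  exact_mod_cast h

theorem modulus_support {p : ℕ} (hpT : ∃ q ∈ T, ((q : Nat.Primes) : ℕ) = p)
    (v : HeightOneSpectrum (𝓞 K))
    (hv : v.asIdeal ∣ (Ideal.span {(((p ^ 2 * prodT T : ℕ)) : 𝓞 K)} : Ideal (𝓞 K))) :
    ∃ q ∈ T, (((q : Nat.Primes) : ℕ) : 𝓞 K) ∈ v.asIdeal := by
  have hprime : v.asIdeal.IsPrime := v.isPrime
  rw [Ideal.dvd_span_singleton] at hv
  rw [Nat.cast_mul, Nat.cast_pow] at hv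
  rcases hprime.mem_or_mem hv with h | h
  · obtain ⟨q, hq, hqp⟩ := hpT
    refine ⟨q, hq, ?_⟩
    rw [hqp]
    exact hprime.mem_of_pow_mem 2 h
  · rw [prodT, Nat.cast_prod, Ideal.IsPrime.prod_mem_iff] at h
    exact h

/-- **G.bridge2, hypotheses-first**: the second inequality `h0 ≤ p` for cyclic layers of degree `p`
from the four closed inputs. -/
theorem secondIneq_of {p : ℕ} (h7 : L7Prop p) (h8 : L8Prop) (hA : ApproxPowProp p)
    (hP : PowCloseProp p) : Blocks2.SecondIneq p := by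
  intro K L _ _ _ _ _ _ T σ hs
  have : IsGalois K L := hs.galois
  have hcard : Nat.card (L ≃ₐ[K] L) = p := by
    rw [IsGalois.card_aut_eq_finrank, hs.degree]
  have hp0 : p ≠ 0 := hs.prime.ne_zero
  have hsurj : Function.Surjective (delta K L T σ) :=
    delta_surjective σ (fun c hc =>
      exists_deltaC_sub_mem_range hcard σ hs.gen (h7 K L T hs.adm) (h8 K L T)
        (hA K T hs.adm.mem_p) c hc)
  have hray : ∀ (a : 𝓞 K) (ha : a ≠ 0),
      a - 1 ∈ (Ideal.span {(((p ^ 2 * prodT T : ℕ)) : 𝓞 K)} : Ideal (𝓞 K)) →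
      delta K L T σ (toU a ha) = 1 :=
    fun a ha h => delta_ray hcard σ (hP hp0 K T a ha h)
  obtain ⟨hfin, hle⟩ := card_le_finrank_of_deltaQ (L := L) (T := T)
    (m := Ideal.span {(((p ^ 2 * prodT T : ℕ)) : 𝓞 K)}) (δ := delta K L T σ) hs.adm
    (span_modulus_ne_bot hp0) (modulus_support hs.adm.mem_p) (killsTUnitsQ_delta σ) hray hsurj
    (delta_norm σ)
  rw [card_X, hs.degree] at hle
  refine ⟨?_, hle⟩
  rw [← card_X]
  have := hfin
  exact Nat.card_pos.ne'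

end final

end Fermat.Agent.S55.Global.Bridge2Surj
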