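/-
S55 / GLOBAL block, row `G.cyclic` of helper78's plan (helper84). Mathlib only.

For a finite cyclic group `G = ⟨g⟩` and `A : Rep ℤ G`, with `s = σ - 1` and `N = ∑_{h ∈ G} h` on the
underlying additive group of `A`:

* `card_even_of`, `card_odd_of`: `#Hⁱ(G, A) = [ker s : N A]` (`i > 0` even),
  `#Hⁱ(G, A) = [ker N : s A]` (`i` odd) as `AddSubgroup.relIndex`;
* `isZero_even_iff_of`, `isZero_odd_iff_of`: vanishing criteria;
* `cyclic_layer_of`: from the first inequality `[ker s : N A] = n · [ker N : s A]`, the second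
  inequality `[ker s : N A] ≤ n` and finiteness of the index: `H¹(G, A) = 0` and `#H²(G, A) = n`;
* `cyclic_layer_prime_of`: for `n = p` prime moreover `H²(G, A)` is cyclic.

(Everything is deduced from Mathlib's `Rep.FiniteCyclicGroup.groupCohomologyIsoEven/Odd`.)
-/
import Mathlib

set_option autoImplicit false

open CategoryTheory groupCohomology Rep

namespace Fermat.Agent.S55.Global.CyclicClass

open Rep.FiniteCyclicGroup

/-! ### a counting lemma -/

theorem card_eq_relIndex {X Y : Type*} [AddCommGroup X] [AddCommGroup Y] (K H : AddSubgroup X)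
    (f : K →+ Y) (hf : Function.Surjective f) (hker : ∀ x : K, f x = 0 ↔ (x : X) ∈ H) :
    Nat.card Y = H.relIndex K := by
  have h1 : f.ker = H.addSubgroupOf K := by
    ext x
    rw [AddMonoidHom.mem_ker, hker, AddSubgroup.mem_addSubgroupOf]
  rw [AddSubgroup.relIndex, ← h1, AddSubgroup.index_ker]
  have h2 : f.range = ⊤ := AddMonoidHom.range_eq_top.mpr hf
  rw [h2]
  exact (Nat.card_congr AddSubgroup.topEquiv.toEquiv).symm

section main

attribute [local instance 2000] Rep.hV2

variable {G : Type} [CommGroup G] [Fintype G] (A : Rep ℤ G) (g : G)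
  (hg : ∀ x, x ∈ Subgroup.zpowers g)

/-- `σ - 1` on the underlying additive group. -/
def subOne : A.V →+ A.V := (A.ρ g).toAddMonoidHom - AddMonoidHom.id A.V

/-- The norm `∑_{h ∈ G} h` on the underlying additive group. -/
def nrm : A.V →+ A.V := ∑ h : G, (A.ρ h).toAddMonoidHom

omit [Fintype G] in
theorem subOne_apply (x : A.V) : subOne A g x = A.ρ g x - x := rfl

theorem nrm_apply (x : A.V) : nrm A x = ∑ h : G, A.ρ h x := by
  simp [nrm]

omit [Fintype G] in
theorem mem_ker_subOne (x : A.V) :
    x ∈ (subOne A g).ker ↔ x ∈ LinearMap.ker (applyAsHom A g - 𝟙 A).hom.toLinearMap := by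
  rw [AddMonoidHom.mem_ker, LinearMap.mem_ker]
  rfl

omit [Fintype G] in
theorem mem_range_subOne (x : A.V) :
    x ∈ (subOne A g).range ↔ x ∈ LinearMap.range (applyAsHom A g - 𝟙 A).hom.toLinearMap := by
  rw [AddMonoidHom.mem_range, LinearMap.mem_range]
  rfl

theorem mem_range_nrm (x : A.V) :
    x ∈ (nrm A).range ↔ x ∈ LinearMap.range A.norm.hom.toLinearMap := by
  rw [AddMonoidHom.mem_range, LinearMap.mem_range]
  constructor
  · rintro ⟨y, rfl⟩
    refine ⟨y, ?_⟩
    rw [nrm_apply]
    simp [Representation.norm]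
  · rintro ⟨y, rfl⟩
    refine ⟨y, ?_⟩
    rw [nrm_apply]
    simp [Representation.norm]

theorem mem_ker_nrm (x : A.V) :
    x ∈ (nrm A).ker ↔ x ∈ LinearMap.ker A.norm.hom.toLinearMap := by
  rw [AddMonoidHom.mem_ker, LinearMap.mem_ker, nrm_apply]
  simp [Representation.norm]

/-! ### the quotient maps are onto -/

theorem piEven_surjective (i : ℕ) [NeZero i] (hi : Even i) :
    Function.Surjective (groupCohomologyπEven A g hg i hi) := by
  have h1 : Epi (normHomCompSub A g).moduleCatCyclesIso.inv := inferInstance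
  have h2 : Epi (normHomCompSub A g).homologyπ := inferInstance
  have h3 : Epi (groupCohomologyIsoEven A g hg i hi).inv := IsIso.epi_of_iso _
  have h4 : Epi ((normHomCompSub A g).homologyπ ≫ (groupCohomologyIsoEven A g hg i hi).inv) :=
    epi_comp _ _
  have : Epi (groupCohomologyπEven A g hg i hi) := @epi_comp _ _ _ _ _ _ h1 _ h4
  exact (ModuleCat.epi_iff_surjective _).1 this

theorem piOdd_surjective (i : ℕ) (hi : Odd i) :
    Function.Surjective (groupCohomologyπOdd A g hg i hi) := by
  have h1 : Epi (subCompNormHom A g).moduleCatCyclesIso.inv := inferInstance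
  have h2 : Epi (subCompNormHom A g).homologyπ := inferInstance
  have h3 : Epi (groupCohomologyIsoOdd A g hg i hi).inv := IsIso.epi_of_iso _
  have h4 : Epi ((subCompNormHom A g).homologyπ ≫ (groupCohomologyIsoOdd A g hg i hi).inv) :=
    epi_comp _ _
  have : Epi (groupCohomologyπOdd A g hg i hi) := @epi_comp _ _ _ _ _ _ h1 _ h4
  exact (ModuleCat.epi_iff_surjective _).1 this

/-! ### cardinalities -/

include hg in
/-- `#Hⁱ(G, A) = [A^G : N A]` for `i > 0` even, `G = ⟨g⟩` finite cyclic. -/
theorem card_even (i : ℕ) [NeZero i] (hi : Even i) :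
    Nat.card (groupCohomology A i) = (nrm A).range.relIndex (subOne A g).ker := by
  let f : (subOne A g).ker →+ groupCohomology A i :=
    { toFun := fun x => groupCohomologyπEven A g hg i hi ⟨x.1, (mem_ker_subOne A g x.1).1 x.2⟩
      map_zero' := map_zero (groupCohomologyπEven A g hg i hi).hom
      map_add' := fun x y => map_add (groupCohomologyπEven A g hg i hi).hom _ _ }
  refine card_eq_relIndex (subOne A g).ker (nrm A).range f ?_ ?_
  · intro y
    obtain ⟨x, hx⟩ := piEven_surjective A g hg i hi y
    exact ⟨⟨x.1, (mem_ker_subOne A g x.1).2 x.2⟩, hx⟩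
  · intro x
    rw [mem_range_nrm]
    exact groupCohomologyπEven_eq_zero_iff A g hg i hi _

include hg in
/-- `#Hⁱ(G, A) = [ker N : (σ - 1) A]` for `i` odd, `G = ⟨g⟩` finite cyclic. -/
theorem card_odd (i : ℕ) (hi : Odd i) :
    Nat.card (groupCohomology A i) = (subOne A g).range.relIndex (nrm A).ker := by
  let f : (nrm A).ker →+ groupCohomology A i :=
    { toFun := fun x => groupCohomologyπOdd A g hg i hi ⟨x.1, (mem_ker_nrm A x.1).1 x.2⟩
      map_zero' := map_zero (groupCohomologyπOdd A g hg i hi).hom
      map_add' := fun x y => by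
        have h : (⟨(x + y).1, (mem_ker_nrm A (x + y).1).1 (x + y).2⟩ :
            LinearMap.ker A.norm.hom.toLinearMap) =
            ⟨x.1, (mem_ker_nrm A x.1).1 x.2⟩ + ⟨y.1, (mem_ker_nrm A y.1).1 y.2⟩ :=
          Subtype.ext rfl
        rw [h]
        exact map_add (groupCohomologyπOdd A g hg i hi).hom _ _ }
  refine card_eq_relIndex (nrm A).ker (subOne A g).range f ?_ ?_
  · intro y
    obtain ⟨x, hx⟩ := piOdd_surjective A g hg i hi y
    exact ⟨⟨x.1, (mem_ker_nrm A x.1).2 x.2⟩, hx⟩
  · intro x
    rw [mem_range_subOne]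
    exact groupCohomologyπOdd_eq_zero_iff A g hg i hi _

/-! ### vanishing criteria -/

include hg in
theorem isZero_even_iff (i : ℕ) [NeZero i] (hi : Even i) :
    Limits.IsZero (groupCohomology A i) ↔ (subOne A g).ker ≤ (nrm A).range := by
  constructor
  · intro h x hx
    have h0 : groupCohomologyπEven A g hg i hi ⟨x, (mem_ker_subOne A g x).1 hx⟩ = 0 :=
      (ModuleCat.subsingleton_of_isZero h).elim _ _
    rw [groupCohomologyπEven_eq_zero_iff] at h0
    exact (mem_range_nrm A x).2 h0
  · intro h
    have hs : Subsingleton (groupCohomology A i) := by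
      refine ⟨fun y z => ?_⟩
      obtain ⟨x, rfl⟩ := piEven_surjective A g hg i hi y
      obtain ⟨x', rfl⟩ := piEven_surjective A g hg i hi z
      rw [groupCohomologyπEven_eq_iff]
      have hx : x.1 - x'.1 ∈ (subOne A g).ker :=
        (subOne A g).ker.sub_mem ((mem_ker_subOne A g x.1).2 x.2) ((mem_ker_subOne A g x'.1).2 x'.2)
      exact (mem_range_nrm A _).1 (h hx)
    exact ModuleCat.isZero_of_subsingleton _

include hg in
theorem isZero_odd_iff (i : ℕ) (hi : Odd i) :
    Limits.IsZero (groupCohomology A i) ↔ (nrm A).ker ≤ (subOne A g).range := by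
  constructor
  · intro h x hx
    have h0 : groupCohomologyπOdd A g hg i hi ⟨x, (mem_ker_nrm A x).1 hx⟩ = 0 :=
      (ModuleCat.subsingleton_of_isZero h).elim _ _
    rw [groupCohomologyπOdd_eq_zero_iff] at h0
    exact (mem_range_subOne A g x).2 h0
  · intro h
    have hs : Subsingleton (groupCohomology A i) := by
      refine ⟨fun y z => ?_⟩
      obtain ⟨x, rfl⟩ := piOdd_surjective A g hg i hi y
      obtain ⟨x', rfl⟩ := piOdd_surjective A g hg i hi z
      rw [groupCohomologyπOdd_eq_iff]
      have hx : x.1 - x'.1 ∈ (nrm A).ker :=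
        (nrm A).ker.sub_mem ((mem_ker_nrm A x.1).2 x.2) ((mem_ker_nrm A x'.1).2 x'.2)
      exact (mem_range_subOne A g _).1 (h hx)
    exact ModuleCat.isZero_of_subsingleton _

/-! ### the norm as a sum of powers of the generator -/

include hg in
theorem nrm_eq_sum_pow (x : A.V) :
    nrm A x = ∑ i ∈ Finset.range (orderOf g), A.ρ (g ^ i) x := by
  classical
  rw [nrm_apply, ← IsCyclic.image_range_orderOf hg, Finset.sum_image]
  intro i hi j hj hij
  exact pow_injOn_Iio_orderOf (by simpa using hi) (by simpa using hj) hij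

include hg in
theorem orderOf_eq_card : orderOf g = Nat.card G :=
  orderOf_eq_card_of_forall_mem_zpowers hg

/-! ### the class-formation axiom for a cyclic layer from the two inequalities -/

include hg in
/-- Abstract `G.cyclic`: if `[A^G : N A] = n · [ker N : (σ-1)A]` (first inequality, Herbrand
quotient `n`) and `[A^G : N A] ≤ n` (second inequality), and the index is finite, then
`H¹(G, A) = 0` and `#H²(G, A) = n`. -/
theorem cyclic_layer (n : ℕ)
    (hfirst : (nrm A).range.relIndex (subOne A g).ker =
      n * (subOne A g).range.relIndex (nrm A).ker)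
    (hsecond : (nrm A).range.relIndex (subOne A g).ker ≤ n)
    (hne : (nrm A).range.relIndex (subOne A g).ker ≠ 0) :
    Limits.IsZero (groupCohomology A 1) ∧ Nat.card (groupCohomology A 2) = n := by
  set a := (nrm A).range.relIndex (subOne A g).ker with ha
  set b := (subOne A g).range.relIndex (nrm A).ker with hb
  have hb0 : b ≠ 0 := by
    rintro h0
    rw [h0, mul_zero] at hfirst
    exact hne hfirst
  have hn0 : n ≠ 0 := by
    rintro h0
    rw [h0, zero_mul] at hfirst
    exact hne hfirst
  have hb1 : b = 1 := by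
    have h1 : n * b ≤ n * 1 := by rw [← hfirst, mul_one]; exact hsecond
    have h2 : b ≤ 1 := Nat.le_of_mul_le_mul_left h1 (Nat.pos_of_ne_zero hn0)
    omega
  have han : a = n := by rw [hfirst, hb1, mul_one]
  refine ⟨?_, ?_⟩
  · have hc : Nat.card (groupCohomology A 1) = 1 := by
      rw [card_odd A g hg 1 (by decide), ← hb, hb1]
    have hs : Subsingleton (groupCohomology A 1) := (Nat.card_eq_one_iff_unique.mp hc).1
    exact ModuleCat.isZero_of_subsingleton _
  · rw [card_even A g hg 2 (by decide), ← ha, han]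

include hg in
/-- Prime degree: `H²` is moreover cyclic (of order `p`). -/
theorem cyclic_layer_prime (p : ℕ) [hp : Fact p.Prime]
    (hfirst : (nrm A).range.relIndex (subOne A g).ker =
      p * (subOne A g).range.relIndex (nrm A).ker)
    (hsecond : (nrm A).range.relIndex (subOne A g).ker ≤ p)
    (hne : (nrm A).range.relIndex (subOne A g).ker ≠ 0) :
    Limits.IsZero (groupCohomology A 1) ∧ Nat.card (groupCohomology A 2) = p ∧
      IsAddCyclic (groupCohomology A 2) := by
  obtain ⟨h1, h2⟩ := cyclic_layer A g hg p hfirst hsecond hne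
  exact ⟨h1, h2, isAddCyclic_of_prime_card h2⟩

end main

/-! ### consumer form: arbitrary group instance, `σ - 1` and `N` given pointwise -/

section consumer

variable {G : Type} [Group G] [Fintype G] (A : Rep ℤ G) (g : G)
  (hg : ∀ x, x ∈ Subgroup.zpowers g) (s N : A.V →+ A.V)
  (hs : ∀ x, s x = A.ρ g x - x) (hN : ∀ x, N x = ∑ h : G, A.ρ h x)

include hg hs hN in
theorem card_even_of (i : ℕ) [NeZero i] (hi : Even i) :
    Nat.card (groupCohomology A i) = N.range.relIndex s.ker := by
  have hcyc : IsCyclic G := ⟨g, hg⟩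
  let _ : CommGroup G := IsCyclic.commGroup
  have e1 : s = subOne A g := AddMonoidHom.ext fun x => by rw [hs, subOne_apply]
  have e2 : N = nrm A := AddMonoidHom.ext fun x => by rw [hN, nrm_apply]
  subst e1 e2
  exact card_even A g hg i hi

include hg hs hN in
theorem card_odd_of (i : ℕ) (hi : Odd i) :
    Nat.card (groupCohomology A i) = s.range.relIndex N.ker := by
  have hcyc : IsCyclic G := ⟨g, hg⟩
  let _ : CommGroup G := IsCyclic.commGroup
  have e1 : s = subOne A g := AddMonoidHom.ext fun x => by rw [hs, subOne_apply]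
  have e2 : N = nrm A := AddMonoidHom.ext fun x => by rw [hN, nrm_apply]
  subst e1 e2
  exact card_odd A g hg i hi

include hg hs hN in
theorem isZero_even_iff_of (i : ℕ) [NeZero i] (hi : Even i) :
    Limits.IsZero (groupCohomology A i) ↔ s.ker ≤ N.range := by
  have hcyc : IsCyclic G := ⟨g, hg⟩
  let _ : CommGroup G := IsCyclic.commGroup
  have e1 : s = subOne A g := AddMonoidHom.ext fun x => by rw [hs, subOne_apply]
  have e2 : N = nrm A := AddMonoidHom.ext fun x => by rw [hN, nrm_apply]
  subst e1 e2
  exact isZero_even_iff A g hg i hi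

include hg hs hN in
theorem isZero_odd_iff_of (i : ℕ) (hi : Odd i) :
    Limits.IsZero (groupCohomology A i) ↔ N.ker ≤ s.range := by
  have hcyc : IsCyclic G := ⟨g, hg⟩
  let _ : CommGroup G := IsCyclic.commGroup
  have e1 : s = subOne A g := AddMonoidHom.ext fun x => by rw [hs, subOne_apply]
  have e2 : N = nrm A := AddMonoidHom.ext fun x => by rw [hN, nrm_apply]
  subst e1 e2
  exact isZero_odd_iff A g hg i hi

include hg hs hN in
/-- `G.cyclic`, consumer form. `G = ⟨g⟩` finite cyclic, `A : Rep ℤ G`, `s = σ - 1`, `N` the norm: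
from `[ker s : N A] = n · [ker N : s A]`, `[ker s : N A] ≤ n` and finiteness of this index:
`H¹(G, A) = 0` and `#H²(G, A) = n`. -/
theorem cyclic_layer_of (n : ℕ)
    (hfirst : N.range.relIndex s.ker = n * s.range.relIndex N.ker)
    (hsecond : N.range.relIndex s.ker ≤ n)
    (hne : N.range.relIndex s.ker ≠ 0) :
    Limits.IsZero (groupCohomology A 1) ∧ Nat.card (groupCohomology A 2) = n := by
  have hcyc : IsCyclic G := ⟨g, hg⟩
  let _ : CommGroup G := IsCyclic.commGroup
  have e1 : s = subOne A g := AddMonoidHom.ext fun x => by rw [hs, subOne_apply]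
  have e2 : N = nrm A := AddMonoidHom.ext fun x => by rw [hN, nrm_apply]
  subst e1 e2
  exact cyclic_layer A g hg n hfirst hsecond hne

include hg hs hN in
theorem cyclic_layer_prime_of (p : ℕ) [hp : Fact p.Prime]
    (hfirst : N.range.relIndex s.ker = p * s.range.relIndex N.ker)
    (hsecond : N.range.relIndex s.ker ≤ p)
    (hne : N.range.relIndex s.ker ≠ 0) :
    Limits.IsZero (groupCohomology A 1) ∧ Nat.card (groupCohomology A 2) = p ∧
      IsAddCyclic (groupCohomology A 2) := by
  obtain ⟨h1, h2⟩ := cyclic_layer_of A g hg s N hs hN p hfirst hsecond hne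
  exact ⟨h1, h2, isAddCyclic_of_prime_card h2⟩

end consumer

end Fermat.Agent.S55.Global.CyclicClass
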