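/-
S55 / Global — `H²(⟨σ⟩, C_{L,T}) ≃ ker (σ - 1) ⧸ Nm = Bridge2Surj.X` (helper96).

The bijection behind helper84's `card_H2_eq_h0`, made explicit, so that cyclicity / generators of
`X` (obtained from the Artin isomorphism `X ≃* Gal(L/K)`) transfer to `H²`.
-/
import Mathlib
import Fermat.Agent.S55.Global.Bridge2Surj
import Fermat.Agent.S55.Global.CyclicClass

set_option autoImplicit false
set_option linter.unusedSectionVars false

open CategoryTheory groupCohomology Rep

namespace Fermat.Agent.S55.Global.Bridge2H2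

open Rep.FiniteCyclicGroup
open Fermat.Agent.S55.Global.CyclicClass

section abstract

attribute [local instance 2000] Rep.hV2

variable {G : Type} [CommGroup G] [Fintype G] (A : Rep ℤ G) (g : G)
  (hg : ∀ x, x ∈ Subgroup.zpowers g)

/-- `ker (σ - 1) → Hⁱ(G, A)`, `i > 0` even. -/
noncomputable def evenHom (i : ℕ) [NeZero i] (hi : Even i) :
    (subOne A g).ker →+ groupCohomology A i where
  toFun x := groupCohomologyπEven A g hg i hi ⟨x.1, (mem_ker_subOne A g x.1).1 x.2⟩
  map_zero' := map_zero (groupCohomologyπEven A g hg i hi).hom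
  map_add' x y := map_add (groupCohomologyπEven A g hg i hi).hom _ _

theorem evenHom_surjective (i : ℕ) [NeZero i] (hi : Even i) :
    Function.Surjective (evenHom A g hg i hi) := by
  intro y
  obtain ⟨x, hx⟩ := piEven_surjective A g hg i hi y
  exact ⟨⟨x.1, (mem_ker_subOne A g x.1).2 x.2⟩, hx⟩

theorem evenHom_eq_zero_iff (i : ℕ) [NeZero i] (hi : Even i) (x : (subOne A g).ker) :
    evenHom A g hg i hi x = 0 ↔ (x : A.V) ∈ (nrm A).range := by
  rw [mem_range_nrm]
  exact groupCohomologyπEven_eq_zero_iff A g hg i hi _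

theorem ker_evenHom (i : ℕ) [NeZero i] (hi : Even i) :
    (evenHom A g hg i hi).ker = (nrm A).range.addSubgroupOf (subOne A g).ker := by
  ext x
  rw [AddMonoidHom.mem_ker, evenHom_eq_zero_iff, AddSubgroup.mem_addSubgroupOf]

/-- `ker (σ - 1) ⧸ N A ≃+ Hⁱ(G, A)` for `i > 0` even, `G = ⟨g⟩` finite cyclic. -/
noncomputable def evenEquiv (i : ℕ) [NeZero i] (hi : Even i) :
    ((subOne A g).ker ⧸ (nrm A).range.addSubgroupOf (subOne A g).ker) ≃+ groupCohomology A i :=
  (QuotientAddGroup.quotientAddEquivOfEq (ker_evenHom A g hg i hi).symm).trans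
    (QuotientAddGroup.quotientKerEquivOfSurjective (evenHom A g hg i hi)
      (evenHom_surjective A g hg i hi))

end abstract

section consumer

variable {G : Type} [Group G] [Fintype G] (A : Rep ℤ G) (g : G)
  (hg : ∀ x, x ∈ Subgroup.zpowers g) (s N : A.V →+ A.V)
  (hs : ∀ x, s x = A.ρ g x - x) (hN : ∀ x, N x = ∑ h : G, A.ρ h x)

include hg hs hN in
/-- Consumer form (no `CommGroup` instance needed): `ker s ⧸ N A ≃+ Hⁱ(G, A)`, `i > 0` even. -/
theorem nonempty_evenEquiv_of (i : ℕ) [NeZero i] (hi : Even i) :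
    Nonempty ((s.ker ⧸ N.range.addSubgroupOf s.ker) ≃+ groupCohomology A i) := by
  have hcyc : IsCyclic G := ⟨g, hg⟩
  let _ : CommGroup G := IsCyclic.commGroup
  have e1 : s = subOne A g := AddMonoidHom.ext fun x => by rw [hs, subOne_apply]
  have e2 : N = nrm A := AddMonoidHom.ext fun x => by rw [hN, nrm_apply]
  subst e1 e2
  exact ⟨evenEquiv A g hg i hi⟩

end consumer

section Cn

open NumberField
open Fermat.Agent.S55.Global.Objects Fermat.Agent.S55.Global.Objects2
open Fermat.Agent.S55.Global.Blocks2 Fermat.Agent.S55.Global.Bridge2Surj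

variable {K : Type} [Field K] [NumberField K] {L : Type} [Field L] [NumberField L] [Algebra K L]
variable [Fintype (L ≃ₐ[K] L)] {T : Finset Nat.Primes} {σ : L ≃ₐ[K] L}

/-- `ker (σ - 1 | C_{L,T}) ⧸ Nm ≃+ H²(Gal(L/K), C_{L,T})` for `Gal(L/K) = ⟨σ⟩`. -/
theorem nonempty_quot_addEquiv_H2 (hgen : ∀ τ : L ≃ₐ[K] L, τ ∈ Subgroup.zpowers σ) :
    Nonempty (((diffC K L T σ).ker ⧸ NmSub K L T σ) ≃+ groupCohomology (Cn K L T) 2) :=
  nonempty_evenEquiv_of (Cn K L T) σ hgen (diffC K L T σ) (normC K L T) (fun _ => rfl)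
    (fun _ => rfl) 2 (by decide)

/-- `Additive X ≃+ H²(Gal(L/K), C_{L,T})`. -/
theorem nonempty_addEquiv_H2 (hgen : ∀ τ : L ≃ₐ[K] L, τ ∈ Subgroup.zpowers σ) :
    Nonempty (Additive (X K L T σ) ≃+ groupCohomology (Cn K L T) 2) := by
  obtain ⟨e⟩ := nonempty_quot_addEquiv_H2 (T := T) hgen
  exact ⟨(AddEquiv.additiveMultiplicative _).trans e⟩

/-- If `X` is cyclic, `H²(Gal(L/K), C_{L,T})` is generated by one class. -/
theorem exists_generator_H2_of_isCyclic (hgen : ∀ τ : L ≃ₐ[K] L, τ ∈ Subgroup.zpowers σ)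
    (h : IsCyclic (X K L T σ)) :
    ∃ u : groupCohomology (Cn K L T) 2, ∀ x : groupCohomology (Cn K L T) 2, ∃ n : ℤ, x = n • u := by
  obtain ⟨e⟩ := nonempty_addEquiv_H2 (T := T) hgen
  obtain ⟨w, hw⟩ := h.exists_generator
  refine ⟨e (Additive.ofMul w), fun x => ?_⟩
  obtain ⟨n, hn⟩ := Subgroup.mem_zpowers_iff.mp (hw (Additive.toMul (e.symm x)))
  refine ⟨n, ?_⟩
  have h1 : e.symm x = n • Additive.ofMul w := by
    rw [← ofMul_zpow, hn]
    rfl
  rw [← map_zsmul, ← h1, AddEquiv.apply_symm_apply]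

/-- Same, from a group isomorphism of `X` with a cyclic group (e.g. the Artin isomorphism
`X ≃* Gal(L/K)`). -/
theorem exists_generator_H2_of_mulEquiv (hgen : ∀ τ : L ≃ₐ[K] L, τ ∈ Subgroup.zpowers σ)
    {G' : Type*} [Group G'] [IsCyclic G'] (ψ : X K L T σ ≃* G') :
    ∃ u : groupCohomology (Cn K L T) 2, ∀ x : groupCohomology (Cn K L T) 2, ∃ n : ℤ, x = n • u :=
  exists_generator_H2_of_isCyclic hgen (isCyclic_of_surjective ψ.symm ψ.symm.surjective)

/-- `#H² = #X`. -/
theorem card_H2_eq_card_X (hgen : ∀ τ : L ≃ₐ[K] L, τ ∈ Subgroup.zpowers σ) :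
    Nat.card (groupCohomology (Cn K L T) 2) = Nat.card (X K L T σ) := by
  obtain ⟨e⟩ := nonempty_addEquiv_H2 (T := T) hgen
  exact (Nat.card_congr e.toEquiv).symm

end Cn

end Fermat.Agent.S55.Global.Bridge2H2
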