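/-
S55 / Global — tower compatibilities for the `δ`-package (helper96).

For a tower `K ⊆ L ⊆ M`: the class of `a ⊗ 1` (`a ∈ Kˣ`) in `C_{M,T}` is the same whether computed
over `K` or over `L`; the sum over `ker (Gal(M/K) → Gal(L/K))` is the norm of `Gal(M/L)`.
Consequently helper77's `(E2)` conclusion (`every Gal(M/K)-fixed class is a norm from
ker (rnHom K L M)`) follows from `δ_{M/L}(a) = 1` for all `a ∈ Kˣ`.
-/
import Mathlib
import Fermat.Agent.S55.Global.Bridge2Fixed
import Fermat.Agent.S55.Global.TransitionQ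

set_option autoImplicit false
set_option linter.unusedSectionVars false

open NumberField IsDedekindDomain TensorProduct

namespace Fermat.Agent.S55.Global.Bridge2Tower

open Fermat.Agent.S55.Global.Objects Fermat.Agent.S55.Global.Objects2
open Fermat.Agent.S55.Global.Objects3
open Fermat.Agent.S55.Global.Blocks2 Fermat.Agent.S55.Global.Bridge2Units
open Fermat.Agent.S55.Global.Bridge2Surj Fermat.Agent.S55.Global.Bridge2Fixed
open Fermat.Agent.S55.Global.TransitionQ

variable {K : Type} [Field K] [NumberField K] {L : Type} [Field L] [NumberField L] [Algebra K L]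
variable {M : Type} [Field M] [NumberField M] [Algebra K M] [Algebra L M] [IsScalarTower K L M]
variable {T : Finset Nat.Primes}

/-- The class of `a ⊗ 1`, `a ∈ Kˣ`, in `C_{M,T}` computed over `L` or over `K`. -/
theorem deltaC_tower (a : Kˣ) :
    (deltaC L M T (Additive.ofMul (Units.map ((algebraMap K L : K →+* L) : K →* L) a)) : CQ M T) =
      (deltaC K M T (Additive.ofMul a) : CQ M T) := by
  rw [deltaC_apply, deltaC_apply]
  congr 4
  apply Units.ext
  exact (IsScalarTower.algebraMap_apply K L M (a : K)).symm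

/-- The action of `Gal(M/L)` on `C_{M,T}` is the restriction of the action of `Gal(M/K)`. -/
theorem rho_subHom (τ : M ≃ₐ[L] M) (b : CQ M T) :
    (Cn K M T).ρ (subHom K L M τ) b = (Cn L M T).ρ τ b := rfl

section ker

variable [Normal K L]

/-- An element of `ker (Gal(M/K) → Gal(L/K))` is `L`-linear. -/
noncomputable def kerToGal (s : (rnHom K L M).ker) : M ≃ₐ[L] M :=
  { (s : M ≃ₐ[K] M).toRingEquiv with
    commutes' := fun x => by
      have h1 := rnHom_commutes K L M (s : M ≃ₐ[K] M) x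
      have h2 : rnHom K L M (s : M ≃ₐ[K] M) = 1 := s.2
      rw [h2] at h1
      exact h1.symm }

theorem subHom_kerToGal (s : (rnHom K L M).ker) :
    subHom K L M (kerToGal s) = (s : M ≃ₐ[K] M) := by
  apply AlgEquiv.ext
  intro x
  rfl

theorem subHom_mem_ker (τ : M ≃ₐ[L] M) : subHom K L M τ ∈ (rnHom K L M).ker := by
  rw [MonoidHom.mem_ker]
  apply AlgEquiv.ext
  intro x
  apply (algebraMap L M).injective
  rw [rnHom_commutes]
  exact τ.commutes x

/-- `Gal(M/L) ≃ ker (Gal(M/K) → Gal(L/K))`. -/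
noncomputable def galEquivKer : (M ≃ₐ[L] M) ≃ (rnHom K L M).ker where
  toFun τ := ⟨subHom K L M τ, subHom_mem_ker τ⟩
  invFun s := kerToGal s
  left_inv τ := by
    apply AlgEquiv.ext
    intro x
    rfl
  right_inv s := Subtype.ext (subHom_kerToGal s)

/-- The sum over `ker (Gal(M/K) → Gal(L/K))` is the norm of `Gal(M/L)`. -/
theorem sum_ker_eq_normC [Fintype (rnHom K L M).ker] [Fintype (M ≃ₐ[L] M)] (b : CQ M T) :
    ∑ s : (rnHom K L M).ker, (Cn K M T).ρ (s : M ≃ₐ[K] M) b = normC L M T b := by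
  have h : normC L M T b = ∑ τ : M ≃ₐ[L] M, (Cn L M T).ρ τ b := rfl
  rw [h]
  exact (Fintype.sum_equiv (galEquivKer (K := K) (L := L) (M := M)) _ _ (fun τ => rfl)).symm

/-- **(E2) reduction**: if for every `a ∈ Kˣ` the class of `a ⊗ 1` in `C_{M,T}` is a norm from
`Gal(M/L)`, then every `Gal(M/K)`-fixed class of `C_{M,T}` is a norm from
`ker (Gal(M/K) → Gal(L/K))`. -/
theorem exists_eq_sum_ker [IsGalois K M] [Fintype (rnHom K L M).ker] [Fintype (M ≃ₐ[L] M)]
    {p : ℕ} (hadm : AdmissibleQ K M p T)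
    (hδ : ∀ a : Kˣ, deltaC L M T (Additive.ofMul
      (Units.map ((algebraMap K L : K →+* L) : K →* L) a)) ∈ (normC L M T).range)
    (c : Cn K M T) (hc : ∀ g : M ≃ₐ[K] M, (Cn K M T).ρ g c = c) :
    ∃ b : Cn K M T, c = ∑ s : (rnHom K L M).ker, (Cn K M T).ρ (s : M ≃ₐ[K] M) b := by
  refine exists_eq_sum_of_deltaC hadm (rnHom K L M).ker (fun a => ?_) c hc
  obtain ⟨b, hb⟩ := hδ a
  refine ⟨b, ?_⟩
  rw [sum_ker_eq_normC]
  exact (hb.trans (deltaC_tower a)).symm

/-- Same, with the hypothesis in terms of `Bridge2Surj.delta` for the (cyclic) layer `M/L`. -/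
theorem exists_eq_sum_ker_of_delta [IsGalois K M] [Fintype (rnHom K L M).ker]
    [Fintype (M ≃ₐ[L] M)] {p : ℕ} (hadm : AdmissibleQ K M p T) (σ' : M ≃ₐ[L] M)
    (hδ : ∀ a : Kˣ, delta L M T σ' (Units.map ((algebraMap K L : K →+* L) : K →* L) a) = 1)
    (c : Cn K M T) (hc : ∀ g : M ≃ₐ[K] M, (Cn K M T).ρ g c = c) :
    ∃ b : Cn K M T, c = ∑ s : (rnHom K L M).ker, (Cn K M T).ρ (s : M ≃ₐ[K] M) b :=
  exists_eq_sum_ker hadm (fun a => (delta_eq_one_iff σ' _).mp (hδ a)) c hc

end ker

end Fermat.Agent.S55.Global.Bridge2Tower
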