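/-
S55 / Global / G.dec.val — THE CENTRE DETERMINES THE VALUATION (helper71).

`R` a Dedekind domain, `E = Frac R`, `u : HeightOneSpectrum R`.  A valuation `w` on `E` (values in
any `Γ`) which is `≤ 1` on `R` and whose centre on `R` is `u` (`w r < 1 ↔ r ∈ u`) is equivalent to
the `u`-adic valuation.  Normed form: for a ring hom `j : E →+* F` into an ultrametric normed field
with `‖j r‖ ≤ 1` on `R` and `‖j r‖ < 1 ↔ r ∈ u`:  `‖j x‖ ≤ 1 ↔ u.valuation E x ≤ 1`, etc.

This is item (c) of row `G.dec` (helper78 #1654): with `u(m) = {r ∈ 𝓞 E : ‖r ⊗ 1 mod m‖ < 1}` the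
norm of the factor `(E ⊗[ℚ] ℚ_[q]) ⧸ m` restricted to `E` is the `u(m)`-adic one.
-/
import Mathlib

set_option autoImplicit false
set_option linter.unusedSectionVars false

namespace Fermat.Agent.S55.Global.CenterValuation

open IsDedekindDomain IsDedekindDomain.HeightOneSpectrum

section Valuation

variable {R : Type*} [CommRing R] [IsDedekindDomain R]
  {E : Type*} [Field E] [Algebra R E] [IsFractionRing R E]
  (u : HeightOneSpectrum R)
  {Γ : Type*} [LinearOrderedCommGroupWithZero Γ] (w : Valuation E Γ)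

/-- Outside the centre, `w` is `1`. -/
theorem eq_one_of_notMem (hint : ∀ r : R, w (algebraMap R E r) ≤ 1)
    (hu : ∀ r : R, w (algebraMap R E r) < 1 ↔ r ∈ u.asIdeal) {r : R} (hr : r ∉ u.asIdeal) :
    w (algebraMap R E r) = 1 :=
  le_antisymm (hint r) (not_lt.mp fun h => hr ((hu r).mp h))

/-- **The centre determines the valuation**: `w x ≤ 1 ↔ v_u x ≤ 1`. -/
theorem le_one_iff (hint : ∀ r : R, w (algebraMap R E r) ≤ 1)
    (hu : ∀ r : R, w (algebraMap R E r) < 1 ↔ r ∈ u.asIdeal) (x : E) :
    w x ≤ 1 ↔ u.valuation E x ≤ 1 := by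
  obtain ⟨n, d, h | h⟩ := exists_primeCompl_mul_eq_or_mul_eq u x
  · -- `x * d = n`, `d ∉ u`
    have hd : (d : R) ∉ u.asIdeal := d.2
    have hwd : w (algebraMap R E d) = 1 := eq_one_of_notMem u w hint hu hd
    have hvd : u.valuation E (algebraMap R E d) = 1 := (valuation_eq_one_iff_notMem u).mpr hd
    have h1 : w x = w (algebraMap R E n) := by
      rw [← h, map_mul, hwd, mul_one]
    have h2 : u.valuation E x = u.valuation E (algebraMap R E n) := by
      rw [← h, map_mul, hvd, mul_one]
    rw [h1, h2]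
    exact ⟨fun _ => valuation_le_one u n, fun _ => hint n⟩
  · -- `x * n = d`, `d ∉ u`
    have hd : (d : R) ∉ u.asIdeal := d.2
    have hwd : w (algebraMap R E d) = 1 := eq_one_of_notMem u w hint hu hd
    have hvd : u.valuation E (algebraMap R E d) = 1 := (valuation_eq_one_iff_notMem u).mpr hd
    have h1 : w x * w (algebraMap R E n) = 1 := by rw [← map_mul, h, hwd]
    have h2 : u.valuation E x * u.valuation E (algebraMap R E n) = 1 := by
      rw [← map_mul, h, hvd]
    constructor
    · intro hx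
      -- `w n = 1`, hence `n ∉ u`, hence `v n = 1`
      have hwn : w (algebraMap R E n) = 1 := by
        refine le_antisymm (hint n) ?_
        by_contra hlt
        rw [not_le] at hlt
        have : w x * w (algebraMap R E n) < 1 * 1 := by
          refine mul_lt_mul_of_le_of_lt_of_nonneg_of_pos hx hlt zero_le one_pos
        rw [h1, one_mul] at this
        exact lt_irrefl _ this
      have hn : n ∉ u.asIdeal := fun hmem => by
        have := (hu n).mpr hmem
        rw [hwn] at this
        exact lt_irrefl _ this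
      have hvn : u.valuation E (algebraMap R E n) = 1 := (valuation_eq_one_iff_notMem u).mpr hn
      rw [hvn, mul_one] at h2
      exact h2.le
    · intro hx
      have hvn : u.valuation E (algebraMap R E n) = 1 := by
        refine le_antisymm (valuation_le_one u n) ?_
        by_contra hlt
        rw [not_le] at hlt
        have : u.valuation E x * u.valuation E (algebraMap R E n) < 1 * 1 := by
          refine mul_lt_mul_of_le_of_lt_of_nonneg_of_pos hx hlt zero_le one_pos
        rw [h2, one_mul] at this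
        exact lt_irrefl _ this
      have hn : n ∉ u.asIdeal := (valuation_eq_one_iff_notMem u).mp hvn
      have hwn : w (algebraMap R E n) = 1 := eq_one_of_notMem u w hint hu hn
      rw [hwn, mul_one] at h1
      exact h1.le

/-- `w` is equivalent to the `u`-adic valuation. -/
theorem isEquiv (hint : ∀ r : R, w (algebraMap R E r) ≤ 1)
    (hu : ∀ r : R, w (algebraMap R E r) < 1 ↔ r ∈ u.asIdeal) :
    w.IsEquiv (u.valuation E) :=
  Valuation.isEquiv_of_val_le_one (le_one_iff u w hint hu)

theorem lt_one_iff (hint : ∀ r : R, w (algebraMap R E r) ≤ 1)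
    (hu : ∀ r : R, w (algebraMap R E r) < 1 ↔ r ∈ u.asIdeal) (x : E) :
    w x < 1 ↔ u.valuation E x < 1 :=
  Valuation.isEquiv_iff_val_lt_one.mp (isEquiv u w hint hu)

theorem eq_one_iff (hint : ∀ r : R, w (algebraMap R E r) ≤ 1)
    (hu : ∀ r : R, w (algebraMap R E r) < 1 ↔ r ∈ u.asIdeal) (x : E) :
    w x = 1 ↔ u.valuation E x = 1 :=
  Valuation.isEquiv_iff_val_eq_one.mp (isEquiv u w hint hu)

/-- Two valuations with the same centre on `R` (both `≤ 1` on `R`) are equivalent. -/
theorem isEquiv_of_same_center {Γ' : Type*} [LinearOrderedCommGroupWithZero Γ']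
    (w' : Valuation E Γ')
    (hint : ∀ r : R, w (algebraMap R E r) ≤ 1)
    (hu : ∀ r : R, w (algebraMap R E r) < 1 ↔ r ∈ u.asIdeal)
    (hint' : ∀ r : R, w' (algebraMap R E r) ≤ 1)
    (hu' : ∀ r : R, w' (algebraMap R E r) < 1 ↔ r ∈ u.asIdeal) :
    w.IsEquiv w' :=
  (isEquiv u w hint hu).trans (isEquiv u w' hint' hu').symm

end Valuation

section Normed

variable {R : Type*} [CommRing R] [IsDedekindDomain R]
  {E : Type*} [Field E] [Algebra R E] [IsFractionRing R E]
  (u : HeightOneSpectrum R)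
  {F : Type*} [NormedField F] [IsUltrametricDist F] (j : E →+* F)

/-- The valuation on `E` induced by the norm of `F` along `j`. -/
noncomputable def normVal : Valuation E NNReal := (NormedField.valuation (K := F)).comap j

theorem normVal_apply (x : E) : normVal j x = ‖j x‖₊ := rfl

theorem normVal_le_one_iff (x : E) : normVal j x ≤ 1 ↔ ‖j x‖ ≤ 1 := by
  rw [normVal_apply, ← NNReal.coe_le_coe]; rfl

theorem normVal_lt_one_iff (x : E) : normVal j x < 1 ↔ ‖j x‖ < 1 := by
  rw [normVal_apply, ← NNReal.coe_lt_coe]; rfl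

theorem normVal_eq_one_iff (x : E) : normVal j x = 1 ↔ ‖j x‖ = 1 := by
  rw [normVal_apply, ← NNReal.coe_inj]; rfl

variable (hint : ∀ r : R, ‖j (algebraMap R E r)‖ ≤ 1)
  (hu : ∀ r : R, ‖j (algebraMap R E r)‖ < 1 ↔ r ∈ u.asIdeal)

include hint hu

theorem normVal_isEquiv : (normVal j).IsEquiv (u.valuation E) :=
  isEquiv u (normVal j) (fun r => (normVal_le_one_iff j _).mpr (hint r))
    (fun r => (normVal_lt_one_iff j _).trans (hu r))

/-- `‖j x‖ ≤ 1 ↔ v_u x ≤ 1`. -/
theorem norm_le_one_iff (x : E) : ‖j x‖ ≤ 1 ↔ u.valuation E x ≤ 1 :=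
  (normVal_le_one_iff j x).symm.trans
    (Valuation.isEquiv_iff_val_le_one.mp (normVal_isEquiv u j hint hu))

/-- `‖j x‖ < 1 ↔ v_u x < 1`. -/
theorem norm_lt_one_iff (x : E) : ‖j x‖ < 1 ↔ u.valuation E x < 1 :=
  (normVal_lt_one_iff j x).symm.trans
    (Valuation.isEquiv_iff_val_lt_one.mp (normVal_isEquiv u j hint hu))

/-- **Unit criterion**: `‖j x‖ = 1 ↔ v_u x = 1`. -/
theorem norm_eq_one_iff (x : E) : ‖j x‖ = 1 ↔ u.valuation E x = 1 :=
  (normVal_eq_one_iff j x).symm.trans
    (Valuation.isEquiv_iff_val_eq_one.mp (normVal_isEquiv u j hint hu))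

/-- Comparison of two elements. -/
theorem norm_le_norm_iff (x y : E) : ‖j x‖ ≤ ‖j y‖ ↔ u.valuation E x ≤ u.valuation E y := by
  have h := normVal_isEquiv u j hint hu x y
  rw [← h, normVal_apply, normVal_apply, ← NNReal.coe_le_coe]; rfl

/-- Explicit formula: with `c := ‖j π‖` for a uniformiser `π` (`v_u π = exp (-1)`),
`‖j x‖ = c ^ (- log (v_u x))` for `x ≠ 0`. -/
theorem norm_eq_zpow {π : E} (hπ : u.valuation E π = WithZero.exp (-1 : ℤ)) {x : E} (hx : x ≠ 0) :
    ‖j x‖ = ‖j π‖ ^ (-(WithZero.log (u.valuation E x))) := by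
  have hπ0 : π ≠ 0 := by
    rintro rfl
    rw [map_zero] at hπ
    exact WithZero.exp_ne_zero hπ.symm
  set n : ℤ := -(WithZero.log (u.valuation E x)) with hn
  -- `y := x / π ^ n` has `v_u y = 1`
  have hvx : u.valuation E x ≠ 0 := (Valuation.ne_zero_iff _).mpr hx
  have hy : u.valuation E (x / π ^ n) = 1 := by
    rw [map_div₀, map_zpow₀, hπ, ← WithZero.exp_zsmul, smul_eq_mul, hn]
    rw [div_eq_one_iff_eq (by exact WithZero.exp_ne_zero)]
    rw [mul_neg, mul_one, neg_neg, WithZero.exp_log hvx]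
  have h1 := (norm_eq_one_iff u j hint hu (x / π ^ n)).mpr hy
  rw [map_div₀, map_zpow₀, norm_div, norm_zpow] at h1
  have hjπ : ‖j π‖ ≠ 0 := norm_ne_zero_iff.mpr ((map_ne_zero j).mpr hπ0)
  rw [div_eq_one_iff_eq (zpow_ne_zero _ hjπ)] at h1
  exact h1

end Normed

end Fermat.Agent.S55.Global.CenterValuation
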