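/-
S55 / GLOBAL block, input of row `G.h2cyclic` (helper77).  Mathlib only.

THE COMPOSITUM PACKAGE.  For two algebraic extensions `L/K`, `F/K` given as abstract types:

* `M K L F : Type` — the compositum of the images of `L` and `F` in `AlgebraicClosure K`
  (`abbrev` of an intermediate field: `Field`, `Algebra K` instances from Mathlib);
  instances `FiniteDimensional K (M K L F)`, `IsGalois K (M K L F)`, `NumberField (M K L F)`;
* `Lm Fm : IntermediateField K (M K L F)` with `eL : L ≃ₐ[K] Lm`, `eF : F ≃ₐ[K] Fm`,
  `Lm_sup_Fm : Lm ⊔ Fm = ⊤`, `finrank_Lm`, `finrank_Fm`, Galois instances;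
* `resProd : Gal(M/K) →* Gal(Lm/K) × Gal(Fm/K)` injective; `finrank_M_dvd`,
  `exists_finrank_M_eq_pow` (`p`-power degrees stay `p`-power);
* `N₁ = Gal(M/L)`, `N₂ = Gal(M/F)` normal in `Gal(M/K)`, `N₁ ⊓ N₂ = ⊥`,
  `quotEquivL : Gal(M/K) ⧸ N₁ ≃* Gal(L/K)`, `quotEquivF : Gal(M/K) ⧸ N₂ ≃* Gal(F/K)` with the
  compatibility `quotEquivL_apply`, `quotEquivF_apply`.
-/
import Mathlib

set_option autoImplicit false

open IntermediateField

namespace Fermat.Agent.S55.Global.Compositum

section general

variable (K L F : Type) [Field K] [Field L] [Field F] [Algebra K L] [Algebra K F]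
  [Algebra.IsAlgebraic K L] [Algebra.IsAlgebraic K F]

/-- A chosen embedding of `L` into the algebraic closure of `K`. -/
noncomputable def emb : L →ₐ[K] AlgebraicClosure K := IsAlgClosed.lift

/-- The image of `L` in the algebraic closure of `K`. -/
noncomputable def img : IntermediateField K (AlgebraicClosure K) := (emb K L).fieldRange

/-- `L ≃ img L`. -/
noncomputable def imgEquiv : L ≃ₐ[K] img K L := AlgEquiv.ofInjectiveField (emb K L)

/-- The compositum of (the images of) `L` and `F` inside the algebraic closure of `K`. -/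
noncomputable def compField : IntermediateField K (AlgebraicClosure K) := img K L ⊔ img K F

theorem img_le_left : img K L ≤ compField K L F := by
  unfold compField
  exact le_sup_left

theorem img_le_right : img K F ≤ compField K L F := by
  unfold compField
  exact le_sup_right

/-- **The compositum `M = L · F`** as a type. -/
abbrev M : Type := ↥(compField K L F)

/-- `L` inside `M`. -/
noncomputable def Lm : IntermediateField K (M K L F) :=
  IntermediateField.restrict (img_le_left K L F)

/-- `F` inside `M`. -/
noncomputable def Fm : IntermediateField K (M K L F) :=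
  IntermediateField.restrict (img_le_right K L F)

/-- `L ≃ₐ[K] Lm`. -/
noncomputable def eL : L ≃ₐ[K] Lm K L F :=
  (imgEquiv K L).trans (IntermediateField.restrictAlgEquiv _)

/-- `F ≃ₐ[K] Fm`. -/
noncomputable def eF : F ≃ₐ[K] Fm K L F :=
  (imgEquiv K F).trans (IntermediateField.restrictAlgEquiv _)

theorem Lm_sup_Fm : Lm K L F ⊔ Fm K L F = ⊤ := by
  apply IntermediateField.lift_injective
  rw [IntermediateField.lift_sup, IntermediateField.lift_top]
  have h1 : IntermediateField.lift (Lm K L F) = img K L := IntermediateField.lift_restrict _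
  have h2 : IntermediateField.lift (Fm K L F) = img K F := IntermediateField.lift_restrict _
  rw [h1, h2]
  rfl

/-! ### finiteness, normality, Galois -/

instance finiteDimensional_img [FiniteDimensional K L] : FiniteDimensional K (img K L) :=
  (imgEquiv K L).toLinearEquiv.finiteDimensional

instance finiteDimensional_M [FiniteDimensional K L] [FiniteDimensional K F] :
    FiniteDimensional K (M K L F) :=
  IntermediateField.finiteDimensional_sup (img K L) (img K F)

instance isGalois_img [IsGalois K L] : IsGalois K (img K L) :=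
  IsGalois.of_algEquiv (imgEquiv K L)

instance isGalois_M [IsGalois K L] [IsGalois K F] : IsGalois K (M K L F) :=
  show IsGalois K ↥(img K L ⊔ img K F) from
    { to_isSeparable := inferInstance
      to_normal := inferInstance }

instance isGalois_Lm [IsGalois K L] : IsGalois K (Lm K L F) :=
  IsGalois.of_algEquiv (eL K L F)

instance isGalois_Fm [IsGalois K F] : IsGalois K (Fm K L F) :=
  IsGalois.of_algEquiv (eF K L F)

theorem finrank_Lm : Module.finrank K (Lm K L F) = Module.finrank K L :=
  (eL K L F).toLinearEquiv.finrank_eq.symm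

theorem finrank_Fm : Module.finrank K (Fm K L F) = Module.finrank K F :=
  (eF K L F).toLinearEquiv.finrank_eq.symm

/-- The compositum of two number fields is a number field. -/
instance numberField_M [NumberField K] [FiniteDimensional K L] [FiniteDimensional K F] :
    NumberField (M K L F) where
  to_charZero := charZero_of_injective_algebraMap (algebraMap K (M K L F)).injective
  to_finiteDimensional := Module.Finite.trans K (M K L F)

/-! ### the Galois group of the compositum -/

section galois

variable [IsGalois K L] [IsGalois K F]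

/-- `Gal(M/K) → Gal(L/K) × Gal(F/K)` (restriction to the two factors, read on `Lm`, `Fm`). -/
noncomputable def resProd : (M K L F ≃ₐ[K] M K L F) →*
    (Lm K L F ≃ₐ[K] Lm K L F) × (Fm K L F ≃ₐ[K] Fm K L F) :=
  (AlgEquiv.restrictNormalHom (Lm K L F)).prod (AlgEquiv.restrictNormalHom (Fm K L F))

theorem resProd_injective : Function.Injective (resProd K L F) := by
  rw [injective_iff_map_eq_one]
  intro σ hσ
  have h1 : σ ∈ (Lm K L F).fixingSubgroup := by
    rw [← IntermediateField.restrictNormalHom_ker]
    exact congrArg Prod.fst hσ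
  have h2 : σ ∈ (Fm K L F).fixingSubgroup := by
    rw [← IntermediateField.restrictNormalHom_ker]
    exact congrArg Prod.snd hσ
  have h3 : σ ∈ (Lm K L F ⊔ Fm K L F).fixingSubgroup := by
    rw [IntermediateField.fixingSubgroup_sup]
    exact ⟨h1, h2⟩
  rw [Lm_sup_Fm, IntermediateField.fixingSubgroup_top] at h3
  exact Subgroup.mem_bot.mp h3

/-- `N₁ = Gal(M/L)`, as a (normal) subgroup of `Gal(M/K)`. -/
noncomputable def N₁ : Subgroup (M K L F ≃ₐ[K] M K L F) := (Lm K L F).fixingSubgroup

/-- `N₂ = Gal(M/F)`, as a (normal) subgroup of `Gal(M/K)`. -/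
noncomputable def N₂ : Subgroup (M K L F ≃ₐ[K] M K L F) := (Fm K L F).fixingSubgroup

instance normal_N₁ : (N₁ K L F).Normal :=
  IsGalois.fixingSubgroup_normal_of_isGalois (Lm K L F)

instance normal_N₂ : (N₂ K L F).Normal :=
  IsGalois.fixingSubgroup_normal_of_isGalois (Fm K L F)

omit [IsGalois K L] [IsGalois K F] in
theorem N₁_inf_N₂ : N₁ K L F ⊓ N₂ K L F = ⊥ := by
  rw [N₁, N₂, ← IntermediateField.fixingSubgroup_sup, Lm_sup_Fm,
    IntermediateField.fixingSubgroup_top]

/-- `Gal(M/K) ⧸ N₁ ≃* Gal(L/K)`. -/
noncomputable def quotEquivL : (M K L F ≃ₐ[K] M K L F) ⧸ N₁ K L F ≃* (L ≃ₐ[K] L) :=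
  ((QuotientGroup.quotientMulEquivOfEq
      (IntermediateField.restrictNormalHom_ker (Lm K L F)).symm).trans
    (QuotientGroup.quotientKerEquivOfSurjective (AlgEquiv.restrictNormalHom (Lm K L F))
      (AlgEquiv.restrictNormalHom_surjective (M K L F)))).trans
    (AlgEquiv.autCongr (eL K L F).symm)

/-- `Gal(M/K) ⧸ N₂ ≃* Gal(F/K)`. -/
noncomputable def quotEquivF : (M K L F ≃ₐ[K] M K L F) ⧸ N₂ K L F ≃* (F ≃ₐ[K] F) :=
  ((QuotientGroup.quotientMulEquivOfEq
      (IntermediateField.restrictNormalHom_ker (Fm K L F)).symm).trans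
    (QuotientGroup.quotientKerEquivOfSurjective (AlgEquiv.restrictNormalHom (Fm K L F))
      (AlgEquiv.restrictNormalHom_surjective (M K L F)))).trans
    (AlgEquiv.autCongr (eF K L F).symm)

/-- Compatibility of `quotEquivL` with the embedding `L → M`: for `σ ∈ Gal(M/K)` and `x ∈ L`,
`σ (x in M) = (quotEquivL [σ]) x in M`. -/
theorem quotEquivL_apply (σ : M K L F ≃ₐ[K] M K L F) (x : L) :
    ((eL K L F) (quotEquivL K L F (QuotientGroup.mk σ) x) : M K L F) =
      σ ((eL K L F x : Lm K L F) : M K L F) := by
  have h : quotEquivL K L F (QuotientGroup.mk σ) x =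
      (eL K L F).symm (AlgEquiv.restrictNormalHom (Lm K L F) σ (eL K L F x)) := rfl
  rw [h, AlgEquiv.apply_symm_apply, AlgEquiv.restrictNormalHom_apply]

theorem quotEquivF_apply (σ : M K L F ≃ₐ[K] M K L F) (x : F) :
    ((eF K L F) (quotEquivF K L F (QuotientGroup.mk σ) x) : M K L F) =
      σ ((eF K L F x : Fm K L F) : M K L F) := by
  have h : quotEquivF K L F (QuotientGroup.mk σ) x =
      (eF K L F).symm (AlgEquiv.restrictNormalHom (Fm K L F) σ (eF K L F x)) := rfl
  rw [h, AlgEquiv.apply_symm_apply, AlgEquiv.restrictNormalHom_apply]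

variable [FiniteDimensional K L] [FiniteDimensional K F]

/-- `[M : K]` divides `[L : K] · [F : K]`. -/
theorem finrank_M_dvd :
    Module.finrank K (M K L F) ∣ Module.finrank K L * Module.finrank K F := by
  have hfL : FiniteDimensional K (Lm K L F) := (eL K L F).toLinearEquiv.finiteDimensional
  have hfF : FiniteDimensional K (Fm K L F) := (eF K L F).toLinearEquiv.finiteDimensional
  rw [← finrank_Lm K L F, ← finrank_Fm K L F, ← IsGalois.card_aut_eq_finrank K (M K L F),
    ← IsGalois.card_aut_eq_finrank K (Lm K L F), ← IsGalois.card_aut_eq_finrank K (Fm K L F),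
    ← Nat.card_prod]
  exact Subgroup.card_dvd_of_injective (resProd K L F) (resProd_injective K L F)

/-- If `[L : K]` and `[F : K]` are powers of `p`, so is `[M : K]`. -/
theorem exists_finrank_M_eq_pow {p : ℕ} (hp : p.Prime) {a b : ℕ}
    (hL : Module.finrank K L = p ^ a) (hF : Module.finrank K F = p ^ b) :
    ∃ c, Module.finrank K (M K L F) = p ^ c := by
  have h := finrank_M_dvd K L F
  rw [hL, hF, ← pow_add] at h
  obtain ⟨c, -, hc⟩ := (Nat.dvd_prime_pow hp).mp h
  exact ⟨c, hc⟩

end galois

end general

end Fermat.Agent.S55.Global.Compositum
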