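/-
S55 / GLOBAL block, row `G.cyclic`, TOP-LAYER form (helper84), for helper6's top-down dévissage.

`G` any finite group, `A : Rep ℤ G`, `σ : G`, `N = ⟨σ⟩ ≤ G` (no normality needed here),
`s = σ - 1`, `Nm = ∑_{i < orderOf σ} σ^i` as additive endomorphisms of `A`. Then for the restricted
module `Rep.res N.subtype A`:

* `card_even_top`, `card_odd_top`: `#Hⁱ(N, A) = [ker s : Nm A]` (`i > 0` even),
  `#Hⁱ(N, A) = [ker Nm : s A]` (`i` odd);
* `isZero_even_iff_top`, `isZero_odd_iff_top`;
* `top_layer_of`: first + second inequality ⟹ `H¹(N, A) = 0 ∧ #H²(N, A) = n`;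
* `top_layer_prime_of`: for `n = p` prime, moreover `H²(N, A)` is generated by one class.
-/
import Fermat.Agent.S55.Global.CyclicClass

set_option autoImplicit false

open CategoryTheory groupCohomology Rep

namespace Fermat.Agent.S55.Global.CyclicClassTop

open Fermat.Agent.S55.Global.CyclicClass

/-- Summing over a finite cyclic group is summing over the powers of a generator. -/
theorem sum_eq_sum_pow {G : Type*} [Group G] [Fintype G] {M : Type*} [AddCommMonoid M] (g : G)
    (hg : ∀ x, x ∈ Subgroup.zpowers g) (f : G → M) :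
    ∑ h : G, f h = ∑ i ∈ Finset.range (orderOf g), f (g ^ i) := by
  classical
  rw [← IsCyclic.image_range_orderOf hg, Finset.sum_image]
  intro i hi j hj hij
  exact pow_injOn_Iio_orderOf (by simpa using hi) (by simpa using hj) hij

section top

variable {G : Type} [Group G] [Finite G] (A : Rep ℤ G) (σ : G) (s Nm : A.V →+ A.V)
  (hs : ∀ x, s x = A.ρ σ x - x)
  (hN : ∀ x, Nm x = ∑ i ∈ Finset.range (orderOf σ), A.ρ (σ ^ i) x)

/-- The generator of `⟨σ⟩`. -/
def gen : Subgroup.zpowers σ := ⟨σ, Subgroup.mem_zpowers σ⟩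

omit [Finite G] in
theorem gen_generates (x : Subgroup.zpowers σ) : x ∈ Subgroup.zpowers (gen σ) := by
  obtain ⟨k, hk⟩ := Subgroup.mem_zpowers_iff.mp x.2
  exact Subgroup.mem_zpowers_iff.mpr ⟨k, Subtype.ext (by simpa [gen] using hk)⟩

omit [Finite G] in
theorem orderOf_gen : orderOf (gen σ) = orderOf σ :=
  Subgroup.orderOf_mk σ (Subgroup.mem_zpowers σ)

include hN in
theorem norm_res (x : A.V) [Fintype (Subgroup.zpowers σ)] :
    Nm x = ∑ h : Subgroup.zpowers σ, (Rep.res (Subgroup.zpowers σ).subtype A).ρ h x := by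
  rw [hN, sum_eq_sum_pow (gen σ) (gen_generates σ), orderOf_gen]
  rfl

include hs hN in
theorem card_even_top (i : ℕ) [NeZero i] (hi : Even i) :
    Nat.card (groupCohomology (Rep.res (Subgroup.zpowers σ).subtype A) i) =
      Nm.range.relIndex s.ker := by
  let _ : Fintype (Subgroup.zpowers σ) := Fintype.ofFinite _
  exact card_even_of (Rep.res (Subgroup.zpowers σ).subtype A) (gen σ) (gen_generates σ) s Nm
    (fun x => hs x) (fun x => norm_res A σ Nm hN x) i hi

include hs hN in
theorem card_odd_top (i : ℕ) (hi : Odd i) :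
    Nat.card (groupCohomology (Rep.res (Subgroup.zpowers σ).subtype A) i) =
      s.range.relIndex Nm.ker := by
  let _ : Fintype (Subgroup.zpowers σ) := Fintype.ofFinite _
  exact card_odd_of (Rep.res (Subgroup.zpowers σ).subtype A) (gen σ) (gen_generates σ) s Nm
    (fun x => hs x) (fun x => norm_res A σ Nm hN x) i hi

include hs hN in
theorem isZero_even_iff_top (i : ℕ) [NeZero i] (hi : Even i) :
    Limits.IsZero (groupCohomology (Rep.res (Subgroup.zpowers σ).subtype A) i) ↔
      s.ker ≤ Nm.range := by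
  let _ : Fintype (Subgroup.zpowers σ) := Fintype.ofFinite _
  exact isZero_even_iff_of (Rep.res (Subgroup.zpowers σ).subtype A) (gen σ) (gen_generates σ) s Nm
    (fun x => hs x) (fun x => norm_res A σ Nm hN x) i hi

include hs hN in
theorem isZero_odd_iff_top (i : ℕ) (hi : Odd i) :
    Limits.IsZero (groupCohomology (Rep.res (Subgroup.zpowers σ).subtype A) i) ↔
      Nm.ker ≤ s.range := by
  let _ : Fintype (Subgroup.zpowers σ) := Fintype.ofFinite _
  exact isZero_odd_iff_of (Rep.res (Subgroup.zpowers σ).subtype A) (gen σ) (gen_generates σ) s Nm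
    (fun x => hs x) (fun x => norm_res A σ Nm hN x) i hi

include hs hN in
/-- Top cyclic layer from the two inequalities. -/
theorem top_layer_of (n : ℕ)
    (hfirst : Nm.range.relIndex s.ker = n * s.range.relIndex Nm.ker)
    (hsecond : Nm.range.relIndex s.ker ≤ n)
    (hne : Nm.range.relIndex s.ker ≠ 0) :
    Limits.IsZero (groupCohomology (Rep.res (Subgroup.zpowers σ).subtype A) 1) ∧
      Nat.card (groupCohomology (Rep.res (Subgroup.zpowers σ).subtype A) 2) = n := by
  let _ : Fintype (Subgroup.zpowers σ) := Fintype.ofFinite _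
  exact cyclic_layer_of (Rep.res (Subgroup.zpowers σ).subtype A) (gen σ) (gen_generates σ) s Nm
    (fun x => hs x) (fun x => norm_res A σ Nm hN x) n hfirst hsecond hne

include hs hN in
/-- Top cyclic layer of prime order: `H¹ = 0`, `#H² = p`, `H²` generated by one class. -/
theorem top_layer_prime_of (p : ℕ) (hp : p.Prime)
    (h0p : Nm.range.relIndex s.ker = p) (h11 : s.range.relIndex Nm.ker = 1) :
    Limits.IsZero (groupCohomology (Rep.res (Subgroup.zpowers σ).subtype A) 1) ∧
      Nat.card (groupCohomology (Rep.res (Subgroup.zpowers σ).subtype A) 2) = p ∧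
      ∃ u : groupCohomology (Rep.res (Subgroup.zpowers σ).subtype A) 2,
        ∀ x : groupCohomology (Rep.res (Subgroup.zpowers σ).subtype A) 2, ∃ m : ℤ, x = m • u := by
  have hc1 : Nat.card (groupCohomology (Rep.res (Subgroup.zpowers σ).subtype A) 1) = 1 := by
    rw [card_odd_top A σ s Nm hs hN 1 (by decide), h11]
  have hc2 : Nat.card (groupCohomology (Rep.res (Subgroup.zpowers σ).subtype A) 2) = p := by
    rw [card_even_top A σ s Nm hs hN 2 (by decide), h0p]
  have hsub : Subsingleton (groupCohomology (Rep.res (Subgroup.zpowers σ).subtype A) 1) :=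
    (Nat.card_eq_one_iff_unique.mp hc1).1
  refine ⟨ModuleCat.isZero_of_subsingleton _, hc2, ?_⟩
  have : Fact p.Prime := ⟨hp⟩
  have hcyc : IsAddCyclic (groupCohomology (Rep.res (Subgroup.zpowers σ).subtype A) 2) :=
    isAddCyclic_of_prime_card hc2
  obtain ⟨u, hu⟩ := hcyc.exists_generator
  refine ⟨u, fun x => ?_⟩
  obtain ⟨m, hm⟩ := AddSubgroup.mem_zmultiples_iff.mp (hu x)
  exact ⟨m, hm.symm⟩

end top

end Fermat.Agent.S55.Global.CyclicClassTop
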