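/-
S55 / GLOBAL block, row `G.cyclic` (helper84), INTERFACE v3 (`ℚ`-based modules, `Global/Blocks2.lean`):

* `card_H2_eq_h0`, `card_H1_eq_h1`: `#H²(G, Cn K L T) = h0`, `#H¹(G, Cn K L T) = h1` for `G = ⟨σ⟩`;
* `cyclicCoh_of_cyclicLayer : Blocks2.CyclicLayer p → Blocks2.CyclicCoh p`;
* `cyclicCoh_of_ineqs : Blocks2.FirstIneq p → Blocks2.SecondIneq p → Blocks2.CyclicCoh p`;
* `cyclicLayer_cohomology`: additionally `H²` is generated by one class (the `H2Cyclic` shape).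
-/
import Fermat.Agent.S55.Global.Blocks2
import Fermat.Agent.S55.Global.CyclicClass

set_option autoImplicit false

open NumberField IsDedekindDomain TensorProduct CategoryTheory

namespace Fermat.Agent.S55.Global.CyclicLayerInstQ

open Fermat.Agent.S55.Global.Objects Fermat.Agent.S55.Global.Objects2
  Fermat.Agent.S55.Global.Blocks2 Fermat.Agent.S55.Global.CyclicClass

section

variable (K L : Type) [Field K] [NumberField K] [Field L] [NumberField L] [Algebra K L]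
  [Fintype (L ≃ₐ[K] L)] (T : Finset Nat.Primes) (σ : L ≃ₐ[K] L)

/-- `#Hⁱ(G, C_{L,T}) = h0` for `i > 0` even, `G = ⟨σ⟩`. -/
theorem card_even_eq_h0 (hgen : ∀ τ : L ≃ₐ[K] L, τ ∈ Subgroup.zpowers σ) (i : ℕ) [NeZero i]
    (hi : Even i) : Nat.card (groupCohomology (Cn K L T) i) = h0 K L T σ :=
  card_even_of (Cn K L T) σ hgen (diffC K L T σ) (normC K L T) (fun _ => rfl) (fun _ => rfl) i hi

/-- `#Hⁱ(G, C_{L,T}) = h1` for `i` odd, `G = ⟨σ⟩`. -/
theorem card_odd_eq_h1 (hgen : ∀ τ : L ≃ₐ[K] L, τ ∈ Subgroup.zpowers σ) (i : ℕ)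
    (hi : Odd i) : Nat.card (groupCohomology (Cn K L T) i) = h1 K L T σ :=
  card_odd_of (Cn K L T) σ hgen (diffC K L T σ) (normC K L T) (fun _ => rfl) (fun _ => rfl) i hi

theorem card_H2_eq_h0 (hgen : ∀ τ : L ≃ₐ[K] L, τ ∈ Subgroup.zpowers σ) :
    Nat.card (groupCohomology (Cn K L T) 2) = h0 K L T σ :=
  card_even_eq_h0 K L T σ hgen 2 (by decide)

theorem card_H1_eq_h1 (hgen : ∀ τ : L ≃ₐ[K] L, τ ∈ Subgroup.zpowers σ) :
    Nat.card (groupCohomology (Cn K L T) 1) = h1 K L T σ :=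
  card_odd_eq_h1 K L T σ hgen 1 (by decide)

/-- `H¹ = 0`, `#H² = p`, `H²` generated by one class, from `h0 = p`, `h1 = 1`. -/
theorem cohomology_of_h0_h1 {p : ℕ} (hp : p.Prime)
    (hgen : ∀ τ : L ≃ₐ[K] L, τ ∈ Subgroup.zpowers σ)
    (h0p : h0 K L T σ = p) (h11 : h1 K L T σ = 1) :
    Limits.IsZero (groupCohomology (Cn K L T) 1) ∧
      Nat.card (groupCohomology (Cn K L T) 2) = p ∧
      ∃ u : groupCohomology (Cn K L T) 2, ∀ x : groupCohomology (Cn K L T) 2,
        ∃ n : ℤ, x = n • u := by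
  have hc1 : Nat.card (groupCohomology (Cn K L T) 1) = 1 := by
    rw [card_H1_eq_h1 K L T σ hgen, h11]
  have hc2 : Nat.card (groupCohomology (Cn K L T) 2) = p := by
    rw [card_H2_eq_h0 K L T σ hgen, h0p]
  have hs : Subsingleton (groupCohomology (Cn K L T) 1) := (Nat.card_eq_one_iff_unique.mp hc1).1
  refine ⟨ModuleCat.isZero_of_subsingleton _, hc2, ?_⟩
  have : Fact p.Prime := ⟨hp⟩
  have hcyc : IsAddCyclic (groupCohomology (Cn K L T) 2) := isAddCyclic_of_prime_card hc2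
  obtain ⟨u, hu⟩ := hcyc.exists_generator
  refine ⟨u, fun x => ?_⟩
  obtain ⟨n, hn⟩ := AddSubgroup.mem_zmultiples_iff.mp (hu x)
  exact ⟨n, hn.symm⟩

/-- `CyclicLayer p` ⟹ class-formation axiom (with generator) for every cyclic layer. -/
theorem cyclicLayer_cohomology {p : ℕ} (hCL : CyclicLayer p)
    (hs : CyclicSetting p K L T σ) :
    Limits.IsZero (groupCohomology (Cn K L T) 1) ∧
      Nat.card (groupCohomology (Cn K L T) 2) = p ∧
      ∃ u : groupCohomology (Cn K L T) 2, ∀ x : groupCohomology (Cn K L T) 2,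
        ∃ n : ℤ, x = n • u := by
  obtain ⟨h0p, h11⟩ := hCL K L T σ hs
  exact cohomology_of_h0_h1 K L T σ hs.prime hs.gen h0p h11

end

/-- **Row `G.cyclic`, v3**: `CyclicLayer p → CyclicCoh p`. -/
theorem cyclicCoh_of_cyclicLayer {p : ℕ} (hCL : CyclicLayer p) : CyclicCoh p := by
  intro K L _ _ _ _ _ T σ hs
  have hfd : FiniteDimensional K L := Module.Finite.of_restrictScalars_finite ℚ K L
  let _ : Fintype (L ≃ₐ[K] L) := Fintype.ofFinite _
  obtain ⟨h1, h2, -⟩ := cyclicLayer_cohomology K L T σ hCL hs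
  exact ⟨h1, h2⟩

/-- `FirstIneq p → SecondIneq p → CyclicCoh p`. -/
theorem cyclicCoh_of_ineqs {p : ℕ} (hF : FirstIneq p) (hS : SecondIneq p) : CyclicCoh p :=
  cyclicCoh_of_cyclicLayer (cyclicLayer_of_ineqs hF hS)

end Fermat.Agent.S55.Global.CyclicLayerInstQ
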