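/-
S55 / GLOBAL block — row (A1), interface v3 (helper6).

Heredity DOWN of `Blocks2.AdmissibleQ` / `Blocks2.Setting` (the `ℚ`-based interface v3): for a tower
`K ⊆ E ⊆ L` of number fields with `L/K` and `E/K` Galois,

  `AdmissibleQ K L p T → AdmissibleQ K E p T`,      `Setting p K L T → Setting p K E T`,

in particular for `E = L^N` (`N ⊴ Gal(L/K)`): `setting_fixedField`.

Together with `Global/HeredityUp.lean` (`Setting p K L T → Setting p (L^N) L T`) these are the two
closure properties of `Setting` used by the `p`-group dévissage `Global/DevissageInstQ.lean`.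
The ramification clause uses helper56's `AdmissibleInherit.inertia_trivial_of_tower`
(trivial inertia in `Gal(L/K)` at `Q` ⟹ trivial inertia in `Gal(E/K)` at `Q ∩ E`).
-/
import Fermat.Agent.S55.Global.AdmissibleInherit
import Fermat.Agent.S55.Global.Blocks2

set_option autoImplicit false
set_option linter.unusedSectionVars false

open NumberField IsDedekindDomain

namespace Fermat.Agent.S55.Global.HeredityDown

open Fermat.Agent.S55.Global.Objects Fermat.Agent.S55.Global.Objects2
open Fermat.Agent.S55.Global.Blocks2
open Fermat.Agent.S55.Global.AdmissibleInherit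

section quotient

variable (K : Type) [Field K] [NumberField K]
variable (E : Type) [Field E] [NumberField E] [Algebra K E]
variable (L : Type) [Field L] [NumberField L] [Algebra K L] [Algebra E L] [IsScalarTower K E L]

/-- **Quotient (heredity down), v3.**  If `T` is admissible for `L/K` and `E/K` is a Galois
subextension, `T` is admissible for `E/K`. -/
theorem admissibleQ_quotient [IsGalois K L] [IsGalois K E] {p : ℕ} {T : Finset Nat.Primes}
    (hT : AdmissibleQ K L p T) : AdmissibleQ K E p T where
  mem_p := hT.mem_p
  ram u hu := by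
    obtain ⟨τ, hτ, hne⟩ := hu
    by_contra hcon
    have : u.asIdeal.IsMaximal := u.isMaximal
    obtain ⟨Q, hQ, hQu⟩ := Ideal.exists_maximal_ideal_liesOver_of_isIntegral (S := 𝓞 L) u.asIdeal
    have hQ0 : Q ≠ ⊥ := Ideal.ne_bot_of_liesOver_of_ne_bot u.ne_bot Q
    let w : Place L := ⟨Q, hQ.isPrime, hQ0⟩
    let v : Place K := u.under (𝓞 K)
    have huv : u.asIdeal.LiesOver v.asIdeal := ⟨rfl⟩
    have : Q.IsPrime := hQ.isPrime
    apply hne
    refine inertia_trivial_of_tower K E L v u Q ?_ τ hτ
    intro σ hσ
    by_contra hσ1
    obtain ⟨q, hq, hqw⟩ := hT.ram w ⟨σ, hσ, hσ1⟩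
    apply hcon
    refine ⟨q, hq, ?_⟩
    have h1 : u.asIdeal = Q.under (𝓞 E) := hQu.over
    rw [h1, Ideal.mem_comap, map_natCast]
    exact hqw
  principal E₁ _ _ ι I hI := hT.principal E₁ ((algebraMap E L).comp ι) I hI

/-- **Quotient, `Setting` form (v3).** -/
theorem setting_quotient [IsGalois K E] {p : ℕ} {T : Finset Nat.Primes}
    (h : Setting p K L T) : Setting p K E T where
  prime := h.prime
  odd := h.odd
  zeta := h.zeta
  galois := inferInstance
  ppower := by
    obtain ⟨n, hn⟩ := h.ppower
    have hmul := Module.finrank_mul_finrank K E L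
    have hdvd : Module.finrank K E ∣ p ^ n := ⟨Module.finrank E L, by rw [← hn, ← hmul]⟩
    obtain ⟨m, -, hm⟩ := (Nat.dvd_prime_pow h.prime).1 hdvd
    exact ⟨m, hm⟩
  adm := by
    have := h.galois
    exact admissibleQ_quotient K E L h.adm

end quotient

section fixedField

variable {K : Type} [Field K] [NumberField K]
variable {L : Type} [Field L] [NumberField L] [Algebra K L]

/-- **(A1)** `Setting p K L T → Setting p K (L^N) T` for a normal subgroup `N ⊴ Gal(L/K)`. -/
theorem setting_fixedField {p : ℕ} {T : Finset Nat.Primes} (hs : Setting p K L T)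
    (N : Subgroup (L ≃ₐ[K] L)) [N.Normal] :
    Setting p K (IntermediateField.fixedField N) T := by
  have := hs.galois
  have : IsGalois K (IntermediateField.fixedField N) :=
    IsGalois.of_fixedField_normal_subgroup N
  exact setting_quotient K (IntermediateField.fixedField N) L hs

end fixedField

end Fermat.Agent.S55.Global.HeredityDown
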