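/-
S55 / Global block, row G.devissage (helper6): `p`-group dévissage for a class-formation-like
family.

Abstract input: a class `C` of pairs `(G, A : Rep k G)` (think: `(Gal(L/K), C_{L,T})` up to
isomorphism) which is closed under restriction to subgroups and under passage to
`(G ⧸ N, A^N)`, and whose members of order `p` satisfy `H¹ = 0` and `|H²| ∣ p`.

Output: every member `(G, A)` with `G` a finite `p`-group satisfies `H¹(G, A) = 0`
(hence `H¹(H, A) = 0` for every subgroup `H`) and `H²(G, A)` is finite of order dividing `|G|`.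

The induction steps are `Coh/H1Devissage` (helper60, Mathlib `H1InfRes`) and `Local/UglyLemma`
(helper34) over `Tate/InfRes2` (helper6, inflation–restriction in degree 2).
-/
import Mathlib
import Fermat.Agent.S55.Tate.InfRes2
import Fermat.Agent.S55.Coh.H1Devissage
import Fermat.Agent.S55.Local.UglyLemma

set_option autoImplicit false

namespace Fermat.Agent.S55.Global.Devissage

open CategoryTheory CategoryTheory.Limits groupCohomology Rep
open Fermat.Agent.S55.Tate.InfRes2 Fermat.Agent.S55.Local.UglyLemma
open Fermat.Agent.S55.Coh.H1Devissage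

universe u

/-- `H¹(G, A) = 0` gives the cocycle form `H1Trivial A`. -/
theorem h1Trivial_of_isZero {k G : Type u} [CommRing k] [Group G] (A : Rep k G)
    (h : IsZero (H1 A)) : H1Trivial A := by
  intro x hx
  have hx' : x ∈ cocycles₁ A := (mem_cocycles₁_iff _).2 hx
  have := ModuleCat.subsingleton_of_isZero h
  have h0 : H1π A ⟨x, hx'⟩ = 0 := Subsingleton.elim _ _
  rw [H1π_eq_zero_iff] at h0
  obtain ⟨a, ha⟩ := h0
  refine ⟨a, fun s => ?_⟩
  have := congr_fun ha s
  rw [d₀₁_hom_apply] at this
  exact this.symm

section Class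

variable {k : Type u} [CommRing k]
variable (C : ∀ (G : Type u) [Group G], Rep k G → Prop)

/-- **`p`-group dévissage, class form.**  Let `C` be a class of pairs `(G, A : Rep k G)` closed
under restriction to subgroups and under passage to `(G ⧸ N, A^N)` for normal `N`.  Assume that
every member whose group has order `p` has `H¹ = 0` and `H²` finite of order dividing `p`.
Then every member whose group is a finite `p`-group has `H¹ = 0` and `H²` finite of order
dividing the order of the group. -/
theorem pGroup_devissage (p : ℕ) [Fact p.Prime]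
    (hres : ∀ (G : Type u) [Group G] (A : Rep k G), C G A →
      ∀ H : Subgroup G, C H (res H.subtype A))
    (hquot : ∀ (G : Type u) [Group G] (A : Rep k G), C G A →
      ∀ (N : Subgroup G) [N.Normal], C (G ⧸ N) (A.quotientToInvariants N))
    (hprime1 : ∀ (G : Type u) [Group G] [Finite G] (A : Rep k G), C G A →
      Nat.card G = p → IsZero (H1 A))
    (hprime2 : ∀ (G : Type u) [Group G] [Finite G] (A : Rep k G), C G A →
      Nat.card G = p → Finite (groupCohomology A 2) ∧ Nat.card (groupCohomology A 2) ∣ p)
    (G : Type u) [Group G] [Finite G] (hG : IsPGroup p G) (A : Rep k G) (hA : C G A) :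
    IsZero (H1 A) ∧ Finite (groupCohomology A 2) ∧
      Nat.card (groupCohomology A 2) ∣ Nat.card G := by
  have hp : p.Prime := Fact.out
  -- the class restricted to finite `p`-groups
  let P : ∀ (H : Type u) [Group H], Rep k H → Prop :=
    fun H _ B => C H B ∧ Finite H ∧ IsPGroup p H
  -- `H¹ = 0` on all of `P`
  have hH1 : ∀ (H : Type u) [Group H] (B : Rep k H), P H B → IsZero (H1 B) := by
    intro H _ B hB
    obtain ⟨hB, hfin, hpg⟩ := hB
    refine isZero_H1_of_layers_pGroup (fun H [Group H] (B : Rep k H) => C H B ∧ IsPGroup p H)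
      ?_ ?_ ?_ p (Nat.card H) H B rfl hpg ⟨hB, hpg⟩
    · intro G' _ A' hA' H'
      exact ⟨hres G' A' hA'.1 H', hA'.2.to_subgroup H'⟩
    · intro G' _ A' hA' N _
      exact ⟨hquot G' A' hA'.1 N, hA'.2.to_quotient N⟩
    · intro G' _ _ A' hA' hcard
      have : Nat.card G' = p := by
        obtain ⟨m, hm⟩ := hA'.2.exists_card_eq
        rw [hm] at hcard
        have hm1 : m = 1 := ((hcard.pow_eq_iff (a := p) (k := m)).1 rfl).2
        rw [hm, hm1, pow_one]
      exact hprime1 G' A' hA'.1 this
  refine ⟨hH1 G A ⟨hA, inferInstance, hG⟩, ?_⟩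
  have : Group.IsSolvable G :=
    haveI := hG.isNilpotent
    inferInstance
  refine finite_and_card_H2_dvd_card_of_isSolvable_of_prime P ?_ ?_ ?_ G A ⟨hA, inferInstance, hG⟩
  · intro H _ B hB S
    exact ⟨hres H B hB.1 S, haveI := hB.2.1; inferInstance, hB.2.2.to_subgroup S⟩
  · intro H _ B hB
    exact h1Trivial_of_isZero B (hH1 H B hB)
  · intro H _ _ B hB S _ hSp
    -- the quotient has order `p`
    have hq : Nat.card (H ⧸ S) = p := by
      have hpq : IsPGroup p (H ⧸ S) := hB.2.2.to_quotient S
      obtain ⟨m, hm⟩ := hpq.exists_card_eq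
      rw [hm] at hSp
      have hm1 : m = 1 := ((hSp.pow_eq_iff (a := p) (k := m)).1 rfl).2
      rw [hm, hm1, pow_one]
    obtain ⟨hf, hd⟩ := hprime2 (H ⧸ S) (B.quotientToInvariants S) (hquot H B hB.1 S) hq
    exact ⟨hf, hq ▸ hd⟩

/-- **`p`-group dévissage, all subgroups.**  Same hypotheses as `pGroup_devissage`; the conclusion
for every subgroup `H ≤ G` (restriction written `res H.subtype A`, i.e. `Tate.Blocks.resSub`). -/
theorem pGroup_devissage_subgroups (p : ℕ) [Fact p.Prime]
    (hres : ∀ (G : Type u) [Group G] (A : Rep k G), C G A →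
      ∀ H : Subgroup G, C H (res H.subtype A))
    (hquot : ∀ (G : Type u) [Group G] (A : Rep k G), C G A →
      ∀ (N : Subgroup G) [N.Normal], C (G ⧸ N) (A.quotientToInvariants N))
    (hprime1 : ∀ (G : Type u) [Group G] [Finite G] (A : Rep k G), C G A →
      Nat.card G = p → IsZero (H1 A))
    (hprime2 : ∀ (G : Type u) [Group G] [Finite G] (A : Rep k G), C G A →
      Nat.card G = p → Finite (groupCohomology A 2) ∧ Nat.card (groupCohomology A 2) ∣ p)
    (G : Type u) [Group G] [Finite G] (hG : IsPGroup p G) (A : Rep k G) (hA : C G A)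
    (H : Subgroup G) :
    IsZero (groupCohomology (res H.subtype A) 1) ∧
      Finite (groupCohomology (res H.subtype A) 2) ∧
      Nat.card (groupCohomology (res H.subtype A) 2) ∣ Nat.card H :=
  pGroup_devissage C p hres hquot hprime1 hprime2 H (hG.to_subgroup H) (res H.subtype A)
    (hres G A hA H)

end Class

end Fermat.Agent.S55.Global.Devissage
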