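/-
S55 / Global block, row G.devissage (helper6): `p`-group dévissage for a FAMILY of pairs
`(G, A : Rep k G)` which is closed under restriction and invariants only UP TO ISOMORPHISM of
pairs (`Coh/PairEquiv`).  This is the form in which a concrete family such as
`(Gal(E'/E), C_{E',T})` (`K ⊆ E ⊆ E' ⊆ L`) satisfies the hypotheses:

* `hres`  : `(H, res A)` for `H ≤ Gal(E'/E)` is isomorphic to the member `(Gal(E'/E'^H), C_{E',T})`;
* `hquot` : `(G ⧸ N, A^N)` is isomorphic to the member `(Gal(E'^N/E), C_{E'^N,T})`  (descent);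
* `hprime1`, `hprime2` : the cyclic case of degree `p`.
-/
import Mathlib
import Fermat.Agent.S55.Coh.PairEquiv
import Fermat.Agent.S55.Global.Devissage

set_option autoImplicit false
set_option linter.unusedVariables false

namespace Fermat.Agent.S55.Global.DevissageIso

open CategoryTheory CategoryTheory.Limits groupCohomology Rep
open Fermat.Agent.S55.Coh.PairEquiv Fermat.Agent.S55.Global.Devissage

universe u

variable {k : Type u} [CommRing k]

/-- The closure of a family of pairs under isomorphism of pairs. -/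
def IsoClosure (F : ∀ (G : Type u) [Group G], Rep k G → Prop) :
    ∀ (G : Type u) [Group G], Rep k G → Prop :=
  fun G _ A => ∃ (G₀ : Type u) (_ : Group G₀) (A₀ : Rep k G₀), F G₀ A₀ ∧ Nonempty (PairEquiv A A₀)

variable (F : ∀ (G : Type u) [Group G], Rep k G → Prop)

theorem isoClosure_of_mem {G : Type u} [Group G] {A : Rep k G} (h : F G A) : IsoClosure F G A :=
  ⟨G, inferInstance, A, h, ⟨PairEquiv.refl A⟩⟩

theorem isoClosure_of_pairEquiv {G' G : Type u} [Group G'] [Group G] {B : Rep k G'}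
    {A : Rep k G} (h : PairEquiv B A) (hA : IsoClosure F G A) : IsoClosure F G' B := by
  obtain ⟨G₀, _, A₀, hF, ⟨h₀⟩⟩ := hA
  exact ⟨G₀, inferInstance, A₀, hF, ⟨h.trans h₀⟩⟩

/-- If the family is closed under restriction up to isomorphism, so is its closure (strictly). -/
theorem isoClosure_res
    (hres : ∀ (G₀ : Type u) [Group G₀] (A₀ : Rep k G₀), F G₀ A₀ →
      ∀ H : Subgroup G₀, IsoClosure F H (Rep.res H.subtype A₀))
    (G : Type u) [Group G] (A : Rep k G) (hA : IsoClosure F G A) (H : Subgroup G) :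
    IsoClosure F H (Rep.res H.subtype A) := by
  obtain ⟨G₀, _, A₀, hF, ⟨h⟩⟩ := hA
  exact isoClosure_of_pairEquiv F (h.res H) (hres G₀ A₀ hF _)

/-- If the family is closed under invariants up to isomorphism, so is its closure (strictly). -/
theorem isoClosure_quot
    (hquot : ∀ (G₀ : Type u) [Group G₀] (A₀ : Rep k G₀), F G₀ A₀ →
      ∀ (N : Subgroup G₀) [N.Normal], IsoClosure F (G₀ ⧸ N) (A₀.quotientToInvariants N))
    (G : Type u) [Group G] (A : Rep k G) (hA : IsoClosure F G A) (N : Subgroup G) [N.Normal] :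
    IsoClosure F (G ⧸ N) (A.quotientToInvariants N) := by
  obtain ⟨G₀, _, A₀, hF, ⟨h⟩⟩ := hA
  have : (N.map (h.e : G →* G₀)).Normal :=
    Subgroup.Normal.map inferInstance _ h.e.surjective
  exact isoClosure_of_pairEquiv F (h.quot N (N.map (h.e : G →* G₀)) rfl) (hquot G₀ A₀ hF _)

/-- **`p`-group dévissage for a family closed up to isomorphism.**  Let `F` be a family of pairs
`(G, A : Rep k G)` such that restrictions to subgroups and `(G ⧸ N, A^N)` of members are
isomorphic (as pairs) to members, and such that members of order `p` have `H¹ = 0` and `H²`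
finite of order dividing `p`.  Then every member whose group is a finite `p`-group has `H¹ = 0`
and `H²` finite of order dividing the order of the group. -/
theorem pGroup_devissage_family (p : ℕ) [Fact p.Prime]
    (hres : ∀ (G₀ : Type u) [Group G₀] (A₀ : Rep k G₀), F G₀ A₀ →
      ∀ H : Subgroup G₀, IsoClosure F H (Rep.res H.subtype A₀))
    (hquot : ∀ (G₀ : Type u) [Group G₀] (A₀ : Rep k G₀), F G₀ A₀ →
      ∀ (N : Subgroup G₀) [N.Normal], IsoClosure F (G₀ ⧸ N) (A₀.quotientToInvariants N))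
    (hprime1 : ∀ (G₀ : Type u) [Group G₀] [Finite G₀] (A₀ : Rep k G₀), F G₀ A₀ →
      Nat.card G₀ = p → IsZero (H1 A₀))
    (hprime2 : ∀ (G₀ : Type u) [Group G₀] [Finite G₀] (A₀ : Rep k G₀), F G₀ A₀ →
      Nat.card G₀ = p →
        Finite (groupCohomology A₀ 2) ∧ Nat.card (groupCohomology A₀ 2) ∣ p)
    (G : Type u) [Group G] [Finite G] (hG : IsPGroup p G) (A : Rep k G)
    (hA : IsoClosure F G A) :
    IsZero (H1 A) ∧ Finite (groupCohomology A 2) ∧
      Nat.card (groupCohomology A 2) ∣ Nat.card G := by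
  refine pGroup_devissage (IsoClosure F) p (isoClosure_res F hres) (isoClosure_quot F hquot)
    ?_ ?_ G hG A hA
  · intro G' _ _ A' hA' hcard
    obtain ⟨G₀, _, A₀, hF, ⟨h⟩⟩ := hA'
    have : Finite G₀ := Finite.of_equiv _ h.e.toEquiv
    have hc : Nat.card G₀ = p := by rw [← hcard]; exact (Nat.card_congr h.e.toEquiv).symm
    exact (h.isZero_iff 1).2 (hprime1 G₀ A₀ hF hc)
  · intro G' _ _ A' hA' hcard
    obtain ⟨G₀, _, A₀, hF, ⟨h⟩⟩ := hA'
    have : Finite G₀ := Finite.of_equiv _ h.e.toEquiv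
    have hc : Nat.card G₀ = p := by rw [← hcard]; exact (Nat.card_congr h.e.toEquiv).symm
    obtain ⟨hf, hd⟩ := hprime2 G₀ A₀ hF hc
    exact ⟨(h.finite_iff 2).2 hf, (h.card_eq 2) ▸ hd⟩

/-- All-subgroups form of `pGroup_devissage_family`. -/
theorem pGroup_devissage_family_subgroups (p : ℕ) [Fact p.Prime]
    (hres : ∀ (G₀ : Type u) [Group G₀] (A₀ : Rep k G₀), F G₀ A₀ →
      ∀ H : Subgroup G₀, IsoClosure F H (Rep.res H.subtype A₀))
    (hquot : ∀ (G₀ : Type u) [Group G₀] (A₀ : Rep k G₀), F G₀ A₀ →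
      ∀ (N : Subgroup G₀) [N.Normal], IsoClosure F (G₀ ⧸ N) (A₀.quotientToInvariants N))
    (hprime1 : ∀ (G₀ : Type u) [Group G₀] [Finite G₀] (A₀ : Rep k G₀), F G₀ A₀ →
      Nat.card G₀ = p → IsZero (H1 A₀))
    (hprime2 : ∀ (G₀ : Type u) [Group G₀] [Finite G₀] (A₀ : Rep k G₀), F G₀ A₀ →
      Nat.card G₀ = p →
        Finite (groupCohomology A₀ 2) ∧ Nat.card (groupCohomology A₀ 2) ∣ p)
    (G : Type u) [Group G] [Finite G] (hG : IsPGroup p G) (A : Rep k G) (hA : F G A)
    (H : Subgroup G) :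
    IsZero (groupCohomology (Rep.res H.subtype A) 1) ∧
      Finite (groupCohomology (Rep.res H.subtype A) 2) ∧
      Nat.card (groupCohomology (Rep.res H.subtype A) 2) ∣ Nat.card H :=
  pGroup_devissage_family F p hres hquot hprime1 hprime2 H (hG.to_subgroup H)
    (Rep.res H.subtype A) (hres G A hA H)

end Fermat.Agent.S55.Global.DevissageIso
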