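/-
S55 / Global block, row G.devissage (helper6): TOP-LAYER `p`-group dévissage.

The induction runs through a normal subgroup `N ⊴ G` of ORDER `p` (a central element of order `p`),
so that the only inputs are

* descent for the QUOTIENT: `(G ⧸ N, A^N)` is again a member (for `(Gal(L/K), C_{L,T})` this is
  `(Gal(L^N/K), C_{L^N,T})`, same ground field `K`);
* the TOP cyclic layer: `H¹(N, A) = 0` and `|H²(N, A)| ∣ p` for the subgroup `N` of order `p` acting on
  the SAME module `A`.

No restriction to subgroups of index `p` (hence no change of ground field) is needed.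
-/
import Mathlib
import Fermat.Agent.S55.Tate.InfRes2
import Fermat.Agent.S55.Coh.H1Devissage
import Fermat.Agent.S55.Coh.PairEquiv
import Fermat.Agent.S55.Global.DevissageIso

set_option autoImplicit false
set_option linter.unusedVariables false

namespace Fermat.Agent.S55.Global.DevissageTop

open CategoryTheory CategoryTheory.Limits groupCohomology Rep
open Fermat.Agent.S55.Tate.InfRes2 Fermat.Agent.S55.Coh.H1Devissage
open Fermat.Agent.S55.Coh.PairEquiv Fermat.Agent.S55.Global.DevissageIso

universe u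

/-- A nontrivial finite `p`-group has a normal subgroup of order `p`. -/
theorem exists_normal_card_eq_prime (p : ℕ) [Fact p.Prime] (G : Type u) [Group G] [Finite G]
    (hG : IsPGroup p G) [Nontrivial G] : ∃ N : Subgroup G, N.Normal ∧ Nat.card N = p := by
  have hZ : Nontrivial (Subgroup.center G) := hG.center_nontrivial
  have hpZ : p ∣ Nat.card (Subgroup.center G) := by
    obtain ⟨k, hk⟩ := (hG.to_subgroup (Subgroup.center G)).exists_card_eq
    rcases Nat.eq_zero_or_pos k with rfl | hk0
    · rw [pow_zero] at hk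
      have := (Nat.card_eq_one_iff_unique.1 hk).1
      exact absurd hZ (not_nontrivial _)
    · rw [hk]
      exact dvd_pow_self p hk0.ne'
  obtain ⟨z, hz⟩ := exists_prime_orderOf_dvd_card' p hpZ
  refine ⟨Subgroup.zpowers z.1, ⟨fun n hn g => ?_⟩, ?_⟩
  · have hle : Subgroup.zpowers z.1 ≤ Subgroup.center G :=
      (Subgroup.zpowers_le).2 z.2
    have hc := Subgroup.mem_center_iff.1 (hle hn) g
    rw [hc, mul_inv_cancel_right]
    exact hn
  · rw [Nat.card_zpowers, Subgroup.orderOf_coe, hz]

section Class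

variable {k : Type u} [CommRing k]
variable (C : ∀ (G : Type u) [Group G], Rep k G → Prop)

/-- **Top-layer `p`-group dévissage, class form.** -/
theorem pGroup_devissage_top (p : ℕ) [Fact p.Prime]
    (hquot : ∀ (G : Type u) [Group G] [Finite G] (A : Rep k G), C G A → IsPGroup p G →
      ∀ (N : Subgroup G) [N.Normal], Nat.card N = p → C (G ⧸ N) (A.quotientToInvariants N))
    (htop1 : ∀ (G : Type u) [Group G] [Finite G] (A : Rep k G), C G A → IsPGroup p G →
      ∀ (N : Subgroup G) [N.Normal], Nat.card N = p →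
        IsZero (groupCohomology (Rep.res N.subtype A) 1))
    (htop2 : ∀ (G : Type u) [Group G] [Finite G] (A : Rep k G), C G A → IsPGroup p G →
      ∀ (N : Subgroup G) [N.Normal], Nat.card N = p →
        Finite (groupCohomology (Rep.res N.subtype A) 2) ∧
          Nat.card (groupCohomology (Rep.res N.subtype A) 2) ∣ p)
    (G : Type u) [Group G] [Finite G] (hG : IsPGroup p G) (A : Rep k G) (hA : C G A) :
    IsZero (H1 A) ∧ Finite (groupCohomology A 2) ∧
      Nat.card (groupCohomology A 2) ∣ Nat.card G := by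
  have hp : p.Prime := Fact.out
  suffices key : ∀ n : ℕ, ∀ (G : Type u) [Group G] [Finite G] (A : Rep k G),
      Nat.card G = n → IsPGroup p G → C G A →
        IsZero (H1 A) ∧ Finite (groupCohomology A 2) ∧
          Nat.card (groupCohomology A 2) ∣ Nat.card G from key _ G A rfl hG hA
  intro n
  induction n using Nat.strong_induction_on with | _ n ih =>
  intro G _ _ A hn hG hA
  rcases subsingleton_or_nontrivial G with hS | hNT
  · refine ⟨isZero_H1_of_subsingleton A, ?_⟩
    have hz : IsZero (groupCohomology A 2) := isZero_groupCohomology_succ_of_subsingleton A 1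
    have : Subsingleton (groupCohomology A 2) := ModuleCat.subsingleton_of_isZero hz
    refine ⟨inferInstance, ?_⟩
    rw [Nat.card_unique]
    exact one_dvd _
  · obtain ⟨N, hNn, hNp⟩ := exists_normal_card_eq_prime p G hG
    have hcard : Nat.card G = Nat.card (G ⧸ N) * p := by
      rw [Subgroup.card_eq_card_quotient_mul_card_subgroup N, hNp]
    have hlt : Nat.card (G ⧸ N) < n := by
      rw [← hn, hcard]
      have hpos : 0 < Nat.card (G ⧸ N) := Nat.card_pos
      nlinarith [hp.two_le]
    obtain ⟨hq1, hq2f, hq2d⟩ := ih (Nat.card (G ⧸ N)) hlt (G ⧸ N) (A.quotientToInvariants N) rfl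
      (hG.to_quotient N) (hquot G A hA hG N hNp)
    have hN1 := htop1 G A hA hG N hNp
    obtain ⟨hN2f, hN2d⟩ := htop2 G A hA hG N hNp
    have hH1 : IsZero (H1 A) :=
      (H1InfRes_exact A N).isZero_of_both_zeros (hq1.eq_of_src _ _) (hN1.eq_of_tgt _ _)
    have hS1 : H1ResTrivial A N := h1ResTrivial_of_isZero A N hN1
    obtain ⟨hf, hd⟩ := finite_and_card_H2_dvd hS1
    refine ⟨hH1, hf, hd.trans ?_⟩
    rw [hcard]
    exact Nat.mul_dvd_mul hq2d hN2d

end Class

section Family

variable {k : Type u} [CommRing k]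
variable (F : ∀ (G : Type u) [Group G], Rep k G → Prop)

/-- **Top-layer `p`-group dévissage for a family closed under invariants up to isomorphism.**
`hquot` : descent, `(G₀ ⧸ N, A₀^N)` is isomorphic (as a pair) to a member;
`htop1`, `htop2` : the top cyclic layer. -/
theorem pGroup_devissage_top_family (p : ℕ) [Fact p.Prime]
    (hquot : ∀ (G₀ : Type u) [Group G₀] [Finite G₀] (A₀ : Rep k G₀), F G₀ A₀ → IsPGroup p G₀ →
      ∀ (N : Subgroup G₀) [N.Normal], Nat.card N = p →
        IsoClosure F (G₀ ⧸ N) (A₀.quotientToInvariants N))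
    (htop1 : ∀ (G₀ : Type u) [Group G₀] [Finite G₀] (A₀ : Rep k G₀), F G₀ A₀ → IsPGroup p G₀ →
      ∀ (N : Subgroup G₀) [N.Normal], Nat.card N = p →
        IsZero (groupCohomology (Rep.res N.subtype A₀) 1))
    (htop2 : ∀ (G₀ : Type u) [Group G₀] [Finite G₀] (A₀ : Rep k G₀), F G₀ A₀ → IsPGroup p G₀ →
      ∀ (N : Subgroup G₀) [N.Normal], Nat.card N = p →
        Finite (groupCohomology (Rep.res N.subtype A₀) 2) ∧
          Nat.card (groupCohomology (Rep.res N.subtype A₀) 2) ∣ p)
    (G : Type u) [Group G] [Finite G] (hG : IsPGroup p G) (A : Rep k G)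
    (hA : IsoClosure F G A) :
    IsZero (H1 A) ∧ Finite (groupCohomology A 2) ∧
      Nat.card (groupCohomology A 2) ∣ Nat.card G := by
  -- transport of the data `(G, A, N)` to a member `(G₀, A₀, N₀)`
  have transport : ∀ (G : Type u) [Group G] [Finite G] (A : Rep k G), IsoClosure F G A →
      IsPGroup p G → ∀ (N : Subgroup G) [N.Normal], Nat.card N = p →
      ∃ (G₀ : Type u) (_ : Group G₀) (_ : Finite G₀) (A₀ : Rep k G₀) (_ : F G₀ A₀)
        (_ : IsPGroup p G₀) (h : PairEquiv A A₀) (N₀ : Subgroup G₀) (_ : N₀.Normal),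
        Nat.card N₀ = p ∧ N.map (h.e : G →* G₀) = N₀ := by
    intro G _ _ A hA hG N _ hNp
    obtain ⟨G₀, _, A₀, hF, ⟨h⟩⟩ := hA
    have hfin : Finite G₀ := Finite.of_equiv _ h.e.toEquiv
    have hG₀ : IsPGroup p G₀ := hG.of_equiv h.e
    have hN₀ : (N.map (h.e : G →* G₀)).Normal :=
      Subgroup.Normal.map inferInstance _ h.e.surjective
    refine ⟨G₀, inferInstance, hfin, A₀, hF, hG₀, h, N.map (h.e : G →* G₀), hN₀, ?_, rfl⟩
    rw [← hNp]
    exact (Nat.card_congr (h.e.subgroupMap N).toEquiv).symm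
  refine pGroup_devissage_top (IsoClosure F) p ?_ ?_ ?_ G hG A hA
  · intro G _ _ A hA hG N _ hNp
    obtain ⟨G₀, _, _, A₀, hF, hG₀, h, N₀, _, hN₀p, hN₀⟩ := transport G A hA hG N hNp
    exact isoClosure_of_pairEquiv F (h.quot N N₀ hN₀) (hquot G₀ A₀ hF hG₀ N₀ hN₀p)
  · intro G _ _ A hA hG N _ hNp
    obtain ⟨G₀, _, _, A₀, hF, hG₀, h, N₀, _, hN₀p, hN₀⟩ := transport G A hA hG N hNp
    exact ((h.resOfMapEq N N₀ hN₀).isZero_iff 1).2 (htop1 G₀ A₀ hF hG₀ N₀ hN₀p)
  · intro G _ _ A hA hG N _ hNp
    obtain ⟨G₀, _, _, A₀, hF, hG₀, h, N₀, _, hN₀p, hN₀⟩ := transport G A hA hG N hNp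
    obtain ⟨hf, hd⟩ := htop2 G₀ A₀ hF hG₀ N₀ hN₀p
    exact ⟨((h.resOfMapEq N N₀ hN₀).finite_iff 2).2 hf,
      ((h.resOfMapEq N N₀ hN₀).card_eq 2) ▸ hd⟩

end Family

end Fermat.Agent.S55.Global.DevissageTop
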