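/-
S55 / Global block, row G.devissage (helper6): INSTANTIATION of the top-layer dévissage to the
`ℚ`-based `T`-idele class modules `Cn K L T` of `Global/Objects2.lean` (interface v3).

Closed input Props:

* `Blocks2.CyclicCoh p` : cyclic layer of degree `p` ⇒ `H¹ = 0`, `card H² = p`   (rows G.first,
  G.second, G.cyclic);
* `HeredityUp p`        : `Setting p K L T → Setting p E L T` for every intermediate field `E`
  (row G.admissible, heredity (A2));
* `DescentQuotQ p`      : for a normal subgroup `N ⊴ Gal(L/K)` of order `p` there is a number field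
  `F` over `K` (think `F = L^N`) with `Setting p K F T` and an isomorphism of pairs
  `(Gal(L/K) ⧸ N, (Cn K L T)^N) ≅ (Gal(F/K), Cn K F T)`   (row G.descent + heredity (A1)).

Output: `Blocks2.H1Vanish p` and `Blocks2.H2CardDvd p`  (= (G-i) and the weak form of (G-ii)).

Because the modules are `ℚ`-based, restriction to the subgroup `N = Gal(L/L^N)` is LITERALLY the
module of the layer `L/L^N` (`topPair`), so the top cyclic layer is an instance of `CyclicCoh`.
-/
import Mathlib
import Fermat.Agent.S55.Global.Blocks2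
import Fermat.Agent.S55.Global.DevissageTop

set_option autoImplicit false
set_option linter.unusedVariables false
set_option linter.style.haveILetI false

namespace Fermat.Agent.S55.Global.DevissageInstQ

open CategoryTheory CategoryTheory.Limits groupCohomology Rep NumberField
open Fermat.Agent.S55.Global.Objects Fermat.Agent.S55.Global.Objects2
open Fermat.Agent.S55.Global.Blocks2
open Fermat.Agent.S55.Coh.PairEquiv Fermat.Agent.S55.Global.DevissageTop

/-- Heredity of the setting when the base field is enlarged. -/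
def HeredityUp (p : ℕ) : Prop :=
  ∀ (K L : Type) [Field K] [NumberField K] [Field L] [NumberField L] [Algebra K L]
    (T : Finset Nat.Primes), Setting p K L T → ∀ E : IntermediateField K L, Setting p E L T

/-- **Descent for the quotient** by a normal subgroup of order `p`. -/
def DescentQuotQ (p : ℕ) : Prop :=
  ∀ (K L : Type) [Field K] [NumberField K] [Field L] [NumberField L] [Algebra K L]
    (T : Finset Nat.Primes), Setting p K L T →
    ∀ (N : Subgroup (L ≃ₐ[K] L)) [N.Normal], Nat.card N = p →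
      ∃ (F : Type) (_ : Field F) (_ : NumberField F) (_ : Algebra K F),
        Setting p K F T ∧
          Nonempty (PairEquiv ((Cn K L T).quotientToInvariants N) (Cn K F T))

/-- **Top cyclic layer**: cohomology of a normal subgroup of order `p` of `Gal(L/K)` acting on
`Cn K L T`. -/
def TopLayerQ (p : ℕ) : Prop :=
  ∀ (K L : Type) [Field K] [NumberField K] [Field L] [NumberField L] [Algebra K L]
    (T : Finset Nat.Primes), Setting p K L T →
    ∀ (N : Subgroup (L ≃ₐ[K] L)) [N.Normal], Nat.card N = p →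
      IsZero (groupCohomology (Rep.res N.subtype (Cn K L T)) 1) ∧
      Finite (groupCohomology (Rep.res N.subtype (Cn K L T)) 2) ∧
      Nat.card (groupCohomology (Rep.res N.subtype (Cn K L T)) 2) ∣ p

section topPair

variable (K L : Type) [Field K] [NumberField K] [Field L] [NumberField L] [Algebra K L]

/-- Restricting `Cn K L T` to a subgroup `N ≤ Gal(L/K)` gives the module of the layer `L / L^N`:
`(N, res (Cn K L T)) ≅ (Gal(L/L^N), Cn (L^N) L T)`. -/
noncomputable def topPair (T : Finset Nat.Primes) (N : Subgroup (L ≃ₐ[K] L)) :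
    PairEquiv (Rep.res N.subtype (Cn K L T)) (Cn (IntermediateField.fixedField N) L T) where
  e := (MulEquiv.subgroupCongr (IntermediateField.fixingSubgroup_fixedField N).symm).trans
        (IntermediateField.fixingSubgroupEquiv (IntermediateField.fixedField N))
  φ := LinearEquiv.refl ℤ _
  comm _ _ := rfl

end topPair

/-- The top cyclic layer is an instance of the cyclic layer theorem. -/
theorem topLayerQ_of_cyclicCoh {p : ℕ} (hC : CyclicCoh p) (hU : HeredityUp p) : TopLayerQ p := by
  intro K L _ _ _ _ _ T hs N _ hNp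
  haveI : Fact p.Prime := ⟨hs.prime⟩
  haveI := hs.galois
  set E := IntermediateField.fixedField N with hE
  have hsE : Setting p E L T := hU K L T hs E
  haveI := hsE.galois
  have h := topPair K L T N
  -- the group `Gal(L/E)` has order `p`
  have hcard : Nat.card (L ≃ₐ[E] L) = p := by
    rw [← hNp]
    exact (Nat.card_congr h.e.toEquiv).symm
  have hcyc : IsCyclic (L ≃ₐ[E] L) := isCyclic_of_prime_card hcard
  obtain ⟨σ, hσ⟩ := hcyc.exists_generator
  have hcs : CyclicSetting p E L T σ :=
    { toSetting := hsE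
      degree := by rw [← IsGalois.card_aut_eq_finrank E L, hcard]
      gen := hσ }
  obtain ⟨h1, h2⟩ := hC E L T σ hcs
  refine ⟨(h.isZero_iff 1).2 h1, ?_, ?_⟩
  · rw [h.finite_iff 2]
    exact Nat.finite_of_card_ne_zero (by rw [h2]; exact hs.prime.ne_zero)
  · rw [h.card_eq 2, h2]

/-- The family of pairs isomorphic to some `(Gal(L/K), Cn K L T)` with `Setting p K L T`. -/
def Fam (p : ℕ) : ∀ (G : Type) [Group G], Rep ℤ G → Prop :=
  fun G _ A => ∃ (K L : Type) (_ : Field K) (_ : NumberField K) (_ : Field L) (_ : NumberField L)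
    (_ : Algebra K L) (T : Finset Nat.Primes), Setting p K L T ∧ Nonempty (PairEquiv A (Cn K L T))

theorem card_gal_of_setting {p : ℕ} {K L : Type} [Field K] [NumberField K] [Field L]
    [NumberField L] [Algebra K L] {T : Finset Nat.Primes} (hs : Setting p K L T) :
    Nat.card (L ≃ₐ[K] L) = Module.finrank K L :=
  haveI := hs.galois
  IsGalois.card_aut_eq_finrank K L

theorem isPGroup_gal_of_setting {p : ℕ} {K L : Type} [Field K] [NumberField K] [Field L]
    [NumberField L] [Algebra K L] {T : Finset Nat.Primes} (hs : Setting p K L T) :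
    IsPGroup p (L ≃ₐ[K] L) := by
  haveI : Fact p.Prime := ⟨hs.prime⟩
  obtain ⟨n, hn⟩ := hs.ppower
  exact IsPGroup.of_card (n := n) (by rw [card_gal_of_setting hs, hn])

/-- **(G-i) and (G-ii, weak form) from the top cyclic layer and descent.** -/
theorem devissage_main {p : ℕ} (hT : TopLayerQ p) (hD : DescentQuotQ p)
    (K L : Type) [Field K] [NumberField K] [Field L] [NumberField L] [Algebra K L]
    (T : Finset Nat.Primes) (hs : Setting p K L T) :
    IsZero (groupCohomology (Cn K L T) 1) ∧ Finite (groupCohomology (Cn K L T) 2) ∧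
      Nat.card (groupCohomology (Cn K L T) 2) ∣ Module.finrank K L := by
  haveI : Fact p.Prime := ⟨hs.prime⟩
  -- transport of `(G, A, N)` to a concrete member
  have transport : ∀ (G : Type) [Group G] [Finite G] (A : Rep ℤ G), Fam p G A →
      IsPGroup p G → ∀ (N : Subgroup G) [N.Normal], Nat.card N = p →
      ∃ (K L : Type) (_ : Field K) (_ : NumberField K) (_ : Field L) (_ : NumberField L)
        (_ : Algebra K L) (T : Finset Nat.Primes) (_ : Setting p K L T)
        (h : PairEquiv A (Cn K L T)) (N₀ : Subgroup (L ≃ₐ[K] L)) (_ : N₀.Normal),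
        Nat.card N₀ = p ∧ N.map (h.e : G →* (L ≃ₐ[K] L)) = N₀ := by
    intro G _ _ A hA hG N _ hNp
    obtain ⟨K, L, _, _, _, _, _, T, hs, ⟨h⟩⟩ := hA
    have hN₀ : (N.map (h.e : G →* (L ≃ₐ[K] L))).Normal :=
      Subgroup.Normal.map inferInstance _ h.e.surjective
    refine ⟨K, L, _, _, _, _, _, T, hs, h, N.map (h.e : G →* (L ≃ₐ[K] L)), hN₀, ?_, rfl⟩
    rw [← hNp]
    exact (Nat.card_congr (h.e.subgroupMap N).toEquiv).symm
  have hmain := pGroup_devissage_top (Fam p) p ?_ ?_ ?_ (L ≃ₐ[K] L) (isPGroup_gal_of_setting hs)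
    (Cn K L T) ⟨K, L, _, _, _, _, _, T, hs, ⟨PairEquiv.refl _⟩⟩
  · obtain ⟨h1, h2f, h2d⟩ := hmain
    exact ⟨h1, h2f, (card_gal_of_setting hs) ▸ h2d⟩
  · intro G _ _ A hA hG N _ hNp
    obtain ⟨K, L, _, _, _, _, _, T, hs, h, N₀, _, hN₀p, hN₀⟩ := transport G A hA hG N hNp
    obtain ⟨F, _, _, _, hsF, ⟨hd⟩⟩ := hD K L T hs N₀ hN₀p
    exact ⟨K, F, _, _, _, _, _, T, hsF, ⟨(h.quot N N₀ hN₀).trans hd⟩⟩
  · intro G _ _ A hA hG N _ hNp
    obtain ⟨K, L, _, _, _, _, _, T, hs, h, N₀, _, hN₀p, hN₀⟩ := transport G A hA hG N hNp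
    exact ((h.resOfMapEq N N₀ hN₀).isZero_iff 1).2 (hT K L T hs N₀ hN₀p).1
  · intro G _ _ A hA hG N _ hNp
    obtain ⟨K, L, _, _, _, _, _, T, hs, h, N₀, _, hN₀p, hN₀⟩ := transport G A hA hG N hNp
    obtain ⟨-, hf, hd⟩ := hT K L T hs N₀ hN₀p
    exact ⟨((h.resOfMapEq N N₀ hN₀).finite_iff 2).2 hf,
      ((h.resOfMapEq N N₀ hN₀).card_eq 2) ▸ hd⟩

/-- **(G-i)** `H¹(Gal(L/K), C_{L,T}) = 0`. -/
theorem h1Vanish {p : ℕ} (hC : CyclicCoh p) (hU : HeredityUp p) (hD : DescentQuotQ p) :
    H1Vanish p :=
  fun K L _ _ _ _ _ T hs =>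
    (devissage_main (topLayerQ_of_cyclicCoh hC hU) hD K L T hs).1

/-- **(G-ii, weak form)** `card H²(Gal(L/K), C_{L,T}) ∣ [L:K]`. -/
theorem h2CardDvd {p : ℕ} (hC : CyclicCoh p) (hU : HeredityUp p) (hD : DescentQuotQ p) :
    H2CardDvd p :=
  fun K L _ _ _ _ _ T hs =>
    (devissage_main (topLayerQ_of_cyclicCoh hC hU) hD K L T hs).2

end Fermat.Agent.S55.Global.DevissageInstQ
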