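/-
S55 / Global block (helper6): heredity of `Blocks2.Setting` when the base field is enlarged,
`Setting p K L T → Setting p E L T` for every intermediate field `E` of `L/K`
(= `DevissageInstQ.HeredityUp p`), and the resulting unconditional form of the dévissage:
`(G-i)`, `(G-ii weak)` from `CyclicCoh p` and `DescentQuotQ p` alone.
-/
import Mathlib
import Fermat.Agent.S55.Global.DevissageInstQ

set_option autoImplicit false
set_option linter.style.haveILetI false
set_option linter.unusedSectionVars false

open CategoryTheory CategoryTheory.Limits groupCohomology Rep NumberField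
open Fermat.Agent.S55.Global.Objects Fermat.Agent.S55.Global.Objects2
open Fermat.Agent.S55.Global.Blocks2 Fermat.Agent.S55.Global.DevissageInstQ

namespace Fermat.Agent.S55.Global.HeredityUpProof

variable {K L : Type} [Field K] [NumberField K] [Field L] [NumberField L] [Algebra K L]

theorem admissibleQ_up {p : ℕ} {T : Finset Nat.Primes} (h : AdmissibleQ K L p T)
    (E : IntermediateField K L) : AdmissibleQ E L p T where
  mem_p := h.mem_p
  ram := by
    intro w ⟨σ, hσ, hσ1⟩
    refine h.ram w ⟨σ.restrictScalars K, ?_, ?_⟩
    · intro x
      exact hσ x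
    · intro h1
      apply hσ1
      ext x
      have := congr($h1 x)
      exact this
  principal := h.principal

theorem heredityUp (p : ℕ) : HeredityUp p := by
  intro K L _ _ _ _ _ T hs E
  haveI := hs.galois
  refine ⟨hs.prime, hs.odd, ?_, inferInstance, ?_, admissibleQ_up hs.adm E⟩
  · obtain ⟨ζ, hζ⟩ := hs.zeta
    exact ⟨algebraMap K E ζ, hζ.map_of_injective (algebraMap K E).injective⟩
  · obtain ⟨n, hn⟩ := hs.ppower
    have hmul : Module.finrank K E * Module.finrank E L = Module.finrank K L :=
      Module.finrank_mul_finrank K E L
    have hdvd : Module.finrank E L ∣ p ^ n := by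
      rw [← hn, ← hmul]
      exact Dvd.intro_left _ rfl
    obtain ⟨m, -, hm⟩ := (Nat.dvd_prime_pow hs.prime).1 hdvd
    exact ⟨m, hm⟩

/-- **(G-i)** from the cyclic layer theorem and descent. -/
theorem h1Vanish {p : ℕ} (hC : CyclicCoh p) (hD : DescentQuotQ p) : H1Vanish p :=
  DevissageInstQ.h1Vanish hC (heredityUp p) hD

/-- **(G-ii, weak form)** from the cyclic layer theorem and descent. -/
theorem h2CardDvd {p : ℕ} (hC : CyclicCoh p) (hD : DescentQuotQ p) : H2CardDvd p :=
  DevissageInstQ.h2CardDvd hC (heredityUp p) hD

end Fermat.Agent.S55.Global.HeredityUpProof
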