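/-
S55 / GLOBAL block — row G.devissage, FINAL ASSEMBLY for interface v3 (helper6).

Inputs (closed Props):
* `Blocks2.CyclicCoh p`   (or `Blocks2.FirstIneq p` + `Blocks2.SecondIneq p`, via helper84's
  `CyclicLayerInstQ.cyclicCoh_of_ineqs`);
* `DescentFixedQ p` : the Galois descent of the `T`-idele class module along `L / L^N`, in the shape
  of row G.descent (helper38):  `(Gal(L/K) ⧸ N, (Cn K L T)^N) ≅ (Gal(L^N/K), Cn K (L^N) T)`.

Outputs: `Blocks2.H1Vanish p` and `Blocks2.H2CardDvd p`.

The two heredity inputs of `DevissageInstQ` are discharged here: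
`HeredityUp p` by `Global/HeredityUp.lean`, and the `Setting` half of `DescentQuotQ p` by
`Global/HeredityDown.lean` (`setting_fixedField`).
-/
import Fermat.Agent.S55.Global.HeredityUp
import Fermat.Agent.S55.Global.HeredityDown
import Fermat.Agent.S55.Global.CyclicLayerInstQ

set_option autoImplicit false
set_option linter.unusedSectionVars false

open NumberField CategoryTheory

namespace Fermat.Agent.S55.Global.DevissageFinal

open Fermat.Agent.S55.Global.Objects Fermat.Agent.S55.Global.Objects2
open Fermat.Agent.S55.Global.Blocks2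
open Fermat.Agent.S55.Global.DevissageInstQ
open Fermat.Agent.S55.Coh.PairEquiv

/-- **Row G.descent, consumer shape**: for `L/K` Galois with `T` admissible and `N ⊴ Gal(L/K)`,
the pair `(Gal(L/K) ⧸ N, (Cn K L T)^N)` is isomorphic to `(Gal(L^N/K), Cn K (L^N) T)`. -/
def DescentFixedQ (p : ℕ) : Prop :=
  ∀ (K L : Type) [Field K] [NumberField K] [Field L] [NumberField L] [Algebra K L] [IsGalois K L]
    (T : Finset Nat.Primes), AdmissibleQ K L p T →
    ∀ (N : Subgroup (L ≃ₐ[K] L)) [N.Normal],
      Nonempty (PairEquiv ((Cn K L T).quotientToInvariants N)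
        (Cn K (IntermediateField.fixedField N) T))

/-- `DescentQuotQ p` from the descent isomorphism and `HeredityDown.setting_fixedField`. -/
theorem descentQuotQ {p : ℕ} (hD : DescentFixedQ p) : DescentQuotQ p := by
  intro K L _ _ _ _ _ T hs N _ _
  have := hs.galois
  exact ⟨IntermediateField.fixedField N, inferInstance, inferInstance, inferInstance,
    HeredityDown.setting_fixedField hs N, hD K L T hs.adm N⟩

/-- **(G-i)** `H¹(Gal(L/K), C_{L,T}) = 0`, from the cyclic layers and descent. -/
theorem h1Vanish {p : ℕ} (hC : CyclicCoh p) (hD : DescentFixedQ p) : H1Vanish p :=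
  HeredityUpProof.h1Vanish hC (descentQuotQ hD)

/-- **(G-ii, weak form)** `card H²(Gal(L/K), C_{L,T}) ∣ [L:K]`, from the cyclic layers and descent. -/
theorem h2CardDvd {p : ℕ} (hC : CyclicCoh p) (hD : DescentFixedQ p) : H2CardDvd p :=
  HeredityUpProof.h2CardDvd hC (descentQuotQ hD)

/-- **(G-i)** from the two inequalities and descent. -/
theorem h1Vanish_of_ineqs {p : ℕ} (h1 : FirstIneq p) (h2 : SecondIneq p) (hD : DescentFixedQ p) :
    H1Vanish p :=
  h1Vanish (CyclicLayerInstQ.cyclicCoh_of_ineqs h1 h2) hD

/-- **(G-ii, weak form)** from the two inequalities and descent. -/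
theorem h2CardDvd_of_ineqs {p : ℕ} (h1 : FirstIneq p) (h2 : SecondIneq p)
    (hD : DescentFixedQ p) : H2CardDvd p :=
  h2CardDvd (CyclicLayerInstQ.cyclicCoh_of_ineqs h1 h2) hD

end Fermat.Agent.S55.Global.DevissageFinal
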