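import Mathlib

/-!
# S55 / Global / G.first.hloc — the norm of a finite group acting faithfully on a field

`E` a field, `D` a finite group acting faithfully on `E` by ring automorphisms,
`F := FixedPoints.subfield D E`.  Then `E/F` is Galois with group `D` (Artin), and in terms of units:

* `algebraMap_norm_eq_prod` : `algebraMap F E (Algebra.norm F e) = ∏ d : D, d • e`;
* `normD_eq`     : the `D`-norm `e ↦ ∏ d, d • e` on `Eˣ` is `Units.map (algebraMap F E) ∘ Units.map (norm F)`;
* `fixedD_eq`    : the `D`-fixed units are the range of `Fˣ → Eˣ`;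
* `relIndex_eq`  : `[(Eˣ)^D : N_D Eˣ] = [Fˣ : N_{E/F} Eˣ]`;
* `finrank_eq`, `isCyclic_aut` (for `|D|` prime).
-/

set_option autoImplicit false
set_option linter.unusedSectionVars false

namespace Fermat.Agent.S55.Global.FixedFieldNorm

attribute [local instance] Units.mulDistribMulActionRight

section

variable (D E : Type*) [Group D] [Fintype D] [Field E] [MulSemiringAction D E]

/-- The `D`-norm on the units of `E`. -/
noncomputable def normD : Eˣ →* Eˣ where
  toFun e := ∏ d : D, d • e
  map_one' := by simp
  map_mul' e e' := by simp only [smul_mul']; exact Finset.prod_mul_distrib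

/-- The `D`-fixed units of `E`. -/
def fixedD : Subgroup Eˣ where
  carrier := {e | ∀ d : D, d • e = e}
  one_mem' d := smul_one d
  mul_mem' {a b} ha hb d := by rw [smul_mul', ha d, hb d]
  inv_mem' {a} ha d := by rw [smul_inv', ha d]

theorem val_normD (e : Eˣ) : ((normD D E e : Eˣ) : E) = ∏ d : D, d • (e : E) := by
  show ((∏ d : D, d • e : Eˣ) : E) = _
  rw [Units.coe_prod]
  rfl

/-- `Fˣ → Eˣ`. -/
noncomputable def inclF : (FixedPoints.subfield D E)ˣ →* Eˣ :=
  Units.map (algebraMap (FixedPoints.subfield D E) E : FixedPoints.subfield D E →* E)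

theorem inclF_injective : Function.Injective (inclF D E) :=
  Units.map_injective (FaithfulSMul.algebraMap_injective (FixedPoints.subfield D E) E)

/-- The `D`-fixed units are the units of the fixed field. -/
theorem fixedD_eq : fixedD D E = (inclF D E).range := by
  ext e
  constructor
  · intro he
    have he' : ∀ d : D, d • (e : E) = e := fun d => congrArg Units.val (he d)
    have hi' : ∀ d : D, d • ((e⁻¹ : Eˣ) : E) = ((e⁻¹ : Eˣ) : E) := fun d =>
      congrArg Units.val ((fixedD D E).inv_mem he d)
    refine ⟨⟨⟨(e : E), he'⟩, ⟨((e⁻¹ : Eˣ) : E), hi'⟩, ?_, ?_⟩, ?_⟩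
    · exact Subtype.ext (by simp)
    · exact Subtype.ext (by simp)
    · exact Units.ext rfl
  · rintro ⟨f, rfl⟩ d
    refine Units.ext ?_
    show d • ((f : FixedPoints.subfield D E) : E) = ((f : FixedPoints.subfield D E) : E)
    exact (f : FixedPoints.subfield D E).2 d

variable [FaithfulSMul D E]

theorem algebraMap_norm_eq_prod (e : E) :
    algebraMap (FixedPoints.subfield D E) E (Algebra.norm (FixedPoints.subfield D E) e) =
      ∏ d : D, d • e := by
  classical
  rw [Algebra.norm_eq_prod_automorphisms]
  symm
  refine Fintype.prod_equiv (FixedPoints.toAlgAutMulEquiv D E).toEquiv _ _ (fun d => ?_)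
  rfl

/-- The `D`-norm on units is the field norm to the fixed field. -/
theorem normD_eq :
    normD D E = (inclF D E).comp
      (Units.map (Algebra.norm (FixedPoints.subfield D E) : E →* FixedPoints.subfield D E)) := by
  ext e
  rw [val_normD]
  exact (algebraMap_norm_eq_prod D E e).symm

/-- **`[(Eˣ)^D : N_D Eˣ] = [Fˣ : N_{E/F} Eˣ]`**. -/
theorem relIndex_eq :
    (normD D E).range.relIndex (fixedD D E) =
      (Units.map (Algebra.norm (FixedPoints.subfield D E) :
        E →* FixedPoints.subfield D E)).range.index := by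
  rw [fixedD_eq, normD_eq, MonoidHom.range_comp, MonoidHom.range_eq_map (inclF D E),
    Subgroup.relIndex_map_map_of_injective _ _ (inclF_injective D E), Subgroup.relIndex_top_right]

theorem finrank_eq : Module.finrank (FixedPoints.subfield D E) E = Nat.card D := by
  rw [FixedPoints.finrank_eq_card, Nat.card_eq_fintype_card]

theorem isCyclic_aut {p : ℕ} (hp : p.Prime) (hcard : Nat.card D = p) :
    IsCyclic (E ≃ₐ[FixedPoints.subfield D E] E) := by
  have : Fact p.Prime := ⟨hp⟩
  have h : Nat.card (E ≃ₐ[FixedPoints.subfield D E] E) = p := by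
    rw [← Nat.card_congr (FixedPoints.toAlgAutMulEquiv D E).toEquiv, hcard]
  exact isCyclic_of_prime_card h

end

end Fermat.Agent.S55.Global.FixedFieldNorm
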