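import Mathlib
import Fermat.Agent.S14.HerbrandPrime

/-!
# Multiplicativity of the Herbrand quotient along `0 → A → X → X/A → 0` (index form)

`X` an abelian group, `f g : X →+ X` with `f ∘ g = 0 = g ∘ f`, `A ≤ X` a subgroup stable under
`f` and `g`.  With `qa f g A = [A ∩ ker f : g A]` (S14 `HerbrandPrime.qa`, `= |H_f(A)|`),
`qa f g ⊤ = [ker f : g X] = |H_f(X)|` and `qq f g A = [f⁻¹ A : A + g X] = |H_f(X/A)|`, the exact
hexagon gives six indices `a_f a_g b_f b_g c_f c_g` with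

`|H_f(A)| = a_f b_f`, `|H_f(X)| = c_f a_f`, `|H_f(X/A)| = b_g c_f` and the same with `f, g` swapped.

All identities are unconditional identities of natural numbers (`0` = infinite index).
(S55, block Global, row G.first.)
-/

set_option autoImplicit false

namespace Fermat.Agent.S55.Global.HerbrandSES

open Fermat.Agent.S14.HerbrandPrime

variable {X : Type*} [AddCommGroup X]

/-- `[f⁻¹ A : A + g X]`, the order of `H_f(X/A)` computed inside `X`. -/
noncomputable def qq (f g : X →+ X) (A : AddSubgroup X) : ℕ := (A ⊔ g.range).relIndex (A.comap f)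

/-- `a_f = [ker f ∩ A : g X ∩ A]`. -/
noncomputable def ia (f g : X →+ X) (A : AddSubgroup X) : ℕ := (g.range ⊓ A).relIndex (f.ker ⊓ A)

/-- `b_f = [g X ∩ A : g A]`. -/
noncomputable def ib (_f g : X →+ X) (A : AddSubgroup X) : ℕ := (A.map g).relIndex (g.range ⊓ A)

/-- `c_f = [ker f : (ker f ∩ A) + g X]`. -/
noncomputable def ic (f g : X →+ X) (A : AddSubgroup X) : ℕ := ((f.ker ⊓ A) ⊔ g.range).relIndex f.ker

section
variable (f g : X →+ X) (hfg : ∀ x, f (g x) = 0) (A : AddSubgroup X)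

include hfg in
theorem range_le_ker : g.range ≤ f.ker := by
  rintro _ ⟨x, rfl⟩
  exact hfg x

include hfg in
/-- `|H_f(A)| = a_f b_f`. -/
theorem qa_eq (hgA : A.map g ≤ A) : qa f g A = ia f g A * ib f g A := by
  unfold qa ia ib
  have hr := range_le_ker f g hfg
  have c1 : A.map g ≤ g.range ⊓ A := le_inf (by rintro _ ⟨x, -, rfl⟩; exact ⟨x, rfl⟩) hgA
  have c2 : g.range ⊓ A ≤ f.ker ⊓ A := inf_le_inf_right _ hr
  rw [inf_comm A f.ker, mul_comm, AddSubgroup.relIndex_mul_relIndex _ _ _ c1 c2]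

include hfg in
/-- `|H_f(X)| = c_f a_f`. -/
theorem qa_top_eq : qa f g ⊤ = ic f g A * ia f g A := by
  unfold qa ia ic
  have hr := range_le_ker f g hfg
  have e0 : (⊤ : AddSubgroup X).map g = g.range := (AddMonoidHom.range_eq_map g).symm
  rw [e0, top_inf_eq]
  have c1 : g.range ≤ (f.ker ⊓ A) ⊔ g.range := le_sup_right
  have c2 : (f.ker ⊓ A) ⊔ g.range ≤ f.ker := sup_le inf_le_left hr
  rw [← AddSubgroup.relIndex_mul_relIndex _ _ _ c1 c2, mul_comm]
  congr 1
  -- `[(ker f ∩ A) + gX : gX] = [ker f ∩ A : gX ∩ A]`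
  rw [AddSubgroup.relIndex_sup_right, ← AddSubgroup.inf_relIndex_right]
  congr 1
  rw [← inf_assoc, inf_eq_left.mpr hr]

include hfg in
/-- `|H_f(X/A)| = b_g c_f`. -/
theorem qq_eq (hfA : A.map f ≤ A) : qq f g A = ib g f A * ic f g A := by
  unfold qq ib ic
  have hr := range_le_ker f g hfg
  have hA : A ≤ A.comap f := fun x hx => hfA ⟨x, hx, rfl⟩
  have c1 : A ⊔ g.range ≤ A ⊔ f.ker := sup_le_sup_left hr _
  have c2 : A ⊔ f.ker ≤ A.comap f := by
    refine sup_le hA ?_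
    intro x hx
    rw [AddSubgroup.mem_comap, (AddMonoidHom.mem_ker).mp hx]
    exact A.zero_mem
  rw [← AddSubgroup.relIndex_mul_relIndex _ _ _ c1 c2, mul_comm]
  congr 1
  · -- `[f⁻¹A : A + ker f] = [fX ∩ A : fA]`
    rw [relIndex_eq_map_mul_ker f c2]
    have e1 : (A ⊔ f.ker).map f = A.map f := by
      rw [AddSubgroup.map_sup, (AddSubgroup.map_eq_bot_iff _).mpr le_rfl, sup_bot_eq]
    have e2 : (A.comap f).map f = f.range ⊓ A := AddSubgroup.map_comap_eq f A
    have e3 : (A ⊔ f.ker) ⊓ f.ker = f.ker := inf_eq_right.mpr le_sup_right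
    have e4 : A.comap f ⊓ f.ker = f.ker := inf_eq_right.mpr (le_trans le_sup_right c2)
    rw [e1, e2, e3, e4, AddSubgroup.relIndex_self, mul_one]
  · -- `[A + ker f : A + gX] = [ker f : (ker f ∩ A) + gX]`
    have e1 : A ⊔ f.ker = (A ⊔ g.range) ⊔ f.ker := by
      rw [sup_assoc, sup_eq_right.mpr hr]
    rw [e1, AddSubgroup.relIndex_sup_left, ← AddSubgroup.inf_relIndex_right]
    congr 1
    -- `(A ⊔ gX) ⊓ ker f = (ker f ⊓ A) ⊔ gX`
    rw [sup_comm A g.range, sup_inf_assoc_of_le A hr, sup_comm, inf_comm]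

end

section main
variable (f g : X →+ X) (hfg : ∀ x, f (g x) = 0) (hgf : ∀ x, g (f x) = 0)
  (A : AddSubgroup X) (hfA : A.map f ≤ A) (hgA : A.map g ≤ A)

include hfg hgf hfA hgA in
/-- **Multiplicativity of the Herbrand quotient**: `h(X) = h(A) h(X/A)` as an identity of indices,
`|H_f(X)| |H_g(A)| |H_g(X/A)| = |H_g(X)| |H_f(A)| |H_f(X/A)|`. -/
theorem herbrand_mul :
    qa f g ⊤ * qa g f A * qq g f A = qa g f ⊤ * qa f g A * qq f g A := by
  rw [qa_top_eq f g hfg A, qa_top_eq g f hgf A, qa_eq f g hfg A hgA, qa_eq g f hgf A hfA,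
    qq_eq f g hfg A hfA, qq_eq g f hgf A hgA]
  ring

include hfg hgf hfA hgA in
/-- If `H_f, H_g` of `X` and of `A` are finite, so are those of `X/A`. -/
theorem qq_ne_zero (h1 : qa f g ⊤ ≠ 0) (h2 : qa g f ⊤ ≠ 0) (h3 : qa f g A ≠ 0) (h4 : qa g f A ≠ 0) :
    qq f g A ≠ 0 ∧ qq g f A ≠ 0 := by
  rw [qa_top_eq f g hfg A] at h1
  rw [qa_top_eq g f hgf A] at h2
  rw [qa_eq f g hfg A hgA] at h3
  rw [qa_eq g f hgf A hfA] at h4
  rw [qq_eq f g hfg A hfA, qq_eq g f hgf A hgA]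
  exact ⟨mul_ne_zero (right_ne_zero_of_mul h4) (left_ne_zero_of_mul h1),
    mul_ne_zero (right_ne_zero_of_mul h3) (left_ne_zero_of_mul h2)⟩

end main

section quotient
variable {Q : Type*} [AddCommGroup Q]

/-- `qq f g A` is `|H_f'(Q)| = [ker f' : g' Q]` for any presentation `π : X ↠ Q` with kernel `A`
and maps `f', g'` on `Q` induced by `f, g`. -/
theorem qq_eq_qa_of_surjective (f g : X →+ X) (A : AddSubgroup X) (hfA : A.map f ≤ A)
    (π : X →+ Q) (hπs : Function.Surjective π) (hker : π.ker = A) (f' g' : Q →+ Q)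
    (hf : ∀ x, f' (π x) = π (f x)) (hg : ∀ x, g' (π x) = π (g x)) :
    qq f g A = qa f' g' ⊤ := by
  unfold qq qa
  have hfA' : A ≤ A.comap f := fun x hx => hfA ⟨x, hx, rfl⟩
  have e1 : (⊤ : AddSubgroup Q).map g' = (A ⊔ g.range).map π := by
    ext y
    constructor
    · rintro ⟨z, -, rfl⟩
      obtain ⟨x, rfl⟩ := hπs z
      exact ⟨g x, AddSubgroup.mem_sup_right ⟨x, rfl⟩, (hg x).symm⟩
    · rintro ⟨x, hx, rfl⟩
      obtain ⟨a, ha, b, ⟨c, rfl⟩, rfl⟩ := AddSubgroup.mem_sup.mp hx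
      refine ⟨π c, AddSubgroup.mem_top _, ?_⟩
      have h0 : π a = 0 := by
        rw [← AddMonoidHom.mem_ker, hker]; exact ha
      rw [map_add, h0, zero_add, hg]
  have e2 : (⊤ : AddSubgroup Q) ⊓ f'.ker = (A.comap f).map π := by
    rw [top_inf_eq]
    ext y
    constructor
    · intro hy
      obtain ⟨x, rfl⟩ := hπs y
      refine ⟨x, ?_, rfl⟩
      have h1 : π (f x) = 0 := by rw [← hf]; exact hy
      rw [← AddMonoidHom.mem_ker, hker] at h1
      exact h1
    · rintro ⟨x, hx, rfl⟩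
      have h1 : π (f x) = 0 := by
        rw [← AddMonoidHom.mem_ker, hker]; exact hx
      rw [AddMonoidHom.mem_ker, hf]
      exact h1
  rw [e1, e2, AddSubgroup.relIndex_map_map, hker]
  congr 1
  · exact (sup_eq_left.mpr le_sup_left).symm
  · exact (sup_eq_left.mpr hfA').symm

/-- The quotient-group instance of `qq_eq_qa_of_surjective`. -/
theorem qq_eq_qa_quotient (f g : X →+ X) (A : AddSubgroup X) (hfA : A ≤ A.comap f)
    (hgA : A ≤ A.comap g) :
    qq f g A = qa (QuotientAddGroup.map A A f hfA) (QuotientAddGroup.map A A g hgA) ⊤ :=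
  qq_eq_qa_of_surjective f g A (by rintro _ ⟨x, hx, rfl⟩; exact hfA hx)
    (QuotientAddGroup.mk' A) (QuotientAddGroup.mk'_surjective A) (QuotientAddGroup.ker_mk' A) _ _
    (fun _ => rfl) (fun _ => rfl)

end quotient

end Fermat.Agent.S55.Global.HerbrandSES
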