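import Mathlib
import Fermat.Agent.S14.HerbrandFg
import Fermat.Agent.S55.Global.HerbrandSES

/-!
# The first inequality, abstract form (S55, block Global, row G.first)

`X` an abelian group with an automorphism `σ` of prime order `p`, `E ≤ X` a finitely generated
`σ`-stable subgroup.  If `H¹(X) = 0`, `|Ĥ⁰(X)| = p ^ n`, `rank E^σ = r`, `rank E = r + (p-1) b` and
`n + b = r + 1`, then the quotient `Q = X / E` has Herbrand quotient `p`:
`|Ĥ⁰(Q)| = p · |H¹(Q)|`, both finite.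
-/

set_option autoImplicit false
set_option linter.unusedSectionVars false
set_option linter.unusedVariables false

open Module

namespace Fermat.Agent.S55.Global.FirstIneqAbs

open Fermat.Agent.S14.HerbrandPrime Fermat.Agent.S14.HerbrandFg Fermat.Agent.S55.Global.HerbrandSES

variable {X : Type*} [AddCommGroup X] (p : ℕ) [hp : Fact p.Prime] (σ : Module.End ℤ X)
  (hσ : σ ^ p = 1) (E : Submodule ℤ X) (hE : ∀ x ∈ E, σ x ∈ E)

include hE in
theorem pow_mem (i : ℕ) (x : X) (hx : x ∈ E) : (σ ^ i) x ∈ E := by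
  induction i with
  | zero => simpa using hx
  | succ k ih => rw [pow_succ', Module.End.mul_apply]; exact hE _ ih

include hσ hE in
/-- Herbrand quotient of a finitely generated `σ`-stable subgroup `E` of an arbitrary `X`, expressed by
`qa` on `E.toAddSubgroup`. -/
theorem herbrand_sub [Module.Finite ℤ E] :
    ∃ b : ℕ, finrank ℤ E =
        finrank ℤ (E ⊓ LinearMap.ker (σ - 1 : Module.End ℤ X) : Submodule ℤ X) + (p - 1) * b ∧
      qa (Dh σ) (Nh p σ) E.toAddSubgroup ≠ 0 ∧ qa (Nh p σ) (Dh σ) E.toAddSubgroup ≠ 0 ∧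
      qa (Dh σ) (Nh p σ) E.toAddSubgroup * p ^ b =
        qa (Nh p σ) (Dh σ) E.toAddSubgroup *
          p ^ finrank ℤ (E ⊓ LinearMap.ker (σ - 1 : Module.End ℤ X) : Submodule ℤ X) := by
  set σ₀ : Module.End ℤ E := σ.restrict hE with hσ₀
  have hpow : ∀ (i : ℕ) (x : E), ((σ₀ ^ i) x : X) = (σ ^ i) x := by
    intro i
    induction i with
    | zero => intro x; simp
    | succ k ih =>
      intro x
      rw [pow_succ', pow_succ', Module.End.mul_apply, Module.End.mul_apply, hσ₀,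
        LinearMap.coe_restrict_apply, ← hσ₀, ih]
  have hσ₀p : σ₀ ^ p = 1 := by
    ext x
    rw [hpow, hσ]; simp
  obtain ⟨b, hb, hq1, hq2, hq⟩ := main_fg p σ₀ hσ₀p
  have hD : ∀ a : E, ((Dh σ₀) a : X) = (Dh σ) a := by
    intro a
    change ((σ₀ - 1 : Module.End ℤ E) a : X) = (σ - 1 : Module.End ℤ X) a
    simp [hσ₀]
  have hN : ∀ a : E, ((Nh p σ₀) a : X) = (Nh p σ) a := by
    intro a
    change ((normEnd p σ₀) a : X) = (normEnd p σ) a
    unfold normEnd
    rw [LinearMap.sum_apply, LinearMap.sum_apply, AddSubmonoidClass.coe_finsetSum]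
    exact Finset.sum_congr rfl (fun i _ => hpow i a)
  have t1 : qa (Dh σ₀) (Nh p σ₀) ⊤ = qa (Dh σ) (Nh p σ) E.toAddSubgroup :=
    qa_top_eq (Dh σ) (Nh p σ) E (Dh σ₀) (Nh p σ₀) hD hN
  have t2 : qa (Nh p σ₀) (Dh σ₀) ⊤ = qa (Nh p σ) (Dh σ) E.toAddSubgroup :=
    qa_top_eq (Nh p σ) (Dh σ) E (Nh p σ₀) (Dh σ₀) hN hD
  rw [t1] at hq1 hq
  rw [t2] at hq2 hq
  have r1 : finrank ℤ (LinearMap.ker (σ₀ - 1 : Module.End ℤ E)) =
      finrank ℤ (E ⊓ LinearMap.ker (σ - 1 : Module.End ℤ X) : Submodule ℤ X) := by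
    have e := Submodule.equivMapOfInjective E.subtype E.subtype_injective
      (LinearMap.ker (σ₀ - 1 : Module.End ℤ E))
    rw [e.finrank_eq]
    have hmap : (LinearMap.ker (σ₀ - 1 : Module.End ℤ E)).map E.subtype =
        E ⊓ LinearMap.ker (σ - 1 : Module.End ℤ X) := by
      ext x
      simp only [Submodule.mem_map, LinearMap.mem_ker, Submodule.subtype_apply, Submodule.mem_inf]
      constructor
      · rintro ⟨a, ha, rfl⟩
        refine ⟨a.2, ?_⟩
        have := hD a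
        change ((σ₀ - 1 : Module.End ℤ E) a : X) = (σ - 1 : Module.End ℤ X) a at this
        rw [← this, ha]; rfl
      · rintro ⟨hx, h0⟩
        refine ⟨⟨x, hx⟩, ?_, rfl⟩
        apply Subtype.ext
        have := hD ⟨x, hx⟩
        change ((σ₀ - 1 : Module.End ℤ E) ⟨x, hx⟩ : X) = (σ - 1 : Module.End ℤ X) x at this
        rw [this, h0]; rfl
    rw [hmap]
  rw [r1] at hb hq
  exact ⟨b, hb, hq1, hq2, hq⟩

include hσ hE in
/-- **Abstract first inequality** in index form (no quotient type). -/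
theorem first_ineq_qq [Module.Finite ℤ E] (n r b : ℕ)
    (h1 : ∀ x, normEnd p σ x = 0 → ∃ y, x = σ y - y)
    (h0 : qa (Dh σ) (Nh p σ) ⊤ = p ^ n)
    (hr : finrank ℤ (E ⊓ LinearMap.ker (σ - 1 : Module.End ℤ X) : Submodule ℤ X) = r)
    (hrk : finrank ℤ E = r + (p - 1) * b) (hnb : n + b = r + 1) :
    qq (Dh σ) (Nh p σ) E.toAddSubgroup = p * qq (Nh p σ) (Dh σ) E.toAddSubgroup ∧
      qq (Nh p σ) (Dh σ) E.toAddSubgroup ≠ 0 := by
  have hp0 : 0 < p := hp.out.pos
  have hp2 : 2 ≤ p := hp.out.two_le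
  obtain ⟨b', hb', hq1, hq2, hq⟩ := herbrand_sub p σ hσ E hE
  rw [hr] at hb' hq
  have hbb : b' = b := by
    have : (p - 1) * b' = (p - 1) * b := by omega
    exact Nat.eq_of_mul_eq_mul_left (by omega) this
  rw [hbb] at hq
  have hDN : ∀ x, (Dh σ) ((Nh p σ) x) = 0 := fun x => sub_one_normEnd_apply p σ hσ x
  have hND : ∀ x, (Nh p σ) ((Dh σ) x) = 0 := fun x => normEnd_sub_one_apply p σ hσ x
  set A : AddSubgroup X := E.toAddSubgroup with hA
  have hDA : A.map (Dh σ) ≤ A := by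
    rintro _ ⟨x, hx, rfl⟩
    change (σ - 1 : Module.End ℤ X) x ∈ E
    rw [LinearMap.sub_apply, Module.End.one_apply]
    exact E.sub_mem (hE x hx) hx
  have hNA : A.map (Nh p σ) ≤ A := by
    rintro _ ⟨x, hx, rfl⟩
    change (normEnd p σ) x ∈ E
    unfold normEnd
    rw [LinearMap.sum_apply]
    exact E.sum_mem (fun i _ => pow_mem σ E hE i x hx)
  -- `H¹(X) = 0`
  have hH1 : qa (Nh p σ) (Dh σ) ⊤ = 1 := by
    unfold qa
    rw [AddSubgroup.relIndex_eq_one]
    rintro x ⟨-, hx⟩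
    obtain ⟨y, rfl⟩ := h1 x hx
    exact ⟨y, AddSubgroup.mem_top _, by
      change (σ - 1 : Module.End ℤ X) y = _
      rw [LinearMap.sub_apply, Module.End.one_apply]⟩
  have key := herbrand_mul (Dh σ) (Nh p σ) hDN hND A hDA hNA
  rw [h0, hH1, one_mul] at key
  have hnz := qq_ne_zero (Dh σ) (Nh p σ) hDN hND A hDA hNA (by rw [h0]; exact pow_ne_zero _ hp0.ne')
    (by rw [hH1]; exact one_ne_zero) hq1 hq2
  refine ⟨?_, hnz.2⟩
  -- `p^n · a' · q' = a · q`, `a · p^b = a' · p^r`, `n + b = r + 1`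
  set a := qa (Dh σ) (Nh p σ) A
  set a' := qa (Nh p σ) (Dh σ) A
  set q := qq (Dh σ) (Nh p σ) A
  set q' := qq (Nh p σ) (Dh σ) A
  have e1 : (a' * p ^ r) * q = (a' * p ^ r) * (p * q') := by
    calc (a' * p ^ r) * q = (a * p ^ b) * q := by rw [hq]
      _ = (a * q) * p ^ b := by ring
      _ = (p ^ n * a' * q') * p ^ b := by rw [key]
      _ = a' * p ^ (n + b) * q' := by rw [pow_add]; ring
      _ = (a' * p ^ r) * (p * q') := by rw [hnb, pow_succ]; ring
  exact Nat.eq_of_mul_eq_mul_left (Nat.pos_of_ne_zero (mul_ne_zero hq2 (pow_ne_zero _ hp0.ne'))) e1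

include hσ hE in
/-- **Abstract first inequality** for any presentation `π : X ↠ Q` of the quotient `Q = X / E`:
`|Ĥ⁰(Q)| = p · |H¹(Q)|`, and both are finite. -/
theorem first_ineq_quot [Module.Finite ℤ E] (n r b : ℕ)
    (h1 : ∀ x, normEnd p σ x = 0 → ∃ y, x = σ y - y)
    (h0 : qa (Dh σ) (Nh p σ) ⊤ = p ^ n)
    (hr : finrank ℤ (E ⊓ LinearMap.ker (σ - 1 : Module.End ℤ X) : Submodule ℤ X) = r)
    (hrk : finrank ℤ E = r + (p - 1) * b) (hnb : n + b = r + 1)
    {Q : Type*} [AddCommGroup Q] (π : X →+ Q) (hπs : Function.Surjective π)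
    (hker : π.ker = E.toAddSubgroup) (τ : Module.End ℤ Q) (hτ : ∀ x, τ (π x) = π (σ x)) :
    qa (Dh τ) (Nh p τ) ⊤ = p * qa (Nh p τ) (Dh τ) ⊤ ∧ qa (Nh p τ) (Dh τ) ⊤ ≠ 0 := by
  obtain ⟨k1, k2⟩ := first_ineq_qq p σ hσ E hE n r b h1 h0 hr hrk hnb
  have hDA : E.toAddSubgroup.map (Dh σ) ≤ E.toAddSubgroup := by
    rintro _ ⟨x, hx, rfl⟩
    change (σ - 1 : Module.End ℤ X) x ∈ E
    rw [LinearMap.sub_apply, Module.End.one_apply]
    exact E.sub_mem (hE x hx) hx
  have hNA : E.toAddSubgroup.map (Nh p σ) ≤ E.toAddSubgroup := by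
    rintro _ ⟨x, hx, rfl⟩
    change (normEnd p σ) x ∈ E
    unfold normEnd
    rw [LinearMap.sum_apply]
    exact E.sum_mem (fun i _ => pow_mem σ E hE i x hx)
  have hτpow : ∀ (i : ℕ) (x : X), (τ ^ i) (π x) = π ((σ ^ i) x) := by
    intro i
    induction i with
    | zero => intro x; simp
    | succ k ih =>
      intro x
      rw [pow_succ', pow_succ', Module.End.mul_apply, Module.End.mul_apply, ih, hτ]
  have hDτ : ∀ x, (Dh τ) (π x) = π ((Dh σ) x) := by
    intro x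
    change (τ - 1 : Module.End ℤ Q) (π x) = π ((σ - 1 : Module.End ℤ X) x)
    rw [LinearMap.sub_apply, LinearMap.sub_apply, Module.End.one_apply, Module.End.one_apply, hτ,
      map_sub]
  have hNτ : ∀ x, (Nh p τ) (π x) = π ((Nh p σ) x) := by
    intro x
    change (normEnd p τ) (π x) = π ((normEnd p σ) x)
    unfold normEnd
    rw [LinearMap.sum_apply, LinearMap.sum_apply, map_sum]
    exact Finset.sum_congr rfl (fun i _ => hτpow i x)
  have e1 := qq_eq_qa_of_surjective (Dh σ) (Nh p σ) E.toAddSubgroup hDA π hπs hker (Dh τ) (Nh p τ)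
    hDτ hNτ
  have e2 := qq_eq_qa_of_surjective (Nh p σ) (Dh σ) E.toAddSubgroup hNA π hπs hker (Nh p τ) (Dh τ)
    hNτ hDτ
  rw [← e1, ← e2]
  exact ⟨k1, k2⟩

end Fermat.Agent.S55.Global.FirstIneqAbs
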