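import Mathlib
import Fermat.Agent.S14.SUnitRanks
import Fermat.Agent.S14.RankPlaces
import Fermat.Agent.S14.GalPrimes

/-!
# Rank data of the `T_L`-units for a cyclic extension of prime degree (S55, Global, row G.first)

`L/K` Galois of prime degree `p`, `K` totally complex, `T` a finite set of primes of `K`,
`above K L T` the (finite) set of primes of `L` above `T`.  Every prime `v` of `K` has `1` or `p`
primes of `L` above it; with `n = #{v ∈ T | exactly one prime above v}` we get numbers `r, b` with
`rank E = r + (p-1) b`, `rank E^σ = r`, `n + b = r + 1` for `E` the `above T`-units of `L`.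
No hypothesis on ramification.
-/

set_option autoImplicit false
set_option linter.unusedSectionVars false
set_option linter.unusedVariables false

open NumberField IsDedekindDomain Module

namespace Fermat.Agent.S55.Global.SUnitHerbrand

open Fermat.Agent.S14.NormIndexConcrete Fermat.Agent.S14.SUnitRanks

variable (K L : Type) [Field K] [NumberField K] [Field L] [NumberField L] [Algebra K L]

/-- The primes of `L` above a prime `v` of `K`. -/
def fiber (v : HeightOneSpectrum (𝓞 K)) : Set (HeightOneSpectrum (𝓞 L)) :=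
  {w | primeBelow K L w = v}

theorem mem_fiber {v : HeightOneSpectrum (𝓞 K)} {w : HeightOneSpectrum (𝓞 L)} :
    w ∈ fiber K L v ↔ primeBelow K L w = v := Iff.rfl

theorem mem_fiber_iff_under {v : HeightOneSpectrum (𝓞 K)} {w : HeightOneSpectrum (𝓞 L)} :
    w ∈ fiber K L v ↔ w.asIdeal.under (𝓞 K) = v.asIdeal := by
  rw [mem_fiber, ← primeBelow_asIdeal]
  exact ⟨fun h => by rw [h], fun h => HeightOneSpectrum.ext h⟩

/-- `w ↦ w.asIdeal` identifies the fibre with `primesOver`. -/
theorem image_fiber (v : HeightOneSpectrum (𝓞 K)) :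
    HeightOneSpectrum.asIdeal '' fiber K L v = v.asIdeal.primesOver (𝓞 L) := by
  ext P
  constructor
  · rintro ⟨w, hw, rfl⟩
    refine ⟨w.isPrime, ⟨?_⟩⟩
    exact ((mem_fiber_iff_under K L).mp hw).symm
  · rintro ⟨hP, ⟨hlo⟩⟩
    have hne : P ≠ ⊥ := by
      have : P.LiesOver v.asIdeal := ⟨hlo⟩
      exact Ideal.ne_bot_of_liesOver_of_ne_bot v.ne_bot P
    exact ⟨⟨P, hP, hne⟩, (mem_fiber_iff_under K L).mpr hlo.symm, rfl⟩

theorem asIdeal_injective : Function.Injective
    (HeightOneSpectrum.asIdeal : HeightOneSpectrum (𝓞 L) → Ideal (𝓞 L)) :=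
  fun _ _ h => HeightOneSpectrum.ext h

theorem fiber_ncard (v : HeightOneSpectrum (𝓞 K)) :
    (fiber K L v).ncard = (v.asIdeal.primesOver (𝓞 L)).ncard := by
  rw [← image_fiber, Set.ncard_image_of_injective _ (asIdeal_injective L)]

theorem fiber_finite (v : HeightOneSpectrum (𝓞 K)) : (fiber K L v).Finite := by
  have h : (HeightOneSpectrum.asIdeal '' fiber K L v).Finite := by
    rw [image_fiber]
    have : v.asIdeal.IsMaximal := v.isMaximal
    exact IsDedekindDomain.primesOver_finite v.asIdeal (𝓞 L)
  exact Set.Finite.of_finite_image h ((asIdeal_injective L).injOn)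

theorem fiber_ncard_ne_zero (v : HeightOneSpectrum (𝓞 K)) : (fiber K L v).ncard ≠ 0 := by
  rw [fiber_ncard]
  have : v.asIdeal.IsMaximal := v.isMaximal
  exact IsDedekindDomain.primesOver_ncard_ne_zero v.asIdeal (𝓞 L)

theorem fiber_ncard_dvd [IsGalois K L] (v : HeightOneSpectrum (𝓞 K)) :
    (fiber K L v).ncard ∣ finrank K L := by
  rw [fiber_ncard, ← IsGalois.card_aut_eq_finrank K L,
    ← Ideal.ncard_primesOver_mul_ramificationIdxIn_mul_inertiaDegIn v.asIdeal (𝓞 L) (L ≃ₐ[K] L)]
  exact dvd_mul_right _ _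

/-- In prime degree, a prime has exactly `1` or `p` primes above it. -/
theorem fiber_ncard_eq [IsGalois K L] {p : ℕ} (hp : p.Prime) (hdeg : finrank K L = p)
    (v : HeightOneSpectrum (𝓞 K)) : (fiber K L v).ncard = 1 ∨ (fiber K L v).ncard = p := by
  have h := fiber_ncard_dvd K L v
  rw [hdeg] at h
  exact (Nat.dvd_prime hp).mp h

/-! ### The primes of `L` above a finite set `T` -/

theorem above_finite (T : Finset (HeightOneSpectrum (𝓞 K))) :
    {w : HeightOneSpectrum (𝓞 L) | primeBelow K L w ∈ T}.Finite := by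
  have : {w : HeightOneSpectrum (𝓞 L) | primeBelow K L w ∈ T} = ⋃ v ∈ T, fiber K L v := by
    ext w
    simp [fiber]
  rw [this]
  exact Set.Finite.biUnion T.finite_toSet (fun v _ => fiber_finite K L v)

/-- The finite set of primes of `L` above `T`. -/
noncomputable def above (T : Finset (HeightOneSpectrum (𝓞 K))) : Finset (HeightOneSpectrum (𝓞 L)) :=
  (above_finite K L T).toFinset

theorem mem_above {T : Finset (HeightOneSpectrum (𝓞 K))} {w : HeightOneSpectrum (𝓞 L)} :
    w ∈ above K L T ↔ primeBelow K L w ∈ T := by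
  simp [above]

theorem above_stable (T : Finset (HeightOneSpectrum (𝓞 K))) (σ : L ≃ₐ[K] L) :
    ∀ w ∈ above K L T, primePerm K L σ w ∈ above K L T := by
  intro w hw
  rw [mem_above] at hw ⊢
  rwa [Fermat.Agent.S14.GalPrimes.primeBelow_primePerm]

theorem image_above (T : Finset (HeightOneSpectrum (𝓞 K))) :
    primeBelow K L '' (above K L T : Set (HeightOneSpectrum (𝓞 L))) =
      (T : Set (HeightOneSpectrum (𝓞 K))) := by
  ext v
  constructor
  · rintro ⟨w, hw, rfl⟩
    exact (mem_above K L).mp (Finset.mem_coe.mp hw)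
  · intro hv
    obtain ⟨w, rfl⟩ := primeBelow_surjective K L v
    exact ⟨w, Finset.mem_coe.mpr ((mem_above K L).mpr hv), rfl⟩

theorem card_above (T : Finset (HeightOneSpectrum (𝓞 K))) :
    (above K L T).card = ∑ v ∈ T, (fiber K L v).ncard := by
  classical
  have hmaps : Set.MapsTo (primeBelow K L) (above K L T : Set (HeightOneSpectrum (𝓞 L)))
      (T : Set (HeightOneSpectrum (𝓞 K))) := fun w hw => (mem_above K L).mp (Finset.mem_coe.mp hw)
  rw [Finset.card_eq_sum_card_fiberwise hmaps]
  refine Finset.sum_congr rfl (fun v hv => ?_)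
  rw [← Set.ncard_coe_finset]
  congr 1
  ext w
  simp only [Finset.coe_filter, Set.mem_ofPred_eq, mem_fiber, mem_above]
  constructor
  · rintro ⟨-, h⟩; exact h
  · intro h; exact ⟨h ▸ hv, h⟩

/-- The number of primes of `T` with exactly one prime of `L` above them (the non-split primes,
when `[L:K]` is prime). -/
noncomputable def nonsplit (T : Finset (HeightOneSpectrum (𝓞 K))) : ℕ := by
  classical
  exact (T.filter (fun v => (fiber K L v).ncard = 1)).card

theorem nonsplit_le (T : Finset (HeightOneSpectrum (𝓞 K))) : nonsplit K L T ≤ T.card := by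
  classical
  unfold nonsplit
  exact Finset.card_filter_le _ _

/-- `#T_L = n + p (|T| - n)`. -/
theorem card_above_eq [IsGalois K L] {p : ℕ} (hp : p.Prime) (hdeg : finrank K L = p)
    (T : Finset (HeightOneSpectrum (𝓞 K))) :
    (above K L T).card = nonsplit K L T + p * (T.card - nonsplit K L T) := by
  classical
  rw [card_above]
  unfold nonsplit
  have h1 : ∑ v ∈ T, (fiber K L v).ncard =
      ∑ v ∈ T.filter (fun v => (fiber K L v).ncard = 1), (fiber K L v).ncard +
      ∑ v ∈ T.filter (fun v => ¬ (fiber K L v).ncard = 1), (fiber K L v).ncard :=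
    (Finset.sum_filter_add_sum_filter_not T _ _).symm
  rw [h1]
  have h2 : ∑ v ∈ T.filter (fun v => (fiber K L v).ncard = 1), (fiber K L v).ncard =
      (T.filter (fun v => (fiber K L v).ncard = 1)).card := by
    rw [Finset.card_eq_sum_ones]
    exact Finset.sum_congr rfl (fun v hv => (Finset.mem_filter.mp hv).2)
  have h3 : ∑ v ∈ T.filter (fun v => ¬ (fiber K L v).ncard = 1), (fiber K L v).ncard =
      p * (T.filter (fun v => ¬ (fiber K L v).ncard = 1)).card := by
    rw [mul_comm, ← smul_eq_mul, ← Finset.sum_const]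
    refine Finset.sum_congr rfl (fun v hv => ?_)
    rcases fiber_ncard_eq K L hp hdeg v with h | h
    · exact absurd h (Finset.mem_filter.mp hv).2
    · exact h
  have h4 : (T.filter (fun v => ¬ (fiber K L v).ncard = 1)).card =
      T.card - (T.filter (fun v => (fiber K L v).ncard = 1)).card := by
    have := Finset.card_filter_add_card_filter_not (s := T) (fun v => (fiber K L v).ncard = 1)
    omega
  rw [h2, h3, h4]

/-! ### Rank data -/

/-- **Rank data of the `T_L`-units** for `L/K` Galois of prime degree `p` with generator `σ`, `K`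
totally complex. -/
theorem rank_data [IsGalois K L] {p : ℕ} (hp : p.Prime) (hdeg : finrank K L = p)
    (hcx : ∀ w : InfinitePlace K, w.IsComplex)
    (σ : L ≃ₐ[K] L) (hσ : ∀ τ : L ≃ₐ[K] L, τ ∈ Subgroup.zpowers σ)
    (T : Finset (HeightOneSpectrum (𝓞 K))) :
    ∃ r b : ℕ,
      finrank ℤ (sUnits L (above K L T)) = r + (p - 1) * b ∧
      finrank ℤ ↥(sUnits L (above K L T) ⊓ LinearMap.ker (sigmaEnd K L σ - 1)) = r ∧
      nonsplit K L T + b = r + 1 := by
  have hp1 : 1 ≤ p := hp.one_le
  have hn := nonsplit_le K L T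
  set n := nonsplit K L T with hn_def
  refine ⟨Units.rank K + T.card, Units.rank K + 1 + (T.card - n), ?_, ?_, ?_⟩
  · rw [finrank_sUnits, card_above_eq K L hp hdeg T]
    have hrk := Fermat.Agent.S14.RankPlaces.rank_add_one_eq K L p hdeg hcx
    -- rank_L = p (rank_K + 1) - 1
    obtain ⟨q, rfl⟩ : ∃ q, p = q + 1 := ⟨p - 1, by omega⟩
    obtain ⟨s, hs⟩ : ∃ s, T.card = n + s := ⟨T.card - n, by omega⟩
    rw [← hn_def, hs]
    simp only [Nat.add_sub_cancel, Nat.add_sub_cancel_left]
    have : Units.rank L = (q + 1) * (Units.rank K + 1) - 1 := by omega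
    have hpos : 1 ≤ (q + 1) * (Units.rank K + 1) := Nat.mul_pos (by omega) (by omega)
    zify [hpos] at this ⊢
    rw [this]
    ring
  · rw [finrank_invariants_ncard K L σ hσ (above K L T) (above_stable K L T σ), image_above,
      Set.ncard_coe_finset]
  · omega

end Fermat.Agent.S55.Global.SUnitHerbrand
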