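import Mathlib
import Fermat.Agent.S55.Global.Objects
import Fermat.Agent.S55.Global.SUnitHerbrand

/-!
# S55 / Global / G.first — the semilocal inputs of the first inequality (closed Props)

For a `K`-algebra `A` and `σ ∈ Gal(L/K)` (`[L:K] = p`): the cyclic norm `u ↦ ∏_{i<p} σ^i • u` on
`(L ⊗[K] A)ˣ`, the subgroup of `σ`-fixed units, cyclic Hilbert 90 and the norm index, in elementary
multiplicative form.  The per-place Props `SemilocalH90 p`, `SemilocalNormIndex p` (for
`A = v.adicCompletion K`) are the exports of row G.semilocal; `FirstIneq.lean` consumes them.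
-/

set_option autoImplicit false
set_option linter.unusedSectionVars false

open NumberField IsDedekindDomain TensorProduct

namespace Fermat.Agent.S55.Global.FirstIneqDefs

open Fermat.Agent.S55.Global.Objects

section defs

variable {K L : Type} [Field K] [NumberField K] [Field L] [NumberField L] [Algebra K L]
variable (A : Type) [CommRing A] [Algebra K A]

/-- The cyclic norm `u ↦ ∏_{i<p} σ^i • u` on `(L ⊗[K] A)ˣ`. -/
noncomputable def normU (p : ℕ) (σ : L ≃ₐ[K] L) : (L ⊗[K] A)ˣ →* (L ⊗[K] A)ˣ where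
  toFun u := ∏ i ∈ Finset.range p, (σ ^ i) • u
  map_one' := by simp
  map_mul' u u' := by simp only [smul_mul']; exact Finset.prod_mul_distrib

theorem normU_apply (p : ℕ) (σ : L ≃ₐ[K] L) (u : (L ⊗[K] A)ˣ) :
    normU A p σ u = ∏ i ∈ Finset.range p, (σ ^ i) • u := rfl

/-- The `σ`-fixed units of `L ⊗[K] A`. -/
def fixedU (σ : L ≃ₐ[K] L) : Subgroup (L ⊗[K] A)ˣ where
  carrier := {u | σ • u = u}
  one_mem' := smul_one σ
  mul_mem' {a b} ha hb := by
    change σ • (a * b) = a * b
    rw [smul_mul', show σ • a = a from ha, show σ • b = b from hb]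
  inv_mem' {a} ha := by
    change σ • a⁻¹ = a⁻¹
    rw [smul_inv', show σ • a = a from ha]

theorem mem_fixedU {σ : L ≃ₐ[K] L} {u : (L ⊗[K] A)ˣ} : u ∈ fixedU A σ ↔ σ • u = u := Iff.rfl

/-- Cyclic Hilbert 90 for `(L ⊗[K] A)ˣ`: norm-one units are of the form `σ y / y`. -/
def H90At (p : ℕ) (σ : L ≃ₐ[K] L) : Prop :=
  ∀ u : (L ⊗[K] A)ˣ, normU A p σ u = 1 → ∃ y : (L ⊗[K] A)ˣ, u = (σ • y) / y

/-- The norm index `[((L ⊗[K] A)ˣ)^σ : N (L ⊗[K] A)ˣ]` (`0` if infinite). -/
noncomputable def normIndexAt (p : ℕ) (σ : L ≃ₐ[K] L) : ℕ :=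
  (normU A p σ).range.relIndex (fixedU A σ)

end defs

/-- **(SL-1)** semilocal Hilbert 90 at one place `v`, cyclic form, for `L/K` Galois of prime degree
`p` with generator `σ`.  (Export of G.semilocal.) -/
def SemilocalH90 (p : ℕ) : Prop :=
  ∀ (K L : Type) [Field K] [NumberField K] [Field L] [NumberField L] [Algebra K L] [IsGalois K L]
    (σ : L ≃ₐ[K] L), Module.finrank K L = p → (∀ τ : L ≃ₐ[K] L, τ ∈ Subgroup.zpowers σ) →
    ∀ v : Place K, H90At (v.adicCompletion K) p σ

/-- **(SL-0)** semilocal norm index at one place `v`: `[K_vˣ : N (L ⊗ K_v)ˣ] = |D_v|`, i.e. `p` if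
exactly one prime of `L` lies above `v` and `1` otherwise (`v` split).  (Export of G.semilocal; uses
the local norm index theorem.) -/
def SemilocalNormIndex (p : ℕ) : Prop :=
  ∀ (K L : Type) [Field K] [NumberField K] [Field L] [NumberField L] [Algebra K L] [IsGalois K L]
    (σ : L ≃ₐ[K] L), Module.finrank K L = p → (∀ τ : L ≃ₐ[K] L, τ ∈ Subgroup.zpowers σ) →
    ∀ v : Place K, normIndexAt (v.adicCompletion K) p σ =
      if (SUnitHerbrand.fiber K L v).ncard = 1 then p else 1

/-- **(SL-1), `T`-level**: cyclic Hilbert 90 for `J_{L,T} = (L ⊗[K] K_T)ˣ`. -/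
def SemilocalH90T (p : ℕ) : Prop :=
  ∀ (K L : Type) [Field K] [NumberField K] [Field L] [NumberField L] [Algebra K L] [IsGalois K L]
    (σ : L ≃ₐ[K] L), Module.finrank K L = p → (∀ τ : L ≃ₐ[K] L, τ ∈ Subgroup.zpowers σ) →
    ∀ T : Finset (Place K), H90At (KT K T) p σ

/-- **(SL-0), `T`-level**: `[J_{L,T}^σ : N J_{L,T}] = p ^ #{v ∈ T | one prime of L above v}`. -/
def SemilocalNormIndexT (p : ℕ) : Prop :=
  ∀ (K L : Type) [Field K] [NumberField K] [Field L] [NumberField L] [Algebra K L] [IsGalois K L]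
    (σ : L ≃ₐ[K] L), Module.finrank K L = p → (∀ τ : L ≃ₐ[K] L, τ ∈ Subgroup.zpowers σ) →
    ∀ T : Finset (Place K), normIndexAt (KT K T) p σ = p ^ SUnitHerbrand.nonsplit K L T

end Fermat.Agent.S55.Global.FirstIneqDefs
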