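/-
S55 / Global (middle layer, helper17's memo item (c)) — helper89.

GENERAL unramified Artin reciprocity on top of the frozen S14 closure:
for ANY number field `K` containing a primitive `p`-th root of unity (`p ≥ 3`, hence `K` totally
complex) and ANY unramified Galois extension `M/K` of degree `p`, the Artin symbol of every nonzero
principal ideal of `𝓞 K` is trivial.  (S14's `BlockRecip p` is the special case `K = ℚ(ζ_p)`.)

The proof is S14's `Crossing.blockRecip` verbatim, with the cyclotomic first inequality replaced by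
helper31's general `BlockFirstIneqProof.exportNew`.
-/
import Fermat.Agent.S14.BlockDProof
import Fermat.Agent.S14.BlockZFinal
import Fermat.Agent.S14.BlockFirstIneqProof
import Fermat.Agent.S14.BlockAuxClosed
import Fermat.Agent.S14.Crossing

set_option autoImplicit false

open NumberField nonZeroDivisors

namespace Fermat.Agent.S55.Global.UnramRecipGen

open Fermat.Agent.S14

/-- A number field containing a primitive `p`-th root of unity with `3 ≤ p` is totally complex. -/
theorem isComplex_of_primitiveRoot {p : ℕ} (K : Type) [Field K] [NumberField K] (h3 : 3 ≤ p)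
    (hζ : ∃ ζ : K, IsPrimitiveRoot ζ p) (w : InfinitePlace K) : w.IsComplex := by
  obtain ⟨ζ, hζ⟩ := hζ
  rw [← InfinitePlace.not_isReal_iff_isComplex]
  intro hw
  -- the real embedding sends `ζ` to a real primitive `p`-th root of unity
  have hinj : Function.Injective (w.embedding : K →+* ℂ) := (w.embedding).injective
  have hζ' : IsPrimitiveRoot (w.embedding ζ) p := hζ.map_of_injective hinj
  have hreal : (w.embedding ζ).im = 0 := by
    have := InfinitePlace.isReal_iff.mp hw
    have h2 : (starRingEnd ℂ) (w.embedding ζ) = w.embedding ζ := by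
      have := RingHom.congr_fun this ζ
      simpa [ComplexEmbedding.conjugate_coe_eq] using this
    exact Complex.conj_eq_iff_im.mp h2
  -- a real root of unity is `±1`, so its square is `1`, contradicting primitivity for `p ≥ 3`
  have hpow : (w.embedding ζ) ^ p = 1 := hζ'.pow_eq_one
  have hnorm : ‖w.embedding ζ‖ = 1 :=
    Complex.norm_eq_one_of_pow_eq_one hpow (by omega)
  have hre : (w.embedding ζ) = ((w.embedding ζ).re : ℂ) := by
    apply Complex.ext <;> simp [hreal]
  have habs : |(w.embedding ζ).re| = 1 := by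
    rw [hre, Complex.norm_real, Real.norm_eq_abs] at hnorm
    exact hnorm
  have hsq : (w.embedding ζ) ^ 2 = 1 := by
    rw [hre, ← Complex.ofReal_pow, ← sq_abs, habs]
    simp
  have hdvd : p ∣ 2 := (hζ'.pow_eq_one_iff_dvd 2).mp hsq
  have := Nat.le_of_dvd (by norm_num) hdvd
  omega

/-- **General unramified reciprocity**: `K ∋ ζ_p` (`p ≥ 3` prime), `M/K` Galois of degree `p`,
unramified at all finite primes; then every Artin map of `M/K` kills the nonzero principal ideals
of `𝓞 K`. -/
theorem principalDie {p : ℕ} (K M : Type) [Field K] [NumberField K] [Field M] [NumberField M]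
    [Algebra K M] [IsGalois K M] (hp : p.Prime) (h3 : 3 ≤ p)
    (hζp : ∃ ζ : K, IsPrimitiveRoot ζ p) (hdeg : Module.finrank K M = p) (hU : Unram K M)
    (art : (Ideal (𝓞 K))⁰ →* (M ≃ₐ[K] M)) (hart : IsArtinMap K M art) : PrincipalDie art := by
  intro I hI
  classical
  have : Fact p.Prime := ⟨hp⟩
  have hG : Nat.card (M ≃ₐ[K] M) = p := by rw [IsGalois.card_aut_eq_finrank, hdeg]
  have hcyc : IsCyclic (M ≃ₐ[K] M) := isCyclic_of_prime_card hG
  let _ : CommGroup (M ≃ₐ[K] M) := IsCyclic.commGroup
  have hI0 : (I : Ideal (𝓞 K)) ≠ ⊥ := nonZeroDivisors.coe_ne_zero I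
  have hFI : p ≤ (normClasses K M).index :=
    FirstIneqAdapter.le_index_normClasses hp hdeg
      (FirstIneqAdapter.exportInertia_of_exportNew BlockFirstIneqProof.exportNew K M p hG
        (isComplex_of_primitiveRoot K h3 hζp) hU)
  have key := CrossingCore.art_principal_eq_one (R := 𝓞 K) (G := M ≃ₐ[K] M) p art hG
    (normClasses K M)
    (fun c => by
      have := ClassNorm.pow_finrank_mem_normClasses K M c
      rwa [hdeg] at this)
    (fun htop => by
      rw [htop, Subgroup.index_top] at hFI
      exact absurd hFI (not_le.mpr hp.one_lt))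
    (fun v hv hvp h1 =>
      Crossing.mk0_mem_normClasses_of_art_eq_one art hart ⟨v, CrossingCore.mem_nzd hv⟩
        ((Ideal.prime_iff_isPrime hv).mp hvp) h1)
    (fun v₁ v₂ h₁ h₂ hp₁ hp₂ ha₁ ha₂ =>
      Crossing.link blockD blockZ BlockAuxClosed.blockAux hp h3 hζp hdeg hU art hart
        ⟨v₁, CrossingCore.mem_nzd h₁⟩
        ⟨v₂, CrossingCore.mem_nzd h₂⟩ ((Ideal.prime_iff_isPrime h₁).mp hp₁)
        ((Ideal.prime_iff_isPrime h₂).mp hp₂) ha₁ ha₂)
    (I : Ideal (𝓞 K)) hI0 hI
  exact key

end Fermat.Agent.S55.Global.UnramRecipGen
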