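import Mathlib
import Fermat.Agent.S55.Global.Blocks
import Fermat.Agent.S55.Global.FirstIneqDefs
import Fermat.Agent.S55.Global.FirstIneqAbs
import Fermat.Agent.S55.Global.UnramRecipGen

/-!
# S55 / Global / G.first — the first inequality `h(C_{L,T}) = p`

`Blocks.FirstIneq p` from the two `T`-level semilocal inputs `SemilocalH90T p` (Hilbert 90 for
`J_{L,T}`) and `SemilocalNormIndexT p` (`[J^σ : N J] = p ^ #nonsplit(T)`), via the abstract
first inequality (`FirstIneqAbs`) and the rank data of the `T_L`-units (`SUnitHerbrand`).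
-/

set_option autoImplicit false
set_option linter.unusedSectionVars false
set_option linter.unusedVariables false

open NumberField IsDedekindDomain TensorProduct Module

namespace Fermat.Agent.S55.Global.FirstIneq

open Fermat.Agent.S55.Global.Objects Fermat.Agent.S55.Global.FirstIneqDefs
open Fermat.Agent.S14.HerbrandPrime Fermat.Agent.S14.NormIndexConcrete Fermat.Agent.S14.SUnitRanks
open Fermat.Agent.S55.Global.SUnitHerbrand

section transfer

variable {K L : Type} [Field K] [NumberField K] [Field L] [NumberField L] [Algebra K L]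
variable (A : Type) [CommRing A] [Algebra K A]

/-- `σ` acting on `Additive (L ⊗[K] A)ˣ`, as a `ℤ`-linear endomorphism. -/
noncomputable def sigmaX (σ : L ≃ₐ[K] L) : Module.End ℤ (Additive (L ⊗[K] A)ˣ) :=
  (MonoidHom.toAdditive (MulDistribMulAction.toMonoidHom (L ⊗[K] A)ˣ σ)).toIntLinearMap

@[simp] theorem sigmaX_apply (σ : L ≃ₐ[K] L) (u : (L ⊗[K] A)ˣ) :
    sigmaX A σ (Additive.ofMul u) = Additive.ofMul (σ • u) := rfl

theorem sigmaX_pow (σ : L ≃ₐ[K] L) (i : ℕ) (u : (L ⊗[K] A)ˣ) :
    (sigmaX A σ ^ i) (Additive.ofMul u) = Additive.ofMul ((σ ^ i) • u) := by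
  induction i generalizing u with
  | zero => simp
  | succ k ih =>
    rw [pow_succ, Module.End.mul_apply, sigmaX_apply, ih, pow_succ, mul_smul]

theorem sigmaX_pow_eq_one (σ : L ≃ₐ[K] L) (p : ℕ) (hσ : σ ^ p = 1) : sigmaX A σ ^ p = 1 := by
  ext x
  obtain ⟨u, rfl⟩ := Additive.ofMul.surjective x
  rw [sigmaX_pow, hσ, one_smul]; rfl

theorem normEnd_sigmaX (σ : L ≃ₐ[K] L) (p : ℕ) (u : (L ⊗[K] A)ˣ) :
    normEnd p (sigmaX A σ) (Additive.ofMul u) = Additive.ofMul (normU A p σ u) := by
  unfold normEnd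
  rw [LinearMap.sum_apply, normU_apply, ofMul_prod]
  exact Finset.sum_congr rfl (fun i _ => sigmaX_pow A σ i u)

/-- `Lˣ → (L ⊗[K] A)ˣ` on the additive copies. -/
noncomputable def iota : Additive Lˣ →ₗ[ℤ] Additive (L ⊗[K] A)ˣ :=
  (MonoidHom.toAdditive (inclUnits K L A)).toIntLinearMap

@[simp] theorem iota_apply (x : Lˣ) :
    iota (K := K) A (Additive.ofMul x) = Additive.ofMul (inclUnits K L A x) := rfl

theorem iota_injective [Nontrivial A] : Function.Injective (iota (K := K) (L := L) A) := by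
  have hinj : Function.Injective (Algebra.TensorProduct.includeLeft : L →ₐ[K] L ⊗[K] A) :=
    Algebra.TensorProduct.includeLeft_injective (S := K) (algebraMap K A).injective
  intro x y h
  obtain ⟨x, rfl⟩ := Additive.ofMul.surjective x
  obtain ⟨y, rfl⟩ := Additive.ofMul.surjective y
  have h' : inclUnits K L A x = inclUnits K L A y := Additive.ofMul.injective h
  have h'' : ((inclUnits K L A x : (L ⊗[K] A)ˣ) : L ⊗[K] A) = (inclUnits K L A y : (L ⊗[K] A)ˣ) := by
    rw [h']
  rw [val_inclUnits, val_inclUnits] at h''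
  exact congrArg _ (Units.ext (hinj h''))

theorem iota_sigma (σ : L ≃ₐ[K] L) (x : Additive Lˣ) :
    iota (K := K) A (sigmaEnd K L σ x) = sigmaX A σ (iota (K := K) A x) := by
  obtain ⟨x, rfl⟩ := Additive.ofMul.surjective x
  rw [sigmaEnd_apply, iota_apply, iota_apply, sigmaX_apply, smul_inclUnits]
  congr 2

end transfer

section units

variable (K L : Type) [Field K] [NumberField K] [Field L] [NumberField L] [Algebra K L]
variable (A : Type) [CommRing A] [Algebra K A]

/-- The image of the `S`-units of `L` in `Additive (L ⊗[K] A)ˣ`. -/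
noncomputable def EX (S : Finset (HeightOneSpectrum (𝓞 L))) :
    Submodule ℤ (Additive (L ⊗[K] A)ˣ) :=
  (sUnits L S).map (iota (K := K) A)

theorem sigmaEnd_mem_sUnits (σ : L ≃ₐ[K] L) (S : Finset (HeightOneSpectrum (𝓞 L)))
    (hS : ∀ w ∈ S, primePerm K L σ w ∈ S) (x : Additive Lˣ) (hx : x ∈ sUnits L S) :
    sigmaEnd K L σ x ∈ sUnits L S := by
  obtain ⟨x, rfl⟩ := Additive.ofMul.surjective x
  intro v hv
  have hv' : (primePerm K L σ).symm v ∉ S := by
    intro h
    apply hv
    have := hS _ h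
    rwa [Equiv.apply_symm_apply] at this
  have := Fermat.Agent.S14.GalPrimes.ordM_primePerm K L σ ((primePerm K L σ).symm v) x
  rw [Equiv.apply_symm_apply] at this
  rw [this]
  exact hx _ hv'

theorem EX_stable (σ : L ≃ₐ[K] L) (S : Finset (HeightOneSpectrum (𝓞 L)))
    (hS : ∀ w ∈ S, primePerm K L σ w ∈ S) :
    ∀ x ∈ EX K L A S, sigmaX A σ x ∈ EX K L A S := by
  rintro _ ⟨x, hx, rfl⟩
  exact ⟨sigmaEnd K L σ x, sigmaEnd_mem_sUnits K L σ S hS x hx, iota_sigma A σ x⟩

instance EX_finite (S : Finset (HeightOneSpectrum (𝓞 L))) : Module.Finite ℤ (EX K L A S) :=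
  Module.Finite.map (sUnits L S) (iota (K := K) A)

theorem finrank_EX [Nontrivial A] (S : Finset (HeightOneSpectrum (𝓞 L))) :
    finrank ℤ (EX K L A S) = finrank ℤ (sUnits L S) :=
  (Submodule.equivMapOfInjective (iota (K := K) A) (iota_injective A) (sUnits L S)).finrank_eq.symm

theorem EX_inf_ker [Nontrivial A] (σ : L ≃ₐ[K] L) (S : Finset (HeightOneSpectrum (𝓞 L))) :
    (EX K L A S ⊓ LinearMap.ker (sigmaX A σ - 1) : Submodule ℤ (Additive (L ⊗[K] A)ˣ)) =
      (sUnits L S ⊓ LinearMap.ker (sigmaEnd K L σ - 1)).map (iota (K := K) A) := by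
  ext y
  simp only [Submodule.mem_inf, Submodule.mem_map, LinearMap.mem_ker, LinearMap.sub_apply,
    Module.End.one_apply, sub_eq_zero, EX]
  constructor
  · rintro ⟨⟨x, hx, rfl⟩, h⟩
    refine ⟨x, ⟨hx, ?_⟩, rfl⟩
    rw [← iota_sigma] at h
    exact iota_injective A h
  · rintro ⟨x, ⟨hx, h⟩, rfl⟩
    exact ⟨⟨x, hx, rfl⟩, by rw [← iota_sigma, h]⟩

theorem finrank_EX_inf_ker [Nontrivial A] (σ : L ≃ₐ[K] L) (S : Finset (HeightOneSpectrum (𝓞 L))) :
    finrank ℤ (EX K L A S ⊓ LinearMap.ker (sigmaX A σ - 1) : Submodule ℤ (Additive (L ⊗[K] A)ˣ)) =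
      finrank ℤ ↥(sUnits L S ⊓ LinearMap.ker (sigmaEnd K L σ - 1)) := by
  rw [EX_inf_ker]
  exact (Submodule.equivMapOfInjective (iota (K := K) (L := L) A) (iota_injective A)
    (sUnits L S ⊓ LinearMap.ker (sigmaEnd K L σ - 1))).finrank_eq.symm

end units

section identify

variable (K L : Type) [Field K] [NumberField K] [Field L] [NumberField L] [Algebra K L]

theorem coe_above (T : Finset (Place K)) :
    (above K L T : Set (HeightOneSpectrum (𝓞 L))) = placesAbove K L T := by
  ext w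
  rw [Finset.mem_coe, mem_above]
  constructor
  · intro h
    exact ⟨primeBelow K L w, h, (primeBelow_asIdeal K L w).symm⟩
  · rintro ⟨v, hv, h⟩
    have : primeBelow K L w = v := HeightOneSpectrum.ext (by rw [primeBelow_asIdeal, h])
    rw [this]; exact hv

theorem smul_units_eq (σ : L ≃ₐ[K] L) (y : Lˣ) :
    Additive.ofMul (σ • y) = sigmaEnd K L σ (Additive.ofMul y) := by
  rw [sigmaEnd_apply]
  congr 1

theorem mem_EUnits_iff (T : Finset (Place K)) (y : Lˣ) :
    y ∈ EUnits K L T ↔ Additive.ofMul y ∈ sUnits L (above K L T) := by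
  rw [mem_sUnits_iff_mem_unit, coe_above]
  constructor
  · intro h
    exact EUnits_le T h
  · intro h
    rw [mem_EUnits]
    intro σ
    have h1 : Additive.ofMul y ∈ sUnits L (above K L T) := by
      rw [mem_sUnits_iff_mem_unit, coe_above]; exact h
    have h2 := sigmaEnd_mem_sUnits K L σ (above K L T) (above_stable K L T σ) _ h1
    rw [← smul_units_eq, mem_sUnits_iff_mem_unit, coe_above] at h2
    exact h2

theorem mem_ESub_iff (T : Finset (Place K)) (x : Additive (L ⊗[K] KT K T)ˣ) :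
    (x ∈ ESub K L T) ↔ x ∈ EX K L (KT K T) (above K L T) := by
  constructor
  · intro h
    obtain ⟨y, hy, hyx⟩ := (mem_ESub (K := K) (L := L) (T := T) (a := x)).mp h
    refine ⟨Additive.ofMul y, (mem_EUnits_iff K L T y).mp hy, ?_⟩
    rw [iota_apply, hyx]
    rfl
  · rintro ⟨y, hy, rfl⟩
    obtain ⟨y, rfl⟩ := Additive.ofMul.surjective y
    exact (mem_ESub (K := K) (L := L) (T := T)).mpr
      ⟨y, (mem_EUnits_iff K L T y).mpr hy, rfl⟩

end identify

section main

theorem exists_place_above (K : Type) [Field K] [NumberField K] {p : ℕ} (hp : p.Prime) :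
    ∃ v : Place K, ((p : ℕ) : 𝓞 K) ∈ v.asIdeal := by
  have hp0 : (p : ℤ) ≠ 0 := by exact_mod_cast hp.ne_zero
  have hP : (Ideal.span {(p : ℤ)}).IsPrime :=
    (Ideal.span_singleton_prime hp0).mpr (Nat.prime_iff_prime_int.mp hp)
  obtain ⟨⟨Q, hQ, hlo⟩⟩ := Ideal.nonempty_primesOver (S := 𝓞 K) (Ideal.span {(p : ℤ)})
  have hne : Q ≠ ⊥ :=
    Ideal.ne_bot_of_liesOver_of_ne_bot (p := Ideal.span {(p : ℤ)})
      (by simpa using hp0) Q
  refine ⟨⟨Q, hQ, hne⟩, ?_⟩
  have h1 : (p : ℤ) ∈ Q.under ℤ := by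
    rw [← hlo.over]; exact Ideal.mem_span_singleton_self _
  have h2 : algebraMap ℤ (𝓞 K) (p : ℤ) ∈ Q := h1
  simpa using h2

/-- **The first inequality** `Blocks.FirstIneq p` from the two `T`-level semilocal inputs. -/
theorem firstIneq_of_T (p : ℕ) (h90 : SemilocalH90T p) (hni : SemilocalNormIndexT p) :
    Blocks.FirstIneq p := by
  intro K L _ _ _ _ _ _ T σ hs
  have hgal : IsGalois K L := hs.galois
  have hfact : Fact p.Prime := ⟨hs.prime⟩
  have hp := hs.prime
  have h3 : 3 ≤ p := by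
    have h2 := hp.two_le
    have hodd := hs.odd
    omega
  have hcx := UnramRecipGen.isComplex_of_primitiveRoot K h3 hs.zeta
  obtain ⟨v0, hv0⟩ := exists_place_above K hp
  have hv0T : v0 ∈ T := hs.adm.above_p v0 hv0
  have hinh : Inhabited T := ⟨⟨v0, hv0T⟩⟩
  have hnt : Nontrivial (KT K T) := Pi.nontrivial
  have hord : orderOf σ = p := by
    rw [orderOf_eq_card_of_forall_mem_zpowers hs.gen, IsGalois.card_aut_eq_finrank, hs.degree]
  have hσp : σ ^ p = 1 := by rw [← hord]; exact pow_orderOf_eq_one σ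
  have hσXp := sigmaX_pow_eq_one (KT K T) σ p hσp
  have hE := EX_stable K L (KT K T) σ (above K L T) (above_stable K L T σ)
  obtain ⟨r, b, hrk, hr, hnb⟩ := rank_data K L hp hs.degree hcx σ hs.gen T
  -- `H¹(J) = 0`
  have h1 : ∀ x, normEnd p (sigmaX (KT K T) σ) x = 0 →
      ∃ y, x = sigmaX (KT K T) σ y - y := by
    intro x hx
    obtain ⟨u, rfl⟩ := Additive.ofMul.surjective x
    rw [normEnd_sigmaX] at hx
    have hu : normU (KT K T) p σ u = 1 := Additive.ofMul.injective hx
    obtain ⟨y, hy⟩ := h90 K L σ hs.degree hs.gen T u hu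
    exact ⟨Additive.ofMul y, by rw [sigmaX_apply, hy]; rfl⟩
  -- `|Ĥ⁰(J)| = p ^ n`
  have h0 : qa (Dh (sigmaX (KT K T) σ)) (Nh p (sigmaX (KT K T) σ)) ⊤ = p ^ nonsplit K L T := by
    rw [← hni K L σ hs.degree hs.gen T]
    unfold qa normIndexAt
    rw [← Subgroup.relIndex_toAddSubgroup]
    congr 1
    · ext x
      obtain ⟨u, rfl⟩ := Additive.ofMul.surjective x
      constructor
      · rintro ⟨y, -, hy⟩
        obtain ⟨w, rfl⟩ := Additive.ofMul.surjective y
        have hy' : normEnd p (sigmaX (KT K T) σ) (Additive.ofMul w) = Additive.ofMul u := hy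
        rw [normEnd_sigmaX] at hy'
        exact ⟨w, Additive.ofMul.injective hy'⟩
      · rintro ⟨w, hw⟩
        refine ⟨Additive.ofMul w, AddSubgroup.mem_top _, ?_⟩
        change normEnd p (sigmaX (KT K T) σ) (Additive.ofMul w) = Additive.ofMul u
        rw [normEnd_sigmaX]
        exact congrArg _ hw
    · ext x
      obtain ⟨u, rfl⟩ := Additive.ofMul.surjective x
      rw [top_inf_eq]
      constructor
      · intro hx
        have hx' : (sigmaX (KT K T) σ - 1) (Additive.ofMul u) = 0 := hx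
        rw [LinearMap.sub_apply, Module.End.one_apply, sub_eq_zero, sigmaX_apply] at hx'
        exact Additive.ofMul.injective hx'
      · intro hx
        have hx' : σ • u = u := hx
        change (sigmaX (KT K T) σ - 1) (Additive.ofMul u) = 0
        rw [LinearMap.sub_apply, Module.End.one_apply, sub_eq_zero, sigmaX_apply, hx']
  -- the quotient presentation
  set π : Additive (L ⊗[K] KT K T)ˣ →+ (C K L T).V := ((ESub K L T).mkQ).toAddMonoidHom with hπ
  have hπs : Function.Surjective π := (ESub K L T).mkQ_surjective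
  have hker : π.ker = (EX K L (KT K T) (above K L T)).toAddSubgroup := by
    ext x
    rw [AddMonoidHom.mem_ker, Submodule.mem_toAddSubgroup, ← mem_ESub_iff]
    exact (Submodule.Quotient.mk_eq_zero (ESub K L T))
  set τ := (((C K L T).ρ σ : (C K L T).V →ₗ[ℤ] (C K L T).V).toAddMonoidHom).toIntLinearMap with hτ
  have hτπ : ∀ x, τ (π x) = π (sigmaX (KT K T) σ x) := fun x => rfl
  obtain ⟨k1, k2⟩ := FirstIneqAbs.first_ineq_quot p (sigmaX (KT K T) σ) hσXp
    (EX K L (KT K T) (above K L T)) hE (nonsplit K L T) r b h1 h0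
    (by rw [finrank_EX_inf_ker]; exact hr) (by rw [finrank_EX]; exact hrk) hnb π hπs hker τ hτπ
  -- identify with `Blocks.h0`, `Blocks.h1`
  have hτpow : ∀ (i : ℕ) (x : (C K L T).V), (τ ^ i) x = (C K L T).ρ (σ ^ i) x := by
    intro i
    induction i with
    | zero => intro x; rw [pow_zero, pow_zero, map_one]; rfl
    | succ k ih =>
      intro x
      rw [pow_succ', Module.End.mul_apply, ih, pow_succ', map_mul]
      rfl
  have hN : Nh p τ = Blocks.normC K L T := by
    ext x
    change (normEnd p τ) x = ∑ g : L ≃ₐ[K] L, (C K L T).ρ g x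
    unfold normEnd
    rw [LinearMap.sum_apply]
    classical
    rw [← IsCyclic.image_range_orderOf hs.gen, Finset.sum_image, hord]
    · exact Finset.sum_congr rfl (fun i _ => hτpow i x)
    · intro i hi j hj hij
      exact pow_injOn_Iio_orderOf (by simpa using hi) (by simpa using hj) hij
  have hD : Dh τ = Blocks.diffC K L T σ := by
    ext x
    change (τ - 1) x = (C K L T).ρ σ x - x
    rw [LinearMap.sub_apply, Module.End.one_apply]
    rfl
  have e0 : Blocks.h0 K L T σ = qa (Dh τ) (Nh p τ) ⊤ := by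
    unfold Blocks.h0 qa
    rw [hN, hD, top_inf_eq, ← AddMonoidHom.range_eq_map]
  have e1 : Blocks.h1 K L T σ = qa (Nh p τ) (Dh τ) ⊤ := by
    unfold Blocks.h1 qa
    rw [hN, hD, top_inf_eq, ← AddMonoidHom.range_eq_map]
  rw [e0, e1]
  refine ⟨?_, k1⟩
  rw [k1]
  exact mul_ne_zero hp.ne_zero k2

end main

end Fermat.Agent.S55.Global.FirstIneq
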