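import Mathlib
import Fermat.Agent.S55.Global.FirstIneq

/-!
# S55 / Global / G.first — from one place to `T`

`L ⊗[K] ∏_{v ∈ T} K_v = ∏_{v ∈ T} L ⊗[K] K_v`, equivariantly; hence the per-place semilocal inputs
`SemilocalH90 p`, `SemilocalNormIndex p` imply the `T`-level inputs, and
`firstIneq : SemilocalH90 p → SemilocalNormIndex p → Blocks.FirstIneq p`.
-/

set_option autoImplicit false
set_option linter.unusedSectionVars false
set_option linter.unusedVariables false

open NumberField IsDedekindDomain TensorProduct Module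

namespace Fermat.Agent.S55.Global.FirstIneqProd

open Fermat.Agent.S55.Global.Objects Fermat.Agent.S55.Global.FirstIneqDefs
open Fermat.Agent.S55.Global.SUnitHerbrand

/-! ### Index of a product of subgroups -/

section group

variable {ι : Type*} [Fintype ι] {G : ι → Type*} [∀ i, Group (G i)]

theorem index_pi' (H : ∀ i, Subgroup (G i)) :
    (Subgroup.pi Set.univ H).index = ∏ i, (H i).index := by
  simp_rw [Subgroup.index, ← Nat.card_pi]
  refine Nat.card_congr
    ((Quotient.congrRight (fun x y ↦ ?_)).trans (Setoid.piQuotientEquiv _).symm)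
  rw [QuotientGroup.leftRel_pi]

theorem relIndex_pi (H K : ∀ i, Subgroup (G i)) :
    (Subgroup.pi Set.univ H).relIndex (Subgroup.pi Set.univ K) = ∏ i, (H i).relIndex (K i) := by
  let φ : ↥(Subgroup.pi Set.univ K) →* ∀ i, ↥(K i) :=
    { toFun := fun x i => ⟨x.1 i, x.2 i (Set.mem_univ i)⟩
      map_one' := rfl
      map_mul' := fun _ _ => rfl }
  have hφ : Function.Surjective φ := by
    intro y
    exact ⟨⟨fun i => (y i).1, fun i _ => (y i).2⟩, rfl⟩
  have h1 : (Subgroup.pi Set.univ H).subgroupOf (Subgroup.pi Set.univ K) =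
      (Subgroup.pi Set.univ (fun i => (H i).subgroupOf (K i))).comap φ := by
    ext x
    simp only [Subgroup.mem_subgroupOf, Subgroup.mem_pi, Set.mem_univ, forall_true_left,
      Subgroup.mem_comap]
    rfl
  unfold Subgroup.relIndex
  rw [h1, Subgroup.index_comap_of_surjective _ hφ, index_pi']

end group

/-! ### `L ⊗[K] ∏ B i = ∏ L ⊗[K] B i` -/

section prod

variable {K L : Type} [Field K] [NumberField K] [Field L] [NumberField L] [Algebra K L]
variable {ι : Type} [Fintype ι] [DecidableEq ι] (B : ι → Type) [∀ i, CommRing (B i)]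
  [∀ i, Algebra K (B i)]

/-- `L ⊗[K] ∏ B i ≃ ∏ L ⊗[K] B i`. -/
noncomputable def eR : L ⊗[K] (∀ i, B i) ≃ₐ[K] ∀ i, L ⊗[K] B i :=
  Algebra.TensorProduct.piRight K K L B

theorem eR_smul (σ : L ≃ₐ[K] L) (z : L ⊗[K] (∀ i, B i)) (i : ι) :
    eR B (σ • z) i = σ • (eR B z i) := by
  induction z using TensorProduct.induction_on with
  | zero => simp
  | tmul x f => rfl
  | add x y hx hy => rw [smul_add, map_add, Pi.add_apply, hx, hy, map_add, Pi.add_apply, smul_add]

/-- The induced isomorphism on units. -/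
noncomputable def eU : (L ⊗[K] (∀ i, B i))ˣ ≃* ∀ i, (L ⊗[K] B i)ˣ :=
  (Units.mapEquiv (eR B).toMulEquiv).trans MulEquiv.piUnits

theorem eU_val (u : (L ⊗[K] (∀ i, B i))ˣ) (i : ι) :
    ((eU B u i : (L ⊗[K] B i)ˣ) : L ⊗[K] B i) = eR B (u : L ⊗[K] (∀ i, B i)) i := rfl

theorem eU_smul (σ : L ≃ₐ[K] L) (u : (L ⊗[K] (∀ i, B i))ˣ) (i : ι) :
    eU B (σ • u) i = σ • (eU B u i) := by
  apply Units.ext
  rw [eU_val, val_smul_units, val_smul_units, eU_val]
  exact eR_smul B σ _ i

theorem eU_normU (p : ℕ) (σ : L ≃ₐ[K] L) (u : (L ⊗[K] (∀ i, B i))ˣ) (i : ι) :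
    eU B (normU (∀ i, B i) p σ u) i = normU (B i) p σ (eU B u i) := by
  rw [normU_apply, normU_apply, map_prod, Finset.prod_apply]
  exact Finset.prod_congr rfl (fun j _ => eU_smul B (σ ^ j) u i)

theorem mem_fixedU_iff (σ : L ≃ₐ[K] L) (u : (L ⊗[K] (∀ i, B i))ˣ) :
    u ∈ fixedU (∀ i, B i) σ ↔ ∀ i, eU B u i ∈ fixedU (B i) σ := by
  simp only [mem_fixedU]
  constructor
  · intro h i
    rw [← eU_smul, h]
  · intro h
    apply (eU B).injective
    funext i
    rw [eU_smul, h i]

theorem mem_range_normU_iff (p : ℕ) (σ : L ≃ₐ[K] L) (u : (L ⊗[K] (∀ i, B i))ˣ) :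
    u ∈ (normU (∀ i, B i) p σ).range ↔ ∀ i, eU B u i ∈ (normU (B i) p σ).range := by
  constructor
  · rintro ⟨w, rfl⟩ i
    exact ⟨eU B w i, (eU_normU B p σ w i).symm⟩
  · intro h
    choose w hw using h
    refine ⟨(eU B).symm w, ?_⟩
    apply (eU B).injective
    funext i
    rw [eU_normU, MulEquiv.apply_symm_apply, hw i]

/-- Hilbert 90 for a finite product. -/
theorem h90_pi (p : ℕ) (σ : L ≃ₐ[K] L) (h : ∀ i, H90At (B i) p σ) : H90At (∀ i, B i) p σ := by
  intro u hu
  have hu' : ∀ i, normU (B i) p σ (eU B u i) = 1 := by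
    intro i
    rw [← eU_normU, hu]; rfl
  choose y hy using fun i => h i (eU B u i) (hu' i)
  refine ⟨(eU B).symm y, ?_⟩
  apply (eU B).injective
  funext i
  rw [map_div, Pi.div_apply, eU_smul, MulEquiv.apply_symm_apply, hy i]

/-- The norm index of a finite product is the product of the norm indices. -/
theorem normIndexAt_pi (p : ℕ) (σ : L ≃ₐ[K] L) :
    normIndexAt (∀ i, B i) p σ = ∏ i, normIndexAt (B i) p σ := by
  unfold normIndexAt
  rw [← relIndex_pi, ← Subgroup.relIndex_map_map_of_injective (f := (eU B).toMonoidHom) _ _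
    (eU B).injective]
  congr 1
  · ext w
    simp only [Subgroup.mem_map, Subgroup.mem_pi, Set.mem_univ, forall_true_left,
      MulEquiv.coe_toMonoidHom]
    constructor
    · rintro ⟨u, hu, rfl⟩
      exact (mem_range_normU_iff B p σ u).mp hu
    · intro hw
      refine ⟨(eU B).symm w, (mem_range_normU_iff B p σ _).mpr ?_, MulEquiv.apply_symm_apply _ _⟩
      intro i
      rw [MulEquiv.apply_symm_apply]; exact hw i
  · ext w
    simp only [Subgroup.mem_map, Subgroup.mem_pi, Set.mem_univ, forall_true_left,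
      MulEquiv.coe_toMonoidHom]
    constructor
    · rintro ⟨u, hu, rfl⟩
      exact (mem_fixedU_iff B σ u).mp hu
    · intro hw
      refine ⟨(eU B).symm w, (mem_fixedU_iff B σ _).mpr ?_, MulEquiv.apply_symm_apply _ _⟩
      intro i
      rw [MulEquiv.apply_symm_apply]; exact hw i

end prod

/-! ### From one place to `T` -/

section final

theorem h90T_of_place (p : ℕ) (h : SemilocalH90 p) : SemilocalH90T p := by
  intro K L _ _ _ _ _ _ σ hdeg hgen T
  classical
  exact h90_pi (fun v : T => (v : Place K).adicCompletion K) p σ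
    (fun v => h K L σ hdeg hgen (v : Place K))

theorem normIndexT_of_place (p : ℕ) (h : SemilocalNormIndex p) : SemilocalNormIndexT p := by
  intro K L _ _ _ _ _ _ σ hdeg hgen T
  classical
  have h1 : normIndexAt (KT K T) p σ =
      ∏ v : T, normIndexAt ((v : Place K).adicCompletion K) p σ :=
    normIndexAt_pi (fun v : T => (v : Place K).adicCompletion K) p σ
  rw [h1]
  have h2 : ∀ v : T, normIndexAt ((v : Place K).adicCompletion K) p σ =
      if (fiber K L (v : Place K)).ncard = 1 then p else 1 :=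
    fun v => h K L σ hdeg hgen (v : Place K)
  simp_rw [h2]
  rw [Finset.prod_coe_sort T (fun v => if (fiber K L v).ncard = 1 then p else 1),
    Finset.prod_ite, Finset.prod_const, Finset.prod_const_one, mul_one]
  unfold nonsplit
  congr 2

/-- **G.first**: the first inequality from the per-place semilocal inputs. -/
theorem firstIneq (p : ℕ) (h90 : SemilocalH90 p) (hni : SemilocalNormIndex p) :
    Blocks.FirstIneq p :=
  FirstIneq.firstIneq_of_T p (h90T_of_place p h90) (normIndexT_of_place p hni)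

end final

end Fermat.Agent.S55.Global.FirstIneqProd
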