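import Mathlib
import Fermat.Agent.S55.Global.Blocks2
import Fermat.Agent.S55.Global.FirstIneqProd

/-!
# S55 / Global / G.first for the `ℚ`-based interface v3: `Blocks2.FirstIneq p`

`J = (L ⊗[ℚ] ℚ_T)ˣ` with `σ ∈ Gal(L/K)` acting through `resHom K L σ ∈ Aut(L/ℚ)`.  The first
inequality `h0 = p · h1 ≠ 0` on `Cn K L T` from the two semilocal inputs per rational prime `q`:
`SemilocalH90Q p` (cyclic Hilbert 90 for `(L ⊗[ℚ] ℚ_q)ˣ`) and `SemilocalNormIndexQ p`
(`[((L ⊗ ℚ_q)ˣ)^σ : N] = p ^ #{places of K above q with exactly one place of L above them}`).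
-/

set_option autoImplicit false
set_option linter.unusedSectionVars false
set_option linter.unusedVariables false

open NumberField IsDedekindDomain TensorProduct Module

namespace Fermat.Agent.S55.Global.FirstIneq2

open Fermat.Agent.S55.Global.Objects Fermat.Agent.S55.Global.Objects2
open Fermat.Agent.S55.Global.FirstIneqDefs Fermat.Agent.S55.Global.FirstIneq
open Fermat.Agent.S14.HerbrandPrime Fermat.Agent.S14.NormIndexConcrete Fermat.Agent.S14.SUnitRanks
open Fermat.Agent.S55.Global.SUnitHerbrand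

/-! ### The places of `K` above a finite set of rational primes -/

section places

variable (K : Type) [Field K] [NumberField K]

theorem placesOverQ_finite (T : Finset Nat.Primes) :
    {v : Place K | ∃ q ∈ T, (((q : Nat.Primes) : ℕ) : 𝓞 K) ∈ v.asIdeal}.Finite := by
  have : {v : Place K | ∃ q ∈ T, (((q : Nat.Primes) : ℕ) : 𝓞 K) ∈ v.asIdeal} =
      ⋃ q ∈ T, {v : Place K | (((q : Nat.Primes) : ℕ) : 𝓞 K) ∈ v.asIdeal} := by
    ext v; simp
  rw [this]
  refine Set.Finite.biUnion T.finite_toSet (fun q _ => ?_)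
  have hq : (Ideal.span {(((q : Nat.Primes) : ℕ) : 𝓞 K)} : Ideal (𝓞 K)) ≠ 0 := by
    rw [Ne, Ideal.zero_eq_bot, Ideal.span_singleton_eq_bot]
    exact Nat.cast_ne_zero.mpr q.2.ne_zero
  refine (Ideal.finite_factors hq).subset ?_
  intro v hv
  exact Ideal.dvd_span_singleton.mpr hv

/-- The finite set of places of `K` above the rational primes in `T`. -/
noncomputable def placesOverQ (T : Finset Nat.Primes) : Finset (Place K) :=
  (placesOverQ_finite K T).toFinset

theorem mem_placesOverQ {T : Finset Nat.Primes} {v : Place K} :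
    v ∈ placesOverQ K T ↔ ∃ q ∈ T, (((q : Nat.Primes) : ℕ) : 𝓞 K) ∈ v.asIdeal := by
  simp [placesOverQ]

variable (L : Type) [Field L] [NumberField L] [Algebra K L]

theorem natCast_mem_primeBelow (w : Place L) (n : ℕ) :
    ((n : ℕ) : 𝓞 K) ∈ (primeBelow K L w).asIdeal ↔ ((n : ℕ) : 𝓞 L) ∈ w.asIdeal := by
  rw [Fermat.Agent.S14.GalPrimes.mem_primeBelow, map_natCast]

/-- The places of `L` above (the places of `K` above) `T` are the places of `L` above `T`. -/
theorem coe_above_placesOverQ (T : Finset Nat.Primes) :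
    (above K L (placesOverQ K T) : Set (Place L)) = placesAboveQ L T := by
  ext w
  rw [Finset.mem_coe, mem_above, mem_placesOverQ]
  constructor
  · rintro ⟨q, hq, h⟩
    exact ⟨q, hq, (natCast_mem_primeBelow K L w _).mp h⟩
  · rintro ⟨q, hq, h⟩
    exact ⟨q, hq, (natCast_mem_primeBelow K L w _).mpr h⟩

theorem mem_above_placesOverQ {T : Finset Nat.Primes} {w : Place L} :
    w ∈ above K L (placesOverQ K T) ↔ ∃ q ∈ T, (((q : Nat.Primes) : ℕ) : 𝓞 L) ∈ w.asIdeal := by
  rw [← Finset.mem_coe, coe_above_placesOverQ]; rfl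

end places

/-! ### The semilocal inputs (closed Props) -/

/-- **(SL-1)** per rational prime `q`: cyclic Hilbert 90 for `(L ⊗[ℚ] ℚ_q)ˣ` under `σ`. -/
def SemilocalH90Q (p : ℕ) : Prop :=
  ∀ (K L : Type) [Field K] [NumberField K] [Field L] [NumberField L] [Algebra K L] [IsGalois K L]
    (σ : L ≃ₐ[K] L), Module.finrank K L = p → (∀ τ : L ≃ₐ[K] L, τ ∈ Subgroup.zpowers σ) →
    ∀ q : Nat.Primes, H90At (K := ℚ) ℚ_[((q : Nat.Primes) : ℕ)] p (resHom K L σ)

/-- **(SL-0)** per rational prime `q`: `[((L ⊗[ℚ] ℚ_q)ˣ)^σ : N (L ⊗[ℚ] ℚ_q)ˣ] = p ^ n_q`, `n_q` the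
number of places of `K` above `q` with exactly one place of `L` above them. -/
def SemilocalNormIndexQ (p : ℕ) : Prop :=
  ∀ (K L : Type) [Field K] [NumberField K] [Field L] [NumberField L] [Algebra K L] [IsGalois K L]
    (σ : L ≃ₐ[K] L), Module.finrank K L = p → (∀ τ : L ≃ₐ[K] L, τ ∈ Subgroup.zpowers σ) →
    ∀ q : Nat.Primes, normIndexAt (K := ℚ) ℚ_[((q : Nat.Primes) : ℕ)] p (resHom K L σ) =
      p ^ nonsplit K L (placesOverQ K {q})

/-- **(SL-1)**, `T`-level. -/
def SemilocalH90QT (p : ℕ) : Prop :=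
  ∀ (K L : Type) [Field K] [NumberField K] [Field L] [NumberField L] [Algebra K L] [IsGalois K L]
    (σ : L ≃ₐ[K] L), Module.finrank K L = p → (∀ τ : L ≃ₐ[K] L, τ ∈ Subgroup.zpowers σ) →
    ∀ T : Finset Nat.Primes, H90At (K := ℚ) (QT T) p (resHom K L σ)

/-- **(SL-0)**, `T`-level. -/
def SemilocalNormIndexQT (p : ℕ) : Prop :=
  ∀ (K L : Type) [Field K] [NumberField K] [Field L] [NumberField L] [Algebra K L] [IsGalois K L]
    (σ : L ≃ₐ[K] L), Module.finrank K L = p → (∀ τ : L ≃ₐ[K] L, τ ∈ Subgroup.zpowers σ) →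
    ∀ T : Finset Nat.Primes, normIndexAt (K := ℚ) (QT T) p (resHom K L σ) =
      p ^ nonsplit K L (placesOverQ K T)

/-! ### Identification of the unit module -/

section identify

variable (K L : Type) [Field K] [NumberField K] [Field L] [NumberField L] [Algebra K L]

theorem sigmaEnd_resHom (σ : L ≃ₐ[K] L) : sigmaEnd ℚ L (resHom K L σ) = sigmaEnd K L σ := by
  ext x
  obtain ⟨x, rfl⟩ := Additive.ofMul.surjective x
  rfl

theorem above_placesOverQ_stable (T : Finset Nat.Primes) (σ' : L ≃ₐ[ℚ] L) :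
    ∀ w ∈ above K L (placesOverQ K T), primePerm ℚ L σ' w ∈ above K L (placesOverQ K T) := by
  intro w hw
  rw [mem_above_placesOverQ] at hw ⊢
  obtain ⟨q, hq, h⟩ := hw
  refine ⟨q, hq, ?_⟩
  rw [Fermat.Agent.S14.GalPrimes.mem_primePerm, map_natCast]
  exact h

theorem smul_units_eq' (σ' : L ≃ₐ[ℚ] L) (y : Lˣ) :
    Additive.ofMul (σ' • y) = sigmaEnd ℚ L σ' (Additive.ofMul y) := by
  rw [sigmaEnd_apply]
  congr 1

theorem mem_EUnitsQ_iff (T : Finset Nat.Primes) (y : Lˣ) :
    y ∈ EUnitsQ L T ↔ Additive.ofMul y ∈ sUnits L (above K L (placesOverQ K T)) := by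
  rw [mem_sUnits_iff_mem_unit, coe_above_placesOverQ]
  constructor
  · intro h
    exact EUnitsQ_le T h
  · intro h
    rw [mem_EUnitsQ]
    intro σ'
    have h1 : Additive.ofMul y ∈ sUnits L (above K L (placesOverQ K T)) := by
      rw [mem_sUnits_iff_mem_unit, coe_above_placesOverQ]; exact h
    have h2 := sigmaEnd_mem_sUnits ℚ L σ' (above K L (placesOverQ K T))
      (above_placesOverQ_stable K L T σ') _ h1
    rw [← smul_units_eq', mem_sUnits_iff_mem_unit, coe_above_placesOverQ] at h2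
    exact h2

theorem mem_ESubQ_iff (T : Finset Nat.Primes) (x : Additive (L ⊗[ℚ] QT T)ˣ) :
    (x ∈ ESubQ L T) ↔ x ∈ EX ℚ L (QT T) (above K L (placesOverQ K T)) := by
  constructor
  · intro h
    obtain ⟨y, hy, hyx⟩ := (mem_imageSub (K := ℚ) (L := L) (QT T) (a := x)).mp h
    refine ⟨Additive.ofMul y, (mem_EUnitsQ_iff K L T y).mp hy, ?_⟩
    rw [iota_apply, hyx]
    rfl
  · rintro ⟨y, hy, rfl⟩
    obtain ⟨y, rfl⟩ := Additive.ofMul.surjective y
    exact (mem_imageSub (K := ℚ) (L := L) (QT T)).mpr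
      ⟨y, (mem_EUnitsQ_iff K L T y).mpr hy, rfl⟩

end identify

/-! ### The first inequality -/

section main

/-- **The first inequality** `Blocks2.FirstIneq p` from the two `T`-level semilocal inputs. -/
theorem firstIneq_of_QT (p : ℕ) (h90 : SemilocalH90QT p) (hni : SemilocalNormIndexQT p) :
    Blocks2.FirstIneq p := by
  intro K L _ _ _ _ _ _ T σ hs
  have hgal : IsGalois K L := hs.galois
  have hfact : Fact p.Prime := ⟨hs.prime⟩
  have hp := hs.prime
  have h3 : 3 ≤ p := by
    have h2 := hp.two_le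
    have hodd := hs.odd
    omega
  have hcx := UnramRecipGen.isComplex_of_primitiveRoot K h3 hs.zeta
  obtain ⟨q0, hq0T, -⟩ := hs.adm.mem_p
  have hinh : Inhabited T := ⟨⟨q0, hq0T⟩⟩
  have hnt : Nontrivial (QT T) := Pi.nontrivial
  have hord : orderOf σ = p := by
    rw [orderOf_eq_card_of_forall_mem_zpowers hs.gen, IsGalois.card_aut_eq_finrank, hs.degree]
  have hσp : σ ^ p = 1 := by rw [← hord]; exact pow_orderOf_eq_one σ
  have hσ'p : (resHom K L σ) ^ p = 1 := by rw [← map_pow, hσp, map_one]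
  have hσXp := sigmaX_pow_eq_one (K := ℚ) (QT T) (resHom K L σ) p hσ'p
  have hE := EX_stable ℚ L (QT T) (resHom K L σ) (above K L (placesOverQ K T))
    (above_placesOverQ_stable K L T (resHom K L σ))
  obtain ⟨r, b, hrk, hr, hnb⟩ := rank_data K L hp hs.degree hcx σ hs.gen (placesOverQ K T)
  -- `H¹(J) = 0`
  have h1 : ∀ x, normEnd p (sigmaX (K := ℚ) (QT T) (resHom K L σ)) x = 0 →
      ∃ y, x = sigmaX (K := ℚ) (QT T) (resHom K L σ) y - y := by
    intro x hx
    obtain ⟨u, rfl⟩ := Additive.ofMul.surjective x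
    rw [normEnd_sigmaX] at hx
    have hu : normU (K := ℚ) (QT T) p (resHom K L σ) u = 1 := Additive.ofMul.injective hx
    obtain ⟨y, hy⟩ := h90 K L σ hs.degree hs.gen T u hu
    exact ⟨Additive.ofMul y, by rw [sigmaX_apply, hy]; rfl⟩
  -- `|Ĥ⁰(J)| = p ^ n`
  have h0 : qa (Dh (sigmaX (K := ℚ) (QT T) (resHom K L σ)))
      (Nh p (sigmaX (K := ℚ) (QT T) (resHom K L σ))) ⊤ =
      p ^ nonsplit K L (placesOverQ K T) := by
    rw [← hni K L σ hs.degree hs.gen T]
    unfold qa normIndexAt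
    rw [← Subgroup.relIndex_toAddSubgroup]
    congr 1
    · ext x
      obtain ⟨u, rfl⟩ := Additive.ofMul.surjective x
      constructor
      · rintro ⟨y, -, hy⟩
        obtain ⟨w, rfl⟩ := Additive.ofMul.surjective y
        have hy' : normEnd p (sigmaX (K := ℚ) (QT T) (resHom K L σ)) (Additive.ofMul w) =
            Additive.ofMul u := hy
        rw [normEnd_sigmaX] at hy'
        exact ⟨w, Additive.ofMul.injective hy'⟩
      · rintro ⟨w, hw⟩
        refine ⟨Additive.ofMul w, AddSubgroup.mem_top _, ?_⟩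
        change normEnd p (sigmaX (K := ℚ) (QT T) (resHom K L σ)) (Additive.ofMul w) =
          Additive.ofMul u
        rw [normEnd_sigmaX]
        exact congrArg _ hw
    · ext x
      obtain ⟨u, rfl⟩ := Additive.ofMul.surjective x
      rw [top_inf_eq]
      constructor
      · intro hx
        have hx' : (sigmaX (K := ℚ) (QT T) (resHom K L σ) - 1) (Additive.ofMul u) = 0 := hx
        rw [LinearMap.sub_apply, Module.End.one_apply, sub_eq_zero, sigmaX_apply] at hx'
        exact Additive.ofMul.injective hx'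
      · intro hx
        have hx' : (resHom K L σ) • u = u := hx
        change (sigmaX (K := ℚ) (QT T) (resHom K L σ) - 1) (Additive.ofMul u) = 0
        rw [LinearMap.sub_apply, Module.End.one_apply, sub_eq_zero, sigmaX_apply, hx']
  -- the quotient presentation
  set π : Additive (L ⊗[ℚ] QT T)ˣ →+ (Cn K L T).V := ((ESubQ L T).mkQ).toAddMonoidHom with hπ
  have hπs : Function.Surjective π := (ESubQ L T).mkQ_surjective
  have hker : π.ker = (EX ℚ L (QT T) (above K L (placesOverQ K T))).toAddSubgroup := by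
    ext x
    have h1 : x ∈ π.ker ↔ x ∈ ESubQ L T := by
      rw [AddMonoidHom.mem_ker]
      exact Submodule.Quotient.mk_eq_zero (ESubQ L T)
    rw [h1, mem_ESubQ_iff K L T x]
    rfl
  set τ := (((Cn K L T).ρ σ : (Cn K L T).V →ₗ[ℤ] (Cn K L T).V).toAddMonoidHom).toIntLinearMap
    with hτ
  have hτπ : ∀ x, τ (π x) = π (sigmaX (K := ℚ) (QT T) (resHom K L σ) x) := fun x => rfl
  obtain ⟨k1, k2⟩ := FirstIneqAbs.first_ineq_quot p (sigmaX (K := ℚ) (QT T) (resHom K L σ)) hσXp
    (EX ℚ L (QT T) (above K L (placesOverQ K T))) hE (nonsplit K L (placesOverQ K T)) r b h1 h0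
    (by rw [finrank_EX_inf_ker, sigmaEnd_resHom]; exact hr) (by rw [finrank_EX]; exact hrk) hnb
    π hπs hker τ hτπ
  -- identify with `Blocks2.h0`, `Blocks2.h1`
  have hτpow : ∀ (i : ℕ) (x : (Cn K L T).V), (τ ^ i) x = (Cn K L T).ρ (σ ^ i) x := by
    intro i
    induction i with
    | zero => intro x; rw [pow_zero, pow_zero, map_one]; rfl
    | succ k ih =>
      intro x
      rw [pow_succ', Module.End.mul_apply, ih, pow_succ', map_mul]
      rfl
  have hN : Nh p τ = Blocks2.normC K L T := by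
    ext x
    change (normEnd p τ) x = ∑ g : L ≃ₐ[K] L, (Cn K L T).ρ g x
    unfold normEnd
    rw [LinearMap.sum_apply]
    classical
    rw [← IsCyclic.image_range_orderOf hs.gen, Finset.sum_image, hord]
    · exact Finset.sum_congr rfl (fun i _ => hτpow i x)
    · intro i hi j hj hij
      exact pow_injOn_Iio_orderOf (by simpa using hi) (by simpa using hj) hij
  have hD : Dh τ = Blocks2.diffC K L T σ := by
    ext x
    change (τ - 1) x = (Cn K L T).ρ σ x - x
    rw [LinearMap.sub_apply, Module.End.one_apply]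
    rfl
  have e0 : Blocks2.h0 K L T σ = qa (Dh τ) (Nh p τ) ⊤ := by
    unfold Blocks2.h0 qa
    rw [hN, hD, top_inf_eq, ← AddMonoidHom.range_eq_map]
  have e1 : Blocks2.h1 K L T σ = qa (Nh p τ) (Dh τ) ⊤ := by
    unfold Blocks2.h1 qa
    rw [hN, hD, top_inf_eq, ← AddMonoidHom.range_eq_map]
  rw [e0, e1]
  refine ⟨?_, k1⟩
  rw [k1]
  exact mul_ne_zero hp.ne_zero k2

end main

/-! ### From one rational prime to `T` -/

section final

variable (K L : Type) [Field K] [NumberField K] [Field L] [NumberField L] [Algebra K L]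

theorem placesOverQ_disjoint {q q' : Nat.Primes} (hne : q ≠ q') :
    Disjoint (placesOverQ K {q}) (placesOverQ K {q'}) := by
  rw [Finset.disjoint_left]
  intro v hv hv'
  rw [mem_placesOverQ] at hv hv'
  obtain ⟨q1, hq1, h1⟩ := hv
  obtain ⟨q2, hq2, h2⟩ := hv'
  rw [Finset.mem_singleton] at hq1 hq2
  subst hq1 hq2
  have hcop : Nat.Coprime (q1 : ℕ) (q2 : ℕ) :=
    (Nat.coprime_primes q1.2 q2.2).mpr (fun h => hne (Subtype.ext h))
  obtain ⟨a, b, hab⟩ := (Nat.isCoprime_iff_coprime.mpr hcop : IsCoprime ((q1 : ℕ) : ℤ) ((q2 : ℕ) : ℤ))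
  have h3 : ((a : ℤ) : 𝓞 K) * (((q1 : Nat.Primes) : ℕ) : 𝓞 K) +
      ((b : ℤ) : 𝓞 K) * (((q2 : Nat.Primes) : ℕ) : 𝓞 K) = 1 := by
    have := congrArg (Int.cast : ℤ → 𝓞 K) hab
    push_cast at this
    exact this
  have h4 : (1 : 𝓞 K) ∈ v.asIdeal := by
    rw [← h3]
    exact v.asIdeal.add_mem (v.asIdeal.mul_mem_left _ h1) (v.asIdeal.mul_mem_left _ h2)
  exact v.isPrime.ne_top ((Ideal.eq_top_iff_one _).mpr h4)

theorem placesOverQ_eq_biUnion [DecidableEq (Place K)] (T : Finset Nat.Primes) :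
    placesOverQ K T = T.biUnion (fun q => placesOverQ K {q}) := by
  ext v
  simp only [mem_placesOverQ, Finset.mem_biUnion, Finset.mem_singleton]
  constructor
  · rintro ⟨q, hq, h⟩
    exact ⟨q, hq, q, rfl, h⟩
  · rintro ⟨q, hq, q', rfl, h⟩
    exact ⟨q', hq, h⟩

theorem nonsplit_placesOverQ (T : Finset Nat.Primes) :
    nonsplit K L (placesOverQ K T) = ∑ q ∈ T, nonsplit K L (placesOverQ K {q}) := by
  classical
  unfold nonsplit
  rw [placesOverQ_eq_biUnion K T, Finset.filter_biUnion, Finset.card_biUnion]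
  intro q _ q' _ hne
  exact Finset.disjoint_filter_filter (placesOverQ_disjoint K hne)

theorem h90QT_of_q (p : ℕ) (h : SemilocalH90Q p) : SemilocalH90QT p := by
  intro K L _ _ _ _ _ _ σ hdeg hgen T
  classical
  exact FirstIneqProd.h90_pi (K := ℚ) (fun q : T => ℚ_[((q : Nat.Primes) : ℕ)]) p (resHom K L σ)
    (fun q => h K L σ hdeg hgen (q : Nat.Primes))

theorem normIndexQT_of_q (p : ℕ) (h : SemilocalNormIndexQ p) : SemilocalNormIndexQT p := by
  intro K L _ _ _ _ _ _ σ hdeg hgen T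
  classical
  have h1 : normIndexAt (K := ℚ) (QT T) p (resHom K L σ) =
      ∏ q : T, normIndexAt (K := ℚ) ℚ_[((q : Nat.Primes) : ℕ)] p (resHom K L σ) :=
    FirstIneqProd.normIndexAt_pi (K := ℚ) (fun q : T => ℚ_[((q : Nat.Primes) : ℕ)]) p
      (resHom K L σ)
  rw [h1]
  have h2 : ∀ q : T, normIndexAt (K := ℚ) ℚ_[((q : Nat.Primes) : ℕ)] p (resHom K L σ) =
      p ^ nonsplit K L (placesOverQ K {(q : Nat.Primes)}) :=
    fun q => h K L σ hdeg hgen (q : Nat.Primes)
  simp_rw [h2]
  rw [Finset.prod_coe_sort T (fun q => p ^ nonsplit K L (placesOverQ K {q})),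
    Finset.prod_pow_eq_pow_sum, nonsplit_placesOverQ]

/-- **G.first (interface v3)**: the first inequality from the semilocal inputs per rational prime. -/
theorem firstIneq (p : ℕ) (h90 : SemilocalH90Q p) (hni : SemilocalNormIndexQ p) :
    Blocks2.FirstIneq p :=
  firstIneq_of_QT p (h90QT_of_q p h90) (normIndexQT_of_q p hni)

end final

end Fermat.Agent.S55.Global.FirstIneq2
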