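/-
S55 / Global / G.semilocal — (SL-1) in the `ℚ`-based interface v3 (helper23).

For number fields `K ⊆ L` (NO Galois hypothesis), `G = Gal(L/K) = L ≃ₐ[K] L` acting on
`L ⊗[ℚ] A` through `resHom K L : (L ≃ₐ[K] L) →* (L ≃ₐ[ℚ] L)` and the `Objects` action on the left
factor, for every commutative `ℚ`-algebra `A` with `L ⊗[ℚ] A` reduced Artinian — in particular
`A = QT T = ∏_{q ∈ T} ℚ_[q]` (`Objects2`):

* `h90_cocycle`   : every `c : G → (L ⊗[ℚ] A)ˣ` with `c (g * h) = g • c h * c g` is `g ↦ g • y / y`;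
* `h90_cyclic`    : `G = ⟨σ⟩`, `∏_{i < orderOf σ} σ^i • u = 1 ⇒ u = σ • y / y`;
* `h90_cyclic_p`  : same with `Finset.range p`, `p = [L : K]`, `L/K` Galois (helper31's `H90At` shape);
* `isZero_H1`     : `IsZero (groupCohomology (Rep.res (resHom K L) (JRep ℚ L A)) 1)`;
* `isArtinianRing_QT`, `isReduced_QT` (instances), `isZero_H1_Jn : IsZero (groupCohomology (Jn K L T) 1)`.
-/
import Fermat.Agent.S55.Global.Objects2
import Fermat.Agent.S55.Global.SemilocalH90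

set_option linter.unusedSectionVars false
set_option linter.style.haveILetI false

namespace Fermat.Agent.S55.Global.SemilocalH90Q

open scoped TensorProduct
open NumberField CategoryTheory CategoryTheory.Limits groupCohomology
open Fermat.Agent.S55.Global.Objects Fermat.Agent.S55.Global.Objects2

/-- `IsZero H¹` from "every 1-cocycle is a 1-coboundary". -/
theorem isZero_H1_of_forall {G : Type} [Group G] (M : Rep ℤ G)
    (h : ∀ f : G → M, f ∈ cocycles₁ M → f ∈ coboundaries₁ M) :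
    IsZero (groupCohomology M 1) := by
  have hsub : Subsingleton (H1 M) := by
    refine ⟨fun a b => ?_⟩
    suffices h0 : ∀ a : H1 M, a = 0 by rw [h0 a, h0 b]
    intro a
    refine H1_induction_on a fun x => (H1π_eq_zero_iff _).2 ?_
    exact h x x.2
  exact ModuleCat.isZero_of_subsingleton _

variable (K L : Type) [Field K] [NumberField K] [Field L] [NumberField L] [Algebra K L]

section generic

variable (A : Type) [CommRing A] [Algebra ℚ A]

theorem finite_gal : Finite (L ≃ₐ[K] L) := by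
  have : FiniteDimensional K L := Module.Finite.of_restrictScalars_finite ℚ K L
  infer_instance

/-- `Gal(L/K)` acting on `L ⊗[ℚ] A` through `resHom` and the left factor. -/
@[reducible] noncomputable def actK : MulSemiringAction (L ≃ₐ[K] L) (L ⊗[ℚ] A) :=
  MulSemiringAction.compHom _ (resHom K L)

/-- `Gal(L/K)` acting on `(L ⊗[ℚ] A)ˣ`. -/
@[reducible] noncomputable def actKU : MulDistribMulAction (L ≃ₐ[K] L) (L ⊗[ℚ] A)ˣ :=
  MulDistribMulAction.compHom _ (resHom K L)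

variable [IsArtinianRing (L ⊗[ℚ] A)] [IsReduced (L ⊗[ℚ] A)]

/-- **(SL-1), cocycle form.** -/
theorem h90_cocycle (c : (L ≃ₐ[K] L) → (L ⊗[ℚ] A)ˣ)
    (hc : ∀ g h : L ≃ₐ[K] L, c (g * h) = resHom K L g • c h * c g) :
    ∃ y : (L ⊗[ℚ] A)ˣ, ∀ g : L ≃ₐ[K] L, resHom K L g • y / y = c g := by
  letI := actK K L A
  letI := actKU K L A
  haveI := finite_gal K L
  have hact : ∀ (g : L ≃ₐ[K] L) (l : L) (a : A),
      g • (l ⊗ₜ[ℚ] a : L ⊗[ℚ] A) = (g • l) ⊗ₜ[ℚ] a := fun _ _ _ => rfl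
  have hB : ∀ (g : L ≃ₐ[K] L) (u : (L ⊗[ℚ] A)ˣ),
      ((g • u : (L ⊗[ℚ] A)ˣ) : L ⊗[ℚ] A) = g • (u : L ⊗[ℚ] A) := fun _ _ => rfl
  exact SemilocalH90.hilbert90_tensor (k := ℚ) hact hB c hc

/-- **(SL-1), cyclic form.** -/
theorem h90_cyclic (σ : L ≃ₐ[K] L) (hσ : ∀ τ : L ≃ₐ[K] L, τ ∈ Subgroup.zpowers σ)
    (u : (L ⊗[ℚ] A)ˣ)
    (hu : ∏ i ∈ Finset.range (orderOf σ), (resHom K L σ) ^ i • u = 1) :
    ∃ y : (L ⊗[ℚ] A)ˣ, u = resHom K L σ • y / y := by
  letI := actK K L A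
  letI := actKU K L A
  haveI := finite_gal K L
  have hact : ∀ (g : L ≃ₐ[K] L) (l : L) (a : A),
      g • (l ⊗ₜ[ℚ] a : L ⊗[ℚ] A) = (g • l) ⊗ₜ[ℚ] a := fun _ _ _ => rfl
  have hB : ∀ (g : L ≃ₐ[K] L) (u : (L ⊗[ℚ] A)ˣ),
      ((g • u : (L ⊗[ℚ] A)ˣ) : L ⊗[ℚ] A) = g • (u : L ⊗[ℚ] A) := fun _ _ => rfl
  refine SemilocalH90.hilbert90_cyclic_tensor (k := ℚ) hact hB σ hσ u ?_
  have h1 : ∀ i : ℕ, σ ^ i • u = (resHom K L σ) ^ i • u := by
    intro i
    show resHom K L (σ ^ i) • u = _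
    rw [map_pow]
  simp only [h1]
  exact hu

/-- **(SL-1), cyclic form for `L/K` Galois cyclic of degree `p`** (helper31's `H90At` shape). -/
theorem h90_cyclic_p [IsGalois K L] (p : ℕ) (hp : Module.finrank K L = p) (σ : L ≃ₐ[K] L)
    (hσ : ∀ τ : L ≃ₐ[K] L, τ ∈ Subgroup.zpowers σ) (u : (L ⊗[ℚ] A)ˣ)
    (hu : ∏ i ∈ Finset.range p, (resHom K L σ) ^ i • u = 1) :
    ∃ y : (L ⊗[ℚ] A)ˣ, u = resHom K L σ • y / y := by
  have : FiniteDimensional K L := Module.Finite.of_restrictScalars_finite ℚ K L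
  have hord : orderOf σ = p := by
    rw [← hp, ← IsGalois.card_aut_eq_finrank K L, ← Nat.card_zpowers]
    have : Subgroup.zpowers σ = ⊤ := by
      rw [eq_top_iff]; intro τ _; exact hσ τ
    rw [this, Subgroup.card_top]
  exact h90_cyclic K L A σ hσ u (by rw [hord]; exact hu)

/-- **`H¹(Gal(L/K), (L ⊗[ℚ] A)ˣ) = 0`.** -/
theorem isZero_H1 : IsZero (groupCohomology (Rep.res (resHom K L) (JRep ℚ L A)) 1) := by
  apply isZero_H1_of_forall
  intro f hf
  have hf' := (mem_cocycles₁_iff f).1 hf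
  let c : (L ≃ₐ[K] L) → (L ⊗[ℚ] A)ˣ := fun g => Additive.toMul (f g : Additive (L ⊗[ℚ] A)ˣ)
  obtain ⟨y, hy⟩ := h90_cocycle K L A c (fun g h => hf' g h)
  refine ⟨(Additive.ofMul y : Additive (L ⊗[ℚ] A)ˣ), ?_⟩
  funext g
  exact congrArg Additive.ofMul (hy g)

end generic

section QT

variable (T : Finset Nat.Primes)

instance isArtinianRing_QT : IsArtinianRing (L ⊗[ℚ] QT T) :=
  SemilocalH90.isArtinianRing_tensor_pi ℚ L (fun q : T => ℚ_[((q : Nat.Primes) : ℕ)])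

instance isReduced_QT : IsReduced (L ⊗[ℚ] QT T) :=
  SemilocalH90.isReduced_tensor_pi ℚ L (fun q : T => ℚ_[((q : Nat.Primes) : ℕ)])

/-- **`H¹(Gal(L/K), J_{L,T}) = 0`** for `Jn K L T = (L ⊗[ℚ] ℚ_T)ˣ`. -/
theorem isZero_H1_Jn : IsZero (groupCohomology (Jn K L T) 1) :=
  isZero_H1 K L (QT T)

/-! For the cyclic forms at `A := QT T` use `h90_cyclic K L (QT T)` / `h90_cyclic_p K L (QT T)`;
the two instances above discharge the reduced-Artinian hypotheses. -/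

end QT

end Fermat.Agent.S55.Global.SemilocalH90Q
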