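import Mathlib
import Fermat.Agent.S55.Global.FirstIneq2
import Fermat.Agent.S55.Global.SemilocalH90Q

/-!
# S55 / Global / G.first — (SL-1) discharged

`FirstIneq2.SemilocalH90QT p` (cyclic Hilbert 90 for `(L ⊗[ℚ] ℚ_T)ˣ`) from helper23's
`SemilocalH90Q.h90_cyclic_p`; hence `Blocks2.FirstIneq p` from the norm index input alone.
-/

set_option autoImplicit false
set_option linter.unusedSectionVars false

open NumberField TensorProduct

namespace Fermat.Agent.S55.Global.FirstIneq2H90

open Fermat.Agent.S55.Global.Objects Fermat.Agent.S55.Global.Objects2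
open Fermat.Agent.S55.Global.FirstIneqDefs Fermat.Agent.S55.Global.FirstIneq2

/-- **(SL-1)**, `T`-level, unconditional. -/
theorem semilocalH90QT (p : ℕ) : SemilocalH90QT p := by
  intro K L _ _ _ _ _ _ σ hdeg hgen T u hu
  exact SemilocalH90Q.h90_cyclic_p K L (QT T) p hdeg σ hgen u hu

/-- The first inequality from the `T`-level norm index input alone. -/
theorem firstIneq_of_normIndexQT (p : ℕ) (hni : SemilocalNormIndexQT p) : Blocks2.FirstIneq p :=
  firstIneq_of_QT p (semilocalH90QT p) hni

/-- The first inequality from the per-prime norm index input alone. -/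
theorem firstIneq_of_normIndexQ (p : ℕ) (hni : SemilocalNormIndexQ p) : Blocks2.FirstIneq p :=
  firstIneq_of_QT p (semilocalH90QT p) (normIndexQT_of_q p hni)

end Fermat.Agent.S55.Global.FirstIneq2H90
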