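/-
S55 / Global / G.dec.bij — PLACES ABOVE `q` ↔ MAXIMAL IDEALS OF `E ⊗[ℚ] ℚ_[q]` (helper71).

`E` a number field, `q` a prime, `A := E ⊗[ℚ] ℚ_[q]`.  A *factor* of `A` (vocabulary of helper50's
`G.dec`) is a field `Ω` with `[Algebra ℚ_[q] Ω] [Algebra.IsAlgebraic ℚ_[q] Ω]` and a ring hom
`φ : A →+* Ω` with `hφ : ∀ c, φ (1 ⊗ₜ c) = algebraMap ℚ_[q] Ω c` (e.g. `Ω = A ⧸ m`, `m` maximal).
`nu φ x := spectralNorm ℚ_[q] Ω (φ (x ⊗ₜ 1))` for `x : E`.

Everything is deduced from helper79's `Middle/CompletionCompare.lean` by embedding `Ω` into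
`PadicAlgCl q` (the spectral norm only depends on the minimal polynomial, and the norm of
`PadicAlgCl q` is the spectral norm):

* `emb φ : E →+* PadicAlgCl q`, `norm_emb : ‖emb φ x‖ = nu φ x`;
* `nu_mul`, `nu_add_le`, `nu_int_le_one` (integers have `nu ≤ 1`), `nu_natCast_q`;
* `placeOf φ : HeightOneSpectrum (𝓞 E)` with `mem_placeOf : r ∈ (placeOf φ).asIdeal ↔ nu φ r < 1`,
  `natCast_mem_placeOf`; valuation comparison `valuation_le_one_iff` (`≤ 1`, `< 1`, `= 1`);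
* **`placeOf_eq_iff_ker_eq`** : `placeOf φ₁ = placeOf φ₂ ↔ RingHom.ker φ₁ = RingHom.ker φ₂`
  (INJECTIVITY of `m ↦ u(m)` and independence of the chosen factor);
* **`exists_maximal`** : every `u` above `q` is `placeOf φ` for all factors `φ` whose kernel is a
  certain maximal ideal `m` (SURJECTIVITY);  `exists_unique_maximal` packages both;
* **`dense`** : `E` is dense in every factor `Ω = φ(A)`.
-/
import Mathlib
import Fermat.Agent.S55.Middle.CompletionCompare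

set_option autoImplicit false
set_option linter.unusedSectionVars false
set_option linter.style.haveILetI false

namespace Fermat.Agent.S55.Global.PlaceBij

open NumberField IsDedekindDomain
open scoped TensorProduct NumberField
open Fermat.Agent.S55.Middle

variable {q : ℕ} [Fact q.Prime] {E : Type*} [Field E] [NumberField E]

section Factor

variable {Ω : Type*} [Field Ω] [Algebra ℚ_[q] Ω] [Algebra.IsAlgebraic ℚ_[q] Ω]
  (φ : E ⊗[ℚ] ℚ_[q] →+* Ω)

/-- The seminorm on `E` induced by a factor. -/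
noncomputable def nu (x : E) : ℝ := spectralNorm ℚ_[q] Ω (φ (x ⊗ₜ[ℚ] (1 : ℚ_[q])))

/-- A `ℚ_[q]`-embedding of the factor into `PadicAlgCl q`. -/
noncomputable def iota (Ω : Type*) [Field Ω] [Algebra ℚ_[q] Ω] [Algebra.IsAlgebraic ℚ_[q] Ω] :
    Ω →ₐ[ℚ_[q]] PadicAlgCl q :=
  IsAlgClosed.lift

theorem iota_injective : Function.Injective (iota (q := q) Ω) := (iota Ω).toRingHom.injective

theorem norm_iota (y : Ω) : ‖iota (q := q) Ω y‖ = spectralNorm ℚ_[q] Ω y := by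
  rw [← PadicAlgCl.spectralNorm_eq]
  unfold spectralNorm
  rw [minpoly.algHom_eq (iota Ω) iota_injective y]

/-- The embedding `E → PadicAlgCl q` attached to a factor. -/
noncomputable def emb : E →+* PadicAlgCl q :=
  ((iota (q := q) Ω).toRingHom.comp φ).comp Algebra.TensorProduct.includeLeftRingHom

theorem emb_apply (x : E) : emb φ x = iota Ω (φ (x ⊗ₜ[ℚ] (1 : ℚ_[q]))) := rfl

theorem norm_emb (x : E) : ‖emb φ x‖ = nu φ x := by
  rw [emb_apply, norm_iota]; rfl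

theorem nu_mul (x y : E) : nu φ (x * y) = nu φ x * nu φ y := by
  rw [← norm_emb, ← norm_emb, ← norm_emb, map_mul, norm_mul]

theorem nu_add_le (x y : E) : nu φ (x + y) ≤ max (nu φ x) (nu φ y) := by
  rw [← norm_emb, ← norm_emb, ← norm_emb, map_add]
  exact IsUltrametricDist.norm_add_le_max _ _

theorem nu_zero : nu φ 0 = 0 := by rw [← norm_emb, map_zero, norm_zero]

theorem nu_one : nu φ 1 = 1 := by rw [← norm_emb, map_one, norm_one]

theorem nu_nonneg (x : E) : 0 ≤ nu φ x := by rw [← norm_emb]; exact norm_nonneg _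

theorem nu_eq_zero_iff (x : E) : nu φ x = 0 ↔ x = 0 := by
  rw [← norm_emb, norm_eq_zero, map_eq_zero]

theorem nu_int_le_one (r : 𝓞 E) : nu φ (algebraMap (𝓞 E) E r) ≤ 1 := by
  rw [← norm_emb]; exact CompletionCompare.norm_map_integer_le_one _ r

theorem nu_natCast_q : nu φ ((q : ℕ) : E) = (q : ℝ)⁻¹ := by
  rw [← norm_emb]; exact CompletionCompare.norm_map_natCast_q _

/-- The place of `E` cut out by a factor: `{r ∈ 𝓞 E | nu φ r < 1}`. -/
noncomputable def placeOf : HeightOneSpectrum (𝓞 E) := CompletionCompare.place (emb φ)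

theorem mem_placeOf (r : 𝓞 E) :
    r ∈ (placeOf φ).asIdeal ↔ nu φ (algebraMap (𝓞 E) E r) < 1 := by
  rw [placeOf, CompletionCompare.place_asIdeal, CompletionCompare.mem_placeIdeal, norm_emb]

theorem natCast_mem_placeOf : ((q : ℕ) : 𝓞 E) ∈ (placeOf φ).asIdeal :=
  CompletionCompare.natCast_q_mem_placeIdeal _

theorem valuation_le_one_iff (x : E) : (placeOf φ).valuation E x ≤ 1 ↔ nu φ x ≤ 1 := by
  rw [← norm_emb]; exact CompletionCompare.valuation_le_one_iff _ x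

theorem valuation_lt_one_iff (x : E) : (placeOf φ).valuation E x < 1 ↔ nu φ x < 1 := by
  rw [← norm_emb]; exact CompletionCompare.valuation_lt_one_iff _ x

theorem valuation_eq_one_iff (x : E) : (placeOf φ).valuation E x = 1 ↔ nu φ x = 1 := by
  have h1 := valuation_le_one_iff φ x
  have h2 := valuation_lt_one_iff φ x
  constructor
  · intro h
    exact le_antisymm (h1.mp h.le) (not_lt.mp fun hlt => (h2.mpr hlt).ne h)
  · intro h
    exact le_antisymm (h1.mpr h.le) (not_lt.mp fun hlt => (h2.mp hlt).ne h)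

theorem valuation_le_iff (x y : E) :
    (placeOf φ).valuation E x ≤ (placeOf φ).valuation E y ↔ nu φ x ≤ nu φ y := by
  rw [← norm_emb, ← norm_emb]; exact CompletionCompare.valuation_le_iff _ x y

/-- A place is characterised by its ideal. -/
theorem placeOf_eq_iff (u : HeightOneSpectrum (𝓞 E)) :
    placeOf φ = u ↔ ∀ r : 𝓞 E, r ∈ u.asIdeal ↔ nu φ (algebraMap (𝓞 E) E r) < 1 := by
  constructor
  · rintro rfl r
    exact mem_placeOf φ r
  · intro h
    apply HeightOneSpectrum.ext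
    ext r
    rw [mem_placeOf, h]

end Factor

section Polynomial

variable {Ω : Type*} [Field Ω] [Algebra ℚ_[q] Ω]
  (φ : E ⊗[ℚ] ℚ_[q] →+* Ω) (hφ : ∀ c : ℚ_[q], φ ((1 : E) ⊗ₜ[ℚ] c) = algebraMap ℚ_[q] Ω c)

include hφ in
/-- `aeval (φ z) P = φ (P(z))` where the coefficients act through `c ↦ 1 ⊗ c`. -/
theorem aeval_eq (z : E ⊗[ℚ] ℚ_[q]) (P : Polynomial ℚ_[q]) :
    Polynomial.aeval (φ z) P =
      φ (Polynomial.eval₂ (Algebra.TensorProduct.includeRight : ℚ_[q] →ₐ[ℚ] E ⊗[ℚ] ℚ_[q]).toRingHom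
        z P) := by
  rw [Polynomial.hom_eval₂, Polynomial.aeval_def]
  congr 1
  ext c
  exact (hφ c).symm

end Polynomial

section Bijection

variable {Ω₁ : Type*} [Field Ω₁] [Algebra ℚ_[q] Ω₁] [Algebra.IsAlgebraic ℚ_[q] Ω₁]
  (φ₁ : E ⊗[ℚ] ℚ_[q] →+* Ω₁) (hφ₁ : ∀ c : ℚ_[q], φ₁ ((1 : E) ⊗ₜ[ℚ] c) = algebraMap ℚ_[q] Ω₁ c)
  {Ω₂ : Type*} [Field Ω₂] [Algebra ℚ_[q] Ω₂] [Algebra.IsAlgebraic ℚ_[q] Ω₂]
  (φ₂ : E ⊗[ℚ] ℚ_[q] →+* Ω₂) (hφ₂ : ∀ c : ℚ_[q], φ₂ ((1 : E) ⊗ₜ[ℚ] c) = algebraMap ℚ_[q] Ω₂ c)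

include hφ₁ hφ₂ in
/-- Factors with the same kernel induce the same seminorm on `E` (indeed on all of `A`). -/
theorem spectralNorm_eq_of_ker_eq (h : RingHom.ker φ₁ = RingHom.ker φ₂) (z : E ⊗[ℚ] ℚ_[q]) :
    spectralNorm ℚ_[q] Ω₁ (φ₁ z) = spectralNorm ℚ_[q] Ω₂ (φ₂ z) := by
  unfold spectralNorm
  congr 1
  have key : ∀ P : Polynomial ℚ_[q],
      Polynomial.aeval (φ₁ z) P = 0 ↔ Polynomial.aeval (φ₂ z) P = 0 := by
    intro P
    rw [aeval_eq φ₁ hφ₁, aeval_eq φ₂ hφ₂, ← RingHom.mem_ker, ← RingHom.mem_ker, h]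
  have h1 : IsIntegral ℚ_[q] (φ₁ z) := Algebra.IsIntegral.isIntegral _
  have h2 : IsIntegral ℚ_[q] (φ₂ z) := Algebra.IsIntegral.isIntegral _
  apply Polynomial.eq_of_monic_of_associated (minpoly.monic h1) (minpoly.monic h2)
  apply associated_of_dvd_dvd
  · exact minpoly.dvd _ _ ((key _).mpr (minpoly.aeval _ _))
  · exact minpoly.dvd _ _ ((key _).mp (minpoly.aeval _ _))

include hφ₁ hφ₂ in
theorem nu_eq_of_ker_eq (h : RingHom.ker φ₁ = RingHom.ker φ₂) (x : E) : nu φ₁ x = nu φ₂ x :=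
  spectralNorm_eq_of_ker_eq φ₁ hφ₁ φ₂ hφ₂ h _

include hφ₁ hφ₂ in
/-- **Places ↔ maximal ideals, injectivity and well-definedness**: two factors cut out the same
place of `E` iff they have the same kernel. -/
theorem placeOf_eq_iff_ker_eq : placeOf φ₁ = placeOf φ₂ ↔ RingHom.ker φ₁ = RingHom.ker φ₂ := by
  constructor
  · intro h
    obtain ⟨τ, hτ⟩ := (CompletionCompare.place_eq_iff (emb φ₁) (emb φ₂)).mp h
    -- the two ring homs `A → PadicAlgCl q`
    have hfun : ∀ z : E ⊗[ℚ] ℚ_[q], τ (iota Ω₁ (φ₁ z)) = iota Ω₂ (φ₂ z) := by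
      intro z
      induction z using TensorProduct.induction_on with
      | zero => simp
      | tmul x c =>
        have hx : x ⊗ₜ[ℚ] c = (x ⊗ₜ[ℚ] (1 : ℚ_[q])) * ((1 : E) ⊗ₜ[ℚ] c) := by
          rw [Algebra.TensorProduct.tmul_mul_tmul, mul_one, one_mul]
        rw [hx, map_mul, map_mul, map_mul, map_mul, map_mul, hφ₁, hφ₂, AlgHom.commutes,
          AlgHom.commutes, AlgEquiv.commutes]
        congr 1
        exact hτ x
      | add a b ha hb => rw [map_add, map_add, map_add, map_add, map_add, ha, hb]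
    ext z
    rw [RingHom.mem_ker, RingHom.mem_ker]
    constructor
    · intro hz
      have := hfun z
      rw [hz, map_zero, map_zero] at this
      exact (map_eq_zero_iff _ iota_injective).mp this.symm
    · intro hz
      have := hfun z
      rw [hz, map_zero] at this
      exact (map_eq_zero_iff _ iota_injective).mp ((map_eq_zero_iff _ τ.injective).mp this)
  · intro h
    rw [placeOf_eq_iff]
    intro r
    rw [mem_placeOf, nu_eq_of_ker_eq φ₁ hφ₁ φ₂ hφ₂ h]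

end Bijection

section Surjectivity

/-- `E ⊗[ℚ] ℚ_[q]` is Artinian. -/
theorem isArtinianRing_semi (E : Type*) [Field E] [NumberField E] (q : ℕ) [Fact q.Prime] :
    IsArtinianRing (E ⊗[ℚ] ℚ_[q]) := by
  have h1 : IsArtinianRing (ℚ_[q] ⊗[ℚ] E) := by
    have : Module.Finite ℚ_[q] (ℚ_[q] ⊗[ℚ] E) := inferInstance
    exact IsArtinianRing.of_finite ℚ_[q] _
  exact (Algebra.TensorProduct.comm ℚ ℚ_[q] E).toRingEquiv.surjective.isArtinianRing

/-- The ring hom `E ⊗[ℚ] ℚ_[q] → PadicAlgCl q`, `x ⊗ c ↦ e x * c`, attached to an embedding. -/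
noncomputable def ofEmb (e : E →+* PadicAlgCl q) : E ⊗[ℚ] ℚ_[q] →+* PadicAlgCl q :=
  (Algebra.TensorProduct.productMap e.toRatAlgHom
    ((Algebra.ofId ℚ_[q] (PadicAlgCl q)).restrictScalars ℚ)).toRingHom

theorem ofEmb_tmul (e : E →+* PadicAlgCl q) (x : E) (c : ℚ_[q]) :
    ofEmb e (x ⊗ₜ[ℚ] c) = e x * algebraMap ℚ_[q] (PadicAlgCl q) c := by
  unfold ofEmb
  simp only [AlgHom.toRingHom_eq_coe, RingHom.coe_coe,
    Algebra.TensorProduct.productMap_apply_tmul]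
  rfl

theorem ofEmb_one_tmul (e : E →+* PadicAlgCl q) (c : ℚ_[q]) :
    ofEmb e ((1 : E) ⊗ₜ[ℚ] c) = algebraMap ℚ_[q] (PadicAlgCl q) c := by
  rw [ofEmb_tmul, map_one, one_mul]

theorem nu_ofEmb (e : E →+* PadicAlgCl q) (x : E) : nu (ofEmb e) x = ‖e x‖ := by
  unfold nu
  rw [ofEmb_tmul, map_one, mul_one, PadicAlgCl.spectralNorm_eq]

/-- the kernel of `ofEmb e` is a maximal ideal. -/
theorem ker_ofEmb_isMaximal (e : E →+* PadicAlgCl q) : (RingHom.ker (ofEmb e)).IsMaximal := by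
  have := isArtinianRing_semi E q
  have : (RingHom.ker (ofEmb e)).IsPrime := RingHom.ker_isPrime _
  exact IsArtinianRing.isMaximal_of_isPrime _

theorem placeOf_ofEmb (e : E →+* PadicAlgCl q) : placeOf (ofEmb e) = CompletionCompare.place e := by
  rw [placeOf_eq_iff]
  intro r
  rw [nu_ofEmb, CompletionCompare.place_asIdeal, CompletionCompare.mem_placeIdeal]

/-- **Surjectivity**: every prime `u` of `𝓞 E` above `q` is the place of a maximal ideal `m` of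
`E ⊗[ℚ] ℚ_[q]`, i.e. of every factor with kernel `m`. -/
theorem exists_maximal (u : HeightOneSpectrum (𝓞 E)) (hu : ((q : ℕ) : 𝓞 E) ∈ u.asIdeal) :
    ∃ m : Ideal (E ⊗[ℚ] ℚ_[q]), m.IsMaximal ∧
      ∀ {Ω : Type*} [Field Ω] [Algebra ℚ_[q] Ω] [Algebra.IsAlgebraic ℚ_[q] Ω]
        (φ : E ⊗[ℚ] ℚ_[q] →+* Ω),
        (∀ c : ℚ_[q], φ ((1 : E) ⊗ₜ[ℚ] c) = algebraMap ℚ_[q] Ω c) → RingHom.ker φ = m →
        placeOf φ = u := by
  let i : E →+* AlgebraicClosure ℚ := (IsAlgClosed.lift : E →ₐ[ℚ] AlgebraicClosure ℚ).toRingHom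
  obtain ⟨g, hg⟩ := CompletionCompare.exists_place_eq (q := q) i u hu
  set e : E →+* PadicAlgCl q :=
    ((padicEmbedding q).toRingHom.comp (g : AlgebraicClosure ℚ →+* AlgebraicClosure ℚ)).comp i
    with he
  refine ⟨RingHom.ker (ofEmb e), ker_ofEmb_isMaximal e, ?_⟩
  intro Ω _ _ _ φ hφ hker
  rw [(placeOf_eq_iff_ker_eq φ hφ (ofEmb e) (ofEmb_one_tmul e)).mpr hker, placeOf_ofEmb, hg]

end Surjectivity

section Density

variable {Ω : Type*} [Field Ω] [Algebra ℚ_[q] Ω] [Algebra.IsAlgebraic ℚ_[q] Ω]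
  (φ : E ⊗[ℚ] ℚ_[q] →+* Ω) (hφ : ∀ c : ℚ_[q], φ ((1 : E) ⊗ₜ[ℚ] c) = algebraMap ℚ_[q] Ω c)

include hφ in
theorem iota_mem_localFieldOf (z : E ⊗[ℚ] ℚ_[q]) :
    iota Ω (φ z) ∈ CompletionCompare.localFieldOf (emb φ) := by
  induction z using TensorProduct.induction_on with
  | zero => simp
  | tmul x c =>
    have hx : x ⊗ₜ[ℚ] c = (x ⊗ₜ[ℚ] (1 : ℚ_[q])) * ((1 : E) ⊗ₜ[ℚ] c) := by
      rw [Algebra.TensorProduct.tmul_mul_tmul, mul_one, one_mul]
    rw [hx, map_mul, map_mul, hφ, AlgHom.commutes]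
    exact mul_mem (CompletionCompare.map_mem_localFieldOf (emb φ) x)
      ((CompletionCompare.localFieldOf (emb φ)).algebraMap_mem c)
  | add a b ha hb =>
    rw [map_add, map_add]
    exact add_mem ha hb

include hφ in
/-- **Density**: `E` is dense in the image of every factor, for the spectral norm. -/
theorem dense (z : E ⊗[ℚ] ℚ_[q]) {ε : ℝ} (hε : 0 < ε) :
    ∃ x : E, spectralNorm ℚ_[q] Ω (φ z - φ (x ⊗ₜ[ℚ] (1 : ℚ_[q]))) < ε := by
  have h1 := CompletionCompare.localFieldOf_le_closure (emb φ) (iota_mem_localFieldOf φ hφ z)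
  rw [Metric.mem_closure_iff] at h1
  obtain ⟨_, ⟨x, rfl⟩, hx⟩ := h1 ε hε
  refine ⟨x, ?_⟩
  rw [← norm_iota, map_sub, ← dist_eq_norm]
  exact hx

include hφ in
/-- Density, for a surjective factor. -/
theorem dense_of_surjective (hsurj : Function.Surjective φ) (y : Ω) {ε : ℝ} (hε : 0 < ε) :
    ∃ x : E, spectralNorm ℚ_[q] Ω (y - φ (x ⊗ₜ[ℚ] (1 : ℚ_[q]))) < ε := by
  obtain ⟨z, rfl⟩ := hsurj y
  exact dense φ hφ z hε

end Density

section Towers

variable {L : Type*} [Field L] [NumberField L] [Algebra E L]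
  {Ω : Type*} [Field Ω] [Algebra ℚ_[q] Ω] [Algebra.IsAlgebraic ℚ_[q] Ω]
  (ψ : L ⊗[ℚ] ℚ_[q] →+* Ω)

/-- Base change `E ⊗[ℚ] ℚ_[q] → L ⊗[ℚ] ℚ_[q]`. -/
noncomputable def baseChange (E L : Type*) [Field E] [NumberField E] [Field L] [NumberField L]
    [Algebra E L] (q : ℕ) [Fact q.Prime] : E ⊗[ℚ] ℚ_[q] →+* L ⊗[ℚ] ℚ_[q] :=
  (Algebra.TensorProduct.map ((algebraMap E L).toRatAlgHom) (AlgHom.id ℚ ℚ_[q])).toRingHom

@[simp] theorem baseChange_tmul (x : E) (c : ℚ_[q]) :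
    baseChange E L q (x ⊗ₜ[ℚ] c) = algebraMap E L x ⊗ₜ[ℚ] c := rfl

/-- The factor of `E ⊗ ℚ_[q]` below a factor of `L ⊗ ℚ_[q]`. -/
noncomputable def below : E ⊗[ℚ] ℚ_[q] →+* Ω := ψ.comp (baseChange E L q)

theorem below_one_tmul (hψ : ∀ c : ℚ_[q], ψ ((1 : L) ⊗ₜ[ℚ] c) = algebraMap ℚ_[q] Ω c)
    (c : ℚ_[q]) : below (E := E) ψ ((1 : E) ⊗ₜ[ℚ] c) = algebraMap ℚ_[q] Ω c := by
  rw [below, RingHom.comp_apply, baseChange_tmul, map_one, hψ]

theorem nu_below (x : E) : nu (below (E := E) ψ) x = nu ψ (algebraMap E L x) := rfl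

theorem ker_below : RingHom.ker (below (E := E) ψ) = (RingHom.ker ψ).comap (baseChange E L q) :=
  rfl

/-- **Towers**: the place of `E` below the place of a factor of `L ⊗ ℚ_[q]` is the place of the
induced factor of `E ⊗ ℚ_[q]`. -/
theorem placeOf_below :
    (placeOf (below (E := E) ψ)).asIdeal = (placeOf ψ).asIdeal.comap (algebraMap (𝓞 E) (𝓞 L)) := by
  ext r
  rw [Ideal.mem_comap, mem_placeOf, mem_placeOf, nu_below]
  rfl

end Towers

section Equivariance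

variable {Ω : Type*} [Field Ω] [Algebra ℚ_[q] Ω] [Algebra.IsAlgebraic ℚ_[q] Ω]
  (φ : E ⊗[ℚ] ℚ_[q] →+* Ω)

/-- Twist of a factor by an automorphism of `E`. -/
noncomputable def twist (σ : E ≃ₐ[ℚ] E) : E ⊗[ℚ] ℚ_[q] →+* Ω :=
  φ.comp (Algebra.TensorProduct.map (σ : E →ₐ[ℚ] E) (AlgHom.id ℚ ℚ_[q])).toRingHom

theorem twist_one_tmul (hφ : ∀ c : ℚ_[q], φ ((1 : E) ⊗ₜ[ℚ] c) = algebraMap ℚ_[q] Ω c)
    (σ : E ≃ₐ[ℚ] E) (c : ℚ_[q]) : twist φ σ ((1 : E) ⊗ₜ[ℚ] c) = algebraMap ℚ_[q] Ω c := by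
  have : twist φ σ ((1 : E) ⊗ₜ[ℚ] c) = φ ((σ 1) ⊗ₜ[ℚ] c) := rfl
  rw [this, map_one, hφ]

theorem nu_twist (σ : E ≃ₐ[ℚ] E) (x : E) : nu (twist φ σ) x = nu φ (σ x) := rfl

/-- **Equivariance**: `r ∈ place (φ ∘ (σ ⊗ 1)) ↔ σ r ∈ place φ`. -/
theorem mem_placeOf_twist (σ : E ≃ₐ[ℚ] E) (r : 𝓞 E) :
    r ∈ (placeOf (twist φ σ)).asIdeal ↔
      nu φ (σ (algebraMap (𝓞 E) E r)) < 1 := by
  rw [mem_placeOf, nu_twist]

end Equivariance

section MaxSpec

/-! ### The maximal spectrum of `E ⊗[ℚ] ℚ_[q]` (helper23 / helper78 conventions: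
`Algebra.TensorProduct.rightAlgebra`, residue field `(E ⊗[ℚ] ℚ_[q]) ⧸ m`). -/

attribute [local instance] Algebra.TensorProduct.rightAlgebra

theorem finite_semi (E : Type*) [Field E] [NumberField E] (q : ℕ) [Fact q.Prime] :
    Module.Finite ℚ_[q] (E ⊗[ℚ] ℚ_[q]) :=
  Module.Finite.of_surjective (Algebra.TensorProduct.commRight ℚ ℚ_[q] E).toLinearMap
    (Algebra.TensorProduct.commRight ℚ ℚ_[q] E).surjective

theorem isAlgebraic_quot (m : Ideal (E ⊗[ℚ] ℚ_[q])) :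
    Algebra.IsAlgebraic ℚ_[q] ((E ⊗[ℚ] ℚ_[q]) ⧸ m) := by
  have := finite_semi E q
  have : Module.Finite ℚ_[q] ((E ⊗[ℚ] ℚ_[q]) ⧸ m) :=
    Module.Finite.of_surjective (Ideal.Quotient.mkₐ ℚ_[q] m).toLinearMap
      (Ideal.Quotient.mkₐ_surjective ℚ_[q] m)
  exact Algebra.IsAlgebraic.of_finite _ _

/-- The place of `E` attached to a maximal ideal of `E ⊗[ℚ] ℚ_[q]`. -/
noncomputable def placeOfMax (m : Ideal (E ⊗[ℚ] ℚ_[q])) [m.IsMaximal] : HeightOneSpectrum (𝓞 E) :=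
  letI := Ideal.Quotient.field m
  haveI := isAlgebraic_quot m
  placeOf (Ideal.Quotient.mk m)

/-- The seminorm of `E` attached to a maximal ideal: the spectral norm of the residue field. -/
noncomputable def nuMax (m : Ideal (E ⊗[ℚ] ℚ_[q])) [m.IsMaximal] (x : E) : ℝ :=
  letI := Ideal.Quotient.field m
  spectralNorm ℚ_[q] ((E ⊗[ℚ] ℚ_[q]) ⧸ m) (Ideal.Quotient.mk m (x ⊗ₜ[ℚ] (1 : ℚ_[q])))

theorem mem_placeOfMax (m : Ideal (E ⊗[ℚ] ℚ_[q])) [m.IsMaximal] (r : 𝓞 E) :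
    r ∈ (placeOfMax m).asIdeal ↔ nuMax m (algebraMap (𝓞 E) E r) < 1 := by
  letI := Ideal.Quotient.field m
  haveI := isAlgebraic_quot m
  exact mem_placeOf (Ideal.Quotient.mk m) r

theorem natCast_mem_placeOfMax (m : Ideal (E ⊗[ℚ] ℚ_[q])) [m.IsMaximal] :
    ((q : ℕ) : 𝓞 E) ∈ (placeOfMax m).asIdeal := by
  letI := Ideal.Quotient.field m
  haveI := isAlgebraic_quot m
  exact natCast_mem_placeOf (Ideal.Quotient.mk m)

theorem valuation_le_one_iff_max (m : Ideal (E ⊗[ℚ] ℚ_[q])) [m.IsMaximal] (x : E) :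
    (placeOfMax m).valuation E x ≤ 1 ↔ nuMax m x ≤ 1 := by
  letI := Ideal.Quotient.field m
  haveI := isAlgebraic_quot m
  exact valuation_le_one_iff (Ideal.Quotient.mk m) x

theorem valuation_lt_one_iff_max (m : Ideal (E ⊗[ℚ] ℚ_[q])) [m.IsMaximal] (x : E) :
    (placeOfMax m).valuation E x < 1 ↔ nuMax m x < 1 := by
  letI := Ideal.Quotient.field m
  haveI := isAlgebraic_quot m
  exact valuation_lt_one_iff (Ideal.Quotient.mk m) x

/-- **Unit criterion**: `x` is a unit at `u(m)` iff its image in the residue field at `m` has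
spectral norm one. -/
theorem valuation_eq_one_iff_max (m : Ideal (E ⊗[ℚ] ℚ_[q])) [m.IsMaximal] (x : E) :
    (placeOfMax m).valuation E x = 1 ↔ nuMax m x = 1 := by
  letI := Ideal.Quotient.field m
  haveI := isAlgebraic_quot m
  exact valuation_eq_one_iff (Ideal.Quotient.mk m) x

/-- Any factor with kernel `m` computes `placeOfMax m`. -/
theorem placeOf_eq_placeOfMax (m : Ideal (E ⊗[ℚ] ℚ_[q])) [m.IsMaximal]
    {Ω : Type*} [Field Ω] [Algebra ℚ_[q] Ω] [Algebra.IsAlgebraic ℚ_[q] Ω]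
    (φ : E ⊗[ℚ] ℚ_[q] →+* Ω) (hφ : ∀ c : ℚ_[q], φ ((1 : E) ⊗ₜ[ℚ] c) = algebraMap ℚ_[q] Ω c)
    (hker : RingHom.ker φ = m) : placeOf φ = placeOfMax m := by
  letI := Ideal.Quotient.field m
  haveI := isAlgebraic_quot m
  refine (placeOf_eq_iff_ker_eq φ hφ (Ideal.Quotient.mk m) (fun c => rfl)).mpr ?_
  rw [hker, Ideal.mk_ker]

/-- **Injectivity** of `m ↦ u(m)`. -/
theorem placeOfMax_injective (m m' : Ideal (E ⊗[ℚ] ℚ_[q])) [m.IsMaximal] [m'.IsMaximal]
    (h : placeOfMax m = placeOfMax m') : m = m' := by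
  letI := Ideal.Quotient.field m
  haveI := isAlgebraic_quot m
  letI := Ideal.Quotient.field m'
  haveI := isAlgebraic_quot m'
  have := (placeOf_eq_iff_ker_eq (Ideal.Quotient.mk m) (fun c => rfl)
    (Ideal.Quotient.mk m') (fun c => rfl)).mp h
  rwa [Ideal.mk_ker, Ideal.mk_ker] at this

/-- **Surjectivity** of `m ↦ u(m)` onto the primes above `q`. -/
theorem exists_placeOfMax_eq (u : HeightOneSpectrum (𝓞 E)) (hu : ((q : ℕ) : 𝓞 E) ∈ u.asIdeal) :
    ∃ (m : Ideal (E ⊗[ℚ] ℚ_[q])) (_ : m.IsMaximal), placeOfMax m = u := by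
  obtain ⟨m, hm, h⟩ := exists_maximal (q := q) u hu
  refine ⟨m, hm, ?_⟩
  letI := Ideal.Quotient.field m
  haveI := isAlgebraic_quot m
  exact h (Ideal.Quotient.mk m) (fun c => rfl) Ideal.mk_ker

/-- **G.dec, the bijection**: maximal ideals of `E ⊗[ℚ] ℚ_[q]` ↔ primes of `𝓞 E` above `q`. -/
noncomputable def maxSpecEquiv (E : Type*) [Field E] [NumberField E] (q : ℕ) [Fact q.Prime] :
    {m : Ideal (E ⊗[ℚ] ℚ_[q]) // m.IsMaximal} ≃
      {u : HeightOneSpectrum (𝓞 E) // ((q : ℕ) : 𝓞 E) ∈ u.asIdeal} :=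
  Equiv.ofBijective
    (fun m => haveI := m.2; ⟨placeOfMax m.1, natCast_mem_placeOfMax m.1⟩)
    ⟨fun m m' h => by
        haveI := m.2
        haveI := m'.2
        exact Subtype.ext (placeOfMax_injective m.1 m'.1 (congrArg Subtype.val h)),
      fun u => by
        obtain ⟨m, hm, h⟩ := exists_placeOfMax_eq (q := q) u.1 u.2
        exact ⟨⟨m, hm⟩, Subtype.ext h⟩⟩

theorem maxSpecEquiv_apply (m : {m : Ideal (E ⊗[ℚ] ℚ_[q]) // m.IsMaximal}) :
    ((maxSpecEquiv E q m : {u : HeightOneSpectrum (𝓞 E) // ((q : ℕ) : 𝓞 E) ∈ u.asIdeal}) :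
      HeightOneSpectrum (𝓞 E)) = @placeOfMax q _ E _ _ m.1 m.2 := rfl

/-- Density of `E` in the residue field at `m`. -/
theorem dense_max (m : Ideal (E ⊗[ℚ] ℚ_[q])) [m.IsMaximal] (y : (E ⊗[ℚ] ℚ_[q]) ⧸ m)
    {ε : ℝ} (hε : 0 < ε) :
    letI := Ideal.Quotient.field m
    ∃ x : E, spectralNorm ℚ_[q] ((E ⊗[ℚ] ℚ_[q]) ⧸ m)
      (y - Ideal.Quotient.mk m (x ⊗ₜ[ℚ] (1 : ℚ_[q]))) < ε := by
  letI := Ideal.Quotient.field m
  haveI := isAlgebraic_quot m
  exact dense_of_surjective (Ideal.Quotient.mk m) (fun c => rfl) Ideal.Quotient.mk_surjective y hε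

/-- **Towers**: for `E ⊆ L`, `M` maximal in `L ⊗ ℚ_[q]`, `m` maximal in `E ⊗ ℚ_[q]`:
`M` lies over `m` iff the prime `u(M)` of `𝓞 L` lies over the prime `u(m)` of `𝓞 E`. -/
theorem comap_eq_iff_placeOfMax {L : Type*} [Field L] [NumberField L] [Algebra E L]
    (M : Ideal (L ⊗[ℚ] ℚ_[q])) [M.IsMaximal] (m : Ideal (E ⊗[ℚ] ℚ_[q])) [m.IsMaximal] :
    M.comap (baseChange E L q) = m ↔
      (placeOfMax M).asIdeal.comap (algebraMap (𝓞 E) (𝓞 L)) = (placeOfMax m).asIdeal := by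
  letI := Ideal.Quotient.field M
  haveI := isAlgebraic_quot M
  have hb : ∀ c : ℚ_[q], below (E := E) (Ideal.Quotient.mk M) ((1 : E) ⊗ₜ[ℚ] c) =
      algebraMap ℚ_[q] ((L ⊗[ℚ] ℚ_[q]) ⧸ M) c :=
    below_one_tmul (E := E) (Ideal.Quotient.mk M) (fun c => rfl)
  have hk : RingHom.ker (below (E := E) (Ideal.Quotient.mk M)) = M.comap (baseChange E L q) := by
    rw [ker_below, Ideal.mk_ker]
  have hpl : (placeOfMax M).asIdeal.comap (algebraMap (𝓞 E) (𝓞 L)) =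
      (placeOf (below (E := E) (Ideal.Quotient.mk M))).asIdeal :=
    (placeOf_below (E := E) (Ideal.Quotient.mk M)).symm
  rw [hpl]
  constructor
  · intro h
    rw [placeOf_eq_placeOfMax m _ hb (hk.trans h)]
  · intro h
    letI := Ideal.Quotient.field m
    haveI := isAlgebraic_quot m
    have h2 : placeOf (below (E := E) (Ideal.Quotient.mk M)) = placeOf (Ideal.Quotient.mk m) :=
      HeightOneSpectrum.ext h
    have := (placeOf_eq_iff_ker_eq _ hb (Ideal.Quotient.mk m) (fun c => rfl)).mp h2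
    rwa [hk, Ideal.mk_ker] at this

end MaxSpec

end Fermat.Agent.S55.Global.PlaceBij
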