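/-
S55 / Global / G.dec — COUNTING FORMS of `PlaceBij.maxSpecEquiv` for the consumers (helper71).

* `card_maxSpec E q : Nat.card {m : Ideal (E ⊗[ℚ] ℚ_[q]) // m.IsMaximal} = (placesOverQ E {q}).card`
  (the shape asked for by helper31, `placesOverQ` of `Global/FirstIneq2.lean`);
* `fiberEquiv m` : maximal ideals `M` of `L ⊗[ℚ] ℚ_[q]` over a maximal ideal `m` of `E ⊗[ℚ] ℚ_[q]`
  ↔ primes of `𝓞 L` above the prime `placeOfMax m` of `𝓞 E` (`SUnitHerbrand.fiber`);
  `card_fiber`, `unique_over_iff` (exactly one `M` over `m` ⇔ exactly one prime above `u(m)`).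
-/
import Mathlib
import Fermat.Agent.S55.Global.PlaceBij
import Fermat.Agent.S55.Global.FirstIneq2

set_option autoImplicit false
set_option linter.unusedSectionVars false
set_option linter.style.haveILetI false

namespace Fermat.Agent.S55.Global.PlaceCount

open NumberField IsDedekindDomain
open scoped TensorProduct NumberField
open Fermat.Agent.S55.Global.PlaceBij Fermat.Agent.S55.Global.Objects
open Fermat.Agent.S55.Global.Objects2

section Card

variable (E : Type) [Field E] [NumberField E] (q : Nat.Primes)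

/-- The primes of `𝓞 E` above `q`, as a subtype, are the elements of `placesOverQ E {q}`. -/
noncomputable def aboveEquiv :
    {u : HeightOneSpectrum (𝓞 E) // (((q : Nat.Primes) : ℕ) : 𝓞 E) ∈ u.asIdeal} ≃
      {u : HeightOneSpectrum (𝓞 E) // u ∈ FirstIneq2.placesOverQ E {q}} :=
  Equiv.subtypeEquivRight fun u => by
    rw [FirstIneq2.mem_placesOverQ]
    constructor
    · intro h
      exact ⟨q, Finset.mem_singleton_self q, h⟩
    · rintro ⟨q', hq', h⟩
      rw [Finset.mem_singleton] at hq'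
      rwa [hq'] at h

/-- **#MaxSpec(E ⊗[ℚ] ℚ_[q]) = #{primes of `𝓞 E` above `q`}**. -/
theorem card_maxSpec :
    Nat.card {m : Ideal (E ⊗[ℚ] ℚ_[((q : Nat.Primes) : ℕ)]) // m.IsMaximal} =
      (FirstIneq2.placesOverQ E {q}).card := by
  rw [Nat.card_congr ((maxSpecEquiv E ((q : Nat.Primes) : ℕ)).trans (aboveEquiv E q)),
    Nat.card_eq_fintype_card, Fintype.card_coe]

/-- Set form. -/
theorem card_maxSpec' :
    Nat.card {m : Ideal (E ⊗[ℚ] ℚ_[((q : Nat.Primes) : ℕ)]) // m.IsMaximal} =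
      {u : HeightOneSpectrum (𝓞 E) | (((q : Nat.Primes) : ℕ) : 𝓞 E) ∈ u.asIdeal}.ncard := by
  rw [Nat.card_congr (maxSpecEquiv E ((q : Nat.Primes) : ℕ))]
  rfl

instance finite_maxSpec :
    Finite {m : Ideal (E ⊗[ℚ] ℚ_[((q : Nat.Primes) : ℕ)]) // m.IsMaximal} :=
  Finite.of_equiv _ ((maxSpecEquiv E ((q : Nat.Primes) : ℕ)).trans (aboveEquiv E q)).symm

end Card

section Fiber

variable {E L : Type} [Field E] [NumberField E] [Field L] [NumberField L] [Algebra E L]
  {q : ℕ} [Fact q.Prime]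

/-- **Fibres**: the maximal ideals of `L ⊗[ℚ] ℚ_[q]` over `m` ↔ the primes of `𝓞 L` above
`u(m) = placeOfMax m`. -/
noncomputable def fiberEquiv (m : Ideal (E ⊗[ℚ] ℚ_[q])) [m.IsMaximal] :
    {M : Ideal (L ⊗[ℚ] ℚ_[q]) // M.IsMaximal ∧ M.comap (baseChange E L q) = m} ≃
      SUnitHerbrand.fiber E L (placeOfMax m) :=
  Equiv.ofBijective
    (fun M => haveI := M.2.1
      ⟨placeOfMax M.1, by
        rw [SUnitHerbrand.mem_fiber_iff_under]
        exact (comap_eq_iff_placeOfMax M.1 m).mp M.2.2⟩)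
    ⟨by
      intro M M' h
      haveI := M.2.1
      haveI := M'.2.1
      have h1 : placeOfMax M.1 = placeOfMax M'.1 := congrArg Subtype.val h
      exact Subtype.ext (placeOfMax_injective M.1 M'.1 h1),
    by
      intro w
      have hq : ((q : ℕ) : 𝓞 L) ∈ w.1.asIdeal := by
        have h1 : ((q : ℕ) : 𝓞 E) ∈ (placeOfMax m).asIdeal := natCast_mem_placeOfMax m
        rw [← (SUnitHerbrand.mem_fiber_iff_under E L).mp w.2] at h1
        have h2 := Ideal.mem_comap.mp h1
        rwa [map_natCast] at h2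
      obtain ⟨M, hM, hMw⟩ := exists_placeOfMax_eq (q := q) w.1 hq
      refine ⟨⟨M, hM, ?_⟩, Subtype.ext hMw⟩
      rw [comap_eq_iff_placeOfMax, hMw]
      exact (SUnitHerbrand.mem_fiber_iff_under E L).mp w.2⟩

theorem fiberEquiv_apply (m : Ideal (E ⊗[ℚ] ℚ_[q])) [m.IsMaximal]
    (M : {M : Ideal (L ⊗[ℚ] ℚ_[q]) // M.IsMaximal ∧ M.comap (baseChange E L q) = m}) :
    ((fiberEquiv (L := L) m M : SUnitHerbrand.fiber E L (placeOfMax m)) :
      HeightOneSpectrum (𝓞 L)) = @placeOfMax q _ L _ _ M.1 M.2.1 := rfl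

/-- `#{M over m} = #{primes of 𝓞 L above u(m)}`. -/
theorem card_fiber (m : Ideal (E ⊗[ℚ] ℚ_[q])) [m.IsMaximal] :
    Nat.card {M : Ideal (L ⊗[ℚ] ℚ_[q]) // M.IsMaximal ∧ M.comap (baseChange E L q) = m} =
      (SUnitHerbrand.fiber E L (placeOfMax m)).ncard := by
  rw [Nat.card_congr (fiberEquiv (L := L) m)]
  rfl

end Fiber

end Fermat.Agent.S55.Global.PlaceCount
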