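/-
S55 / Global / G.first.count — GALOIS ACTION ON THE PLACES `MaxSpec(L ⊗[ℚ] ℚ_[q])` (helper71).

`Aut(L/ℚ)` acts on `L ⊗[ℚ] ℚ_[q]` through the left factor (`Objects.tensorAct`, the
`MulSemiringAction` of `Global/Objects.lean`) and on its ideals pointwise (`open Pointwise`).

* `placeOfMax_smul` : `placeOfMax (σ • m) = primePerm ℚ L σ (placeOfMax m)` (EQUIVARIANCE of the
  bijection `PlaceBij.maxSpecEquiv`);
* `smul_eq_iff` : `σ • m = m ↔ primePerm ℚ L σ (placeOfMax m) = placeOfMax m`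
  (stabiliser of `m` = decomposition group of the prime);
* `card_fixed` (item (C) of helper31 #1844): for `L/K` Galois with `Gal(L/K) = ⟨σ⟩`,
  `#{m maximal in L ⊗[ℚ] ℚ_[q] | resHom K L σ • m = m} = nonsplit K L (placesOverQ K {q})`.
-/
import Mathlib
import Fermat.Agent.S55.Global.PlaceCount

set_option autoImplicit false
set_option linter.unusedSectionVars false
set_option linter.style.haveILetI false

namespace Fermat.Agent.S55.Global.PlaceAct

open NumberField IsDedekindDomain
open scoped TensorProduct NumberField Pointwise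
open Fermat.Agent.S55.Global.PlaceBij Fermat.Agent.S55.Global.Objects
open Fermat.Agent.S55.Global.Objects2
open Fermat.Agent.S14.NormIndexConcrete Fermat.Agent.S14.GalPrimes

attribute [local instance] Algebra.TensorProduct.rightAlgebra

section Equivariance

variable {L : Type} [Field L] [NumberField L] {q : ℕ} [Fact q.Prime]

theorem smul_eq_map (σ : L ≃ₐ[ℚ] L) (z : L ⊗[ℚ] ℚ_[q]) :
    σ • z = Algebra.TensorProduct.map (σ : L →ₐ[ℚ] L) (AlgHom.id ℚ ℚ_[q]) z := by
  induction z using TensorProduct.induction_on with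
  | zero => simp
  | tmul x c => rfl
  | add a b ha hb => rw [smul_add, map_add, ha, hb]

theorem isMaximal_smul (σ : L ≃ₐ[ℚ] L) (m : Ideal (L ⊗[ℚ] ℚ_[q])) [hm : m.IsMaximal] :
    (σ • m).IsMaximal := by
  have h : σ • m = Ideal.map (MulSemiringAction.toRingEquiv (L ≃ₐ[ℚ] L) (L ⊗[ℚ] ℚ_[q]) σ) m := by
    ext x
    rw [Ideal.mem_pointwise_smul_iff_inv_smul_mem, Ideal.mem_map_of_equiv]
    constructor
    · intro hx
      exact ⟨σ⁻¹ • x, hx, smul_inv_smul σ x⟩
    · rintro ⟨y, hy, rfl⟩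
      change σ⁻¹ • σ • y ∈ m
      rwa [inv_smul_smul]
  rw [h]
  exact Ideal.map_isMaximal_of_equiv _

/-- the kernel of the twisted factor `φ ∘ (σ⁻¹ ⊗ 1)` is `σ • ker φ`. -/
theorem ker_twist {Ω : Type*} [Field Ω] [Algebra ℚ_[q] Ω] [Algebra.IsAlgebraic ℚ_[q] Ω]
    (φ : L ⊗[ℚ] ℚ_[q] →+* Ω) (σ : L ≃ₐ[ℚ] L) :
    RingHom.ker (twist φ σ⁻¹) = σ • RingHom.ker φ := by
  ext z
  rw [RingHom.mem_ker, Ideal.mem_pointwise_smul_iff_inv_smul_mem]
  show twist φ σ⁻¹ z = 0 ↔ φ (σ⁻¹ • z) = 0
  rw [smul_eq_map]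
  rfl

/-- **Equivariance**: the place of `σ • m` is the `σ`-translate of the place of `m`. -/
theorem placeOfMax_smul (σ : L ≃ₐ[ℚ] L) (m : Ideal (L ⊗[ℚ] ℚ_[q])) [hm : m.IsMaximal]
    [hm' : (σ • m).IsMaximal] :
    placeOfMax (σ • m) = primePerm ℚ L σ (placeOfMax m) := by
  letI := Ideal.Quotient.field m
  haveI := isAlgebraic_quot m
  have hφ : ∀ c : ℚ_[q], twist (Ideal.Quotient.mk m) σ⁻¹ ((1 : L) ⊗ₜ[ℚ] c) =
      algebraMap ℚ_[q] ((L ⊗[ℚ] ℚ_[q]) ⧸ m) c :=
    twist_one_tmul (Ideal.Quotient.mk m) (fun c => rfl) σ⁻¹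
  have hker : RingHom.ker (twist (Ideal.Quotient.mk m) σ⁻¹) = σ • m := by
    rw [ker_twist, Ideal.mk_ker]
  rw [← placeOf_eq_placeOfMax (σ • m) (twist (Ideal.Quotient.mk m) σ⁻¹) hφ hker]
  apply HeightOneSpectrum.ext
  ext r
  rw [mem_placeOf_twist, mem_primePerm, mem_placeOfMax]
  rfl

/-- **Stabiliser = decomposition group**. -/
theorem smul_eq_iff (σ : L ≃ₐ[ℚ] L) (m : Ideal (L ⊗[ℚ] ℚ_[q])) [hm : m.IsMaximal] :
    σ • m = m ↔ primePerm ℚ L σ (placeOfMax m) = placeOfMax m := by
  haveI := isMaximal_smul σ m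
  rw [← placeOfMax_smul σ m]
  constructor
  · intro h
    congr 1
  · intro h
    exact placeOfMax_injective _ _ h

end Equivariance

section Count

variable (K L : Type) [Field K] [NumberField K] [Field L] [NumberField L] [Algebra K L]

theorem primePerm_resHom (σ : L ≃ₐ[K] L) : primePerm ℚ L (resHom K L σ) = primePerm K L σ := by
  ext v x
  rw [mem_primePerm, mem_primePerm]
  have : (intAut ℚ L (resHom K L σ)).symm x = (intAut K L σ).symm x := by
    apply RingOfIntegers.ext
    rfl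
  rw [this]

variable [IsGalois K L]

/-- For a generator `σ` of `Gal(L/K)`: a prime `w` of `L` is `σ`-fixed iff it is the only prime
above `w ∩ K`. -/
theorem primePerm_eq_iff_fiber (σ : L ≃ₐ[K] L) (hσ : ∀ τ : L ≃ₐ[K] L, τ ∈ Subgroup.zpowers σ)
    (w : HeightOneSpectrum (𝓞 L)) :
    primePerm K L σ w = w ↔ SUnitHerbrand.fiber K L (primeBelow K L w) = {w} := by
  constructor
  · intro h
    ext w'
    rw [Set.mem_singleton_iff, SUnitHerbrand.mem_fiber]
    constructor
    · intro hw'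
      obtain ⟨i, hi⟩ := (primeBelow_eq_iff_of_generator K L σ hσ w w').mp hw'.symm
      rw [← hi]
      clear hi
      induction i with
      | zero => simp
      | succ n ih => rw [pow_succ, Equiv.Perm.mul_apply, h, ih]
    · rintro rfl
      rfl
  · intro h
    have : primePerm K L σ w ∈ SUnitHerbrand.fiber K L (primeBelow K L w) := by
      rw [SUnitHerbrand.mem_fiber, primeBelow_primePerm]
    rw [h, Set.mem_singleton_iff] at this
    exact this

/-- **(C) of helper31 #1844**: the number of `σ`-fixed maximal ideals of `L ⊗[ℚ] ℚ_[q]` is the number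
of places of `K` above `q` with exactly one place of `L` above them. -/
theorem card_fixed (σ : L ≃ₐ[K] L) (hσ : ∀ τ : L ≃ₐ[K] L, τ ∈ Subgroup.zpowers σ)
    (q : Nat.Primes) :
    Nat.card {m : Ideal (L ⊗[ℚ] ℚ_[((q : Nat.Primes) : ℕ)]) //
        m.IsMaximal ∧ resHom K L σ • m = m} =
      SUnitHerbrand.nonsplit K L (FirstIneq2.placesOverQ K {q}) := by
  classical
  -- the target as a subtype of places of `K`
  have hns : SUnitHerbrand.nonsplit K L (FirstIneq2.placesOverQ K {q}) =
      Nat.card {v : HeightOneSpectrum (𝓞 K) //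
        v ∈ FirstIneq2.placesOverQ K {q} ∧ (SUnitHerbrand.fiber K L v).ncard = 1} := by
    unfold SUnitHerbrand.nonsplit
    rw [← Fintype.card_coe, ← Nat.card_eq_fintype_card]
    exact Nat.card_congr (Equiv.subtypeEquivRight (fun v => by simp [Finset.mem_filter]))
  rw [hns]
  refine Nat.card_congr (Equiv.ofBijective
    (fun m => haveI := m.2.1
      ⟨primeBelow K L (placeOfMax m.1), ?_, ?_⟩) ⟨?_, ?_⟩)
  · -- above `q`
    haveI := m.2.1
    rw [FirstIneq2.mem_placesOverQ]
    refine ⟨q, Finset.mem_singleton_self q, ?_⟩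
    rw [FirstIneq2.natCast_mem_primeBelow]
    exact natCast_mem_placeOfMax m.1
  · -- the fibre is a singleton
    haveI := m.2.1
    have h1 := (smul_eq_iff (resHom K L σ) m.1).mp m.2.2
    rw [primePerm_resHom] at h1
    rw [(primePerm_eq_iff_fiber K L σ hσ _).mp h1, Set.ncard_singleton]
  · -- injective
    intro m m' h
    haveI := m.2.1
    haveI := m'.2.1
    have hv : primeBelow K L (placeOfMax m.1) = primeBelow K L (placeOfMax m'.1) :=
      congrArg Subtype.val h
    have h1 := (smul_eq_iff (resHom K L σ) m.1).mp m.2.2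
    rw [primePerm_resHom] at h1
    have h2 := (primePerm_eq_iff_fiber K L σ hσ _).mp h1
    have h3 : placeOfMax m'.1 ∈ SUnitHerbrand.fiber K L (primeBelow K L (placeOfMax m.1)) := by
      rw [SUnitHerbrand.mem_fiber, hv]
    rw [h2, Set.mem_singleton_iff] at h3
    exact Subtype.ext (placeOfMax_injective _ _ h3.symm)
  · -- surjective
    rintro ⟨v, hv, hcard⟩
    obtain ⟨w, hw⟩ := Set.ncard_eq_one.mp hcard
    have hwv : primeBelow K L w = v := by
      have : w ∈ SUnitHerbrand.fiber K L v := by rw [hw]; exact Set.mem_singleton w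
      exact this
    have hq : (((q : Nat.Primes) : ℕ) : 𝓞 L) ∈ w.asIdeal := by
      rw [FirstIneq2.mem_placesOverQ] at hv
      obtain ⟨q', hq', h⟩ := hv
      rw [Finset.mem_singleton] at hq'
      subst hq'
      rw [← FirstIneq2.natCast_mem_primeBelow K L w, hwv]
      exact h
    obtain ⟨M, hM, hMw⟩ := exists_placeOfMax_eq (q := ((q : Nat.Primes) : ℕ)) w hq
    refine ⟨⟨M, hM, ?_⟩, ?_⟩
    · rw [smul_eq_iff, primePerm_resHom, hMw, primePerm_eq_iff_fiber K L σ hσ, hwv, hw]
    · apply Subtype.ext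
      change primeBelow K L (placeOfMax M) = v
      rw [hMw, hwv]

end Count

end Fermat.Agent.S55.Global.PlaceAct
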