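/-
S55 / Global / G.semilocal — DECOMPOSITION half, abstract core (helper23).

Setting: `B` a reduced Artinian commutative ring, `G` a finite group acting on `B` by ring
automorphisms, `ι : F →+* B` from a field `F` whose image is exactly the ring of `G`-invariants.
Then for every maximal ideal `m` of `B`, with `D := MulAction.stabilizer G m`, `E := B ⧸ m`
(a field, `Ideal.Quotient.field m`), `π := Ideal.Quotient.mk m`, `D` acting on `E` through
`stabQuotAction m`:

* `exists_smul_eq`      : `G` is transitive on the maximal ideals;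
* `stabQuotAction_mk`   : `π (d • b) = d • π b`                                   (hπD)
* `phi_injective`       : `b ↦ (g ↦ π (g • b))` is injective                       (hCRT, 1)
* `exists_phi_eq`       : every `f : G → E` with `f (d * g) = d • f g` is `g ↦ π (g • b)` (hCRT, 2)
* `phi_equivariant`     : conversely `g ↦ π (g • b)` satisfies `f (d * g) = d • f g`;
* `exists_of_fixed`     : an element of `E` fixed by `D` is the image of an element of `F`.

This is exactly the abstract input of `Global/SemilocalCoh.lean` (helper1).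
-/
import Mathlib

namespace Fermat.Agent.S55.Global.SemilocalDecomp

open scoped Pointwise

section Action

variable {G B : Type*} [Group G] [CommRing B] [MulSemiringAction G B]

theorem smul_mem_of_mem_stabilizer {m : Ideal B} {g : G} (hg : g ∈ MulAction.stabilizer G m)
    {b : B} (hb : b ∈ m) : g • b ∈ m := by
  have h1 : g⁻¹ • m = m := by
    rw [inv_smul_eq_iff]; exact (MulAction.mem_stabilizer_iff.mp hg).symm
  rw [← Ideal.mem_inv_pointwise_smul_iff, h1]; exact hb

/-- The ring endomorphism of `B ⧸ m` induced by an element of the stabiliser of `m`. -/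
noncomputable def stabQuotHom (m : Ideal B) (d : MulAction.stabilizer G m) : B ⧸ m →+* B ⧸ m :=
  Ideal.Quotient.lift m ((Ideal.Quotient.mk m).comp (MulSemiringAction.toRingHom G B d.1))
    (fun b hb => by
      rw [RingHom.comp_apply, Ideal.Quotient.eq_zero_iff_mem]
      exact smul_mem_of_mem_stabilizer d.2 hb)

@[simp] theorem stabQuotHom_mk (m : Ideal B) (d : MulAction.stabilizer G m) (b : B) :
    stabQuotHom m d (Ideal.Quotient.mk m b) = Ideal.Quotient.mk m (d.1 • b) := by
  simp [stabQuotHom]

/-- The action of the stabiliser of an ideal `m` on the quotient ring `B ⧸ m`. -/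
@[reducible] noncomputable def stabQuotAction (m : Ideal B) :
    MulSemiringAction (MulAction.stabilizer G m) (B ⧸ m) where
  smul d x := stabQuotHom m d x
  one_smul x := by
    obtain ⟨b, rfl⟩ := Ideal.Quotient.mk_surjective x
    change stabQuotHom m 1 _ = _
    simp
  mul_smul d d' x := by
    obtain ⟨b, rfl⟩ := Ideal.Quotient.mk_surjective x
    change stabQuotHom m (d * d') _ = stabQuotHom m d (stabQuotHom m d' _)
    simp [mul_smul]
  smul_zero d := map_zero (stabQuotHom m d)
  smul_add d x y := map_add (stabQuotHom m d) x y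
  smul_one d := map_one (stabQuotHom m d)
  smul_mul d x y := map_mul (stabQuotHom m d) x y

attribute [local instance] stabQuotAction

theorem stabQuotAction_mk (m : Ideal B) (d : MulAction.stabilizer G m) (b : B) :
    d • (Ideal.Quotient.mk m b) = Ideal.Quotient.mk m (d.1 • b) :=
  stabQuotHom_mk m d b

/-- `g ↦ π (g • b)` is `D`-equivariant. -/
theorem phi_equivariant (m : Ideal B) (b : B) (d : MulAction.stabilizer G m) (g : G) :
    Ideal.Quotient.mk m ((d.1 * g) • b) = d • Ideal.Quotient.mk m (g • b) := by
  rw [stabQuotAction_mk, mul_smul]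

end Action

section Core

attribute [local instance] stabQuotAction

variable {G B F : Type*} [Group G] [Finite G] [CommRing B] [MulSemiringAction G B]
  [IsArtinianRing B] [IsReduced B] [Field F]
  (ι : F →+* B) (hfix : ∀ (g : G) (a : F), g • ι a = ι a)
  (hinv : ∀ b : B, (∀ g : G, g • b = b) → ∃ a : F, ι a = b)

omit [IsArtinianRing B] [IsReduced B] in
include hfix hinv in
/-- `G` acts transitively on the maximal ideals. -/
theorem exists_smul_eq (m m' : Ideal B) [hm : m.IsMaximal] [hm' : m'.IsMaximal] :
    ∃ g : G, m' = g • m := by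
  let _ : Algebra F B := ι.toAlgebra
  have hsmul : ∀ (a : F) (b : B), a • b = ι a * b := fun a b => rfl
  have : SMulCommClass G F B := ⟨fun g a b => by
    rw [hsmul, hsmul, smul_mul', hfix]⟩
  have : Algebra.IsInvariant F B G := ⟨hinv⟩
  have hbot : ∀ (P : Ideal B), P.IsMaximal → P.under F = ⊥ := by
    intro P hP
    rcases Ideal.eq_bot_or_top (P.under F) with h | h
    · exact h
    · exfalso
      have h1 : (1 : F) ∈ P.under F := by rw [h]; trivial
      rw [Ideal.mem_comap, map_one] at h1
      exact hP.ne_top ((Ideal.eq_top_iff_one P).mpr h1)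
  exact Algebra.IsInvariant.exists_smul_of_under_eq F B G m m'
    ((hbot m hm).trans (hbot m' hm').symm)

omit [Finite G] [IsArtinianRing B] [IsReduced B] in
theorem isMaximal_smul (g : G) (m : Ideal B) [hm : m.IsMaximal] : (g • m).IsMaximal := by
  have h : g • m = Ideal.map (MulSemiringAction.toRingEquiv G B g) m := by
    ext x
    rw [Ideal.mem_pointwise_smul_iff_inv_smul_mem]
    rw [Ideal.mem_map_of_equiv]
    constructor
    · intro hx
      exact ⟨g⁻¹ • x, hx, by simp⟩
    · rintro ⟨y, hy, rfl⟩
      simpa using hy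
  rw [h]
  exact Ideal.map_isMaximal_of_equiv _

include hfix hinv in
/-- The map `b ↦ (g ↦ π (g • b))` is injective. -/
theorem phi_injective (m : Ideal B) [hm : m.IsMaximal] :
    Function.Injective (fun (b : B) (g : G) => Ideal.Quotient.mk m (g • b)) := by
  intro b b' h
  rw [← sub_eq_zero]
  set c := b - b' with hc
  have hcm : ∀ g : G, g • c ∈ m := by
    intro g
    have := congrFun h g
    simp only at this
    rw [hc, smul_sub, ← Ideal.Quotient.eq_zero_iff_mem, map_sub, this, sub_self]
  have hjac : c ∈ Ideal.jacobson (⊥ : Ideal B) := by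
    rw [Ideal.jacobson, Ideal.mem_sInf]
    rintro P ⟨-, hP⟩
    have := hP
    obtain ⟨g, rfl⟩ := exists_smul_eq ι hfix hinv m P
    rw [Ideal.mem_pointwise_smul_iff_inv_smul_mem]
    exact hcm g⁻¹
  have hnil : IsNilpotent c := by
    obtain ⟨n, hn⟩ := IsArtinianRing.isNilpotent_jacobson_bot (R := B)
    refine ⟨n, ?_⟩
    have := Ideal.pow_mem_pow hjac n
    rw [hn] at this
    simpa using this
  exact hnil.eq_zero

omit [IsReduced B] in
include hfix hinv in
/-- Every `D`-equivariant function `G → E` is of the form `g ↦ π (g • b)`. -/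
theorem exists_phi_eq (m : Ideal B) [hm : m.IsMaximal] (f : G → B ⧸ m)
    (hf : ∀ (d : MulAction.stabilizer G m) (g : G), f (d.1 * g) = d • f g) :
    ∃ b : B, ∀ g : G, Ideal.Quotient.mk m (g • b) = f g := by
  classical
  have : Finite (MaximalSpectrum B) := inferInstance
  -- for each maximal ideal a group element moving `m` to it
  have hex : ∀ P : MaximalSpectrum B, ∃ g : G, P.asIdeal = g⁻¹ • m := by
    intro P
    have := P.isMaximal
    obtain ⟨g, hg⟩ := exists_smul_eq ι hfix hinv m P.asIdeal
    exact ⟨g⁻¹, by rw [inv_inv]; exact hg⟩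
  choose γ hγ using hex
  -- lifts of the values
  have hlift : ∀ g : G, ∃ x : B, Ideal.Quotient.mk m x = f g :=
    fun g => Ideal.Quotient.mk_surjective (f g)
  choose lift hliftspec using hlift
  have hcop : Pairwise (Function.onFun IsCoprime (fun P : MaximalSpectrum B => P.asIdeal)) := by
    intro P Q hPQ
    have hne : P.asIdeal ≠ Q.asIdeal := fun h => hPQ (MaximalSpectrum.ext h)
    rw [Function.onFun, Ideal.isCoprime_iff_sup_eq]
    exact Ideal.IsMaximal.coprime_of_ne P.isMaximal Q.isMaximal hne
  obtain ⟨b, hb⟩ := Ideal.exists_forall_sub_mem_ideal hcop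
    (fun P => (γ P)⁻¹ • lift (γ P))
  refine ⟨b, fun g => ?_⟩
  -- the maximal ideal `g⁻¹ • m`
  have : (g⁻¹ • m).IsMaximal := isMaximal_smul g⁻¹ m
  let P : MaximalSpectrum B := ⟨g⁻¹ • m, inferInstance⟩
  have hP : g⁻¹ • m = (γ P)⁻¹ • m := hγ P
  -- `d := g * (γ P)⁻¹` stabilises `m`
  have hd : g * (γ P)⁻¹ ∈ MulAction.stabilizer G m := by
    rw [MulAction.mem_stabilizer_iff, mul_smul, ← hP, smul_inv_smul]
  have h1 : b - (γ P)⁻¹ • lift (γ P) ∈ (γ P)⁻¹ • m := by
    have := hb P
    rwa [hγ P] at this
  rw [Ideal.mem_inv_pointwise_smul_iff, smul_sub, smul_inv_smul] at h1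
  have h2 : Ideal.Quotient.mk m (γ P • b) = f (γ P) := by
    rw [← hliftspec (γ P)]
    exact Ideal.Quotient.eq.mpr h1
  have h3 : g = (g * (γ P)⁻¹) * γ P := by group
  calc Ideal.Quotient.mk m (g • b)
      = Ideal.Quotient.mk m (((⟨g * (γ P)⁻¹, hd⟩ : MulAction.stabilizer G m).1 * γ P) • b) := by
        rw [← h3]
    _ = (⟨g * (γ P)⁻¹, hd⟩ : MulAction.stabilizer G m) • Ideal.Quotient.mk m (γ P • b) :=
        phi_equivariant m b _ _
    _ = (⟨g * (γ P)⁻¹, hd⟩ : MulAction.stabilizer G m) • f (γ P) := by rw [h2]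
    _ = f ((g * (γ P)⁻¹) * γ P) := (hf ⟨g * (γ P)⁻¹, hd⟩ (γ P)).symm
    _ = f g := by rw [← h3]

include hfix hinv in
/-- An element of `E = B ⧸ m` fixed by the stabiliser `D` comes from `F`. -/
theorem exists_of_fixed (m : Ideal B) [hm : m.IsMaximal] (e : B ⧸ m)
    (he : ∀ d : MulAction.stabilizer G m, d • e = e) :
    ∃ a : F, Ideal.Quotient.mk m (ι a) = e := by
  obtain ⟨b, hb⟩ := exists_phi_eq ι hfix hinv m (fun _ => e) (fun d _ => (he d).symm)
  have hbinv : ∀ h : G, h • b = b := by
    intro h
    apply phi_injective ι hfix hinv m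
    funext g
    simp only
    rw [← mul_smul, hb, hb]
  obtain ⟨a, ha⟩ := hinv b hbinv
  refine ⟨a, ?_⟩
  rw [ha]
  have := hb 1
  rwa [one_smul] at this

end Core

end Fermat.Agent.S55.Global.SemilocalDecomp
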