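/-
S55 / Global / G.semilocal — MULTI-ORBIT abstract core (helper23).

Setting (GS): `B` a reduced Artinian commutative ring, `G` a finite group acting on `B` by ring
automorphisms (NO transitivity assumed: e.g. `B = L ⊗[ℚ] ℚ_T`, `G = Gal(L/K)`).  For a maximal
ideal `m`: `D_m := MulAction.stabilizer G m`, `E_m := B ⧸ m`, `π_m := Ideal.Quotient.mk m`,
`D_m` acting on `E_m` by `SemilocalDecomp.stabQuotAction m`.

* `IsRepSet G R`, `exists_isRepSet` : sets `R` of representatives of the `G`-orbits on maximal ideals;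
* `eq_of_forall_rep`   : `b = b'` as soon as `π_m (g • b) = π_m (g • b')` for all `m ∈ R`, `g`;
* `exists_of_rep`      : every family of `D_m`-equivariant functions `f m : G → E_m` (`m ∈ R`) is
                         `g ↦ π_m (g • b)` for one `b : B`            (`B ≅ ∏_{m ∈ R} Coind_{D_m}^G E_m`);
* `h90_field`          : Hilbert 90 for a finite group acting faithfully on a field (elementwise form);
* `hilbert90`          : if every `D_m` acts faithfully on `E_m`, every 1-cocycle `G → Bˣ` is a coboundary;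
* `hilbert90_cyclic`   : cyclic form: `G = ⟨σ⟩`, `∏_{i < orderOf σ} σ^i • x = 1 ⇒ x = σ • y / y`.
-/
import Mathlib
import Fermat.Agent.S55.Global.SemilocalDecomp

set_option linter.unusedSectionVars false
set_option linter.style.haveILetI false

namespace Fermat.Agent.S55.Global.SemilocalOrbits

open scoped Pointwise
open Fermat.Agent.S55.Global.SemilocalDecomp
open groupCohomology

attribute [local instance] stabQuotAction

section RepSet

variable {G B : Type*} [Group G] [CommRing B] [MulSemiringAction G B]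

/-- `R` is a set of representatives of the `G`-orbits on the maximal ideals of `B`. -/
structure IsRepSet (G : Type*) {B : Type*} [Group G] [CommRing B] [MulSemiringAction G B]
    (R : Set (Ideal B)) : Prop where
  isMaximal : ∀ m ∈ R, m.IsMaximal
  exists_smul : ∀ P : Ideal B, P.IsMaximal → ∃ m ∈ R, ∃ g : G, P = g • m
  unique : ∀ m ∈ R, ∀ m' ∈ R, (∃ g : G, m' = g • m) → m = m'

variable (G B) in
theorem exists_isRepSet : ∃ R : Set (Ideal B), IsRepSet G R := by
  classical
  let s := MulAction.orbitRel G (Ideal B)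
  let rep : Ideal B → Ideal B := fun P => (Quotient.mk s P).out
  have hrep : ∀ P : Ideal B, ∃ g : G, P = g • rep P := by
    intro P
    have h1 : s.r (rep P) P := Quotient.exact (Quotient.out_eq (Quotient.mk s P))
    have h2 : rep P ∈ MulAction.orbit G P := (MulAction.orbitRel_apply).mp h1
    obtain ⟨g, hg⟩ := h2
    refine ⟨g⁻¹, ?_⟩
    have hg' : g • P = rep P := hg
    rw [← hg', inv_smul_smul]
  refine ⟨{m | m.IsMaximal ∧ rep m = m}, ⟨fun m hm => hm.1, ?_, ?_⟩⟩
  · intro P hP
    obtain ⟨g, hg⟩ := hrep P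
    have hmax : (rep P).IsMaximal := by
      have : rep P = g⁻¹ • P := by rw [eq_inv_smul_iff]; exact hg.symm
      rw [this]
      haveI := hP
      exact isMaximal_smul g⁻¹ P
    refine ⟨rep P, ⟨hmax, ?_⟩, g, hg⟩
    show (Quotient.mk s (rep P)).out = (Quotient.mk s P).out
    congr 1
    exact Quotient.out_eq (Quotient.mk s P)
  · rintro m ⟨-, hm⟩ m' ⟨-, hm'⟩ ⟨g, hg⟩
    have h1 : Quotient.mk s m' = Quotient.mk s m := by
      apply Quotient.sound
      show s.r m' m
      rw [MulAction.orbitRel_apply]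
      exact ⟨g, hg.symm⟩
    rw [← hm, ← hm']
    show (Quotient.mk s m).out = (Quotient.mk s m').out
    rw [h1]

end RepSet

section KeyLemma

variable {G B : Type*} [Group G] [Finite G] [CommRing B] [MulSemiringAction G B]
  [IsArtinianRing B] [IsReduced B]

omit [Finite G] [MulSemiringAction G B] in
/-- In a reduced Artinian ring an element lying in every maximal ideal is zero. -/
theorem eq_zero_of_forall_mem_maximal {c : B} (hc : ∀ P : Ideal B, P.IsMaximal → c ∈ P) :
    c = 0 := by
  have hjac : c ∈ Ideal.jacobson (⊥ : Ideal B) := by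
    rw [Ideal.jacobson, Ideal.mem_sInf]
    rintro P ⟨-, hP⟩
    exact hc P hP
  have hnil : IsNilpotent c := by
    obtain ⟨n, hn⟩ := IsArtinianRing.isNilpotent_jacobson_bot (R := B)
    refine ⟨n, ?_⟩
    have := Ideal.pow_mem_pow hjac n
    rw [hn] at this
    simpa using this
  exact hnil.eq_zero

omit [Finite G] in
/-- Joint injectivity of the maps `b ↦ (g ↦ π_m (g • b))`, `m ∈ R`. -/
theorem eq_of_forall_rep {R : Set (Ideal B)} (hR : IsRepSet G R) {b b' : B}
    (h : ∀ m ∈ R, ∀ g : G, Ideal.Quotient.mk m (g • b) = Ideal.Quotient.mk m (g • b')) :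
    b = b' := by
  rw [← sub_eq_zero]
  apply eq_zero_of_forall_mem_maximal
  intro P hP
  obtain ⟨m, hm, g, rfl⟩ := hR.exists_smul P hP
  rw [Ideal.mem_pointwise_smul_iff_inv_smul_mem, smul_sub, ← Ideal.Quotient.eq_zero_iff_mem,
    map_sub, h m hm g⁻¹, sub_self]

/-- Joint surjectivity: `B → ∏_{m ∈ R} {D_m-equivariant functions G → E_m}` is onto. -/
theorem exists_of_rep {R : Set (Ideal B)} (hR : IsRepSet G R) (f : ∀ m : Ideal B, G → B ⧸ m)
    (hf : ∀ m ∈ R, ∀ (d : MulAction.stabilizer G m) (g : G), f m (d.1 * g) = d • f m g) :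
    ∃ b : B, ∀ m ∈ R, ∀ g : G, Ideal.Quotient.mk m (g • b) = f m g := by
  classical
  have hex : ∀ P : MaximalSpectrum B, ∃ m ∈ R, ∃ g : G, P.asIdeal = g⁻¹ • m := by
    intro P
    obtain ⟨m, hm, g, hg⟩ := hR.exists_smul P.asIdeal P.isMaximal
    exact ⟨m, hm, g⁻¹, by rw [inv_inv]; exact hg⟩
  choose mP hmP γ hγ using hex
  have hlift : ∀ (m : Ideal B) (g : G), ∃ x : B, Ideal.Quotient.mk m x = f m g :=
    fun m g => Ideal.Quotient.mk_surjective (f m g)
  choose lift hliftspec using hlift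
  have hcop : Pairwise (Function.onFun IsCoprime (fun P : MaximalSpectrum B => P.asIdeal)) := by
    intro P Q hPQ
    have hne : P.asIdeal ≠ Q.asIdeal := fun h => hPQ (MaximalSpectrum.ext h)
    rw [Function.onFun, Ideal.isCoprime_iff_sup_eq]
    exact Ideal.IsMaximal.coprime_of_ne P.isMaximal Q.isMaximal hne
  obtain ⟨b, hb⟩ := Ideal.exists_forall_sub_mem_ideal hcop
    (fun P => (γ P)⁻¹ • lift (mP P) (γ P))
  refine ⟨b, fun m hm g => ?_⟩
  haveI := hR.isMaximal m hm
  haveI : (g⁻¹ • m).IsMaximal := isMaximal_smul g⁻¹ m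
  let P : MaximalSpectrum B := ⟨g⁻¹ • m, inferInstance⟩
  have hP : g⁻¹ • m = (γ P)⁻¹ • mP P := hγ P
  -- the representative of `P` is `m`
  have hmeq : m = mP P := by
    apply hR.unique m hm (mP P) (hmP P)
    refine ⟨γ P * g⁻¹, ?_⟩
    rw [mul_smul, hP, smul_inv_smul]
  -- now generalize
  have key : ∀ (m' : Ideal B) (hm' : m = m') (x : B),
      b - (γ P)⁻¹ • x ∈ (γ P)⁻¹ • m' → Ideal.Quotient.mk m' x = f m' (γ P) →
      Ideal.Quotient.mk m (g • b) = f m g := by
    rintro m' rfl x h1 h2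
    have hd : g * (γ P)⁻¹ ∈ MulAction.stabilizer G m := by
      rw [MulAction.mem_stabilizer_iff, mul_smul]
      have : (γ P)⁻¹ • m = g⁻¹ • m := by rw [hP, ← hmeq]
      rw [this, smul_inv_smul]
    rw [Ideal.mem_inv_pointwise_smul_iff, smul_sub, smul_inv_smul] at h1
    have h3 : Ideal.Quotient.mk m (γ P • b) = f m (γ P) := by
      rw [← h2]
      exact Ideal.Quotient.eq.mpr h1
    have h4 : g = (g * (γ P)⁻¹) * γ P := by group
    calc Ideal.Quotient.mk m (g • b)
        = Ideal.Quotient.mk m (((⟨g * (γ P)⁻¹, hd⟩ : MulAction.stabilizer G m).1 * γ P) • b) := by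
          rw [← h4]
      _ = (⟨g * (γ P)⁻¹, hd⟩ : MulAction.stabilizer G m) • Ideal.Quotient.mk m (γ P • b) :=
          phi_equivariant m b _ _
      _ = (⟨g * (γ P)⁻¹, hd⟩ : MulAction.stabilizer G m) • f m (γ P) := by rw [h3]
      _ = f m ((g * (γ P)⁻¹) * γ P) := (hf m hm ⟨g * (γ P)⁻¹, hd⟩ (γ P)).symm
      _ = f m g := by rw [← h4]
  refine key (mP P) hmeq (lift (mP P) (γ P)) ?_ (hliftspec _ _)
  have := hb P
  rwa [hγ P] at this

omit [Finite G] [IsArtinianRing B] [IsReduced B] in
/-- An element all of whose "coordinates" `π_m (g • b)` (`m ∈ R`) are nonzero is a unit. -/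
theorem isUnit_of_forall_rep {R : Set (Ideal B)} (hR : IsRepSet G R) {b : B}
    (h : ∀ m ∈ R, ∀ g : G, Ideal.Quotient.mk m (g • b) ≠ 0) : IsUnit b := by
  by_contra hb
  obtain ⟨P, hP, hbP⟩ := exists_max_ideal_of_mem_nonunits (mem_nonunits_iff.mpr hb)
  obtain ⟨m, hm, g, rfl⟩ := hR.exists_smul P hP
  rw [Ideal.mem_pointwise_smul_iff_inv_smul_mem, ← Ideal.Quotient.eq_zero_iff_mem] at hbP
  exact h m hm g⁻¹ hbP

end KeyLemma

section H90Field

/-- **Hilbert 90** for a finite group `D` acting faithfully on a field `E`, elementwise form: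
a map `a : D → Eˣ` with `a (d * d') = d • a d' * a d` is of the form `d ↦ d • z / z`. -/
theorem h90_field {D E : Type*} [Group D] [Finite D] [Field E] [MulSemiringAction D E]
    [FaithfulSMul D E] (a : D → Eˣ)
    (ha : ∀ d d' : D, ((a (d * d') : Eˣ) : E) = d • ((a d' : Eˣ) : E) * (a d : Eˣ)) :
    ∃ z : Eˣ, ∀ d : D, ((a d : Eˣ) : E) * (z : E) = d • (z : E) := by
  classical
  let K := FixedPoints.subfield D E
  let e : D ≃* (E ≃ₐ[K] E) := FixedPoints.toAlgAutMulEquiv D E
  have he : ∀ (d : D) (x : E), e d x = d • x := fun d x => rfl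
  have : FiniteDimensional K E := by
    cases nonempty_fintype D
    infer_instance
  let f : (E ≃ₐ[K] E) → Eˣ := fun σ => a (e.symm σ)
  have hf : IsMulCocycle₁ f := by
    intro σ τ
    apply Units.ext
    simp only [f, map_mul, Units.val_mul, AlgEquiv.smul_units_def, Units.coe_map,
      MonoidHom.coe_coe]
    rw [ha (e.symm σ) (e.symm τ)]
    congr 1
    rw [← he, MulEquiv.apply_symm_apply]
  obtain ⟨β, hβ⟩ := isMulCoboundary₁_of_isMulCocycle₁_of_aut_to_units f hf
  refine ⟨β, fun d => ?_⟩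
  have h1 := hβ (e d)
  simp only [f, MulEquiv.symm_apply_apply] at h1
  have h2 := congrArg (fun u : Eˣ => (u : E)) h1
  simp only [Units.val_div_eq_div_val, AlgEquiv.smul_units_def, Units.coe_map,
    MonoidHom.coe_coe, he] at h2
  rw [← h2, div_mul_cancel₀ _ (Units.ne_zero β)]

end H90Field

section H90

variable {G B : Type*} [Group G] [Finite G] [CommRing B] [MulSemiringAction G B]
  [IsArtinianRing B] [IsReduced B]

/-- **Semilocal Hilbert 90**, elementwise form: if every stabiliser `D_m` acts faithfully on the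
residue field `E_m = B ⧸ m`, then every `c : G → Bˣ` with `c (g * h) = g • c h * c g` is of the
form `g ↦ g • y / y`. -/
theorem hilbert90_elem
    (hfaith : ∀ m : Ideal B, m.IsMaximal → FaithfulSMul (MulAction.stabilizer G m) (B ⧸ m))
    (c : G → Bˣ)
    (hc : ∀ g h : G, ((c (g * h) : Bˣ) : B) = g • ((c h : Bˣ) : B) * ((c g : Bˣ) : B)) :
    ∃ y : Bˣ, ∀ g : G, ((c g : Bˣ) : B) * (y : B) = g • (y : B) := by
  classical
  obtain ⟨R, hR⟩ := exists_isRepSet G B
  have hz : ∀ m : Ideal B, m ∈ R → ∃ z : (B ⧸ m)ˣ, ∀ d : MulAction.stabilizer G m,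
      Ideal.Quotient.mk m ((c d.1 : Bˣ) : B) * (z : B ⧸ m) = d • (z : B ⧸ m) := by
    intro m hm
    haveI := hR.isMaximal m hm
    letI := Ideal.Quotient.field m
    haveI := hfaith m (hR.isMaximal m hm)
    let a : MulAction.stabilizer G m → (B ⧸ m)ˣ :=
      fun d => Units.map (Ideal.Quotient.mk m).toMonoidHom (c d.1)
    have ha : ∀ d d' : MulAction.stabilizer G m, ((a (d * d') : (B ⧸ m)ˣ) : B ⧸ m)
        = d • ((a d' : (B ⧸ m)ˣ) : B ⧸ m) * (a d : (B ⧸ m)ˣ) := by
      intro d d'
      simp only [a, Units.coe_map, RingHom.toMonoidHom_eq_coe, MonoidHom.coe_coe]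
      rw [Subgroup.coe_mul, hc, map_mul, stabQuotAction_mk]
    obtain ⟨z, hz⟩ := h90_field a ha
    exact ⟨z, fun d => hz d⟩
  choose! z hz using hz
  let φ : ∀ m : Ideal B, G → B ⧸ m :=
    fun m g => Ideal.Quotient.mk m ((c g : Bˣ) : B) * (z m : B ⧸ m)
  have hφ : ∀ m ∈ R, ∀ (d : MulAction.stabilizer G m) (g : G), φ m (d.1 * g) = d • φ m g := by
    intro m hm d g
    simp only [φ]
    rw [hc, map_mul, smul_mul', ← hz m hm d, stabQuotAction_mk, mul_assoc]
  obtain ⟨y0, hy0⟩ := exists_of_rep hR φ hφ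
  have hunit : IsUnit y0 := by
    apply isUnit_of_forall_rep hR
    intro m hm g
    haveI := hR.isMaximal m hm
    letI := Ideal.Quotient.field m
    rw [hy0 m hm g]
    simp only [φ]
    have h1 : IsUnit (Ideal.Quotient.mk m ((c g : Bˣ) : B)) := (c g).isUnit.map _
    exact mul_ne_zero h1.ne_zero (z m).ne_zero
  refine ⟨hunit.unit, fun h => ?_⟩
  rw [IsUnit.unit_spec]
  apply eq_of_forall_rep hR
  intro m hm g
  rw [smul_mul', map_mul, hy0 m hm g, ← mul_smul, hy0 m hm (g * h)]
  simp only [φ]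
  rw [hc, map_mul, mul_assoc]

/-- **Semilocal Hilbert 90**, cocycle form (Mathlib's `IsMulCocycle₁` / `IsMulCoboundary₁`), for any
action of `G` on `Bˣ` compatible with the action on `B`. -/
theorem hilbert90 [MulDistribMulAction G Bˣ]
    (hB : ∀ (g : G) (u : Bˣ), ((g • u : Bˣ) : B) = g • (u : B))
    (hfaith : ∀ m : Ideal B, m.IsMaximal → FaithfulSMul (MulAction.stabilizer G m) (B ⧸ m))
    (c : G → Bˣ) (hc : IsMulCocycle₁ c) : IsMulCoboundary₁ c := by
  obtain ⟨y, hy⟩ := hilbert90_elem hfaith c (fun g h => by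
    have := congrArg (fun u : Bˣ => (u : B)) (hc g h)
    simpa only [Units.val_mul, hB] using this)
  refine ⟨y, fun g => ?_⟩
  rw [div_eq_iff_eq_mul]
  apply Units.ext
  rw [Units.val_mul, hB, hy g]

end H90

section Cyclic

/-- From the cocycle form of Hilbert 90 to the cyclic form: if `G = ⟨σ⟩` is finite and every
1-cocycle `G → M` is a coboundary, then every `x : M` of norm one is `σ • y / y`. -/
theorem cyclic_of_h90 {G M : Type*} [Group G] [Finite G] [CommGroup M] [MulDistribMulAction G M]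
    (h90 : ∀ c : G → M, IsMulCocycle₁ c → IsMulCoboundary₁ c)
    (σ : G) (hσ : ∀ g : G, g ∈ Subgroup.zpowers σ) (x : M)
    (hx : ∏ i ∈ Finset.range (orderOf σ), σ ^ i • x = 1) : ∃ y : M, x = σ • y / y := by
  classical
  set n := orderOf σ with hn
  have hnpos : 0 < n := orderOf_pos σ
  let P : ℕ → M := fun k => ∏ i ∈ Finset.range k, σ ^ i • x
  have P_add : ∀ k l, P (k + l) = P k * σ ^ k • P l := by
    intro k l
    simp only [P]
    rw [Finset.prod_range_add, Finset.smul_prod']
    congr 1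
    refine Finset.prod_congr rfl fun i _ => ?_
    rw [← mul_smul, ← pow_add]
  have P_n : P n = 1 := hx
  have P_mul : ∀ q, P (n * q) = 1 := by
    intro q
    induction q with
    | zero => simp [P]
    | succ q ih => rw [Nat.mul_succ, P_add, ih, P_n, smul_one, mul_one]
  have P_mod : ∀ k, P (k % n) = P k := by
    intro k
    conv_rhs => rw [← Nat.div_add_mod k n]
    rw [P_add, P_mul, one_mul, pow_mul, hn, pow_orderOf_eq_one, one_pow, one_smul]
  have hidx : ∀ g : G, ∃ k : ℕ, σ ^ k = g := by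
    intro g
    have := (mem_powers_iff_mem_zpowers (x := σ) (y := g)).mpr (hσ g)
    exact (Submonoid.mem_powers_iff g σ).mp this
  choose idx hidx using hidx
  have P_congr : ∀ k l : ℕ, σ ^ k = σ ^ l → P k = P l := by
    intro k l h
    have h1 : k ≡ l [MOD n] := pow_eq_pow_iff_modEq.mp h
    rw [← P_mod k, ← P_mod l, h1]
  let c : G → M := fun g => P (idx g)
  have hc : IsMulCocycle₁ c := by
    intro g h
    simp only [c]
    have h1 : P (idx (g * h)) = P (idx g + idx h) := by
      apply P_congr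
      rw [hidx, pow_add, hidx, hidx]
    rw [h1, P_add, hidx, mul_comm]
  obtain ⟨y, hy⟩ := h90 c hc
  refine ⟨y, ?_⟩
  rw [hy σ]
  simp only [c]
  have h1 : P (idx σ) = P 1 := by
    apply P_congr
    rw [hidx, pow_one]
  rw [h1]
  simp [P]

variable {G B : Type*} [Group G] [Finite G] [CommRing B] [MulSemiringAction G B]
  [IsArtinianRing B] [IsReduced B]

/-- **Semilocal Hilbert 90, cyclic form**: `G = ⟨σ⟩`, every stabiliser acting faithfully on its
residue field: a unit `x` of `B` with `∏_{i < orderOf σ} σ^i • x = 1` is `σ • y / y`. -/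
theorem hilbert90_cyclic [MulDistribMulAction G Bˣ]
    (hB : ∀ (g : G) (u : Bˣ), ((g • u : Bˣ) : B) = g • (u : B))
    (hfaith : ∀ m : Ideal B, m.IsMaximal → FaithfulSMul (MulAction.stabilizer G m) (B ⧸ m))
    (σ : G) (hσ : ∀ g : G, g ∈ Subgroup.zpowers σ) (x : Bˣ)
    (hx : ∏ i ∈ Finset.range (orderOf σ), σ ^ i • x = 1) : ∃ y : Bˣ, x = σ • y / y :=
  cyclic_of_h90 (fun c hc => hilbert90 hB hfaith c hc) σ hσ x hx

end Cyclic

end Fermat.Agent.S55.Global.SemilocalOrbits
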