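import Mathlib
import Fermat.Agent.S55.Global.SemilocalOrbits
import Fermat.Agent.S55.Global.FirstIneqProd

/-!
# S55 / Global / G.first — the semilocal norm index, abstract multi-orbit form

`B` a reduced Artinian commutative ring, `G` a finite group of PRIME order `p` acting on `B`.
A maximal ideal `m` of `B` is either `G`-fixed or has trivial stabiliser.  If for every `G`-fixed
maximal ideal `m` the residue field `E_m = B ⧸ m` has local norm index
`[(E_mˣ)^G : N_G E_mˣ] = p`, then

`[(Bˣ)^G : N_G Bˣ] = p ^ #{G-fixed maximal ideals of B}`.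

(On top of helper23's `SemilocalOrbits`: `B ≅ ∏_{m ∈ R} Coind_{D_m}^G E_m` in element form.)
-/

set_option autoImplicit false
set_option linter.unusedSectionVars false
set_option linter.unusedVariables false

open Pointwise

namespace Fermat.Agent.S55.Global.SemilocalNormIndex

open Fermat.Agent.S55.Global.SemilocalDecomp Fermat.Agent.S55.Global.SemilocalOrbits

attribute [local instance] stabQuotAction
attribute [local instance] Units.mulDistribMulActionRight

section defs

variable {G B : Type*} [Group G] [Fintype G] [CommRing B] [MulSemiringAction G B]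

/-- The `G`-norm on the units of `B`. -/
noncomputable def normG (G : Type*) {B : Type*} [Group G] [Fintype G] [CommRing B]
    [MulSemiringAction G B] : Bˣ →* Bˣ where
  toFun u := ∏ g : G, g • u
  map_one' := by simp
  map_mul' u u' := by simp only [smul_mul']; exact Finset.prod_mul_distrib

/-- The `G`-fixed units of `B`. -/
def fixedG (G : Type*) {B : Type*} [Group G] [CommRing B] [MulSemiringAction G B] :
    Subgroup Bˣ where
  carrier := {u | ∀ g : G, g • u = u}
  one_mem' g := smul_one g
  mul_mem' {a b} ha hb g := by rw [smul_mul', ha g, hb g]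
  inv_mem' {a} ha g := by rw [smul_inv', ha g]

/-- A `G`-fixed maximal ideal. -/
def IsFixedMax (G : Type*) {B : Type*} [Group G] [CommRing B] [MulSemiringAction G B]
    (m : Ideal B) : Prop := m.IsMaximal ∧ ∀ g : G, g • m = m

/-- For a `G`-fixed ideal, every element of `G` lies in the stabiliser. -/
def toStab {m : Ideal B} (hm : ∀ g : G, g • m = m) (g : G) : MulAction.stabilizer G m :=
  ⟨g, hm g⟩

/-- The local norm `e ↦ ∏_g g • e` on `(B ⧸ m)ˣ` for a `G`-fixed ideal `m`. -/
noncomputable def localNorm {m : Ideal B} (hm : ∀ g : G, g • m = m) : (B ⧸ m)ˣ →* (B ⧸ m)ˣ where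
  toFun e := ∏ g : G, toStab hm g • e
  map_one' := by simp
  map_mul' e e' := by simp only [smul_mul']; exact Finset.prod_mul_distrib

/-- The `G`-fixed units of `B ⧸ m` for a `G`-fixed ideal `m`. -/
def localFixed {m : Ideal B} (hm : ∀ g : G, g • m = m) : Subgroup (B ⧸ m)ˣ where
  carrier := {e | ∀ g : G, toStab hm g • e = e}
  one_mem' g := smul_one _
  mul_mem' {a b} ha hb g := by rw [smul_mul', ha g, hb g]
  inv_mem' {a} ha g := by rw [smul_inv', ha g]

end defs

section main

variable {G B : Type*} [Group G] [Fintype G] [CommRing B] [MulSemiringAction G B]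
  [IsArtinianRing B] [IsReduced B]

theorem val_smul_unit (g : G) (u : Bˣ) : ((g • u : Bˣ) : B) = g • (u : B) := rfl

theorem val_smul_unit_quot {m : Ideal B} (d : MulAction.stabilizer G m) (e : (B ⧸ m)ˣ) :
    ((d • e : (B ⧸ m)ˣ) : B ⧸ m) = d • (e : B ⧸ m) := rfl

theorem val_normG (u : Bˣ) : ((normG G u : Bˣ) : B) = ∏ g : G, g • (u : B) := by
  change ((∏ g : G, g • u : Bˣ) : B) = _
  rw [Units.coe_prod]
  rfl

theorem val_localNorm {m : Ideal B} (hm : ∀ g : G, g • m = m) (e : (B ⧸ m)ˣ) :
    ((localNorm hm e : (B ⧸ m)ˣ) : B ⧸ m) = ∏ g : G, toStab hm g • (e : B ⧸ m) := by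
  change ((∏ g : G, toStab hm g • e : (B ⧸ m)ˣ) : B ⧸ m) = _
  rw [Units.coe_prod]
  rfl

theorem smul_prod_smul (h : G) (b : B) : h • (∏ g : G, g • b) = ∏ g : G, g • b := by
  rw [Finset.smul_prod']
  simp only [← mul_smul]
  exact Fintype.prod_equiv (Equiv.mulLeft h) _ _ (fun g => rfl)

theorem normG_mem_fixedG (u : Bˣ) : normG G u ∈ fixedG G := by
  intro h
  apply Units.ext
  rw [val_smul_unit, val_normG, smul_prod_smul]

/-- A fixed maximal ideal belongs to every set of orbit representatives. -/
theorem mem_of_isFixedMax {R : Set (Ideal B)} (hR : IsRepSet G R) {m : Ideal B}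
    (hm : IsFixedMax G m) : m ∈ R := by
  obtain ⟨m', hm', g, hg⟩ := hR.exists_smul m hm.1
  have : m' = m := by
    have h1 : g⁻¹ • m = m' := by rw [hg, inv_smul_smul]
    rw [← h1, hm.2]
  rw [← this]; exact hm'

/-- For `G` of prime order, a non-fixed maximal ideal has trivial stabiliser. -/
theorem stabilizer_eq_bot {p : ℕ} (hp : p.Prime) (hcard : Nat.card G = p) {m : Ideal B}
    (hm : ¬ ∀ g : G, g • m = m) : MulAction.stabilizer G m = ⊥ := by
  have : Fact (Nat.card G).Prime := ⟨hcard ▸ hp⟩
  rcases Subgroup.eq_bot_or_eq_top_of_prime_card (MulAction.stabilizer G m) with h | h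
  · exact h
  · exfalso
    apply hm
    intro g
    have : g ∈ MulAction.stabilizer G m := by rw [h]; trivial
    exact MulAction.mem_stabilizer_iff.mp this

/-- The index type: the `G`-fixed maximal ideals of `B`. -/
abbrev FixedMax (G B : Type*) [Group G] [CommRing B] [MulSemiringAction G B] : Type _ :=
  {m : Ideal B // IsFixedMax G m}

instance : Finite (FixedMax G B) := by
  have hinj : Function.Injective (fun i : FixedMax G B => (⟨i.1, i.2.1⟩ : MaximalSpectrum B)) := by
    intro i j h
    apply Subtype.ext
    exact congrArg MaximalSpectrum.asIdeal h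
  exact Finite.of_injective _ hinj

/-- The reduction maps `Bˣ → ∏_{m fixed} (B ⧸ m)ˣ`. -/
noncomputable def Psi (G B : Type*) [Group G] [CommRing B] [MulSemiringAction G B] :
    Bˣ →* ∀ i : FixedMax G B, (B ⧸ i.1)ˣ :=
  MonoidHom.pi (fun i => Units.map (Ideal.Quotient.mk i.1 : B →+* B ⧸ i.1).toMonoidHom)

theorem val_Psi (u : Bˣ) (i : FixedMax G B) :
    ((Psi G B u i : (B ⧸ i.1)ˣ) : B ⧸ i.1) = Ideal.Quotient.mk i.1 (u : B) := rfl

theorem Psi_normG (u : Bˣ) (i : FixedMax G B) :
    Psi G B (normG G u) i = localNorm i.2.2 (Psi G B u i) := by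
  apply Units.ext
  rw [val_Psi, val_normG, val_localNorm, map_prod]
  refine Finset.prod_congr rfl (fun g _ => ?_)
  rw [val_Psi]
  exact (stabQuotAction_mk i.1 (toStab i.2.2 g) (u : B)).symm

theorem Psi_mem_localFixed {u : Bˣ} (hu : u ∈ fixedG G) (i : FixedMax G B) :
    Psi G B u i ∈ localFixed i.2.2 := by
  intro g
  apply Units.ext
  rw [val_smul_unit_quot, val_Psi, stabQuotAction_mk]
  congr 1
  have := hu g
  exact congrArg (fun v : Bˣ => (v : B)) this

end main

section key

variable {G B : Type*} [Group G] [Fintype G] [CommRing B] [MulSemiringAction G B]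
  [IsArtinianRing B] [IsReduced B]

/-- **Surjectivity**: every family of local fixed units comes from a `G`-fixed unit of `B`. -/
theorem exists_fixed_unit (e : ∀ i : FixedMax G B, (B ⧸ i.1)ˣ)
    (he : ∀ i, e i ∈ localFixed i.2.2) : ∃ u : Bˣ, u ∈ fixedG G ∧ Psi G B u = e := by
  classical
  obtain ⟨R, hR⟩ := exists_isRepSet G B
  let f : ∀ m : Ideal B, G → B ⧸ m := fun m _ =>
    if h : IsFixedMax G m then ((e ⟨m, h⟩ : (B ⧸ m)ˣ) : B ⧸ m) else 1
  have hf : ∀ m ∈ R, ∀ (d : MulAction.stabilizer G m) (g : G), f m (d.1 * g) = d • f m g := by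
    intro m hm d g
    by_cases h : IsFixedMax G m
    · simp only [f, dif_pos h]
      have h1 := he ⟨m, h⟩ d.1
      have h2 : toStab h.2 d.1 = d := Subtype.ext rfl
      rw [h2] at h1
      have h3 := congrArg (fun v : (B ⧸ m)ˣ => (v : B ⧸ m)) h1
      exact h3.symm
    · simp only [f, dif_neg h]
      exact (smul_one d).symm
  obtain ⟨b, hb⟩ := exists_of_rep hR f hf
  have hunit : IsUnit b := by
    apply isUnit_of_forall_rep hR
    intro m hm g
    have hmax := hR.isMaximal m hm
    have hnt : Nontrivial (B ⧸ m) := Ideal.Quotient.nontrivial_iff.mpr hmax.ne_top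
    rw [hb m hm g]
    by_cases h : IsFixedMax G m
    · simp only [f, dif_pos h]; exact Units.ne_zero _
    · simp only [f, dif_neg h]; exact one_ne_zero
  refine ⟨hunit.unit, ?_, ?_⟩
  · intro h
    apply Units.ext
    rw [val_smul_unit, IsUnit.unit_spec]
    apply eq_of_forall_rep hR
    intro m hm g
    rw [← mul_smul, hb m hm (g * h), hb m hm g]
  · funext i
    apply Units.ext
    rw [val_Psi, IsUnit.unit_spec]
    have hi : i.1 ∈ R := mem_of_isFixedMax hR i.2
    have := hb i.1 hi 1
    rw [one_smul] at this
    rw [this]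
    simp only [f, dif_pos i.2]

/-- **Norm criterion**: a `G`-fixed unit of `B` is a norm iff it is a local norm at every `G`-fixed
maximal ideal (`G` of prime order). -/
theorem mem_range_normG_iff {p : ℕ} (hp : p.Prime) (hcard : Nat.card G = p) {u : Bˣ}
    (hu : u ∈ fixedG G) :
    u ∈ (normG G (B := B)).range ↔ ∀ i : FixedMax G B, Psi G B u i ∈ (localNorm i.2.2).range := by
  classical
  constructor
  · rintro ⟨w, rfl⟩ i
    exact ⟨Psi G B w i, (Psi_normG w i).symm⟩
  · intro h
    choose w hw using h
    obtain ⟨R, hR⟩ := exists_isRepSet G B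
    let f : ∀ m : Ideal B, G → B ⧸ m := fun m g =>
      if h : IsFixedMax G m then toStab h.2 g • ((w ⟨m, h⟩ : (B ⧸ m)ˣ) : B ⧸ m)
      else (if g = 1 then Ideal.Quotient.mk m (u : B) else 1)
    have hf : ∀ m ∈ R, ∀ (d : MulAction.stabilizer G m) (g : G), f m (d.1 * g) = d • f m g := by
      intro m hm d g
      by_cases h : IsFixedMax G m
      · simp only [f, dif_pos h]
        have h2 : toStab h.2 (d.1 * g) = d * toStab h.2 g := Subtype.ext rfl
        rw [h2, mul_smul]
      · simp only [f, dif_neg h]
        have hmax := hR.isMaximal m hm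
        have hbot := stabilizer_eq_bot hp hcard (m := m) (fun hfix => h ⟨hmax, hfix⟩)
        have hd : d = 1 := by
          apply Subtype.ext
          have h1 : ∀ x : G, x ∈ MulAction.stabilizer G m → x = 1 := by
            intro x hx
            rw [hbot, Subgroup.mem_bot] at hx
            exact hx
          exact h1 d.1 d.2
        rw [hd, one_smul]
        simp
    obtain ⟨b, hb⟩ := exists_of_rep hR f hf
    have hunit : IsUnit b := by
      apply isUnit_of_forall_rep hR
      intro m hm g
      have hmax := hR.isMaximal m hm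
      have hnt : Nontrivial (B ⧸ m) := Ideal.Quotient.nontrivial_iff.mpr hmax.ne_top
      rw [hb m hm g]
      by_cases h : IsFixedMax G m
      · simp only [f, dif_pos h]
        rw [← val_smul_unit_quot]
        exact Units.ne_zero _
      · simp only [f, dif_neg h]
        by_cases hg : g = 1
        · rw [if_pos hg]
          exact (u.isUnit.map (Ideal.Quotient.mk m)).ne_zero
        · rw [if_neg hg]; exact one_ne_zero
    refine ⟨hunit.unit, ?_⟩
    apply Units.ext
    rw [val_normG, IsUnit.unit_spec]
    apply eq_of_forall_rep hR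
    intro m hm g
    have hug : g • (u : B) = u := by
      have := hu g
      exact congrArg (fun v : Bˣ => (v : B)) this
    rw [smul_prod_smul, hug, map_prod]
    simp only [hb m hm]
    by_cases h : IsFixedMax G m
    · simp only [f, dif_pos h]
      rw [← val_localNorm, hw ⟨m, h⟩, val_Psi]
    · simp only [f, dif_neg h]
      rw [Finset.prod_ite_eq' Finset.univ (1 : G) (fun _ => Ideal.Quotient.mk m (u : B))]
      simp

end key

section index

variable {G B : Type*} [Group G] [Fintype G] [CommRing B] [MulSemiringAction G B]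
  [IsArtinianRing B] [IsReduced B]

/-- **The semilocal norm index** for a group of prime order `p`:
`[(Bˣ)^G : N_G Bˣ] = p ^ #{G-fixed maximal ideals}`, given the local norm index `p` at every
`G`-fixed maximal ideal. -/
theorem normIndex_eq {p : ℕ} (hp : p.Prime) (hcard : Nat.card G = p)
    (hloc : ∀ i : FixedMax G B, (localNorm i.2.2).range.relIndex (localFixed i.2.2) = p) :
    (normG G (B := B)).range.relIndex (fixedG G) = p ^ Nat.card (FixedMax G B) := by
  classical
  have hft : Fintype (FixedMax G B) := Fintype.ofFinite _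
  have h1 : (normG G (B := B)).range ⊓ fixedG G =
      ((Subgroup.pi Set.univ (fun i : FixedMax G B => (localNorm i.2.2).range)).comap (Psi G B)) ⊓
        fixedG G := by
    ext u
    simp only [Subgroup.mem_inf, Subgroup.mem_comap, Subgroup.mem_pi, Set.mem_univ, forall_true_left]
    constructor
    · rintro ⟨hN, hu⟩
      exact ⟨fun i => (mem_range_normG_iff hp hcard hu).mp hN i, hu⟩
    · rintro ⟨hP, hu⟩
      exact ⟨(mem_range_normG_iff hp hcard hu).mpr hP, hu⟩
  have h2 : (fixedG G).map (Psi G B) =
      Subgroup.pi Set.univ (fun i : FixedMax G B => localFixed i.2.2) := by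
    ext e
    simp only [Subgroup.mem_map, Subgroup.mem_pi, Set.mem_univ, forall_true_left]
    constructor
    · rintro ⟨u, hu, rfl⟩ i
      exact Psi_mem_localFixed hu i
    · intro he
      obtain ⟨u, hu, rfl⟩ := exists_fixed_unit e he
      exact ⟨u, hu, rfl⟩
  rw [← Subgroup.inf_relIndex_right, h1, Subgroup.inf_relIndex_right, Subgroup.relIndex_comap, h2,
    FirstIneqProd.relIndex_pi]
  simp_rw [hloc]
  rw [Finset.prod_const, Finset.card_univ, Nat.card_eq_fintype_card]

end index

end Fermat.Agent.S55.Global.SemilocalNormIndex
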