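import Mathlib
import Fermat.Agent.S55.Global.FirstIneq2H90
import Fermat.Agent.S55.Global.SemilocalNormIndex
import Fermat.Agent.S55.Global.PlaceAct

/-!
# S55 / Global / G.first — the semilocal norm index `(SL-0)` from the local norm index

For number fields `K ⊆ L`, `L/K` Galois of prime degree `p` with `Gal(L/K) = ⟨σ⟩`, and a rational
prime `q`, put `B := L ⊗[ℚ] ℚ_[q]`, `G := Gal(L/K)` acting through `resHom` (helper23's
`SemilocalH90Q.actK`).  This file

* identifies `FirstIneqDefs.normIndexAt (K := ℚ) ℚ_[q] p (resHom K L σ)` with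
  `(normG G).range.relIndex (fixedG G)` of `SemilocalNormIndex.lean`;
* identifies `Nat.card (FixedMax G B)` with helper71's `PlaceAct.card_fixed` count;
* hence, from the local norm index at the `G`-fixed maximal ideals (`HlocAt`), proves
  `normIndexAt … = p ^ nonsplit K L (placesOverQ K {q})`, i.e. `FirstIneq2.SemilocalNormIndexQ p`,
  and `Blocks2.FirstIneq p`.
-/

set_option autoImplicit false
set_option linter.unusedSectionVars false
set_option linter.unusedVariables false
set_option linter.style.haveILetI false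

open NumberField TensorProduct
open scoped Pointwise

namespace Fermat.Agent.S55.Global.SemilocalIndexQ

open Fermat.Agent.S55.Global.Objects Fermat.Agent.S55.Global.Objects2
open Fermat.Agent.S55.Global.FirstIneqDefs Fermat.Agent.S55.Global.FirstIneq2
open Fermat.Agent.S55.Global.SemilocalDecomp Fermat.Agent.S55.Global.SemilocalNormIndex

attribute [local instance] stabQuotAction
attribute [local instance] Units.mulDistribMulActionRight

section bridge

variable (K L : Type) [Field K] [NumberField K] [Field L] [NumberField L] [Algebra K L]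
variable (A : Type) [CommRing A] [Algebra ℚ A]

/-- The local norm index hypothesis at the `Gal(L/K)`-fixed maximal ideals of `L ⊗[ℚ] A`. -/
def HlocAt [Fintype (L ≃ₐ[K] L)] (p : ℕ) : Prop :=
  letI := SemilocalH90Q.actK K L A
  ∀ i : FixedMax (L ≃ₐ[K] L) (L ⊗[ℚ] A),
    (localNorm i.2.2).range.relIndex (localFixed i.2.2) = p

variable {K L}

theorem smul_unit_eq (g : L ≃ₐ[K] L) (u : (L ⊗[ℚ] A)ˣ) :
    letI := SemilocalH90Q.actK K L A
    (g • u : (L ⊗[ℚ] A)ˣ) = resHom K L g • u := by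
  letI := SemilocalH90Q.actK K L A
  exact Units.ext rfl

theorem orderOf_eq [IsGalois K L] {p : ℕ} (hdeg : Module.finrank K L = p) {σ : L ≃ₐ[K] L}
    (hgen : ∀ τ : L ≃ₐ[K] L, τ ∈ Subgroup.zpowers σ) : orderOf σ = p := by
  have : FiniteDimensional K L := Module.Finite.of_restrictScalars_finite ℚ K L
  rw [← hdeg, ← IsGalois.card_aut_eq_finrank K L, ← Nat.card_zpowers]
  have : Subgroup.zpowers σ = ⊤ := by
    rw [eq_top_iff]; intro τ _; exact hgen τ
  rw [this, Subgroup.card_top]

theorem normU_eq_normG [IsGalois K L] [Fintype (L ≃ₐ[K] L)] {p : ℕ}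
    (hdeg : Module.finrank K L = p) {σ : L ≃ₐ[K] L}
    (hgen : ∀ τ : L ≃ₐ[K] L, τ ∈ Subgroup.zpowers σ) :
    letI := SemilocalH90Q.actK K L A
    normU (K := ℚ) A p (resHom K L σ) = normG (L ≃ₐ[K] L) (B := L ⊗[ℚ] A) := by
  letI := SemilocalH90Q.actK K L A
  classical
  ext1 u
  show ∏ i ∈ Finset.range p, (resHom K L σ) ^ i • u = ∏ g : L ≃ₐ[K] L, g • u
  have hord := orderOf_eq hdeg hgen
  rw [← IsCyclic.image_range_orderOf hgen, Finset.prod_image, hord]
  · refine Finset.prod_congr rfl fun i _ => ?_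
    rw [smul_unit_eq, map_pow]
  · intro i hi j hj hij
    rw [Finset.coe_range] at hi hj
    exact pow_injOn_Iio_orderOf hi hj hij

theorem fixedU_eq_fixedG {σ : L ≃ₐ[K] L}
    (hgen : ∀ τ : L ≃ₐ[K] L, τ ∈ Subgroup.zpowers σ) :
    letI := SemilocalH90Q.actK K L A
    fixedU (K := ℚ) A (resHom K L σ) = fixedG (L ≃ₐ[K] L) (B := L ⊗[ℚ] A) := by
  letI := SemilocalH90Q.actK K L A
  ext u
  constructor
  · intro hu g
    have hσ : σ ∈ MulAction.stabilizer (L ≃ₐ[K] L) u := by
      rw [MulAction.mem_stabilizer_iff, smul_unit_eq]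
      exact hu
    have hle : Subgroup.zpowers σ ≤ MulAction.stabilizer (L ≃ₐ[K] L) u :=
      (Subgroup.zpowers_le).2 hσ
    exact MulAction.mem_stabilizer_iff.1 (hle (hgen g))
  · intro hu
    show resHom K L σ • u = u
    rw [← smul_unit_eq]
    exact hu σ

theorem normIndexAt_eq [IsGalois K L] [Fintype (L ≃ₐ[K] L)] {p : ℕ}
    (hdeg : Module.finrank K L = p) {σ : L ≃ₐ[K] L}
    (hgen : ∀ τ : L ≃ₐ[K] L, τ ∈ Subgroup.zpowers σ) :
    letI := SemilocalH90Q.actK K L A
    normIndexAt (K := ℚ) A p (resHom K L σ) =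
      (normG (L ≃ₐ[K] L) (B := L ⊗[ℚ] A)).range.relIndex (fixedG (L ≃ₐ[K] L)) := by
  letI := SemilocalH90Q.actK K L A
  unfold normIndexAt
  rw [normU_eq_normG A hdeg hgen, fixedU_eq_fixedG A hgen]

/-- The pointwise action on ideals through `actK` is the pointwise action of `resHom`. -/
theorem smul_ideal_eq (g : L ≃ₐ[K] L) (m : Ideal (L ⊗[ℚ] A)) :
    letI := SemilocalH90Q.actK K L A
    (g • m : Ideal (L ⊗[ℚ] A)) = resHom K L g • m := by
  letI := SemilocalH90Q.actK K L A
  rfl

/-- `FixedMax` in terms of a generator. -/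
noncomputable def fixedMaxEquiv {σ : L ≃ₐ[K] L}
    (hgen : ∀ τ : L ≃ₐ[K] L, τ ∈ Subgroup.zpowers σ) :
    letI := SemilocalH90Q.actK K L A
    FixedMax (L ≃ₐ[K] L) (L ⊗[ℚ] A) ≃
      {m : Ideal (L ⊗[ℚ] A) // m.IsMaximal ∧ resHom K L σ • m = m} := by
  letI := SemilocalH90Q.actK K L A
  refine Equiv.subtypeEquivRight fun m => ?_
  constructor
  · rintro ⟨hm, hfix⟩
    exact ⟨hm, by rw [← smul_ideal_eq]; exact hfix σ⟩
  · rintro ⟨hm, hfix⟩
    refine ⟨hm, fun g => ?_⟩
    have hσ : σ ∈ MulAction.stabilizer (L ≃ₐ[K] L) m := by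
      rw [MulAction.mem_stabilizer_iff, smul_ideal_eq]
      exact hfix
    have hle : Subgroup.zpowers σ ≤ MulAction.stabilizer (L ≃ₐ[K] L) m :=
      (Subgroup.zpowers_le).2 hσ
    exact MulAction.mem_stabilizer_iff.1 (hle (hgen g))

end bridge

section main

variable {K L : Type} [Field K] [NumberField K] [Field L] [NumberField L] [Algebra K L]
  [IsGalois K L]

/-- **(SL-0) at one rational prime** from the local norm index at the fixed maximal ideals. -/
theorem normIndexAt_eq_pow [Fintype (L ≃ₐ[K] L)] {p : ℕ} (hp : p.Prime)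
    (hdeg : Module.finrank K L = p) {σ : L ≃ₐ[K] L}
    (hgen : ∀ τ : L ≃ₐ[K] L, τ ∈ Subgroup.zpowers σ) (q : Nat.Primes)
    (hloc : HlocAt K L ℚ_[((q : Nat.Primes) : ℕ)] p) :
    normIndexAt (K := ℚ) ℚ_[((q : Nat.Primes) : ℕ)] p (resHom K L σ) =
      p ^ SUnitHerbrand.nonsplit K L (placesOverQ K {q}) := by
  letI := SemilocalH90Q.actK K L ℚ_[((q : Nat.Primes) : ℕ)]
  have : FiniteDimensional K L := Module.Finite.of_restrictScalars_finite ℚ K L
  haveI : IsArtinianRing (L ⊗[ℚ] ℚ_[((q : Nat.Primes) : ℕ)]) :=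
    PlaceBij.isArtinianRing_semi L (q : ℕ)
  haveI : IsReduced (L ⊗[ℚ] ℚ_[((q : Nat.Primes) : ℕ)]) :=
    SemilocalH90.isReduced_tensor_field ℚ L ℚ_[((q : Nat.Primes) : ℕ)]
  have hcard : Nat.card (L ≃ₐ[K] L) = p := by
    rw [IsGalois.card_aut_eq_finrank K L, hdeg]
  rw [normIndexAt_eq _ hdeg hgen, normIndex_eq hp hcard hloc,
    Nat.card_congr (fixedMaxEquiv _ hgen), PlaceAct.card_fixed K L σ hgen q]

end main

section closed

/-- **(hloc)**, closed form: the local norm index `[(E_mˣ)^G : N_G E_mˣ] = p` at every `G`-fixed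
maximal ideal `m` of `L ⊗[ℚ] ℚ_[q]`, `G = Gal(L/K)` of degree `p`.  (Export of G.first.hloc.) -/
def HlocQ (p : ℕ) : Prop :=
  ∀ (K L : Type) [Field K] [NumberField K] [Field L] [NumberField L] [Algebra K L] [IsGalois K L]
    [Fintype (L ≃ₐ[K] L)], Module.finrank K L = p →
    ∀ q : Nat.Primes, HlocAt K L ℚ_[((q : Nat.Primes) : ℕ)] p

/-- **(SL-0)** per rational prime, from (hloc). -/
theorem semilocalNormIndexQ_of_hloc {p : ℕ} (hp : p.Prime) (h : HlocQ p) :
    SemilocalNormIndexQ p := by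
  intro K L _ _ _ _ _ _ σ hdeg hgen q
  classical
  have := SemilocalH90Q.finite_gal K L
  letI : Fintype (L ≃ₐ[K] L) := Fintype.ofFinite _
  exact normIndexAt_eq_pow hp hdeg hgen q (h K L hdeg q)

/-- **The first inequality** from (hloc). -/
theorem firstIneq_of_hloc (p : ℕ) (h : p.Prime → HlocQ p) : Blocks2.FirstIneq p := by
  by_cases hp : p.Prime
  · exact FirstIneq2H90.firstIneq_of_normIndexQ p (semilocalNormIndexQ_of_hloc hp (h hp))
  · intro K L _ _ _ _ _ _ T σ hS
    exact absurd hS.prime hp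

end closed

end Fermat.Agent.S55.Global.SemilocalIndexQ
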