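import Mathlib
import Fermat.Agent.S55.Global.FixedFieldNorm
import Fermat.Agent.S55.Global.SemilocalIndexQ
import Fermat.Agent.S55.Local.AlgLFGroup

/-!
# S55 / Global / G.first — the first inequality, unconditional

* `hlocAt` : for `L/K` Galois of prime degree `p` and a rational prime `q`, at every
  `Gal(L/K)`-fixed maximal ideal `m` of `L ⊗[ℚ] ℚ_[q]` the local norm index
  `[(E_mˣ)^G : N_G E_mˣ]` is `p` (`E_m` is a finite extension of `ℚ_[q]`, `G` acts faithfully on it
  (helper23), `E_m / E_m^G` is cyclic of degree `p` (Artin, `FixedFieldNorm.lean`), local norm index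
  theorem `AlgLF.normIndexCyclic` (helper36 / Local block)).
* `semilocalNormIndexQ : p.Prime → FirstIneq2.SemilocalNormIndexQ p`   **(SL-0)**
* `firstIneq : Blocks2.FirstIneq p`   **(row G.first)**: `h0 ≠ 0 ∧ h0 = p * h1` on `C_{L,T}` for a
  cyclic layer of degree `p`.
-/

set_option autoImplicit false
set_option linter.unusedSectionVars false
set_option linter.unusedVariables false
set_option linter.style.haveILetI false

open scoped Pointwise
open NumberField TensorProduct

namespace Fermat.Agent.S55.Global.FirstIneqFinal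

open Fermat.Agent.S55.Global.SemilocalDecomp Fermat.Agent.S55.Global.SemilocalNormIndex
open Fermat.Agent.S55.Global.FixedFieldNorm
open Fermat.Agent.S55.Global.Objects Fermat.Agent.S55.Global.Objects2
open Fermat.Agent.S55.Global.SemilocalIndexQ
open Fermat.Agent.S55.Local

attribute [local instance] stabQuotAction
attribute [local instance] Units.mulDistribMulActionRight

section toStab

variable {G B : Type*} [Group G] [Fintype G] [CommRing B] [MulSemiringAction G B]

theorem toStab_bijective {m : Ideal B} (hm : ∀ g : G, g • m = m) :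
    Function.Bijective (toStab hm) :=
  ⟨fun g g' h => congrArg Subtype.val h, fun d => ⟨d.1, Subtype.ext rfl⟩⟩

theorem localNorm_eq_normD {m : Ideal B} [m.IsMaximal] (hm : ∀ g : G, g • m = m)
    [Fintype (MulAction.stabilizer G m)] :
    letI := Ideal.Quotient.field m
    localNorm hm = normD (MulAction.stabilizer G m) (B ⧸ m) := by
  letI := Ideal.Quotient.field m
  ext1 e
  show ∏ g : G, toStab hm g • e = ∏ d : MulAction.stabilizer G m, d • e
  exact Fintype.prod_equiv (Equiv.ofBijective _ (toStab_bijective hm)) _ _ (fun g => rfl)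

theorem localFixed_eq_fixedD {m : Ideal B} [m.IsMaximal] (hm : ∀ g : G, g • m = m) :
    letI := Ideal.Quotient.field m
    localFixed hm = fixedD (MulAction.stabilizer G m) (B ⧸ m) := by
  letI := Ideal.Quotient.field m
  ext e
  constructor
  · intro he d
    exact he d.1
  · intro he g
    exact he (toStab hm g)

theorem card_stabilizer {m : Ideal B} (hm : ∀ g : G, g • m = m) :
    Nat.card (MulAction.stabilizer G m) = Nat.card G :=
  (Nat.card_congr (Equiv.ofBijective _ (toStab_bijective hm))).symm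

end toStab

section concrete

attribute [local instance] Algebra.TensorProduct.rightAlgebra

variable (K L : Type) [Field K] [NumberField K] [Field L] [NumberField L] [Algebra K L]
  [IsGalois K L] [Fintype (L ≃ₐ[K] L)]
variable (q : ℕ) [Fact q.Prime]

theorem hlocAt {p : ℕ} (hp : p.Prime) (hdeg : Module.finrank K L = p) :
    HlocAt K L ℚ_[q] p := by
  letI := SemilocalH90Q.actK K L ℚ_[q]
  rintro ⟨m, hmax, hm⟩
  show (localNorm hm).range.relIndex (localFixed hm) = p
  haveI := hmax
  letI := Ideal.Quotient.field m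
  classical
  have : FiniteDimensional K L := Module.Finite.of_restrictScalars_finite ℚ K L
  have hcard : Nat.card (L ≃ₐ[K] L) = p := by
    rw [IsGalois.card_aut_eq_finrank K L, hdeg]
  have hact : ∀ (g : L ≃ₐ[K] L) (l : L) (a : ℚ_[q]),
      g • (l ⊗ₜ[ℚ] a : L ⊗[ℚ] ℚ_[q]) = (g • l) ⊗ₜ[ℚ] a := fun _ _ _ => rfl
  haveI hfaith : FaithfulSMul (MulAction.stabilizer (L ≃ₐ[K] L) m) ((L ⊗[ℚ] ℚ_[q]) ⧸ m) :=
    SemilocalH90.faithful_stab (k := ℚ) hact m hmax
  have hfinB : Module.Finite ℚ_[q] (L ⊗[ℚ] ℚ_[q]) := PlaceBij.finite_semi L q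
  haveI hfinE : FiniteDimensional ℚ_[q] ((L ⊗[ℚ] ℚ_[q]) ⧸ m) :=
    Module.Finite.of_surjective (Ideal.Quotient.mkₐ ℚ_[q] m).toLinearMap
      (Ideal.Quotient.mkₐ_surjective ℚ_[q] m)
  haveI hcomm : SMulCommClass (MulAction.stabilizer (L ≃ₐ[K] L) m) ℚ_[q]
      ((L ⊗[ℚ] ℚ_[q]) ⧸ m) := by
    refine ⟨fun d c x => ?_⟩
    obtain ⟨b, rfl⟩ := Ideal.Quotient.mk_surjective x
    have h1 : c • (Ideal.Quotient.mk m b) = Ideal.Quotient.mk m (c • b) := rfl
    rw [h1, stabQuotAction_mk, stabQuotAction_mk]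
    change _ = Ideal.Quotient.mk m (c • (d.1 • b))
    congr 1
    rw [Algebra.smul_def, Algebra.smul_def, smul_mul']
    congr 1
    show d.1 • ((1 : L) ⊗ₜ[ℚ] c : L ⊗[ℚ] ℚ_[q]) = (1 : L) ⊗ₜ[ℚ] c
    rw [hact, smul_one]
  have hcardD : Nat.card (MulAction.stabilizer (L ≃ₐ[K] L) m) = p := by
    rw [card_stabilizer hm, hcard]
  rw [localNorm_eq_normD, localFixed_eq_fixedD, relIndex_eq]
  letI := AlgLFGroup.algebraFixed q ((L ⊗[ℚ] ℚ_[q]) ⧸ m) (MulAction.stabilizer (L ≃ₐ[K] L) m)
  haveI := AlgLFGroup.finiteDimensional_fixed q ((L ⊗[ℚ] ℚ_[q]) ⧸ m)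
    (MulAction.stabilizer (L ≃ₐ[K] L) m)
  haveI := isCyclic_aut (MulAction.stabilizer (L ≃ₐ[K] L) m) ((L ⊗[ℚ] ℚ_[q]) ⧸ m) hp hcardD
  have h := AlgLF.normIndexCyclic q
    (FixedPoints.subfield (MulAction.stabilizer (L ≃ₐ[K] L) m) ((L ⊗[ℚ] ℚ_[q]) ⧸ m))
    ((L ⊗[ℚ] ℚ_[q]) ⧸ m)
  rw [finrank_eq, hcardD] at h
  exact h

end concrete

section final

/-- **(hloc)**, closed form. -/
theorem hlocQ {p : ℕ} (hp : p.Prime) : HlocQ p := by
  intro K L _ _ _ _ _ _ _ hdeg q
  exact hlocAt K L (q : ℕ) hp hdeg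

/-- **(SL-0)**: the semilocal norm index at every rational prime. -/
theorem semilocalNormIndexQ {p : ℕ} (hp : p.Prime) : FirstIneq2.SemilocalNormIndexQ p :=
  semilocalNormIndexQ_of_hloc hp (hlocQ hp)

/-- **Row G.first: the first inequality**, unconditional. -/
theorem firstIneq (p : ℕ) : Blocks2.FirstIneq p :=
  firstIneq_of_hloc p (fun hp => hlocQ hp)

end final

end Fermat.Agent.S55.Global.FirstIneqFinal
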