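/-
S55 / Global / G.bridge2 (helper54, row-holder): **the second inequality for the `T`-idele class
module**, `Blocks2.SecondIneq p`, UNCONDITIONALLY.

Assembly: helper96's `Bridge2Surj.secondIneq_of` (X, δ, hunit, hnorm, hray, hsurj on top of
helper42's `Bridge2AbsQ.card_le_finrank_of_deltaQ` and the analytic ray-class second inequality)
fed with the four inputs of `Bridge2Inputs` (PowClose = `TensorLattice`, ApproxPow = helper2's
`ApproxPowQ`, (L7)/(L8) = helper38's `DescentUnits`/`DescentTensorQ`).
-/
import Mathlib
import Fermat.Agent.S55.Global.Bridge2Surj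
import Fermat.Agent.S55.Global.Bridge2Inputs

set_option autoImplicit false
set_option linter.unusedSectionVars false

open NumberField IsDedekindDomain TensorProduct

namespace Fermat.Agent.S55.Global.SecondIneqBridge

open Fermat.Agent.S55.Global.Objects Fermat.Agent.S55.Global.Objects2
open Fermat.Agent.S55.Global.Blocks2 Fermat.Agent.S55.Global.Bridge2Abs
open Fermat.Agent.S55.Global.Bridge2AbsQ Fermat.Agent.S55.Global.Bridge2Units
open Fermat.Agent.S55.Global

theorem l7Prop (p : ℕ) : Bridge2Surj.L7Prop p := by
  intro K L _ _ _ _ _ _ T hadm u h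
  exact Bridge2Inputs.exists_fixed_of_class_fixed hadm u h

theorem l8Prop : Bridge2Surj.L8Prop := by
  intro K L _ _ _ _ _ _ T u h
  exact Bridge2Inputs.exists_baseUnits_of_fixed_JU u h

theorem approxPowProp (p : ℕ) (hp : p ≠ 0) : Bridge2Surj.ApproxPowProp p := by
  intro K _ _ T _ y
  exact Bridge2Inputs.approxPow_JU p hp y

theorem powCloseProp (p : ℕ) : Bridge2Surj.PowCloseProp p := by
  intro hp K _ _ T a ha h
  exact Bridge2Inputs.powClose_JU p hp a ha h

/-- **The second inequality** `h0 ≤ p` (and `h0 ≠ 0`) for a cyclic layer of degree `p`. -/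
theorem secondIneq (p : ℕ) : Blocks2.SecondIneq p := by
  by_cases hp : p = 0
  · subst hp
    intro K L _ _ _ _ _ _ T σ hs
    exact absurd hs.prime Nat.not_prime_zero
  · exact Bridge2Surj.secondIneq_of (l7Prop p) l8Prop (approxPowProp p hp) (powCloseProp p)

end Fermat.Agent.S55.Global.SecondIneqBridge
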