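import Mathlib
import Fermat.Agent.S55.Global.FirstIneqFinal
import Fermat.Agent.S55.Global.SecondIneqBridge
import Fermat.Agent.S55.Global.CyclicLayerInstQ
import Fermat.Agent.S55.Global.DevissageFinal

/-!
# S55 / Global — the cyclic layer, unconditional

Both inequalities are on main (`FirstIneqFinal.firstIneq`, `SecondIneqBridge.secondIneq`); hence

* `cyclicLayer p : Blocks2.CyclicLayer p`   (`h0 = p`, `h1 = 1` for every cyclic layer of degree `p`);
* `cyclicCoh p   : Blocks2.CyclicCoh p`     (`H¹ = 0`, `#H² = p`);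
* `h1Vanish_of_descent`, `h2CardDvd_of_descent` : (G-i) and weak (G-ii) from the descent row alone.
-/

set_option autoImplicit false

namespace Fermat.Agent.S55.Global.CyclicLayerFinal

open Fermat.Agent.S55.Global.Blocks2

/-- **Cyclic layer**: `h0 = p`, `h1 = 1`. Unconditional. -/
theorem cyclicLayer (p : ℕ) : CyclicLayer p :=
  cyclicLayer_of_ineqs (FirstIneqFinal.firstIneq p) (SecondIneqBridge.secondIneq p)

/-- **Row G.cyclic**: `H¹(C_{L,T}) = 0`, `#H²(C_{L,T}) = p` for a cyclic layer. Unconditional. -/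
theorem cyclicCoh (p : ℕ) : CyclicCoh p :=
  CyclicLayerInstQ.cyclicCoh_of_ineqs (FirstIneqFinal.firstIneq p) (SecondIneqBridge.secondIneq p)

/-- **(G-i)** from descent alone. -/
theorem h1Vanish_of_descent {p : ℕ} (hD : DevissageFinal.DescentFixedQ p) : H1Vanish p :=
  DevissageFinal.h1Vanish_of_ineqs (FirstIneqFinal.firstIneq p) (SecondIneqBridge.secondIneq p) hD

/-- **(G-ii, weak form)** from descent alone. -/
theorem h2CardDvd_of_descent {p : ℕ} (hD : DevissageFinal.DescentFixedQ p) :
    H2CardDvd p :=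
  DevissageFinal.h2CardDvd_of_ineqs (FirstIneqFinal.firstIneq p) (SecondIneqBridge.secondIneq p) hD

end Fermat.Agent.S55.Global.CyclicLayerFinal
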