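/-
S55 / GLOBAL block, row `G.cyclic` (helper84): instantiation of `Global/CyclicClass.lean` for the
`T`-idele class module `C K L T` of `Global/Objects.lean`, in the vocabulary of `Global/Blocks.lean`.

* `card_H2_eq_h0`, `card_H1_eq_h1`: `#H²(G, C_{L,T}) = h0`, `#H¹(G, C_{L,T}) = h1` for a cyclic layer;
* `cyclicLayer_cohomology`: `CyclicLayer p` ⟹ `H¹ = 0`, `#H² = p`, `H²` cyclic (generated by one
  class) for every `CyclicSetting`;
* `cyclic_of_ineqs`: the same from `FirstIneq p` and `SecondIneq p`.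
-/
import Fermat.Agent.S55.Global.Blocks
import Fermat.Agent.S55.Global.CyclicClass

set_option autoImplicit false

open NumberField IsDedekindDomain TensorProduct CategoryTheory

namespace Fermat.Agent.S55.Global.CyclicLayerInst

open Fermat.Agent.S55.Global.Objects Fermat.Agent.S55.Global.Blocks
  Fermat.Agent.S55.Global.CyclicClass

variable (K L : Type) [Field K] [NumberField K] [Field L] [NumberField L] [Algebra K L]
  [Fintype (L ≃ₐ[K] L)] (T : Finset (Place K)) (σ : L ≃ₐ[K] L)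

/-- `#Hⁱ(G, C_{L,T}) = h0` for `i > 0` even, `G = ⟨σ⟩`. -/
theorem card_even_eq_h0 (hgen : ∀ τ : L ≃ₐ[K] L, τ ∈ Subgroup.zpowers σ) (i : ℕ) [NeZero i]
    (hi : Even i) : Nat.card (groupCohomology (C K L T) i) = h0 K L T σ :=
  card_even_of (C K L T) σ hgen (diffC K L T σ) (normC K L T) (fun _ => rfl) (fun _ => rfl) i hi

/-- `#Hⁱ(G, C_{L,T}) = h1` for `i` odd, `G = ⟨σ⟩`. -/
theorem card_odd_eq_h1 (hgen : ∀ τ : L ≃ₐ[K] L, τ ∈ Subgroup.zpowers σ) (i : ℕ)
    (hi : Odd i) : Nat.card (groupCohomology (C K L T) i) = h1 K L T σ :=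
  card_odd_of (C K L T) σ hgen (diffC K L T σ) (normC K L T) (fun _ => rfl) (fun _ => rfl) i hi

theorem card_H2_eq_h0 (hgen : ∀ τ : L ≃ₐ[K] L, τ ∈ Subgroup.zpowers σ) :
    Nat.card (groupCohomology (C K L T) 2) = h0 K L T σ :=
  card_even_eq_h0 K L T σ hgen 2 (by decide)

theorem card_H1_eq_h1 (hgen : ∀ τ : L ≃ₐ[K] L, τ ∈ Subgroup.zpowers σ) :
    Nat.card (groupCohomology (C K L T) 1) = h1 K L T σ :=
  card_odd_eq_h1 K L T σ hgen 1 (by decide)

/-- The cohomological content of a cyclic layer: `H¹ = 0`, `#H² = p`, `H²` generated by one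
class. -/
theorem cohomology_of_h0_h1 {p : ℕ} (hp : p.Prime)
    (hgen : ∀ τ : L ≃ₐ[K] L, τ ∈ Subgroup.zpowers σ)
    (h0p : h0 K L T σ = p) (h11 : h1 K L T σ = 1) :
    Limits.IsZero (groupCohomology (C K L T) 1) ∧
      Nat.card (groupCohomology (C K L T) 2) = p ∧
      ∃ u : groupCohomology (C K L T) 2, ∀ x : groupCohomology (C K L T) 2, ∃ n : ℤ, x = n • u := by
  have hc1 : Nat.card (groupCohomology (C K L T) 1) = 1 := by
    rw [card_H1_eq_h1 K L T σ hgen, h11]
  have hc2 : Nat.card (groupCohomology (C K L T) 2) = p := by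
    rw [card_H2_eq_h0 K L T σ hgen, h0p]
  have hs : Subsingleton (groupCohomology (C K L T) 1) := (Nat.card_eq_one_iff_unique.mp hc1).1
  refine ⟨ModuleCat.isZero_of_subsingleton _, hc2, ?_⟩
  have : Fact p.Prime := ⟨hp⟩
  have hcyc : IsAddCyclic (groupCohomology (C K L T) 2) := isAddCyclic_of_prime_card hc2
  obtain ⟨u, hu⟩ := hcyc.exists_generator
  refine ⟨u, fun x => ?_⟩
  obtain ⟨n, hn⟩ := AddSubgroup.mem_zmultiples_iff.mp (hu x)
  exact ⟨n, hn.symm⟩

/-- `CyclicLayer p` ⟹ class-formation axiom for every cyclic layer of degree `p`. -/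
theorem cyclicLayer_cohomology {p : ℕ} (hCL : CyclicLayer p)
    (hs : CyclicSetting p K L T σ) :
    Limits.IsZero (groupCohomology (C K L T) 1) ∧
      Nat.card (groupCohomology (C K L T) 2) = p ∧
      ∃ u : groupCohomology (C K L T) 2, ∀ x : groupCohomology (C K L T) 2, ∃ n : ℤ, x = n • u := by
  obtain ⟨h0p, h11⟩ := hCL K L T σ hs
  exact cohomology_of_h0_h1 K L T σ hs.prime hs.gen h0p h11

/-- The same from the two inequalities. -/
theorem cyclic_of_ineqs {p : ℕ} (hF : FirstIneq p) (hS : SecondIneq p)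
    (hs : CyclicSetting p K L T σ) :
    Limits.IsZero (groupCohomology (C K L T) 1) ∧
      Nat.card (groupCohomology (C K L T) 2) = p ∧
      ∃ u : groupCohomology (C K L T) 2, ∀ x : groupCohomology (C K L T) 2, ∃ n : ℤ, x = n • u :=
  cyclicLayer_cohomology K L T σ (cyclicLayer_of_ineqs hF hS) hs

end Fermat.Agent.S55.Global.CyclicLayerInst
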