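/-
S55 / GLOBAL block, row G.cycloArtin (helper61): the ideal-theoretic core.

* `idealChar u` : the multiplicative function on fractional ideals of a Dedekind domain with
  prescribed values `u v` on the primes.
* `normChar K m` : the norm-residue character `I ↦ ∏_{v ∤ m} N(v)^{v(I)} ∈ (ℤ/m)ˣ`.
* `normChar_spanSingleton_eq_one` : **reciprocity for the cyclotomic character**: in a totally
  complex field, `b ≡ 1 mod p^k` at all primes above `p` implies `normChar K (p^k) (b) = 1`.
-/
import Mathlib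
import Fermat.Agent.S14.CycloFrob

set_option autoImplicit false

open NumberField IsDedekindDomain nonZeroDivisors

namespace Fermat.Agent.S55.Global.CycloArtinIdeal

noncomputable section

section General

variable {R : Type*} [CommRing R] [IsDedekindDomain R] {K : Type*} [Field K] [Algebra R K]
  [IsFractionRing R K] {G : Type*} [CommGroup G] (u : HeightOneSpectrum R → G)

/-- The multiplicative function on fractional ideals with prescribed values on the primes. -/
def idealChar (I : FractionalIdeal R⁰ K) : G :=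
  ∏ᶠ v : HeightOneSpectrum R, u v ^ FractionalIdeal.count K v I

theorem mulSupport_finite (I : FractionalIdeal R⁰ K) :
    (Function.mulSupport fun v : HeightOneSpectrum R => u v ^ FractionalIdeal.count K v I).Finite := by
  have h := FractionalIdeal.finite_factors I
  rw [Filter.eventually_cofinite] at h
  refine h.subset ?_
  intro v hv hc
  rw [Function.mem_mulSupport] at hv
  apply hv
  rw [hc, zpow_zero]

theorem idealChar_mul {I J : FractionalIdeal R⁰ K} (hI : I ≠ 0) (hJ : J ≠ 0) :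
    idealChar u (I * J) = idealChar u I * idealChar u J := by
  unfold idealChar
  rw [← finprod_mul_distrib (mulSupport_finite u I) (mulSupport_finite u J)]
  apply finprod_congr
  intro v
  rw [FractionalIdeal.count_mul K v hI hJ, zpow_add]

theorem idealChar_one : idealChar u (1 : FractionalIdeal R⁰ K) = 1 := by
  unfold idealChar
  simp [FractionalIdeal.count_one]

theorem idealChar_inv (I : FractionalIdeal R⁰ K) : idealChar u I⁻¹ = (idealChar u I)⁻¹ := by
  unfold idealChar
  rw [← finprod_inv_distrib]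
  apply finprod_congr
  intro v
  rw [FractionalIdeal.count_inv, zpow_neg]

theorem idealChar_div {I J : FractionalIdeal R⁰ K} (hI : I ≠ 0) (hJ : J ≠ 0) :
    idealChar u (I / J) = idealChar u I / idealChar u J := by
  rw [div_eq_mul_inv, idealChar_mul u hI (inv_ne_zero hJ), idealChar_inv, div_eq_mul_inv]

theorem idealChar_prime (w : HeightOneSpectrum R) :
    idealChar u (w.asIdeal : FractionalIdeal R⁰ K) = u w := by
  classical
  unfold idealChar
  rw [finprod_eq_single _ w]
  · rw [FractionalIdeal.count_maximal, if_pos rfl, zpow_one]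
  · intro v hv
    rw [FractionalIdeal.count_maximal, if_neg (Ne.symm hv), zpow_zero]

end General

section NumberField

variable (K : Type*) [Field K] [NumberField K]

/-- A prime of `𝓞 K` not containing the rational prime `p` has absolute norm prime to `p`. -/
theorem coprime_absNorm_of_notMem {p : ℕ} (hp : p.Prime) (v : HeightOneSpectrum (𝓞 K))
    (h : (p : 𝓞 K) ∉ v.asIdeal) : Nat.Coprime (Ideal.absNorm v.asIdeal) p := by
  rw [Nat.coprime_comm, Nat.Prime.coprime_iff_not_dvd hp]
  intro hdvd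
  have : Fact p.Prime := ⟨hp⟩
  have : v.asIdeal.IsMaximal := v.isMaximal
  let _ : Field (𝓞 K ⧸ v.asIdeal) := Ideal.Quotient.field v.asIdeal
  have : Finite (𝓞 K ⧸ v.asIdeal) := Ideal.finiteQuotientOfFreeOfNeBot v.asIdeal v.ne_bot
  have hcard : Nat.card (𝓞 K ⧸ v.asIdeal) = Ideal.absNorm v.asIdeal :=
    Fermat.Agent.S14.CycloFrob.natCard_quot_eq_absNorm v.asIdeal
  rw [← hcard] at hdvd
  obtain ⟨x, hx⟩ := exists_prime_addOrderOf_dvd_card' p hdvd
  have h1 : p • x = 0 := by
    rw [← hx]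
    exact addOrderOf_nsmul_eq_zero x
  have h2 : ((p : 𝓞 K ⧸ v.asIdeal)) * x = 0 := by
    rw [← nsmul_eq_mul]
    exact h1
  have h3 : ((p : 𝓞 K ⧸ v.asIdeal)) ≠ 0 := by
    intro h0
    apply h
    rw [← Ideal.Quotient.eq_zero_iff_mem]
    rw [map_natCast]
    exact h0
  have h4 : x = 0 := by
    rcases mul_eq_zero.mp h2 with h5 | h5
    · exact absurd h5 h3
    · exact h5
  rw [h4, addOrderOf_zero] at hx
  exact hp.one_lt.ne hx

variable (m : ℕ)

/-- The local factor of the norm-residue character: `N(v) mod m` if this is a unit, else `1`. -/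
def unitAt (v : HeightOneSpectrum (𝓞 K)) : (ZMod m)ˣ :=
  if h : Nat.Coprime (Ideal.absNorm v.asIdeal) m then ZMod.unitOfCoprime _ h else 1

theorem unitAt_of_coprime (v : HeightOneSpectrum (𝓞 K))
    (h : Nat.Coprime (Ideal.absNorm v.asIdeal) m) :
    ((unitAt K m v : (ZMod m)ˣ) : ZMod m) = (Ideal.absNorm v.asIdeal : ZMod m) := by
  rw [unitAt, dif_pos h, ZMod.coe_unitOfCoprime]

/-- The norm-residue character `I ↦ ∏_{v ∤ m} N(v)^{v(I)} mod m` on fractional ideals. -/
def normChar (I : FractionalIdeal (𝓞 K)⁰ K) : (ZMod m)ˣ := idealChar (unitAt K m) I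

theorem normChar_mul {I J : FractionalIdeal (𝓞 K)⁰ K} (hI : I ≠ 0) (hJ : J ≠ 0) :
    normChar K m (I * J) = normChar K m I * normChar K m J := idealChar_mul _ hI hJ

theorem normChar_one : normChar K m (1 : FractionalIdeal (𝓞 K)⁰ K) = 1 := idealChar_one _

theorem normChar_inv (I : FractionalIdeal (𝓞 K)⁰ K) :
    normChar K m I⁻¹ = (normChar K m I)⁻¹ := idealChar_inv _ I

theorem normChar_div {I J : FractionalIdeal (𝓞 K)⁰ K} (hI : I ≠ 0) (hJ : J ≠ 0) :
    normChar K m (I / J) = normChar K m I / normChar K m J := idealChar_div _ hI hJ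

theorem normChar_prime (v : HeightOneSpectrum (𝓞 K)) :
    normChar K m (v.asIdeal : FractionalIdeal (𝓞 K)⁰ K) = unitAt K m v := idealChar_prime _ v

/-- On integral ideals of norm prime to `m`, the norm-residue character is `N(I) mod m`. -/
theorem normChar_coeIdeal (I : Ideal (𝓞 K)) (hI : I ≠ ⊥)
    (hcop : Nat.Coprime (Ideal.absNorm I) m) :
    ((normChar K m (I : FractionalIdeal (𝓞 K)⁰ K) : (ZMod m)ˣ) : ZMod m) =
      (Ideal.absNorm I : ZMod m) := by
  induction I using UniqueFactorizationMonoid.induction_on_prime with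
  | h₁ => exact absurd rfl hI
  | h₂ J hJ =>
    rw [Ideal.isUnit_iff] at hJ
    subst hJ
    rw [FractionalIdeal.coeIdeal_top, normChar_one, Ideal.absNorm_top]
    simp
  | h₃ J P hJ hP ih =>
    have hP0 : P ≠ ⊥ := hP.ne_zero
    rw [map_mul] at hcop
    have hcP : Nat.Coprime (Ideal.absNorm P) m := Nat.Coprime.coprime_mul_right hcop
    have hcJ : Nat.Coprime (Ideal.absNorm J) m := Nat.Coprime.coprime_mul_left hcop
    have hJ' : J ≠ ⊥ := hJ
    have h1 : ((P : FractionalIdeal (𝓞 K)⁰ K)) ≠ 0 := by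
      rw [Ne, FractionalIdeal.coeIdeal_eq_zero]; exact hP0
    have h2 : ((J : FractionalIdeal (𝓞 K)⁰ K)) ≠ 0 := by
      rw [Ne, FractionalIdeal.coeIdeal_eq_zero]; exact hJ'
    rw [FractionalIdeal.coeIdeal_mul, normChar_mul K m h1 h2, Units.val_mul, ih hJ' hcJ, map_mul,
      Nat.cast_mul]
    congr 1
    have := normChar_prime K m ⟨P, Ideal.isPrime_of_prime hP, hP0⟩
    rw [this]
    exact unitAt_of_coprime K m ⟨P, Ideal.isPrime_of_prime hP, hP0⟩ hcP

/-- An integer `x ≡ 1 mod m` of a totally complex field generates an ideal with trivial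
norm-residue character. -/
theorem normChar_span_singleton_of_sub_one_mem [IsTotallyComplex K] (x : 𝓞 K) (hx : x ≠ 0)
    (h : x - 1 ∈ Ideal.span {(m : 𝓞 K)}) :
    normChar K m ((Ideal.span {x} : Ideal (𝓞 K)) : FractionalIdeal (𝓞 K)⁰ K) = 1 := by
  have h1 := Fermat.Agent.S14.CycloFrob.absNorm_span_singleton_modEq m x 1 h
  rw [Ideal.span_singleton_one, Ideal.absNorm_top] at h1
  have hcop : Nat.Coprime (Ideal.absNorm (Ideal.span {x})) m := by
    have := h1.gcd_eq
    rw [Nat.Coprime, this, Nat.gcd_one_left]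
  have hne : Ideal.span {x} ≠ (⊥ : Ideal (𝓞 K)) := by
    rw [Ne, Ideal.span_singleton_eq_bot]; exact hx
  apply Units.ext
  rw [normChar_coeIdeal K m _ hne hcop, Units.val_one]
  have := (ZMod.natCast_eq_natCast_iff _ _ m).mpr h1
  rw [this, Nat.cast_one]

/-- `b ≡ 1` multiplicatively modulo `p^k` at all primes above `p`. -/
def IsOneModAt (p k : ℕ) (b : K) : Prop :=
  ∀ v : HeightOneSpectrum (𝓞 K), (p : 𝓞 K) ∈ v.asIdeal →
    v.valuation K (b - 1) ≤ v.valuation K ((p : K) ^ k)

theorem valuation_natCast_eq_one_of_notMem {p : ℕ} (v : HeightOneSpectrum (𝓞 K))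
    (h : (p : 𝓞 K) ∉ v.asIdeal) (k : ℕ) : v.valuation K ((p : K) ^ k) = 1 := by
  have h1 : v.valuation K ((algebraMap (𝓞 K) K) (p : 𝓞 K)) = 1 :=
    (v.valuation_eq_one_iff_notMem (K := K)).mpr h
  rw [map_natCast] at h1
  rw [map_pow, h1, one_pow]

theorem valuation_natCast_le_one (v : HeightOneSpectrum (𝓞 K)) (n : ℕ) :
    v.valuation K (n : K) ≤ 1 := by
  have h : v.valuation K (algebraMap (𝓞 K) K (n : 𝓞 K)) ≤ 1 := v.valuation_le_one _
  rwa [map_natCast] at h

/-- Multiplicative congruence to `1` at the primes over `p` plus integrality elsewhere gives an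
honest congruence. -/
theorem sub_mem_span_of_valuation {p : ℕ} (k : ℕ) (c d : 𝓞 K)
    (h : ∀ v : HeightOneSpectrum (𝓞 K), (p : 𝓞 K) ∈ v.asIdeal →
      v.valuation K ((c : K) - (d : K)) ≤ v.valuation K ((p : K) ^ k)) (hp0 : p ≠ 0) :
    c - d ∈ Ideal.span {((p ^ k : ℕ) : 𝓞 K)} := by
  have hpk : ((p : K) ^ k) ≠ 0 := pow_ne_zero _ (Nat.cast_ne_zero.mpr hp0)
  have hint : ∀ v : HeightOneSpectrum (𝓞 K),
      v.valuation K (((c : K) - (d : K)) / (p : K) ^ k) ≤ 1 := by
    intro v
    rw [map_div₀]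
    by_cases hv : (p : 𝓞 K) ∈ v.asIdeal
    · have h0 : v.valuation K ((p : K) ^ k) ≠ 0 := (Valuation.ne_zero_iff _).mpr hpk
      exact (div_le_one₀ (zero_lt_iff.mpr h0)).mpr (h v hv)
    · rw [valuation_natCast_eq_one_of_notMem K v hv, div_one]
      have h2 : v.valuation K (algebraMap (𝓞 K) K (c - d)) ≤ 1 := v.valuation_le_one _
      rwa [map_sub] at h2
  obtain ⟨r, hr⟩ := HeightOneSpectrum.mem_integers_of_valuation_le_one (R := 𝓞 K) (K := K) _ hint
  rw [Ideal.mem_span_singleton']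
  refine ⟨r, ?_⟩
  apply FaithfulSMul.algebraMap_injective (𝓞 K) K
  rw [map_mul, hr, map_natCast, map_sub]
  push_cast
  field_simp

/-- Every element of `K` has a positive integer multiple in `𝓞 K`. -/
theorem exists_nat_mul_integral (b : K) : ∃ N : ℕ, N ≠ 0 ∧ ∃ c : 𝓞 K, (c : K) = (N : K) * b := by
  obtain ⟨c0, d0, hd0, hcd⟩ := IsFractionRing.div_surjective (A := 𝓞 K) b
  have hd00 : d0 ≠ 0 := nonZeroDivisors.ne_zero hd0
  have hN0 : Ideal.absNorm (Ideal.span {d0}) ≠ 0 := by
    rw [Ne, Ideal.absNorm_eq_zero_iff, Ideal.span_singleton_eq_bot]; exact hd00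
  have hNmem : ((Ideal.absNorm (Ideal.span {d0}) : ℕ) : 𝓞 K) ∈ Ideal.span {d0} :=
    Ideal.absNorm_mem _
  obtain ⟨e, he⟩ := Ideal.mem_span_singleton'.mp hNmem
  refine ⟨_, hN0, e * c0, ?_⟩
  have hd0K : (algebraMap (𝓞 K) K d0) ≠ 0 := by
    rw [Ne, FaithfulSMul.algebraMap_eq_zero_iff]; exact hd00
  have heK : (algebraMap (𝓞 K) K e) * (algebraMap (𝓞 K) K d0) =
      ((Ideal.absNorm (Ideal.span {d0}) : ℕ) : K) := by
    rw [← map_mul, he, map_natCast]
  rw [← heK, ← hcd]
  show algebraMap (𝓞 K) K (e * c0) = _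
  rw [map_mul]
  field_simp

/-- **Reciprocity for the cyclotomic character.**  In a totally complex field, an element
`b ≡ 1 mod p^k` (multiplicatively, at all primes above `p`) generates a fractional ideal with
trivial norm-residue character modulo `p^k`: `∏_{v ∤ p} N(v)^{v(b)} ≡ 1 mod p^k`. -/
theorem normChar_spanSingleton_eq_one [IsTotallyComplex K] {p : ℕ} (hp : p.Prime) (k : ℕ) (b : K)
    (hb : b ≠ 0) (h1 : IsOneModAt K p k b) :
    normChar K (p ^ k) (FractionalIdeal.spanSingleton (𝓞 K)⁰ b) = 1 := by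
  obtain ⟨N, hN0, c0, hc0⟩ := exists_nat_mul_integral K b
  obtain ⟨a, N', hN'p, hNeq⟩ := Nat.exists_eq_pow_mul_and_not_dvd hN0 p hp.ne_one
  have hN'0 : N' ≠ 0 := by
    rintro rfl
    exact hN'p (dvd_zero p)
  -- `b` is integral at the primes above `p`
  have hbint : ∀ v : HeightOneSpectrum (𝓞 K), (p : 𝓞 K) ∈ v.asIdeal → v.valuation K b ≤ 1 := by
    intro v hv
    have h2 : v.valuation K (b - 1) ≤ 1 := by
      refine (h1 v hv).trans ?_
      rw [map_pow]
      exact pow_le_one' (valuation_natCast_le_one K v p) k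
    have h3 : b = (b - 1) + 1 := by ring
    rw [h3]
    exact (Valuation.map_add_le_max' _ _ _).trans (max_le h2 (le_of_eq (Valuation.map_one _)))
  -- `N' b` is integral
  have hint : ∀ v : HeightOneSpectrum (𝓞 K), v.valuation K ((N' : K) * b) ≤ 1 := by
    intro v
    by_cases hv : (p : 𝓞 K) ∈ v.asIdeal
    · rw [map_mul]
      exact mul_le_one' (valuation_natCast_le_one K v N') (hbint v hv)
    · have h4 : v.valuation K ((N : K) * b) ≤ 1 := by
        have h5 : v.valuation K (algebraMap (𝓞 K) K c0) ≤ 1 := v.valuation_le_one _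
        have h6 : algebraMap (𝓞 K) K c0 = (N : K) * b := hc0
        rwa [h6] at h5
      have h7 : (N : K) * b = (p : K) ^ a * ((N' : K) * b) := by
        rw [hNeq]; push_cast; ring
      rw [h7, map_mul, valuation_natCast_eq_one_of_notMem K v hv, one_mul] at h4
      exact h4
  obtain ⟨c1, hc1⟩ := HeightOneSpectrum.mem_integers_of_valuation_le_one (R := 𝓞 K) (K := K) _ hint
  -- the denominator `d = N'^φ(p^k) ≡ 1 mod p^k`
  have hcop : Nat.Coprime N' (p ^ k) :=
    Nat.Coprime.pow_right k ((Nat.Prime.coprime_iff_not_dvd hp).mpr hN'p).symm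
  have htot : 0 < Nat.totient (p ^ k) := Nat.totient_pos.mpr (pow_pos hp.pos k)
  set t := Nat.totient (p ^ k) with ht
  have hd1 : N' ^ t ≡ 1 [MOD p ^ k] := Nat.ModEq.pow_totient hcop
  set d : 𝓞 K := ((N' ^ t : ℕ) : 𝓞 K) with hd
  set c : 𝓞 K := ((N' ^ (t - 1) : ℕ) : 𝓞 K) * c1 with hc
  have hd0 : d ≠ 0 := by
    rw [hd, Ne, Nat.cast_eq_zero]
    exact pow_ne_zero _ hN'0
  have hcK : (algebraMap (𝓞 K) K c) = (algebraMap (𝓞 K) K d) * b := by
    rw [hc, hd, map_mul, hc1, map_natCast, map_natCast]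
    have : N' ^ t = N' ^ (t - 1) * N' := by
      rw [← pow_succ, Nat.sub_add_cancel htot]
    rw [this]
    push_cast
    ring
  have hc0' : c ≠ 0 := by
    intro h0
    rw [h0, map_zero] at hcK
    have hdK : (algebraMap (𝓞 K) K d) ≠ 0 := by
      rw [Ne, FaithfulSMul.algebraMap_eq_zero_iff]; exact hd0
    exact (mul_ne_zero hdK hb) hcK.symm
  -- both are `≡ 1 mod p^k`
  have hd_mem : d - 1 ∈ Ideal.span {((p ^ k : ℕ) : 𝓞 K)} := by
    rw [Ideal.mem_span_singleton]
    have h8 : ((p ^ k : ℕ) : ℤ) ∣ ((N' ^ t : ℕ) : ℤ) - 1 := by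
      have := (Nat.modEq_iff_dvd.mp hd1.symm)
      simpa using this
    obtain ⟨z, hz⟩ := h8
    refine ⟨(z : 𝓞 K), ?_⟩
    have := congrArg (Int.cast : ℤ → 𝓞 K) hz
    push_cast at this
    rw [hd]
    push_cast
    exact this
  have hcd_mem : c - d ∈ Ideal.span {((p ^ k : ℕ) : 𝓞 K)} := by
    apply sub_mem_span_of_valuation K k c d _ hp.ne_zero
    intro v hv
    have h9 : (c : K) - (d : K) = (d : K) * (b - 1) := by
      have : (c : K) = (d : K) * b := hcK
      rw [this]; ring
    rw [h9, map_mul]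
    have h10 : v.valuation K (d : K) ≤ 1 := v.valuation_le_one _
    exact (mul_le_of_le_one_left' h10).trans (h1 v hv)
  have hc_mem : c - 1 ∈ Ideal.span {((p ^ k : ℕ) : 𝓞 K)} := by
    have : c - 1 = (c - d) + (d - 1) := by ring
    rw [this]
    exact Ideal.add_mem _ hcd_mem hd_mem
  have hc1' := normChar_span_singleton_of_sub_one_mem K (p ^ k) c hc0' hc_mem
  have hd1' := normChar_span_singleton_of_sub_one_mem K (p ^ k) d hd0 hd_mem
  rw [FractionalIdeal.coeIdeal_span_singleton] at hc1' hd1'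
  have hdK : (algebraMap (𝓞 K) K d) ≠ 0 := by
    rw [Ne, FaithfulSMul.algebraMap_eq_zero_iff]; exact hd0
  have hmul : FractionalIdeal.spanSingleton (𝓞 K)⁰ (algebraMap (𝓞 K) K c) =
      FractionalIdeal.spanSingleton (𝓞 K)⁰ (algebraMap (𝓞 K) K d) *
        FractionalIdeal.spanSingleton (𝓞 K)⁰ b := by
    rw [FractionalIdeal.spanSingleton_mul_spanSingleton, hcK]
  have hne1 : FractionalIdeal.spanSingleton (𝓞 K)⁰ (algebraMap (𝓞 K) K d) ≠ 0 := by
    rw [Ne, FractionalIdeal.spanSingleton_eq_zero_iff]; exact hdK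
  have hne2 : FractionalIdeal.spanSingleton (𝓞 K)⁰ b ≠ 0 := by
    rw [Ne, FractionalIdeal.spanSingleton_eq_zero_iff]; exact hb
  rw [hmul, normChar_mul K _ hne1 hne2, hd1', one_mul] at hc1'
  exact hc1'

end NumberField

end

end Fermat.Agent.S55.Global.CycloArtinIdeal
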