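/-
S55 / Global / G.cycloArtin, ideal-theoretic core (helper2).

`C = K(ζ_n)` an `n`-cyclotomic extension of number fields.  For a nonzero ideal `I` of `𝓞 K` prime
to `n` there is a unique `artCyc n I ∈ Gal(C/K)` with `artCyc n I ζ = ζ ^ N(I)` on `n`-th roots of
unity (the Artin symbol of `I`, ramification allowed at the primes dividing `n`).

* `artCyc_apply`, `artCyc_mul`, `artCyc_eq_of_absNorm_modEq`
* `isArithFrobAt_artCyc` : `artCyc n v` is an arithmetic Frobenius at every prime of `C` over `v`.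
* `artCyc_span_eq_one` : `K` totally complex, `a ≡ 1 mod n` ⇒ `artCyc n (a) = 1`.
* `absNorm_modEq_one` : primes of `C` not containing `n` have norm `≡ 1 mod n`;
  `artCyc_under_eq_one_of_inertiaDeg` : degree one primes of `C` give trivial symbols.
* `inertia_eq_bot` : `C/K` is unramified at the primes not containing `n`.
-/
import Mathlib
import Fermat.Agent.S14.CycloFrob
import Fermat.Agent.S14.ZetaSplit
import Fermat.Agent.S14.ArtinMapGen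

set_option autoImplicit false

open NumberField nonZeroDivisors

namespace Fermat.Agent.S55.Global.CycloRay

open Fermat.Agent.S14.CycloFrob

variable {K C : Type*} [Field K] [NumberField K] [Field C] [NumberField C] [Algebra K C]
  (n : ℕ) [NeZero n] [IsCyclotomicExtension {n} K C]

omit [NumberField K] [NumberField C] in
/-- Two automorphisms of `C/K` agreeing on the `n`-th roots of unity are equal. -/
theorem aut_ext {τ₁ τ₂ : C ≃ₐ[K] C} (h : ∀ ζ : C, ζ ^ n = 1 → τ₁ ζ = τ₂ ζ) : τ₁ = τ₂ := by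
  refine IsCyclotomicExtension.algEquiv_eq_of_apply_eq {n} K C fun m hm _ => ?_
  rw [Set.mem_singleton_iff] at hm
  subst hm
  obtain ⟨r, hr⟩ := IsCyclotomicExtension.exists_isPrimitiveRoot K C (Set.mem_singleton m)
    (NeZero.ne m)
  exact ⟨r, hr, h r hr.pow_eq_one⟩

omit [NumberField K] [NumberField C] in
/-- An automorphism acting on the `n`-th roots of unity by `ζ ↦ ζ ^ a` with `a ≡ 1 mod n` is the
identity. -/
theorem aut_eq_one_of_modEq {τ : C ≃ₐ[K] C} {a : ℕ} (h : ∀ ζ : C, ζ ^ n = 1 → τ ζ = ζ ^ a)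
    (ha : a ≡ 1 [MOD n]) : τ = 1 := by
  refine aut_ext n fun ζ hζ => ?_
  rw [h ζ hζ, pow_eq_pow_mod a hζ, ha, ← pow_eq_pow_mod 1 hζ, pow_one, AlgEquiv.one_apply]

/-- The Frobenius automorphism at a prime `v ∌ n`. -/
theorem exists_aut_prime (v : Ideal (𝓞 K)) (hv : v.IsPrime) (hv0 : v ≠ ⊥)
    (hvn : (n : 𝓞 K) ∉ v) :
    ∃ τ : C ≃ₐ[K] C, ∀ ζ : C, ζ ^ n = 1 → τ ζ = ζ ^ Ideal.absNorm v := by
  have := hv
  have : IsGalois K C := IsCyclotomicExtension.isGalois {n} K C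
  obtain ⟨𝔓, -, h𝔓, h𝔓v⟩ := Ideal.exists_ideal_over_prime_of_isIntegral (S := 𝓞 C) v ⊥
    (by rw [Ideal.comap_bot_of_injective _ (RingOfIntegers.algebraMap.injective K C)]; exact bot_le)
  have := h𝔓
  have h𝔓v' : 𝔓.under (𝓞 K) = v := h𝔓v
  have h𝔓0 : 𝔓 ≠ ⊥ := by
    rintro rfl
    rw [Ideal.under_def, Ideal.comap_bot_of_injective _ (RingOfIntegers.algebraMap.injective K C)]
      at h𝔓v'
    exact hv0 h𝔓v'.symm
  have : Finite (𝓞 C ⧸ 𝔓) := Ideal.finiteQuotientOfFreeOfNeBot 𝔓 h𝔓0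
  have hn𝔓 : (n : 𝓞 C) ∉ 𝔓 := by
    rw [← natCast_mem_under (A := 𝓞 K), h𝔓v']
    exact hvn
  obtain ⟨τ, hτ⟩ := IsArithFrobAt.exists_of_isInvariant (𝓞 K) (C ≃ₐ[K] C) 𝔓
  exact ⟨τ, fun ζ hζ => by rw [frob_zeta hζ 𝔓 hn𝔓 τ hτ, h𝔓v']⟩

/-- For a nonzero ideal `I` prime to `n` there is `τ ∈ Gal(C/K)` with `τ ζ = ζ ^ N(I)`. -/
theorem exists_aut (I : Ideal (𝓞 K)) (hI : I ≠ ⊥)
    (hIn : IsCoprime I (Ideal.span {(n : 𝓞 K)})) :
    ∃ τ : C ≃ₐ[K] C, ∀ ζ : C, ζ ^ n = 1 → τ ζ = ζ ^ Ideal.absNorm I := by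
  induction I using UniqueFactorizationMonoid.induction_on_prime with
  | h₁ => exact absurd Ideal.zero_eq_bot hI
  | h₂ x hx =>
    rw [Ideal.isUnit_iff] at hx
    subst hx
    exact ⟨1, fun ζ _ => by simp⟩
  | h₃ a p ha hp ih =>
    have hp0 : p ≠ ⊥ := hp.ne_zero
    have hpprime : p.IsPrime := (Ideal.prime_iff_isPrime hp0).mp hp
    have ha0 : a ≠ ⊥ := ha
    have hpn : (n : 𝓞 K) ∉ p := by
      intro hmem
      have h1 : IsCoprime p (Ideal.span {(n : 𝓞 K)}) := hIn.of_mul_left_left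
      rw [Ideal.isCoprime_iff_sup_eq,
        sup_eq_left.mpr ((Ideal.span_singleton_le_iff_mem p).mpr hmem)] at h1
      exact hpprime.ne_top h1
    obtain ⟨τp, hτp⟩ := exists_aut_prime (C := C) n p hpprime hp0 hpn
    obtain ⟨τa, hτa⟩ := ih ha0 hIn.of_mul_left_right
    refine ⟨τp * τa, fun ζ hζ => ?_⟩
    rw [AlgEquiv.mul_apply, hτa ζ hζ, map_pow, hτp ζ hζ, ← pow_mul, map_mul]

open scoped Classical in
/-- The cyclotomic Artin symbol of an ideal (`1` for `⊥` and for ideals not prime to `n`). -/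
noncomputable def artCyc (I : Ideal (𝓞 K)) : C ≃ₐ[K] C :=
  if h : I ≠ ⊥ ∧ IsCoprime I (Ideal.span {(n : 𝓞 K)}) then (exists_aut (C := C) n I h.1 h.2).choose
  else 1

theorem artCyc_apply {I : Ideal (𝓞 K)} (hI : I ≠ ⊥)
    (hIn : IsCoprime I (Ideal.span {(n : 𝓞 K)})) {ζ : C} (hζ : ζ ^ n = 1) :
    artCyc (C := C) n I ζ = ζ ^ Ideal.absNorm I := by
  rw [artCyc, dif_pos ⟨hI, hIn⟩]
  exact (exists_aut (C := C) n I hI hIn).choose_spec ζ hζ

/-- Characterisation of the Artin symbol. -/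
theorem eq_artCyc {I : Ideal (𝓞 K)} (hI : I ≠ ⊥)
    (hIn : IsCoprime I (Ideal.span {(n : 𝓞 K)})) {τ : C ≃ₐ[K] C}
    (hτ : ∀ ζ : C, ζ ^ n = 1 → τ ζ = ζ ^ Ideal.absNorm I) : τ = artCyc n I :=
  aut_ext n fun ζ hζ => by rw [hτ ζ hζ, artCyc_apply n hI hIn hζ]

theorem artCyc_mul {I J : Ideal (𝓞 K)} (hI : I ≠ ⊥) (hJ : J ≠ ⊥)
    (hIn : IsCoprime I (Ideal.span {(n : 𝓞 K)})) (hJn : IsCoprime J (Ideal.span {(n : 𝓞 K)})) :
    artCyc (C := C) n (I * J) = artCyc n I * artCyc n J := by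
  symm
  refine eq_artCyc n (mul_ne_zero hI hJ) (IsCoprime.mul_left hIn hJn) fun ζ hζ => ?_
  rw [AlgEquiv.mul_apply, artCyc_apply n hJ hJn hζ, map_pow, artCyc_apply n hI hIn hζ, ← pow_mul,
    map_mul]

theorem artCyc_top : artCyc (C := C) n (⊤ : Ideal (𝓞 K)) = 1 := by
  symm
  refine eq_artCyc n (by simp) ?_ fun ζ _ => by simp
  rw [← Ideal.one_eq_top]
  exact isCoprime_one_left

/-- The Artin symbol only depends on the absolute norm modulo `n`. -/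
theorem artCyc_eq_of_absNorm_modEq {I J : Ideal (𝓞 K)} (hI : I ≠ ⊥) (hJ : J ≠ ⊥)
    (hIn : IsCoprime I (Ideal.span {(n : 𝓞 K)})) (hJn : IsCoprime J (Ideal.span {(n : 𝓞 K)}))
    (h : Ideal.absNorm I ≡ Ideal.absNorm J [MOD n]) : artCyc (C := C) n I = artCyc n J := by
  refine eq_artCyc n hJ hJn fun ζ hζ => ?_
  rw [artCyc_apply n hI hIn hζ, pow_eq_pow_mod (Ideal.absNorm I) hζ,
    pow_eq_pow_mod (Ideal.absNorm J) hζ]
  congr 1

/-- The Artin symbol is trivial iff the norm is `≡ 1 mod n`. -/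
theorem artCyc_eq_one_iff {I : Ideal (𝓞 K)} (hI : I ≠ ⊥)
    (hIn : IsCoprime I (Ideal.span {(n : 𝓞 K)})) :
    artCyc (C := C) n I = 1 ↔ Ideal.absNorm I ≡ 1 [MOD n] := by
  constructor
  · intro h1
    obtain ⟨r, hr⟩ := IsCyclotomicExtension.exists_isPrimitiveRoot K C (Set.mem_singleton n)
      (NeZero.ne n)
    have h2 := artCyc_apply (C := C) n hI hIn hr.pow_eq_one
    rw [h1, AlgEquiv.one_apply] at h2
    have h3 : r ^ Ideal.absNorm I = r ^ 1 := by rw [pow_one]; exact h2.symm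
    have hfin : IsOfFinOrder r := isOfFinOrder_iff_pow_eq_one.mpr
      ⟨n, Nat.pos_of_ne_zero (NeZero.ne n), hr.pow_eq_one⟩
    have h4 := hfin.pow_eq_pow_iff_modEq.mp h3
    rwa [← hr.eq_orderOf] at h4
  · intro h
    exact aut_eq_one_of_modEq n (fun ζ hζ => artCyc_apply n hI hIn hζ) h

/-- **Ray triviality**: in a totally complex field, `a ≡ 1 mod n` implies `artCyc (a) = 1`. -/
theorem artCyc_span_eq_one [IsTotallyComplex K] {a : 𝓞 K} (ha0 : a ≠ 0)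
    (ha : a - 1 ∈ Ideal.span {(n : 𝓞 K)}) : artCyc (C := C) n (Ideal.span {a}) = 1 := by
  have hI : Ideal.span {a} ≠ (⊥ : Ideal (𝓞 K)) := by
    rwa [Ne, Ideal.span_singleton_eq_bot]
  have hcop : IsCoprime (Ideal.span {a}) (Ideal.span {(n : 𝓞 K)}) := by
    rw [Ideal.isCoprime_iff_exists]
    refine ⟨a, Ideal.mem_span_singleton_self a, -(a - 1), neg_mem ha, by ring⟩
  rw [artCyc_eq_one_iff n hI hcop]
  have := absNorm_span_singleton_modEq n a 1 ha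
  simpa using this

/-! ### Frobenius elements, norms of primes of `C`, ramification -/

omit [NeZero n] in
/-- A nonzero prime not containing `n` is coprime to `(n)`. -/
theorem isCoprime_of_prime {K : Type*} [Field K] [NumberField K] {v : Ideal (𝓞 K)}
    (hv : v.IsPrime) (hv0 : v ≠ ⊥)
    (hvn : (n : 𝓞 K) ∉ v) : IsCoprime v (Ideal.span {(n : 𝓞 K)}) := by
  have hmax : v.IsMaximal := hv.isMaximal hv0
  rw [Ideal.isCoprime_iff_sup_eq]
  by_contra hne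
  have h1 : v = v ⊔ Ideal.span {(n : 𝓞 K)} := hmax.eq_of_le hne le_sup_left
  apply hvn
  rw [h1]
  exact Ideal.mem_sup_right (Ideal.mem_span_singleton_self _)

omit [NeZero n] [IsCyclotomicExtension {n} K C] in
/-- Data attached to a prime `𝔓` of `𝓞 C` not containing `n`. -/
theorem prime_aux (𝔓 : Ideal (𝓞 C)) [h𝔓 : 𝔓.IsPrime] (h𝔓0 : 𝔓 ≠ ⊥) (hn𝔓 : (n : 𝓞 C) ∉ 𝔓) :
    (𝔓.under (𝓞 K)).IsPrime ∧ 𝔓.under (𝓞 K) ≠ ⊥ ∧ (n : 𝓞 K) ∉ 𝔓.under (𝓞 K) := by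
  refine ⟨Ideal.IsPrime.under (𝓞 K) 𝔓, ?_, ?_⟩
  · exact Ideal.under_ne_bot (𝓞 K) h𝔓0
  · rw [natCast_mem_under]; exact hn𝔓

variable [IsGalois K C]

/-- `artCyc n v` is an arithmetic Frobenius at every prime of `C` above `v ∌ n`. -/
theorem isArithFrobAt_artCyc (𝔓 : Ideal (𝓞 C)) [h𝔓 : 𝔓.IsPrime] (h𝔓0 : 𝔓 ≠ ⊥)
    (hn𝔓 : (n : 𝓞 C) ∉ 𝔓) :
    IsArithFrobAt (𝓞 K) (artCyc (C := C) n (𝔓.under (𝓞 K))) 𝔓 := by
  obtain ⟨hvp, hv0, hvn⟩ := prime_aux (K := K) n 𝔓 h𝔓0 hn𝔓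
  have : Finite (𝓞 C ⧸ 𝔓) := Ideal.finiteQuotientOfFreeOfNeBot 𝔓 h𝔓0
  obtain ⟨τ, hτ⟩ := IsArithFrobAt.exists_of_isInvariant (𝓞 K) (C ≃ₐ[K] C) 𝔓
  have h1 : τ = artCyc n (𝔓.under (𝓞 K)) :=
    eq_artCyc n hv0 (isCoprime_of_prime n hvp hv0 hvn) fun ζ hζ => frob_zeta hζ 𝔓 hn𝔓 τ hτ
  rw [← h1]
  exact hτ

/-- `C/K` is unramified at the primes not containing `n`: the inertia group is trivial. -/
theorem eq_one_of_mem_inertia (𝔓 : Ideal (𝓞 C)) [h𝔓 : 𝔓.IsPrime] (h𝔓0 : 𝔓 ≠ ⊥)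
    (hn𝔓 : (n : 𝓞 C) ∉ 𝔓) (σ : C ≃ₐ[K] C) (hσ : σ ∈ 𝔓.inertia (C ≃ₐ[K] C)) : σ = 1 := by
  have : Finite (𝓞 C ⧸ 𝔓) := Ideal.finiteQuotientOfFreeOfNeBot 𝔓 h𝔓0
  obtain ⟨τ, hτ⟩ := IsArithFrobAt.exists_of_isInvariant (𝓞 K) (C ≃ₐ[K] C) 𝔓
  have hστ : IsArithFrobAt (𝓞 K) (σ * τ) 𝔓 := by
    intro x
    have h1 := hτ x
    have h2 : σ • (τ • x) - τ • x ∈ 𝔓 := hσ (τ • x)
    simp only [MulSemiringAction.toAlgHom_apply] at h1 ⊢
    have : (σ * τ) • x - x ^ Nat.card (𝓞 K ⧸ Ideal.under (𝓞 K) 𝔓) =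
        (σ • (τ • x) - τ • x) + (τ • x - x ^ Nat.card (𝓞 K ⧸ Ideal.under (𝓞 K) 𝔓)) := by
      rw [mul_smul]; ring
    rw [this]
    exact 𝔓.add_mem h2 h1
  have h3 : σ * τ = τ := aut_ext n fun ζ hζ => by
    rw [frob_zeta hζ 𝔓 hn𝔓 (σ * τ) hστ, frob_zeta hζ 𝔓 hn𝔓 τ hτ]
  exact mul_eq_right.mp h3

/-- The ramification index of `𝔓 ∌ n` over `K` is one. -/
theorem ramificationIdx_eq_one (𝔓 : Ideal (𝓞 C)) [h𝔓 : 𝔓.IsPrime] (h𝔓0 : 𝔓 ≠ ⊥)
    (hn𝔓 : (n : 𝓞 C) ∉ 𝔓) : 𝔓.ramificationIdx (𝓞 K) = 1 := by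
  obtain ⟨hvp, hv0, hvn⟩ := prime_aux (K := K) n 𝔓 h𝔓0 hn𝔓
  have hvmax : (𝔓.under (𝓞 K)).IsMaximal := hvp.isMaximal hv0
  have : Finite (𝓞 K ⧸ 𝔓.under (𝓞 K)) := Ideal.finiteQuotientOfFreeOfNeBot _ hv0
  have : 𝔓.LiesOver (𝔓.under (𝓞 K)) := ⟨rfl⟩
  have hcard := Ideal.card_inertia_eq_ramificationIdxIn (G := C ≃ₐ[K] C) (𝔓.under (𝓞 K)) 𝔓
  have hbot : Ideal.inertia (C ≃ₐ[K] C) 𝔓 = ⊥ := by
    rw [_root_.eq_bot_iff]
    intro σ hσ
    exact Subgroup.mem_bot.mpr (eq_one_of_mem_inertia n 𝔓 h𝔓0 hn𝔓 σ hσ)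
  rw [hbot, Subgroup.card_bot] at hcard
  rw [← Ideal.ramificationIdxIn_eq_ramificationIdx (𝔓.under (𝓞 K)) 𝔓 (C ≃ₐ[K] C), ← hcard]

omit [IsGalois K C] [IsCyclotomicExtension {n} K C] in
/-- If `C` contains a primitive `n`-th root of unity, every prime of `C` not containing `n` has
absolute norm `≡ 1 mod n`. -/
theorem absNorm_modEq_one_of_primitiveRoot {C : Type*} [Field C] [NumberField C] {r : C}
    (hr : IsPrimitiveRoot r n) (𝔓 : Ideal (𝓞 C))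
    [h𝔓 : 𝔓.IsPrime] (h𝔓0 : 𝔓 ≠ ⊥) (hn𝔓 : (n : 𝓞 C) ∉ 𝔓) : Ideal.absNorm 𝔓 ≡ 1 [MOD n] := by
  classical
  have hmax : 𝔓.IsMaximal := h𝔓.isMaximal h𝔓0
  have : Finite (𝓞 C ⧸ 𝔓) := Ideal.finiteQuotientOfFreeOfNeBot 𝔓 h𝔓0
  let _ : Field (𝓞 C ⧸ 𝔓) := Ideal.Quotient.field 𝔓
  let _ : Fintype (𝓞 C ⧸ 𝔓) := Fintype.ofFinite _
  -- the identity is a Frobenius at `𝔓` for `𝓞 C` over itself
  have hunder : 𝔓.under (𝓞 C) = 𝔓 := by
    rw [Ideal.under_def, Algebra.algebraMap_self, Ideal.comap_id]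
  have hid : (AlgHom.id (𝓞 C) (𝓞 C)).IsArithFrobAt 𝔓 := by
    intro x
    rw [hunder, AlgHom.id_apply, ← Ideal.Quotient.eq, map_pow, Nat.card_eq_fintype_card,
      FiniteField.pow_card]
  have hint : IsIntegral ℤ r := by
    refine ⟨Polynomial.X ^ n - 1, Polynomial.monic_X_pow_sub_C 1 (NeZero.ne n), ?_⟩
    simp [hr.pow_eq_one]
  set r' : 𝓞 C := ⟨r, hint⟩ with hr'
  have h1 : r' ^ n = 1 := by
    apply RingOfIntegers.ext
    show algebraMap (𝓞 C) C (r' ^ n) = algebraMap (𝓞 C) C 1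
    rw [map_pow, map_one]
    exact hr.pow_eq_one
  have h2 := hid.apply_of_pow_eq_one h1 hn𝔓
  rw [hunder, AlgHom.id_apply] at h2
  have h3 := congrArg (fun x : 𝓞 C => (x : C)) h2
  simp only [map_pow] at h3
  have h4 : r ^ Nat.card (𝓞 C ⧸ 𝔓) = r ^ 1 := by rw [pow_one]; exact h3.symm
  have hfin : IsOfFinOrder r := isOfFinOrder_iff_pow_eq_one.mpr
    ⟨n, Nat.pos_of_ne_zero (NeZero.ne n), hr.pow_eq_one⟩
  have h5 := hfin.pow_eq_pow_iff_modEq.mp h4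
  rw [← hr.eq_orderOf, natCard_quot_eq_absNorm] at h5
  exact h5

omit [IsGalois K C] [IsCyclotomicExtension {n} K C] [NeZero n] in
/-- Every prime of `C` not containing `n` has absolute norm `≡ 1 mod n`. -/
theorem absNorm_modEq_one (K : Type*) {C : Type*} [Field K] [Field C] [NumberField C]
    [Algebra K C] (n : ℕ) [NeZero n] [IsCyclotomicExtension {n} K C]
    (𝔓 : Ideal (𝓞 C)) [h𝔓 : 𝔓.IsPrime] (h𝔓0 : 𝔓 ≠ ⊥)
    (hn𝔓 : (n : 𝓞 C) ∉ 𝔓) : Ideal.absNorm 𝔓 ≡ 1 [MOD n] := by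
  obtain ⟨r, hr⟩ := IsCyclotomicExtension.exists_isPrimitiveRoot K C (Set.mem_singleton n)
    (NeZero.ne n)
  exact absNorm_modEq_one_of_primitiveRoot n hr 𝔓 h𝔓0 hn𝔓

/-- A prime of `K` lying under a prime of `C` of relative degree one (not containing `n`) has
trivial Artin symbol. -/
theorem artCyc_under_eq_one_of_inertiaDeg (𝔓 : Ideal (𝓞 C)) [h𝔓 : 𝔓.IsPrime] (h𝔓0 : 𝔓 ≠ ⊥)
    (hn𝔓 : (n : 𝓞 C) ∉ 𝔓) (hf : 𝔓.inertiaDeg (𝓞 K) = 1) :
    artCyc (C := C) n (𝔓.under (𝓞 K)) = 1 := by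
  obtain ⟨hvp, hv0, hvn⟩ := prime_aux (K := K) n 𝔓 h𝔓0 hn𝔓
  rw [artCyc_eq_one_iff n hv0 (isCoprime_of_prime n hvp hv0 hvn)]
  have hvmax : (𝔓.under (𝓞 K)).IsMaximal := hvp.isMaximal hv0
  have h𝔓max : 𝔓.IsMaximal := h𝔓.isMaximal h𝔓0
  have : 𝔓.LiesOver (𝔓.under (𝓞 K)) := ⟨rfl⟩
  have h1 : Nat.card (𝓞 K ⧸ 𝔓.under (𝓞 K)) ^ 𝔓.inertiaDeg (𝓞 K) = Nat.card (𝓞 C ⧸ 𝔓) :=
    Ideal.cardQuot_pow_inertiaDeg (𝔓.under (𝓞 K)) 𝔓
  rw [hf, pow_one, natCard_quot_eq_absNorm, natCard_quot_eq_absNorm] at h1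
  rw [h1]
  exact absNorm_modEq_one K n 𝔓 h𝔓0 hn𝔓

/-! ### Surjectivity of the Artin map -/

/-- The Frobenius elements `artCyc n v`, `v ∌ n` prime, generate `Gal(C/K)`. -/
theorem closure_frob_eq_top :
    Subgroup.closure {τ : C ≃ₐ[K] C | ∃ v : Ideal (𝓞 K), v.IsPrime ∧ v ≠ ⊥ ∧ (n : 𝓞 K) ∉ v ∧
      τ = artCyc n v} = ⊤ := by
  classical
  set H : Subgroup (C ≃ₐ[K] C) := Subgroup.closure {τ : C ≃ₐ[K] C | ∃ v : Ideal (𝓞 K),
    v.IsPrime ∧ v ≠ ⊥ ∧ (n : 𝓞 K) ∉ v ∧ τ = artCyc n v} with hH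
  by_contra hne
  have hcomm : IsMulCommutative (C ≃ₐ[K] C) := IsCyclotomicExtension.isMulCommutative {n} K C
  have hnormal : H.Normal := ⟨fun a ha g => by
    have : g * a * g⁻¹ = a := by
      rw [hcomm.is_comm.comm g a, mul_assoc, mul_inv_cancel, mul_one]
    rw [this]; exact ha⟩
  set M : IntermediateField K C := IntermediateField.fixedField H with hM
  have hMgal : IsGalois K M := IsGalois.of_fixedField_normal_subgroup H
  -- `[M : K] ≥ 2`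
  have hdeg : 2 ≤ Module.finrank K M := by
    have hpos : 0 < Module.finrank K M := Module.finrank_pos
    have hne1 : Module.finrank K M ≠ 1 := by
      intro h1
      have hbot : M = ⊥ := IntermediateField.finrank_eq_one_iff.mp h1
      apply hne
      have h2 := IntermediateField.fixingSubgroup_fixedField H
      rw [← hM, hbot, IntermediateField.fixingSubgroup_bot] at h2
      exact h2.symm
    omega
  -- the exceptional set
  set N₀ : ℕ := Ideal.absNorm (Ideal.span {(n : 𝓞 K)}) with hN₀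
  have hN₀0 : N₀ ≠ 0 := by
    rw [hN₀, Ne, Ideal.absNorm_eq_zero_iff, Ideal.span_singleton_eq_bot]
    exact_mod_cast NeZero.ne n
  have hfin : {I : Ideal (𝓞 K) | Ideal.absNorm I ≤ N₀}.Finite :=
    Set.Finite.subset
      (Set.Finite.biUnion (Set.finite_Iic N₀) (fun k _ => Ideal.finite_setOfPred_absNorm_eq k))
      (fun I hI => Set.mem_biUnion (Set.mem_Iic.mpr hI) rfl)
  obtain ⟨Q, hQp, hQ0, hQS, -, hns⟩ :=
    Fermat.Agent.S14.ZetaSplit.exists_degreeOne_prime_not_split_of_isGalois K M hdeg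
      hfin.toFinset
  apply hns
  have hnQ : (n : 𝓞 K) ∉ Q := by
    intro hmem
    apply hQS
    rw [Set.Finite.mem_toFinset, Set.mem_setOf_eq]
    have hle : Ideal.span {(n : 𝓞 K)} ≤ Q := (Ideal.span_singleton_le_iff_mem Q).mpr hmem
    have hdvd : Ideal.absNorm Q ∣ N₀ := Ideal.absNorm_dvd_absNorm_of_le hle
    exact Nat.le_of_dvd (Nat.pos_of_ne_zero hN₀0) hdvd
  have := hQp
  obtain ⟨⟨P, hP1, hP2⟩⟩ := Ideal.nonempty_primesOver (S := 𝓞 M) Q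
  have := hP1
  have := hP2
  obtain ⟨⟨𝔓, h𝔓1, h𝔓2⟩⟩ := Ideal.nonempty_primesOver (S := 𝓞 C) P
  have := h𝔓1
  have := h𝔓2
  have h𝔓Q : 𝔓.LiesOver Q := Ideal.LiesOver.trans 𝔓 P Q
  have hunder : 𝔓.under (𝓞 K) = Q := h𝔓Q.over.symm
  have hunderM : 𝔓.under (𝓞 M) = P := h𝔓2.over.symm
  have h𝔓0 : 𝔓 ≠ ⊥ := by
    rintro rfl
    rw [Ideal.under_def, Ideal.comap_bot_of_injective _ (RingOfIntegers.algebraMap.injective K C)]
      at hunder
    exact hQ0 hunder.symm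
  have hP0 : P ≠ ⊥ := by
    rintro rfl
    have h1 : Q = (⊥ : Ideal (𝓞 M)).under (𝓞 K) := hP2.over
    rw [Ideal.under_def,
      Ideal.comap_bot_of_injective _ (RingOfIntegers.algebraMap.injective K M)] at h1
    exact hQ0 h1
  have hn𝔓 : (n : 𝓞 C) ∉ 𝔓 := by
    rw [← natCast_mem_under (A := 𝓞 K), hunder]
    exact hnQ
  have hQmax : Q.IsMaximal := hQp.isMaximal hQ0
  -- ramification index
  have he : P.ramificationIdx (𝓞 K) = 1 := by
    have h1 : P.ramificationIdx (𝓞 K) ∣ 𝔓.ramificationIdx (𝓞 K) :=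
      Ideal.ramificationIdx_below_dvd P 𝔓
    rw [ramificationIdx_eq_one n 𝔓 h𝔓0 hn𝔓] at h1
    exact Nat.dvd_one.mp h1
  -- residue degree
  have hf : P.inertiaDeg (𝓞 K) = 1 := by
    set τ : C ≃ₐ[K] C := artCyc n Q with hτ
    have hτH : τ ∈ H := Subgroup.subset_closure ⟨Q, hQp, hQ0, hnQ, rfl⟩
    have hfrob : IsArithFrobAt (𝓞 K) τ 𝔓 := by
      have := isArithFrobAt_artCyc (K := K) n 𝔓 h𝔓0 hn𝔓
      rwa [hunder] at this
    set q := Nat.card (𝓞 K ⧸ Q) with hq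
    have hpow : ∀ x : 𝓞 M, x - x ^ q ∈ P := by
      intro x
      have h1 := hfrob (algebraMap (𝓞 M) (𝓞 C) x)
      rw [hunder] at h1
      simp only [MulSemiringAction.toAlgHom_apply] at h1
      have hfix : τ • algebraMap (𝓞 M) (𝓞 C) x = algebraMap (𝓞 M) (𝓞 C) x := by
        apply RingOfIntegers.ext
        show τ ((x : M) : C) = ((x : M) : C)
        exact (IntermediateField.mem_fixedField_iff H _).mp (x : M).2 τ hτH
      rw [hfix, ← map_pow, ← map_sub] at h1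
      rw [← hunderM, Ideal.under_def, Ideal.mem_comap]
      exact h1
    have hPmax : P.IsMaximal := hP1.isMaximal hP0
    let _ : Field (𝓞 M ⧸ P) := Ideal.Quotient.field P
    have : Finite (𝓞 M ⧸ P) := Ideal.finiteQuotientOfFreeOfNeBot P hP0
    have : Finite (𝓞 K ⧸ Q) := Ideal.finiteQuotientOfFreeOfNeBot _ hQ0
    have hq1 : 1 < q := by
      rw [hq]
      exact Finite.one_lt_card_iff_nontrivial.mpr (Ideal.Quotient.nontrivial_iff.mpr hQmax.ne_top)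
    have hall : ∀ y : 𝓞 M ⧸ P, y ^ q = y := by
      intro y
      obtain ⟨x, rfl⟩ := Ideal.Quotient.mk_surjective y
      rw [← map_pow, eq_comm, Ideal.Quotient.eq]
      exact hpow x
    have hcard := Fermat.Agent.S14.card_le_of_forall_pow_eq hq1 hall
    have hf' : q ^ P.inertiaDeg (𝓞 K) = Nat.card (𝓞 M ⧸ P) :=
      Ideal.cardQuot_pow_inertiaDeg Q P
    have hpos : 0 < P.inertiaDeg (𝓞 K) := Ideal.inertiaDeg_pos P (𝓞 K)
    by_contra hne'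
    have h2 : 2 ≤ P.inertiaDeg (𝓞 K) := by omega
    have h3 : q ^ 2 ≤ q ^ P.inertiaDeg (𝓞 K) := Nat.pow_le_pow_right (by omega) h2
    rw [hf'] at h3
    have : q ^ 2 ≤ q := h3.trans hcard
    nlinarith
  exact ⟨by rw [Ideal.ramificationIdxIn_eq_ramificationIdx Q P Gal(M/K), he],
    by rw [Ideal.inertiaDegIn_eq_inertiaDeg Q P Gal(M/K), hf]⟩

/-- **Surjectivity of the cyclotomic Artin map.** -/
theorem artCyc_surjective (σ : C ≃ₐ[K] C) :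
    ∃ I : Ideal (𝓞 K), I ≠ ⊥ ∧ IsCoprime I (Ideal.span {(n : 𝓞 K)}) ∧ artCyc n I = σ := by
  classical
  have hfinG : Finite (C ≃ₐ[K] C) := inferInstance
  -- the set of symbols is a subgroup
  let R : Subgroup (C ≃ₐ[K] C) :=
    { carrier := {σ | ∃ I : Ideal (𝓞 K), I ≠ ⊥ ∧ IsCoprime I (Ideal.span {(n : 𝓞 K)}) ∧
        artCyc n I = σ}
      mul_mem' := by
        rintro _ _ ⟨I, hI, hIn, rfl⟩ ⟨J, hJ, hJn, rfl⟩
        exact ⟨I * J, mul_ne_zero hI hJ, IsCoprime.mul_left hIn hJn, artCyc_mul n hI hJ hIn hJn⟩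
      one_mem' := ⟨⊤, by simp, by rw [← Ideal.one_eq_top]; exact isCoprime_one_left, artCyc_top n⟩
      inv_mem' := by
        rintro _ ⟨I, hI, hIn, rfl⟩
        have hpow : ∀ k : ℕ, ∃ J : Ideal (𝓞 K), J ≠ ⊥ ∧ IsCoprime J (Ideal.span {(n : 𝓞 K)}) ∧
            artCyc (C := C) n J = artCyc n I ^ k := by
          intro k
          induction k with
          | zero => exact ⟨⊤, by simp, by rw [← Ideal.one_eq_top]; exact isCoprime_one_left,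
              by rw [pow_zero, artCyc_top n]⟩
          | succ k ih =>
            obtain ⟨J, hJ, hJn, hJk⟩ := ih
            exact ⟨J * I, mul_ne_zero hJ hI, IsCoprime.mul_left hJn hIn, by
              rw [artCyc_mul n hJ hI hJn hIn, hJk, pow_succ]⟩
        have hord : 0 < orderOf (artCyc (C := C) n I) := orderOf_pos _
        obtain ⟨J, hJ, hJn, hJk⟩ := hpow (orderOf (artCyc (C := C) n I) - 1)
        refine ⟨J, hJ, hJn, ?_⟩
        rw [hJk, eq_inv_iff_mul_eq_one, ← pow_succ,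
          Nat.sub_add_cancel hord, pow_orderOf_eq_one] }
  have hR : R = ⊤ := by
    rw [_root_.eq_top_iff, ← closure_frob_eq_top (K := K) (C := C) n, Subgroup.closure_le]
    rintro τ ⟨v, hvp, hv0, hvn, rfl⟩
    exact ⟨v, hv0, isCoprime_of_prime n hvp hv0 hvn, rfl⟩
  have : σ ∈ R := by rw [hR]; exact Subgroup.mem_top σ
  exact this

end Fermat.Agent.S55.Global.CycloRay


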