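/-
S55 / Global / G.cycloArtin — norm functoriality of the ideal-theoretic cyclotomic Artin map
(helper2).  Continuation of `CycloRay.lean`.

Setting: `K ⊆ F` number fields, `C/K` and `D/F` `n`-cyclotomic with `C ⊆ D`.

* `isCoprime_span_natCast_iff` : `I` is prime to `(n)` iff `N(I)` is prime to `n`.
* `isCoprime_relNorm`, `isCoprime_map` : coprimality to `(n)` is preserved by `relNorm`, by extension.
* `artCyc_pow`.
* `restrict_artCyc` : `(artCyc_F J)|_C = artCyc_K (N_{F/K} J)`.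
* `restrict_artCyc_map` : `(artCyc_F (I 𝓞_F))|_C = artCyc_K I ^ [F:K]`.
* `artCyc_relNorm_eq` (the case `D = C`): `artCyc_K (N_{L/K} 𝔄) = artCyc_L 𝔄` as automorphisms of
  `C`; `artCyc_relNorm_apply` : hence it fixes `L` pointwise ("norms from `L` die in `Gal(L/K)`").
* `artCyc_relNorm_top_eq_one` : norms from `C` itself have trivial symbol.
-/
import Fermat.Agent.S55.Global.CycloRay

set_option autoImplicit false

open NumberField nonZeroDivisors

namespace Fermat.Agent.S55.Global.CycloRayNorm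

open Fermat.Agent.S55.Global.CycloRay

section Coprime

variable {K : Type*} [Field K] [NumberField K] (n : ℕ)

/-- An ideal is prime to `(n)` iff its absolute norm is prime to `n`. -/
theorem isCoprime_span_natCast_iff {I : Ideal (𝓞 K)} (hI : I ≠ ⊥) :
    IsCoprime I (Ideal.span {(n : 𝓞 K)}) ↔ (Ideal.absNorm I).Coprime n := by
  constructor
  · intro h
    by_contra hnc
    obtain ⟨q, hq, hqN, hqn⟩ := Nat.Prime.not_coprime_iff_dvd.mp hnc
    -- an element of additive order `q` in the quotient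
    have : Finite (𝓞 K ⧸ I) := Ideal.finiteQuotientOfFreeOfNeBot I hI
    have : Fintype (𝓞 K ⧸ I) := Fintype.ofFinite _
    have hcard : q ∣ Fintype.card (𝓞 K ⧸ I) := by
      rw [← Nat.card_eq_fintype_card, ← Submodule.cardQuot_apply, ← Ideal.absNorm_apply]
      exact hqN
    have : Fact q.Prime := ⟨hq⟩
    obtain ⟨x, hx⟩ := exists_prime_addOrderOf_dvd_card q hcard
    have hx0 : x ≠ 0 := by
      rintro rfl
      rw [addOrderOf_zero] at hx
      exact hq.one_lt.ne hx
    have hqx : (q : ℕ) • x = 0 := by rw [← hx]; exact addOrderOf_nsmul_eq_zero x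
    -- `q` is invertible modulo `I`
    obtain ⟨a, ha, b, hb, hab⟩ := Ideal.isCoprime_iff_exists.mp h
    obtain ⟨c, rfl⟩ := Ideal.mem_span_singleton.mp hb
    obtain ⟨d, rfl⟩ := hqn
    apply hx0
    have h1 : (Ideal.Quotient.mk I) (a + ((q * d : ℕ) : 𝓞 K) * c) = 1 := by rw [hab, map_one]
    rw [map_add, Ideal.Quotient.eq_zero_iff_mem.mpr ha, zero_add] at h1
    calc x = x * 1 := (mul_one x).symm
      _ = x * (Ideal.Quotient.mk I) (((q * d : ℕ) : 𝓞 K) * c) := by rw [h1]
      _ = (q • x) * (Ideal.Quotient.mk I) ((d : 𝓞 K) * c) := by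
          rw [nsmul_eq_mul]
          push_cast
          simp only [map_mul, map_natCast]
          ring
      _ = 0 := by rw [hqx, zero_mul]
  · intro h
    rw [Ideal.isCoprime_iff_exists]
    have hg : Nat.gcd (Ideal.absNorm I) n = 1 := h
    have hbez := Nat.gcd_eq_gcd_ab (Ideal.absNorm I) n
    rw [hg] at hbez
    refine ⟨(Ideal.absNorm I : 𝓞 K) * ((Nat.gcdA (Ideal.absNorm I) n : ℤ) : 𝓞 K),
      Ideal.mul_mem_right _ _ (Ideal.absNorm_mem I),
      (n : 𝓞 K) * ((Nat.gcdB (Ideal.absNorm I) n : ℤ) : 𝓞 K),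
      Ideal.mul_mem_right _ _ (Ideal.mem_span_singleton_self _), ?_⟩
    have := congrArg (fun z : ℤ => (z : 𝓞 K)) hbez
    simp only [Nat.cast_one, Int.cast_one, Int.cast_add, Int.cast_mul, Int.cast_natCast] at this
    exact this.symm

end Coprime

section Functoriality

variable {K F C D : Type*} [Field K] [NumberField K] [Field F] [NumberField F]
  [Field C] [NumberField C] [Field D] [NumberField D]
  [Algebra K F] [Algebra K C] [Algebra F D] [Algebra K D] [Algebra C D]
  [IsScalarTower K F D] [IsScalarTower K C D]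
  (n : ℕ) [NeZero n] [IsCyclotomicExtension {n} K C] [IsCyclotomicExtension {n} F D]

omit [NeZero n] in
/-- The relative norm of an ideal prime to `(n)` is prime to `(n)`. -/
theorem isCoprime_relNorm {K F : Type*} [Field K] [NumberField K] [Field F] [NumberField F]
    [Algebra K F] {J : Ideal (𝓞 F)} (hJ : J ≠ ⊥)
    (hJn : IsCoprime J (Ideal.span {(n : 𝓞 F)})) :
    IsCoprime (Ideal.relNorm (𝓞 K) J) (Ideal.span {(n : 𝓞 K)}) := by
  have h0 : Ideal.relNorm (𝓞 K) J ≠ ⊥ := by rwa [Ne, Ideal.relNorm_eq_bot_iff]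
  rw [isCoprime_span_natCast_iff n h0, Ideal.absNorm_relNorm]
  exact (isCoprime_span_natCast_iff n hJ).mp hJn

omit [NeZero n] in
/-- The extension of an ideal prime to `(n)` is prime to `(n)`. -/
theorem isCoprime_map {K F : Type*} [Field K] [NumberField K] [Field F] [NumberField F]
    [Algebra K F] {I : Ideal (𝓞 K)}
    (hIn : IsCoprime I (Ideal.span {(n : 𝓞 K)})) :
    IsCoprime (I.map (algebraMap (𝓞 K) (𝓞 F))) (Ideal.span {(n : 𝓞 F)}) := by
  rw [Ideal.isCoprime_iff_sup_eq] at hIn ⊢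
  have := congrArg (Ideal.map (algebraMap (𝓞 K) (𝓞 F))) hIn
  rwa [Ideal.map_sup, Ideal.map_top, Ideal.map_span, Set.image_singleton, map_natCast] at this

omit [NumberField F] [NumberField D] [Algebra K F] [Algebra F D] [Algebra K D] [Algebra C D]
  [IsScalarTower K F D] [IsScalarTower K C D] [IsCyclotomicExtension {n} F D] in
theorem artCyc_pow {I : Ideal (𝓞 K)} (hI : I ≠ ⊥)
    (hIn : IsCoprime I (Ideal.span {(n : 𝓞 K)})) (k : ℕ) :
    artCyc (C := C) n (I ^ k) = artCyc n I ^ k := by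
  induction k with
  | zero => rw [pow_zero, pow_zero, Ideal.one_eq_top, artCyc_top]
  | succ k ih =>
    rw [pow_succ, pow_succ, artCyc_mul n (pow_ne_zero k hI) hI (IsCoprime.pow_left hIn) hIn, ih]

variable [IsGalois K C]

/-- **Norm functoriality**: the restriction to `C` of the Artin symbol of `J` (over `F`) is the
Artin symbol of `N_{F/K} J` (over `K`). -/
theorem restrict_artCyc {J : Ideal (𝓞 F)} (hJ : J ≠ ⊥)
    (hJn : IsCoprime J (Ideal.span {(n : 𝓞 F)})) :
    AlgEquiv.restrictNormalHom C ((artCyc (C := D) n J).restrictScalars K) =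
      artCyc (C := C) n (Ideal.relNorm (𝓞 K) J) := by
  have h0 : Ideal.relNorm (𝓞 K) J ≠ ⊥ := by rwa [Ne, Ideal.relNorm_eq_bot_iff]
  refine eq_artCyc n h0 (isCoprime_relNorm n hJ hJn) fun ζ hζ => ?_
  apply (algebraMap C D).injective
  change algebraMap C D (((artCyc (C := D) n J).restrictScalars K).restrictNormal C ζ) = _
  rw [AlgEquiv.restrictNormal_commutes, AlgEquiv.restrictScalars_apply, Ideal.absNorm_relNorm,
    map_pow]
  exact artCyc_apply n hJ hJn (by rw [← map_pow, hζ, map_one])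

/-- **Base change**: the restriction to `C` of the Artin symbol of `I 𝓞_F` is the `[F:K]`-th power
of the Artin symbol of `I`. -/
theorem restrict_artCyc_map {I : Ideal (𝓞 K)} (hI : I ≠ ⊥)
    (hIn : IsCoprime I (Ideal.span {(n : 𝓞 K)})) :
    AlgEquiv.restrictNormalHom C
        ((artCyc (C := D) n (I.map (algebraMap (𝓞 K) (𝓞 F)))).restrictScalars K) =
      artCyc (C := C) n I ^ Module.finrank K F := by
  have hmap0 : I.map (algebraMap (𝓞 K) (𝓞 F)) ≠ ⊥ := by
    rwa [Ne, Ideal.map_eq_bot_iff_of_injective (RingOfIntegers.algebraMap.injective K F)]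
  rw [restrict_artCyc n hmap0 (isCoprime_map n hIn), Ideal.relNorm_algebraMap,
    artCyc_pow n hI hIn, IsFractionRing.finrank_eq (𝓞 K) K (𝓞 F) F]

end Functoriality

section Intermediate

variable {K L C : Type*} [Field K] [NumberField K] [Field L] [NumberField L]
  [Field C] [NumberField C] [Algebra K L] [Algebra K C] [Algebra L C] [IsScalarTower K L C]
  (n : ℕ) [NeZero n] [IsCyclotomicExtension {n} K C]

/-- An `n`-cyclotomic extension `C/K` is `n`-cyclotomic over every intermediate field. -/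
theorem isCyclotomicExtension_tower_top (K : Type*) {L C : Type*} [Field K] [Field L] [Field C]
    [Algebra K L] [Algebra K C] [Algebra L C] [IsScalarTower K L C] (n : ℕ) [NeZero n]
    [IsCyclotomicExtension {n} K C] : IsCyclotomicExtension {n} L C := by
  rw [IsCyclotomicExtension.iff_adjoin_eq_top]
  obtain ⟨h1, h2⟩ := (IsCyclotomicExtension.iff_adjoin_eq_top {n} K C).mp inferInstance
  refine ⟨h1, ?_⟩
  apply Subalgebra.restrictScalars_injective K
  rw [Subalgebra.restrictScalars_top, eq_top_iff, ← h2]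
  refine Algebra.adjoin_le ?_
  intro b hb
  rw [Subalgebra.coe_restrictScalars]
  exact Algebra.subset_adjoin hb

variable [IsCyclotomicExtension {n} L C]

/-- **Norms and the Artin symbol**: the Artin symbol over `K` of `N_{L/K} 𝔄` is the Artin symbol of
`𝔄` over `L` (both automorphisms of `C`). -/
theorem artCyc_relNorm_eq {𝔄 : Ideal (𝓞 L)} (h𝔄 : 𝔄 ≠ ⊥)
    (h𝔄n : IsCoprime 𝔄 (Ideal.span {(n : 𝓞 L)})) :
    artCyc (C := C) n (Ideal.relNorm (𝓞 K) 𝔄) = (artCyc (C := C) n 𝔄).restrictScalars K := by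
  have h0 : Ideal.relNorm (𝓞 K) 𝔄 ≠ ⊥ := by rwa [Ne, Ideal.relNorm_eq_bot_iff]
  symm
  refine eq_artCyc n h0 (isCoprime_relNorm n h𝔄 h𝔄n) fun ζ hζ => ?_
  rw [AlgEquiv.restrictScalars_apply, Ideal.absNorm_relNorm]
  exact artCyc_apply n h𝔄 h𝔄n hζ

/-- The Artin symbol of a norm from `L` fixes `L` pointwise. -/
theorem artCyc_relNorm_apply {𝔄 : Ideal (𝓞 L)} (h𝔄 : 𝔄 ≠ ⊥)
    (h𝔄n : IsCoprime 𝔄 (Ideal.span {(n : 𝓞 L)})) (x : L) :
    artCyc (C := C) n (Ideal.relNorm (𝓞 K) 𝔄) (algebraMap L C x) = algebraMap L C x := by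
  rw [artCyc_relNorm_eq n h𝔄 h𝔄n, AlgEquiv.restrictScalars_apply, AlgEquiv.commutes]

/-- **Norms die**: the Artin symbol of a norm from `L`, restricted to `L`, is trivial. -/
theorem restrict_artCyc_relNorm [IsGalois K L] {𝔄 : Ideal (𝓞 L)} (h𝔄 : 𝔄 ≠ ⊥)
    (h𝔄n : IsCoprime 𝔄 (Ideal.span {(n : 𝓞 L)})) :
    AlgEquiv.restrictNormalHom L (artCyc (C := C) n (Ideal.relNorm (𝓞 K) 𝔄)) = 1 := by
  ext x
  apply (algebraMap L C).injective
  change algebraMap L C ((artCyc (C := C) n (Ideal.relNorm (𝓞 K) 𝔄)).restrictNormal L x) = _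
  rw [AlgEquiv.restrictNormal_commutes, artCyc_relNorm_apply n h𝔄 h𝔄n, AlgEquiv.one_apply]

end Intermediate

section Top

variable {K C : Type*} [Field K] [NumberField K] [Field C] [NumberField C] [Algebra K C]
  (n : ℕ) [NeZero n] [IsCyclotomicExtension {n} K C]

/-- Norms from `C` itself have trivial Artin symbol. -/
theorem artCyc_relNorm_top_eq_one {𝔄 : Ideal (𝓞 C)} (h𝔄 : 𝔄 ≠ ⊥)
    (h𝔄n : IsCoprime 𝔄 (Ideal.span {(n : 𝓞 C)})) :
    artCyc (C := C) n (Ideal.relNorm (𝓞 K) 𝔄) = 1 := by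
  have : IsCyclotomicExtension {n} C C := isCyclotomicExtension_tower_top K n
  rw [artCyc_relNorm_eq n h𝔄 h𝔄n]
  ext x
  have : artCyc (C := C) n 𝔄 = 1 := by
    ext y
    have := (artCyc (C := C) n 𝔄).commutes y
    simpa using this
  rw [this]
  rfl

/-- Consequently `N(𝔄) ≡ 1 mod n` for every ideal `𝔄` of `𝓞 C` prime to `n`. -/
theorem absNorm_modEq_one_of_isCoprime (K : Type*) {C : Type*} [Field K] [NumberField K] [Field C]
    [NumberField C] [Algebra K C] (n : ℕ) [NeZero n] [IsCyclotomicExtension {n} K C]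
    {𝔄 : Ideal (𝓞 C)} (h𝔄 : 𝔄 ≠ ⊥)
    (h𝔄n : IsCoprime 𝔄 (Ideal.span {(n : 𝓞 C)})) : Ideal.absNorm 𝔄 ≡ 1 [MOD n] := by
  have h0 : Ideal.relNorm (𝓞 K) 𝔄 ≠ ⊥ := by rwa [Ne, Ideal.relNorm_eq_bot_iff]
  have := (artCyc_eq_one_iff (C := C) n h0 (isCoprime_relNorm (K := K) n h𝔄 h𝔄n)).mp
    (artCyc_relNorm_top_eq_one n h𝔄 h𝔄n)
  rwa [Ideal.absNorm_relNorm] at this

end Top

end Fermat.Agent.S55.Global.CycloRayNorm
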