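/-
S55 / GLOBAL block, row G.cycloArtin (helper61): the cyclotomic Artin map on an abstract norm
residue group, independent of the idele model.

Setting: `K` a totally complex number field, `n = p^k`, `C/K` `n`-cyclotomic, `K ≤ L ≤ C` with
`L/K` Galois, `T` a finite set of primes of `K` containing all primes above `p`.

* `ArtN n`, `ArtT n T` : the cyclotomic Artin symbol on fractional ideals (product of the Frobenius
  `artCyc n v` over `v ∤ n`, resp. over `v ∉ T`), with values in `Gal(C/K)`;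
  `artN_coeIdeal`, `artT_eq_artN`, `artT_eq_one_of_supported`, `artT_coeIdeal_eq_one`.
* `artN_spanSingleton_eq_one` : reciprocity, `u ≡ 1 mod p^k` at the primes over `p` ⇒
  `ArtN (u) = 1`.
* `restrict_artT_relNorm`, `restrict_artT_norm` : norms from `L` have trivial symbol in `Gal(L/K)`.
* `artHom L C n T : Kˣ →* Gal(L/K)`, `a ↦ (ArtT (a))|_L`; `artHom_eq_one_of_decomp` (kernel),
  `artHom_surjective` (weak approximation + `Cl_T(K) = 1` + generation by Frobenius elements).
* `exists_artin_hom` : for `δ : Kˣ →* X` surjective whose kernel consists of products of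
  `T`-units, norms from `L` and elements `≡ 1`, and `Cl_T(K) = 1`, there is a surjective
  `ψ : X →* Gal(L/K)` with `ψ (δ a) = artHom a`.  `exists_artin_equiv`, `card_eq_and_generator`:
  with `card X ≤ [L:K]` it is an isomorphism, `card X = [L:K]`, generators go to generators.
* `isOneModAt_of_eq`, `valuation_eq_one_of_eq` : adapters for the kernel hypothesis.
-/
import Fermat.Agent.S55.Global.CycloRayNorm
import Fermat.Agent.S55.Global.CycloArtinIdeal
import Fermat.Agent.S55.Global.WeakApprox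

set_option autoImplicit false
set_option linter.unusedSectionVars false
set_option linter.style.haveILetI false

open NumberField IsDedekindDomain nonZeroDivisors

namespace Fermat.Agent.S55.Global.CycloArtinAbs

open Fermat.Agent.S55.Global.CycloRay Fermat.Agent.S55.Global.CycloRayNorm
  Fermat.Agent.S55.Global.CycloArtinIdeal

noncomputable section

section Dedekind

variable {R : Type*} [CommRing R] [IsDedekindDomain R] (K : Type*) [Field K] [Algebra R K]
  [IsFractionRing R K]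

theorem valuation_eq_exp_neg_count (v : HeightOneSpectrum R) {a : K} (ha : a ≠ 0) :
    v.valuation K a =
      WithZero.exp (-(FractionalIdeal.count K v (FractionalIdeal.spanSingleton R⁰ a))) := by
  obtain ⟨n, d, hd, rfl⟩ := IsFractionRing.div_surjective (A := R) a
  have hd0 : d ≠ 0 := nonZeroDivisors.ne_zero hd
  have hn0 : n ≠ 0 := by
    rintro rfl
    simp at ha
  have hI : FractionalIdeal.spanSingleton R⁰ (algebraMap R K n / algebraMap R K d) ≠ 0 := by
    rw [FractionalIdeal.spanSingleton_ne_zero_iff]; exact ha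
  have h_aJ : FractionalIdeal.spanSingleton R⁰ (algebraMap R K n / algebraMap R K d) =
      FractionalIdeal.spanSingleton R⁰ ((algebraMap R K) d)⁻¹ *
        ((Ideal.span {n} : Ideal R) : FractionalIdeal R⁰ K) := by
    rw [FractionalIdeal.coeIdeal_span_singleton, FractionalIdeal.spanSingleton_mul_spanSingleton,
      div_eq_inv_mul]
  rw [FractionalIdeal.count_well_defined K v hI h_aJ, map_div₀, v.valuation_of_algebraMap,
    v.valuation_of_algebraMap, v.intValuation_if_neg hn0, v.intValuation_if_neg hd0,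
    ← WithZero.exp_sub]
  congr 1
  ring

theorem count_spanSingleton_eq_zero (v : HeightOneSpectrum R) {a : K} (ha : a ≠ 0)
    (h : v.valuation K a = 1) :
    FractionalIdeal.count K v (FractionalIdeal.spanSingleton R⁰ a) = 0 := by
  rw [valuation_eq_exp_neg_count K v ha, ← WithZero.exp_zero, WithZero.exp_inj, neg_eq_zero] at h
  exact h

variable {K} {G : Type*} [CommGroup G] (u : HeightOneSpectrum R → G)

theorem idealChar_pow (I : FractionalIdeal R⁰ K) (m : ℕ) :
    idealChar u (I ^ m) = idealChar u I ^ m := by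
  by_cases hI : I = 0
  · rcases Nat.eq_zero_or_pos m with rfl | hm
    · rw [pow_zero, pow_zero, idealChar_one]
    · have h0 : idealChar u (0 : FractionalIdeal R⁰ K) = 1 := by
        unfold idealChar
        simp [FractionalIdeal.count_zero]
      rw [hI, zero_pow hm.ne', h0, one_pow]
  · induction m with
    | zero => rw [pow_zero, pow_zero, idealChar_one]
    | succ m ih => rw [pow_succ, pow_succ, idealChar_mul u (pow_ne_zero m hI) hI, ih]

/-- Two families of local factors give the same value on `I` if they agree wherever `I` has a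
nonzero exponent. -/
theorem idealChar_congr (u' : HeightOneSpectrum R → G) (I : FractionalIdeal R⁰ K)
    (h : ∀ v, FractionalIdeal.count K v I ≠ 0 → u v = u' v) : idealChar u I = idealChar u' I := by
  unfold idealChar
  apply finprod_congr
  intro v
  by_cases hv : FractionalIdeal.count K v I = 0
  · rw [hv, zpow_zero, zpow_zero]
  · rw [h v hv]

end Dedekind

/-! ### The cyclotomic Artin symbol on fractional ideals -/

section Artin

variable {K C : Type*} [Field K] [NumberField K] [Field C] [NumberField C] [Algebra K C]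
  (n : ℕ) [NeZero n] [IsCyclotomicExtension {n} K C]

/-- `Gal(C/K)` is commutative. -/
@[reducible] def commGroupGal : CommGroup (C ≃ₐ[K] C) :=
  { (inferInstance : Group (C ≃ₐ[K] C)) with
    mul_comm := (IsCyclotomicExtension.isMulCommutative {n} K C).is_comm.comm }

open Classical in
/-- Local factors of `ArtN`: the Frobenius at the primes not dividing `n`. -/
def frobN (v : HeightOneSpectrum (𝓞 K)) : C ≃ₐ[K] C :=
  if (n : 𝓞 K) ∈ v.asIdeal then 1 else artCyc n v.asIdeal

open Classical in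
/-- Local factors of `ArtT`: the Frobenius at the primes outside `T`. -/
def frobT (T : Set (HeightOneSpectrum (𝓞 K))) (v : HeightOneSpectrum (𝓞 K)) : C ≃ₐ[K] C :=
  if v ∈ T then 1 else artCyc n v.asIdeal

/-- The Artin symbol `∏_{v ∤ n} Frob_v^{v(I)}` of a fractional ideal. -/
def ArtN (I : FractionalIdeal (𝓞 K)⁰ K) : C ≃ₐ[K] C :=
  letI := commGroupGal (K := K) (C := C) n
  idealChar (frobN (C := C) n) I

/-- The Artin symbol away from `T`: `∏_{v ∉ T} Frob_v^{v(I)}`. -/
def ArtT (T : Set (HeightOneSpectrum (𝓞 K))) (I : FractionalIdeal (𝓞 K)⁰ K) : C ≃ₐ[K] C :=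
  letI := commGroupGal (K := K) (C := C) n
  idealChar (frobT (C := C) n T) I

variable {n}

theorem artN_mul {I J : FractionalIdeal (𝓞 K)⁰ K} (hI : I ≠ 0) (hJ : J ≠ 0) :
    ArtN (C := C) n (I * J) = ArtN n I * ArtN n J := by
  letI := commGroupGal (K := K) (C := C) n
  exact idealChar_mul _ hI hJ

theorem artN_one : ArtN (C := C) n (1 : FractionalIdeal (𝓞 K)⁰ K) = 1 := by
  letI := commGroupGal (K := K) (C := C) n
  exact idealChar_one _

theorem artN_inv (I : FractionalIdeal (𝓞 K)⁰ K) : ArtN (C := C) n I⁻¹ = (ArtN n I)⁻¹ := by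
  letI := commGroupGal (K := K) (C := C) n
  exact idealChar_inv _ I

theorem artN_prime (v : HeightOneSpectrum (𝓞 K)) :
    ArtN (C := C) n (v.asIdeal : FractionalIdeal (𝓞 K)⁰ K) = frobN n v := by
  letI := commGroupGal (K := K) (C := C) n
  exact idealChar_prime _ v

variable {T : Set (HeightOneSpectrum (𝓞 K))}

theorem artT_mul {I J : FractionalIdeal (𝓞 K)⁰ K} (hI : I ≠ 0) (hJ : J ≠ 0) :
    ArtT (C := C) n T (I * J) = ArtT n T I * ArtT n T J := by
  letI := commGroupGal (K := K) (C := C) n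
  exact idealChar_mul _ hI hJ

theorem artT_one : ArtT (C := C) n T (1 : FractionalIdeal (𝓞 K)⁰ K) = 1 := by
  letI := commGroupGal (K := K) (C := C) n
  exact idealChar_one _

theorem artT_inv (I : FractionalIdeal (𝓞 K)⁰ K) : ArtT (C := C) n T I⁻¹ = (ArtT n T I)⁻¹ := by
  letI := commGroupGal (K := K) (C := C) n
  exact idealChar_inv _ I

theorem artT_pow (I : FractionalIdeal (𝓞 K)⁰ K) (m : ℕ) :
    ArtT (C := C) n T (I ^ m) = ArtT n T I ^ m := by
  letI := commGroupGal (K := K) (C := C) n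
  exact idealChar_pow _ I m

theorem artT_prime (v : HeightOneSpectrum (𝓞 K)) :
    ArtT (C := C) n T (v.asIdeal : FractionalIdeal (𝓞 K)⁰ K) = frobT n T v := by
  letI := commGroupGal (K := K) (C := C) n
  exact idealChar_prime _ v

/-- `ArtT` is trivial on fractional ideals supported on `T`. -/
theorem artT_eq_one_of_supported (I : FractionalIdeal (𝓞 K)⁰ K)
    (h : ∀ v, v ∉ T → FractionalIdeal.count K v I = 0) : ArtT (C := C) n T I = 1 := by
  letI := commGroupGal (K := K) (C := C) n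
  unfold ArtT idealChar
  apply finprod_eq_one_of_forall_eq_one
  intro v
  by_cases hv : v ∈ T
  · rw [frobT, if_pos hv, one_zpow]
  · rw [h v hv, zpow_zero]

/-- `ArtT = ArtN` on fractional ideals prime to `T`, when `T` contains the primes dividing `n`. -/
theorem artT_eq_artN (hT : ∀ v : HeightOneSpectrum (𝓞 K), (n : 𝓞 K) ∈ v.asIdeal → v ∈ T)
    (I : FractionalIdeal (𝓞 K)⁰ K) (h : ∀ v ∈ T, FractionalIdeal.count K v I = 0) :
    ArtT (C := C) n T I = ArtN n I := by
  letI := commGroupGal (K := K) (C := C) n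
  apply idealChar_congr
  intro v hv
  have hvT : v ∉ T := fun hmem => hv (h v hmem)
  have hvn : (n : 𝓞 K) ∉ v.asIdeal := fun hmem => hvT (hT v hmem)
  rw [frobT, if_neg hvT, frobN, if_neg hvn]

/-- On integral ideals prime to `n`, `ArtN` is the Artin symbol `artCyc`. -/
theorem artN_coeIdeal (I : Ideal (𝓞 K)) (hI : I ≠ ⊥)
    (hcop : IsCoprime I (Ideal.span {(n : 𝓞 K)})) :
    ArtN (C := C) n (I : FractionalIdeal (𝓞 K)⁰ K) = artCyc n I := by
  induction I using UniqueFactorizationMonoid.induction_on_prime with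
  | h₁ => exact absurd rfl hI
  | h₂ J hJ =>
    rw [Ideal.isUnit_iff] at hJ
    subst hJ
    rw [FractionalIdeal.coeIdeal_top, artN_one, artCyc_top]
  | h₃ J P hJ hP ih =>
    have hP0 : P ≠ ⊥ := hP.ne_zero
    have hJ' : J ≠ ⊥ := hJ
    have hcP : IsCoprime P (Ideal.span {(n : 𝓞 K)}) := hcop.of_mul_left_left
    have hcJ : IsCoprime J (Ideal.span {(n : 𝓞 K)}) := hcop.of_mul_left_right
    have h1 : ((P : FractionalIdeal (𝓞 K)⁰ K)) ≠ 0 := by
      rw [Ne, FractionalIdeal.coeIdeal_eq_zero]; exact hP0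
    have h2 : ((J : FractionalIdeal (𝓞 K)⁰ K)) ≠ 0 := by
      rw [Ne, FractionalIdeal.coeIdeal_eq_zero]; exact hJ'
    have hPprime : P.IsPrime := Ideal.isPrime_of_prime hP
    have hnP : (n : 𝓞 K) ∉ P := by
      intro hmem
      rw [Ideal.isCoprime_iff_sup_eq,
        sup_eq_left.mpr ((Ideal.span_singleton_le_iff_mem P).mpr hmem)] at hcP
      exact hPprime.ne_top hcP
    rw [FractionalIdeal.coeIdeal_mul, artN_mul h1 h2, ih hJ' hcJ, artCyc_mul n hP0 hJ' hcP hcJ]
    congr 1
    have := artN_prime (C := C) (n := n) ⟨P, hPprime, hP0⟩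
    rw [this, frobN, if_neg hnP]

end Artin

/-! ### Reciprocity -/

section Reciprocity

variable (K : Type*) [Field K] [NumberField K]

/-- An element `b ≡ 1 mod p^k` (multiplicatively, at the primes above `p`) is a quotient `c / d` of
two integers `≡ 1 mod p^k`. -/
theorem exists_integers_of_isOneModAt {p : ℕ} (hp : p.Prime) (k : ℕ) (b : K) (hb : b ≠ 0)
    (h1 : IsOneModAt K p k b) :
    ∃ c d : 𝓞 K, c ≠ 0 ∧ d ≠ 0 ∧ c - 1 ∈ Ideal.span {((p ^ k : ℕ) : 𝓞 K)} ∧
      d - 1 ∈ Ideal.span {((p ^ k : ℕ) : 𝓞 K)} ∧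
      algebraMap (𝓞 K) K c = algebraMap (𝓞 K) K d * b := by
  obtain ⟨N, hN0, c0, hc0⟩ := exists_nat_mul_integral K b
  obtain ⟨a, N', hN'p, hNeq⟩ := Nat.exists_eq_pow_mul_and_not_dvd hN0 p hp.ne_one
  have hN'0 : N' ≠ 0 := by
    rintro rfl
    exact hN'p (dvd_zero p)
  have hbint : ∀ v : HeightOneSpectrum (𝓞 K), (p : 𝓞 K) ∈ v.asIdeal → v.valuation K b ≤ 1 := by
    intro v hv
    have h2 : v.valuation K (b - 1) ≤ 1 := by
      refine (h1 v hv).trans ?_
      rw [map_pow]
      exact pow_le_one' (valuation_natCast_le_one K v p) k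
    have h3 : b = (b - 1) + 1 := by ring
    rw [h3]
    exact (Valuation.map_add_le_max' _ _ _).trans (max_le h2 (le_of_eq (Valuation.map_one _)))
  have hint : ∀ v : HeightOneSpectrum (𝓞 K), v.valuation K ((N' : K) * b) ≤ 1 := by
    intro v
    by_cases hv : (p : 𝓞 K) ∈ v.asIdeal
    · rw [map_mul]
      exact mul_le_one' (valuation_natCast_le_one K v N') (hbint v hv)
    · have h4 : v.valuation K ((N : K) * b) ≤ 1 := by
        have h5 : v.valuation K (algebraMap (𝓞 K) K c0) ≤ 1 := v.valuation_le_one _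
        have h6 : algebraMap (𝓞 K) K c0 = (N : K) * b := hc0
        rwa [h6] at h5
      have h7 : (N : K) * b = (p : K) ^ a * ((N' : K) * b) := by
        rw [hNeq]; push_cast; ring
      rw [h7, map_mul, valuation_natCast_eq_one_of_notMem K v hv, one_mul] at h4
      exact h4
  obtain ⟨c1, hc1⟩ := HeightOneSpectrum.mem_integers_of_valuation_le_one (R := 𝓞 K) (K := K) _ hint
  have hcop : Nat.Coprime N' (p ^ k) :=
    Nat.Coprime.pow_right k ((Nat.Prime.coprime_iff_not_dvd hp).mpr hN'p).symm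
  have htot : 0 < Nat.totient (p ^ k) := Nat.totient_pos.mpr (pow_pos hp.pos k)
  set t := Nat.totient (p ^ k) with ht
  have hd1 : N' ^ t ≡ 1 [MOD p ^ k] := Nat.ModEq.pow_totient hcop
  set d : 𝓞 K := ((N' ^ t : ℕ) : 𝓞 K) with hd
  set c : 𝓞 K := ((N' ^ (t - 1) : ℕ) : 𝓞 K) * c1 with hc
  have hd0 : d ≠ 0 := by
    rw [hd, Ne, Nat.cast_eq_zero]
    exact pow_ne_zero _ hN'0
  have hcK : (algebraMap (𝓞 K) K c) = (algebraMap (𝓞 K) K d) * b := by
    rw [hc, hd, map_mul, hc1, map_natCast, map_natCast]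
    have : N' ^ t = N' ^ (t - 1) * N' := by
      rw [← pow_succ, Nat.sub_add_cancel htot]
    rw [this]
    push_cast
    ring
  have hc0' : c ≠ 0 := by
    intro h0
    rw [h0, map_zero] at hcK
    have hdK : (algebraMap (𝓞 K) K d) ≠ 0 := by
      rw [Ne, FaithfulSMul.algebraMap_eq_zero_iff]; exact hd0
    exact (mul_ne_zero hdK hb) hcK.symm
  have hd_mem : d - 1 ∈ Ideal.span {((p ^ k : ℕ) : 𝓞 K)} := by
    rw [Ideal.mem_span_singleton]
    have h8 : ((p ^ k : ℕ) : ℤ) ∣ ((N' ^ t : ℕ) : ℤ) - 1 := by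
      have := (Nat.modEq_iff_dvd.mp hd1.symm)
      simpa using this
    obtain ⟨z, hz⟩ := h8
    refine ⟨(z : 𝓞 K), ?_⟩
    have := congrArg (Int.cast : ℤ → 𝓞 K) hz
    push_cast at this
    rw [hd]
    push_cast
    exact this
  have hcd_mem : c - d ∈ Ideal.span {((p ^ k : ℕ) : 𝓞 K)} := by
    apply sub_mem_span_of_valuation K k c d _ hp.ne_zero
    intro v hv
    have h9 : (c : K) - (d : K) = (d : K) * (b - 1) := by
      have : (c : K) = (d : K) * b := hcK
      rw [this]; ring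
    rw [h9, map_mul]
    have h10 : v.valuation K (d : K) ≤ 1 := v.valuation_le_one _
    exact (mul_le_of_le_one_left' h10).trans (h1 v hv)
  have hc_mem : c - 1 ∈ Ideal.span {((p ^ k : ℕ) : 𝓞 K)} := by
    have : c - 1 = (c - d) + (d - 1) := by ring
    rw [this]
    exact Ideal.add_mem _ hcd_mem hd_mem
  exact ⟨c, d, hc0', hd0, hc_mem, hd_mem, hcK⟩

variable {K} {C : Type*} [Field C] [NumberField C] [Algebra K C]

theorem isCoprime_span_of_sub_one_mem (m : ℕ) (x : 𝓞 K) (h : x - 1 ∈ Ideal.span {(m : 𝓞 K)}) :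
    IsCoprime (Ideal.span {x}) (Ideal.span {(m : 𝓞 K)}) := by
  rw [Ideal.isCoprime_iff_exists]
  exact ⟨x, Ideal.mem_span_singleton_self x, -(x - 1), neg_mem h, by ring⟩

/-- **Reciprocity**: `b ≡ 1 mod p^k` at the primes above `p` implies `ArtN (b) = 1`. -/
theorem artN_spanSingleton_eq_one [IsTotallyComplex K] {p : ℕ} (hp : p.Prime) (k : ℕ)
    [NeZero (p ^ k)] [IsCyclotomicExtension {p ^ k} K C] (b : K) (hb : b ≠ 0)
    (h1 : IsOneModAt K p k b) :
    ArtN (C := C) (p ^ k) (FractionalIdeal.spanSingleton (𝓞 K)⁰ b) = 1 := by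
  obtain ⟨c, d, hc0, hd0, hc, hd, hcd⟩ := exists_integers_of_isOneModAt K hp k b hb h1
  have hcI : Ideal.span {c} ≠ (⊥ : Ideal (𝓞 K)) := by
    rwa [Ne, Ideal.span_singleton_eq_bot]
  have hdI : Ideal.span {d} ≠ (⊥ : Ideal (𝓞 K)) := by
    rwa [Ne, Ideal.span_singleton_eq_bot]
  have hc1 : ArtN (C := C) (p ^ k) ((Ideal.span {c} : Ideal (𝓞 K)) : FractionalIdeal (𝓞 K)⁰ K)
      = 1 := by
    rw [artN_coeIdeal _ hcI (isCoprime_span_of_sub_one_mem _ c hc)]
    exact artCyc_span_eq_one (p ^ k) hc0 hc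
  have hd1 : ArtN (C := C) (p ^ k) ((Ideal.span {d} : Ideal (𝓞 K)) : FractionalIdeal (𝓞 K)⁰ K)
      = 1 := by
    rw [artN_coeIdeal _ hdI (isCoprime_span_of_sub_one_mem _ d hd)]
    exact artCyc_span_eq_one (p ^ k) hd0 hd
  rw [FractionalIdeal.coeIdeal_span_singleton] at hc1 hd1
  have hdK : (algebraMap (𝓞 K) K d) ≠ 0 := by
    rw [Ne, FaithfulSMul.algebraMap_eq_zero_iff]; exact hd0
  have hmul : FractionalIdeal.spanSingleton (𝓞 K)⁰ (algebraMap (𝓞 K) K c) =
      FractionalIdeal.spanSingleton (𝓞 K)⁰ (algebraMap (𝓞 K) K d) *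
        FractionalIdeal.spanSingleton (𝓞 K)⁰ b := by
    rw [FractionalIdeal.spanSingleton_mul_spanSingleton, hcd]
  have hne1 : FractionalIdeal.spanSingleton (𝓞 K)⁰ (algebraMap (𝓞 K) K d) ≠ 0 := by
    rw [Ne, FractionalIdeal.spanSingleton_eq_zero_iff]; exact hdK
  have hne2 : FractionalIdeal.spanSingleton (𝓞 K)⁰ b ≠ 0 := by
    rw [Ne, FractionalIdeal.spanSingleton_eq_zero_iff]; exact hb
  rw [hmul, artN_mul hne1 hne2, hd1, one_mul] at hc1
  exact hc1

end Reciprocity

section Support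

variable {K C : Type*} [Field K] [NumberField K] [Field C] [NumberField C] [Algebra K C]
  {n : ℕ} [NeZero n] [IsCyclotomicExtension {n} K C] {T : Set (HeightOneSpectrum (𝓞 K))}

/-- `ArtT` is trivial on integral ideals all of whose prime factors lie in `T`. -/
theorem artT_coeIdeal_eq_one (J : Ideal (𝓞 K)) (hJ : J ≠ ⊥)
    (h : ∀ w : HeightOneSpectrum (𝓞 K), J ≤ w.asIdeal → w ∈ T) :
    ArtT (C := C) n T (J : FractionalIdeal (𝓞 K)⁰ K) = 1 := by
  induction J using UniqueFactorizationMonoid.induction_on_prime with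
  | h₁ => exact absurd rfl hJ
  | h₂ J hJu =>
    rw [Ideal.isUnit_iff] at hJu
    subst hJu
    rw [FractionalIdeal.coeIdeal_top, artT_one]
  | h₃ J P hJ0 hP ih =>
    have hP0 : P ≠ ⊥ := hP.ne_zero
    have hJ' : J ≠ ⊥ := hJ0
    have hPprime : P.IsPrime := Ideal.isPrime_of_prime hP
    have h1 : ((P : FractionalIdeal (𝓞 K)⁰ K)) ≠ 0 := by
      rw [Ne, FractionalIdeal.coeIdeal_eq_zero]; exact hP0
    have h2 : ((J : FractionalIdeal (𝓞 K)⁰ K)) ≠ 0 := by
      rw [Ne, FractionalIdeal.coeIdeal_eq_zero]; exact hJ'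
    have hPT : (⟨P, hPprime, hP0⟩ : HeightOneSpectrum (𝓞 K)) ∈ T := h _ Ideal.mul_le_left
    rw [FractionalIdeal.coeIdeal_mul, artT_mul h1 h2,
      ih hJ' (fun w hw => h w (Ideal.mul_le_right.trans hw))]
    have := artT_prime (C := C) (n := n) (T := T) ⟨P, hPprime, hP0⟩
    rw [mul_one]
    change ArtT (C := C) n T (((⟨P, hPprime, hP0⟩ : HeightOneSpectrum (𝓞 K)).asIdeal :
      Ideal (𝓞 K)) : FractionalIdeal (𝓞 K)⁰ K) = 1
    rw [this, frobT, if_pos hPT]

end Support

section NormKill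

variable {K L C : Type*} [Field K] [NumberField K] [Field L] [NumberField L]
  [Field C] [NumberField C] [Algebra K L] [Algebra K C] [Algebra L C] [IsScalarTower K L C]
  {n : ℕ} [NeZero n] [IsCyclotomicExtension {n} K C] [IsGalois K L]
  {T : Set (HeightOneSpectrum (𝓞 K))}

/-- **Norms die** (ideal form): the symbol of a relative norm from `L` is trivial on `L`. -/
theorem restrict_artT_relNorm
    (hT : ∀ v : HeightOneSpectrum (𝓞 K), (n : 𝓞 K) ∈ v.asIdeal → v ∈ T)
    (𝔄 : Ideal (𝓞 L)) (h𝔄 : 𝔄 ≠ ⊥) :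
    AlgEquiv.restrictNormalHom L (ArtT (C := C) n T
      ((Ideal.relNorm (𝓞 K) 𝔄 : Ideal (𝓞 K)) : FractionalIdeal (𝓞 K)⁰ K)) = 1 := by
  haveI : IsCyclotomicExtension {n} L C := isCyclotomicExtension_tower_top K n
  induction 𝔄 using UniqueFactorizationMonoid.induction_on_prime with
  | h₁ => exact absurd rfl h𝔄
  | h₂ J hJu =>
    rw [Ideal.isUnit_iff] at hJu
    subst hJu
    rw [Ideal.relNorm_top, FractionalIdeal.coeIdeal_top, artT_one, map_one]
  | h₃ J P hJ0 hP ih =>
    have hP0 : P ≠ ⊥ := hP.ne_zero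
    have hJ' : J ≠ ⊥ := hJ0
    have hPprime : P.IsPrime := Ideal.isPrime_of_prime hP
    have hNP0 : Ideal.relNorm (𝓞 K) P ≠ ⊥ := by rwa [Ne, Ideal.relNorm_eq_bot_iff]
    have hNJ0 : Ideal.relNorm (𝓞 K) J ≠ ⊥ := by rwa [Ne, Ideal.relNorm_eq_bot_iff]
    have h1 : ((Ideal.relNorm (𝓞 K) P : Ideal (𝓞 K)) : FractionalIdeal (𝓞 K)⁰ K) ≠ 0 := by
      rw [Ne, FractionalIdeal.coeIdeal_eq_zero]; exact hNP0
    have h2 : ((Ideal.relNorm (𝓞 K) J : Ideal (𝓞 K)) : FractionalIdeal (𝓞 K)⁰ K) ≠ 0 := by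
      rw [Ne, FractionalIdeal.coeIdeal_eq_zero]; exact hNJ0
    rw [map_mul, FractionalIdeal.coeIdeal_mul, artT_mul h1 h2, map_mul, ih hJ', mul_one]
    -- the prime below
    set p0 : Ideal (𝓞 K) := P.under (𝓞 K) with hp0
    have hp0prime : p0.IsPrime := Ideal.IsPrime.under (𝓞 K) P
    have hp0ne : p0 ≠ ⊥ := Ideal.under_ne_bot (𝓞 K) hP0
    haveI : P.LiesOver p0 := Ideal.over_under P
    obtain ⟨s, hs⟩ := Ideal.exists_relNorm_eq_pow_of_isPrime P p0
    let v : HeightOneSpectrum (𝓞 K) := ⟨p0, hp0prime, hp0ne⟩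
    by_cases hvT : v ∈ T
    · have h3 : ArtT (C := C) n T ((Ideal.relNorm (𝓞 K) P : Ideal (𝓞 K)) :
          FractionalIdeal (𝓞 K)⁰ K) = 1 := by
        rw [hs, FractionalIdeal.coeIdeal_pow, artT_pow]
        have := artT_prime (C := C) (n := n) (T := T) v
        change ArtT (C := C) n T ((v.asIdeal : Ideal (𝓞 K)) : FractionalIdeal (𝓞 K)⁰ K) ^ s = 1
        rw [this, frobT, if_pos hvT, one_pow]
      rw [h3, map_one]
    · have hnv : (n : 𝓞 K) ∉ p0 := fun hmem => hvT (hT v hmem)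
      have hnP : (n : 𝓞 L) ∉ P := by
        intro hmem
        apply hnv
        rw [hp0, Ideal.under_def, Ideal.mem_comap, map_natCast]
        exact hmem
      have hcopP : IsCoprime P (Ideal.span {(n : 𝓞 L)}) := isCoprime_of_prime n hPprime hP0 hnP
      have hcopv : IsCoprime p0 (Ideal.span {(n : 𝓞 K)}) :=
        isCoprime_of_prime n hp0prime hp0ne hnv
      have h3 : ArtT (C := C) n T ((Ideal.relNorm (𝓞 K) P : Ideal (𝓞 K)) :
          FractionalIdeal (𝓞 K)⁰ K) = artCyc n (Ideal.relNorm (𝓞 K) P) := by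
        rw [hs, FractionalIdeal.coeIdeal_pow, artT_pow, artCyc_pow n hp0ne hcopv]
        have := artT_prime (C := C) (n := n) (T := T) v
        change ArtT (C := C) n T ((v.asIdeal : Ideal (𝓞 K)) : FractionalIdeal (𝓞 K)⁰ K) ^ s = _
        rw [this, frobT, if_neg hvT]
      rw [h3]
      exact restrict_artCyc_relNorm n hP0 hcopP

end NormKill

section NormKillElt

variable {K L C : Type*} [Field K] [NumberField K] [Field L] [NumberField L]
  [Field C] [NumberField C] [Algebra K L] [Algebra K C] [Algebra L C] [IsScalarTower K L C]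
  {n : ℕ} [NeZero n] [IsCyclotomicExtension {n} K C] [IsGalois K L]
  {T : Set (HeightOneSpectrum (𝓞 K))}

/-- **Norms die** (element form). -/
theorem restrict_artT_norm
    (hT : ∀ v : HeightOneSpectrum (𝓞 K), (n : 𝓞 K) ∈ v.asIdeal → v ∈ T)
    (b : L) (hb : b ≠ 0) :
    AlgEquiv.restrictNormalHom L (ArtT (C := C) n T
      (FractionalIdeal.spanSingleton (𝓞 K)⁰ (Algebra.norm K b))) = 1 := by
  obtain ⟨N, hN0, c0, hc0⟩ := exists_nat_mul_integral L b
  have hNK : (N : K) ≠ 0 := Nat.cast_ne_zero.mpr hN0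
  have hNL : (N : L) ≠ 0 := Nat.cast_ne_zero.mpr hN0
  have hc00 : c0 ≠ 0 := by
    rintro rfl
    have : (N : L) * b = 0 := by rw [← hc0]; simp
    exact (mul_ne_zero hNL hb) this
  set d := Module.finrank K L with hd
  -- the norm of `c0`
  have hnorm : Algebra.norm K (algebraMap (𝓞 L) L c0) = (N : K) ^ d * Algebra.norm K b := by
    have h1 : algebraMap (𝓞 L) L c0 = algebraMap K L (N : K) * b := by
      rw [map_natCast]; exact hc0
    rw [h1, map_mul, Algebra.norm_algebraMap]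
  have hint : algebraMap (𝓞 K) K (Algebra.intNorm (𝓞 K) (𝓞 L) c0) =
      Algebra.norm K (algebraMap (𝓞 L) L c0) := Algebra.algebraMap_intNorm (A := 𝓞 K) (K := K)
        (L := L) (B := 𝓞 L) c0
  have hI0 : Ideal.span {c0} ≠ (⊥ : Ideal (𝓞 L)) := by
    rwa [Ne, Ideal.span_singleton_eq_bot]
  have hkill := restrict_artT_relNorm (C := C) (n := n) hT (Ideal.span {c0}) hI0
  rw [Ideal.relNorm_singleton, FractionalIdeal.coeIdeal_span_singleton, hint, hnorm] at hkill
  have hne1 : FractionalIdeal.spanSingleton (𝓞 K)⁰ ((N : K) ^ d) ≠ 0 := by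
    rw [Ne, FractionalIdeal.spanSingleton_eq_zero_iff]; exact pow_ne_zero _ hNK
  have hnb : Algebra.norm K b ≠ 0 := by
    rw [Ne, Algebra.norm_eq_zero_iff]; exact hb
  have hne2 : FractionalIdeal.spanSingleton (𝓞 K)⁰ (Algebra.norm K b) ≠ 0 := by
    rw [Ne, FractionalIdeal.spanSingleton_eq_zero_iff]; exact hnb
  rw [← FractionalIdeal.spanSingleton_mul_spanSingleton, artT_mul hne1 hne2, map_mul,
    ← FractionalIdeal.spanSingleton_pow, artT_pow, map_pow] at hkill
  have hcard : Nat.card (L ≃ₐ[K] L) = d := IsGalois.card_aut_eq_finrank K L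
  have hpow : (AlgEquiv.restrictNormalHom L (ArtT (C := C) n T
      (FractionalIdeal.spanSingleton (𝓞 K)⁰ (N : K)))) ^ d = 1 := by
    rw [← hcard]; exact pow_card_eq_one'
  rwa [hpow, one_mul] at hkill

end NormKillElt

section Main

variable {K : Type*} [Field K] [NumberField K] (L C : Type*) [Field L] [NumberField L]
  [Field C] [NumberField C] [Algebra K L] [Algebra K C] [Algebra L C] [IsScalarTower K L C]
  (n : ℕ) [NeZero n] [IsCyclotomicExtension {n} K C] [IsGalois K L]
  (T : Set (HeightOneSpectrum (𝓞 K)))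

theorem spanSingleton_units_ne_zero (a : Kˣ) :
    FractionalIdeal.spanSingleton (𝓞 K)⁰ (a : K) ≠ 0 := by
  rw [Ne, FractionalIdeal.spanSingleton_eq_zero_iff]; exact a.ne_zero

/-- The cyclotomic Artin map on principal ideals, away from `T`, read in `Gal(L/K)`:
`a ↦ (∏_{v ∉ T} Frob_v ^ v(a))|_L`. -/
def artHom : Kˣ →* (L ≃ₐ[K] L) where
  toFun a := AlgEquiv.restrictNormalHom L
    (ArtT (C := C) n T (FractionalIdeal.spanSingleton (𝓞 K)⁰ (a : K)))
  map_one' := by rw [Units.val_one, FractionalIdeal.spanSingleton_one, artT_one, map_one]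
  map_mul' a b := by
    rw [Units.val_mul, ← FractionalIdeal.spanSingleton_mul_spanSingleton,
      artT_mul (spanSingleton_units_ne_zero a) (spanSingleton_units_ne_zero b), map_mul]

theorem artHom_apply (a : Kˣ) : artHom L C n T a = AlgEquiv.restrictNormalHom L
    (ArtT (C := C) n T (FractionalIdeal.spanSingleton (𝓞 K)⁰ (a : K))) := rfl

variable {T} in
/-- `T`-units have trivial symbol. -/
theorem artT_eq_one_of_unit (ε : K) (hε0 : ε ≠ 0)
    (hε : ∀ v : HeightOneSpectrum (𝓞 K), v ∉ T → v.valuation K ε = 1) :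
    ArtT (C := C) n T (FractionalIdeal.spanSingleton (𝓞 K)⁰ ε) = 1 :=
  artT_eq_one_of_supported _ fun v hv => count_spanSingleton_eq_zero K v hε0 (hε v hv)

end Main

section Kernel

variable {K : Type*} [Field K] [NumberField K] (L C : Type*) [Field L] [NumberField L]
  [Field C] [NumberField C] [Algebra K L] [Algebra K C] [Algebra L C] [IsScalarTower K L C]
  [IsGalois K L] [IsTotallyComplex K] {p : ℕ} (hp : p.Prime) (k : ℕ) [NeZero (p ^ k)]
  [IsCyclotomicExtension {p ^ k} K C] {T : Set (HeightOneSpectrum (𝓞 K))}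
  (hT : ∀ v : HeightOneSpectrum (𝓞 K), (p : 𝓞 K) ∈ v.asIdeal → v ∈ T)

include hT in
theorem mem_of_natCast_pow_mem (v : HeightOneSpectrum (𝓞 K))
    (h : ((p ^ k : ℕ) : 𝓞 K) ∈ v.asIdeal) : v ∈ T := by
  apply hT
  rw [Nat.cast_pow] at h
  exact v.isPrime.mem_of_pow_mem k h

include hp hT in
/-- Elements `≡ 1 mod p^k` at the primes over `p` that are units on `T` have trivial symbol. -/
theorem artT_eq_one_of_isOneModAt (u : K) (hu0 : u ≠ 0) (hu1 : IsOneModAt K p k u)
    (huT : ∀ v ∈ T, v.valuation K u = 1) :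
    ArtT (C := C) (p ^ k) T (FractionalIdeal.spanSingleton (𝓞 K)⁰ u) = 1 := by
  rw [artT_eq_artN (mem_of_natCast_pow_mem k hT) _
    (fun v hv => count_spanSingleton_eq_zero K v hu0 (huT v hv))]
  exact artN_spanSingleton_eq_one hp k u hu0 hu1

include hp hT in
/-- **The kernel**: products of `T`-units, norms from `L` and elements `≡ 1` have trivial symbol
in `Gal(L/K)`. -/
theorem artHom_eq_one_of_decomp (a ε u : Kˣ) (b : Lˣ)
    (hε : ∀ v : HeightOneSpectrum (𝓞 K), v ∉ T → v.valuation K (ε : K) = 1)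
    (hu1 : IsOneModAt K p k (u : K)) (huT : ∀ v ∈ T, v.valuation K (u : K) = 1)
    (h : (a : K) = ε * Algebra.norm K (b : L) * u) : artHom L C (p ^ k) T a = 1 := by
  have hnb : Algebra.norm K (b : L) ≠ 0 := by
    rw [Ne, Algebra.norm_eq_zero_iff]; exact b.ne_zero
  have hne1 : FractionalIdeal.spanSingleton (𝓞 K)⁰ (Algebra.norm K (b : L)) ≠ 0 := by
    rw [Ne, FractionalIdeal.spanSingleton_eq_zero_iff]; exact hnb
  rw [artHom_apply, h, ← FractionalIdeal.spanSingleton_mul_spanSingleton,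
    ← FractionalIdeal.spanSingleton_mul_spanSingleton,
    artT_mul (mul_ne_zero (spanSingleton_units_ne_zero ε) hne1) (spanSingleton_units_ne_zero u),
    artT_mul (spanSingleton_units_ne_zero ε) hne1, artT_eq_one_of_unit C _ _ ε.ne_zero hε,
    artT_eq_one_of_isOneModAt C hp k hT _ u.ne_zero hu1 huT, one_mul, mul_one]
  exact restrict_artT_norm (mem_of_natCast_pow_mem k hT) _ b.ne_zero

end Kernel

section Range

variable {K : Type*} [Field K] [NumberField K]

/-- `Cl_T(K) = 1`: every nonzero ideal is principal up to ideals supported on `T`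
(the shape of `Blocks2.AdmissibleQ.principal`). -/
def ClTrivialT (T : Set (HeightOneSpectrum (𝓞 K))) : Prop :=
  ∀ I : Ideal (𝓞 K), I ≠ ⊥ → ∃ (a b : 𝓞 K) (J J' : Ideal (𝓞 K)), a ≠ 0 ∧ b ≠ 0 ∧ J ≠ ⊥ ∧ J' ≠ ⊥ ∧
    (∀ w : HeightOneSpectrum (𝓞 K), J ≤ w.asIdeal → w ∈ T) ∧
    (∀ w : HeightOneSpectrum (𝓞 K), J' ≤ w.asIdeal → w ∈ T) ∧
    Ideal.span {a} * I * J = Ideal.span {b} * J'

variable (L C : Type*) [Field L] [NumberField L]
  [Field C] [NumberField C] [Algebra K L] [Algebra K C] [Algebra L C] [IsScalarTower K L C]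
  [IsGalois K L]

/-- For `v ∉ T` the Frobenius at `v` is the symbol of an element (because `Cl_T(K) = 1`). -/
theorem exists_artHom_eq_of_notMem (n : ℕ) [NeZero n] [IsCyclotomicExtension {n} K C]
    {T : Set (HeightOneSpectrum (𝓞 K))} (hCl : ClTrivialT T)
    (v : HeightOneSpectrum (𝓞 K)) (hv : v ∉ T) :
    ∃ a : Kˣ, artHom L C n T a = AlgEquiv.restrictNormalHom L (artCyc (C := C) n v.asIdeal) := by
  obtain ⟨a, b, J, J', ha, hb, hJ, hJ', hJT, hJ'T, heq⟩ := hCl v.asIdeal v.ne_bot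
  have haK : algebraMap (𝓞 K) K a ≠ 0 := by
    rw [Ne, FaithfulSMul.algebraMap_eq_zero_iff]; exact ha
  have hbK : algebraMap (𝓞 K) K b ≠ 0 := by
    rw [Ne, FaithfulSMul.algebraMap_eq_zero_iff]; exact hb
  have h1 : ((Ideal.span {a} : Ideal (𝓞 K)) : FractionalIdeal (𝓞 K)⁰ K) ≠ 0 := by
    rw [Ne, FractionalIdeal.coeIdeal_eq_zero, Ideal.span_singleton_eq_bot]; exact ha
  have h2 : ((Ideal.span {b} : Ideal (𝓞 K)) : FractionalIdeal (𝓞 K)⁰ K) ≠ 0 := by
    rw [Ne, FractionalIdeal.coeIdeal_eq_zero, Ideal.span_singleton_eq_bot]; exact hb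
  have h3 : ((v.asIdeal : Ideal (𝓞 K)) : FractionalIdeal (𝓞 K)⁰ K) ≠ 0 := by
    rw [Ne, FractionalIdeal.coeIdeal_eq_zero]; exact v.ne_bot
  have h4 : ((J : Ideal (𝓞 K)) : FractionalIdeal (𝓞 K)⁰ K) ≠ 0 := by
    rw [Ne, FractionalIdeal.coeIdeal_eq_zero]; exact hJ
  have h5 : ((J' : Ideal (𝓞 K)) : FractionalIdeal (𝓞 K)⁰ K) ≠ 0 := by
    rw [Ne, FractionalIdeal.coeIdeal_eq_zero]; exact hJ'
  have heq' := congrArg (fun I : Ideal (𝓞 K) => ArtT (C := C) n T
    (I : FractionalIdeal (𝓞 K)⁰ K)) heq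
  simp only [FractionalIdeal.coeIdeal_mul] at heq'
  rw [artT_mul (mul_ne_zero h1 h3) h4, artT_mul h1 h3, artT_mul h2 h5,
    artT_coeIdeal_eq_one J hJ hJT, artT_coeIdeal_eq_one J' hJ' hJ'T, mul_one, mul_one,
    artT_prime, frobT, if_neg hv, FractionalIdeal.coeIdeal_span_singleton,
    FractionalIdeal.coeIdeal_span_singleton] at heq'
  refine ⟨(Units.mk0 _ haK)⁻¹ * Units.mk0 _ hbK, ?_⟩
  rw [map_mul, map_inv, artHom_apply, artHom_apply, Units.val_mk0, Units.val_mk0, ← heq', map_mul,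
    inv_mul_cancel_left]

end Range

section RangeT

variable {K : Type*} [Field K] [NumberField K] (L C : Type*) [Field L] [NumberField L]
  [Field C] [NumberField C] [Algebra K L] [Algebra K C] [Algebra L C] [IsScalarTower K L C]
  [IsGalois K L] [IsTotallyComplex K] {p : ℕ} (hp : p.Prime) (k : ℕ) [NeZero (p ^ k)]
  [IsCyclotomicExtension {p ^ k} K C] {T : Set (HeightOneSpectrum (𝓞 K))}
  (hT : ∀ v : HeightOneSpectrum (𝓞 K), (p : 𝓞 K) ∈ v.asIdeal → v ∈ T)

include hp hT in
/-- For `v ∈ T` not above `p` the Frobenius at `v` is the symbol of an element (weak approximation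
and reciprocity). -/
theorem exists_artHom_eq_of_mem (hTfin : T.Finite) (v : HeightOneSpectrum (𝓞 K)) (hvT : v ∈ T)
    (hvp : (p : 𝓞 K) ∉ v.asIdeal) :
    ∃ a : Kˣ, artHom L C (p ^ k) T a =
      AlgEquiv.restrictNormalHom L (artCyc (C := C) (p ^ k) v.asIdeal) := by
  classical
  obtain ⟨π, hπ⟩ := v.valuation_exists_uniformizer K
  have hpK : ((p : K) ^ k) ≠ 0 := pow_ne_zero _ (Nat.cast_ne_zero.mpr hp.ne_zero)
  obtain ⟨a, ha⟩ := Fermat.Agent.S55.Global.WeakApprox.exists_valuation_sub_lt (K := K)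
    hTfin.toFinset (fun w => if w = v then π else 1)
    (fun w => if w = v then WithZero.exp (-1 : ℤ) else w.valuation K ((p : K) ^ k))
    (by
      intro w _
      by_cases hwv : w = v
      · rw [if_pos hwv]; exact WithZero.exp_ne_zero
      · rw [if_neg hwv]; exact (Valuation.ne_zero_iff _).mpr hpK)
  have hav : v.valuation K a = WithZero.exp (-1 : ℤ) := by
    have h := ha v (hTfin.mem_toFinset.mpr hvT)
    rw [if_pos rfl, if_pos rfl, ← hπ] at h
    rw [← hπ]
    exact Valuation.map_eq_of_sub_lt _ h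
  have haw : ∀ w ∈ T, w ≠ v → w.valuation K (a - 1) < w.valuation K ((p : K) ^ k) := by
    intro w hw hwv
    have h := ha w (hTfin.mem_toFinset.mpr hw)
    rwa [if_neg hwv, if_neg hwv] at h
  have hle1 : ∀ w : HeightOneSpectrum (𝓞 K), w.valuation K ((p : K) ^ k) ≤ 1 := by
    intro w
    rw [map_pow]
    exact pow_le_one' (valuation_natCast_le_one K w p) k
  have haw1 : ∀ w ∈ T, w ≠ v → w.valuation K a = 1 := by
    intro w hw hwv
    have h1 : w.valuation K (a - 1) < 1 := lt_of_lt_of_le (haw w hw hwv) (hle1 w)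
    have h2 : a = 1 + (a - 1) := by ring
    rw [h2]
    exact Valuation.map_one_add_of_lt _ h1
  have ha0 : a ≠ 0 := by
    intro h0
    rw [h0, map_zero] at hav
    exact WithZero.exp_ne_zero hav.symm
  have hmod : IsOneModAt K p k a := by
    intro w hw
    have hwv : w ≠ v := by
      rintro rfl
      exact hvp hw
    exact (haw w (hT w hw) hwv).le
  -- the fractional ideal `(a) v⁻¹` is prime to `T`
  have hss : FractionalIdeal.spanSingleton (𝓞 K)⁰ a ≠ 0 := by
    rw [Ne, FractionalIdeal.spanSingleton_eq_zero_iff]; exact ha0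
  have hvne : ((v.asIdeal : Ideal (𝓞 K)) : FractionalIdeal (𝓞 K)⁰ K) ≠ 0 := by
    rw [Ne, FractionalIdeal.coeIdeal_eq_zero]; exact v.ne_bot
  have hcount : ∀ w ∈ T, FractionalIdeal.count K w
      (FractionalIdeal.spanSingleton (𝓞 K)⁰ a *
        ((v.asIdeal : Ideal (𝓞 K)) : FractionalIdeal (𝓞 K)⁰ K)⁻¹) = 0 := by
    intro w hw
    rw [FractionalIdeal.count_mul K w hss (inv_ne_zero hvne), FractionalIdeal.count_inv]
    by_cases hwv : w = v
    · subst hwv
      rw [FractionalIdeal.count_self]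
      have h1 := valuation_eq_exp_neg_count K w ha0
      rw [hav, WithZero.exp_inj] at h1
      omega
    · rw [count_spanSingleton_eq_zero K w ha0 (haw1 w hw hwv),
        FractionalIdeal.count_maximal_coprime K w (Ne.symm hwv)]
      simp
  have hpk : ((p ^ k : ℕ) : 𝓞 K) ∉ v.asIdeal := by
    intro h
    rw [Nat.cast_pow] at h
    exact hvp (v.isPrime.mem_of_pow_mem k h)
  have hTN := artT_eq_artN (C := C) (n := p ^ k) (mem_of_natCast_pow_mem k hT) _ hcount
  rw [artT_mul hss (inv_ne_zero hvne), artN_mul hss (inv_ne_zero hvne), artT_inv, artN_inv,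
    artT_prime, artN_prime, frobT, if_pos hvT, frobN, if_neg hpk, inv_one, mul_one,
    artN_spanSingleton_eq_one hp k a ha0 hmod, one_mul] at hTN
  refine ⟨(Units.mk0 a ha0)⁻¹, ?_⟩
  rw [map_inv, artHom_apply, Units.val_mk0, hTN, map_inv, inv_inv]

end RangeT

section Surj

variable {K : Type*} [Field K] [NumberField K] (L C : Type*) [Field L] [NumberField L]
  [Field C] [NumberField C] [Algebra K L] [Algebra K C] [Algebra L C] [IsScalarTower K L C]
  [IsGalois K L] [IsTotallyComplex K] {p : ℕ} (hp : p.Prime) (k : ℕ) [NeZero (p ^ k)]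
  [IsCyclotomicExtension {p ^ k} K C] {T : Set (HeightOneSpectrum (𝓞 K))}
  (hT : ∀ v : HeightOneSpectrum (𝓞 K), (p : 𝓞 K) ∈ v.asIdeal → v ∈ T)

include hp hT in
/-- **Surjectivity** of the Artin map on principal ideals. -/
theorem artHom_surjective (hTfin : T.Finite) (hCl : ClTrivialT T) :
    Function.Surjective (artHom L C (p ^ k) T) := by
  haveI : IsGalois K C := IsCyclotomicExtension.isGalois {p ^ k} K C
  intro σ
  obtain ⟨τ, rfl⟩ := AlgEquiv.restrictNormalHom_surjective (F := K) (K₁ := L) C σ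
  have hmem : τ ∈ ((artHom L C (p ^ k) T).range).comap (AlgEquiv.restrictNormalHom L) := by
    have htop := closure_frob_eq_top (K := K) (C := C) (p ^ k)
    have hle : Subgroup.closure {τ : C ≃ₐ[K] C | ∃ v : Ideal (𝓞 K), v.IsPrime ∧ v ≠ ⊥ ∧
        ((p ^ k : ℕ) : 𝓞 K) ∉ v ∧ τ = artCyc (p ^ k) v} ≤
        ((artHom L C (p ^ k) T).range).comap (AlgEquiv.restrictNormalHom L) := by
      rw [Subgroup.closure_le]
      rintro τ' ⟨v, hvprime, hv0, hvn, rfl⟩
      rw [SetLike.mem_coe, Subgroup.mem_comap, MonoidHom.mem_range]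
      let w : HeightOneSpectrum (𝓞 K) := ⟨v, hvprime, hv0⟩
      by_cases hwp : (p : 𝓞 K) ∈ w.asIdeal
      · -- only possible for `k = 0`, where everything is trivial
        have hk : k = 0 := by
          by_contra hk
          apply hvn
          rw [Nat.cast_pow]
          exact Ideal.pow_mem_of_mem _ hwp k (Nat.pos_of_ne_zero hk)
        have h1 : artCyc (C := C) (p ^ k) v = 1 := by
          rw [artCyc_eq_one_iff (p ^ k) hv0 (isCoprime_of_prime (p ^ k) hvprime hv0 hvn)]
          rw [hk, pow_zero]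
          exact Nat.modEq_one
        exact ⟨1, by rw [map_one, h1, map_one]⟩
      by_cases hwT : w ∈ T
      · exact exists_artHom_eq_of_mem L C hp k hT hTfin w hwT hwp
      · exact exists_artHom_eq_of_notMem L C (p ^ k) hCl w hwT
    rw [htop] at hle
    exact hle (Subgroup.mem_top τ)
  rw [Subgroup.mem_comap, MonoidHom.mem_range] at hmem
  exact hmem

include hp hT in
/-- **`G.cycloArtin`, abstract form.**  Let `δ : Kˣ →* X` be surjective with kernel consisting of
products `ε · N_{L/K} b · u` (`ε` a `T`-unit, `u ≡ 1 mod p^k` at the primes above `p` and a unit on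
`T`).  Then the Artin map factors through a surjection `ψ : X →* Gal(L/K)`. -/
theorem exists_artin_hom (hTfin : T.Finite) (hCl : ClTrivialT T)
    {X : Type*} [Group X] (δ : Kˣ →* X) (hδ : Function.Surjective δ)
    (hker : ∀ a : Kˣ, δ a = 1 → ∃ (ε u : Kˣ) (b : Lˣ),
      (∀ v : HeightOneSpectrum (𝓞 K), v ∉ T → v.valuation K (ε : K) = 1) ∧
      IsOneModAt K p k (u : K) ∧ (∀ v ∈ T, v.valuation K (u : K) = 1) ∧
      (a : K) = ε * Algebra.norm K (b : L) * u) :
    ∃ ψ : X →* (L ≃ₐ[K] L), Function.Surjective ψ ∧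
      ∀ a : Kˣ, ψ (δ a) = artHom L C (p ^ k) T a := by
  have hle : δ.ker ≤ (artHom L C (p ^ k) T).ker := by
    intro a ha
    obtain ⟨ε, u, b, hε, hu1, huT, h⟩ := hker a (MonoidHom.mem_ker.mp ha)
    exact MonoidHom.mem_ker.mpr (artHom_eq_one_of_decomp L C hp k hT a ε u b hε hu1 huT h)
  refine ⟨δ.liftOfRightInverse (Function.surjInv hδ) (Function.rightInverse_surjInv hδ)
    ⟨artHom L C (p ^ k) T, hle⟩, ?_, ?_⟩
  · intro σ
    obtain ⟨a, rfl⟩ := artHom_surjective L C hp k hT hTfin hCl σ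
    exact ⟨δ a, MonoidHom.liftOfRightInverse_comp_apply _ _ _ _ a⟩
  · intro a
    exact MonoidHom.liftOfRightInverse_comp_apply _ _ _ _ a

include hp hT in
/-- If moreover `card X ≤ [L:K]` (second inequality), the Artin map is an isomorphism
`X ≃* Gal(L/K)`. -/
theorem exists_artin_equiv (hTfin : T.Finite) (hCl : ClTrivialT T)
    {X : Type*} [Group X] [Finite X] (δ : Kˣ →* X) (hδ : Function.Surjective δ)
    (hker : ∀ a : Kˣ, δ a = 1 → ∃ (ε u : Kˣ) (b : Lˣ),
      (∀ v : HeightOneSpectrum (𝓞 K), v ∉ T → v.valuation K (ε : K) = 1) ∧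
      IsOneModAt K p k (u : K) ∧ (∀ v ∈ T, v.valuation K (u : K) = 1) ∧
      (a : K) = ε * Algebra.norm K (b : L) * u)
    (hcard : Nat.card X ≤ Module.finrank K L) :
    ∃ ψ : X ≃* (L ≃ₐ[K] L), ∀ a : Kˣ, ψ (δ a) = artHom L C (p ^ k) T a := by
  obtain ⟨ψ, hψ, hψa⟩ := exists_artin_hom L C hp k hT hTfin hCl δ hδ hker
  have hbij : Function.Bijective ψ := by
    apply hψ.bijective_of_nat_card_le
    rwa [IsGalois.card_aut_eq_finrank K L]
  exact ⟨MulEquiv.ofBijective ψ hbij, hψa⟩

include hp hT in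
/-- In the situation of `exists_artin_equiv`: `card X = [L:K]`, and if `a : Kˣ` has a symbol
generating `Gal(L/K)`, then `δ a` generates `X`. -/
theorem card_eq_and_generator (hTfin : T.Finite) (hCl : ClTrivialT T)
    {X : Type*} [Group X] [Finite X] (δ : Kˣ →* X) (hδ : Function.Surjective δ)
    (hker : ∀ a : Kˣ, δ a = 1 → ∃ (ε u : Kˣ) (b : Lˣ),
      (∀ v : HeightOneSpectrum (𝓞 K), v ∉ T → v.valuation K (ε : K) = 1) ∧
      IsOneModAt K p k (u : K) ∧ (∀ v ∈ T, v.valuation K (u : K) = 1) ∧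
      (a : K) = ε * Algebra.norm K (b : L) * u)
    (hcard : Nat.card X ≤ Module.finrank K L) :
    Nat.card X = Module.finrank K L ∧
      ∀ a : Kˣ, (∀ σ : L ≃ₐ[K] L, σ ∈ Subgroup.zpowers (artHom L C (p ^ k) T a)) →
        ∀ x : X, x ∈ Subgroup.zpowers (δ a) := by
  obtain ⟨ψ, hψa⟩ := exists_artin_equiv L C hp k hT hTfin hCl δ hδ hker hcard
  refine ⟨?_, ?_⟩
  · rw [Nat.card_congr ψ.toEquiv, IsGalois.card_aut_eq_finrank K L]
  · intro a ha x
    obtain ⟨m, hm⟩ := Subgroup.mem_zpowers_iff.mp (ha (ψ x))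
    rw [Subgroup.mem_zpowers_iff]
    refine ⟨m, ψ.injective ?_⟩
    rw [map_zpow, hψa, hm]

include hp hT in
/-- There is always an element whose symbol is a prescribed element of `Gal(L/K)`; in particular a
generator when `Gal(L/K)` is cyclic. -/
theorem exists_artHom_eq (hTfin : T.Finite) (hCl : ClTrivialT T) (σ : L ≃ₐ[K] L) :
    ∃ a : Kˣ, artHom L C (p ^ k) T a = σ :=
  artHom_surjective L C hp k hT hTfin hCl σ

end Surj

/-! ### Adapters for the kernel hypothesis -/

section Adapters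

variable {K : Type*} [Field K] [NumberField K]

/-- `d (u - 1) = m x` with `x` integral, `p^k ∣ m` and `d` prime to the primes above `p` gives
`u ≡ 1 mod p^k`. -/
theorem isOneModAt_of_eq {p : ℕ} (k : ℕ) (u : K) (x : 𝓞 K) (m d : ℕ) (hpm : p ^ k ∣ m)
    (hd : ∀ v : HeightOneSpectrum (𝓞 K), (p : 𝓞 K) ∈ v.asIdeal → (d : 𝓞 K) ∉ v.asIdeal)
    (h : (d : K) * (u - 1) = (m : K) * x) : IsOneModAt K p k u := by
  intro v hv
  have hd1 : v.valuation K (d : K) = 1 := by
    have := valuation_natCast_eq_one_of_notMem K v (hd v hv) 1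
    rwa [pow_one] at this
  have h1 := congrArg (v.valuation K) h
  rw [map_mul, map_mul, hd1, one_mul] at h1
  rw [h1]
  obtain ⟨m', rfl⟩ := hpm
  have hx : v.valuation K (x : K) ≤ 1 := v.valuation_le_one x
  have hm' : v.valuation K ((m' : ℕ) : K) ≤ 1 := valuation_natCast_le_one K v m'
  rw [Nat.cast_mul, Nat.cast_pow, map_mul, mul_assoc]
  exact mul_le_of_le_one_right' (mul_le_one' hm' hx)

/-- `d (u - 1) = m x` with `x` integral, `m ∈ v`, `d ∉ v` gives `v(u) = 1`. -/
theorem valuation_eq_one_of_eq (v : HeightOneSpectrum (𝓞 K)) (u : K) (x : 𝓞 K) (m d : ℕ)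
    (hm : (m : 𝓞 K) ∈ v.asIdeal) (hd : (d : 𝓞 K) ∉ v.asIdeal)
    (h : (d : K) * (u - 1) = (m : K) * x) : v.valuation K u = 1 := by
  have hd1 : v.valuation K (d : K) = 1 := by
    have := valuation_natCast_eq_one_of_notMem K v hd 1
    rwa [pow_one] at this
  have h1 := congrArg (v.valuation K) h
  rw [map_mul, map_mul, hd1, one_mul] at h1
  have hm1 : v.valuation K (m : K) < 1 := by
    have := (v.valuation_lt_one_iff_mem (K := K) (m : 𝓞 K)).mpr hm
    simpa using this
  have hx : v.valuation K (x : K) ≤ 1 := v.valuation_le_one x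
  have h2 : v.valuation K (u - 1) < 1 := by
    rw [h1]
    exact lt_of_le_of_lt (mul_le_of_le_one_right' hx) hm1
  have h3 : u = 1 + (u - 1) := by ring
  rw [h3]
  exact Valuation.map_one_add_of_lt _ h2

end Adapters

end

end Fermat.Agent.S55.Global.CycloArtinAbs
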