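/-
S55 / GLOBAL block, row G.cycloArtin PART B (helper69), file 1/3: lattice dictionary.

For a number field `K`, `T : Finset Nat.Primes`, and helper54's lattices
`Lam K T n ⊆ K ⊗[ℚ] ℚ_T` (`TensorLattice.lean`):
* `exists_eq_of_tmul_mem_Lam`, `valuation_le_of_tmul_mem_Lam`,
  `valuation_le_of_algebraMap_tmul_mem_Lam` : `x ⊗ 1 ∈ Lam n` means `v(x) ≤ v(q^n)` at all places
  `v` above `q ∈ T` (also when only the image of `x` in a bigger field `L` is known to be in the
  lattice of `L`);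
* `smul_mem_Lam` : the lattices are stable under `Aut(L/ℚ)`;
* `mul_sub_one_mem_Lam`, `prod_sub_one_mem_Lam`, `galNorm_sub_one_mem_Lam` : `1 + Lam n` is
  multiplicatively closed and stable under the norm of `Gal(L/K)`;
* `galNorm_mul`, `val_galNorm`;
* `exists_unit_approx` : unit form of weak approximation (from helper2's `ApproxPowQ`).
-/
import Mathlib
import Fermat.Agent.S55.Global.TensorLattice
import Fermat.Agent.S55.Global.CycloArtinIdeal
import Fermat.Agent.S55.Global.ApproxPowQ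
import Fermat.Agent.S55.Global.Bridge2Units
import Fermat.Agent.S55.Global.Objects3

set_option autoImplicit false
set_option linter.unusedSectionVars false

open NumberField IsDedekindDomain TensorProduct

namespace Fermat.Agent.S55.Global.CycloArtinModelQ

open Fermat.Agent.S55.Global.Objects Fermat.Agent.S55.Global.Objects2
  Fermat.Agent.S55.Global.TensorLattice Fermat.Agent.S55.Global.Bridge2Units
  Fermat.Agent.S55.Global.Objects3

section dictionary

variable (K : Type) [Field K] [NumberField K] (T : Finset Nat.Primes)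

/-- A rational number of `q`-adic norm `≤ 1` has denominator prime to `q`. -/
theorem not_dvd_den_of_norm_le_one {q : ℕ} [Fact q.Prime] (r : ℚ) (h : ‖(r : ℚ_[q])‖ ≤ 1) :
    ¬ q ∣ r.den := by
  have h1 := PadicInt.isUnit_den r h
  rw [PadicInt.isUnit_iff] at h1
  have h2 : ‖((r.den : ℕ) : ℚ_[q])‖ = 1 := by
    have := h1
    rwa [PadicInt.norm_def, PadicInt.coe_natCast] at this
  rw [Padic.norm_natCast_eq_one_iff] at h2
  exact (Nat.Prime.coprime_iff_not_dvd Fact.out).1 h2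

variable {K T}

/-- **Dictionary, step 1**: `x ∈ K` with `x ⊗ 1 ∈ Lam K T n` is `ϖ^n z / d` with `z` integral and
`d` prime to `T`. -/
theorem exists_eq_of_tmul_mem_Lam {n : ℕ} {x : K}
    (hx : (x ⊗ₜ[ℚ] (1 : QT T)) ∈ Lam K T n) :
    ∃ (z : 𝓞 K) (d : ℕ), d ≠ 0 ∧ (∀ q ∈ T, ¬ (((q : Nat.Primes) : ℕ) ∣ d)) ∧
      (d : K) * x = (varpi T : K) ^ n * (z : K) := by
  classical
  set c : ι K → ℚ := fun i => (integralBasis K).repr x i with hc
  set c' : ι K → ℚ := fun i => c i / (varpi T : ℚ) ^ n with hc'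
  have hvar : ((varpi T : ℚ)) ≠ 0 := by exact_mod_cast varpi_ne_zero T
  have hnorm : ∀ i, ∀ q : T, ‖((c' i : ℚ) : ℚ_[((q : Nat.Primes) : ℕ)])‖ ≤ 1 := by
    intro i q
    have h1 := hx i q
    rw [crd_tmul] at h1
    have h2 : (c i • (1 : QT T)) q = ((c i : ℚ) : ℚ_[((q : Nat.Primes) : ℕ)]) := by
      rw [Pi.smul_apply, Pi.one_apply, Rat.smul_one_eq_cast]
    rw [h2] at h1
    rw [hc']
    push_cast
    rw [norm_div, norm_pow, norm_varpi]
    have hq0 : (0 : ℝ) < (((q : Nat.Primes) : ℕ) : ℝ) := by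
      exact_mod_cast (q : Nat.Primes).2.pos
    rw [div_le_one (by positivity)]
    refine h1.trans (le_of_eq ?_)
    rw [zpow_neg, zpow_natCast, inv_pow]
  have hden : ∀ i, ∀ q ∈ T, ¬ (((q : Nat.Primes) : ℕ) ∣ (c' i).den) := by
    intro i q hq
    exact not_dvd_den_of_norm_le_one _ (hnorm i ⟨q, hq⟩)
  set d : ℕ := ∏ i, (c' i).den with hd
  have hd0 : d ≠ 0 := Finset.prod_ne_zero_iff.2 fun i _ => (c' i).den_ne_zero
  have hdT : ∀ q ∈ T, ¬ (((q : Nat.Primes) : ℕ) ∣ d) := by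
    intro q hq hdvd
    rw [hd, Prime.dvd_finsetProd_iff (Nat.Prime.prime (q : Nat.Primes).2)] at hdvd
    obtain ⟨i, -, hi⟩ := hdvd
    exact hden i q hq hi
  have hint : ∀ i, ∃ m : ℤ, (m : ℚ) = (d : ℚ) * c' i := by
    intro i
    have hdi : (c' i).den ∣ d := Finset.dvd_prod_of_mem _ (Finset.mem_univ i)
    obtain ⟨e, he⟩ := hdi
    refine ⟨e * (c' i).num, ?_⟩
    rw [he]
    push_cast
    have := Rat.den_mul_eq_num (c' i)
    rw [← this]
    ring
  choose m hm using hint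
  refine ⟨∑ i, m i • RingOfIntegers.basis K i, d, hd0, hdT, ?_⟩
  have hxsum : x = ∑ i, c i • integralBasis K i := ((integralBasis K).sum_repr x).symm
  have hz : ((∑ i, m i • RingOfIntegers.basis K i : 𝓞 K) : K) = ∑ i, ((m i : ℚ)) • integralBasis K i := by
    rw [show ((∑ i, m i • RingOfIntegers.basis K i : 𝓞 K) : K) =
      algebraMap (𝓞 K) K (∑ i, m i • RingOfIntegers.basis K i) from rfl, map_sum]
    refine Finset.sum_congr rfl fun i _ => ?_
    rw [map_zsmul, integralBasis_apply, Int.cast_smul_eq_zsmul]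
  rw [hz]
  conv_lhs => rw [hxsum]
  rw [Finset.mul_sum, Finset.mul_sum]
  refine Finset.sum_congr rfl fun i _ => ?_
  rw [hm i, hc', Algebra.smul_def, Algebra.smul_def]
  simp only [map_mul, map_div₀, map_pow, map_natCast]
  have hvK : ((varpi T : ℕ) : K) ≠ 0 := by exact_mod_cast varpi_ne_zero T
  have hdK : ((d : ℕ) : K) ≠ 0 := by exact_mod_cast hd0
  field_simp

theorem natCast_notMem_of_not_dvd (v : HeightOneSpectrum (𝓞 K)) {q : Nat.Primes}
    (hv : (((q : Nat.Primes) : ℕ) : 𝓞 K) ∈ v.asIdeal) {d : ℕ} (hd : ¬ (((q : Nat.Primes) : ℕ) ∣ d)) :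
    ((d : ℕ) : 𝓞 K) ∉ v.asIdeal := by
  intro hdv
  have hcop : Nat.Coprime ((q : Nat.Primes) : ℕ) d :=
    (Nat.Prime.coprime_iff_not_dvd (q : Nat.Primes).2).2 hd
  have h1 : IsCoprime (((q : Nat.Primes) : ℕ) : ℤ) (d : ℤ) := Nat.isCoprime_iff_coprime.2 hcop
  obtain ⟨a, b, hab⟩ := h1
  have h2 : ((a : ℤ) : 𝓞 K) * (((q : Nat.Primes) : ℕ) : 𝓞 K) + ((b : ℤ) : 𝓞 K) * ((d : ℕ) : 𝓞 K) = 1 := by
    have := congrArg (Int.cast : ℤ → 𝓞 K) hab
    push_cast at this
    exact this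
  have h3 : (1 : 𝓞 K) ∈ v.asIdeal := by
    rw [← h2]
    exact v.asIdeal.add_mem (v.asIdeal.mul_mem_left _ hv) (v.asIdeal.mul_mem_left _ hdv)
  exact v.isPrime.ne_top ((Ideal.eq_top_iff_one _).2 h3)

/-- **Dictionary, step 2**: valuations. -/
theorem valuation_le_of_tmul_mem_Lam {n : ℕ} {x : K}
    (hx : (x ⊗ₜ[ℚ] (1 : QT T)) ∈ Lam K T n) (v : HeightOneSpectrum (𝓞 K)) {q : Nat.Primes}
    (hq : q ∈ T) (hv : (((q : Nat.Primes) : ℕ) : 𝓞 K) ∈ v.asIdeal) :
    v.valuation K x ≤ v.valuation K ((((q : Nat.Primes) : ℕ) : K) ^ n) := by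
  classical
  obtain ⟨z, d, hd0, hdT, h⟩ := exists_eq_of_tmul_mem_Lam hx
  have hd1 : v.valuation K ((d : ℕ) : K) = 1 := by
    have := (v.valuation_eq_one_iff_notMem (K := K) (r := ((d : ℕ) : 𝓞 K))).mpr
      (natCast_notMem_of_not_dvd v hv (hdT q hq))
    rwa [map_natCast] at this
  have hz : v.valuation K (z : K) ≤ 1 := v.valuation_le_one z
  have hvar : varpi T = ((q : Nat.Primes) : ℕ) * ∏ r ∈ T.erase q, ((r : Nat.Primes) : ℕ) := by
    unfold varpi
    rw [Finset.mul_prod_erase T (fun r : Nat.Primes => (r : ℕ)) hq]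
  have h1 : v.valuation K x = v.valuation K ((varpi T : K) ^ n) * v.valuation K (z : K) := by
    rw [← map_mul, ← h, map_mul, hd1, one_mul]
  rw [h1, hvar]
  push_cast
  rw [mul_pow, map_mul, mul_assoc]
  refine mul_le_of_le_one_right' ?_
  refine mul_le_one' ?_ hz
  rw [← Nat.cast_prod, ← Nat.cast_pow]
  exact Fermat.Agent.S55.Global.CycloArtinIdeal.valuation_natCast_le_one K v _

end dictionary

section descent

variable {K : Type} [Field K] [NumberField K] {L : Type} [Field L] [NumberField L] [Algebra K L]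
  {T : Finset Nat.Primes}

/-- **Dictionary, step 3 (descent)**: the same valuation bound for `x ∈ K` when only the image of
`x` in `L ⊗ ℚ_T` is known to lie in the lattice of `L`. -/
theorem valuation_le_of_algebraMap_tmul_mem_Lam {n : ℕ} {x : K}
    (hx : ((algebraMap K L x) ⊗ₜ[ℚ] (1 : QT T)) ∈ Lam L T n) (v : HeightOneSpectrum (𝓞 K))
    {q : Nat.Primes} (hq : q ∈ T) (hv : (((q : Nat.Primes) : ℕ) : 𝓞 K) ∈ v.asIdeal) :
    v.valuation K x ≤ v.valuation K ((((q : Nat.Primes) : ℕ) : K) ^ n) := by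
  classical
  -- a prime of `L` above `v`
  obtain ⟨P, -, hPover⟩ :=
    Ideal.exists_ideal_over_prime_of_isIntegral (S := 𝓞 L) v.asIdeal (⊥ : Ideal (𝓞 L))
      (by simp)
  have hP0 : P ≠ ⊥ := by
    rintro rfl
    apply v.ne_bot
    rw [← hPover.2]
    exact Ideal.comap_bot_of_injective _ (FaithfulSMul.algebraMap_injective (𝓞 K) (𝓞 L))
  let w : HeightOneSpectrum (𝓞 L) := ⟨P, hPover.1, hP0⟩
  have : w.asIdeal.LiesOver v.asIdeal := ⟨hPover.2.symm⟩
  have hw : (((q : Nat.Primes) : ℕ) : 𝓞 L) ∈ w.asIdeal := by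
    have : (((q : Nat.Primes) : ℕ) : 𝓞 K) ∈ Ideal.comap (algebraMap (𝓞 K) (𝓞 L)) P := by
      rw [hPover.2]; exact hv
    rw [Ideal.mem_comap, map_natCast] at this
    exact this
  have h1 := valuation_le_of_tmul_mem_Lam hx w hq hw
  have h2 := HeightOneSpectrum.valuation_liesOver (K := K) L v w x
  have h3 := HeightOneSpectrum.valuation_liesOver (K := K) L v w ((((q : Nat.Primes) : ℕ) : K) ^ n)
  rw [RingHom.map_pow (algebraMap K L), map_natCast (algebraMap K L)] at h3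
  rw [← h2, ← h3] at h1
  have he : v.asIdeal.ramificationIdx' w.asIdeal ≠ 0 :=
    haveI : w.asIdeal.IsPrime := w.isPrime
    Ideal.IsDedekindDomain.ramificationIdx'_ne_zero_of_liesOver w.asIdeal v.ne_bot
  exact (pow_le_pow_iff_left₀ zero_le zero_le he).1 h1

end descent

section galois

variable {L : Type} [Field L] [NumberField L] {T : Finset Nat.Primes}

/-- **(S1)** the lattices `Lam L T n` are stable under `Aut(L/ℚ)`. -/
theorem smul_mem_Lam (σ : L ≃ₐ[ℚ] L) {n : ℕ} {z : L ⊗[ℚ] QT T} (hz : z ∈ Lam L T n) :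
    σ • z ∈ Lam L T n := by
  rw [eq_sum_tmul z, Finset.smul_sum]
  refine (Lam L T n).sum_mem fun i _ => ?_
  rw [Objects.smul_tmul', integralBasis_apply]
  have h : σ (algebraMap (𝓞 L) L (RingOfIntegers.basis L i)) =
      ((RingOfIntegers.mapRingEquiv σ.toRingEquiv (RingOfIntegers.basis L i) : 𝓞 L) : L) := rfl
  rw [h]
  exact tmul_mem_Lam _ (hz i)

/-- **(S2)** `1 + Lam n` is closed under multiplication. -/
theorem mul_sub_one_mem_Lam {n : ℕ} {x y : L ⊗[ℚ] QT T} (hx : x - 1 ∈ Lam L T n)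
    (hy : y - 1 ∈ Lam L T n) : x * y - 1 ∈ Lam L T n := by
  have h : x * y - 1 = (x - 1) * (y - 1) + (x - 1) + (y - 1) := by ring
  rw [h]
  refine (Lam L T n).add_mem ((Lam L T n).add_mem ?_ hx) hy
  exact Lam_anti (Nat.le_add_right n n) (mul_mem_Lam hx hy)

theorem prod_sub_one_mem_Lam {α : Type*} (s : Finset α) {n : ℕ} (f : α → L ⊗[ℚ] QT T)
    (h : ∀ i ∈ s, f i - 1 ∈ Lam L T n) : ∏ i ∈ s, f i - 1 ∈ Lam L T n := by
  classical
  induction s using Finset.induction_on with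
  | empty =>
    rw [Finset.prod_empty, sub_self]
    exact (Lam L T n).zero_mem
  | insert a s ha ih =>
    rw [Finset.prod_insert ha]
    exact mul_sub_one_mem_Lam (h a (Finset.mem_insert_self a s))
      (ih fun i hi => h i (Finset.mem_insert_of_mem hi))

end galois

section norm

variable {K : Type} [Field K] [NumberField K] {L : Type} [Field L] [NumberField L] [Algebra K L]
  {T : Finset Nat.Primes}

theorem val_galNorm [Fintype (L ≃ₐ[K] L)] (z : JU L (QT T)) :
    ((galNorm K L (QT T) z : JU L (QT T)) : L ⊗[ℚ] QT T) =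
      ∏ τ : L ≃ₐ[K] L, resHom K L τ • (z : L ⊗[ℚ] QT T) := by
  unfold galNorm
  rw [Units.coe_prod]
  rfl

theorem galNorm_mul [Fintype (L ≃ₐ[K] L)] (y z : JU L (QT T)) :
    galNorm K L (QT T) (y * z) = galNorm K L (QT T) y * galNorm K L (QT T) z := by
  unfold galNorm
  rw [← Finset.prod_mul_distrib]
  refine Finset.prod_congr rfl fun τ _ => ?_
  exact smul_mul' _ _ _

/-- The norm of `1 + Lam n` lies in `1 + Lam n`. -/
theorem galNorm_sub_one_mem_Lam [Fintype (L ≃ₐ[K] L)] {n : ℕ} (z : JU L (QT T))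
    (hz : (z : L ⊗[ℚ] QT T) - 1 ∈ Lam L T n) :
    ((galNorm K L (QT T) z : JU L (QT T)) : L ⊗[ℚ] QT T) - 1 ∈ Lam L T n := by
  rw [val_galNorm]
  refine prod_sub_one_mem_Lam _ _ fun τ _ => ?_
  have h := smul_mem_Lam (resHom K L τ) hz
  have h1 : (resHom K L τ) • ((z : L ⊗[ℚ] QT T) - 1) =
      (resHom K L τ) • (z : L ⊗[ℚ] QT T) - 1 := by
    rw [Objects.smul_def, Objects.smul_def, map_sub, map_one]
  rwa [h1] at h

end norm

section approx

variable {L : Type} [Field L] [NumberField L] {T : Finset Nat.Primes}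

/-- **(S3)** unit form of weak approximation: every unit of `L ⊗ ℚ_T` is a global unit times an
element of `1 + Lam N`. -/
theorem exists_unit_approx (y : JU L (QT T)) (N : ℕ) :
    ∃ c : Lˣ, ((y * inclUnits ℚ L (QT T) c : JU L (QT T)) : L ⊗[ℚ] QT T) - 1 ∈ Lam L T N := by
  obtain ⟨M, hM⟩ := exists_varpi_pow_smul_mem_Lam (y : L ⊗[ℚ] QT T)
  -- a nonzero global approximation of `y⁻¹`
  obtain ⟨c, hc0, hc⟩ : ∃ c : L, c ≠ 0 ∧
      ((y⁻¹ : JU L (QT T)) : L ⊗[ℚ] QT T) - c ⊗ₜ[ℚ] (1 : QT T) ∈ Lam L T (N + M) := by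
    obtain ⟨c, hc⟩ := ApproxPowQ.exists_approx ((y⁻¹ : JU L (QT T)) : L ⊗[ℚ] QT T) (N + M)
    by_cases h0 : c = 0
    · refine ⟨((varpi T : ℚ) ^ (N + M)) • (1 : L), ?_, ?_⟩
      · rw [Ne, smul_eq_zero, not_or]
        exact ⟨pow_ne_zero _ (by exact_mod_cast varpi_ne_zero T), one_ne_zero⟩
      · rw [h0, zero_tmul, sub_zero] at hc
        refine (Lam L T (N + M)).sub_mem hc ?_
        rw [← TensorProduct.smul_tmul', ← Algebra.TensorProduct.one_def]
        have := varpi_pow_smul_mem_Lam (N + M) (one_mem_Lam (K := L) (T := T))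
        rwa [zero_add] at this
    · exact ⟨c, h0, hc⟩
  refine ⟨Units.mk0 c hc0, ?_⟩
  have e : ((y * inclUnits ℚ L (QT T) (Units.mk0 c hc0) : JU L (QT T)) : L ⊗[ℚ] QT T) - 1 =
      -((((varpi T : ℚ) ^ M) • (y : L ⊗[ℚ] QT T)) *
        ((((varpi T : ℚ) ^ M)⁻¹) •
          (((y⁻¹ : JU L (QT T)) : L ⊗[ℚ] QT T) - c ⊗ₜ[ℚ] (1 : QT T)))) := by
    have hv : ((varpi T : ℚ) ^ M) ≠ 0 := pow_ne_zero _ (by exact_mod_cast varpi_ne_zero T)
    rw [Units.val_mul, val_inclUnits, Units.val_mk0, smul_mul_smul_comm, mul_inv_cancel₀ hv,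
      one_smul, mul_sub, Units.mul_inv]
    ring
  rw [e]
  refine (Lam L T N).neg_mem ?_
  have := mul_mem_Lam hM (varpi_pow_inv_smul_mem_Lam M hc)
  rwa [zero_add] at this

end approx

end Fermat.Agent.S55.Global.CycloArtinModelQ
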