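/-
S55 / GLOBAL block, row G.cycloArtin PART B (helper69), file 2/3: the hypotheses (M1), (M2) of
helper61's `CycloArtinQ.exists_artin_hom_Q` in the `ℚ`-based model of interface v3.

* `exists_norm_mul_approx` : **model independent core**.  If `a ⊗ 1 = (ε ⊗ 1) · N_{L/K}(y)` in
  `(L ⊗[ℚ] ℚ_T)ˣ` (`a, ε ∈ Kˣ`), then for every `N` there are `b ∈ Lˣ`, `u ∈ Kˣ` with
  `a = ε · N_{L/K}(b) · u` and `(u - 1) ⊗ 1 ∈ Lam L T N`.
* `isOneModAt_of_mem_Lam`, `valuation_eq_one_of_mem_Lam` : what `(u - 1) ⊗ 1 ∈ Lam L T N` means.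
* `exists_M2_of_eq` : (M2) in the literal shape of `exists_artin_hom_Q` from such an identity.
* the model: `normSubgroup K L T = E_{K,T} · N_{L/K}((L ⊗ ℚ_T)ˣ) ≤ (K ⊗ ℚ_T)ˣ`,
  `XQ K L T = (K ⊗ ℚ_T)ˣ ⧸ normSubgroup`, `deltaQ K L T : Kˣ →* XQ K L T`,
  `deltaQ_surjective` = **(M1)**, `deltaQ_M2` = **(M2)**.
-/
import Mathlib
import Fermat.Agent.S55.Global.CycloArtinLatticeQ

set_option autoImplicit false
set_option linter.unusedSectionVars false

open NumberField IsDedekindDomain TensorProduct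

namespace Fermat.Agent.S55.Global.CycloArtinModelQ

open Fermat.Agent.S55.Global.Objects Fermat.Agent.S55.Global.Objects2
  Fermat.Agent.S55.Global.TensorLattice Fermat.Agent.S55.Global.Bridge2Units
  Fermat.Agent.S55.Global.Objects3 Fermat.Agent.S55.Global.CycloArtinIdeal

section core

variable {K : Type} [Field K] [NumberField K] {L : Type} [Field L] [NumberField L] [Algebra K L]
  {T : Finset Nat.Primes}

/-- **CORE of (M2)** (model independent).  If `a ⊗ 1 = (ε ⊗ 1) · N_{L/K}(y)` in `(L ⊗ ℚ_T)ˣ` with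
`a, ε ∈ Kˣ`, then for every `N` there are `b ∈ Lˣ`, `u ∈ Kˣ` with `a = ε · N_{L/K}(b) · u` and
`u ≡ 1` modulo `ϖ^N` times the lattice of `L`. -/
theorem exists_norm_mul_approx [IsGalois K L] [Fintype (L ≃ₐ[K] L)] (a ε : Kˣ)
    (y : JU L (QT T))
    (h : inclUnits ℚ L (QT T) (Units.map ((algebraMap K L : K →+* L) : K →* L) a) =
      inclUnits ℚ L (QT T) (Units.map ((algebraMap K L : K →+* L) : K →* L) ε) *
        galNorm K L (QT T) y) (N : ℕ) :
    ∃ (b : Lˣ) (u : Kˣ), (a : K) = ε * Algebra.norm K (b : L) * u ∧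
      ((algebraMap K L ((u : K) - 1)) ⊗ₜ[ℚ] (1 : QT T)) ∈ Lam L T N := by
  obtain ⟨c, hc⟩ := exists_unit_approx y N
  set z : JU L (QT T) := y * inclUnits ℚ L (QT T) c with hz
  set u : Kˣ := a / (ε * Units.map (Algebra.norm K : L →* K) c⁻¹) with hu
  refine ⟨c⁻¹, u, ?_, ?_⟩
  · have h1 : a = ε * Units.map (Algebra.norm K : L →* K) c⁻¹ * u := by
      rw [hu, mul_div_cancel]
    have h2 := congrArg (fun w : Kˣ => (w : K)) h1
    simp only [Units.val_mul, Units.coe_map] at h2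
    exact h2
  · have hy : y = z * inclUnits ℚ L (QT T) c⁻¹ := by
      rw [hz, map_inv, mul_inv_cancel_right]
    have h1 : inclUnits ℚ L (QT T) (Units.map ((algebraMap K L : K →+* L) : K →* L) u) =
        galNorm K L (QT T) z := by
      have hN : galNorm K L (QT T) (inclUnits ℚ L (QT T) c⁻¹) =
          inclUnits ℚ L (QT T) (Units.map ((algebraMap K L : K →+* L) : K →* L)
            (Units.map (Algebra.norm K : L →* K) c⁻¹)) := (inclUnits_norm (QT T) c⁻¹).symm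
      rw [hu, map_div, map_div, map_mul, map_mul, h, hy, galNorm_mul, hN, hz]
      rw [mul_div_mul_left_eq_div, mul_div_cancel_right]
    have h2 := congrArg (fun w : JU L (QT T) => (w : L ⊗[ℚ] QT T)) h1
    simp only [val_inclUnits, Units.coe_map, MonoidHom.coe_coe] at h2
    rw [map_sub, map_one, TensorProduct.sub_tmul, h2, ← Algebra.TensorProduct.one_def]
    exact galNorm_sub_one_mem_Lam z hc

end core

section m2

variable {K : Type} [Field K] [NumberField K] {L : Type} [Field L] [NumberField L] [Algebra K L]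
  {T : Finset Nat.Primes}

/-- `u ≡ 1 mod ϖ^N Lam(L)` gives `IsOneModAt K p k u` for `p ∈ T`, `k ≤ N`. -/
theorem isOneModAt_of_mem_Lam {p : ℕ} (hpT : ∃ q ∈ T, ((q : Nat.Primes) : ℕ) = p) {k N : ℕ}
    (hkN : k ≤ N) {u : K}
    (hu : ((algebraMap K L (u - 1)) ⊗ₜ[ℚ] (1 : QT T)) ∈ Lam L T N) : IsOneModAt K p k u := by
  obtain ⟨q, hq, rfl⟩ := hpT
  intro v hv
  refine (valuation_le_of_algebraMap_tmul_mem_Lam hu v hq hv).trans ?_
  rw [map_pow, map_pow]
  exact pow_le_pow_right_of_le_one' (valuation_natCast_le_one K v _) hkN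

/-- `u ≡ 1 mod ϖ^N Lam(L)`, `N ≥ 1`, gives `v(u) = 1` at all places above `T`. -/
theorem valuation_eq_one_of_mem_Lam {N : ℕ} (hN : 1 ≤ N) {u : K}
    (hu : ((algebraMap K L (u - 1)) ⊗ₜ[ℚ] (1 : QT T)) ∈ Lam L T N)
    (v : HeightOneSpectrum (𝓞 K)) (hv : v ∈ placesAboveQ K T) : v.valuation K u = 1 := by
  obtain ⟨q, hq, hqv⟩ := hv
  have h1 := valuation_le_of_algebraMap_tmul_mem_Lam hu v hq hqv
  have h2 : v.valuation K ((((q : Nat.Primes) : ℕ) : K)) < 1 := by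
    have h : v.valuation K (algebraMap (𝓞 K) K ((((q : Nat.Primes) : ℕ) : 𝓞 K))) < 1 :=
      (v.valuation_lt_one_iff_mem (K := K) ((((q : Nat.Primes) : ℕ) : 𝓞 K))).2 hqv
    rwa [map_natCast] at h
  have h3 : v.valuation K ((((q : Nat.Primes) : ℕ) : K) ^ N) < 1 := by
    rw [map_pow]
    exact pow_lt_one' h2 (by omega)
  have h4 : v.valuation K (u - 1) < 1 := lt_of_le_of_lt h1 h3
  have h5 := (v.valuation K).map_one_add_of_lt h4
  rwa [add_sub_cancel] at h5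

/-- **(M2), in helper61's literal shape**, from the `(L ⊗ ℚ_T)ˣ`-identity
`a ⊗ 1 = (ε ⊗ 1) · N_{L/K}(y)` with `ε` a `T`-unit of `K`. -/
theorem exists_M2_of_eq [IsGalois K L] [Fintype (L ≃ₐ[K] L)] {p : ℕ}
    (hpT : ∃ q ∈ T, ((q : Nat.Primes) : ℕ) = p) (k : ℕ) (a ε : Kˣ) (hε : ε ∈ EUnitsQ K T)
    (y : JU L (QT T))
    (h : inclUnits ℚ L (QT T) (Units.map ((algebraMap K L : K →+* L) : K →* L) a) =
      inclUnits ℚ L (QT T) (Units.map ((algebraMap K L : K →+* L) : K →* L) ε) *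
        galNorm K L (QT T) y) :
    ∃ (ε' u : Kˣ) (b : Lˣ),
      (∀ v : HeightOneSpectrum (𝓞 K), v ∉ placesAboveQ K T → v.valuation K (ε' : K) = 1) ∧
      IsOneModAt K p k (u : K) ∧
      (∀ v : HeightOneSpectrum (𝓞 K), v ∈ placesAboveQ K T → v.valuation K (u : K) = 1) ∧
      (a : K) = ε' * Algebra.norm K (b : L) * u := by
  obtain ⟨b, u, hab, hu⟩ := exists_norm_mul_approx a ε y h (k + 1)
  refine ⟨ε, u, b, ?_, isOneModAt_of_mem_Lam hpT (Nat.le_succ k) hu,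
    valuation_eq_one_of_mem_Lam (Nat.succ_le_succ (Nat.zero_le k)) hu, hab⟩
  intro v hv
  exact (EUnitsQ_le T hε) v hv

end m2

section model

variable (K : Type) [Field K] [NumberField K] (L : Type) [Field L] [NumberField L] [Algebra K L]
  (T : Finset Nat.Primes)

theorem galNorm_one [Fintype (L ≃ₐ[K] L)] : galNorm K L (QT T) (1 : JU L (QT T)) = 1 := by
  unfold galNorm
  exact Finset.prod_eq_one fun τ _ => smul_one _

theorem galNorm_inv [Fintype (L ≃ₐ[K] L)] (y : JU L (QT T)) :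
    galNorm K L (QT T) y⁻¹ = (galNorm K L (QT T) y)⁻¹ := by
  rw [eq_inv_iff_mul_eq_one, ← galNorm_mul, inv_mul_cancel, galNorm_one]

/-- The subgroup `E_{K,T} · N_{L/K}((L ⊗ ℚ_T)ˣ)` of `(K ⊗ ℚ_T)ˣ` (membership tested after base
change to `L`). -/
noncomputable def normSubgroup [Fintype (L ≃ₐ[K] L)] : Subgroup (JU K (QT T)) where
  carrier := {x | ∃ ε ∈ EUnitsQ K T, ∃ y : JU L (QT T),
    baseUnits K L (QT T) x =
      inclUnits ℚ L (QT T) (Units.map ((algebraMap K L : K →+* L) : K →* L) ε) *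
        galNorm K L (QT T) y}
  one_mem' := ⟨1, (EUnitsQ K T).one_mem, 1, by rw [map_one, map_one, map_one, galNorm_one, mul_one]⟩
  mul_mem' := by
    rintro x x' ⟨ε, hε, y, h⟩ ⟨ε', hε', y', h'⟩
    refine ⟨ε * ε', (EUnitsQ K T).mul_mem hε hε', y * y', ?_⟩
    rw [map_mul, h, h', map_mul, map_mul, galNorm_mul, mul_mul_mul_comm]
  inv_mem' := by
    rintro x ⟨ε, hε, y, h⟩
    refine ⟨ε⁻¹, (EUnitsQ K T).inv_mem hε, y⁻¹, ?_⟩
    rw [map_inv, h, map_inv, map_inv, galNorm_inv, mul_inv]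

variable {K L T} in
theorem mem_normSubgroup [Fintype (L ≃ₐ[K] L)] {x : JU K (QT T)} :
    x ∈ normSubgroup K L T ↔ ∃ ε ∈ EUnitsQ K T, ∃ y : JU L (QT T),
      baseUnits K L (QT T) x =
        inclUnits ℚ L (QT T) (Units.map ((algebraMap K L : K →+* L) : K →* L) ε) *
          galNorm K L (QT T) y := Iff.rfl

/-- The model `X = (K ⊗ ℚ_T)ˣ ⧸ E_{K,T} · N_{L/K}((L ⊗ ℚ_T)ˣ)`. -/
abbrev XQ [Fintype (L ≃ₐ[K] L)] : Type := JU K (QT T) ⧸ normSubgroup K L T

/-- `δ : Kˣ → X`, `a ↦` class of `a ⊗ 1`. -/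
noncomputable def deltaQ [Fintype (L ≃ₐ[K] L)] : Kˣ →* XQ K L T :=
  (QuotientGroup.mk' (normSubgroup K L T)).comp (inclUnits ℚ K (QT T))

variable {K L T}

theorem deltaQ_eq_one_iff [Fintype (L ≃ₐ[K] L)] (a : Kˣ) :
    deltaQ K L T a = 1 ↔ inclUnits ℚ K (QT T) a ∈ normSubgroup K L T := by
  unfold deltaQ
  rw [MonoidHom.comp_apply, QuotientGroup.mk'_apply, QuotientGroup.eq_one_iff]

/-- `n`-th powers, `n = |Gal(L/K)|`, are norms. -/
theorem pow_card_mem_normSubgroup [Fintype (L ≃ₐ[K] L)] (z : JU K (QT T)) :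
    z ^ Fintype.card (L ≃ₐ[K] L) ∈ normSubgroup K L T := by
  refine ⟨1, (EUnitsQ K T).one_mem, baseUnits K L (QT T) z, ?_⟩
  rw [map_one, map_one, one_mul, map_pow]
  unfold galNorm
  exact (prod_smul_eq_pow (QT T) _ (fun τ => smul_baseUnits (QT T) τ z)).symm

/-- **(M1)** `δ` is surjective (weak approximation + `n`-th powers are norms). -/
theorem deltaQ_surjective [Fintype (L ≃ₐ[K] L)] : Function.Surjective (deltaQ K L T) := by
  intro x
  obtain ⟨y, rfl⟩ := QuotientGroup.mk_surjective x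
  obtain ⟨a, z, hyz⟩ := ApproxPowQ.approxPow (Fintype.card (L ≃ₐ[K] L)) Fintype.card_ne_zero y
  refine ⟨a, ?_⟩
  unfold deltaQ
  rw [MonoidHom.comp_apply, QuotientGroup.mk'_apply, QuotientGroup.eq, hyz, ← mul_assoc,
    inv_mul_cancel, one_mul]
  exact pow_card_mem_normSubgroup z

/-- **(M2)** for the model `X`, in the literal shape of `CycloArtinAbs.exists_artin_hom`. -/
theorem deltaQ_M2 [IsGalois K L] [Fintype (L ≃ₐ[K] L)] {p : ℕ}
    (hpT : ∃ q ∈ T, ((q : Nat.Primes) : ℕ) = p) (k : ℕ) (a : Kˣ) (ha : deltaQ K L T a = 1) :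
    ∃ (ε u : Kˣ) (b : Lˣ),
      (∀ v : HeightOneSpectrum (𝓞 K), v ∉ placesAboveQ K T → v.valuation K (ε : K) = 1) ∧
      IsOneModAt K p k (u : K) ∧
      (∀ v : HeightOneSpectrum (𝓞 K), v ∈ placesAboveQ K T → v.valuation K (u : K) = 1) ∧
      (a : K) = ε * Algebra.norm K (b : L) * u := by
  rw [deltaQ_eq_one_iff] at ha
  obtain ⟨ε, hε, y, h⟩ := ha
  rw [← inclUnits_map] at h
  exact exists_M2_of_eq hpT k a ε hε y h

end model

end Fermat.Agent.S55.Global.CycloArtinModelQ
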