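/-
S55 / GLOBAL block, row G.cycloArtin (helper61): base change (tower) functoriality of the
cyclotomic Artin map of `CycloArtinAbs.lean`.

Setting (the one of `CycloRayNorm`, section Functoriality): number fields `K ⊆ F`, `C = K(ζ_n)`,
`D = F(ζ_n)`, `C ⊆ D`; `T` a set of primes of `K` containing the primes dividing `n`, `primesOver T`
the primes of `F` above `T`.

* `artT_coeIdeal_eq_artCyc` : `ArtT` is `artCyc` on integral ideals prime to `T`.
* `resGal n : Gal(D/F) →* Gal(C/K)`, restriction.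
* `resGal_artT_map` / `resGal_artT_algebraMap` : `(ArtT^F (a 𝓞_F))|_C = ArtT^K (a) ^ [F:K]`.
* `artT_algebraMap_apply_of_dvd` : if `L/K` is Galois inside `C` with `[L:K] ∣ [F:K]`, the symbol over
  `F` of an element of `K` fixes `L` pointwise.
* `artHom_algebraMap_eq_one` : hence it is trivial on every Galois `M/F` generated by `L`.
-/
import Fermat.Agent.S55.Global.CycloArtinAbs

set_option autoImplicit false
set_option linter.unusedSectionVars false
set_option linter.style.haveILetI false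

open NumberField IsDedekindDomain nonZeroDivisors

namespace Fermat.Agent.S55.Global.CycloArtinTower

open Fermat.Agent.S55.Global.CycloRay Fermat.Agent.S55.Global.CycloRayNorm
  Fermat.Agent.S55.Global.CycloArtinIdeal Fermat.Agent.S55.Global.CycloArtinAbs

noncomputable section

section OneField

variable {K C : Type*} [Field K] [NumberField K] [Field C] [NumberField C] [Algebra K C]
  {n : ℕ} [NeZero n] [IsCyclotomicExtension {n} K C] {T : Set (HeightOneSpectrum (𝓞 K))}

omit [NeZero n] in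
/-- An ideal without prime factors in `T` is prime to `n`. -/
theorem isCoprime_of_forall_not_le
    (hT : ∀ v : HeightOneSpectrum (𝓞 K), (n : 𝓞 K) ∈ v.asIdeal → v ∈ T)
    (I : Ideal (𝓞 K)) (hI : I ≠ ⊥) (h : ∀ w ∈ T, ¬ I ≤ w.asIdeal) :
    IsCoprime I (Ideal.span {(n : 𝓞 K)}) := by
  rw [Ideal.isCoprime_iff_sup_eq]
  by_contra hne
  obtain ⟨M, hM, hle⟩ := Ideal.exists_le_maximal _ hne
  have hI_le : I ≤ M := le_sup_left.trans hle
  have hn : (n : 𝓞 K) ∈ M := hle (Ideal.mem_sup_right (Ideal.mem_span_singleton_self _))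
  have hM0 : M ≠ ⊥ := by
    rintro rfl
    exact hI (le_bot_iff.mp hI_le)
  exact h ⟨M, hM.isPrime, hM0⟩ (hT _ hn) hI_le

/-- On integral ideals without prime factors in `T`, `ArtT` is the Artin symbol `artCyc`. -/
theorem artT_coeIdeal_eq_artCyc
    (hT : ∀ v : HeightOneSpectrum (𝓞 K), (n : 𝓞 K) ∈ v.asIdeal → v ∈ T)
    (I : Ideal (𝓞 K)) (hI : I ≠ ⊥) (h : ∀ w ∈ T, ¬ I ≤ w.asIdeal) :
    ArtT (C := C) n T (I : FractionalIdeal (𝓞 K)⁰ K) = artCyc n I := by
  induction I using UniqueFactorizationMonoid.induction_on_prime with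
  | h₁ => exact absurd rfl hI
  | h₂ J hJ =>
    rw [Ideal.isUnit_iff] at hJ
    subst hJ
    rw [FractionalIdeal.coeIdeal_top, artT_one, artCyc_top]
  | h₃ J P hJ hP ih =>
    have hP0 : P ≠ ⊥ := hP.ne_zero
    have hJ' : J ≠ ⊥ := hJ
    have hPprime : P.IsPrime := Ideal.isPrime_of_prime hP
    have hPT : ∀ w ∈ T, ¬ P ≤ w.asIdeal := fun w hw hle => h w hw (Ideal.mul_le_left.trans hle)
    have hJT : ∀ w ∈ T, ¬ J ≤ w.asIdeal := fun w hw hle => h w hw (Ideal.mul_le_right.trans hle)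
    have hcP : IsCoprime P (Ideal.span {(n : 𝓞 K)}) := isCoprime_of_forall_not_le hT P hP0 hPT
    have hcJ : IsCoprime J (Ideal.span {(n : 𝓞 K)}) := isCoprime_of_forall_not_le hT J hJ' hJT
    have h1 : ((P : FractionalIdeal (𝓞 K)⁰ K)) ≠ 0 := by
      rw [Ne, FractionalIdeal.coeIdeal_eq_zero]; exact hP0
    have h2 : ((J : FractionalIdeal (𝓞 K)⁰ K)) ≠ 0 := by
      rw [Ne, FractionalIdeal.coeIdeal_eq_zero]; exact hJ'
    have hvT : (⟨P, hPprime, hP0⟩ : HeightOneSpectrum (𝓞 K)) ∉ T := fun hmem =>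
      hPT _ hmem le_rfl
    rw [FractionalIdeal.coeIdeal_mul, artT_mul h1 h2, ih hJ' hJT,
      artCyc_mul n hP0 hJ' hcP hcJ]
    congr 1
    have := artT_prime (C := C) (n := n) (T := T) ⟨P, hPprime, hP0⟩
    change ArtT (C := C) n T (((⟨P, hPprime, hP0⟩ : HeightOneSpectrum (𝓞 K)).asIdeal :
      Ideal (𝓞 K)) : FractionalIdeal (𝓞 K)⁰ K) = _
    rw [this, frobT, if_neg hvT]

end OneField

section BaseChange

variable {K F C D : Type*} [Field K] [NumberField K] [Field F] [NumberField F]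
  [Field C] [NumberField C] [Field D] [NumberField D]
  [Algebra K F] [Algebra K C] [Algebra F D] [Algebra K D] [Algebra C D]
  [IsScalarTower K F D] [IsScalarTower K C D]
  (n : ℕ) [NeZero n] [IsCyclotomicExtension {n} K C] [IsCyclotomicExtension {n} F D]
  [IsGalois K C]

/-- The primes of `F` above the primes in `T`. -/
def placesOver (F : Type*) [Field F] [NumberField F] [Algebra K F]
    (T : Set (HeightOneSpectrum (𝓞 K))) : Set (HeightOneSpectrum (𝓞 F)) :=
  {w | ∃ v ∈ T, v.asIdeal = w.asIdeal.under (𝓞 K)}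

/-- Restriction `Gal(D/F) → Gal(C/K)`. -/
def resGal : (D ≃ₐ[F] D) →* (C ≃ₐ[K] C) :=
  (AlgEquiv.restrictNormalHom C).comp (AlgEquiv.restrictScalarsHom K)

theorem resGal_apply (σ : D ≃ₐ[F] D) :
    resGal (K := K) (C := C) σ = AlgEquiv.restrictNormalHom C (σ.restrictScalars K) := rfl

theorem algebraMap_resGal (σ : D ≃ₐ[F] D) (x : C) :
    algebraMap C D (resGal (K := K) (C := C) σ x) = σ (algebraMap C D x) := by
  rw [resGal_apply]
  change algebraMap C D ((σ.restrictScalars K).restrictNormal C x) = _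
  rw [AlgEquiv.restrictNormal_commutes, AlgEquiv.restrictScalars_apply]

variable {T : Set (HeightOneSpectrum (𝓞 K))}

omit [NumberField C] [NumberField D] [Algebra K C] [Algebra F D] [Algebra K D] [Algebra C D]
  [IsScalarTower K F D] [IsScalarTower K C D] [NeZero n] [IsCyclotomicExtension {n} K C]
  [IsCyclotomicExtension {n} F D] [IsGalois K C] in
theorem under_eq_of_map_le (v : HeightOneSpectrum (𝓞 K)) (w : HeightOneSpectrum (𝓞 F))
    (h : v.asIdeal.map (algebraMap (𝓞 K) (𝓞 F)) ≤ w.asIdeal) :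
    v.asIdeal = w.asIdeal.under (𝓞 K) := by
  rw [Ideal.map_le_iff_le_comap] at h
  have hmax : v.asIdeal.IsMaximal := v.isPrime.isMaximal v.ne_bot
  have hprime : (w.asIdeal.under (𝓞 K)).IsPrime := Ideal.IsPrime.under (𝓞 K) w.asIdeal
  exact hmax.eq_of_le hprime.ne_top h

omit [NumberField C] [NumberField D] [Algebra K C] [Algebra F D] [Algebra K D] [Algebra C D]
  [IsScalarTower K F D] [IsScalarTower K C D] [NeZero n] [IsCyclotomicExtension {n} K C]
  [IsCyclotomicExtension {n} F D] [IsGalois K C] in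
theorem mem_placesOver_of_natCast_mem
    (hT : ∀ v : HeightOneSpectrum (𝓞 K), (n : 𝓞 K) ∈ v.asIdeal → v ∈ T)
    (w : HeightOneSpectrum (𝓞 F)) (h : (n : 𝓞 F) ∈ w.asIdeal) : w ∈ placesOver F T := by
  have hprime : (w.asIdeal.under (𝓞 K)).IsPrime := Ideal.IsPrime.under (𝓞 K) w.asIdeal
  have hne : w.asIdeal.under (𝓞 K) ≠ ⊥ := Ideal.under_ne_bot (𝓞 K) w.ne_bot
  refine ⟨⟨w.asIdeal.under (𝓞 K), hprime, hne⟩, hT _ ?_, rfl⟩
  change (n : 𝓞 K) ∈ w.asIdeal.under (𝓞 K)
  rw [Ideal.under_def, Ideal.mem_comap, map_natCast]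
  exact h

/-- **Base change** (ideal form): `(ArtT^F (I 𝓞_F))|_C = ArtT^K (I) ^ [F:K]`. -/
theorem resGal_artT_map
    (hT : ∀ v : HeightOneSpectrum (𝓞 K), (n : 𝓞 K) ∈ v.asIdeal → v ∈ T)
    (I : Ideal (𝓞 K)) (hI : I ≠ ⊥) :
    resGal (K := K) (C := C) (ArtT (C := D) n (placesOver F T)
      ((I.map (algebraMap (𝓞 K) (𝓞 F)) : Ideal (𝓞 F)) : FractionalIdeal (𝓞 F)⁰ F)) =
      ArtT (C := C) n T (I : FractionalIdeal (𝓞 K)⁰ K) ^ Module.finrank K F := by
  have hinj := RingOfIntegers.algebraMap.injective K F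
  induction I using UniqueFactorizationMonoid.induction_on_prime with
  | h₁ => exact absurd rfl hI
  | h₂ J hJ =>
    rw [Ideal.isUnit_iff] at hJ
    subst hJ
    rw [Ideal.map_top, FractionalIdeal.coeIdeal_top, FractionalIdeal.coeIdeal_top, artT_one,
      artT_one, map_one, one_pow]
  | h₃ J P hJ hP ih =>
    have hP0 : P ≠ ⊥ := hP.ne_zero
    have hJ' : J ≠ ⊥ := hJ
    have hPprime : P.IsPrime := Ideal.isPrime_of_prime hP
    have hmP0 : P.map (algebraMap (𝓞 K) (𝓞 F)) ≠ ⊥ := by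
      rwa [Ne, Ideal.map_eq_bot_iff_of_injective hinj]
    have hmJ0 : J.map (algebraMap (𝓞 K) (𝓞 F)) ≠ ⊥ := by
      rwa [Ne, Ideal.map_eq_bot_iff_of_injective hinj]
    have h1 : ((P : FractionalIdeal (𝓞 K)⁰ K)) ≠ 0 := by
      rw [Ne, FractionalIdeal.coeIdeal_eq_zero]; exact hP0
    have h2 : ((J : FractionalIdeal (𝓞 K)⁰ K)) ≠ 0 := by
      rw [Ne, FractionalIdeal.coeIdeal_eq_zero]; exact hJ'
    have h3 : ((P.map (algebraMap (𝓞 K) (𝓞 F)) : Ideal (𝓞 F)) : FractionalIdeal (𝓞 F)⁰ F) ≠ 0 := by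
      rw [Ne, FractionalIdeal.coeIdeal_eq_zero]; exact hmP0
    have h4 : ((J.map (algebraMap (𝓞 K) (𝓞 F)) : Ideal (𝓞 F)) : FractionalIdeal (𝓞 F)⁰ F) ≠ 0 := by
      rw [Ne, FractionalIdeal.coeIdeal_eq_zero]; exact hmJ0
    have hcomm : Commute (ArtT (C := C) n T (P : FractionalIdeal (𝓞 K)⁰ K))
        (ArtT (C := C) n T (J : FractionalIdeal (𝓞 K)⁰ K)) :=
      (IsCyclotomicExtension.isMulCommutative {n} K C).is_comm.comm _ _
    rw [Ideal.map_mul, FractionalIdeal.coeIdeal_mul, FractionalIdeal.coeIdeal_mul,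
      artT_mul h3 h4, artT_mul h1 h2, map_mul, ih hJ', hcomm.mul_pow]
    congr 1
    -- the prime case
    let v : HeightOneSpectrum (𝓞 K) := ⟨P, hPprime, hP0⟩
    have hvP : ArtT (C := C) n T (P : FractionalIdeal (𝓞 K)⁰ K) = frobT n T v :=
      artT_prime (C := C) (n := n) (T := T) v
    rw [hvP, frobT]
    by_cases hvT : v ∈ T
    · rw [if_pos hvT, one_pow]
      have : ArtT (C := D) n (placesOver F T)
          ((P.map (algebraMap (𝓞 K) (𝓞 F)) : Ideal (𝓞 F)) : FractionalIdeal (𝓞 F)⁰ F) = 1 := by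
        apply artT_coeIdeal_eq_one _ hmP0
        intro w hw
        exact ⟨v, hvT, under_eq_of_map_le v w hw⟩
      rw [this, map_one]
    · rw [if_neg hvT]
      have hnv : (n : 𝓞 K) ∉ P := fun hmem => hvT (hT v hmem)
      have hcop : IsCoprime P (Ideal.span {(n : 𝓞 K)}) := isCoprime_of_prime n hPprime hP0 hnv
      have : ArtT (C := D) n (placesOver F T)
          ((P.map (algebraMap (𝓞 K) (𝓞 F)) : Ideal (𝓞 F)) : FractionalIdeal (𝓞 F)⁰ F) =
          artCyc n (P.map (algebraMap (𝓞 K) (𝓞 F))) := by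
        apply artT_coeIdeal_eq_artCyc (mem_placesOver_of_natCast_mem n hT) _ hmP0
        rintro w ⟨v', hv'T, hv'⟩ hle
        apply hvT
        have h5 := under_eq_of_map_le v w hle
        have h6 : v' = v := by
          ext1
          rw [hv', ← h5]
        rwa [← h6]
      rw [this, resGal_apply]
      exact restrict_artCyc_map n hP0 hcop

end BaseChange

section BaseChangeElt

variable {K F C D : Type*} [Field K] [NumberField K] [Field F] [NumberField F]
  [Field C] [NumberField C] [Field D] [NumberField D]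
  [Algebra K F] [Algebra K C] [Algebra F D] [Algebra K D] [Algebra C D]
  [IsScalarTower K F D] [IsScalarTower K C D]
  (n : ℕ) [NeZero n] [IsCyclotomicExtension {n} K C] [IsCyclotomicExtension {n} F D]
  [IsGalois K C] {T : Set (HeightOneSpectrum (𝓞 K))}

theorem resGal_artT_integer
    (hT : ∀ v : HeightOneSpectrum (𝓞 K), (n : 𝓞 K) ∈ v.asIdeal → v ∈ T)
    (x : 𝓞 K) (hx : x ≠ 0) :
    resGal (K := K) (C := C) (ArtT (C := D) n (placesOver F T)
      (FractionalIdeal.spanSingleton (𝓞 F)⁰ (algebraMap K F (algebraMap (𝓞 K) K x)))) =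
      ArtT (C := C) n T (FractionalIdeal.spanSingleton (𝓞 K)⁰ (algebraMap (𝓞 K) K x)) ^
        Module.finrank K F := by
  have hI : Ideal.span {x} ≠ (⊥ : Ideal (𝓞 K)) := by
    rwa [Ne, Ideal.span_singleton_eq_bot]
  have h := resGal_artT_map (F := F) (C := C) (D := D) n hT (Ideal.span {x}) hI
  rw [Ideal.map_span, Set.image_singleton, FractionalIdeal.coeIdeal_span_singleton,
    FractionalIdeal.coeIdeal_span_singleton] at h
  have h1 : algebraMap (𝓞 F) F (algebraMap (𝓞 K) (𝓞 F) x) =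
      algebraMap K F (algebraMap (𝓞 K) K x) :=
    (IsScalarTower.algebraMap_apply (𝓞 K) (𝓞 F) F x).symm.trans
      (IsScalarTower.algebraMap_apply (𝓞 K) K F x)
  rwa [h1] at h

/-- **Base change** (element form): `(ArtT^F (a 𝓞_F))|_C = ArtT^K (a) ^ [F:K]` for `a ∈ Kˣ`. -/
theorem resGal_artT_algebraMap
    (hT : ∀ v : HeightOneSpectrum (𝓞 K), (n : 𝓞 K) ∈ v.asIdeal → v ∈ T)
    (a : K) (ha : a ≠ 0) :
    resGal (K := K) (C := C) (ArtT (C := D) n (placesOver F T)
      (FractionalIdeal.spanSingleton (𝓞 F)⁰ (algebraMap K F a))) =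
      ArtT (C := C) n T (FractionalIdeal.spanSingleton (𝓞 K)⁰ a) ^ Module.finrank K F := by
  obtain ⟨c, d, hd, rfl⟩ := IsFractionRing.div_surjective (A := 𝓞 K) a
  have hd0 : d ≠ 0 := nonZeroDivisors.ne_zero hd
  have hc0 : c ≠ 0 := by
    rintro rfl
    simp at ha
  have hcK : algebraMap (𝓞 K) K c ≠ 0 := by
    rw [Ne, FaithfulSMul.algebraMap_eq_zero_iff]; exact hc0
  have hdK : algebraMap (𝓞 K) K d ≠ 0 := by
    rw [Ne, FaithfulSMul.algebraMap_eq_zero_iff]; exact hd0
  have hcF : algebraMap K F (algebraMap (𝓞 K) K c) ≠ 0 := by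
    rw [Ne, FaithfulSMul.algebraMap_eq_zero_iff]; exact hcK
  have hdF : algebraMap K F (algebraMap (𝓞 K) K d) ≠ 0 := by
    rw [Ne, FaithfulSMul.algebraMap_eq_zero_iff]; exact hdK
  have e1 : FractionalIdeal.spanSingleton (𝓞 K)⁰ (algebraMap (𝓞 K) K c / algebraMap (𝓞 K) K d) =
      FractionalIdeal.spanSingleton (𝓞 K)⁰ (algebraMap (𝓞 K) K c) *
        (FractionalIdeal.spanSingleton (𝓞 K)⁰ (algebraMap (𝓞 K) K d))⁻¹ := by
    rw [FractionalIdeal.spanSingleton_inv, FractionalIdeal.spanSingleton_mul_spanSingleton,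
      div_eq_mul_inv]
  have e2 : FractionalIdeal.spanSingleton (𝓞 F)⁰
      (algebraMap K F (algebraMap (𝓞 K) K c / algebraMap (𝓞 K) K d)) =
      FractionalIdeal.spanSingleton (𝓞 F)⁰ (algebraMap K F (algebraMap (𝓞 K) K c)) *
        (FractionalIdeal.spanSingleton (𝓞 F)⁰ (algebraMap K F (algebraMap (𝓞 K) K d)))⁻¹ := by
    rw [FractionalIdeal.spanSingleton_inv, FractionalIdeal.spanSingleton_mul_spanSingleton,
      map_div₀, div_eq_mul_inv]
  have n1 : FractionalIdeal.spanSingleton (𝓞 K)⁰ (algebraMap (𝓞 K) K c) ≠ 0 := by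
    rw [Ne, FractionalIdeal.spanSingleton_eq_zero_iff]; exact hcK
  have n2 : FractionalIdeal.spanSingleton (𝓞 K)⁰ (algebraMap (𝓞 K) K d) ≠ 0 := by
    rw [Ne, FractionalIdeal.spanSingleton_eq_zero_iff]; exact hdK
  have n3 : FractionalIdeal.spanSingleton (𝓞 F)⁰ (algebraMap K F (algebraMap (𝓞 K) K c)) ≠ 0 := by
    rw [Ne, FractionalIdeal.spanSingleton_eq_zero_iff]; exact hcF
  have n4 : FractionalIdeal.spanSingleton (𝓞 F)⁰ (algebraMap K F (algebraMap (𝓞 K) K d)) ≠ 0 := by
    rw [Ne, FractionalIdeal.spanSingleton_eq_zero_iff]; exact hdF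
  have hcomm : Commute
      (ArtT (C := C) n T (FractionalIdeal.spanSingleton (𝓞 K)⁰ (algebraMap (𝓞 K) K c)))
      (ArtT (C := C) n T (FractionalIdeal.spanSingleton (𝓞 K)⁰ (algebraMap (𝓞 K) K d)))⁻¹ :=
    (IsCyclotomicExtension.isMulCommutative {n} K C).is_comm.comm _ _
  rw [e1, e2, artT_mul n3 (inv_ne_zero n4), artT_mul n1 (inv_ne_zero n2), artT_inv, artT_inv,
    map_mul, map_inv, resGal_artT_integer n hT c hc0, resGal_artT_integer n hT d hd0,
    hcomm.mul_pow, inv_pow]

end BaseChangeElt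

section Vanishing

variable {K F C D : Type*} [Field K] [NumberField K] [Field F] [NumberField F]
  [Field C] [NumberField C] [Field D] [NumberField D]
  [Algebra K F] [Algebra K C] [Algebra F D] [Algebra K D] [Algebra C D]
  [IsScalarTower K F D] [IsScalarTower K C D]
  (n : ℕ) [NeZero n] [IsCyclotomicExtension {n} K C] [IsCyclotomicExtension {n} F D]
  [IsGalois K C] {T : Set (HeightOneSpectrum (𝓞 K))}
  (L : Type*) [Field L] [Algebra K L] [Algebra L C] [IsScalarTower K L C] [IsGalois K L]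
  [FiniteDimensional K L]

/-- If `L/K` is Galois inside `C` with `[L:K] ∣ [F:K]`, the symbol over `F` of an element of `K`
fixes `L` pointwise. -/
theorem artT_algebraMap_apply_of_dvd
    (hT : ∀ v : HeightOneSpectrum (𝓞 K), (n : 𝓞 K) ∈ v.asIdeal → v ∈ T)
    (hdvd : Module.finrank K L ∣ Module.finrank K F) (a : K) (ha : a ≠ 0) (x : L) :
    ArtT (C := D) n (placesOver F T)
        (FractionalIdeal.spanSingleton (𝓞 F)⁰ (algebraMap K F a))
        (algebraMap C D (algebraMap L C x)) = algebraMap C D (algebraMap L C x) := by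
  have hbc := resGal_artT_algebraMap (F := F) (C := C) (D := D) n hT a ha
  rw [← algebraMap_resGal (K := K) (C := C), hbc]
  congr 1
  set g := ArtT (C := C) n T (FractionalIdeal.spanSingleton (𝓞 K)⁰ a) with hg
  have hone : AlgEquiv.restrictNormalHom L (g ^ Module.finrank K F) = 1 := by
    obtain ⟨m, hm⟩ := hdvd
    rw [map_pow, hm, pow_mul, ← IsGalois.card_aut_eq_finrank K L, pow_card_eq_one', one_pow]
  have h1 : algebraMap L C ((AlgEquiv.restrictNormalHom L (g ^ Module.finrank K F)) x) =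
      (g ^ Module.finrank K F) (algebraMap L C x) :=
    AlgEquiv.restrictNormal_commutes _ L x
  rw [hone, AlgEquiv.one_apply] at h1
  exact h1.symm

variable (M : Type*) [Field M] [NumberField M] [Algebra F M] [Algebra M D] [IsScalarTower F M D]
  [IsGalois F M] [Algebra L M]

/-- **Tower functoriality, vanishing form.**  `K ⊆ F`, `L/K` Galois inside `C = K(ζ_n)` with
`[L:K] ∣ [F:K]`, `M/F` Galois inside `D = F(ζ_n)` generated over `F` by the image of `L`.  Then
every element of `K` has trivial symbol in `Gal(M/F)`. -/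
theorem artHom_algebraMap_eq_one
    (hT : ∀ v : HeightOneSpectrum (𝓞 K), (n : 𝓞 K) ∈ v.asIdeal → v ∈ T)
    (hdvd : Module.finrank K L ∣ Module.finrank K F)
    (hcompat : ∀ x : L, algebraMap M D (algebraMap L M x) = algebraMap C D (algebraMap L C x))
    (hgen : Algebra.adjoin F (Set.range (algebraMap L M)) = ⊤) (a : Kˣ) :
    artHom M D n (placesOver F T) (Units.map (algebraMap K F).toMonoidHom a) = 1 := by
  rw [artHom_apply, Units.coe_map]
  change AlgEquiv.restrictNormalHom M (ArtT (C := D) n (placesOver F T)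
    (FractionalIdeal.spanSingleton (𝓞 F)⁰ (algebraMap K F (a : K)))) = 1
  set σ := ArtT (C := D) n (placesOver F T)
    (FractionalIdeal.spanSingleton (𝓞 F)⁰ (algebraMap K F (a : K))) with hσ
  have hfix : ∀ y ∈ Set.range (algebraMap L M),
      ((AlgEquiv.restrictNormalHom M σ : M ≃ₐ[F] M) : M →ₐ[F] M) y = (AlgHom.id F M) y := by
    rintro _ ⟨x, rfl⟩
    apply (algebraMap M D).injective
    have h1 : algebraMap M D ((AlgEquiv.restrictNormalHom M σ) (algebraMap L M x)) =
        σ (algebraMap M D (algebraMap L M x)) := AlgEquiv.restrictNormal_commutes _ M _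
    rw [AlgHom.id_apply]
    change algebraMap M D ((AlgEquiv.restrictNormalHom M σ) (algebraMap L M x)) = _
    rw [h1, hcompat x]
    exact artT_algebraMap_apply_of_dvd (F := F) n L hT hdvd (a : K) a.ne_zero x
  have := AlgHom.ext_of_adjoin_eq_top hgen hfix
  ext y
  exact DFunLike.congr_fun this y

end Vanishing

end

end Fermat.Agent.S55.Global.CycloArtinTower
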