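/-
S55 / GLOBAL block, row G.cycloArtin (helper61): the abstract cyclotomic Artin map of
`CycloArtinAbs.lean` in the vocabulary of interface v3 (`T : Finset Nat.Primes`,
`T_K = Objects2.placesAboveQ K T`, `Blocks2.AdmissibleQ`).

* `placesAboveQ_finite`, `mem_placesAboveQ_of_natCast_mem`, `clTrivialT_of_principal`,
  `clTrivialT_of_admissibleQ` : the hypotheses of `CycloArtinAbs.exists_artin_hom` for `T_K`.
* `placesOver_placesAboveQ` : the primes of `F` above `T_K` are `placesAboveQ F T`.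
* `exists_artin_hom_Q`, `exists_artin_equiv_Q`, `card_eq_and_generator_Q` : the main theorems.
* `artHom_algebraMap_eq_one_Q` : tower functoriality (vanishing form).
-/
import Fermat.Agent.S55.Global.CycloArtinTower
import Fermat.Agent.S55.Global.Blocks2

set_option autoImplicit false
set_option linter.unusedSectionVars false
set_option linter.style.haveILetI false

open NumberField IsDedekindDomain nonZeroDivisors

namespace Fermat.Agent.S55.Global.CycloArtinQ

open Fermat.Agent.S55.Global.CycloRay Fermat.Agent.S55.Global.CycloRayNorm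
  Fermat.Agent.S55.Global.CycloArtinIdeal Fermat.Agent.S55.Global.CycloArtinAbs
  Fermat.Agent.S55.Global.CycloArtinTower
  Fermat.Agent.S55.Global.Objects Fermat.Agent.S55.Global.Objects2
  Fermat.Agent.S55.Global.Blocks2

noncomputable section

section Basic

variable (K : Type) [Field K] [NumberField K] (T : Finset Nat.Primes)

/-- There are finitely many primes of `K` above `T`. -/
theorem placesAboveQ_finite : (placesAboveQ K T).Finite := by
  have hsub : placesAboveQ K T ⊆ ⋃ q ∈ (T : Set Nat.Primes),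
      {w : HeightOneSpectrum (𝓞 K) | w.asIdeal ∣ Ideal.span {(((q : Nat.Primes) : ℕ) : 𝓞 K)}} := by
    rintro w ⟨q, hq, hmem⟩
    simp only [Set.mem_iUnion]
    exact ⟨q, hq, Ideal.dvd_span_singleton.mpr hmem⟩
  refine Set.Finite.subset (T.finite_toSet.biUnion fun q _ => ?_) hsub
  apply Ideal.finite_factors
  rw [Ne, Ideal.zero_eq_bot, Ideal.span_singleton_eq_bot, Nat.cast_eq_zero]
  exact q.2.ne_zero

variable {K T}

theorem mem_placesAboveQ_of_natCast_mem {p : ℕ} (hpT : ∃ q ∈ T, ((q : Nat.Primes) : ℕ) = p)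
    (v : HeightOneSpectrum (𝓞 K)) (h : (p : 𝓞 K) ∈ v.asIdeal) : v ∈ placesAboveQ K T := by
  obtain ⟨q, hq, rfl⟩ := hpT
  exact ⟨q, hq, h⟩

/-- `Cl_T(K) = 1` in the shape of `Blocks2.AdmissibleQ.principal` gives `ClTrivialT`. -/
theorem clTrivialT_of_principal
    (h : ∀ I : Ideal (𝓞 K), I ≠ ⊥ →
      ∃ (a b : 𝓞 K) (J J' : Ideal (𝓞 K)), a ≠ 0 ∧ b ≠ 0 ∧ SupportedAboveQ K T J ∧
        SupportedAboveQ K T J' ∧ Ideal.span {a} * I * J = Ideal.span {b} * J') :
    ClTrivialT (placesAboveQ K T) := by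
  intro I hI
  obtain ⟨a, b, J, J', ha, hb, hJ, hJ', heq⟩ := h I hI
  refine ⟨a, b, J, J', ha, hb, hJ.1, hJ'.1, ?_, ?_, heq⟩
  · intro w hw
    exact hJ.2 w.asIdeal w.isPrime hw
  · intro w hw
    exact hJ'.2 w.asIdeal w.isPrime hw

theorem clTrivialT_of_admissibleQ {L : Type} [Field L] [NumberField L] [Algebra K L] {p : ℕ}
    (hadm : AdmissibleQ K L p T) : ClTrivialT (placesAboveQ K T) :=
  clTrivialT_of_principal fun I hI => hadm.principal K (algebraMap K L) I hI

/-- The primes of `F` above `T_K` are the primes of `F` above `T`. -/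
theorem placesOver_placesAboveQ (F : Type) [Field F] [NumberField F] [Algebra K F] :
    placesOver F (placesAboveQ K T) = placesAboveQ F T := by
  ext w
  constructor
  · rintro ⟨v, ⟨q, hq, hmem⟩, hv⟩
    refine ⟨q, hq, ?_⟩
    rw [hv, Ideal.under_def, Ideal.mem_comap, map_natCast] at hmem
    exact hmem
  · rintro ⟨q, hq, hmem⟩
    have hprime : (w.asIdeal.under (𝓞 K)).IsPrime := Ideal.IsPrime.under (𝓞 K) w.asIdeal
    have hne : w.asIdeal.under (𝓞 K) ≠ ⊥ := Ideal.under_ne_bot (𝓞 K) w.ne_bot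
    refine ⟨⟨w.asIdeal.under (𝓞 K), hprime, hne⟩, ⟨q, hq, ?_⟩, rfl⟩
    change (((q : Nat.Primes) : ℕ) : 𝓞 K) ∈ w.asIdeal.under (𝓞 K)
    rw [Ideal.under_def, Ideal.mem_comap, map_natCast]
    exact hmem

end Basic

section Main

variable {K : Type} [Field K] [NumberField K] (L C : Type) [Field L] [NumberField L]
  [Field C] [NumberField C] [Algebra K L] [Algebra K C] [Algebra L C] [IsScalarTower K L C]
  [IsGalois K L] [IsTotallyComplex K] {p : ℕ} (hp : p.Prime) (k : ℕ) [NeZero (p ^ k)]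
  [IsCyclotomicExtension {p ^ k} K C] {T : Finset Nat.Primes}

include hp in
/-- **`G.cycloArtin`** in interface v3. -/
theorem exists_artin_hom_Q (hadm : AdmissibleQ K L p T)
    {X : Type*} [Group X] (δ : Kˣ →* X) (hδ : Function.Surjective δ)
    (hker : ∀ a : Kˣ, δ a = 1 → ∃ (ε u : Kˣ) (b : Lˣ),
      (∀ v : HeightOneSpectrum (𝓞 K), v ∉ placesAboveQ K T → v.valuation K (ε : K) = 1) ∧
      IsOneModAt K p k (u : K) ∧ (∀ v ∈ placesAboveQ K T, v.valuation K (u : K) = 1) ∧
      (a : K) = ε * Algebra.norm K (b : L) * u) :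
    ∃ ψ : X →* (L ≃ₐ[K] L), Function.Surjective ψ ∧
      ∀ a : Kˣ, ψ (δ a) = artHom L C (p ^ k) (placesAboveQ K T) a :=
  exists_artin_hom L C hp k (mem_placesAboveQ_of_natCast_mem hadm.mem_p)
    (placesAboveQ_finite K T) (clTrivialT_of_admissibleQ hadm) δ hδ hker

include hp in
theorem exists_artin_equiv_Q (hadm : AdmissibleQ K L p T)
    {X : Type*} [Group X] [Finite X] (δ : Kˣ →* X) (hδ : Function.Surjective δ)
    (hker : ∀ a : Kˣ, δ a = 1 → ∃ (ε u : Kˣ) (b : Lˣ),
      (∀ v : HeightOneSpectrum (𝓞 K), v ∉ placesAboveQ K T → v.valuation K (ε : K) = 1) ∧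
      IsOneModAt K p k (u : K) ∧ (∀ v ∈ placesAboveQ K T, v.valuation K (u : K) = 1) ∧
      (a : K) = ε * Algebra.norm K (b : L) * u)
    (hcard : Nat.card X ≤ Module.finrank K L) :
    ∃ ψ : X ≃* (L ≃ₐ[K] L), ∀ a : Kˣ, ψ (δ a) = artHom L C (p ^ k) (placesAboveQ K T) a :=
  exists_artin_equiv L C hp k (mem_placesAboveQ_of_natCast_mem hadm.mem_p)
    (placesAboveQ_finite K T) (clTrivialT_of_admissibleQ hadm) δ hδ hker hcard

include hp in
theorem card_eq_and_generator_Q (hadm : AdmissibleQ K L p T)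
    {X : Type*} [Group X] [Finite X] (δ : Kˣ →* X) (hδ : Function.Surjective δ)
    (hker : ∀ a : Kˣ, δ a = 1 → ∃ (ε u : Kˣ) (b : Lˣ),
      (∀ v : HeightOneSpectrum (𝓞 K), v ∉ placesAboveQ K T → v.valuation K (ε : K) = 1) ∧
      IsOneModAt K p k (u : K) ∧ (∀ v ∈ placesAboveQ K T, v.valuation K (u : K) = 1) ∧
      (a : K) = ε * Algebra.norm K (b : L) * u)
    (hcard : Nat.card X ≤ Module.finrank K L) :
    Nat.card X = Module.finrank K L ∧
      ∀ a : Kˣ, (∀ σ : L ≃ₐ[K] L,
          σ ∈ Subgroup.zpowers (artHom L C (p ^ k) (placesAboveQ K T) a)) →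
        ∀ x : X, x ∈ Subgroup.zpowers (δ a) :=
  card_eq_and_generator L C hp k (mem_placesAboveQ_of_natCast_mem hadm.mem_p)
    (placesAboveQ_finite K T) (clTrivialT_of_admissibleQ hadm) δ hδ hker hcard

include hp in
/-- Every element of `Gal(L/K)` is the symbol of some `a ∈ Kˣ`. -/
theorem exists_artHom_eq_Q (hadm : AdmissibleQ K L p T) (σ : L ≃ₐ[K] L) :
    ∃ a : Kˣ, artHom L C (p ^ k) (placesAboveQ K T) a = σ :=
  exists_artHom_eq L C hp k (mem_placesAboveQ_of_natCast_mem hadm.mem_p)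
    (placesAboveQ_finite K T) (clTrivialT_of_admissibleQ hadm) σ

end Main

section Tower

variable {K F C D : Type} [Field K] [NumberField K] [Field F] [NumberField F]
  [Field C] [NumberField C] [Field D] [NumberField D]
  [Algebra K F] [Algebra K C] [Algebra F D] [Algebra K D] [Algebra C D]
  [IsScalarTower K F D] [IsScalarTower K C D]
  (n : ℕ) [NeZero n] [IsCyclotomicExtension {n} K C] [IsCyclotomicExtension {n} F D]
  [IsGalois K C] {T : Finset Nat.Primes}
  (L : Type) [Field L] [Algebra K L] [Algebra L C] [IsScalarTower K L C] [IsGalois K L]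
  [FiniteDimensional K L]
  (M : Type) [Field M] [NumberField M] [Algebra F M] [Algebra M D] [IsScalarTower F M D]
  [IsGalois F M] [Algebra L M]

/-- **Tower functoriality** in interface v3: `K ⊆ F`, `L/K` Galois inside `C = K(ζ_n)` with
`[L:K] ∣ [F:K]`, `M/F` Galois inside `D = F(ζ_n)` generated over `F` by the image of `L`; then every
element of `K` has trivial symbol in `Gal(M/F)`. -/
theorem artHom_algebraMap_eq_one_Q
    (hT : ∀ v : HeightOneSpectrum (𝓞 K), (n : 𝓞 K) ∈ v.asIdeal → v ∈ placesAboveQ K T)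
    (hdvd : Module.finrank K L ∣ Module.finrank K F)
    (hcompat : ∀ x : L, algebraMap M D (algebraMap L M x) = algebraMap C D (algebraMap L C x))
    (hgen : Algebra.adjoin F (Set.range (algebraMap L M)) = ⊤) (a : Kˣ) :
    artHom M D n (placesAboveQ F T) (Units.map (algebraMap K F).toMonoidHom a) = 1 := by
  rw [← placesOver_placesAboveQ (K := K) (T := T) F]
  exact artHom_algebraMap_eq_one n L M hT hdvd hcompat hgen a

end Tower

end

end Fermat.Agent.S55.Global.CycloArtinQ
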