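/-
S55 / GLOBAL block, row G.cycloArtin PART B (helper69), file 4/4: helper61's
`CycloArtinQ.exists_artin_hom_Q` applied to the model `XQ K L T`, `deltaQ K L T` of
`CycloArtinModelQ.lean` (both hypotheses (M1), (M2) discharged).
-/
import Fermat.Agent.S55.Global.CycloArtinModelQ
import Fermat.Agent.S55.Global.CycloArtinQ

set_option autoImplicit false
set_option linter.unusedSectionVars false

open NumberField IsDedekindDomain TensorProduct

namespace Fermat.Agent.S55.Global.CycloArtinModelQ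

open Fermat.Agent.S55.Global.CycloArtinQ Fermat.Agent.S55.Global.CycloArtinAbs
  Fermat.Agent.S55.Global.Objects2 Fermat.Agent.S55.Global.Blocks2

variable {K : Type} [Field K] [NumberField K] (L C : Type) [Field L] [NumberField L]
  [Field C] [NumberField C] [Algebra K L] [Algebra K C] [Algebra L C] [IsScalarTower K L C]
  [IsGalois K L] [IsTotallyComplex K] {p : ℕ} (hp : p.Prime) (k : ℕ) [NeZero (p ^ k)]
  [IsCyclotomicExtension {p ^ k} K C] {T : Finset Nat.Primes}

include hp in
/-- The cyclotomic Artin map on `(K ⊗ ℚ_T)ˣ ⧸ E_{K,T} · N_{L/K}((L ⊗ ℚ_T)ˣ)` for `L ⊆ K(ζ_{p^k})`: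
it is onto `Gal(L/K)`. -/
theorem exists_artin_hom_XQ [Fintype (L ≃ₐ[K] L)] (hadm : AdmissibleQ K L p T) :
    ∃ ψ : XQ K L T →* (L ≃ₐ[K] L), Function.Surjective ψ ∧
      ∀ a : Kˣ, ψ (deltaQ K L T a) = artHom L C (p ^ k) (placesAboveQ K T) a :=
  exists_artin_hom_Q L C hp k hadm (deltaQ K L T) deltaQ_surjective
    (fun a ha => deltaQ_M2 hadm.mem_p k a ha)

end Fermat.Agent.S55.Global.CycloArtinModelQ
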