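/-
S55 / GLOBAL block, row G.cycloArtin PART B (helper69), file 3/3: (M2) for the Tate model
`X = Ĥ⁰(Gal(L/K), C_{L,T}) = ker(σ - 1) / N` with `δ = ` class of helper96's `Bridge2Units.deltaC`.

* `smul_galNorm`, `exists_EUnitsQ_of_fixed`;
* `deltaC_M2` : if `deltaC K L T a ∈ range (normC K L T)` then `a = ε · N_{L/K}(b) · u` in the
  literal shape of the hypothesis `hker` of `CycloArtinQ.exists_artin_hom_Q`.
-/
import Mathlib
import Fermat.Agent.S55.Global.CycloArtinModelQ
import Fermat.Agent.S55.Global.DescentUnits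

set_option autoImplicit false
set_option linter.unusedSectionVars false

open NumberField IsDedekindDomain TensorProduct

namespace Fermat.Agent.S55.Global.CycloArtinModelQ

open Fermat.Agent.S55.Global.Objects Fermat.Agent.S55.Global.Objects2
  Fermat.Agent.S55.Global.TensorLattice Fermat.Agent.S55.Global.Bridge2Units
  Fermat.Agent.S55.Global.Objects3 Fermat.Agent.S55.Global.CycloArtinIdeal
  Fermat.Agent.S55.Global.Blocks2

section tate

variable {K : Type} [Field K] [NumberField K] {L : Type} [Field L] [NumberField L] [Algebra K L]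
  {T : Finset Nat.Primes}

/-- The norm is `Gal(L/K)`-fixed. -/
theorem smul_galNorm [Fintype (L ≃ₐ[K] L)] (σ : L ≃ₐ[K] L) (y : JU L (QT T)) :
    resHom K L σ • galNorm K L (QT T) y = galNorm K L (QT T) y := by
  unfold galNorm
  rw [Finset.smul_prod']
  refine Fintype.prod_equiv (Equiv.mulLeft σ) _ _ fun τ => ?_
  rw [← mul_smul, ← map_mul]
  rfl

/-- A `T_L`-unit `e` of `L` with `e ⊗ 1` fixed by `Gal(L/K)` comes from a `T_K`-unit of `K`. -/
theorem exists_EUnitsQ_of_fixed [IsGalois K L] (hT : T.Nonempty) {e : Lˣ} (he : e ∈ EUnitsQ L T)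
    (hfix : ∀ τ : L ≃ₐ[K] L, resHom K L τ • inclUnits ℚ L (QT T) e = inclUnits ℚ L (QT T) e) :
    ∃ ε ∈ EUnitsQ K T, Units.map ((algebraMap K L : K →+* L) : K →* L) ε = e := by
  have hinj := DescentUnits.inclUnits_injective L (T := T) hT
  have h1 : ∀ τ : L ≃ₐ[K] L, τ (e : L) = e := by
    intro τ
    have h2 := hfix τ
    rw [smul_inclUnits] at h2
    have h3 := hinj h2
    exact congrArg (fun w : Lˣ => (w : L)) h3
  have h2 : (e : L) ∈ (⊥ : IntermediateField K L) := by
    rw [IsGalois.mem_bot_iff_fixed]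
    exact h1
  obtain ⟨x, hx⟩ := IntermediateField.mem_bot.1 h2
  have hx0 : x ≠ 0 := by
    rintro rfl
    rw [map_zero] at hx
    exact e.ne_zero hx.symm
  have hε : Units.map ((algebraMap K L : K →+* L) : K →* L) (Units.mk0 x hx0) = e :=
    Units.ext hx
  refine ⟨Units.mk0 x hx0, ?_, hε⟩
  rw [← DescentUnits.map_mem_EUnitsQ_iff K L T]
  rw [← hε] at he
  exact he

/-- **(M2) for the Tate model** `X = Ĥ⁰(Gal(L/K), C_{L,T}) = ker(σ - 1) / N`: if the class of
`a ⊗ 1` in `C_{L,T}` is a norm, then `a = ε · N_{L/K}(b) · u` as in `exists_artin_hom`. -/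
theorem deltaC_M2 [IsGalois K L] [Fintype (L ≃ₐ[K] L)] {p : ℕ}
    (hpT : ∃ q ∈ T, ((q : Nat.Primes) : ℕ) = p) (k : ℕ) (a : Kˣ)
    (ha : deltaC K L T (Additive.ofMul a) ∈ (normC K L T).range) :
    ∃ (ε u : Kˣ) (b : Lˣ),
      (∀ v : HeightOneSpectrum (𝓞 K), v ∉ placesAboveQ K T → v.valuation K (ε : K) = 1) ∧
      IsOneModAt K p k (u : K) ∧
      (∀ v : HeightOneSpectrum (𝓞 K), v ∈ placesAboveQ K T → v.valuation K (u : K) = 1) ∧
      (a : K) = ε * Algebra.norm K (b : L) * u := by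
  have hT : T.Nonempty := by
    obtain ⟨q, hq, -⟩ := hpT
    exact ⟨q, hq⟩
  obtain ⟨c, hc⟩ := ha
  obtain ⟨j, rfl⟩ : ∃ j : JQ L T, (JQtoCQ L T).hom j = c := Submodule.mkQ_surjective _ c
  obtain ⟨y', rfl⟩ := (ofUnit L T).surjective j
  obtain ⟨y, rfl⟩ := Additive.ofMul.surjective y'
  rw [normC_JQtoCQ, deltaC_apply] at hc
  -- the difference lies in `E_{L,T}`
  have h1 : ofUnit L T (Additive.ofMul
      (inclUnits ℚ L (QT T) (Units.map ((algebraMap K L : K →+* L) : K →* L) a) /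
        galNorm K L (QT T) y)) ∈ ESubQ L T := by
    rw [← JQtoCQ_eq_zero_iff, ofMul_div, map_sub, map_sub, sub_eq_zero]
    exact hc.symm
  rw [ofUnit_mem_ESubQ_iff] at h1
  obtain ⟨e, he, hee⟩ := h1
  have hfix : ∀ τ : L ≃ₐ[K] L,
      resHom K L τ • inclUnits ℚ L (QT T) e = inclUnits ℚ L (QT T) e := by
    intro τ
    rw [hee, smul_div', smul_inclUnits_map, smul_galNorm]
  obtain ⟨ε, hε, rfl⟩ := exists_EUnitsQ_of_fixed hT he hfix
  refine exists_M2_of_eq hpT k a ε hε y ?_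
  rw [hee, div_mul_cancel]

end tate

end Fermat.Agent.S55.Global.CycloArtinModelQ
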