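/-
S55 / Global / G.cycloArtin, seat 2, part (d)  (helper64).

`C = K(ζ_n)` a cyclotomic extension of number fields (given through a primitive root `ζ` with
`hgen : ∀ σ, σ ζ = ζ → σ = 1`; for `[IsCyclotomicExtension {n} K C]` use
`hgen_of_isCyclotomicExtension`).  Everything is a consequence of S14 `ZetaSplitFinal.zetaSplit`
(every extension of degree `≥ 2` has a degree-one prime, outside any finite set, which does not
split completely) and S14 `CycloFrob.frob_zeta`.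

Main results (namespace `Fermat.Agent.S55.Global.CycloImage`):
* `eq_one_of_mem_inertia`, `ramificationIdx_eq_one` : `K(ζ_n)/K` is unramified away from `n`
  (inertia groups trivial, `e = 1`).
* `exists_frob_not_mem` : CORE. For every proper subgroup `H` of `Gal(K(ζ_n)/K)` and finite set
  `S0` of ideals there is a prime `Q ∉ S0` of degree one, prime to `n`, and a Frobenius at a
  prime over `Q` which is not in `H`.
* `closure_goodFrob_eq_top` : (C1) these Frobenius elements generate the Galois group.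
* `autToPow_frob`, `closure_absNorm_eq_range` : (C2) the subgroup of `(ZMod n)ˣ` generated by the
  classes `absNorm Q mod n` of the good primes is the image of the cyclotomic character.
* `exists_frob_zpowers_eq_top` : (C3) for a nontrivial cyclic `p`-group `Gal(K(ζ_n)/K)` some good
  prime has a Frobenius generating the whole group.
* `totally_inert` : (C4) such a prime is totally inert: decomposition group `⊤`, `e = 1`,
  `f = [K(ζ_n) : K]`, unique prime above.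
* `exists_totally_inert` : (C3)+(C4) packaged for `[IsCyclotomicExtension {n} K C]`.
-/
import Fermat.Agent.S14.ZetaSplitFinal
import Fermat.Agent.S14.CycloFrob
import Fermat.Agent.S14.ArtinMapGen

set_option autoImplicit false
set_option linter.unusedSectionVars false

open NumberField nonZeroDivisors
open scoped Pointwise

namespace Fermat.Agent.S55.Global.CycloImage

open Fermat.Agent.S14

variable {K C : Type} [Field K] [NumberField K] [Field C] [NumberField C] [Algebra K C]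
  [IsGalois K C]

/-- A prime of `𝓞 C` lying over a nonzero prime of `𝓞 K` is nonzero. -/
theorem ne_bot_of_under_ne_bot (P : Ideal (𝓞 C)) (h : P.under (𝓞 K) ≠ ⊥) : P ≠ ⊥ := by
  rintro rfl
  apply h
  rw [Ideal.under_def]
  exact Ideal.comap_bot_of_injective _ (RingOfIntegers.algebraMap.injective K C)

/-- Existence of an arithmetic Frobenius at a nonzero prime. -/
theorem exists_frobAt (P : Ideal (𝓞 C)) [P.IsPrime] (hP0 : P ≠ ⊥) :
    ∃ φ : C ≃ₐ[K] C, IsArithFrobAt (𝓞 K) φ P := by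
  have : Finite (𝓞 C ⧸ P) := Ideal.finiteQuotientOfFreeOfNeBot P hP0
  exact IsArithFrobAt.exists_of_isInvariant (𝓞 K) (C ≃ₐ[K] C) P

/-- Existence of a prime over a given prime. -/
theorem exists_prime_over (Q : Ideal (𝓞 K)) [Q.IsPrime] :
    ∃ P : Ideal (𝓞 C), P.IsPrime ∧ P.under (𝓞 K) = Q := by
  obtain ⟨P, -, hP, hPQ⟩ := Ideal.exists_ideal_over_prime_of_isIntegral (S := 𝓞 C) Q ⊥
    (by rw [Ideal.comap_bot_of_injective _ (RingOfIntegers.algebraMap.injective K C)]; exact bot_le)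
  exact ⟨P, hP, hPQ⟩

omit [IsGalois K C] in
theorem natCast_not_mem_of_under {n : ℕ} (P : Ideal (𝓞 C)) (h : (n : 𝓞 K) ∉ P.under (𝓞 K)) :
    (n : 𝓞 C) ∉ P := by
  rwa [← CycloFrob.natCast_mem_under (A := 𝓞 K)]

/-- If `σ` is in the inertia group of `P` and `φ` is a Frobenius at `P`, so is `σ * φ`. -/
theorem isArithFrobAt_inertia_mul (P : Ideal (𝓞 C)) (σ φ : C ≃ₐ[K] C)
    (hσ : σ ∈ P.inertia (C ≃ₐ[K] C)) (hφ : IsArithFrobAt (𝓞 K) φ P) :
    IsArithFrobAt (𝓞 K) (σ * φ) P := by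
  intro x
  have h1 := hσ (φ • x)
  have h2 := hφ x
  have : (MulSemiringAction.toAlgHom (𝓞 K) (𝓞 C) (σ * φ)) x - x ^ Nat.card (𝓞 K ⧸ P.under (𝓞 K)) =
      (σ • (φ • x) - φ • x) + ((MulSemiringAction.toAlgHom (𝓞 K) (𝓞 C) φ) x -
        x ^ Nat.card (𝓞 K ⧸ P.under (𝓞 K))) := by
    simp only [MulSemiringAction.toAlgHom_apply, mul_smul]
    ring
  rw [this]
  exact P.add_mem h1 h2

/-- **Inertia is trivial away from `n`** in `C = K(ζ_n)`. -/
theorem eq_one_of_mem_inertia {n : ℕ} {ζ : C} (hζ : IsPrimitiveRoot ζ n) (hn : n ≠ 0)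
    (hgen : ∀ σ : C ≃ₐ[K] C, σ ζ = ζ → σ = 1) (P : Ideal (𝓞 C)) [P.IsPrime] (hP0 : P ≠ ⊥)
    (hnP : (n : 𝓞 C) ∉ P) (σ : C ≃ₐ[K] C) (hσ : σ ∈ P.inertia (C ≃ₐ[K] C)) : σ = 1 := by
  obtain ⟨φ, hφ⟩ := exists_frobAt (K := K) P hP0
  have h1 := CycloFrob.frob_zeta hζ.pow_eq_one P hnP φ hφ
  have h2 := CycloFrob.frob_zeta hζ.pow_eq_one P hnP (σ * φ)
    (isArithFrobAt_inertia_mul P σ φ hσ hφ)
  -- `η := φ ζ` is a primitive root fixed by `σ`
  have hη : IsPrimitiveRoot (φ ζ) n := hζ.map_of_injective φ.injective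
  have hση : σ (φ ζ) = φ ζ := by
    rw [← AlgEquiv.mul_apply, h2, h1]
  apply hgen
  have : NeZero n := ⟨hn⟩
  obtain ⟨i, -, hi⟩ := hη.eq_pow_of_pow_eq_one hζ.pow_eq_one
  rw [← hi, map_pow, hση]

/-- **`K(ζ_n)/K` is unramified away from `n`.** -/
theorem ramificationIdx_eq_one {n : ℕ} {ζ : C} (hζ : IsPrimitiveRoot ζ n) (hn : n ≠ 0)
    (hgen : ∀ σ : C ≃ₐ[K] C, σ ζ = ζ → σ = 1) (Q : Ideal (𝓞 K)) [Q.IsPrime] (hQ0 : Q ≠ ⊥)
    (hnQ : (n : 𝓞 K) ∉ Q) (P : Ideal (𝓞 C)) [P.IsPrime] (hPQ : P.under (𝓞 K) = Q) :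
    P.ramificationIdx (𝓞 K) = 1 := by
  have hP0 : P ≠ ⊥ := ne_bot_of_under_ne_bot P (by rw [hPQ]; exact hQ0)
  have : P.LiesOver Q := ⟨hPQ.symm⟩
  have : Finite (𝓞 K ⧸ Q) := Ideal.finiteQuotientOfFreeOfNeBot _ hQ0
  have hcard := Ideal.card_inertia_eq_ramificationIdxIn (G := C ≃ₐ[K] C) Q P
  have hbot : Ideal.inertia (C ≃ₐ[K] C) P = ⊥ := by
    rw [_root_.eq_bot_iff]
    intro σ hσ
    exact Subgroup.mem_bot.mpr (eq_one_of_mem_inertia hζ hn hgen P hP0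
      (natCast_not_mem_of_under P (by rw [hPQ]; exact hnQ)) σ hσ)
  rw [hbot, Subgroup.card_bot] at hcard
  rw [← Ideal.ramificationIdxIn_eq_ramificationIdx Q P (C ≃ₐ[K] C), ← hcard]

section Generic

variable {F L : Type} [Field F] [NumberField F] [Field L] [NumberField L] [Algebra F L]

/-- If the identity is an arithmetic Frobenius at `P`, the residue degree is `1`. -/
theorem inertiaDeg_eq_one_of_pow (Q : Ideal (𝓞 F)) [Q.IsPrime] (hQ0 : Q ≠ ⊥)
    (P : Ideal (𝓞 L)) [P.IsPrime] (hPQ : P.under (𝓞 F) = Q)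
    (hpow : ∀ x : 𝓞 L, x - x ^ Nat.card (𝓞 F ⧸ Q) ∈ P) : P.inertiaDeg (𝓞 F) = 1 := by
  have hQmax : Q.IsMaximal := Ideal.IsPrime.isMaximal inferInstance hQ0
  have hP0 : P ≠ ⊥ := by
    rintro rfl
    apply hQ0
    rw [← hPQ, Ideal.under_def]
    exact Ideal.comap_bot_of_injective _ (RingOfIntegers.algebraMap.injective F L)
  have hPmax : P.IsMaximal := Ideal.IsPrime.isMaximal inferInstance hP0
  have : P.LiesOver Q := ⟨hPQ.symm⟩
  set q := Nat.card (𝓞 F ⧸ Q) with hq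
  let _ : Field (𝓞 L ⧸ P) := Ideal.Quotient.field P
  have : Finite (𝓞 L ⧸ P) := Ideal.finiteQuotientOfFreeOfNeBot P hP0
  have : Finite (𝓞 F ⧸ Q) := Ideal.finiteQuotientOfFreeOfNeBot _ hQ0
  have hq1 : 1 < q := by
    rw [hq]
    exact Finite.one_lt_card_iff_nontrivial.mpr (Ideal.Quotient.nontrivial_iff.mpr hQmax.ne_top)
  have hall : ∀ y : 𝓞 L ⧸ P, y ^ q = y := by
    intro y
    obtain ⟨x, rfl⟩ := Ideal.Quotient.mk_surjective y
    rw [← map_pow, eq_comm, Ideal.Quotient.eq]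
    exact hpow x
  have hcard := card_le_of_forall_pow_eq hq1 hall
  have hf' : q ^ P.inertiaDeg (𝓞 F) = Nat.card (𝓞 L ⧸ P) :=
    Ideal.cardQuot_pow_inertiaDeg Q P
  have hpos : 0 < P.inertiaDeg (𝓞 F) := Ideal.inertiaDeg_pos P (𝓞 F)
  by_contra hne
  have h2 : 2 ≤ P.inertiaDeg (𝓞 F) := by omega
  have h3 : q ^ 2 ≤ q ^ P.inertiaDeg (𝓞 F) := Nat.pow_le_pow_right (by omega) h2
  rw [hf'] at h3
  have : q ^ 2 ≤ q := h3.trans hcard
  nlinarith

end Generic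

/-- elements of `H` restrict trivially to the fixed field of `H`. -/
theorem restrictNormalHom_eq_one_of_mem (H : Subgroup (C ≃ₐ[K] C)) [H.Normal]
    (φ : C ≃ₐ[K] C) (hφ : φ ∈ H) :
    AlgEquiv.restrictNormalHom (IntermediateField.fixedField H) φ = 1 := by
  ext y
  have h1 : algebraMap (IntermediateField.fixedField H) C
      ((AlgEquiv.restrictNormalHom (IntermediateField.fixedField H) φ) y) =
      φ (algebraMap (IntermediateField.fixedField H) C y) :=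
    AlgEquiv.restrictNormal_commutes φ (IntermediateField.fixedField H) y
  have h2 := (IntermediateField.mem_fixedField_iff H (y : C)).1 y.2 φ hφ
  change ((AlgEquiv.restrictNormalHom (IntermediateField.fixedField H) φ) y : C) = (y : C)
  exact h1.trans h2

/-- **Core**: for every proper subgroup `H` of `Gal(K(ζ_n)/K)` and every finite set `S0` of ideals
there is a prime `Q ∉ S0` of `K` of degree one, prime to `n`, one of whose Frobenius elements is
not in `H`. -/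
theorem exists_frob_not_mem [IsMulCommutative (C ≃ₐ[K] C)] {n : ℕ} (hn : n ≠ 0) {ζ : C}
    (hζ : IsPrimitiveRoot ζ n) (hgen : ∀ σ : C ≃ₐ[K] C, σ ζ = ζ → σ = 1)
    (H : Subgroup (C ≃ₐ[K] C)) (hH : H ≠ ⊤) (S0 : Finset (Ideal (𝓞 K))) :
    ∃ (Q : Ideal (𝓞 K)) (P : Ideal (𝓞 C)) (φ : C ≃ₐ[K] C), Q.IsPrime ∧ Q ≠ ⊥ ∧ Q ∉ S0 ∧
      (n : 𝓞 K) ∉ Q ∧ (Ideal.absNorm Q).Prime ∧ P.IsPrime ∧ P.under (𝓞 K) = Q ∧
      IsArithFrobAt (𝓞 K) φ P ∧ φ ∉ H := by
  classical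
  by_contra hcon
  push Not at hcon
  have hnormal : H.Normal := ⟨fun a ha g => by
    have : g * a * g⁻¹ = a := by rw [mul_comm' g a, mul_assoc, mul_inv_cancel, mul_one]
    rw [this]; exact ha⟩
  have hdeg : 2 ≤ Module.finrank K (IntermediateField.fixedField H) := by
    by_contra hlt
    have hpos : 0 < Module.finrank K (IntermediateField.fixedField H) := Module.finrank_pos
    have h1 : Module.finrank K (IntermediateField.fixedField H) = 1 := by omega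
    rw [IntermediateField.finrank_eq_one_iff] at h1
    have h2 := IntermediateField.fixingSubgroup_fixedField H
    rw [h1, IntermediateField.fixingSubgroup_bot] at h2
    exact hH h2.symm
  set N0 := Ideal.absNorm (Ideal.span {(n : 𝓞 K)}) with hN0
  have hfin : {I : Ideal (𝓞 K) | Ideal.absNorm I ≤ N0}.Finite :=
    Set.Finite.subset
      (Set.Finite.biUnion (Set.finite_Iic N0) (fun m _ => Ideal.finite_setOfPred_absNorm_eq m))
      (fun I hI => Set.mem_biUnion (Set.mem_Iic.mpr hI) rfl)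
  obtain ⟨Q, hQp, hQ0, hQS, hQn, hns⟩ :=
    ZetaSplitFinal.zetaSplit K (IntermediateField.fixedField H) hdeg (S0 ∪ hfin.toFinset)
  apply hns
  have := hQp
  rw [Finset.mem_union, not_or] at hQS
  -- `n ∉ Q`
  have hnQ : (n : 𝓞 K) ∉ Q := by
    intro hmem
    apply hQS.2
    rw [Set.Finite.mem_toFinset, Set.mem_ofPred_eq]
    have hle : Ideal.span {(n : 𝓞 K)} ≤ Q := by
      rw [Ideal.span_le, Set.singleton_subset_iff]; exact hmem
    have hdvd := Ideal.absNorm_dvd_absNorm_of_le hle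
    have hN0pos : 0 < N0 := by
      rw [hN0, Nat.pos_iff_ne_zero, Ne, Ideal.absNorm_eq_zero_iff, Ideal.span_singleton_eq_bot]
      exact_mod_cast hn
    exact Nat.le_of_dvd hN0pos hdvd
  intro P hP hPQ
  have := hP
  have hPQ' : P.under (𝓞 K) = Q := hPQ.over.symm
  obtain ⟨P', hP', hP'P⟩ := exists_prime_over (K := IntermediateField.fixedField H) (C := C) P
  have := hP'
  have hP'Q : P'.under (𝓞 K) = Q := by
    rw [← hPQ', ← hP'P, Ideal.under_under]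
  have hP'0 : P' ≠ ⊥ := ne_bot_of_under_ne_bot (K := K) P' (by rw [hP'Q]; exact hQ0)
  obtain ⟨φ, hφ⟩ := exists_frobAt (K := K) P' hP'0
  have hφH : φ ∈ H := hcon Q P' φ hQp hQ0 hQS.1 hnQ hQn hP' hP'Q hφ
  constructor
  · -- ramification
    have : P'.LiesOver P := ⟨hP'P.symm⟩
    have h1 : P'.ramificationIdx (𝓞 K) = 1 :=
      ramificationIdx_eq_one hζ hn hgen Q hQ0 hnQ P' hP'Q
    have h2 : P.ramificationIdx (𝓞 K) ∣ P'.ramificationIdx (𝓞 K) :=
      Ideal.ramificationIdx_below_dvd P P'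
    rw [h1] at h2
    exact Nat.dvd_one.1 h2
  · -- residue degree
    have hres := CycloFrob.isArithFrobAt_restrict (L := IntermediateField.fixedField H) φ P' hφ
    rw [restrictNormalHom_eq_one_of_mem H φ hφH, hP'P] at hres
    apply inertiaDeg_eq_one_of_pow Q hQ0 P hPQ'
    intro x
    have := hres x
    rw [hPQ'] at this
    simpa using this

/-! ### The Frobenius elements of good primes generate the Galois group -/

/-- The set of Frobenius elements at primes of `K` outside `S0`, prime to `n`, of degree one. -/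
def goodFrob (K C : Type) [Field K] [NumberField K] [Field C] [NumberField C] [Algebra K C]
    [IsGalois K C] (n : ℕ) (S0 : Finset (Ideal (𝓞 K))) : Set (C ≃ₐ[K] C) :=
  {φ | ∃ (Q : Ideal (𝓞 K)) (P : Ideal (𝓞 C)), Q.IsPrime ∧ Q ≠ ⊥ ∧ Q ∉ S0 ∧
      (n : 𝓞 K) ∉ Q ∧ (Ideal.absNorm Q).Prime ∧ P.IsPrime ∧ P.under (𝓞 K) = Q ∧
      IsArithFrobAt (𝓞 K) φ P}

/-- **(C1)** The Frobenius elements of the good primes generate `Gal(K(ζ_n)/K)`. -/
theorem closure_goodFrob_eq_top [IsMulCommutative (C ≃ₐ[K] C)] {n : ℕ} (hn : n ≠ 0) {ζ : C}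
    (hζ : IsPrimitiveRoot ζ n) (hgen : ∀ σ : C ≃ₐ[K] C, σ ζ = ζ → σ = 1)
    (S0 : Finset (Ideal (𝓞 K))) :
    Subgroup.closure (goodFrob K C n S0) = ⊤ := by
  by_contra h
  obtain ⟨Q, P, φ, h1, h2, h3, h4, h5, h6, h7, h8, hnot⟩ :=
    exists_frob_not_mem hn hζ hgen _ h S0
  exact hnot (Subgroup.subset_closure ⟨Q, P, h1, h2, h3, h4, h5, h6, h7, h8⟩)

/-! ### The `(ZMod n)ˣ` form -/

omit [NumberField K] [NumberField C] [IsGalois K C] in
/-- Exponents of a primitive `n`-th root of unity are determined modulo `n`. -/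
theorem natCast_eq_of_pow_eq {n : ℕ} {ζ : C} (hζ : IsPrimitiveRoot ζ n) (hn : n ≠ 0) {a b : ℕ}
    (h : ζ ^ a = ζ ^ b) : (a : ZMod n) = (b : ZMod n) := by
  have h0 : ζ ≠ 0 := hζ.ne_zero hn
  have h1 : ζ ^ ((b : ℤ) - a) = 1 := by
    rw [zpow_sub₀ h0, zpow_natCast, zpow_natCast, h, div_self (pow_ne_zero _ h0)]
  have h2 := (hζ.zpow_eq_one_iff_dvd _).1 h1
  have := (ZMod.intCast_eq_intCast_iff_dvd_sub (a : ℤ) (b : ℤ) n).2 h2
  simpa using this

/-- the cyclotomic character of a Frobenius at `P ∌ n` is `absNorm (P ∩ 𝓞 K) mod n`. -/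
theorem autToPow_frob {n : ℕ} [NeZero n] {ζ : C} (hζ : IsPrimitiveRoot ζ n)
    (P : Ideal (𝓞 C)) [P.IsPrime] (hnP : (n : 𝓞 C) ∉ P) (φ : C ≃ₐ[K] C)
    (hφ : IsArithFrobAt (𝓞 K) φ P) :
    ((hζ.autToPow K φ : (ZMod n)ˣ) : ZMod n) = (Ideal.absNorm (P.under (𝓞 K)) : ZMod n) := by
  have h1 := CycloFrob.frob_zeta hζ.pow_eq_one P hnP φ hφ
  have h2 := hζ.autToPow_spec K φ
  rw [h1] at h2
  have h3 := natCast_eq_of_pow_eq hζ (NeZero.ne n) h2
  rwa [ZMod.natCast_val, ZMod.cast_id] at h3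

/-- **(C2)** The subgroup of `(ZMod n)ˣ` generated by the norms of the good primes is the image
of the cyclotomic character of `Gal(K(ζ_n)/K)`. -/
theorem closure_absNorm_eq_range [IsMulCommutative (C ≃ₐ[K] C)] {n : ℕ} [NeZero n] {ζ : C}
    (hζ : IsPrimitiveRoot ζ n) (hgen : ∀ σ : C ≃ₐ[K] C, σ ζ = ζ → σ = 1)
    (S0 : Finset (Ideal (𝓞 K))) :
    Subgroup.closure {u : (ZMod n)ˣ | ∃ Q : Ideal (𝓞 K), Q.IsPrime ∧ Q ≠ ⊥ ∧ Q ∉ S0 ∧
      (n : 𝓞 K) ∉ Q ∧ (Ideal.absNorm Q).Prime ∧ (u : ZMod n) = (Ideal.absNorm Q : ZMod n)} =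
      (hζ.autToPow K).range := by
  have hn : n ≠ 0 := NeZero.ne n
  apply le_antisymm
  · rw [Subgroup.closure_le]
    rintro u ⟨Q, hQp, hQ0, -, hnQ, -, hu⟩
    have := hQp
    obtain ⟨P, hP, hPQ⟩ := exists_prime_over (K := K) (C := C) Q
    have := hP
    have hP0 : P ≠ ⊥ := ne_bot_of_under_ne_bot (K := K) P (by rw [hPQ]; exact hQ0)
    obtain ⟨φ, hφ⟩ := exists_frobAt (K := K) P hP0
    refine ⟨φ, Units.ext ?_⟩
    rw [autToPow_frob hζ P (natCast_not_mem_of_under P (by rw [hPQ]; exact hnQ)) φ hφ, hPQ, hu]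
  · rw [MonoidHom.range_eq_map, ← closure_goodFrob_eq_top hn hζ hgen S0, MonoidHom.map_closure]
    apply Subgroup.closure_mono
    rintro _ ⟨φ, ⟨Q, P, hQp, hQ0, hQS, hnQ, hQn, hP, hPQ, hφ⟩, rfl⟩
    have := hP
    refine ⟨Q, hQp, hQ0, hQS, hnQ, hQn, ?_⟩
    rw [autToPow_frob hζ P (natCast_not_mem_of_under P (by rw [hPQ]; exact hnQ)) φ hφ, hPQ]

/-! ### Deriving the hypotheses from `IsCyclotomicExtension` -/

omit [NumberField K] [NumberField C] [IsGalois K C] in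
theorem hgen_of_isCyclotomicExtension {n : ℕ} [NeZero n] [IsCyclotomicExtension {n} K C]
    {ζ : C} (hζ : IsPrimitiveRoot ζ n) (σ : C ≃ₐ[K] C) (h : σ ζ = ζ) : σ = 1 := by
  apply hζ.autToPow_injective K
  apply Units.ext
  have h1 := hζ.autToPow_spec K σ
  have h2 := hζ.autToPow_spec K (1 : C ≃ₐ[K] C)
  rw [h] at h1
  rw [AlgEquiv.one_apply] at h2
  have h3 : ζ ^ ((hζ.autToPow K σ : (ZMod n)ˣ) : ZMod n).val =
      ζ ^ ((hζ.autToPow K (1 : C ≃ₐ[K] C) : (ZMod n)ˣ) : ZMod n).val := h1.trans h2.symm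
  have h4 := natCast_eq_of_pow_eq hζ (NeZero.ne n) h3
  rwa [ZMod.natCast_val, ZMod.cast_id, ZMod.natCast_val, ZMod.cast_id] at h4

omit [NumberField K] [NumberField C] [IsGalois K C] in
theorem isMulCommutative_of_isCyclotomicExtension {n : ℕ} [IsCyclotomicExtension {n} K C] :
    IsMulCommutative (C ≃ₐ[K] C) :=
  IsCyclotomicExtension.isMulCommutative {n} K C

/-! ### A totally inert prime in a cyclic `p`-power cyclotomic layer -/

/-- In a cyclic `p`-group, an element which is not a `p`-th power generates. -/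
theorem zpowers_eq_top_of_not_pow {G : Type*} [Group G] [IsCyclic G] {p : ℕ} [Fact p.Prime]
    (hG : IsPGroup p G) (φ : G) (hφ : ∀ g : G, g ^ p ≠ φ) : Subgroup.zpowers φ = ⊤ := by
  obtain ⟨g, hg⟩ := IsCyclic.exists_generator (α := G)
  obtain ⟨k, hk⟩ := Subgroup.mem_zpowers_iff.1 (hg φ)
  obtain ⟨m, hm⟩ := hG g
  have hp : Prime (p : ℤ) := Nat.prime_iff_prime_int.1 (Fact.out)
  have hndvd : ¬ (p : ℤ) ∣ k := by
    rintro ⟨j, rfl⟩
    apply hφ (g ^ j)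
    rw [← hk, ← zpow_natCast, ← zpow_mul, mul_comm]
  have hcop : IsCoprime k ((p : ℤ) ^ m) :=
    IsCoprime.pow_right ((Prime.coprime_iff_not_dvd hp).2 hndvd).symm
  obtain ⟨a, b, hab⟩ := hcop
  have hgφ : g ∈ Subgroup.zpowers φ := by
    refine Subgroup.mem_zpowers_iff.2 ⟨a, ?_⟩
    have h2 : g ^ ((p : ℤ) ^ m) = 1 := by
      rw [← Nat.cast_pow, zpow_natCast, hm]
    have h1 : g ^ (a * k + b * (p : ℤ) ^ m) = g := by rw [hab, zpow_one]
    rw [zpow_add, mul_comm a k, zpow_mul, hk, mul_comm b, zpow_mul, h2, one_zpow, mul_one] at h1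
    exact h1
  rw [eq_top_iff]
  intro x _
  obtain ⟨j, rfl⟩ := Subgroup.mem_zpowers_iff.1 (hg x)
  exact Subgroup.zpow_mem _ hgφ j

/-- **(C3)** If `Gal(K(ζ_n)/K)` is a nontrivial cyclic `p`-group, there is a prime `Q ∉ S0` of `K`
of degree one, prime to `n`, one of whose Frobenius elements generates the Galois group. -/
theorem exists_frob_zpowers_eq_top [IsCyclic (C ≃ₐ[K] C)] [Nontrivial (C ≃ₐ[K] C)] {p : ℕ}
    [Fact p.Prime] (hG : IsPGroup p (C ≃ₐ[K] C)) {n : ℕ} (hn : n ≠ 0) {ζ : C}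
    (hζ : IsPrimitiveRoot ζ n) (hgen : ∀ σ : C ≃ₐ[K] C, σ ζ = ζ → σ = 1)
    (S0 : Finset (Ideal (𝓞 K))) :
    ∃ (Q : Ideal (𝓞 K)) (P : Ideal (𝓞 C)) (φ : C ≃ₐ[K] C), Q.IsPrime ∧ Q ≠ ⊥ ∧ Q ∉ S0 ∧
      (n : 𝓞 K) ∉ Q ∧ (Ideal.absNorm Q).Prime ∧ P.IsPrime ∧ P.under (𝓞 K) = Q ∧
      IsArithFrobAt (𝓞 K) φ P ∧ Subgroup.zpowers φ = ⊤ := by
  have hpp : p.Prime := Fact.out
  obtain ⟨g, hg⟩ := IsCyclic.exists_generator (α := (C ≃ₐ[K] C))
  -- the subgroup generated by `g ^ p` is proper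
  have hH : Subgroup.zpowers (g ^ p) ≠ ⊤ := by
    intro htop
    have hdvd : p ∣ Nat.card (C ≃ₐ[K] C) := by
      rcases hG.card_eq_or_dvd with h1 | h1
      · exact absurd h1 (Finite.one_lt_card (α := (C ≃ₐ[K] C))).ne'
      · exact h1
    have hgm : g ∈ Subgroup.zpowers (g ^ p) := by rw [htop]; trivial
    obtain ⟨j, hj⟩ := Subgroup.mem_zpowers_iff.1 hgm
    have h1 : g ^ ((p : ℤ) * j - 1) = 1 := by
      rw [zpow_sub, zpow_mul, zpow_natCast, hj, zpow_one, mul_inv_cancel]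
    have h2 : (orderOf g : ℤ) ∣ (p : ℤ) * j - 1 := orderOf_dvd_iff_zpow_eq_one.2 h1
    rw [orderOf_eq_card_of_forall_mem_zpowers hg] at h2
    have h3 : (p : ℤ) ∣ (p : ℤ) * j - 1 := (Int.natCast_dvd_natCast.2 hdvd).trans h2
    have h4 : (p : ℤ) ∣ 1 := by
      have := dvd_sub (Dvd.intro j rfl : (p : ℤ) ∣ (p : ℤ) * j) h3
      simpa using this
    have h5 : p ∣ 1 := Int.natCast_dvd_natCast.1 (by simpa using h4)
    exact hpp.one_lt.ne' (Nat.dvd_one.1 h5)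
  obtain ⟨Q, P, φ, h1, h2, h3, h4, h5, h6, h7, h8, hnot⟩ :=
    exists_frob_not_mem hn hζ hgen _ hH S0
  refine ⟨Q, P, φ, h1, h2, h3, h4, h5, h6, h7, h8, ?_⟩
  apply zpowers_eq_top_of_not_pow hG
  intro x hx
  apply hnot
  obtain ⟨i, rfl⟩ := Subgroup.mem_zpowers_iff.1 (hg x)
  refine Subgroup.mem_zpowers_iff.2 ⟨i, ?_⟩
  rw [← hx, ← zpow_natCast, ← zpow_natCast, ← zpow_mul, ← zpow_mul, mul_comm]

/-- **(C4)** A prime `P ∌ n` of `K(ζ_n)` one of whose Frobenius elements generates the Galois group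
is *totally inert*: its decomposition group is everything, `e = 1`, `f = [K(ζ_n) : K]`, and it is
the only prime over `P ∩ 𝓞 K`. -/
theorem totally_inert {n : ℕ} (hn : n ≠ 0) {ζ : C}
    (hζ : IsPrimitiveRoot ζ n) (hgen : ∀ σ : C ≃ₐ[K] C, σ ζ = ζ → σ = 1)
    (Q : Ideal (𝓞 K)) [Q.IsPrime] (hQ0 : Q ≠ ⊥) (hnQ : (n : 𝓞 K) ∉ Q)
    (P : Ideal (𝓞 C)) [P.IsPrime] (hPQ : P.under (𝓞 K) = Q) (φ : C ≃ₐ[K] C)
    (hφ : IsArithFrobAt (𝓞 K) φ P) (htop : Subgroup.zpowers φ = ⊤) :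
    MulAction.stabilizer (C ≃ₐ[K] C) P = ⊤ ∧ P.ramificationIdx (𝓞 K) = 1 ∧
      P.inertiaDeg (𝓞 K) = Module.finrank K C ∧
      ∀ P' : Ideal (𝓞 C), P'.IsPrime → P'.under (𝓞 K) = Q → P' = P := by
  have hstab : MulAction.stabilizer (C ≃ₐ[K] C) P = ⊤ := by
    rw [eq_top_iff, ← htop, Subgroup.zpowers_le]
    exact hφ.mem_stabilizer
  have hP0 : P ≠ ⊥ := ne_bot_of_under_ne_bot P (by rw [hPQ]; exact hQ0)
  have : P.LiesOver Q := ⟨hPQ.symm⟩
  have : Finite (𝓞 K ⧸ Q) := Ideal.finiteQuotientOfFreeOfNeBot _ hQ0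
  have hbot : Ideal.inertia (C ≃ₐ[K] C) P = ⊥ := by
    rw [_root_.eq_bot_iff]
    intro σ hσ
    exact Subgroup.mem_bot.mpr (eq_one_of_mem_inertia hζ hn hgen P hP0
      (natCast_not_mem_of_under P (by rw [hPQ]; exact hnQ)) σ hσ)
  refine ⟨hstab, ramificationIdx_eq_one hζ hn hgen Q hQ0 hnQ P hPQ, ?_, ?_⟩
  · have h1 := Ideal.card_stabilizer_eq_card_inertia_mul_finrank (G := C ≃ₐ[K] C) Q P
    rw [hstab, hbot, Subgroup.card_bot, one_mul, Subgroup.card_top,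
      IsGalois.card_aut_eq_finrank] at h1
    exact h1.symm
  · intro P' hP' hP'Q
    obtain ⟨g, hg⟩ := Algebra.IsInvariant.exists_smul_of_under_eq (𝓞 K) (𝓞 C) (C ≃ₐ[K] C) P P'
      (by rw [hPQ, hP'Q])
    have hgs : g ∈ MulAction.stabilizer (C ≃ₐ[K] C) P := by rw [hstab]; trivial
    rw [hg, MulAction.mem_stabilizer_iff.1 hgs]

/-- **(C2) for cyclotomic extensions.** -/
theorem closure_absNorm_eq_range_of_isCyclotomicExtension {n : ℕ} [NeZero n]
    [IsCyclotomicExtension {n} K C] {ζ : C} (hζ : IsPrimitiveRoot ζ n)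
    (S0 : Finset (Ideal (𝓞 K))) :
    Subgroup.closure {u : (ZMod n)ˣ | ∃ Q : Ideal (𝓞 K), Q.IsPrime ∧ Q ≠ ⊥ ∧ Q ∉ S0 ∧
      (n : 𝓞 K) ∉ Q ∧ (Ideal.absNorm Q).Prime ∧ (u : ZMod n) = (Ideal.absNorm Q : ZMod n)} =
      (hζ.autToPow K).range := by
  have := isMulCommutative_of_isCyclotomicExtension (K := K) (C := C) (n := n)
  exact closure_absNorm_eq_range hζ (hgen_of_isCyclotomicExtension hζ) S0

/-- **(C3)+(C4) for cyclotomic extensions**: if `Gal(K(ζ_n)/K)` is a nontrivial cyclic `p`-group,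
there is a degree-one prime `Q ∉ S0` of `K`, prime to `n`, which is totally inert in `K(ζ_n)`. -/
theorem exists_totally_inert {n : ℕ} [NeZero n] [IsCyclotomicExtension {n} K C]
    [IsCyclic (C ≃ₐ[K] C)] [Nontrivial (C ≃ₐ[K] C)] {p : ℕ} [Fact p.Prime]
    (hG : IsPGroup p (C ≃ₐ[K] C)) (S0 : Finset (Ideal (𝓞 K))) :
    ∃ (Q : Ideal (𝓞 K)) (P : Ideal (𝓞 C)), Q.IsPrime ∧ Q ≠ ⊥ ∧ Q ∉ S0 ∧
      (n : 𝓞 K) ∉ Q ∧ (Ideal.absNorm Q).Prime ∧ P.IsPrime ∧ P.under (𝓞 K) = Q ∧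
      MulAction.stabilizer (C ≃ₐ[K] C) P = ⊤ ∧ P.ramificationIdx (𝓞 K) = 1 ∧
      P.inertiaDeg (𝓞 K) = Module.finrank K C ∧
      ∀ P' : Ideal (𝓞 C), P'.IsPrime → P'.under (𝓞 K) = Q → P' = P := by
  obtain ⟨ζ, hζ⟩ := IsCyclotomicExtension.exists_isPrimitiveRoot K C (Set.mem_singleton n)
    (NeZero.ne n)
  have hgen := hgen_of_isCyclotomicExtension (K := K) hζ
  obtain ⟨Q, P, φ, h1, h2, h3, h4, h5, h6, h7, h8, h9⟩ :=
    exists_frob_zpowers_eq_top hG (NeZero.ne n) hζ hgen S0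
  have := h1
  have := h6
  obtain ⟨k1, k2, k3, k4⟩ := totally_inert (NeZero.ne n) hζ hgen Q h2 h4 P h7 φ h8 h9
  exact ⟨Q, P, h1, h2, h3, h4, h5, h6, h7, k1, k2, k3, k4⟩

end Fermat.Agent.S55.Global.CycloImage
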