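/-
S55 / Global / row 152 (G.h2cyclic), piece (a) = (E3) of helper77 #2058 (helper29).

`H²(Gal(F/K), J_{F,T}) → H²(Gal(F/K), C_{F,T})` is ONTO for a cyclic layer `F/K` and `T` admissible:
every class of `H²(C)` is `cycClass σ a` with `a ∈ C^G` (`Local/CyclicCocycle.cycClass_surjective`);
`a` lifts to `j ∈ J^G` because `H¹(G, E_{F,T}) = 0` (`DescentUnits.h1Vanishes_En` +
`Descent.surjective_map_invariants` on `Objects5.sesn_shortExact`); `cycClass` is natural.
-/
import Fermat.Agent.S55.Global.Objects5
import Fermat.Agent.S55.Global.Blocks2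
import Fermat.Agent.S55.Global.Descent
import Fermat.Agent.S55.Global.DescentUnits
import Fermat.Agent.S55.Local.CyclicCocycle

set_option autoImplicit false
set_option linter.unusedSectionVars false

open NumberField IsDedekindDomain TensorProduct CategoryTheory

namespace Fermat.Agent.S55.Global.CycloJSurj

open Fermat.Agent.S55.Global.Objects Fermat.Agent.S55.Global.Objects2
  Fermat.Agent.S55.Global.Blocks2 Fermat.Agent.S55.Global.Objects5
open Fermat.Agent.S55.Local.CyclicCocycle
open groupCohomology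

section abstract

variable {G : Type} [Group G] [Finite G]

/-- For a finite cyclic group and a short exact sequence `0 → E → J → C → 0` of `G`-modules with
`H¹(G, E) = 0`, the map `H²(G, J) → H²(G, C)` is onto. -/
theorem map_two_surjective_of_cyclic (hcyc : IsCyclic G) {X : ShortComplex (Rep ℤ G)}
    (hX : X.ShortExact) (h1 : Descent.H1Vanishes X.X₁ (⊤ : Subgroup G)) :
    Function.Surjective (groupCohomology.map (MonoidHom.id G) X.g 2).hom := by
  obtain ⟨σ, hσ⟩ := hcyc.exists_generator
  have hn : 0 < orderOf σ := orderOf_pos σ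
  have hgen : ∀ g : G, ∃ i : ℕ, σ ^ i = g := fun g => exists_pow_eq_of_zpowers hσ g
  intro y
  obtain ⟨a, rfl⟩ := cycClass_surjective (A := X.X₃) hn hgen y
  -- lift the invariant `a` to an invariant of `J`
  have hsurj := Descent.surjective_map_invariants (⊤ : Subgroup G) hX h1
  obtain ⟨j, hj⟩ := hsurj ⟨a.1, fun s => a.2 s⟩
  have hj' : X.g.hom j.1 = a.1 := congrArg Subtype.val hj
  have hjinv : ∀ g : G, X.X₂.ρ g j.1 = j.1 := fun g => j.2 ⟨g, Subgroup.mem_top g⟩
  refine ⟨cycClass hn hgen ⟨j.1, hjinv⟩, ?_⟩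
  rw [map_cycClass_of_mul_eq hn hgen hn hgen (MonoidHom.id G) X.g (d := 1)
    (by rw [pow_one]; rfl) (one_mul _) ⟨j.1, hjinv⟩]
  congr 1
  exact Subtype.ext hj'

end abstract

section cyclo

variable {p : ℕ}
variable (K F : Type) [Field K] [NumberField K] [Field F] [NumberField F] [Algebra K F]
  [IsGalois K F]

/-- **(E3)** `H²(J_{F,T}) → H²(C_{F,T})` is onto for cyclic layers `F/K`, `T` admissible. -/
theorem jToC_surjective (hcyc : IsCyclic (F ≃ₐ[K] F)) (T : Finset Nat.Primes)
    (hadm : AdmissibleQ K F p T) :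
    Function.Surjective
      (groupCohomology.map (A := Jn K F T) (B := Cn K F T) (MonoidHom.id (F ≃ₐ[K] F))
        (Objects5.JnToCn K F T) 2).hom :=
  map_two_surjective_of_cyclic hcyc (sesn_shortExact K F T)
    (DescentUnits.h1Vanishes_En K F hadm ⊤)

end cyclo

end Fermat.Agent.S55.Global.CycloJSurj
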