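import Mathlib
import Fermat.Agent.S55.Global.Blocks4
import Fermat.Agent.S55.Tate.DeltaMap
import Fermat.Agent.S55.Tate.LES

/-!
# S55 / Global, row `G.cycloKills`: `Blocks4.CycloGen p → Blocks4.CycloKillsH3 p`

For a tower `K ⊆ L ⊆ M` (`L/K` Galois) the transition morphisms `transEn`, `transJn`, `transCn`
form a morphism of short exact sequences
`Res (0 → En K L T → Jn K L T → Cn K L T → 0) ⟶ (0 → En K M T → Jn K M T → Cn K M T → 0)`,
so the connecting maps commute with inflation (`δ_inflCn`).  A class `y ∈ H³(E_{L,T})` dying in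
`H³(J_{L,T})` is `δ c`; if `infl c` comes from `H²(J_{M,T})` (this is `CycloGen`), then
`infl y = δ (infl c) = 0`.
-/

set_option autoImplicit false
set_option linter.unusedSectionVars false

namespace Fermat.Agent.S55.Global.CycloKillsH3

open NumberField IsDedekindDomain TensorProduct CategoryTheory
open Fermat.Agent.S55.Global.Objects Fermat.Agent.S55.Global.Objects2
  Fermat.Agent.S55.Global.Objects5 Fermat.Agent.S55.Global.Blocks2
  Fermat.Agent.S55.Global.TransitionQ Fermat.Agent.S55.Global.Blocks4

section Tower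

variable (K : Type) [Field K] [NumberField K]
variable (L : Type) [Field L] [NumberField L] [Algebra K L]
variable (M : Type) [Field M] [NumberField M] [Algebra K M] [Algebra L M] [IsScalarTower K L M]
variable [Normal K L] (T : Finset Nat.Primes)

/-- The transition morphisms as a morphism of short complexes. -/
noncomputable def transSes :
    (sesn K L T).map (Rep.resFunctor (rnHom K L M)) ⟶ sesn K M T where
  τ₁ := transEn K L M T
  τ₂ := transJn K L M T
  τ₃ := transCn K L M T
  comm₁₂ := (transEn_comp K L M T).symm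
  comm₂₃ := (transJn_comp K L M T).symm

/-- **The connecting maps commute with inflation.** -/
theorem δ_infl (i j : ℕ) (hij : i + 1 = j) :
    groupCohomology.δ (sesn_shortExact K L T) i j hij ≫ inflEn K L M T j =
      inflCn K L M T i ≫ groupCohomology.δ (sesn_shortExact K M T) i j hij :=
  Fermat.Agent.S55.Tate.DeltaMap.δ_map (rnHom K L M) (sesn_shortExact K L T)
    (sesn_shortExact K M T) (transSes K L M T) i j hij

/-- Element form. -/
theorem δ_infl_apply (i : ℕ) (c : groupCohomology (Cn K L T) i) :
    (inflEn K L M T (i + 1)).hom (groupCohomology.δ (sesn_shortExact K L T) i (i + 1) rfl c) =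
      groupCohomology.δ (sesn_shortExact K M T) i (i + 1) rfl ((inflCn K L M T i).hom c) :=
  congrArg (fun f => f.hom c) (δ_infl K L M T i (i + 1) rfl)

/-- The key step: if `EnToJn y = 0` and the inflation of every class of `H²(C_{L,T})` comes from
`H²(J_{M,T})`, then `infl y = 0`. -/
theorem inflEn_eq_zero
    (hgen : ∀ c : groupCohomology (Cn K L T) 2, ∃ j : groupCohomology (Jn K M T) 2,
      (groupCohomology.map (MonoidHom.id _) (JnToCn K M T) 2).hom j = (inflCn K L M T 2).hom c)
    (y : groupCohomology (En K L T) 3)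
    (hy : (groupCohomology.map (MonoidHom.id _) (EnToJn K L T) 3).hom y = 0) :
    (inflEn K L M T 3).hom y = 0 := by
  obtain ⟨c, rfl⟩ := Fermat.Agent.S55.Tate.LES.exists_δ_eq (sesn_shortExact K L T) 2 y hy
  obtain ⟨j, hj⟩ := hgen c
  rw [δ_infl_apply K L M T 2 c, ← hj]
  exact Fermat.Agent.S55.Tate.LES.δ_map_g (sesn_shortExact K M T) 2 j

end Tower

/-- **`G.cycloKills`**: `CycloGen p → CycloKillsH3 p`. -/
theorem cycloKillsH3 {p : ℕ} (h : CycloGen p) : CycloKillsH3 p := by
  intro K L F M _ _ _ _ _ _ _ _ _ _ _ _ _ _ _ _ _ T hS y hy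
  exact inflEn_eq_zero K L M T (h K L F M T hS) y hy

end Fermat.Agent.S55.Global.CycloKillsH3
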