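/-
S55 / GLOBAL block, input of row `G.h2cyclic` (and of Middle's cyclotomic tower) (helper77).
Mathlib only.

EXISTENCE of the cyclotomic `p`-power layers of a number field, as honest types:

* `isCyclic_gal` : `Gal(K(ζ_{p^k})/K)` is cyclic (`p` odd; any field `K`).
* `totient_dvd_finrank_rat` : `φ(n) ∣ [K(ζ_n) : ℚ]`.
* `pow_dvd_finrank` : `p^m ∣ [K(ζ_{p^k}) : K]` for `k = m + 1 + v_p([K : ℚ])`.
* `exists_cyclic_layer` : for every `m` there are `k` and `F ≤ K(ζ_{p^k})`, Galois over `K` with
  cyclic group, `[F : K] = p^m`.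
* `exists_cyclic_tower` : the same for all `m ≤ M` simultaneously, NESTED inside one `K(ζ_{p^k})`,
  with `F 0 = ⊥`.
(`↥F` carries `Field`, `NumberField`, `Algebra K ↥F` by Mathlib instances.)
-/
import Mathlib

set_option autoImplicit false

open Polynomial IntermediateField

namespace Fermat.Agent.S55.Global.CycloLayer

/-! ### group theory: subgroups of prescribed index in a finite cyclic group -/

theorem index_zpowers_pow {G : Type*} [Group G] [Finite G] {g : G}
    (hg : ∀ x : G, x ∈ Subgroup.zpowers g) {d : ℕ} (hd : d ∣ Nat.card G) :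
    (Subgroup.zpowers (g ^ d)).index = d := by
  have hord : orderOf g = Nat.card G := orderOf_eq_card_of_forall_mem_zpowers hg
  have hn : 0 < Nat.card G := Nat.card_pos
  have hd0 : d ≠ 0 := by
    rintro rfl
    rw [zero_dvd_iff] at hd
    omega
  have hcard : Nat.card (Subgroup.zpowers (g ^ d)) = Nat.card G / d := by
    rw [Nat.card_zpowers, orderOf_pow' g hd0, hord, Nat.gcd_eq_right hd]
  have h := Subgroup.card_mul_index (Subgroup.zpowers (g ^ d))
  rw [hcard] at h
  obtain ⟨e, he⟩ := hd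
  have he0 : 0 < e := by
    rcases Nat.eq_zero_or_pos e with rfl | h'
    · rw [mul_zero] at he; omega
    · exact h'
  rw [he, Nat.mul_div_cancel_left _ (Nat.pos_of_ne_zero hd0)] at h
  exact Nat.eq_of_mul_eq_mul_left he0 (by rw [h, mul_comm])

theorem exists_subgroup_index_eq {G : Type*} [Group G] [Finite G] [IsCyclic G] {d : ℕ}
    (hd : d ∣ Nat.card G) : ∃ H : Subgroup G, H.index = d := by
  obtain ⟨g, hg⟩ := IsCyclic.exists_generator (α := G)
  exact ⟨_, index_zpowers_pow hg hd⟩

/-! ### the Galois group of `K(ζ_{p^k})/K` is cyclic for odd `p` -/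

theorem isCyclic_gal {p : ℕ} (hp : p.Prime) (hp2 : p ≠ 2) (k : ℕ) (K C : Type*) [Field K]
    [Field C] [Algebra K C] [IsCyclotomicExtension {p ^ k} K C] : IsCyclic (C ≃ₐ[K] C) := by
  have : NeZero (p ^ k) := ⟨pow_ne_zero _ hp.ne_zero⟩
  obtain ⟨ζ, hζ⟩ := IsCyclotomicExtension.exists_isPrimitiveRoot K C
    (Set.mem_singleton (p ^ k)) (NeZero.ne _)
  have := ZMod.isCyclic_units_of_prime_pow p hp hp2 k
  exact isCyclic_of_injective (hζ.autToPow K) (hζ.autToPow_injective K)

/-! ### the degree of `K(ζ_n)/K` -/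

/-- `φ(n)` divides `[K(ζ_n) : ℚ]`. -/
theorem totient_dvd_finrank_rat {n : ℕ} [NeZero n] (K C : Type*) [Field K] [Field C]
    [CharZero K] [Algebra K C] [IsCyclotomicExtension {n} K C] [CharZero C] :
    n.totient ∣ Module.finrank ℚ C := by
  obtain ⟨ζ, hζ⟩ := IsCyclotomicExtension.exists_isPrimitiveRoot K C
    (Set.mem_singleton n) (NeZero.ne _)
  have hint : IsIntegral ℚ ζ := (hζ.isIntegral (NeZero.pos n)).tower_top
  have h1 : Module.finrank ℚ ℚ⟮ζ⟯ = n.totient := by
    rw [IntermediateField.adjoin.finrank hint, ← cyclotomic_eq_minpoly_rat hζ (NeZero.pos n),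
      natDegree_cyclotomic]
  rw [← h1]
  exact ⟨_, (Module.finrank_mul_finrank ℚ ℚ⟮ζ⟯ C).symm⟩


/-- `p ^ m ∣ [K(ζ_{p^k}) : K]` for `k = m + 1 + v_p([K : ℚ])`. -/
theorem pow_dvd_finrank {p : ℕ} (hp : p.Prime) (K : Type*) [Field K] [NumberField K] (m : ℕ)
    (C : Type*) [Field C] [Algebra K C] [CharZero C]
    [IsCyclotomicExtension {p ^ (m + 1 + padicValNat p (Module.finrank ℚ K))} K C] :
    p ^ m ∣ Module.finrank K C := by
  have : Fact p.Prime := ⟨hp⟩
  set v := padicValNat p (Module.finrank ℚ K) with hv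
  have : NeZero (p ^ (m + 1 + v)) := ⟨pow_ne_zero _ hp.ne_zero⟩
  have hfd : FiniteDimensional K C :=
    IsCyclotomicExtension.finiteDimensional {p ^ (m + 1 + v)} K C
  have h1 : (p ^ (m + 1 + v)).totient ∣ Module.finrank ℚ C := totient_dvd_finrank_rat K C
  rw [Nat.totient_prime_pow hp (by omega : 0 < m + 1 + v),
    ← Module.finrank_mul_finrank ℚ K C] at h1
  have h2 : p ^ (m + v) ∣ Module.finrank ℚ K * Module.finrank K C := by
    refine dvd_trans ?_ h1
    rw [show m + 1 + v - 1 = m + v by omega]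
    exact dvd_mul_right _ _
  have hd0 : Module.finrank ℚ K ≠ 0 := Module.finrank_pos.ne'
  have hc0 : Module.finrank K C ≠ 0 := Module.finrank_pos.ne'
  rw [padicValNat_dvd_iff_le (mul_ne_zero hd0 hc0), padicValNat.mul hd0 hc0] at h2
  rw [padicValNat_dvd_iff_le hc0]
  omega

/-! ### the cyclotomic layers -/

/-- **Existence of the cyclotomic `p`-power layers.**  For an odd prime `p`, a number field `K` and
`m : ℕ` there is `k` and an intermediate field `F` of `K(ζ_{p^k})/K`, Galois over `K` with cyclic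
Galois group, of degree exactly `p ^ m`. -/
theorem exists_cyclic_layer (p : ℕ) [hp : Fact p.Prime] (hp2 : p ≠ 2) (K : Type) [Field K]
    [NumberField K] (m : ℕ) :
    ∃ (k : ℕ) (F : IntermediateField K (CyclotomicField (p ^ k) K)),
      IsGalois K F ∧ Module.finrank K F = p ^ m ∧ IsCyclic (F ≃ₐ[K] F) := by
  set k := m + 1 + padicValNat p (Module.finrank ℚ K) with hk
  have : NeZero (p ^ k) := ⟨pow_ne_zero _ hp.out.ne_zero⟩
  have hgal : IsGalois K (CyclotomicField (p ^ k) K) :=
    IsCyclotomicExtension.isGalois {p ^ k} K _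
  have hfd : FiniteDimensional K (CyclotomicField (p ^ k) K) :=
    IsCyclotomicExtension.finiteDimensional {p ^ k} K _
  have hcyc : IsCyclic (CyclotomicField (p ^ k) K ≃ₐ[K] CyclotomicField (p ^ k) K) :=
    isCyclic_gal hp.out hp2 k K _
  have hdvd : p ^ m ∣ Nat.card (CyclotomicField (p ^ k) K ≃ₐ[K] CyclotomicField (p ^ k) K) := by
    rw [IsGalois.card_aut_eq_finrank]
    exact pow_dvd_finrank hp.out K m _
  obtain ⟨H, hH⟩ := exists_subgroup_index_eq hdvd
  have hcomm : ∀ a b : CyclotomicField (p ^ k) K ≃ₐ[K] CyclotomicField (p ^ k) K,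
      a * b = b * a := by
    let := IsCyclic.commGroup (α := CyclotomicField (p ^ k) K ≃ₐ[K] CyclotomicField (p ^ k) K)
    exact fun a b => mul_comm a b
  have hN : H.Normal := ⟨fun n hn g => by rw [hcomm g n, mul_inv_cancel_right]; exact hn⟩
  refine ⟨k, fixedField H, inferInstance, ?_, ?_⟩
  · rw [IntermediateField.finrank_eq_fixingSubgroup_index, fixingSubgroup_fixedField, hH]
  · have hq : IsCyclic ((CyclotomicField (p ^ k) K ≃ₐ[K] CyclotomicField (p ^ k) K) ⧸ H) :=
      isCyclic_of_surjective (QuotientGroup.mk' H) (QuotientGroup.mk'_surjective H)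
    exact isCyclic_of_surjective (IsGalois.normalAutEquivQuotient H)
      (IsGalois.normalAutEquivQuotient H).surjective


/-- **The cyclotomic `p`-tower up to level `M`**, inside one cyclotomic field `K(ζ_{p^k})`: nested
intermediate fields `F 0 ≤ F 1 ≤ … ≤ F M`, each Galois over `K` with cyclic group, `[F m : K] = p^m`. -/
theorem exists_cyclic_tower (p : ℕ) [hp : Fact p.Prime] (hp2 : p ≠ 2) (K : Type) [Field K]
    [NumberField K] (M : ℕ) :
    ∃ (k : ℕ) (F : ℕ → IntermediateField K (CyclotomicField (p ^ k) K)),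
      (∀ m, m ≤ M → IsGalois K (F m) ∧ Module.finrank K (F m) = p ^ m ∧
        IsCyclic (F m ≃ₐ[K] F m)) ∧
      (∀ m m', m ≤ m' → F m ≤ F m') ∧ F 0 = ⊥ := by
  set k := M + 1 + padicValNat p (Module.finrank ℚ K) with hk
  have : NeZero (p ^ k) := ⟨pow_ne_zero _ hp.out.ne_zero⟩
  have hgal : IsGalois K (CyclotomicField (p ^ k) K) :=
    IsCyclotomicExtension.isGalois {p ^ k} K _
  have hfd : FiniteDimensional K (CyclotomicField (p ^ k) K) :=
    IsCyclotomicExtension.finiteDimensional {p ^ k} K _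
  have hcyc : IsCyclic (CyclotomicField (p ^ k) K ≃ₐ[K] CyclotomicField (p ^ k) K) :=
    isCyclic_gal hp.out hp2 k K _
  have hdvd : p ^ M ∣ Nat.card (CyclotomicField (p ^ k) K ≃ₐ[K] CyclotomicField (p ^ k) K) := by
    rw [IsGalois.card_aut_eq_finrank]
    exact pow_dvd_finrank hp.out K M _
  obtain ⟨g, hg⟩ := IsCyclic.exists_generator
    (α := CyclotomicField (p ^ k) K ≃ₐ[K] CyclotomicField (p ^ k) K)
  have hcomm : ∀ a b : CyclotomicField (p ^ k) K ≃ₐ[K] CyclotomicField (p ^ k) K,
      a * b = b * a := by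
    let := IsCyclic.commGroup (α := CyclotomicField (p ^ k) K ≃ₐ[K] CyclotomicField (p ^ k) K)
    exact fun a b => mul_comm a b
  have hN : ∀ H : Subgroup (CyclotomicField (p ^ k) K ≃ₐ[K] CyclotomicField (p ^ k) K),
      H.Normal := fun H => ⟨fun n hn g => by rw [hcomm g n, mul_inv_cancel_right]; exact hn⟩
  refine ⟨k, fun m => fixedField (Subgroup.zpowers (g ^ p ^ m)), ?_, ?_, ?_⟩
  · intro m hm
    have hN' := hN (Subgroup.zpowers (g ^ p ^ m))
    refine ⟨inferInstance, ?_, ?_⟩
    · rw [IntermediateField.finrank_eq_fixingSubgroup_index, fixingSubgroup_fixedField,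
        index_zpowers_pow hg ((pow_dvd_pow p hm).trans hdvd)]
    · have hq : IsCyclic ((CyclotomicField (p ^ k) K ≃ₐ[K] CyclotomicField (p ^ k) K) ⧸
          Subgroup.zpowers (g ^ p ^ m)) :=
        isCyclic_of_surjective (QuotientGroup.mk' _) (QuotientGroup.mk'_surjective _)
      exact isCyclic_of_surjective (IsGalois.normalAutEquivQuotient _)
        (IsGalois.normalAutEquivQuotient (Subgroup.zpowers (g ^ p ^ m))).surjective
  · intro m m' hmm'
    apply IntermediateField.fixedField_antitone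
    rw [Subgroup.zpowers_le]
    obtain ⟨e, rfl⟩ := Nat.exists_eq_add_of_le hmm'
    have h : p ^ (m + e) = p ^ m * p ^ e := pow_add p m e
    rw [h, pow_mul]
    exact Subgroup.pow_mem _ (Subgroup.mem_zpowers _) _
  · show fixedField (Subgroup.zpowers (g ^ p ^ 0)) = ⊥
    have h : p ^ 0 = 1 := pow_zero p
    rw [h, pow_one]
    have htop : Subgroup.zpowers g = ⊤ := (Subgroup.eq_top_iff' _).mpr hg
    rw [htop]
    exact IsGalois.fixedField_top

example (K C : Type) [Field K] [NumberField K] [Field C] [NumberField C] [Algebra K C]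
    (F : IntermediateField K C) : NumberField F := inferInstance

end Fermat.Agent.S55.Global.CycloLayer
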