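/-
S55 / GLOBAL block, row G.cycloArtin / G.h2cyclic input (E1) (helper61): for a cyclic layer `F/K`
of a `p`-power cyclotomic extension, `H²(Gal(F/K), C_{F,T})` is cyclic of order `[F:K]`.

Assembly of: helper96's `Bridge2Surj` (`X = ker(σ-1)/Nm`, `δ : Kˣ →* X`), helper84's
`CyclicLayerInstQ.card_H2_eq_h0`, helper53's `cycClass`, the abstract cyclotomic Artin map
(`CycloArtinQ.exists_artin_equiv_Q`), the dévissage bound `Blocks2.H2CardDvd p` (hypothesis) and the
model-free kernel core `DecompProp p` (hypothesis; = helper2's `CycloM2Core.exists_decomp`).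
-/
import Fermat.Agent.S55.Global.CycloArtinQ
import Fermat.Agent.S55.Global.Bridge2Surj
import Fermat.Agent.S55.Global.Bridge2Inputs
import Fermat.Agent.S55.Global.CyclicLayerInstQ
import Fermat.Agent.S55.Local.CyclicCocycle
import Fermat.Agent.S14.NormSurjGlue

set_option autoImplicit false
set_option linter.unusedSectionVars false
set_option linter.style.haveILetI false
set_option linter.dupNamespace false

open NumberField IsDedekindDomain TensorProduct

namespace Fermat.Agent.S55.Global.CycloLayerH2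

open Fermat.Agent.S55.Global.Objects Fermat.Agent.S55.Global.Objects2
  Fermat.Agent.S55.Global.Blocks2 Fermat.Agent.S55.Global.Bridge2Units
  Fermat.Agent.S55.Global.Bridge2Surj Fermat.Agent.S55.Global.CycloArtinIdeal
  Fermat.Agent.S55.Global.CycloArtinAbs Fermat.Agent.S55.Global.CycloArtinQ

noncomputable section

section approx

variable {K : Type} [Field K] [NumberField K] {T : Finset Nat.Primes}

/-- Iterated `ApproxPow`: `(K ⊗ ℚ_T)ˣ = Kˣ · ((K ⊗ ℚ_T)ˣ)^(p^m)`. -/
theorem approxPow_pow (p : ℕ) (hp : p ≠ 0) (m : ℕ) (y : JU K (QT T)) :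
    ∃ (a : Kˣ) (z : JU K (QT T)), y = inclUnits ℚ K (QT T) a * z ^ (p ^ m) := by
  induction m generalizing y with
  | zero => exact ⟨1, y, by rw [map_one, one_mul, pow_zero, pow_one]⟩
  | succ m ih =>
    obtain ⟨a, z, hz⟩ := ih y
    obtain ⟨a', z', hz'⟩ := Bridge2Inputs.approxPow_JU (K := K) (T := T) p hp z
    refine ⟨a * a' ^ (p ^ m), z', ?_⟩
    rw [hz, hz', mul_pow, map_mul, map_pow, ← pow_mul, mul_assoc, pow_succ, mul_comm p]

end approx

section kernel

variable {K : Type} [Field K] [NumberField K] {L : Type} [Field L] [NumberField L] [Algebra K L]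
variable {T : Finset Nat.Primes}

/-- The Galois norm of a unit of `L ⊗ ℚ_T` is Galois-fixed. -/
theorem smul_prod_smul [Fintype (L ≃ₐ[K] L)] (τ : L ≃ₐ[K] L) (y : JU L (QT T)) :
    resHom K L τ • (∏ τ' : L ≃ₐ[K] L, resHom K L τ' • y) =
      ∏ τ' : L ≃ₐ[K] L, resHom K L τ' • y := by
  rw [Finset.smul_prod']
  have h : ∀ τ' : L ≃ₐ[K] L, resHom K L τ • resHom K L τ' • y = resHom K L (τ * τ') • y := by
    intro τ'
    rw [map_mul, mul_smul]
  rw [Finset.prod_congr rfl (fun τ' _ => h τ')]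
  exact Equiv.prod_comp (Equiv.mulLeft τ) (fun τ' => resHom K L τ' • y)

/-- **Kernel glue**: if `δ a = 1` then `a ⊗ 1 = (ε ⊗ 1) · N(y)` with `ε` a `T`-unit OF `K`. -/
theorem exists_tunit_norm_of_delta_eq_one [IsGalois K L] [Fintype (L ≃ₐ[K] L)] (hT : T.Nonempty)
    (σ : L ≃ₐ[K] L) (a : Kˣ) (h : delta K L T σ a = 1) :
    ∃ (ε : Kˣ) (y : JU L (QT T)), ε ∈ EUnitsQ K T ∧
      inclUnits ℚ L (QT T) (Units.map ((algebraMap K L : K →+* L) : K →* L) a) =
        inclUnits ℚ L (QT T) (Units.map ((algebraMap K L : K →+* L) : K →* L) ε) *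
          ∏ τ : L ≃ₐ[K] L, resHom K L τ • y := by
  rw [delta_eq_one_iff] at h
  obtain ⟨c, hc⟩ := h
  obtain ⟨y, rfl⟩ := exists_unit_lift c
  rw [normC_JQtoCQ, deltaC_apply] at hc
  set A := inclUnits ℚ L (QT T) (Units.map ((algebraMap K L : K →+* L) : K →* L) a) with hA
  set N := ∏ τ : L ≃ₐ[K] L, resHom K L τ • y with hN
  have h0 : (JQtoCQ L T).hom (ofUnit L T (Additive.ofMul (A / N))) = 0 := by
    rw [ofMul_div, map_sub, map_sub, hc, sub_self]
  rw [JQtoCQ_eq_zero_iff, ofUnit_mem_ESubQ_iff] at h0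
  obtain ⟨e, he, hee⟩ := h0
  have hinj := DescentUnits.inclUnits_injective L (T := T) hT
  -- `e` is Galois-fixed
  have hfix : ∀ τ : L ≃ₐ[K] L, τ • e = e := by
    intro τ
    apply hinj
    rw [← Bridge2Inputs.resHom_smul_unit, ← smul_inclUnits, hee, smul_div', hA,
      smul_inclUnits_map, hN, smul_prod_smul]
  have hmem : (e : L) ∈ Set.range (algebraMap K L) := by
    rw [IsGalois.mem_range_algebraMap_iff_fixed]
    intro τ
    have := congrArg Units.val (hfix τ)
    exact this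
  obtain ⟨x, hx⟩ := hmem
  have hx0 : x ≠ 0 := by
    rintro rfl
    rw [map_zero] at hx
    exact e.ne_zero hx.symm
  have hmap : Units.map ((algebraMap K L : K →+* L) : K →* L) (Units.mk0 x hx0) = e := by
    apply Units.ext
    exact hx
  refine ⟨Units.mk0 x hx0, y, ?_, ?_⟩
  · rw [← DescentUnits.map_mem_EUnitsQ_iff K L T, hmap]
    exact he
  · rw [hmap, hee, div_mul_cancel]

end kernel

section main

/-- The model-free core of the kernel computation (= helper2's `CycloM2Core.exists_decomp`), as a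
closed Prop: if `a ⊗ 1 = (ε ⊗ 1) · N_{L/K}(y)` in `(L ⊗ ℚ_T)ˣ` then `a = ε · N_{L/K}(b) · u` with
`u ≡ 1 mod p^k` at the primes over `p` and a unit at all primes over `T`. -/
def DecompProp (p : ℕ) : Prop :=
  ∀ (K L : Type) [Field K] [NumberField K] [Field L] [NumberField L] [Algebra K L] [IsGalois K L]
    [Fintype (L ≃ₐ[K] L)] (T : Finset Nat.Primes) (k : ℕ),
    (∃ q ∈ T, ((q : Nat.Primes) : ℕ) = p) → ∀ (a ε : Kˣ) (y : JU L (QT T)),
      inclUnits ℚ L (QT T) (Units.map ((algebraMap K L : K →+* L) : K →* L) a) =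
        inclUnits ℚ L (QT T) (Units.map ((algebraMap K L : K →+* L) : K →* L) ε) *
          ∏ τ : L ≃ₐ[K] L, resHom K L τ • y →
      ∃ (b : Lˣ) (u : Kˣ), (a : K) = ε * Algebra.norm K (b : L) * u ∧
        IsOneModAt K p k (u : K) ∧ ∀ v ∈ placesAboveQ K T, v.valuation K (u : K) = 1

/-- **(E1)** of row 152: for a cyclic layer `F/K` of a `p`-power cyclotomic extension with `T`
admissible, `H²(Gal(F/K), C_{F,T})` is cyclic of order `[F:K]`. -/
def CycloLayerH2 (p : ℕ) : Prop :=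
  ∀ (K F : Type) [Field K] [NumberField K] [Field F] [NumberField F] [Algebra K F] [IsGalois K F]
    (T : Finset Nat.Primes), Setting p K F T → IsCyclic (F ≃ₐ[K] F) →
    (∃ (k : ℕ) (C : Type) (_ : Field C) (_ : Algebra K C),
      IsCyclotomicExtension {p ^ k} K C ∧ Nonempty (F →ₐ[K] C)) →
    Nat.card (groupCohomology (Cn K F T) 2) = Module.finrank K F ∧
      ∃ u : groupCohomology (Cn K F T) 2, ∀ x : groupCohomology (Cn K F T) 2, ∃ n : ℤ, x = n • u

variable {K : Type} [Field K] [NumberField K] {F : Type} [Field F] [NumberField F] [Algebra K F]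
  [IsGalois K F] {T : Finset Nat.Primes}

/-- The Artin isomorphism package for a cyclic layer, in terms of helper96's `X`, `δ`. -/
theorem layer_package {p : ℕ} (hD : H2CardDvd p) (hdec : DecompProp p) (hs : Setting p K F T)
    (σ : F ≃ₐ[K] F) (hgen : ∀ τ : F ≃ₐ[K] F, τ ∈ Subgroup.zpowers σ)
    (k : ℕ) (C : Type) [Field C] [Algebra K C] [IsCyclotomicExtension {p ^ k} K C]
    (φ : F →ₐ[K] C) :
    Nat.card (groupCohomology (Cn K F T) 2) = Module.finrank K F ∧
      ∃ a₀ : Kˣ, ∀ x : X K F T σ, x ∈ Subgroup.zpowers (delta K F T σ a₀) := by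
  have hp : p.Prime := hs.prime
  have hp0 : p ≠ 0 := hp.ne_zero
  haveI : NeZero (p ^ k) := ⟨pow_ne_zero k hp0⟩
  haveI : NumberField C := IsCyclotomicExtension.numberField {p ^ k} K C
  letI : Algebra F C := φ.toRingHom.toAlgebra
  haveI : IsScalarTower K F C := IsScalarTower.of_algebraMap_eq (fun x => (φ.commutes x).symm)
  haveI : IsTotallyComplex K := by
    obtain ⟨ζ, hζ⟩ := hs.zeta
    have h3 : 3 ≤ p := by
      have := hp.two_le
      have := hs.odd
      omega
    exact Fermat.Agent.S14.NormSurjGlue.isTotallyComplex_of_isPrimitiveRoot h3 hζ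
  obtain ⟨m, hm⟩ := hs.ppower
  have hcardG : Nat.card (F ≃ₐ[K] F) = p ^ m := by
    rw [IsGalois.card_aut_eq_finrank, hm]
  have hTne : T.Nonempty := DescentUnits.nonempty_of_admissibleQ K F hs.adm
  -- surjectivity of `δ`
  have hδ : Function.Surjective (delta K F T σ) :=
    delta_surjective σ (fun c hc =>
      exists_deltaC_sub_mem_range hcardG σ hgen
        (fun u h => Bridge2Inputs.exists_fixed_of_class_fixed hs.adm u h)
        (fun u h => Bridge2Inputs.exists_baseUnits_of_fixed_JU u h)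
        (fun y => approxPow_pow p hp0 m y) c hc)
  -- the kernel
  have hker : ∀ a : Kˣ, delta K F T σ a = 1 → ∃ (ε u : Kˣ) (b : Fˣ),
      (∀ v : HeightOneSpectrum (𝓞 K), v ∉ placesAboveQ K T → v.valuation K (ε : K) = 1) ∧
      IsOneModAt K p k (u : K) ∧ (∀ v ∈ placesAboveQ K T, v.valuation K (u : K) = 1) ∧
      (a : K) = ε * Algebra.norm K (b : F) * u := by
    intro a ha
    obtain ⟨ε, y, hε, hy⟩ := exists_tunit_norm_of_delta_eq_one hTne σ a ha
    obtain ⟨b, u, h1, h2, h3⟩ := hdec K F T k hs.adm.mem_p a ε y hy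
    exact ⟨ε, u, b, fun v hv => (EUnitsQ_le T hε) v hv, h2, h3, h1⟩
  -- the cardinality bound
  obtain ⟨hfin, hdvd⟩ := hD K F T hs
  have hH2 : Nat.card (groupCohomology (Cn K F T) 2) = Nat.card (X K F T σ) := by
    rw [card_X, CyclicLayerInstQ.card_H2_eq_h0 K F T σ hgen]
  have hpos : 0 < Nat.card (X K F T σ) := by
    rw [← hH2]
    exact Nat.card_pos
  haveI : Finite (X K F T σ) := (Nat.card_pos_iff.mp hpos).2
  have hcard : Nat.card (X K F T σ) ≤ Module.finrank K F := by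
    rw [← hH2]
    exact Nat.le_of_dvd Module.finrank_pos hdvd
  obtain ⟨hcardX, hgenX⟩ := card_eq_and_generator_Q F C hp k hs.adm (delta K F T σ) hδ hker hcard
  obtain ⟨a₀, ha₀⟩ := exists_artHom_eq_Q F C hp k hs.adm σ
  refine ⟨by rw [hH2, hcardX], a₀, hgenX a₀ (fun τ => ?_)⟩
  rw [ha₀]
  exact hgen τ

end main

section final

open Fermat.Agent.S55.Local.CyclicCocycle groupCohomology

variable {K : Type} [Field K] [NumberField K] {F : Type} [Field F] [NumberField F] [Algebra K F]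
  [IsGalois K F] {T : Finset Nat.Primes}

/-- If `δ a₀` generates `X = ker(σ-1)/Nm`, then `[cyc σ (a₀ ⊗ 1)]` generates `H²`. -/
theorem exists_generator_H2 (σ : F ≃ₐ[K] F) (hgen : ∀ τ : F ≃ₐ[K] F, τ ∈ Subgroup.zpowers σ)
    (a₀ : Kˣ) (hX : ∀ x : X K F T σ, x ∈ Subgroup.zpowers (delta K F T σ a₀)) :
    ∃ u : groupCohomology (Cn K F T) 2, ∀ x : groupCohomology (Cn K F T) 2, ∃ n : ℤ, x = n • u := by
  have hn : 0 < orderOf σ := orderOf_pos σ
  have hgen' : ∀ g : F ≃ₐ[K] F, ∃ i : ℕ, σ ^ i = g := fun g => exists_pow_eq_of_zpowers hgen g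
  have hinv : ∀ (c : Cn K F T), c ∈ (diffC K F T σ).ker → ∀ g : F ≃ₐ[K] F, (Cn K F T).ρ g c = c :=
    fun c hc g => rho_eq_of_mem_zpowers (hgen g) ((mem_ker_diffC_iff σ c).mp hc)
  let d₀ : (Cn K F T).ρ.invariants :=
    ⟨deltaC K F T (Additive.ofMul a₀), hinv _ (deltaC_mem_ker σ _)⟩
  refine ⟨cycClass (A := Cn K F T) hn hgen' d₀, fun x => ?_⟩
  obtain ⟨c, rfl⟩ := cycClass_surjective (A := Cn K F T) hn hgen' x
  have hc : (c : Cn K F T) ∈ (diffC K F T σ).ker := (mem_ker_diffC_iff σ _).mpr (c.2 σ)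
  obtain ⟨n, hn'⟩ := Subgroup.mem_zpowers_iff.mp
    (hX (Multiplicative.ofAdd (QuotientAddGroup.mk' (NmSub K F T σ) ⟨(c : Cn K F T), hc⟩)))
  refine ⟨n, ?_⟩
  rw [delta_apply, ← ofAdd_zsmul, Multiplicative.ofAdd.injective.eq_iff, ← map_zsmul,
    QuotientAddGroup.mk'_apply, QuotientAddGroup.mk'_apply, QuotientAddGroup.eq,
    AddSubgroup.mem_addSubgroupOf] at hn'
  obtain ⟨b, hb⟩ := hn'
  -- `c - n • d₀` is the norm of `b`
  have hdiff : ((c - n • d₀ : (Cn K F T).ρ.invariants) : Cn K F T) =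
      ∑ g : F ≃ₐ[K] F, (Cn K F T).ρ g b := by
    have h1 : normC K F T b = ∑ g : F ≃ₐ[K] F, (Cn K F T).ρ g b := rfl
    rw [← h1, hb]
    simp only [AddSubgroup.coe_add, AddSubgroup.coe_neg, AddSubgroupClass.coe_zsmul,
      Submodule.coe_sub, d₀]
    abel
  have hzero : cycClass (A := Cn K F T) hn hgen' (c - n • d₀) = 0 :=
    (cycClass_eq_zero_iff_sum hn hgen' _).mpr ⟨b, hdiff⟩
  rw [map_sub, map_zsmul, sub_eq_zero] at hzero
  exact hzero

/-- **(E1)** from the dévissage bound and the kernel core. -/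
theorem cycloLayerH2 {p : ℕ} (hD : H2CardDvd p) (hdec : DecompProp p) : CycloLayerH2 p := by
  intro K F _ _ _ _ _ _ T hs hcyc hC
  obtain ⟨k, C, _, _, hcyclo, ⟨φ⟩⟩ := hC
  obtain ⟨σ, hσ⟩ := hcyc.exists_generator
  obtain ⟨hcard, a₀, ha₀⟩ := layer_package hD hdec hs σ hσ k C φ
  exact ⟨hcard, exists_generator_H2 σ hσ a₀ ha₀⟩

end final

end

end Fermat.Agent.S55.Global.CycloLayerH2
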