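/-
S55 / Global — lattice tools for the `ℚ`-based idele model (helper2), on top of helper54's
`TensorLattice` and `ApproxPowQ`.  Inputs of G.cycloArtin PART B (M2) and of G.recip-type arguments.

`B := K ⊗[ℚ] QT T`, `Lam K T n` the lattices of `TensorLattice`.

* `tensorAct_mem_Lam` **(U2)** : `Lam K T n` is stable under `Aut(K/ℚ)` (action on the left factor).
* `prod_one_add_sub_one_mem` **(U3)** : `∏ (1 + l_i) - 1 ∈ Lam n` if all `l_i ∈ Lam n`.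
* `exists_inv_one_add` : for `l ∈ Lam n`, `n ≥ 1`: `(1 + l) * (1 + l') = 1` with `l' ∈ Lam n`.
* `exists_unit_approx` **(U1)** : every unit `y` of `B` is `(a ⊗ 1) * (1 + l)`, `a ∈ Kˣ`,
  `l ∈ Lam K T n` (`n` arbitrary).
* `exists_of_tmul_one_mem_Lam` **(U4)** : `v ⊗ 1 ∈ Lam K T n` ⇒ `d • v = ϖ^n • x` with `x ∈ 𝓞 K` and
  `d` prime to `T`.
-/
import Fermat.Agent.S55.Global.ApproxPowQ

set_option autoImplicit false

open NumberField TensorProduct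

namespace Fermat.Agent.S55.Global.LatticeToolsQ

open Fermat.Agent.S55.Global.Objects Fermat.Agent.S55.Global.Objects2
open Fermat.Agent.S55.Global.TensorLattice Fermat.Agent.S55.Global.ApproxPowQ

variable {K : Type} [Field K] [NumberField K] {T : Finset Nat.Primes}

/-! ### (U2) Galois stability -/

/-- **(U2)** The lattices are stable under the automorphisms of `K`. -/
theorem tensorAct_mem_Lam (σ : K ≃ₐ[ℚ] K) {n : ℕ} {z : K ⊗[ℚ] QT T} (hz : z ∈ Lam K T n) :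
    tensorAct (QT T) σ z ∈ Lam K T n := by
  rw [eq_sum_tmul z, map_sum]
  refine (Lam K T n).sum_mem fun i _ => ?_
  rw [tensorAct_tmul, integralBasis_apply]
  have e : σ (algebraMap (𝓞 K) K (RingOfIntegers.basis K i)) =
      ((RingOfIntegers.mapRingHom (σ : K →+* K) (RingOfIntegers.basis K i) : 𝓞 K) : K) := rfl
  rw [e]
  exact tmul_mem_Lam _ (hz i)

/-! ### (U3) products -/

theorem mul_mem_Lam_left {n : ℕ} {z w : K ⊗[ℚ] QT T} (hz : z ∈ Lam K T n) (hw : w ∈ Lam K T 0) :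
    z * w ∈ Lam K T n := by
  have := mul_mem_Lam hz hw
  rwa [add_zero] at this

theorem mul_mem_Lam_right {n : ℕ} {z w : K ⊗[ℚ] QT T} (hz : z ∈ Lam K T 0) (hw : w ∈ Lam K T n) :
    z * w ∈ Lam K T n := by
  have := mul_mem_Lam hz hw
  rwa [zero_add] at this

/-- **(U3)** `∏ (1 + l_i) ∈ 1 + Lam n`. -/
theorem prod_one_add_sub_one_mem {ι' : Type*} (s : Finset ι') (l : ι' → K ⊗[ℚ] QT T) {n : ℕ}
    (hl : ∀ i ∈ s, l i ∈ Lam K T n) : (∏ i ∈ s, (1 + l i)) - 1 ∈ Lam K T n := by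
  classical
  induction s using Finset.induction_on with
  | empty => simp
  | insert a s ha ih =>
    rw [Finset.prod_insert ha]
    have h1 : l a ∈ Lam K T n := hl a (Finset.mem_insert_self a s)
    have h2 : (∏ i ∈ s, (1 + l i)) - 1 ∈ Lam K T n :=
      ih fun i hi => hl i (Finset.mem_insert_of_mem hi)
    have h20 : (∏ i ∈ s, (1 + l i)) - 1 ∈ Lam K T 0 := Lam_anti (Nat.zero_le n) h2
    have e : (1 + l a) * ∏ i ∈ s, (1 + l i) - 1 =
        ((∏ i ∈ s, (1 + l i)) - 1) + l a + l a * ((∏ i ∈ s, (1 + l i)) - 1) := by ring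
    rw [e]
    exact (Lam K T n).add_mem ((Lam K T n).add_mem h2 h1) (mul_mem_Lam_left h1 h20)

/-! ### inverses of `1 + l` -/

/-- For `l ∈ Lam n`, `n ≥ 1`, the inverse of `1 + l` is again in `1 + Lam n`. -/
theorem exists_inv_one_add {n : ℕ} (hn : 1 ≤ n) {l : K ⊗[ℚ] QT T} (hl : l ∈ Lam K T n) :
    ∃ l' ∈ Lam K T n, (1 + l) * (1 + l') = 1 := by
  obtain ⟨m, rfl⟩ : ∃ m, n = m + 1 := ⟨n - 1, by omega⟩
  -- write `l = ϖ • l₀`
  have h0 : (((varpi T : ℚ) ^ 1)⁻¹) • l ∈ Lam K T m := varpi_pow_inv_smul_mem_Lam 1 hl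
  have h00 : (((varpi T : ℚ) ^ 1)⁻¹) • l ∈ Lam K T 0 := Lam_anti (Nat.zero_le m) h0
  have hϖ : (varpi T : ℚ) ≠ 0 := by exact_mod_cast varpi_ne_zero T
  have hl' : l = (varpi T : ℚ) • ((((varpi T : ℚ) ^ 1)⁻¹) • l) := by
    rw [smul_smul, pow_one, mul_inv_cancel₀ hϖ, one_smul]
  -- the inverse in the complete ring
  have hu := PowAbstract.isUnit_one_add (isPiComplete_varpiR K T) ⟨_, h00⟩
  obtain ⟨v, hv⟩ := hu.exists_right_inv
  have hv' : (1 + l) * (v : K ⊗[ℚ] QT T) = 1 := by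
    have := congrArg (fun w : LamRing K T => (w : K ⊗[ℚ] QT T)) hv
    simp only [Subring.coe_mul, Subring.coe_add, Subring.coe_one] at this
    have e : ((varpiR K T : LamRing K T) : K ⊗[ℚ] QT T) = (varpi T : ℚ) • 1 := rfl
    rw [e, smul_mul_assoc, one_mul, ← hl'] at this
    exact this
  refine ⟨(v : K ⊗[ℚ] QT T) - 1, ?_, ?_⟩
  · -- `v - 1 = - l * v`
    have e : (v : K ⊗[ℚ] QT T) - 1 = -(l * (v : K ⊗[ℚ] QT T)) := by
      linear_combination hv'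
    rw [e]
    exact (Lam K T (m + 1)).neg_mem (mul_mem_Lam_left hl v.2)
  · rw [add_sub_cancel]
    exact hv'

/-! ### (U1) unit approximation -/

/-- **(U1)** Every unit of `K ⊗[ℚ] ℚ_T` is a global element times an element of `1 + Lam n`. -/
theorem exists_unit_approx (y : (K ⊗[ℚ] QT T)ˣ) (n : ℕ) :
    ∃ (a : K) (l : K ⊗[ℚ] QT T), l ∈ Lam K T n ∧
      (y : K ⊗[ℚ] QT T) = (a ⊗ₜ[ℚ] (1 : QT T)) * (1 + l) := by
  -- it suffices to treat `n + 1`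
  suffices h : ∃ (a : K) (l : K ⊗[ℚ] QT T), l ∈ Lam K T (n + 1) ∧
      (y : K ⊗[ℚ] QT T) = (a ⊗ₜ[ℚ] (1 : QT T)) * (1 + l) by
    obtain ⟨a, l, hl, h⟩ := h
    exact ⟨a, l, Lam_anti (Nat.le_succ n) hl, h⟩
  obtain ⟨M, hM⟩ := exists_varpi_pow_smul_mem_Lam ((y⁻¹ : (K ⊗[ℚ] QT T)ˣ) : K ⊗[ℚ] QT T)
  obtain ⟨a, ha⟩ := exists_approx (y : K ⊗[ℚ] QT T) (n + 1 + M)
  obtain ⟨d, hd, hde⟩ := mem_Lam_iff_exists.mp ha
  -- `y⁻¹ * (a ⊗ 1) = 1 + l₁`, `l₁ ∈ Lam (n+1)`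
  set l₁ : K ⊗[ℚ] QT T := -(((varpi T : ℚ) ^ (n + 1)) •
    (d * (((varpi T : ℚ) ^ M) • ((y⁻¹ : (K ⊗[ℚ] QT T)ˣ) : K ⊗[ℚ] QT T)))) with hl₁
  have hl₁mem : l₁ ∈ Lam K T (n + 1) := by
    refine (Lam K T (n + 1)).neg_mem ?_
    have h1 : d * (((varpi T : ℚ) ^ M) • ((y⁻¹ : (K ⊗[ℚ] QT T)ˣ) : K ⊗[ℚ] QT T)) ∈ Lam K T 0 := by
      have := mul_mem_Lam hd hM
      rwa [add_zero] at this
    have := varpi_pow_smul_mem_Lam (n + 1) h1
    rwa [zero_add] at this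
  have h1 : (a ⊗ₜ[ℚ] (1 : QT T)) * ((y⁻¹ : (K ⊗[ℚ] QT T)ˣ) : K ⊗[ℚ] QT T) = 1 + l₁ := by
    have e1 : a ⊗ₜ[ℚ] (1 : QT T) = (y : K ⊗[ℚ] QT T) - ((varpi T : ℚ) ^ (n + 1 + M)) • d := by
      rw [← hde]; abel
    rw [e1, hl₁]
    simp only [sub_mul, smul_mul_assoc, mul_smul_comm, Units.mul_inv]
    module
  obtain ⟨l', hl', hinv⟩ := exists_inv_one_add (Nat.le_add_left 1 n) hl₁mem
  refine ⟨a, l', hl', ?_⟩
  -- `y = (a ⊗ 1) * (1 + l')`
  have h2 : (a ⊗ₜ[ℚ] (1 : QT T)) = (1 + l₁) * (y : K ⊗[ℚ] QT T) := by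
    rw [← h1, mul_assoc, Units.inv_mul, mul_one]
  rw [h2, mul_comm (1 + l₁), mul_assoc, hinv, mul_one]

/-! ### (U4) global elements of the lattice -/

/-- A rational number of `q`-adic norm `≤ 1` has denominator prime to `q`. -/
theorem not_dvd_den_of_norm_le_one {q : ℕ} [Fact q.Prime] (r : ℚ)
    (hr : ‖(r : ℚ_[q])‖ ≤ 1) : ¬ q ∣ r.den := by
  intro hdvd
  have hden : ‖((r.den : ℕ) : ℚ_[q])‖ < 1 := Padic.norm_natCast_lt_one_iff.mpr hdvd
  have hnum : ‖((r.num : ℤ) : ℚ_[q])‖ = 1 := by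
    refine le_antisymm (Padic.norm_int_le_one _) (not_lt.mp fun hlt => ?_)
    have h1 : (q : ℤ) ∣ r.num := Padic.norm_intCast_lt_one_iff.mp hlt
    have h2 : q ∣ r.num.natAbs := Int.natCast_dvd.mp h1
    have h3 := Nat.dvd_gcd h2 hdvd
    rw [r.reduced] at h3
    exact (Fact.out : q.Prime).one_lt.ne' (Nat.dvd_one.mp h3)
  have hden0 : ((r.den : ℕ) : ℚ_[q]) ≠ 0 := by exact_mod_cast r.den_nz
  have e : (r : ℚ_[q]) = ((r.num : ℤ) : ℚ_[q]) / ((r.den : ℕ) : ℚ_[q]) := by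
    rw [Rat.cast_def]
  rw [e, norm_div, hnum, one_div] at hr
  have hpos : 0 < ‖((r.den : ℕ) : ℚ_[q])‖ := norm_pos_iff.mpr hden0
  have := (inv_le_one₀ hpos).mp hr
  exact absurd hden (not_lt.mpr this)

theorem ratCast_smul_one_apply (r : ℚ) (q : T) :
    (r • (1 : QT T)) q = (r : ℚ_[((q : Nat.Primes) : ℕ)]) := by
  rw [Pi.smul_apply, Algebra.smul_def, eq_ratCast, Pi.one_apply, mul_one]

/-- **(U4)** A global element `v` with `v ⊗ 1 ∈ Lam K T n` is `ϖ^n x / d` with `x` integral and `d`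
prime to `T`. -/
theorem exists_of_tmul_one_mem_Lam (v : K) (n : ℕ) (h : v ⊗ₜ[ℚ] (1 : QT T) ∈ Lam K T n) :
    ∃ (x : 𝓞 K) (d : ℕ), d ≠ 0 ∧ (∀ q ∈ T, ¬ ((q : Nat.Primes) : ℕ) ∣ d) ∧
      (d : K) * v = ((varpi T ^ n : ℕ) : K) * (x : K) := by
  classical
  set r : ι K → ℚ := fun i => (integralBasis K).repr v i with hr
  set r' : ι K → ℚ := fun i => ((varpi T : ℚ) ^ n)⁻¹ * r i with hr'
  have hϖ : ((varpi T : ℚ) ^ n) ≠ 0 := pow_ne_zero _ (by exact_mod_cast varpi_ne_zero T)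
  -- integrality of `r'` at the primes of `T`
  have hint : ∀ (i : ι K) (q : T), ¬ ((q : Nat.Primes) : ℕ) ∣ (r' i).den := by
    intro i q
    apply not_dvd_den_of_norm_le_one
    have h1 : r i • (1 : QT T) ∈ zn T (0 + n) := by
      have := h i
      rwa [crd_tmul, ← zero_add n] at this
    have h2 := ratCast_varpi_pow_inv_smul_mem_zn n h1 q
    rw [smul_smul, ratCast_smul_one_apply, Nat.cast_zero, neg_zero, zpow_zero] at h2
    exact h2
  set d : ℕ := ∏ i, (r' i).den with hd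
  set m : ι K → ℤ := fun i => (r' i).num * ∏ j ∈ Finset.univ.erase i, ((r' j).den : ℤ) with hm
  have hdm : ∀ i, (d : ℚ) * r' i = (m i : ℚ) := by
    intro i
    have h1 : (d : ℚ) = ((r' i).den : ℚ) * ∏ j ∈ Finset.univ.erase i, ((r' j).den : ℚ) := by
      rw [hd, ← Finset.mul_prod_erase Finset.univ (fun j => (r' j).den) (Finset.mem_univ i)]
      push_cast
      rfl
    have h2 : ((r' i).den : ℚ) * r' i = ((r' i).num : ℚ) := Rat.den_mul_eq_num (r' i)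
    rw [h1, hm]
    push_cast
    rw [mul_comm ((r' i).den : ℚ), mul_assoc, h2]
    ring
  refine ⟨∑ i, m i • RingOfIntegers.basis K i, d, ?_, ?_, ?_⟩
  · exact Finset.prod_ne_zero_iff.mpr fun i _ => (r' i).den_nz
  · intro q hq hdvd
    obtain ⟨i, -, hi⟩ := (Prime.dvd_finsetProd_iff (Nat.Prime.prime q.2) _).mp hdvd
    exact hint i ⟨q, hq⟩ hi
  · apply (integralBasis K).ext_elem
    intro i
    have e1 : (d : K) * v = (d : ℚ) • v := by
      rw [Algebra.smul_def, map_natCast]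
    have e2 : ((varpi T ^ n : ℕ) : K) * ((∑ j, m j • RingOfIntegers.basis K j : 𝓞 K) : K) =
        ((varpi T ^ n : ℕ) : ℚ) • ((∑ j, m j • RingOfIntegers.basis K j : 𝓞 K) : K) := by
      rw [Algebra.smul_def, map_natCast]
    rw [e1, e2, map_smul, map_smul, Finsupp.smul_apply, Finsupp.smul_apply,
      show ((∑ j, m j • RingOfIntegers.basis K j : 𝓞 K) : K) =
        algebraMap (𝓞 K) K (∑ j, m j • RingOfIntegers.basis K j) from rfl,
      integralBasis_repr_apply, Module.Basis.repr_sum_self, smul_eq_mul, smul_eq_mul, eq_intCast,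
      ← hdm i, hr']
    show (d : ℚ) * r i = _
    push_cast
    field_simp

/-- **(U4), relative form**: for `v ∈ K ⊆ L` with `v ⊗ 1 ∈ Lam L T n` (inside `L ⊗[ℚ] ℚ_T`), already
`v = ϖ^n x / d` with `x ∈ 𝓞 K`, `d` prime to `T`. -/
theorem exists_of_algebraMap_tmul_one_mem_Lam {L : Type} [Field L] [NumberField L] [Algebra K L]
    (v : K) (n : ℕ) (h : (algebraMap K L v) ⊗ₜ[ℚ] (1 : QT T) ∈ Lam L T n) :
    ∃ (x : 𝓞 K) (d : ℕ), d ≠ 0 ∧ (∀ q ∈ T, ¬ ((q : Nat.Primes) : ℕ) ∣ d) ∧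
      (d : K) * v = ((varpi T ^ n : ℕ) : K) * (x : K) := by
  obtain ⟨xL, d, hd0, hdT, hxL⟩ := exists_of_tmul_one_mem_Lam (algebraMap K L v) n h
  have hϖ : ((varpi T ^ n : ℕ) : K) ≠ 0 := by
    exact_mod_cast pow_ne_zero n (varpi_ne_zero T)
  set y : K := ((varpi T ^ n : ℕ) : K)⁻¹ * ((d : K) * v) with hy
  have hyL : algebraMap K L y = (xL : L) := by
    have hϖL : ((varpi T ^ n : ℕ) : L) ≠ 0 := by
      exact_mod_cast pow_ne_zero n (varpi_ne_zero T)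
    rw [hy, map_mul, map_inv₀, map_mul, map_natCast, map_natCast, hxL, ← mul_assoc,
      inv_mul_cancel₀ hϖL, one_mul]
  have hyint : IsIntegral ℤ y := by
    have h1 : IsIntegral ℤ (algebraMap K L y) := by
      rw [hyL]; exact RingOfIntegers.isIntegral_coe xL
    exact (isIntegral_algebraMap_iff (algebraMap K L).injective).mp h1
  refine ⟨⟨y, hyint⟩, d, hd0, hdT, ?_⟩
  show (d : K) * v = ((varpi T ^ n : ℕ) : K) * y
  rw [hy, ← mul_assoc, mul_inv_cancel₀ hϖ, one_mul]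

end Fermat.Agent.S55.Global.LatticeToolsQ
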