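/-
S55 / Global — model-free core of hypothesis (M2) of `CycloArtinAbs.exists_artin_hom` (helper2).

`K ⊆ L` number fields, `L/K` Galois, `T` a finite set of rational primes containing `p`.
If `a, ε ∈ Kˣ` and `y ∈ (L ⊗[ℚ] ℚ_T)ˣ` satisfy `a ⊗ 1 = (ε ⊗ 1) * ∏_τ τ(y)` in `L ⊗[ℚ] ℚ_T`, then
`a = ε * N_{L/K}(b) * u` with `b ∈ Lˣ`, `u ∈ Kˣ`, `u ≡ 1 mod p^k` at the places over `p` and `u` a unit
at all places above `T`.

Proof: approximate `y = (b ⊗ 1)(1 + l)` with `l` in the lattice `Lam L T n` (`LatticeToolsQ` (U1)),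
the Galois norm of `1 + l` stays in `1 + Lam L T n` ((U2), (U3)), and a global element of `K` lying
in `Lam L T n` is `ϖ^n x / d` with `x ∈ 𝓞 K`, `d` prime to `T` ((U4), relative form).
-/
import Fermat.Agent.S55.Global.LatticeToolsQ
import Fermat.Agent.S55.Global.CycloArtinAbs
import Fermat.Agent.S55.Global.Bridge2Units

set_option autoImplicit false
set_option linter.unusedSectionVars false

open NumberField IsDedekindDomain TensorProduct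

namespace Fermat.Agent.S55.Global.CycloM2Core

open Fermat.Agent.S55.Global.Objects Fermat.Agent.S55.Global.Objects2
open Fermat.Agent.S55.Global.TensorLattice Fermat.Agent.S55.Global.LatticeToolsQ
open Fermat.Agent.S55.Global.Bridge2Units (JU)

variable {K L : Type} [Field K] [NumberField K] [Field L] [NumberField L] [Algebra K L]

/-! ### small arithmetic adapters -/

/-- If the rational prime `q` lies in the prime `v` and `q ∤ d`, then `d ∉ v`. -/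
theorem natCast_notMem_of_not_dvd (v : HeightOneSpectrum (𝓞 K)) {q d : ℕ} (hq : q.Prime)
    (hqv : (q : 𝓞 K) ∈ v.asIdeal) (hd : ¬ q ∣ d) : (d : 𝓞 K) ∉ v.asIdeal := by
  intro hdv
  have hcop : Nat.Coprime q d := (Nat.Prime.coprime_iff_not_dvd hq).mpr hd
  have h1 : IsCoprime (q : ℤ) (d : ℤ) := Nat.isCoprime_iff_coprime.mpr hcop
  obtain ⟨s, t, hst⟩ := h1
  have h2 : ((s : 𝓞 K) * (q : 𝓞 K) + (t : 𝓞 K) * (d : 𝓞 K)) = 1 := by
    have := congrArg (fun z : ℤ => (z : 𝓞 K)) hst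
    push_cast at this
    exact this
  have h3 : (1 : 𝓞 K) ∈ v.asIdeal := by
    rw [← h2]
    exact v.asIdeal.add_mem (v.asIdeal.mul_mem_left _ hqv) (v.asIdeal.mul_mem_left _ hdv)
  exact v.isPrime.ne_top ((Ideal.eq_top_iff_one _).mpr h3)

/-- `q ∈ T` divides `ϖ_T`. -/
theorem dvd_varpi {T : Finset Nat.Primes} {q : Nat.Primes} (hq : q ∈ T) :
    ((q : Nat.Primes) : ℕ) ∣ varpi T :=
  Finset.dvd_prod_of_mem (fun q : Nat.Primes => ((q : Nat.Primes) : ℕ)) hq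

/-- `(ϖ_T ^ n : 𝓞 K) ∈ v` for `v` above `q ∈ T`, `n ≥ 1`. -/
theorem varpi_pow_mem (v : HeightOneSpectrum (𝓞 K)) {T : Finset Nat.Primes} {q : Nat.Primes}
    (hq : q ∈ T) (hqv : (((q : Nat.Primes) : ℕ) : 𝓞 K) ∈ v.asIdeal) {n : ℕ} (hn : 1 ≤ n) :
    ((varpi T ^ n : ℕ) : 𝓞 K) ∈ v.asIdeal := by
  obtain ⟨c, hc⟩ := dvd_varpi hq
  obtain ⟨m, rfl⟩ : ∃ m, n = m + 1 := ⟨n - 1, by omega⟩
  have e : ((varpi T ^ (m + 1) : ℕ) : 𝓞 K) =
      (((q : Nat.Primes) : ℕ) : 𝓞 K) * ((c : 𝓞 K) * ((varpi T ^ m : ℕ) : 𝓞 K)) := by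
    rw [pow_succ', hc]
    push_cast
    ring
  rw [e]
  exact v.asIdeal.mul_mem_right _ hqv

/-! ### the core -/

variable [IsGalois K L] [Fintype (L ≃ₐ[K] L)]

/-- **Core of (M2)**, element form. -/
theorem exists_decomp (T : Finset Nat.Primes) {p : ℕ} (k : ℕ)
    (hpT : ∃ q ∈ T, ((q : Nat.Primes) : ℕ) = p) (a ε : Kˣ) (y : (L ⊗[ℚ] QT T)ˣ)
    (h : (algebraMap K L (a : K)) ⊗ₜ[ℚ] (1 : QT T) =
      ((algebraMap K L (ε : K)) ⊗ₜ[ℚ] (1 : QT T)) *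
        ∏ τ : L ≃ₐ[K] L, tensorAct (QT T) (resHom K L τ) (y : L ⊗[ℚ] QT T)) :
    ∃ (b : Lˣ) (u : Kˣ), (a : K) = ε * Algebra.norm K (b : L) * u ∧
      CycloArtinIdeal.IsOneModAt K p k (u : K) ∧
      ∀ v : HeightOneSpectrum (𝓞 K), (∃ q ∈ T, (((q : Nat.Primes) : ℕ) : 𝓞 K) ∈ v.asIdeal) →
        v.valuation K (u : K) = 1 := by
  classical
  obtain ⟨q₀, hq₀T, hq₀p⟩ := hpT
  have hTne : T.Nonempty := ⟨q₀, hq₀T⟩
  have : Nontrivial (QT T) := Pi.nontrivial_at (⟨q₀, hq₀T⟩ : T)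
  have hinj : Function.Injective (Algebra.TensorProduct.includeLeft : L →ₐ[ℚ] L ⊗[ℚ] QT T) :=
    Algebra.TensorProduct.includeLeft_injective (algebraMap ℚ (QT T)).injective
  set n : ℕ := k + 1 with hn
  -- (U1): approximate `y`
  obtain ⟨b₀, l, hl, hy⟩ := exists_unit_approx y n
  -- `b₀ ≠ 0`
  have hb₀ : b₀ ≠ 0 := by
    rintro rfl
    have h0 : (y : L ⊗[ℚ] QT T) = 0 := by rw [hy, zero_tmul, zero_mul]
    have h1 : (y : L ⊗[ℚ] QT T) * ((y⁻¹ : (L ⊗[ℚ] QT T)ˣ) : L ⊗[ℚ] QT T) = 1 := Units.mul_inv y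
    rw [h0, zero_mul] at h1
    have h2 : (Algebra.TensorProduct.includeLeft : L →ₐ[ℚ] L ⊗[ℚ] QT T) 0 =
        (Algebra.TensorProduct.includeLeft : L →ₐ[ℚ] L ⊗[ℚ] QT T) 1 := by
      rw [map_zero, map_one]; exact h1
    exact zero_ne_one (hinj h2)
  -- the Galois norm of `y`
  set l₂ : L ⊗[ℚ] QT T :=
    (∏ τ : L ≃ₐ[K] L, (1 + tensorAct (QT T) (resHom K L τ) l)) - 1 with hl₂
  have hl₂mem : l₂ ∈ Lam L T n :=
    prod_one_add_sub_one_mem Finset.univ _ fun τ _ => tensorAct_mem_Lam (resHom K L τ) hl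
  have hnorm : ∏ τ : L ≃ₐ[K] L, tensorAct (QT T) (resHom K L τ) (y : L ⊗[ℚ] QT T) =
      ((algebraMap K L (Algebra.norm K b₀)) ⊗ₜ[ℚ] (1 : QT T)) * (1 + l₂) := by
    have e1 : ∀ τ : L ≃ₐ[K] L, tensorAct (QT T) (resHom K L τ) (y : L ⊗[ℚ] QT T) =
        ((τ b₀) ⊗ₜ[ℚ] (1 : QT T)) * (1 + tensorAct (QT T) (resHom K L τ) l) := by
      intro τ
      rw [hy, map_mul, map_add, map_one, tensorAct_tmul]
      rfl
    rw [Finset.prod_congr rfl fun τ _ => e1 τ, Finset.prod_mul_distrib, hl₂, add_sub_cancel]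
    congr 1
    have e3 : algebraMap K L (Algebra.norm K b₀) = ∏ τ : L ≃ₐ[K] L, τ b₀ := by
      rw [Algebra.norm_eq_prod_automorphisms K b₀]
      refine Finset.prod_congr ?_ (fun _ _ => rfl)
      ext τ
      simp only [Finset.mem_univ]
    rw [e3]
    have e2 : ∀ τ : L ≃ₐ[K] L, ((τ b₀) ⊗ₜ[ℚ] (1 : QT T) : L ⊗[ℚ] QT T) =
        (Algebra.TensorProduct.includeLeft : L →ₐ[ℚ] L ⊗[ℚ] QT T) (τ b₀) := fun τ => rfl
    rw [Finset.prod_congr rfl fun τ _ => e2 τ, ← map_prod]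
    rfl
  -- the global unit `u`
  have hNb : Algebra.norm K b₀ ≠ 0 := Algebra.norm_ne_zero_iff.mpr hb₀
  set c : K := (ε : K) * Algebra.norm K b₀ with hc
  have hc0 : c ≠ 0 := mul_ne_zero ε.ne_zero hNb
  set u₀ : K := c⁻¹ * (a : K) with hu₀
  have hu₀0 : u₀ ≠ 0 := mul_ne_zero (inv_ne_zero hc0) a.ne_zero
  -- `(u₀ ⊗ 1) = 1 + l₂` in `L ⊗ ℚ_T`
  have hu₀l : (algebraMap K L u₀) ⊗ₜ[ℚ] (1 : QT T) = 1 + l₂ := by
    have e1 : (algebraMap K L (a : K)) ⊗ₜ[ℚ] (1 : QT T) =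
        ((algebraMap K L c) ⊗ₜ[ℚ] (1 : QT T)) * (1 + l₂) := by
      rw [h, hnorm, ← mul_assoc, Algebra.TensorProduct.tmul_mul_tmul, mul_one, hc, map_mul]
    have e2 : (algebraMap K L u₀) ⊗ₜ[ℚ] (1 : QT T) =
        ((algebraMap K L c⁻¹) ⊗ₜ[ℚ] (1 : QT T)) * ((algebraMap K L (a : K)) ⊗ₜ[ℚ] (1 : QT T)) := by
      rw [Algebra.TensorProduct.tmul_mul_tmul, mul_one, hu₀, map_mul]
    rw [e2, e1, ← mul_assoc, Algebra.TensorProduct.tmul_mul_tmul, mul_one, ← map_mul,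
      inv_mul_cancel₀ hc0, map_one]
    exact one_mul _
  have hsub : (algebraMap K L (u₀ - 1)) ⊗ₜ[ℚ] (1 : QT T) ∈ Lam L T n := by
    have e : (algebraMap K L (u₀ - 1)) ⊗ₜ[ℚ] (1 : QT T) = l₂ := by
      rw [map_sub, map_one, sub_tmul, hu₀l]
      show 1 + l₂ - 1 = l₂
      abel
    rw [e]
    exact hl₂mem
  -- (U4), relative form
  obtain ⟨x, d, hd0, hdT, hdx⟩ := exists_of_algebraMap_tmul_one_mem_Lam (u₀ - 1) n hsub
  refine ⟨Units.mk0 b₀ hb₀, Units.mk0 u₀ hu₀0, ?_, ?_, ?_⟩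
  · show (a : K) = ε * Algebra.norm K b₀ * u₀
    rw [hu₀, ← hc, ← mul_assoc, mul_inv_cancel₀ hc0, one_mul]
  · show CycloArtinIdeal.IsOneModAt K p k u₀
    refine CycloArtinAbs.isOneModAt_of_eq k u₀ x (varpi T ^ n) d ?_ ?_ hdx
    · -- `p ^ k ∣ ϖ ^ n`
      have h1 : p ∣ varpi T := hq₀p ▸ dvd_varpi hq₀T
      exact dvd_trans (pow_dvd_pow_of_dvd h1 k) (pow_dvd_pow _ (Nat.le_succ k))
    · intro v hv
      have hv' : (((q₀ : Nat.Primes) : ℕ) : 𝓞 K) ∈ v.asIdeal := by rw [hq₀p]; exact hv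
      exact natCast_notMem_of_not_dvd v q₀.2 hv' (hdT q₀ hq₀T)
  · rintro v ⟨q, hqT, hqv⟩
    show v.valuation K u₀ = 1
    exact CycloArtinAbs.valuation_eq_one_of_eq v u₀ x (varpi T ^ n) d
      (varpi_pow_mem v hqT hqv (Nat.le_add_left 1 k))
      (natCast_notMem_of_not_dvd v q.2 hqv (hdT q hqT)) hdx

/-- **Core of (M2)**, unit form: the hypothesis is an identity in `(L ⊗[ℚ] ℚ_T)ˣ`, with the Galois
action of `Objects` on units. -/
theorem exists_decomp_units (T : Finset Nat.Primes) {p : ℕ} (k : ℕ)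
    (hpT : ∃ q ∈ T, ((q : Nat.Primes) : ℕ) = p) (a ε : Kˣ) (y : JU L (QT T))
    (h : inclUnits ℚ L (QT T) (Units.map (algebraMap K L).toMonoidHom a) =
      inclUnits ℚ L (QT T) (Units.map (algebraMap K L).toMonoidHom ε) *
        ∏ τ : L ≃ₐ[K] L, resHom K L τ • y) :
    ∃ (b : Lˣ) (u : Kˣ), (a : K) = ε * Algebra.norm K (b : L) * u ∧
      CycloArtinIdeal.IsOneModAt K p k (u : K) ∧
      ∀ v : HeightOneSpectrum (𝓞 K), (∃ q ∈ T, (((q : Nat.Primes) : ℕ) : 𝓞 K) ∈ v.asIdeal) →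
        v.valuation K (u : K) = 1 := by
  refine exists_decomp T k hpT a ε y ?_
  have h' := congrArg (fun z : (L ⊗[ℚ] QT T)ˣ => (z : L ⊗[ℚ] QT T)) h
  simp only [Units.val_mul, Units.coe_prod] at h'
  exact h'

/-! ### core of (M1): `(K ⊗ ℚ_T)ˣ = Kˣ · N_{L/K} (L ⊗ ℚ_T)ˣ` for `[L:K]` a power of `p` -/

omit [IsGalois K L] [Fintype (L ≃ₐ[K] L)] in
/-- Every unit of `K ⊗[ℚ] ℚ_T` is a global element times a `p^m`-th power. -/
theorem exists_pow_decomp (T : Finset Nat.Primes) (p : ℕ) (hp : p ≠ 0) (m : ℕ) (y : JU K (QT T)) :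
    ∃ (a : Kˣ) (z : JU K (QT T)), y = inclUnits ℚ K (QT T) a * z ^ (p ^ m) := by
  induction m generalizing y with
  | zero => exact ⟨1, y, by rw [map_one, one_mul, pow_zero, pow_one]⟩
  | succ m ih =>
    obtain ⟨a, z, hz⟩ := ih y
    obtain ⟨a', z', hz'⟩ := ApproxPowQ.approxPow p hp z
    refine ⟨a * a' ^ (p ^ m), z', ?_⟩
    rw [hz, hz', mul_pow, map_mul, map_pow, ← pow_mul, pow_succ, mul_assoc, mul_comm p]

omit [IsGalois K L] in
/-- **Core of (M1)**: if `#Gal(L/K) = p^m`, every unit of `K ⊗[ℚ] ℚ_T` is, inside `L ⊗[ℚ] ℚ_T`, a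
global element of `K` times the Galois norm of a unit of `L ⊗[ℚ] ℚ_T`. -/
theorem exists_norm_decomp (T : Finset Nat.Primes) {p m : ℕ} (hp : p ≠ 0)
    (hcard : Fintype.card (L ≃ₐ[K] L) = p ^ m) (y : JU K (QT T)) :
    ∃ (a : Kˣ) (z : JU L (QT T)), Bridge2Units.baseUnits K L (QT T) y =
      inclUnits ℚ L (QT T) (Units.map ((algebraMap K L : K →+* L) : K →* L) a) *
        ∏ τ : L ≃ₐ[K] L, resHom K L τ • z := by
  obtain ⟨a, z, hz⟩ := exists_pow_decomp T p hp m y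
  refine ⟨a, Bridge2Units.baseUnits K L (QT T) z, ?_⟩
  rw [Bridge2Units.prod_smul_eq_pow (QT T) _ (fun τ => Bridge2Units.smul_baseUnits (QT T) τ z),
    hcard, hz, map_mul, map_pow, Bridge2Units.inclUnits_map]

end Fermat.Agent.S55.Global.CycloM2Core
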