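/-
S55 / GLOBAL block, row 152 input (E1), final form (helper61): `CycloLayerH2 p` from the dévissage
bound `Blocks2.H2CardDvd p` alone — the kernel core `DecompProp p` is helper2's
`CycloM2Core.exists_decomp_units`.
-/
import Fermat.Agent.S55.Global.CycloLayerH2
import Fermat.Agent.S55.Global.CycloM2Core

set_option autoImplicit false

namespace Fermat.Agent.S55.Global.CycloLayerH2Final

open Fermat.Agent.S55.Global.CycloLayerH2

/-- The model-free kernel core holds (helper2). -/
theorem decompProp (p : ℕ) : DecompProp p := by
  intro K L _ _ _ _ _ _ _ T k hpT a ε y h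
  exact CycloM2Core.exists_decomp_units T k hpT a ε y h

/-- **(E1)** of row 152 from the dévissage bound. -/
theorem cycloLayerH2_of_cardDvd {p : ℕ} (hD : Blocks2.H2CardDvd p) : CycloLayerH2 p :=
  cycloLayerH2 hD (decompProp p)

end Fermat.Agent.S55.Global.CycloLayerH2Final
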