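/-
S55 / GLOBAL block, row 152 input (E2), plumbing sub-steps (helper61, hedge for (P) of #2191):

* `adjoin_range_eq_top` : towers `K ⊆ L ⊆ M`, `K ⊆ F ⊆ M`, `M/K` Galois; if
  `ker (Gal(M/K) → Gal(L/K)) ⊓ ker (Gal(M/K) → Gal(F/K)) = ⊥` then `M = L(F)`:
  `Algebra.adjoin L (range (algebraMap F M)) = ⊤`.
* `isCyclotomicExtension_top` : if moreover `F ⊆ C = K(ζ_n)`, `D = M(ζ_n) ⊇ C` compatibly, then
  `D = L(ζ_n)`.
-/
import Fermat.Agent.S55.Global.TransitionQ

set_option autoImplicit false
set_option linter.unusedSectionVars false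
set_option linter.style.haveILetI false

open NumberField

namespace Fermat.Agent.S55.Global.CycloNormAdjoin

open Fermat.Agent.S55.Global.TransitionQ

section gen

variable {K L F M : Type} [Field K] [NumberField K] [Field L] [NumberField L] [Field F]
  [NumberField F] [Field M] [NumberField M] [Algebra K L] [Algebra K F] [Algebra K M]
  [Algebra L M] [Algebra F M] [IsScalarTower K L M] [IsScalarTower K F M] [Normal K L]
  [Normal K F]

theorem mem_ker_rnHom_of_fixes (g : M ≃ₐ[K] M) (h : ∀ x : L, g (algebraMap L M x) = algebraMap L M x) :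
    g ∈ (rnHom K L M).ker := by
  rw [MonoidHom.mem_ker]
  ext x
  apply (algebraMap L M).injective
  rw [rnHom_commutes, h, AlgEquiv.one_apply]

/-- The intermediate field generated by `L` and `F` is everything when no nontrivial automorphism
fixes both. -/
theorem adjoin_union_eq_top [IsGalois K M]
    (hinf : (rnHom K L M).ker ⊓ (rnHom K F M).ker = ⊥) :
    IntermediateField.adjoin K
      (Set.range (algebraMap L M) ∪ Set.range (algebraMap F M)) = ⊤ := by
  have hfix : (IntermediateField.adjoin K
      (Set.range (algebraMap L M) ∪ Set.range (algebraMap F M))).fixingSubgroup = ⊥ := by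
    rw [eq_bot_iff]
    intro g hg
    rw [IntermediateField.mem_fixingSubgroup_iff] at hg
    have h1 : g ∈ (rnHom K L M).ker := mem_ker_rnHom_of_fixes g (fun x =>
      hg _ (IntermediateField.subset_adjoin K _ (Or.inl ⟨x, rfl⟩)))
    have h2 : g ∈ (rnHom K F M).ker := mem_ker_rnHom_of_fixes g (fun x =>
      hg _ (IntermediateField.subset_adjoin K _ (Or.inr ⟨x, rfl⟩)))
    have : g ∈ (rnHom K L M).ker ⊓ (rnHom K F M).ker := ⟨h1, h2⟩
    rwa [hinf] at this
  have h := IsGalois.fixedField_fixingSubgroup (IntermediateField.adjoin K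
      (Set.range (algebraMap L M) ∪ Set.range (algebraMap F M)))
  rw [hfix, IntermediateField.fixedField_bot] at h
  exact h.symm

/-- `M = L·F` when no nontrivial automorphism fixes both `L` and `F`. -/
theorem adjoin_range_eq_top [IsGalois K M]
    (hinf : (rnHom K L M).ker ⊓ (rnHom K F M).ker = ⊥) :
    Algebra.adjoin L (Set.range (algebraMap F M)) = ⊤ := by
  have hEtop := adjoin_union_eq_top (K := K) (L := L) (F := F) (M := M) hinf
  have halg := IntermediateField.adjoin_toSubalgebra (F := K) (E := M)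
    (Set.range (algebraMap L M) ∪ Set.range (algebraMap F M))
  rw [hEtop] at halg
  rw [eq_top_iff]
  intro x _
  have hx : x ∈ Algebra.adjoin K (Set.range (algebraMap L M) ∪ Set.range (algebraMap F M)) := by
    rw [← halg]
    exact Algebra.mem_top
  refine Algebra.adjoin_induction (p := fun y _ => y ∈ Algebra.adjoin L (Set.range (algebraMap F M)))
    ?_ ?_ ?_ ?_ hx
  · rintro y (⟨l, rfl⟩ | ⟨f, rfl⟩)
    · exact Subalgebra.algebraMap_mem _ l
    · exact Algebra.subset_adjoin ⟨f, rfl⟩
  · intro k
    rw [IsScalarTower.algebraMap_apply K L M]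
    exact Subalgebra.algebraMap_mem _ _
  · intro a b _ _ ha hb
    exact Subalgebra.add_mem _ ha hb
  · intro a b _ _ ha hb
    exact Subalgebra.mul_mem _ ha hb

end gen

section cyclo

variable {K L F M C D : Type*} [Field K] [Field L] [Field F] [Field M] [Field C] [Field D]
  [Algebra K L] [Algebra K F] [Algebra K M] [Algebra L M] [Algebra F M]
  [IsScalarTower K L M] [IsScalarTower K F M]
  [Algebra K C] [Algebra F C] [IsScalarTower K F C]
  [Algebra M D] [Algebra L D] [IsScalarTower L M D] [Algebra C D] [Algebra K D]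
  [IsScalarTower K C D] [IsScalarTower K L D]

/-- If `M = L(F)`, `F ⊆ C = K(ζ_n)` and `D = M(ζ_n) ⊇ C` compatibly, then `D = L(ζ_n)`. -/
theorem isCyclotomicExtension_top (n : ℕ) [NeZero n] [IsCyclotomicExtension {n} K C]
    [IsCyclotomicExtension {n} M D]
    (hcompat : ∀ x : F, algebraMap M D (algebraMap F M x) = algebraMap C D (algebraMap F C x))
    (hgen : Algebra.adjoin L (Set.range (algebraMap F M)) = ⊤) :
    IsCyclotomicExtension {n} L D := by
  rw [IsCyclotomicExtension.iff_adjoin_eq_top]
  obtain ⟨h1, h2⟩ := (IsCyclotomicExtension.iff_adjoin_eq_top {n} M D).mp inferInstance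
  obtain ⟨-, h2C⟩ := (IsCyclotomicExtension.iff_adjoin_eq_top {n} K C).mp inferInstance
  refine ⟨h1, ?_⟩
  set R : Set D := {b : D | ∃ s ∈ ({n} : Set ℕ), s ≠ 0 ∧ b ^ s = 1} with hR
  -- the image of `C` lies in `L(ζ)`
  have hC : ∀ c : C, algebraMap C D c ∈ Algebra.adjoin L R := by
    intro c
    have hc : c ∈ Algebra.adjoin K {b : C | ∃ s ∈ ({n} : Set ℕ), s ≠ 0 ∧ b ^ s = 1} := by
      rw [h2C]; exact Algebra.mem_top
    refine Algebra.adjoin_induction
      (p := fun y _ => algebraMap C D y ∈ Algebra.adjoin L R) ?_ ?_ ?_ ?_ hc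
    · rintro y ⟨s, hs, hs0, hy⟩
      apply Algebra.subset_adjoin
      exact ⟨s, hs, hs0, by rw [← map_pow, hy, map_one]⟩
    · intro k
      rw [← IsScalarTower.algebraMap_apply K C D, IsScalarTower.algebraMap_apply K L D]
      exact Subalgebra.algebraMap_mem _ _
    · intro a b _ _ ha hb
      rw [map_add]
      exact Subalgebra.add_mem _ ha hb
    · intro a b _ _ ha hb
      rw [map_mul]
      exact Subalgebra.mul_mem _ ha hb
  -- the image of `M` lies in `L(ζ)`
  have hM : ∀ m : M, algebraMap M D m ∈ Algebra.adjoin L R := by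
    intro m
    have hm : m ∈ Algebra.adjoin L (Set.range (algebraMap F M)) := by
      rw [hgen]; exact Algebra.mem_top
    refine Algebra.adjoin_induction
      (p := fun y _ => algebraMap M D y ∈ Algebra.adjoin L R) ?_ ?_ ?_ ?_ hm
    · rintro y ⟨f, rfl⟩
      rw [hcompat]
      exact hC _
    · intro l
      rw [← IsScalarTower.algebraMap_apply L M D]
      exact Subalgebra.algebraMap_mem _ _
    · intro a b _ _ ha hb
      rw [map_add]
      exact Subalgebra.add_mem _ ha hb
    · intro a b _ _ ha hb
      rw [map_mul]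
      exact Subalgebra.mul_mem _ ha hb
  rw [eq_top_iff]
  intro x _
  have hx : x ∈ Algebra.adjoin M R := by
    rw [h2]; exact Algebra.mem_top
  refine Algebra.adjoin_induction
    (p := fun y _ => y ∈ Algebra.adjoin L R) ?_ ?_ ?_ ?_ hx
  · intro y hy
    exact Algebra.subset_adjoin hy
  · intro m
    exact hM m
  · intro a b _ _ ha hb
    exact Subalgebra.add_mem _ ha hb
  · intro a b _ _ ha hb
    exact Subalgebra.mul_mem _ ha hb

end cyclo

end Fermat.Agent.S55.Global.CycloNormAdjoin
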