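/-
S55 / GLOBAL block, row G.cycloArtin (E2) `CycloNorm`, step (i) (helper69): reduction of invariant
classes to global elements.

`exists_deltaC_add_sum` : `M/K` Galois, `T` admissible, `N₁ ≤ Gal(M/K)` any (finite) subgroup.
Every `Gal(M/K)`-invariant class `a ∈ C_{M,T}` is `deltaC α + Σ_{s ∈ N₁} s • b` with `α ∈ Kˣ`
(`H¹(E_{M,T}) = 0` (L7), descent of invariant units (L8), weak approximation with exponent `|N₁|`).
So for (E2) it suffices to show that the class of a GLOBAL `α ∈ Kˣ` is an `N₁`-norm.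
-/
import Mathlib
import Fermat.Agent.S55.Global.Bridge2Surj
import Fermat.Agent.S55.Global.Bridge2Inputs

set_option autoImplicit false
set_option linter.unusedSectionVars false

open NumberField IsDedekindDomain TensorProduct

namespace Fermat.Agent.S55.Global.CycloNormReduce

open Fermat.Agent.S55.Global.Objects Fermat.Agent.S55.Global.Objects2
  Fermat.Agent.S55.Global.Blocks2 Fermat.Agent.S55.Global.Bridge2Units
  Fermat.Agent.S55.Global.Bridge2Surj Fermat.Agent.S55.Global.Bridge2Inputs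

section reduction

variable {K : Type} [Field K] [NumberField K] {M : Type} [Field M] [NumberField M] [Algebra K M]
  {T : Finset Nat.Primes} {p : ℕ}

/-- **(E2), step (i)**: every `Gal(M/K)`-invariant class of `C_{M,T}` is the class of a global
element `α ∈ Kˣ` up to an `N₁`-norm, for ANY finite subgroup `N₁ ≤ Gal(M/K)`. -/
theorem exists_deltaC_add_sum [IsGalois K M] (hadm : AdmissibleQ K M p T)
    (N₁ : Subgroup (M ≃ₐ[K] M)) [Fintype N₁] (a : Cn K M T)
    (ha : ∀ g : M ≃ₐ[K] M, (Cn K M T).ρ g a = a) :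
    ∃ (α : Kˣ) (b : Cn K M T), a = deltaC K M T (Additive.ofMul α) +
      ∑ s : N₁, (Cn K M T).ρ (s : M ≃ₐ[K] M) b := by
  obtain ⟨u, rfl⟩ := exists_unit_lift a
  obtain ⟨e, he, hfix⟩ := exists_fixed_of_class_fixed hadm u
    (fun τ => smul_div_mem_of_fixed τ u (ha τ))
  obtain ⟨y, hy⟩ := exists_baseUnits_of_fixed_JU _ hfix
  have hn : Fintype.card N₁ ≠ 0 := Fintype.card_ne_zero
  obtain ⟨α, z, hyz⟩ := approxPow_JU (Fintype.card N₁) hn y
  refine ⟨α, (JQtoCQ M T).hom (ofUnit M T (Additive.ofMul (baseUnits K M (QT T) z))), ?_⟩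
  have hu : u = inclUnits ℚ M (QT T) e *
      (inclUnits ℚ M (QT T) (Units.map ((algebraMap K M : K →+* M) : K →* M) α) *
        baseUnits K M (QT T) (z ^ Fintype.card N₁)) := by
    rw [inclUnits_map, ← map_mul, ← hyz, ← hy, mul_div_cancel]
  have hsum : ∑ s : N₁, (Cn K M T).ρ (s : M ≃ₐ[K] M)
      ((JQtoCQ M T).hom (ofUnit M T (Additive.ofMul (baseUnits K M (QT T) z)))) =
      (JQtoCQ M T).hom (ofUnit M T (Additive.ofMul
        (baseUnits K M (QT T) (z ^ Fintype.card N₁)))) := by
    have h1 : ∀ s : N₁, (Cn K M T).ρ (s : M ≃ₐ[K] M)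
        ((JQtoCQ M T).hom (ofUnit M T (Additive.ofMul (baseUnits K M (QT T) z)))) =
        (JQtoCQ M T).hom (ofUnit M T (Additive.ofMul (baseUnits K M (QT T) z))) := by
      intro s
      rw [rho_Cn_JQtoCQ, rho_Jn_ofUnit, smul_baseUnits]
    rw [Finset.sum_congr rfl (fun s _ => h1 s), Finset.sum_const, Finset.card_univ, map_pow,
      ofMul_pow, map_nsmul, map_nsmul]
  conv_lhs => rw [hu]
  rw [ofMul_mul, ofMul_mul, map_add, map_add, map_add, map_add, JQtoCQ_inclUnits_eq_zero he,
    zero_add, hsum, deltaC_apply]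

end reduction

end Fermat.Agent.S55.Global.CycloNormReduce
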