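/-
S55 / GLOBAL block, row G.cycloArtin (E2) `CycloNorm`, step (ii-a) (helper69): base change `K → L`.

Tower `K → L → M`, `N₁ = ker (Gal(M/K) → Gal(L/K))`.
* `kerEquiv : Gal(M/L) ≃ N₁`;
* `deltaC_base` : the class of `α ⊗ 1` in `C_{M,T}` is the same computed from `K` or from `L`;
* `sum_ker_eq_normC` : the `N₁`-norm on `C_{M,T}` is `Blocks2.normC L M T`;
* `exists_sum_of_delta_eq_one` : `δ_{M/L}(α) = 1` ⇒ the class of `α` is an `N₁`-norm;
* `exists_sum_of_invariant` : **(E2) from `δ_{M/L}|_{Kˣ} = 1`** (with `CycloNormReduce`).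
-/
import Mathlib
import Fermat.Agent.S55.Global.CycloNormReduce
import Fermat.Agent.S55.Global.TransitionQ

set_option autoImplicit false
set_option linter.unusedSectionVars false

open NumberField IsDedekindDomain TensorProduct

namespace Fermat.Agent.S55.Global.CycloNormBase

open Fermat.Agent.S55.Global.Objects Fermat.Agent.S55.Global.Objects2
  Fermat.Agent.S55.Global.Blocks2 Fermat.Agent.S55.Global.Bridge2Units
  Fermat.Agent.S55.Global.Bridge2Surj Fermat.Agent.S55.Global.TransitionQ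
  Fermat.Agent.S55.Global.CycloNormReduce

variable (K : Type) [Field K] [NumberField K]
variable (L : Type) [Field L] [NumberField L] [Algebra K L]
variable (M : Type) [Field M] [NumberField M] [Algebra K M] [Algebra L M] [IsScalarTower K L M]
variable [Normal K L]

theorem restrictScalars_mem_ker (τ : M ≃ₐ[L] M) : τ.restrictScalars K ∈ (rnHom K L M).ker := by
  rw [MonoidHom.mem_ker]
  apply AlgEquiv.ext
  intro y
  apply (algebraMap L M).injective
  rw [rnHom_commutes]
  exact τ.commutes y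

theorem commutes_of_mem_ker {g : M ≃ₐ[K] M} (hg : g ∈ (rnHom K L M).ker) (x : L) :
    g (algebraMap L M x) = algebraMap L M x := by
  rw [MonoidHom.mem_ker] at hg
  rw [← rnHom_commutes, hg]
  rfl

/-- `Gal(M/L) ≃ ker (Gal(M/K) → Gal(L/K))`. -/
noncomputable def kerEquiv : (M ≃ₐ[L] M) ≃ (rnHom K L M).ker where
  toFun τ := ⟨τ.restrictScalars K, restrictScalars_mem_ker K L M τ⟩
  invFun g := { (g : M ≃ₐ[K] M).toRingEquiv with
    commutes' := fun x => commutes_of_mem_ker K L M g.2 x }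
  left_inv τ := by
    apply AlgEquiv.ext
    intro x
    rfl
  right_inv g := by
    apply Subtype.ext
    apply AlgEquiv.ext
    intro x
    rfl

@[simp] theorem coe_kerEquiv (τ : M ≃ₐ[L] M) :
    ((kerEquiv K L M τ : (rnHom K L M).ker) : M ≃ₐ[K] M) = τ.restrictScalars K := rfl

variable (T : Finset Nat.Primes)

/-- The class of `α ⊗ 1` in `C_{M,T}` computed from `K` or from `L`. -/
theorem deltaC_base (α : Kˣ) :
    (deltaC K M T (Additive.ofMul α) : CQ M T) =
      deltaC L M T (Additive.ofMul (Units.map ((algebraMap K L : K →+* L) : K →* L) α)) := by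
  rw [deltaC_apply, deltaC_apply]
  congr 4
  apply Units.ext
  show algebraMap K M (α : K) = algebraMap L M (algebraMap K L (α : K))
  exact IsScalarTower.algebraMap_apply K L M _

/-- The `N₁`-norm on `C_{M,T}`, `N₁ = ker (Gal(M/K) → Gal(L/K))`, is the norm of `Gal(M/L)`. -/
theorem sum_ker_eq_normC [Fintype (M ≃ₐ[L] M)] [Fintype (rnHom K L M).ker] (b : CQ M T) :
    (∑ s : (rnHom K L M).ker, (Cn K M T).ρ (s : M ≃ₐ[K] M) b : CQ M T) = normC L M T b := by
  show _ = ∑ τ : M ≃ₐ[L] M, (Cn L M T).ρ τ b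
  refine (Fintype.sum_equiv (kerEquiv K L M) _ _ (fun τ => ?_)).symm
  rfl

variable {K L M T}

/-- **(E2), step (ii-a)**: if the class of `α ∈ Kˣ` dies in `X_{M/L}`, it is an `N₁`-norm. -/
theorem exists_sum_of_delta_eq_one [Fintype (M ≃ₐ[L] M)] [Fintype (rnHom K L M).ker]
    (σ : M ≃ₐ[L] M) (α : Kˣ)
    (h : delta L M T σ (Units.map ((algebraMap K L : K →+* L) : K →* L) α) = 1) :
    ∃ b : Cn K M T, deltaC K M T (Additive.ofMul α) =
      ∑ s : (rnHom K L M).ker, (Cn K M T).ρ (s : M ≃ₐ[K] M) b := by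
  rw [delta_eq_one_iff] at h
  obtain ⟨b, hb⟩ := h
  refine ⟨b, ?_⟩
  rw [sum_ker_eq_normC K L M T b, hb]
  exact deltaC_base K L M T α

/-- **(E2) from the vanishing of `δ_{M/L}` on `Kˣ`.** -/
theorem exists_sum_of_invariant [IsGalois K M] [Fintype (M ≃ₐ[L] M)] [Fintype (rnHom K L M).ker]
    {p : ℕ} (hadm : AdmissibleQ K M p T) (σ : M ≃ₐ[L] M)
    (hδ : ∀ α : Kˣ, delta L M T σ (Units.map ((algebraMap K L : K →+* L) : K →* L) α) = 1)
    (a : Cn K M T) (ha : ∀ g : M ≃ₐ[K] M, (Cn K M T).ρ g a = a) :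
    ∃ b : Cn K M T, a = ∑ s : (rnHom K L M).ker, (Cn K M T).ρ (s : M ≃ₐ[K] M) b := by
  obtain ⟨α, b, hab⟩ := exists_deltaC_add_sum hadm (rnHom K L M).ker a ha
  obtain ⟨b', hb'⟩ := exists_sum_of_delta_eq_one σ α (hδ α)
  refine ⟨b' + b, ?_⟩
  rw [hab, hb', ← Finset.sum_add_distrib]
  refine Finset.sum_congr rfl fun s _ => ?_
  rw [map_add]

end Fermat.Agent.S55.Global.CycloNormBase
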