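/-
S55 / GLOBAL block, row 152 input (E2) (helper61): `CycloNorm p` — in a cyclotomic setting
`K ⊆ L, F ⊆ M = L·F` (`F/K` a cyclic layer of a `p`-power cyclotomic extension, `[F:K] ∣ [L:K]`),
every `Gal(M/K)`-invariant class of `C_{M,T}` is a norm from `C_{M,T}` for `Gal(M/L)`.

Assembly (A) of the split #2191: the Artin isomorphism for the cyclic layer `M/L`
(`layer_equiv`, from `CycloArtinQ.exists_artin_equiv_Q`) turns the vanishing of the symbol of
elements of `K` (plumbing (P), `CycloArtinTower.artHom_algebraMap_eq_one_Q`) into a norm statement;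
the reduction (R) writes invariant classes as `δ(α) + norm`, `α ∈ Kˣ`.
-/
import Fermat.Agent.S55.Global.CycloLayerH2
import Fermat.Agent.S55.Global.TransitionQ
import Fermat.Agent.S55.Global.CycloM2Core

set_option autoImplicit false
set_option linter.unusedSectionVars false
set_option linter.style.haveILetI false
set_option linter.dupNamespace false

open NumberField IsDedekindDomain TensorProduct

namespace Fermat.Agent.S55.Global.CycloNormE2

open Fermat.Agent.S55.Global.Objects Fermat.Agent.S55.Global.Objects2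
  Fermat.Agent.S55.Global.Blocks2 Fermat.Agent.S55.Global.Bridge2Units
  Fermat.Agent.S55.Global.Bridge2Surj Fermat.Agent.S55.Global.CycloArtinIdeal
  Fermat.Agent.S55.Global.CycloArtinAbs Fermat.Agent.S55.Global.CycloArtinQ
  Fermat.Agent.S55.Global.CycloLayerH2 Fermat.Agent.S55.Global.TransitionQ

noncomputable section

section top

variable {K L M : Type} [Field K] [NumberField K] [Field L] [NumberField L] [Field M]
  [NumberField M] [Algebra K L] [Algebra K M] [Algebra L M] [IsScalarTower K L M]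

/-- Heredity of the setting to the top layer `M/L` of a tower `K ⊆ L ⊆ M`. -/
theorem setting_top {p : ℕ} {T : Finset Nat.Primes} (hs : Setting p K M T) : Setting p L M T := by
  haveI := hs.galois
  haveI : IsGalois L M := IsGalois.tower_top_of_isGalois K L M
  refine ⟨hs.prime, hs.odd, ?_, inferInstance, ?_, ⟨hs.adm.mem_p, ?_, hs.adm.principal⟩⟩
  · obtain ⟨ζ, hζ⟩ := hs.zeta
    exact ⟨algebraMap K L ζ, hζ.map_of_injective (algebraMap K L).injective⟩
  · obtain ⟨n, hn⟩ := hs.ppower
    have hmul : Module.finrank K L * Module.finrank L M = Module.finrank K M :=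
      Module.finrank_mul_finrank K L M
    have hdvd : Module.finrank L M ∣ p ^ n := by
      rw [← hn, ← hmul]
      exact Dvd.intro_left _ rfl
    obtain ⟨m, -, hm⟩ := (Nat.dvd_prime_pow hs.prime).1 hdvd
    exact ⟨m, hm⟩
  · intro w ⟨σ, hσ, hσ1⟩
    refine hs.adm.ram w ⟨σ.restrictScalars K, ?_, ?_⟩
    · intro x
      exact hσ x
    · intro h1
      apply hσ1
      ext x
      have := congr($h1 x)
      exact this

variable {F : Type} [Field F] [NumberField F] [Algebra K F] [Algebra F M] [IsScalarTower K F M]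
  [Normal K L] [Normal K F]

/-- `Gal(M/L) → Gal(F/K)`, restriction. -/
def resTop : (M ≃ₐ[L] M) →* (F ≃ₐ[K] F) :=
  (rnHom K F M).comp (AlgEquiv.restrictScalarsHom K)

theorem restrictScalars_mem_ker (τ : M ≃ₐ[L] M) :
    (τ.restrictScalars K) ∈ (rnHom K L M).ker := by
  rw [MonoidHom.mem_ker]
  ext x
  apply (algebraMap L M).injective
  rw [rnHom_commutes, AlgEquiv.restrictScalars_apply, τ.commutes, AlgEquiv.one_apply]

theorem resTop_injective (hinf : (rnHom K L M).ker ⊓ (rnHom K F M).ker = ⊥) :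
    Function.Injective (resTop (K := K) (L := L) (M := M) (F := F)) := by
  rw [injective_iff_map_eq_one]
  intro τ hτ
  have h1 : τ.restrictScalars K ∈ (rnHom K L M).ker ⊓ (rnHom K F M).ker :=
    ⟨restrictScalars_mem_ker τ, MonoidHom.mem_ker.mpr hτ⟩
  rw [hinf, Subgroup.mem_bot] at h1
  ext x
  have := congr($h1 x)
  exact this

/-- The top layer `M/L` of `M = L·F` is cyclic when `F/K` is. -/
theorem isCyclic_top (hcyc : IsCyclic (F ≃ₐ[K] F))
    (hinf : (rnHom K L M).ker ⊓ (rnHom K F M).ker = ⊥) : IsCyclic (M ≃ₐ[L] M) :=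
  isCyclic_of_injective (resTop (K := K) (L := L) (M := M) (F := F)) (resTop_injective hinf)

end top

section layer

variable {K : Type} [Field K] [NumberField K] {F : Type} [Field F] [NumberField F] [Algebra K F]
  [IsGalois K F] {T : Finset Nat.Primes}

/-- The Artin isomorphism `X = ker(σ-1)/Nm ≃* Gal(F/K)` for a cyclic layer `F/K` inside a
`p^k`-cyclotomic extension `C/K` (instance form). -/
theorem layer_equiv {p : ℕ} (hD : H2CardDvd p) (hs : Setting p K F T)
    (σ : F ≃ₐ[K] F) (hgen : ∀ τ : F ≃ₐ[K] F, τ ∈ Subgroup.zpowers σ)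
    (k : ℕ) [NeZero (p ^ k)] (C : Type) [Field C] [NumberField C] [Algebra K C] [Algebra F C]
    [IsScalarTower K F C] [IsCyclotomicExtension {p ^ k} K C] :
    ∃ ψ : X K F T σ ≃* (F ≃ₐ[K] F), ∀ a : Kˣ,
      ψ (delta K F T σ a) = artHom F C (p ^ k) (placesAboveQ K T) a := by
  have hp : p.Prime := hs.prime
  have hp0 : p ≠ 0 := hp.ne_zero
  haveI : IsTotallyComplex K := by
    obtain ⟨ζ, hζ⟩ := hs.zeta
    have h3 : 3 ≤ p := by
      have := hp.two_le
      have := hs.odd
      omega
    exact Fermat.Agent.S14.NormSurjGlue.isTotallyComplex_of_isPrimitiveRoot h3 hζ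
  obtain ⟨m, hm⟩ := hs.ppower
  have hcardG : Nat.card (F ≃ₐ[K] F) = p ^ m := by
    rw [IsGalois.card_aut_eq_finrank, hm]
  have hTne : T.Nonempty := DescentUnits.nonempty_of_admissibleQ K F hs.adm
  have hδ : Function.Surjective (delta K F T σ) :=
    delta_surjective σ (fun c hc =>
      exists_deltaC_sub_mem_range hcardG σ hgen
        (fun u h => Bridge2Inputs.exists_fixed_of_class_fixed hs.adm u h)
        (fun u h => Bridge2Inputs.exists_baseUnits_of_fixed_JU u h)
        (fun y => approxPow_pow p hp0 m y) c hc)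
  have hker : ∀ a : Kˣ, delta K F T σ a = 1 → ∃ (ε u : Kˣ) (b : Fˣ),
      (∀ v : HeightOneSpectrum (𝓞 K), v ∉ placesAboveQ K T → v.valuation K (ε : K) = 1) ∧
      IsOneModAt K p k (u : K) ∧ (∀ v ∈ placesAboveQ K T, v.valuation K (u : K) = 1) ∧
      (a : K) = ε * Algebra.norm K (b : F) * u := by
    intro a ha
    obtain ⟨ε, y, hε, hy⟩ := exists_tunit_norm_of_delta_eq_one hTne σ a ha
    obtain ⟨b, u, h1, h2, h3⟩ := CycloM2Core.exists_decomp_units T k hs.adm.mem_p a ε y hy
    exact ⟨ε, u, b, fun v hv => (EUnitsQ_le T hε) v hv, h2, h3, h1⟩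
  obtain ⟨-, hdvd⟩ := hD K F T hs
  have hH2 : Nat.card (groupCohomology (Cn K F T) 2) = Nat.card (X K F T σ) := by
    rw [card_X, CyclicLayerInstQ.card_H2_eq_h0 K F T σ hgen]
  have hpos : 0 < Nat.card (X K F T σ) := by
    rw [← hH2]
    haveI := (hD K F T hs).1
    exact Nat.card_pos
  haveI : Finite (X K F T σ) := (Nat.card_pos_iff.mp hpos).2
  have hcard : Nat.card (X K F T σ) ≤ Module.finrank K F := by
    rw [← hH2]
    exact Nat.le_of_dvd Module.finrank_pos hdvd
  exact exists_artin_equiv_Q F C hp k hs.adm (delta K F T σ) hδ hker hcard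

/-- Elements with trivial symbol have a class in `C_{F,T}` which is a norm. -/
theorem deltaC_mem_range_of_artHom_eq_one {p : ℕ} (hD : H2CardDvd p) (hs : Setting p K F T)
    (hcyc : IsCyclic (F ≃ₐ[K] F))
    (k : ℕ) [NeZero (p ^ k)] (C : Type) [Field C] [NumberField C] [Algebra K C] [Algebra F C]
    [IsScalarTower K F C] [IsCyclotomicExtension {p ^ k} K C] (a : Kˣ)
    (ha : artHom F C (p ^ k) (placesAboveQ K T) a = 1) :
    deltaC K F T (Additive.ofMul a) ∈ (normC K F T).range := by
  obtain ⟨σ, hσ⟩ := hcyc.exists_generator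
  obtain ⟨ψ, hψ⟩ := layer_equiv hD hs σ hσ k C
  rw [← delta_eq_one_iff σ]
  apply ψ.injective
  rw [hψ, ha, map_one]

end layer

section normker

variable {K L M : Type} [Field K] [NumberField K] [Field L] [NumberField L] [Field M]
  [NumberField M] [Algebra K L] [Algebra K M] [Algebra L M] [IsScalarTower K L M] [Normal K L]

/-- `Gal(M/L) ≃ ker (Gal(M/K) → Gal(L/K))`. -/
def kerEquiv : (M ≃ₐ[L] M) ≃ (rnHom K L M).ker where
  toFun τ := ⟨τ.restrictScalars K, restrictScalars_mem_ker τ⟩
  invFun s :=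
    { (s : M ≃ₐ[K] M) with
      commutes' := fun x => by
        have h1 : rnHom K L M (s : M ≃ₐ[K] M) = 1 := MonoidHom.mem_ker.mp s.2
        have h2 := rnHom_commutes K L M (s : M ≃ₐ[K] M) x
        rw [h1, AlgEquiv.one_apply] at h2
        exact h2.symm }
  left_inv τ := by
    ext x
    rfl
  right_inv s := by
    ext x
    rfl

variable {T : Finset Nat.Primes}

/-- The `Gal(M/L)`-norm on `C_{M,T}` is the sum over `ker (Gal(M/K) → Gal(L/K))`. -/
theorem normC_eq_sum_ker [Fintype (M ≃ₐ[L] M)] [Fintype (rnHom K L M).ker] (b : Cn L M T) :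
    normC L M T b = ∑ s : (rnHom K L M).ker, (Cn K M T).ρ (s : M ≃ₐ[K] M) b := by
  have h1 : normC L M T b = ∑ τ : M ≃ₐ[L] M, (Cn L M T).ρ τ b := rfl
  rw [h1]
  exact Fintype.sum_equiv (kerEquiv (K := K) (L := L) (M := M)) _ _ (fun τ => rfl)

end normker

section main

/-- **(P)** of #2191 (field plumbing + tower functoriality), as a closed Prop. -/
def PlumbingProp (p : ℕ) : Prop :=
  ∀ (K L F M : Type) [Field K] [NumberField K] [Field L] [NumberField L] [Field F]
    [NumberField F] [Field M] [NumberField M] [Algebra K L] [Algebra K F] [Algebra K M]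
    [Algebra L M] [Algebra F M] [IsScalarTower K L M] [IsScalarTower K F M] [IsGalois K L]
    [IsGalois K F] [IsGalois K M] [IsGalois L M] (T : Finset Nat.Primes), Setting p K M T →
    ∀ (k : ℕ) [NeZero (p ^ k)] (C : Type) [Field C] [Algebra K C]
      [IsCyclotomicExtension {p ^ k} K C] (_ : F →ₐ[K] C),
      Module.finrank K F ∣ Module.finrank K L →
      (rnHom K L M).ker ⊓ (rnHom K F M).ker = ⊥ →
      ∃ (D : Type) (_ : Field D) (_ : NumberField D) (_ : Algebra L D) (_ : Algebra M D)
        (_ : IsScalarTower L M D) (_ : IsCyclotomicExtension {p ^ k} L D),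
        ∀ α : Kˣ, artHom M D (p ^ k) (placesAboveQ L T)
          (Units.map (algebraMap K L).toMonoidHom α) = 1

/-- **(R)** of #2191 (reduction of invariant classes to global elements of `K` modulo norms), as a
closed Prop. -/
def ReductionProp (p : ℕ) : Prop :=
  ∀ (K L M : Type) [Field K] [NumberField K] [Field L] [NumberField L] [Field M]
    [NumberField M] [Algebra K L] [Algebra K M] [Algebra L M] [IsScalarTower K L M]
    [IsGalois K M] [IsGalois L M] [Fintype (M ≃ₐ[L] M)] (T : Finset Nat.Primes),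
    Setting p K M T → ∀ (j : ℕ), Nat.card (M ≃ₐ[L] M) = p ^ j →
    ∀ (a : Cn K M T), (∀ g : M ≃ₐ[K] M, (Cn K M T).ρ g a = a) →
      ∃ (α : Kˣ) (b : Cn L M T), (a : Cn L M T) =
        deltaC L M T (Additive.ofMul (Units.map (algebraMap K L).toMonoidHom α)) +
          normC L M T b

/-- **(E2)** of row 152 (helper77 #2058). -/
def CycloNorm (p : ℕ) : Prop :=
  ∀ (K L F M : Type) [Field K] [NumberField K] [Field L] [NumberField L] [Field F]
    [NumberField F] [Field M] [NumberField M] [Algebra K L] [Algebra K F] [Algebra K M]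
    [Algebra L M] [Algebra F M] [IsScalarTower K L M] [IsScalarTower K F M] [IsGalois K L]
    [IsGalois K F] [IsGalois K M] (T : Finset Nat.Primes), Setting p K M T →
    IsCyclic (F ≃ₐ[K] F) →
    (∃ (k : ℕ) (C : Type) (_ : Field C) (_ : Algebra K C),
      IsCyclotomicExtension {p ^ k} K C ∧ Nonempty (F →ₐ[K] C)) →
    Module.finrank K F ∣ Module.finrank K L →
    (rnHom K L M).ker ⊓ (rnHom K F M).ker = ⊥ →
    ∀ [Fintype (rnHom K L M).ker] (a : Cn K M T), (∀ g : M ≃ₐ[K] M, (Cn K M T).ρ g a = a) →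
      ∃ b : Cn K M T, a = ∑ s : (rnHom K L M).ker, (Cn K M T).ρ (s : M ≃ₐ[K] M) b

/-- **(E2)** from the dévissage bound, the plumbing (P) and the reduction (R). -/
theorem cycloNorm_of {p : ℕ} (hD : H2CardDvd p) (hP : PlumbingProp p) (hR : ReductionProp p) :
    CycloNorm p := by
  intro K L F M _ _ _ _ _ _ _ _ _ _ _ _ _ _ _ _ _ _ T hs hcyc hC hdvd hinf _ a ha
  obtain ⟨k, C, _, _, hcyclo, ⟨φ⟩⟩ := hC
  haveI : IsGalois L M := IsGalois.tower_top_of_isGalois K L M
  haveI : NeZero (p ^ k) := ⟨pow_ne_zero k hs.prime.ne_zero⟩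
  have hsL : Setting p L M T := setting_top hs
  have hcycL : IsCyclic (M ≃ₐ[L] M) := isCyclic_top (K := K) (F := F) hcyc hinf
  obtain ⟨j, hj⟩ := hsL.ppower
  have hcardL : Nat.card (M ≃ₐ[L] M) = p ^ j := by
    rw [IsGalois.card_aut_eq_finrank, hj]
  obtain ⟨D, _, _, _, _, _, _, hvan⟩ := hP K L F M T hs k C φ hdvd hinf
  obtain ⟨α, b, hab⟩ := hR K L M T hs j hcardL a ha
  obtain ⟨b', hb'⟩ := deltaC_mem_range_of_artHom_eq_one hD hsL hcycL k D _ (hvan α)
  refine ⟨b' + b, ?_⟩
  rw [← normC_eq_sum_ker (K := K) (L := L) (M := M) (b' + b), map_add, hb']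
  exact hab

end main

end

end Fermat.Agent.S55.Global.CycloNormE2
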