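/-
S55 / GLOBAL block, row 152 input (E2), final assembly (helper61): `CycloNorm p` from the dévissage
bound and the field plumbing (P) alone — the reduction (R) is helper69's
`CycloNormBase.exists_sum_of_invariant`.
-/
import Fermat.Agent.S55.Global.CycloNormE2
import Fermat.Agent.S55.Global.CycloNormBase

set_option autoImplicit false
set_option linter.unusedSectionVars false
set_option linter.style.haveILetI false

open NumberField IsDedekindDomain TensorProduct

namespace Fermat.Agent.S55.Global.CycloNormE2Final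

open Fermat.Agent.S55.Global.Objects Fermat.Agent.S55.Global.Objects2
  Fermat.Agent.S55.Global.Blocks2 Fermat.Agent.S55.Global.Bridge2Units
  Fermat.Agent.S55.Global.Bridge2Surj Fermat.Agent.S55.Global.CycloArtinAbs
  Fermat.Agent.S55.Global.CycloNormE2 Fermat.Agent.S55.Global.TransitionQ

/-- **(E2)** from the dévissage bound and the plumbing (P). -/
theorem cycloNorm_of_plumbing {p : ℕ} (hD : H2CardDvd p) (hP : PlumbingProp p) :
    CycloNorm p := by
  intro K L F M _ _ _ _ _ _ _ _ _ _ _ _ _ _ _ _ _ _ T hs hcyc hC hdvd hinf _ a ha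
  obtain ⟨k, C, _, _, hcyclo, ⟨φ⟩⟩ := hC
  haveI : IsGalois L M := IsGalois.tower_top_of_isGalois K L M
  haveI : NeZero (p ^ k) := ⟨pow_ne_zero k hs.prime.ne_zero⟩
  have hsL : Setting p L M T := setting_top hs
  have hcycL : IsCyclic (M ≃ₐ[L] M) := isCyclic_top (K := K) (F := F) hcyc hinf
  obtain ⟨D, _, _, _, _, _, _, hvan⟩ := hP K L F M T hs k C φ hdvd hinf
  obtain ⟨σ, hσ⟩ := hcycL.exists_generator
  obtain ⟨ψ, hψ⟩ := layer_equiv hD hsL σ hσ k D
  have hδ : ∀ α : Kˣ,
      delta L M T σ (Units.map ((algebraMap K L : K →+* L) : K →* L) α) = 1 := by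
    intro α
    apply ψ.injective
    rw [hψ, map_one]
    exact hvan α
  exact CycloNormBase.exists_sum_of_invariant hs.adm σ hδ a ha

end Fermat.Agent.S55.Global.CycloNormE2Final
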