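import Mathlib
import Fermat.Agent.S55.Global.CycloArtinQ
import Fermat.Agent.S55.Global.TransitionQ

/-!
# S55 / Global: field plumbing for (E2) `CycloNorm` (piece (P) of helper61's split)

Context: number fields `K → L → M`, `K → F → M`, all Galois over `K`, with
`ker (rnHom K L M) ⊓ ker (rnHom K F M) = ⊥` (i.e. `M = L·F`), and `F ⊆ C = K(ζ_n)`.

* `resTop : Gal(M/L) →* Gal(F/K)`, injective; `isCyclic_top`.
* `adjoin_range_eq_top : Algebra.adjoin L (range (algebraMap F M)) = ⊤`.
* `setting_top : Setting p K M T → Setting p L M T` (heredity for an abstract tower).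
* `exists_algHom_top`, `isCyclotomicExtension_base` : `D = M(ζ_n)` receives `C` over `F` and is
  `n`-cyclotomic over `L`.
* `artHom_eq_one_of_top` : the cyclotomic Artin symbol of `M/L` kills the elements of `K`
  (when `[F:K] ∣ [L:K]`), for any such `D`.
* `exists_cyclo_top` : the packaged existential statement with `D := CyclotomicField (p^k) M`.
-/

set_option autoImplicit false
set_option linter.unusedSectionVars false
set_option linter.style.haveILetI false

namespace Fermat.Agent.S55.Global.CycloNormPlumbing

open NumberField IsDedekindDomain Polynomial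
open Fermat.Agent.S55.Global.Objects Fermat.Agent.S55.Global.Objects2
open Fermat.Agent.S55.Global.Blocks2 Fermat.Agent.S55.Global.TransitionQ

section Galois

variable {K L F M : Type} [Field K] [NumberField K] [Field L] [NumberField L]
  [Field F] [NumberField F] [Field M] [NumberField M]
  [Algebra K L] [Algebra K F] [Algebra K M] [Algebra L M] [Algebra F M]
  [IsScalarTower K L M] [IsScalarTower K F M]
  [IsGalois K L] [IsGalois K F]

/-- Restriction `Gal(M/L) → Gal(F/K)`. -/
noncomputable def resTop : (M ≃ₐ[L] M) →* (F ≃ₐ[K] F) :=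
  (rnHom K F M).comp (AlgEquiv.restrictScalarsHom K)

theorem algebraMap_resTop (τ : M ≃ₐ[L] M) (x : F) :
    algebraMap F M (resTop (K := K) τ x) = τ (algebraMap F M x) :=
  rnHom_commutes K F M (τ.restrictScalars K) x

theorem restrictScalars_mem_ker (τ : M ≃ₐ[L] M) :
    τ.restrictScalars K ∈ (rnHom K L M).ker := by
  rw [MonoidHom.mem_ker]
  ext x
  apply (algebraMap L M).injective
  rw [rnHom_commutes, AlgEquiv.restrictScalars_apply, τ.commutes, AlgEquiv.one_apply]

theorem resTop_injective (hinf : (rnHom K L M).ker ⊓ (rnHom K F M).ker = ⊥) :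
    Function.Injective (resTop (K := K) (L := L) (F := F) (M := M)) := by
  rw [injective_iff_map_eq_one]
  intro τ hτ
  have h1 : τ.restrictScalars K ∈ (rnHom K L M).ker ⊓ (rnHom K F M).ker :=
    ⟨restrictScalars_mem_ker τ, hτ⟩
  rw [hinf, Subgroup.mem_bot] at h1
  ext x
  exact congr($h1 x)

theorem isCyclic_top (hcyc : IsCyclic (F ≃ₐ[K] F))
    (hinf : (rnHom K L M).ker ⊓ (rnHom K F M).ker = ⊥) : IsCyclic (M ≃ₐ[L] M) :=
  isCyclic_of_injective (resTop (K := K) (L := L) (F := F) (M := M)) (resTop_injective hinf)

variable [IsGalois L M]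

theorem adjoin_range_eq_top (hinf : (rnHom K L M).ker ⊓ (rnHom K F M).ker = ⊥) :
    Algebra.adjoin L (Set.range (algebraMap F M)) = ⊤ := by
  set E : IntermediateField L M := IntermediateField.adjoin L (Set.range (algebraMap F M)) with hE
  have hfix : E.fixingSubgroup = ⊥ := by
    rw [eq_bot_iff]
    intro τ hτ
    rw [Subgroup.mem_bot]
    apply resTop_injective (K := K) hinf
    rw [map_one]
    ext x
    apply (algebraMap F M).injective
    rw [algebraMap_resTop, AlgEquiv.one_apply]
    rw [IntermediateField.mem_fixingSubgroup_iff] at hτ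
    exact hτ _ (IntermediateField.subset_adjoin L _ ⟨x, rfl⟩)
  have htop : E = ⊤ := by
    rw [← IsGalois.fixedField_fixingSubgroup E, hfix, IntermediateField.fixedField_bot]
  have halg : E.toSubalgebra = Algebra.adjoin L (Set.range (algebraMap F M)) :=
    IntermediateField.adjoin_toSubalgebra _
  rw [← halg, htop, IntermediateField.top_toSubalgebra]

end Galois


section Heredity

variable {K L M : Type} [Field K] [NumberField K] [Field L] [NumberField L]
  [Field M] [NumberField M] [Algebra K L] [Algebra K M] [Algebra L M] [IsScalarTower K L M]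

theorem admissibleQ_top {p : ℕ} {T : Finset Nat.Primes} (h : AdmissibleQ K M p T) :
    AdmissibleQ L M p T where
  mem_p := h.mem_p
  ram := by
    intro w ⟨σ, hσ, hσ1⟩
    refine h.ram w ⟨σ.restrictScalars K, ?_, ?_⟩
    · intro x
      exact hσ x
    · intro h1
      apply hσ1
      ext x
      have := congr($h1 x)
      exact this
  principal := h.principal

/-- **Heredity** for an abstract tower `K → L → M`. -/
theorem setting_top {p : ℕ} {T : Finset Nat.Primes} (hs : Setting p K M T) : Setting p L M T := by
  haveI := hs.galois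
  refine ⟨hs.prime, hs.odd, ?_, IsGalois.tower_top_of_isGalois K L M, ?_, admissibleQ_top hs.adm⟩
  · obtain ⟨ζ, hζ⟩ := hs.zeta
    exact ⟨algebraMap K L ζ, hζ.map_of_injective (algebraMap K L).injective⟩
  · obtain ⟨n, hn⟩ := hs.ppower
    have hmul : Module.finrank K L * Module.finrank L M = Module.finrank K M :=
      Module.finrank_mul_finrank K L M
    have hdvd : Module.finrank L M ∣ p ^ n := by
      rw [← hn, ← hmul]
      exact Dvd.intro_left _ rfl
    obtain ⟨m, -, hm⟩ := (Nat.dvd_prime_pow hs.prime).1 hdvd
    exact ⟨m, hm⟩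

end Heredity


section Top

/-- `K → L → M → D` towers give the tower `K → L → D`. -/
theorem isScalarTower_of_mid (K L M D : Type) [Field K] [Field L] [Field M] [Field D]
    [Algebra K L] [Algebra K M] [Algebra L M] [IsScalarTower K L M]
    [Algebra K D] [Algebra L D] [Algebra M D] [IsScalarTower K M D] [IsScalarTower L M D] :
    IsScalarTower K L D :=
  IsScalarTower.of_algebraMap_eq fun x => by
    rw [IsScalarTower.algebraMap_apply K M D, IsScalarTower.algebraMap_apply K L M,
      ← IsScalarTower.algebraMap_apply L M D]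

/-- `K → F → C → D` and `K → F → D` towers give the tower `K → C → D`. -/
theorem isScalarTower_of_bot (K F C D : Type) [Field K] [Field F] [Field C] [Field D]
    [Algebra K F] [Algebra K C] [Algebra F C] [IsScalarTower K F C]
    [Algebra K D] [Algebra F D] [Algebra C D] [IsScalarTower K F D] [IsScalarTower F C D] :
    IsScalarTower K C D :=
  IsScalarTower.of_algebraMap_eq fun x => by
    rw [IsScalarTower.algebraMap_apply K F D, IsScalarTower.algebraMap_apply K F C,
      ← IsScalarTower.algebraMap_apply F C D]

/-- `C = K(ζ_n) ⊇ F` embeds over `F` into every extension `D` of `M ⊇ F` that is `n`-cyclotomic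
over `M`. -/
theorem exists_algHom_top (K : Type) {F M : Type} [Field K] [Field F] [Field M]
    [Algebra K F] [Algebra F M] (n : ℕ) [NeZero n]
    (D : Type) [Field D] [Algebra F D] [Algebra M D] [IsScalarTower F M D]
    (C : Type) [Field C] [Algebra K C] [IsCyclotomicExtension {n} K C] [Algebra F C]
    [IsScalarTower K F C] [IsCyclotomicExtension {n} M D] : Nonempty (C →ₐ[F] D) := by
  haveI : IsCyclotomicExtension {n} F C := CycloRayNorm.isCyclotomicExtension_tower_top K n
  haveI : Polynomial.IsSplittingField F C (X ^ n - 1) :=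
    IsCyclotomicExtension.isSplittingField_X_pow_sub_one n F C
  obtain ⟨ζ, hζ⟩ := IsCyclotomicExtension.exists_isPrimitiveRoot M D (Set.mem_singleton n)
    (NeZero.ne n)
  refine ⟨Polynomial.IsSplittingField.lift C (X ^ n - 1 : F[X]) ?_⟩
  rw [Polynomial.map_sub, Polynomial.map_one, Polynomial.map_pow, Polynomial.map_X]
  exact X_pow_sub_one_splits hζ

/-- `D = M(ζ_n)` is `n`-cyclotomic over `L` as soon as `M = L·F` with `F ⊆ C = K(ζ_n)`. -/
theorem isCyclotomicExtension_base (K : Type) {L F M : Type} [Field K] [Field L] [Field F] [Field M]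
    [Algebra K L] [Algebra K F] [Algebra K M] [Algebra L M] [Algebra F M]
    [IsScalarTower K L M] [IsScalarTower K F M] (n : ℕ) [NeZero n]
    (D : Type) [Field D] [Algebra K D] [Algebra L D] [Algebra F D] [Algebra M D]
    [IsScalarTower K M D] [IsScalarTower L M D] [IsScalarTower F M D]
    (C : Type) [Field C] [Algebra K C] [IsCyclotomicExtension {n} K C] [Algebra F C]
    [IsScalarTower K F C] [Algebra C D] [IsScalarTower F C D]
    [IsCyclotomicExtension {n} M D]
    (hgen : Algebra.adjoin L (Set.range (algebraMap F M)) = ⊤) :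
    IsCyclotomicExtension {n} L D := by
  haveI := isScalarTower_of_mid K L M D
  haveI := isScalarTower_of_mid K F M D
  haveI := isScalarTower_of_bot K F C D
  rw [IsCyclotomicExtension.iff_adjoin_eq_top]
  obtain ⟨h1, h2⟩ := (IsCyclotomicExtension.iff_adjoin_eq_top {n} M D).mp inferInstance
  refine ⟨h1, ?_⟩
  set S : Set D := {b : D | ∃ m : ℕ, m ∈ ({n} : Set ℕ) ∧ m ≠ 0 ∧ b ^ m = 1} with hS
  set A := Algebra.adjoin L S with hA
  have hC : ∀ c : C, algebraMap C D c ∈ A := by
    obtain ⟨-, hC2⟩ := (IsCyclotomicExtension.iff_adjoin_eq_top {n} K C).mp inferInstance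
    intro c
    have hc : c ∈ Algebra.adjoin K {b : C | ∃ m : ℕ, m ∈ ({n} : Set ℕ) ∧ m ≠ 0 ∧ b ^ m = 1} := by
      rw [hC2]; trivial
    induction hc using Algebra.adjoin_induction with
    | mem x hx =>
      apply Algebra.subset_adjoin
      obtain ⟨m, hm, hm0, hx⟩ := hx
      exact ⟨m, hm, hm0, by rw [← map_pow, hx, map_one]⟩
    | algebraMap r =>
      rw [← IsScalarTower.algebraMap_apply K C D, IsScalarTower.algebraMap_apply K L D]
      exact Subalgebra.algebraMap_mem A _
    | add x y _ _ hx hy => rw [map_add]; exact A.add_mem hx hy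
    | mul x y _ _ hx hy => rw [map_mul]; exact A.mul_mem hx hy
  have hF : ∀ x : F, algebraMap M D (algebraMap F M x) ∈ A := by
    intro x
    rw [← IsScalarTower.algebraMap_apply F M D, IsScalarTower.algebraMap_apply F C D]
    exact hC _
  have hM : ∀ y : M, algebraMap M D y ∈ A := by
    intro y
    have hy : y ∈ Algebra.adjoin L (Set.range (algebraMap F M)) := by rw [hgen]; trivial
    induction hy using Algebra.adjoin_induction with
    | mem x hx =>
      obtain ⟨x, rfl⟩ := hx
      exact hF x
    | algebraMap r =>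
      rw [← IsScalarTower.algebraMap_apply L M D]
      exact Subalgebra.algebraMap_mem A _
    | add x y _ _ hx hy => rw [map_add]; exact A.add_mem hx hy
    | mul x y _ _ hx hy => rw [map_mul]; exact A.mul_mem hx hy
  rw [eq_top_iff]
  rintro d -
  have hd : d ∈ Algebra.adjoin M S := by rw [h2]; trivial
  induction hd using Algebra.adjoin_induction with
  | mem x hx => exact Algebra.subset_adjoin hx
  | algebraMap r => exact hM r
  | add x y _ _ hx hy => exact A.add_mem hx hy
  | mul x y _ _ hx hy => exact A.mul_mem hx hy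


/-- Variant of `isCyclotomicExtension_base` taking the embedding `φ : F →ₐ[K] C` instead of
algebra instances. -/
theorem isCyclotomicExtension_base_of_algHom (K : Type) {L F M : Type}
    [Field K] [Field L] [Field F] [Field M]
    [Algebra K L] [Algebra K F] [Algebra K M] [Algebra L M] [Algebra F M]
    [IsScalarTower K L M] [IsScalarTower K F M] (n : ℕ) [NeZero n]
    (D : Type) [Field D] [Algebra K D] [Algebra L D] [Algebra F D] [Algebra M D]
    [IsScalarTower K M D] [IsScalarTower L M D] [IsScalarTower F M D]
    (C : Type) [Field C] [Algebra K C] [IsCyclotomicExtension {n} K C] (φ : F →ₐ[K] C)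
    [IsCyclotomicExtension {n} M D]
    (hgen : Algebra.adjoin L (Set.range (algebraMap F M)) = ⊤) :
    IsCyclotomicExtension {n} L D := by
  letI : Algebra F C := φ.toRingHom.toAlgebra
  haveI : IsScalarTower K F C := IsScalarTower.of_algebraMap_eq fun x => (φ.commutes x).symm
  obtain ⟨ψ⟩ := exists_algHom_top K (F := F) (M := M) n D C
  letI : Algebra C D := ψ.toRingHom.toAlgebra
  haveI : IsScalarTower F C D := IsScalarTower.of_algebraMap_eq fun x => (ψ.commutes x).symm
  exact isCyclotomicExtension_base K n D C hgen

/-- **The cyclotomic Artin symbol of `M/L` kills `K`** (`M = L·F`, `F ⊆ C = K(ζ_n)`,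
`[F:K] ∣ [L:K]`), for any `D ⊇ M` that is `n`-cyclotomic over `M` and over `L`. -/
theorem artHom_eq_one_of_top (K : Type) {L F M : Type} [Field K] [NumberField K]
    [Field L] [NumberField L] [Field F] [NumberField F] [Field M] [NumberField M]
    [Algebra K L] [Algebra K F] [Algebra K M] [Algebra L M] [Algebra F M]
    [IsScalarTower K L M] [IsScalarTower K F M] [IsGalois K F] [IsGalois L M]
    (n : ℕ) [NeZero n] (T : Finset Nat.Primes)
    (D : Type) [Field D] [NumberField D] [Algebra K D] [Algebra L D] [Algebra F D] [Algebra M D]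
    [IsScalarTower K M D] [IsScalarTower L M D] [IsScalarTower F M D]
    [IsCyclotomicExtension {n} M D] [IsCyclotomicExtension {n} L D]
    (C : Type) [Field C] [Algebra K C] [IsCyclotomicExtension {n} K C] (φ : F →ₐ[K] C)
    (hT : ∀ v : HeightOneSpectrum (𝓞 K), (n : 𝓞 K) ∈ v.asIdeal → v ∈ placesAboveQ K T)
    (hdvd : Module.finrank K F ∣ Module.finrank K L)
    (hgen : Algebra.adjoin L (Set.range (algebraMap F M)) = ⊤) (α : Kˣ) :
    CycloArtinAbs.artHom M D n (placesAboveQ L T)
      (Units.map (algebraMap K L).toMonoidHom α) = 1 := by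
  letI : Algebra F C := φ.toRingHom.toAlgebra
  haveI : IsScalarTower K F C := IsScalarTower.of_algebraMap_eq fun x => (φ.commutes x).symm
  obtain ⟨ψ⟩ := exists_algHom_top K (F := F) (M := M) n D C
  letI : Algebra C D := ψ.toRingHom.toAlgebra
  haveI : IsScalarTower F C D := IsScalarTower.of_algebraMap_eq fun x => (ψ.commutes x).symm
  haveI := isScalarTower_of_mid K L M D
  haveI := isScalarTower_of_mid K F M D
  haveI := isScalarTower_of_bot K F C D
  haveI : NumberField C := IsCyclotomicExtension.numberField {n} K C
  haveI : IsGalois K C := IsCyclotomicExtension.isGalois {n} K C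
  have hcompat : ∀ x : F,
      algebraMap M D (algebraMap F M x) = algebraMap C D (algebraMap F C x) := by
    intro x
    rw [← IsScalarTower.algebraMap_apply F M D, ← IsScalarTower.algebraMap_apply F C D]
  exact CycloArtinQ.artHom_algebraMap_eq_one_Q (K := K) (F := L) (C := C) (D := D) n F M hT hdvd
    hcompat hgen α

end Top

section Main

variable {K L F M : Type} [Field K] [NumberField K] [Field L] [NumberField L]
  [Field F] [NumberField F] [Field M] [NumberField M]
  [Algebra K L] [Algebra K F] [Algebra K M] [Algebra L M] [Algebra F M]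
  [IsScalarTower K L M] [IsScalarTower K F M]
  [IsGalois K L] [IsGalois K F] [IsGalois K M] [IsGalois L M]

/-- **Field plumbing for (E2).**  `D := CyclotomicField (p^k) M` is a number field, `p^k`-cyclotomic
over `L`, and the cyclotomic Artin symbol of `M/L` (read through `D`) kills every `α ∈ Kˣ`. -/
theorem exists_cyclo_top {p : ℕ} {T : Finset Nat.Primes} (hs : Setting p K M T) (k : ℕ)
    [NeZero (p ^ k)] (C : Type) [Field C] [Algebra K C] [IsCyclotomicExtension {p ^ k} K C]
    (φ : F →ₐ[K] C) (hdvd : Module.finrank K F ∣ Module.finrank K L)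
    (hinf : (rnHom K L M).ker ⊓ (rnHom K F M).ker = ⊥) :
    ∃ (D : Type) (_ : Field D) (_ : NumberField D) (_ : Algebra L D) (_ : Algebra M D)
      (_ : IsScalarTower L M D) (_ : IsCyclotomicExtension {p ^ k} L D),
      ∀ α : Kˣ, CycloArtinAbs.artHom M D (p ^ k) (placesAboveQ L T)
        (Units.map (algebraMap K L).toMonoidHom α) = 1 := by
  have hgen : Algebra.adjoin L (Set.range (algebraMap F M)) = ⊤ :=
    adjoin_range_eq_top (K := K) hinf
  have hT : ∀ v : HeightOneSpectrum (𝓞 K), ((p ^ k : ℕ) : 𝓞 K) ∈ v.asIdeal →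
      v ∈ placesAboveQ K T := by
    intro v hv
    apply CycloArtinQ.mem_placesAboveQ_of_natCast_mem hs.adm.mem_p
    rw [Nat.cast_pow] at hv
    exact v.isPrime.mem_of_pow_mem k hv
  haveI hcyc : IsCyclotomicExtension {p ^ k} L (CyclotomicField (p ^ k) M) :=
    isCyclotomicExtension_base_of_algHom K (p ^ k) (CyclotomicField (p ^ k) M) C φ hgen
  exact ⟨CyclotomicField (p ^ k) M, inferInstance, inferInstance, inferInstance, inferInstance,
    inferInstance, hcyc, fun α =>
      artHom_eq_one_of_top K (p ^ k) T (CyclotomicField (p ^ k) M) C φ hT hdvd hgen α⟩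

end Main

end Fermat.Agent.S55.Global.CycloNormPlumbing
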