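/-
S55 / GLOBAL block, row 152 inputs (E1) + (E2), CLOSED forms (helper61):

* `plumbingProp p : CycloNormE2.PlumbingProp p`  (= helper42's `CycloNormPlumbing.exists_cyclo_top`);
* `cycloNorm_of_cardDvd : Blocks2.H2CardDvd p → CycloNormE2.CycloNorm p`  — (E2) of helper77's #2058;
* `cycloLayerH2_of_cardDvd` (re-export of (E1)).
The only remaining hypothesis is the dévissage bound `Blocks2.H2CardDvd p`, which is unconditional
in `Global/Final.lean` (`Final.h2CardDvd p`); it is kept as a hypothesis here so that this file does
not import the big closure.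
-/
import Fermat.Agent.S55.Global.CycloNormE2Final
import Fermat.Agent.S55.Global.CycloNormPlumbing
import Fermat.Agent.S55.Global.CycloLayerH2Final

set_option autoImplicit false

namespace Fermat.Agent.S55.Global.CycloNormClosed

open Fermat.Agent.S55.Global.CycloNormE2

/-- The field plumbing (P) holds (helper42). -/
theorem plumbingProp (p : ℕ) : PlumbingProp p := by
  intro K L F M _ _ _ _ _ _ _ _ _ _ _ _ _ _ _ _ _ _ _ T hs k _ C _ _ _ φ hdvd hinf
  exact CycloNormPlumbing.exists_cyclo_top hs k C φ hdvd hinf

/-- **(E2)** of row 152 from the dévissage bound. -/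
theorem cycloNorm_of_cardDvd {p : ℕ} (hD : Blocks2.H2CardDvd p) : CycloNorm p :=
  CycloNormE2Final.cycloNorm_of_plumbing hD (plumbingProp p)

/-- **(E1)** of row 152 from the dévissage bound (re-export). -/
theorem cycloLayerH2_of_cardDvd {p : ℕ} (hD : Blocks2.H2CardDvd p) :
    CycloLayerH2.CycloLayerH2 p :=
  CycloLayerH2Final.cycloLayerH2_of_cardDvd hD

end Fermat.Agent.S55.Global.CycloNormClosed
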