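import Mathlib
import Fermat.Agent.S55.Global.CycloNormPlumbing
import Fermat.Agent.S55.Global.CycloNormE2

/-!
# S55 / Global: `CycloNormE2.PlumbingProp p` (piece (P) of (E2), literal closed Prop)

One-line instantiation of `CycloNormPlumbing.exists_cyclo_top`.
-/

set_option autoImplicit false

namespace Fermat.Agent.S55.Global.CycloNormPlumbingFinal

/-- **(P)** of (E2): the field plumbing + tower functoriality, in helper61's literal shape. -/
theorem plumbingProp (p : ℕ) : Fermat.Agent.S55.Global.CycloNormE2.PlumbingProp p := by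
  intro K L F M _ _ _ _ _ _ _ _ _ _ _ _ _ _ _ _ _ _ _ T hs k _ C _ _ _ φ hdvd hinf
  exact CycloNormPlumbing.exists_cyclo_top hs k C φ hdvd hinf

end Fermat.Agent.S55.Global.CycloNormPlumbingFinal
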