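/-
S55 / GLOBAL block, row G.cycloArtin (E2) `CycloNorm`, part (R) of helper61's split #2191
(helper69): reduction + translation, in the literal shapes requested.

Tower `K → L → M`; the carrier of `Cn K M T` and of `Cn L M T` is the same `CQ M T`.
* `exists_deltaC_add_normC` : a `Gal(M/K)`-invariant class is `deltaC L M T (α) + normC L M T b`
  with `α ∈ Kˣ`;
* `normC_eq_sum_ker` : `normC L M T b = ∑_{s ∈ ker (Gal(M/K) → Gal(L/K))} s • b`;
* `cycloNorm_of_delta` : the conclusion of (E2) from `δ_{M/L}|_{Kˣ} = 1`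
  (= `CycloNormBase.exists_sum_of_invariant`, with `.toMonoidHom` spelling).
-/
import Fermat.Agent.S55.Global.CycloNormBase

set_option autoImplicit false
set_option linter.unusedSectionVars false

open NumberField IsDedekindDomain TensorProduct

namespace Fermat.Agent.S55.Global.CycloNormRed

open Fermat.Agent.S55.Global.Objects Fermat.Agent.S55.Global.Objects2
  Fermat.Agent.S55.Global.Blocks2 Fermat.Agent.S55.Global.Bridge2Units
  Fermat.Agent.S55.Global.Bridge2Surj Fermat.Agent.S55.Global.TransitionQ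
  Fermat.Agent.S55.Global.CycloNormReduce Fermat.Agent.S55.Global.CycloNormBase

variable {K : Type} [Field K] [NumberField K]
variable {L : Type} [Field L] [NumberField L] [Algebra K L]
variable {M : Type} [Field M] [NumberField M] [Algebra K M] [Algebra L M] [IsScalarTower K L M]
variable [Normal K L] {T : Finset Nat.Primes} {p : ℕ}

/-- `normC L M T` is the norm of `N₁ = ker (Gal(M/K) → Gal(L/K))` acting through `Cn K M T`. -/
theorem normC_eq_sum_ker [Fintype (M ≃ₐ[L] M)] [Fintype (rnHom K L M).ker] (b : Cn L M T) :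
    normC L M T b = (∑ s : (rnHom K L M).ker, (Cn K M T).ρ (s : M ≃ₐ[K] M) b : CQ M T) :=
  (sum_ker_eq_normC K L M T b).symm

/-- **(R)** every `Gal(M/K)`-invariant class of `C_{M,T}` is the class of a global `α ∈ Kˣ` plus a
norm from `C_{M,T}` for `Gal(M/L)`. -/
theorem exists_deltaC_add_normC [IsGalois K M] (hadm : AdmissibleQ K M p T)
    [Fintype (M ≃ₐ[L] M)] (a : Cn K M T) (ha : ∀ g : M ≃ₐ[K] M, (Cn K M T).ρ g a = a) :
    ∃ (α : Kˣ) (b : Cn L M T), (a : Cn L M T) =
      deltaC L M T (Additive.ofMul (Units.map (algebraMap K L).toMonoidHom α)) +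
        normC L M T b := by
  classical
  haveI : Fintype (rnHom K L M).ker := Fintype.ofFinite _
  obtain ⟨α, b, hab⟩ := exists_deltaC_add_sum hadm (rnHom K L M).ker a ha
  refine ⟨α, b, ?_⟩
  rw [hab, sum_ker_eq_normC K L M T b]
  congr 1
  exact deltaC_base K L M T α

/-- The conclusion of (E2) from the vanishing of `δ_{M/L}` on the image of `Kˣ`. -/
theorem cycloNorm_of_delta [IsGalois K M] [Fintype (M ≃ₐ[L] M)] [Fintype (rnHom K L M).ker]
    (hadm : AdmissibleQ K M p T) (σ : M ≃ₐ[L] M)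
    (hδ : ∀ α : Kˣ, delta L M T σ (Units.map (algebraMap K L).toMonoidHom α) = 1)
    (a : Cn K M T) (ha : ∀ g : M ≃ₐ[K] M, (Cn K M T).ρ g a = a) :
    ∃ b : Cn K M T, a = ∑ s : (rnHom K L M).ker, (Cn K M T).ρ (s : M ≃ₐ[K] M) b :=
  exists_sum_of_invariant hadm σ hδ a ha

/-- Same, from `deltaC L M T (α) ∈ range (normC L M T)` for all `α ∈ Kˣ`. -/
theorem cycloNorm_of_mem_range [IsGalois K M] [Fintype (M ≃ₐ[L] M)] [Fintype (rnHom K L M).ker]
    (hadm : AdmissibleQ K M p T)
    (hδ : ∀ α : Kˣ, deltaC L M T (Additive.ofMul (Units.map (algebraMap K L).toMonoidHom α)) ∈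
      (normC L M T).range)
    (a : Cn K M T) (ha : ∀ g : M ≃ₐ[K] M, (Cn K M T).ρ g a = a) :
    ∃ b : Cn K M T, a = ∑ s : (rnHom K L M).ker, (Cn K M T).ρ (s : M ≃ₐ[K] M) b := by
  obtain ⟨α, b, hab⟩ := exists_deltaC_add_sum hadm (rnHom K L M).ker a ha
  obtain ⟨b', hb'⟩ := hδ α
  refine ⟨b' + b, ?_⟩
  have h1 : deltaC K M T (Additive.ofMul α) =
      ∑ s : (rnHom K L M).ker, (Cn K M T).ρ (s : M ≃ₐ[K] M) b' := by
    rw [sum_ker_eq_normC K L M T b', hb']
    exact deltaC_base K L M T α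
  rw [hab, h1, ← Finset.sum_add_distrib]
  refine Finset.sum_congr rfl fun s _ => ?_
  rw [map_add]

end Fermat.Agent.S55.Global.CycloNormRed
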