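/-
S55 / Global — EXISTENCE of a `Blocks4.CycloSetting` for a given `L/K` (helper2).  Consumer side of
(G-ii)/(G-iii): `Blocks4.H2CyclicIn`, `CycloGen`, `CycloKillsH3`, `Middle/HbnH3Inst.hbnH3`,
`Middle/HbnCokerIn.hbnCoker_Jn_in` all take `K L F M` with tower instances and a `CycloSetting`;
this file PRODUCES them.

`K ∋ ζ_p`, `p` odd, `L/K` Galois of degree `p ^ n`.  Then
* `F` := a cyclic layer of degree `p ^ n` of a `p`-power cyclotomic extension of `K`
  (`CycloLayer.exists_cyclic_layer`),
* `M` := the compositum `L · F` (`Compositum.M`) with the tower instances `K → L → M`, `K → F → M`,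
* for every finite `T₀` there is `T ⊇ T₀` admissible for `M/K`, i.e. `CycloSetting p K L F M T`.
-/
import Fermat.Agent.S55.Global.Blocks4
import Fermat.Agent.S55.Global.CycloLayer
import Fermat.Agent.S55.Global.Compositum
import Fermat.Agent.S55.Global.AdmissibleQExists

set_option autoImplicit false
set_option linter.unusedSectionVars false

open NumberField IsDedekindDomain TensorProduct

namespace Fermat.Agent.S55.Global.CycloSettingExists

open Fermat.Agent.S55.Global.Blocks2 Fermat.Agent.S55.Global.Blocks4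
open Fermat.Agent.S55.Global.Compositum

/-- The data `F`, `M` (with all tower instances of `Blocks4`) attached to `L/K`, and the existence
of admissible `T` above any finite `T₀`. -/
theorem exists_cycloSetting {p : ℕ} (hp : p.Prime) (hodd : p ≠ 2) (K L : Type) [Field K]
    [NumberField K] [Field L] [NumberField L] [Algebra K L] [IsGalois K L]
    (hζ : ∃ ζ : K, IsPrimitiveRoot ζ p) (hpp : ∃ n : ℕ, Module.finrank K L = p ^ n) :
    ∃ (F M : Type) (_ : Field F) (_ : NumberField F) (_ : Field M) (_ : NumberField M)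
      (_ : Algebra K F) (_ : Algebra K M) (_ : Algebra L M) (_ : Algebra F M)
      (_ : IsScalarTower K L M) (_ : IsScalarTower K F M) (_ : IsGalois K F) (_ : IsGalois K M),
      IsCyclic (F ≃ₐ[K] F) ∧
      (∃ (k : ℕ) (C : Type) (_ : Field C) (_ : Algebra K C),
        IsCyclotomicExtension {p ^ k} K C ∧ Nonempty (F →ₐ[K] C)) ∧
      Module.finrank K F = Module.finrank K L ∧
      (∃ m : ℕ, Module.finrank K M = p ^ m) ∧
      ∀ T₀ : Finset Nat.Primes, ∃ T : Finset Nat.Primes, T₀ ⊆ T ∧ CycloSetting p K L F M T := by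
  have : Fact p.Prime := ⟨hp⟩
  obtain ⟨n, hn⟩ := hpp
  obtain ⟨k, F, hgal, hdeg, hcyc⟩ := CycloLayer.exists_cyclic_layer p hodd K n
  have := hgal
  have : NeZero (p ^ k) := ⟨pow_ne_zero _ hp.ne_zero⟩
  have : FiniteDimensional K L := Module.Finite.of_restrictScalars_finite ℚ K L
  have : FiniteDimensional K (CyclotomicField (p ^ k) K) :=
    IsCyclotomicExtension.finiteDimensional {p ^ k} K _
  have : FiniteDimensional K F := inferInstance
  let algF : Algebra F (M K L F) :=
    ((Fm K L F).val.comp (eF K L F).toAlgHom).toRingHom.toAlgebra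
  have towerF : IsScalarTower K F (M K L F) :=
    IsScalarTower.of_algebraMap_eq (fun x =>
      (((Fm K L F).val.comp (eF K L F).toAlgHom).commutes x).symm)
  let algL : Algebra L (M K L F) :=
    ((Lm K L F).val.comp (eL K L F).toAlgHom).toRingHom.toAlgebra
  have towerL : IsScalarTower K L (M K L F) :=
    IsScalarTower.of_algebraMap_eq (fun x =>
      (((Lm K L F).val.comp (eL K L F).toAlgHom).commutes x).symm)
  have hcyclo : ∃ (k' : ℕ) (C : Type) (_ : Field C) (_ : Algebra K C),
      IsCyclotomicExtension {p ^ k'} K C ∧ Nonempty (F →ₐ[K] C) :=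
    ⟨k, CyclotomicField (p ^ k) K, inferInstance, inferInstance, inferInstance, ⟨F.val⟩⟩
  have hdeg' : Module.finrank K F = Module.finrank K L := hdeg.trans hn.symm
  have hppM : ∃ m : ℕ, Module.finrank K (M K L F) = p ^ m :=
    exists_finrank_M_eq_pow K L F hp hn hdeg
  refine ⟨F, M K L F, inferInstance, inferInstance, inferInstance, inferInstance, inferInstance,
    inferInstance, algL, algF, towerL, towerF, hgal, inferInstance, hcyc, hcyclo, hdeg', hppM,
    fun T₀ => ?_⟩
  obtain ⟨T, hTT, hST⟩ := AdmissibleQExists.exists_setting K (M K L F) hp hodd hζ hppM T₀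
  exact ⟨T, hTT, ⟨hST, hcyc, hcyclo, hdeg'⟩⟩

end Fermat.Agent.S55.Global.CycloSettingExists
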