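/-
S55 / Global / row 152 (G.h2cyclic), piece (d) of helper77 #2058 (helper29): SUBLAYER.

* `exists_sublayer` : `F/K` finite cyclic Galois, `d ∣ [F:K]`: there is an intermediate field `F'`,
  Galois over `K` with cyclic group, `[F':K] = d`.
* `algebraMap_sub_apply` : Mathlib's `Algebra F' M` for `F' : IntermediateField K F` is `F' → F → M`
  (instances `IntermediateField.instAlgebraSubtypeMem`, `IntermediateField.isScalarTower_mid`).
* `cycloSetting_sublayer` : the data of a cyclo-setting with the weak condition `[L:K] ∣ [F:K]`
  gives a `Blocks4.CycloSetting p K L F' M T` (`[F':K] = [L:K]`) for a sublayer `F' ≤ F`.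
-/
import Fermat.Agent.S55.Global.Blocks4
import Fermat.Agent.S55.Global.CycloLayer

set_option autoImplicit false
set_option linter.unusedSectionVars false
set_option linter.style.haveILetI false

open NumberField IsDedekindDomain TensorProduct CategoryTheory IntermediateField

namespace Fermat.Agent.S55.Global.CycloSubLayer

open Fermat.Agent.S55.Global.Objects Fermat.Agent.S55.Global.Objects2
  Fermat.Agent.S55.Global.Blocks2 Fermat.Agent.S55.Global.Blocks4

section fields

variable (K F : Type) [Field K] [Field F] [Algebra K F] [FiniteDimensional K F] [IsGalois K F]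

/-- **Sublayers of a cyclic extension**: for `F/K` finite Galois with cyclic group and
`d ∣ [F:K]` there is an intermediate field `F'`, Galois over `K` with cyclic group, of degree `d`. -/
theorem exists_sublayer (hcyc : IsCyclic (F ≃ₐ[K] F)) {d : ℕ} (hd : d ∣ Module.finrank K F) :
    ∃ F' : IntermediateField K F, IsGalois K F' ∧ Module.finrank K F' = d ∧
      IsCyclic (F' ≃ₐ[K] F') := by
  have hdvd : d ∣ Nat.card (F ≃ₐ[K] F) := by
    rw [IsGalois.card_aut_eq_finrank]
    exact hd
  obtain ⟨H, hH⟩ := CycloLayer.exists_subgroup_index_eq hdvd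
  have hcomm : ∀ a b : F ≃ₐ[K] F, a * b = b * a := by
    let := IsCyclic.commGroup (α := F ≃ₐ[K] F)
    exact fun a b => mul_comm a b
  have hN : H.Normal := ⟨fun n hn g => by rw [hcomm g n, mul_inv_cancel_right]; exact hn⟩
  refine ⟨fixedField H, inferInstance, ?_, ?_⟩
  · rw [IntermediateField.finrank_eq_fixingSubgroup_index, fixingSubgroup_fixedField, hH]
  · have hq : IsCyclic ((F ≃ₐ[K] F) ⧸ H) :=
      isCyclic_of_surjective (QuotientGroup.mk' H) (QuotientGroup.mk'_surjective H)
    exact isCyclic_of_surjective (IsGalois.normalAutEquivQuotient H)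
      (IsGalois.normalAutEquivQuotient H).surjective

end fields

section tower

variable (K F M : Type) [Field K] [Field F] [Field M] [Algebra K F] [Algebra K M] [Algebra F M]
  [IsScalarTower K F M]

/-- For `F' : IntermediateField K F`, Mathlib's instances `IntermediateField.instAlgebraSubtypeMem :
Algebra F' M` and `IntermediateField.isScalarTower_mid : IsScalarTower K F' M` give the tower
`K → F' → M`; the structure map is `F' → F → M`. -/
theorem algebraMap_sub_apply (F' : IntermediateField K F) (x : F') :
    algebraMap F' M x = algebraMap F M (x : F) := rfl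

end tower

section cyclo

variable {p : ℕ}
variable (K L F M : Type) [Field K] [NumberField K] [Field L] [NumberField L] [Field F]
  [NumberField F] [Field M] [NumberField M] [Algebra K L] [Algebra K F] [Algebra K M]
  [Algebra L M] [Algebra F M] [IsScalarTower K L M] [IsScalarTower K F M] [IsGalois K F]

/-- **(d) SUBLAYER**: the data of a `CycloSetting` with the WEAK degree condition
`[L:K] ∣ [F:K]` restricts to a genuine `Blocks4.CycloSetting p K L F' M T` (degree EQUALITY, the
form of `Blocks4` since 7e74e75) for the sublayer `F' ≤ F` with `[F':K] = [L:K]`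
(`Algebra F' M`, `IsScalarTower K F' M` are Mathlib's instances: `F' → F → M`). -/
theorem cycloSetting_sublayer (T : Finset Nat.Primes) (hbig : Setting p K M T)
    (hcycF : IsCyclic (F ≃ₐ[K] F))
    (hcyclo : ∃ (k : ℕ) (C : Type) (_ : Field C) (_ : Algebra K C),
      IsCyclotomicExtension {p ^ k} K C ∧ Nonempty (F →ₐ[K] C))
    (hdvd : Module.finrank K L ∣ Module.finrank K F) :
    ∃ (F' : IntermediateField K F) (_ : IsGalois K F'), CycloSetting p K L F' M T := by
  obtain ⟨F', hgal, hdeg, hcyc⟩ := exists_sublayer K F hcycF hdvd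
  refine ⟨F', hgal, ?_⟩
  refine ⟨hbig, hcyc, ?_, hdeg⟩
  obtain ⟨k, C, hC, hA, hcycl, ⟨f⟩⟩ := hcyclo
  exact ⟨k, C, hC, hA, hcycl, ⟨f.comp F'.val⟩⟩

end cyclo

end Fermat.Agent.S55.Global.CycloSubLayer
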