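/-
S55 / Global / G.dec, part A (helper50): the PLACE cut out by a nonarchimedean norm.

`E` a number field, `Ω` ANY ultrametric normed field, `ι : E →+* Ω` a ring homomorphism such that
some nonzero integer of `E` has norm `< 1`.  Then `{x ∈ 𝓞 E | ‖ι x‖ < 1}` is a nonzero prime `u`
of `𝓞 E` (`place ι h`) and the norm of `Ω` restricted to `E` IS the `u`-adic valuation:

* `valuation_le_one_iff`, `valuation_lt_one_iff`, `valuation_eq_one_iff`;
* `exists_norm_eq_zpow` : `‖ι x‖ = c ^ ord_u x` for one constant `0 < c < 1`.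

Nothing here depends on how `Ω` arises (completion, quotient of `E ⊗ ℚ_[q]`, subfield of
`PadicAlgCl q`, ...).  Mathlib only.
-/
import Mathlib

set_option autoImplicit false
set_option linter.unusedSectionVars false

open NumberField IsDedekindDomain IsDedekindDomain.HeightOneSpectrum

namespace Fermat.Agent.S55.Global.DecPlace

section Integral

variable {Ω : Type*} [NormedField Ω] [IsUltrametricDist Ω]

/-- In an ultrametric normed field, elements integral over `ℤ` have norm `≤ 1`. -/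
theorem norm_le_one_of_isIntegral {y : Ω} (hy : IsIntegral ℤ y) : ‖y‖ ≤ 1 := by
  let A : ValuationSubring Ω := (NormedField.valuation (K := Ω)).valuationSubring
  have hA : IsIntegral A y := hy.tower_top
  obtain ⟨a, ha⟩ := IsIntegrallyClosed.isIntegral_iff.1 hA
  have h1 : NormedField.valuation (K := Ω) (a : Ω) ≤ 1 :=
    (Valuation.mem_valuationSubring_iff _ _).1 a.2
  rw [← ha]
  have : ‖(a : Ω)‖₊ ≤ 1 := h1
  exact_mod_cast this

end Integral

section Place

variable {E : Type*} [Field E] [NumberField E] {Ω : Type*} [NormedField Ω] [IsUltrametricDist Ω]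
  (ι : E →+* Ω)

omit [NumberField E] in
/-- Integers of `E` have norm `≤ 1`. -/
theorem norm_int_le_one (x : 𝓞 E) : ‖ι (x : E)‖ ≤ 1 := by
  have hx : IsIntegral ℤ (x : E) := x.2
  exact norm_le_one_of_isIntegral (hx.map (ι.toIntAlgHom))

/-- The prime ideal of `𝓞 E` cut out by the norm of `Ω`. -/
def primeIdeal : Ideal (𝓞 E) where
  carrier := {x | ‖ι (x : E)‖ < 1}
  add_mem' := by
    intro x y hx hy
    simp only [Set.mem_ofPred_eq, map_add] at hx hy ⊢
    exact (IsUltrametricDist.norm_add_le_max _ _).trans_lt (max_lt hx hy)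
  zero_mem' := by simp
  smul_mem' := by
    intro c x hx
    simp only [Set.mem_ofPred_eq, smul_eq_mul, map_mul, norm_mul] at hx ⊢
    calc ‖ι (c : E)‖ * ‖ι (x : E)‖ ≤ 1 * ‖ι (x : E)‖ :=
          mul_le_mul_of_nonneg_right (norm_int_le_one ι c) (norm_nonneg _)
      _ < 1 := by rwa [one_mul]

theorem mem_primeIdeal {x : 𝓞 E} : x ∈ primeIdeal ι ↔ ‖ι (x : E)‖ < 1 := Iff.rfl

theorem norm_eq_one_of_notMem {x : 𝓞 E} (hx : x ∉ primeIdeal ι) : ‖ι (x : E)‖ = 1 :=
  le_antisymm (norm_int_le_one ι x) (not_lt.1 hx)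

instance primeIdeal_isPrime : (primeIdeal ι).IsPrime := by
  rw [Ideal.isPrime_iff]
  refine ⟨?_, fun {x y} hxy => ?_⟩
  · rw [Ideal.ne_top_iff_one]
    intro h
    rw [mem_primeIdeal] at h
    simp at h
  · by_contra hcon
    obtain ⟨hx, hy⟩ := not_or.1 hcon
    rw [mem_primeIdeal] at hxy
    simp only [map_mul, norm_mul] at hxy
    rw [norm_eq_one_of_notMem ι hx, norm_eq_one_of_notMem ι hy] at hxy
    norm_num at hxy

/-- The hypothesis making `primeIdeal ι` nonzero. -/
def HasSmall : Prop := ∃ x : 𝓞 E, x ≠ 0 ∧ ‖ι (x : E)‖ < 1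

variable {ι}

theorem primeIdeal_ne_bot (h : HasSmall ι) : primeIdeal ι ≠ ⊥ := by
  obtain ⟨x, hx0, hx⟩ := h
  intro hbot
  have : x ∈ primeIdeal ι := hx
  rw [hbot, Ideal.mem_bot] at this
  exact hx0 this

/-- The place of `E` cut out by the norm of `Ω`. -/
def place (h : HasSmall ι) : HeightOneSpectrum (𝓞 E) :=
  ⟨primeIdeal ι, inferInstance, primeIdeal_ne_bot h⟩

@[simp] theorem place_asIdeal (h : HasSmall ι) : (place h).asIdeal = primeIdeal ι := rfl

theorem mem_place_iff (h : HasSmall ι) (x : 𝓞 E) : x ∈ (place h).asIdeal ↔ ‖ι (x : E)‖ < 1 :=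
  Iff.rfl

/-- `u`-integral elements have norm `≤ 1`. -/
theorem norm_le_one_of_valuation_le_one (h : HasSmall ι) {x : E}
    (hx : (place h).valuation E x ≤ 1) : ‖ι x‖ ≤ 1 := by
  obtain ⟨n, d, hnd⟩ := exists_primeCompl_mul_eq_of_integer (place h) x hx
  have hd : (d : 𝓞 E) ∉ primeIdeal ι := d.2
  have h1 := congrArg (fun z => ‖ι z‖) hnd
  simp only [map_mul, norm_mul] at h1
  have hd1 : ‖ι (algebraMap (𝓞 E) E (d : 𝓞 E))‖ = 1 := norm_eq_one_of_notMem ι hd
  rw [hd1, mul_one] at h1
  rw [h1]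
  exact norm_int_le_one ι n

/-- Elements of positive `u`-adic order have norm `< 1`. -/
theorem norm_lt_one_of_valuation_lt_one (h : HasSmall ι) {x : E}
    (hx : (place h).valuation E x < 1) : ‖ι x‖ < 1 := by
  obtain ⟨n, d, hnd⟩ := exists_primeCompl_mul_eq_of_integer (place h) x hx.le
  have hd : (d : 𝓞 E) ∉ primeIdeal ι := d.2
  have hdv : (place h).valuation E (algebraMap (𝓞 E) E d) = 1 :=
    (valuation_eq_one_iff_notMem _).2 hd
  have hnv : (place h).valuation E (algebraMap (𝓞 E) E n) < 1 := by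
    rw [← hnd, map_mul, hdv, mul_one]; exact hx
  have hn : n ∈ primeIdeal ι := (valuation_lt_one_iff_mem (place h) n).1 hnv
  have h1 := congrArg (fun z => ‖ι z‖) hnd
  simp only [map_mul, norm_mul] at h1
  have hd1 : ‖ι (algebraMap (𝓞 E) E (d : 𝓞 E))‖ = 1 := norm_eq_one_of_notMem ι hd
  rw [hd1, mul_one] at h1
  rw [h1]
  exact hn

theorem valuation_le_one_iff (h : HasSmall ι) (x : E) :
    (place h).valuation E x ≤ 1 ↔ ‖ι x‖ ≤ 1 := by
  refine ⟨norm_le_one_of_valuation_le_one h, fun hx => ?_⟩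
  by_contra hcon
  rw [not_le] at hcon
  have hx0 : x ≠ 0 := by
    rintro rfl
    simp at hcon
  have hinv : (place h).valuation E x⁻¹ < 1 := by
    rw [map_inv₀]
    exact inv_lt_one_of_one_lt₀ hcon
  have := norm_lt_one_of_valuation_lt_one h hinv
  rw [map_inv₀, norm_inv] at this
  have hpos : 0 < ‖ι x‖ := norm_pos_iff.2 (by simpa using hx0)
  have h2 : 1 < ‖ι x‖ := by
    by_contra hle
    rw [not_lt] at hle
    have := one_le_inv₀ hpos |>.2 hle
    linarith
  linarith

theorem valuation_lt_one_iff (h : HasSmall ι) (x : E) :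
    (place h).valuation E x < 1 ↔ ‖ι x‖ < 1 := by
  refine ⟨norm_lt_one_of_valuation_lt_one h, fun hx => ?_⟩
  by_contra hcon
  rw [not_lt] at hcon
  have hx0 : x ≠ 0 := by
    rintro rfl
    simp at hcon
  have hinv : (place h).valuation E x⁻¹ ≤ 1 := by
    rw [map_inv₀]
    exact inv_le_one_of_one_le₀ hcon
  have := norm_le_one_of_valuation_le_one h hinv
  rw [map_inv₀, norm_inv] at this
  have hpos : 0 < ‖ι x‖ := norm_pos_iff.2 (by simpa using hx0)
  have h2 : 1 ≤ ‖ι x‖ := (inv_le_one₀ hpos).1 this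
  linarith

theorem valuation_eq_one_iff (h : HasSmall ι) (x : E) :
    (place h).valuation E x = 1 ↔ ‖ι x‖ = 1 := by
  constructor
  · intro hx
    refine le_antisymm ((valuation_le_one_iff h x).1 hx.le) ?_
    by_contra hcon
    rw [not_le] at hcon
    exact absurd ((valuation_lt_one_iff h x).2 hcon) (by rw [hx]; exact lt_irrefl _)
  · intro hx
    refine le_antisymm ((valuation_le_one_iff h x).2 hx.le) ?_
    by_contra hcon
    rw [not_le] at hcon
    exact absurd ((valuation_lt_one_iff h x).1 hcon) (by rw [hx]; exact lt_irrefl _)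

/-- **Exact form**: there is a constant `0 < c < 1` (the norm of a uniformizer of `u`) such that
`‖ι x‖ = c ^ ord_u x` for all `x ≠ 0`, where `(place h).valuation E x = exp (- ord_u x)`. -/
theorem exists_norm_eq_zpow (h : HasSmall ι) :
    ∃ c : ℝ, 0 < c ∧ c < 1 ∧ ∀ x : E, x ≠ 0 →
      ‖ι x‖ = c ^ (-(WithZero.log ((place h).valuation E x))) := by
  obtain ⟨ϖ, hϖ⟩ := valuation_exists_uniformizer E (place h)
  have hϖ0 : ϖ ≠ 0 := by
    rintro rfl
    rw [map_zero] at hϖ
    exact WithZero.exp_ne_zero hϖ.symm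
  have hιϖ : ι ϖ ≠ 0 := by simpa using hϖ0
  have hlt : (place h).valuation E ϖ < 1 := by
    rw [hϖ, ← WithZero.exp_zero, WithZero.exp_lt_exp]; norm_num
  refine ⟨‖ι ϖ‖, norm_pos_iff.2 hιϖ, (valuation_lt_one_iff h ϖ).1 hlt, fun x hx => ?_⟩
  have hvx : (place h).valuation E x ≠ 0 := (Valuation.ne_zero_iff _).2 hx
  set b : ℤ := WithZero.log ((place h).valuation E x) with hb
  have hvx' : (place h).valuation E x = WithZero.exp b := (WithZero.exp_log hvx).symm
  set u : E := x * ϖ ^ b with hu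
  have huv : (place h).valuation E u = 1 := by
    rw [hu, map_mul, map_zpow₀, hvx', hϖ, ← WithZero.exp_zsmul, ← WithZero.exp_add,
      ← WithZero.exp_zero]
    congr 1
    simp
  have hu1 := (valuation_eq_one_iff h u).1 huv
  have hx' : x = u * ϖ ^ (-b) := by
    rw [hu, mul_assoc, ← zpow_add₀ hϖ0, add_neg_cancel, zpow_zero, mul_one]
  have : ‖ι x‖ = ‖ι u‖ * ‖ι ϖ‖ ^ (-b) := by
    conv_lhs => rw [hx']
    rw [map_mul, norm_mul, map_zpow₀, norm_zpow]
  rw [this, hu1, one_mul]

/-- Two norms cutting out the same place agree up to a power: in particular they have the same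
unit ball, open unit ball and unit sphere on `E`. -/
theorem norm_le_one_iff_of_place_eq {Ω' : Type*} [NormedField Ω'] [IsUltrametricDist Ω']
    {ι' : E →+* Ω'} (h : HasSmall ι) (h' : HasSmall ι') (heq : place h = place h') (x : E) :
    ‖ι x‖ ≤ 1 ↔ ‖ι' x‖ ≤ 1 := by
  rw [← valuation_le_one_iff h, ← valuation_le_one_iff h', heq]

theorem norm_lt_one_iff_of_place_eq {Ω' : Type*} [NormedField Ω'] [IsUltrametricDist Ω']
    {ι' : E →+* Ω'} (h : HasSmall ι) (h' : HasSmall ι') (heq : place h = place h') (x : E) :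
    ‖ι x‖ < 1 ↔ ‖ι' x‖ < 1 := by
  rw [← valuation_lt_one_iff h, ← valuation_lt_one_iff h', heq]

/-- If some `x` is small for `ι` but a unit for `ι'`, the places differ. -/
theorem place_ne_of_exists {Ω' : Type*} [NormedField Ω'] [IsUltrametricDist Ω']
    {ι' : E →+* Ω'} (h : HasSmall ι) (h' : HasSmall ι') {x : E} (hx : ‖ι x‖ < 1)
    (hx' : ‖ι' x‖ = 1) : place h ≠ place h' := by
  intro heq
  have := (norm_lt_one_iff_of_place_eq h h' heq x).1 hx
  linarith

end Place

end Fermat.Agent.S55.Global.DecPlace
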