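/-
S55 / Global / G.dec, part B (helper50): FACTORS of `E ⊗[ℚ] ℚ_[q]`, their places, density of `E`,
and INJECTIVITY of `factor ↦ place`.

A *factor* of `A := E ⊗[ℚ] ℚ_[q]` is presented by ANY field `Ω` with `[Algebra ℚ_[q] Ω]`,
algebraic over `ℚ_[q]`, and a surjective ring hom `φ : A →+* Ω` with `φ (1 ⊗ c) = algebraMap c`
(`structure Factor`).  No `Algebra ℚ_[q] A` instance appears anywhere, so the left/right algebra
instance of the consumer does not matter (e.g. `Ω = A ⧸ m` with the quotient of `rightAlgebra`).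
The norm on `Ω` is Mathlib's `spectralNorm ℚ_[q] Ω`.

* `Factor.ι : E →+* Ω`, `Factor.nu x = spectralNorm ℚ_[q] Ω (F.ι x)`;
* `Factor.place : HeightOneSpectrum (𝓞 E)` with `(q : 𝓞 E) ∈ F.place.asIdeal`, and the dictionary
  `valuation_le_one_iff / lt / eq`, `exists_nu_eq_zpow`;
* `exists_approx` : density of `E` in `A` for every `ℚ_[q]`-seminorm-like function; hence
  `Factor.exists_nu_sub_lt` (density of `E` in each factor) and simultaneous approximation;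
* `place_eq_iff_ker_eq` : two factors cut out the same place iff they have the same kernel.
-/
import Fermat.Agent.S55.Global.DecPlace

set_option autoImplicit false
set_option linter.unusedSectionVars false

open scoped TensorProduct
open NumberField IsDedekindDomain

namespace Fermat.Agent.S55.Global.DecFactor

open Fermat.Agent.S55.Global.DecPlace

variable {E : Type*} [Field E] [NumberField E] {q : ℕ} [Fact q.Prime]

/-! ### rational approximation in `E ⊗[ℚ] ℚ_[q]` -/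

section Approx

theorem tmul_ratCast (x : E) (r : ℚ) :
    ((r • x) ⊗ₜ[ℚ] (1 : ℚ_[q])) = x ⊗ₜ[ℚ] (r : ℚ_[q]) := by
  rw [TensorProduct.smul_tmul, Rat.smul_def, mul_one]

theorem sum_le_of_subadd {ι : Type*} (N : E ⊗[ℚ] ℚ_[q] → ℝ) (h0 : N 0 = 0)
    (hadd : ∀ a b, N (a + b) ≤ N a + N b) (s : Finset ι) (f : ι → E ⊗[ℚ] ℚ_[q]) :
    N (∑ i ∈ s, f i) ≤ ∑ i ∈ s, N (f i) := by
  classical
  induction s using Finset.induction_on with
  | empty => simp [h0]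
  | insert a s ha ih =>
    rw [Finset.sum_insert ha, Finset.sum_insert ha]
    exact (hadd _ _).trans (add_le_add le_rfl ih)

/-- **Density of `E` in `E ⊗[ℚ] ℚ_[q]`** with respect to any subadditive, `ℚ_[q]`-subhomogeneous,
nonnegative function `N` (e.g. a finite sum of pulled-back spectral norms of factors). -/
theorem exists_approx (N : E ⊗[ℚ] ℚ_[q] → ℝ) (h0 : N 0 = 0) (hnn : ∀ a, 0 ≤ N a)
    (hadd : ∀ a b, N (a + b) ≤ N a + N b)
    (hsmul : ∀ (c : ℚ_[q]) (a : E ⊗[ℚ] ℚ_[q]), N ((1 ⊗ₜ c) * a) ≤ ‖c‖ * N a)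
    (a : E ⊗[ℚ] ℚ_[q]) {ε : ℝ} (hε : 0 < ε) : ∃ x : E, N (a - x ⊗ₜ 1) < ε := by
  classical
  set b := Module.finBasis ℚ E with hb
  obtain ⟨c, rfl⟩ := TensorProduct.eq_repr_basis_left b a
  have hsum : (c.sum fun i n => b i ⊗ₜ[ℚ] n) = ∑ i, b i ⊗ₜ[ℚ] (c i : ℚ_[q]) := by
    rw [Finsupp.sum_fintype]
    intro i
    exact TensorProduct.tmul_zero _ _
  rw [hsum]
  set C : ℝ := ∑ i, N (b i ⊗ₜ 1) with hC
  have hC0 : 0 ≤ C := Finset.sum_nonneg fun i _ => hnn _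
  set δ : ℝ := ε / (C + 1) with hδ
  have hδ0 : 0 < δ := div_pos hε (by linarith)
  choose r hr using fun i => Padic.rat_dense q (c i) hδ0
  refine ⟨∑ i, r i • b i, ?_⟩
  have h1 : (∑ i, b i ⊗ₜ[ℚ] (c i : ℚ_[q])) - (∑ i, r i • b i) ⊗ₜ[ℚ] (1 : ℚ_[q]) =
      ∑ i, ((1 : E) ⊗ₜ[ℚ] (c i - (r i : ℚ_[q]))) * (b i ⊗ₜ[ℚ] (1 : ℚ_[q])) := by
    rw [TensorProduct.sum_tmul, ← Finset.sum_sub_distrib]
    refine Finset.sum_congr rfl fun i _ => ?_
    rw [tmul_ratCast, Algebra.TensorProduct.tmul_mul_tmul, one_mul, mul_one,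
      TensorProduct.tmul_sub]
  rw [h1]
  calc N (∑ i, ((1 : E) ⊗ₜ[ℚ] (c i - (r i : ℚ_[q]))) * (b i ⊗ₜ[ℚ] (1 : ℚ_[q])))
      ≤ ∑ i, N (((1 : E) ⊗ₜ[ℚ] (c i - (r i : ℚ_[q]))) * (b i ⊗ₜ[ℚ] (1 : ℚ_[q]))) :=
        sum_le_of_subadd N h0 hadd _ _
    _ ≤ ∑ i, δ * N (b i ⊗ₜ 1) := by
        refine Finset.sum_le_sum fun i _ => ?_
        exact (hsmul _ _).trans (mul_le_mul_of_nonneg_right (hr i).le (hnn _))
    _ = δ * C := by rw [Finset.mul_sum]
    _ < ε := by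
        rw [hδ, div_mul_eq_mul_div, div_lt_iff₀ (by linarith)]
        nlinarith

end Approx

/-! ### factors -/

/-- A presentation of a factor field of `E ⊗[ℚ] ℚ_[q]`. -/
structure Factor (E : Type*) [Field E] [NumberField E] (q : ℕ) [Fact q.Prime]
    (Ω : Type*) [Field Ω] [Algebra ℚ_[q] Ω] where
  /-- the projection -/
  φ : E ⊗[ℚ] ℚ_[q] →+* Ω
  compat : ∀ c : ℚ_[q], φ (1 ⊗ₜ c) = algebraMap ℚ_[q] Ω c
  surj : Function.Surjective φ

namespace Factor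

variable {Ω : Type*} [Field Ω] [Algebra ℚ_[q] Ω] [Algebra.IsAlgebraic ℚ_[q] Ω]
  (F : Factor E q Ω)

/-- The embedding `E → Ω`, `x ↦ φ (x ⊗ 1)`. -/
noncomputable def ι : E →+* Ω := F.φ.comp Algebra.TensorProduct.includeLeftRingHom

theorem ι_apply (x : E) : F.ι x = F.φ (x ⊗ₜ 1) := rfl

theorem φ_tmul (x : E) (c : ℚ_[q]) : F.φ (x ⊗ₜ c) = algebraMap ℚ_[q] Ω c * F.ι x := by
  have : (x ⊗ₜ[ℚ] c : E ⊗[ℚ] ℚ_[q]) = ((1 : E) ⊗ₜ[ℚ] c) * (x ⊗ₜ[ℚ] (1 : ℚ_[q])) := by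
    rw [Algebra.TensorProduct.tmul_mul_tmul, one_mul, mul_one]
  rw [this, map_mul, F.compat, ι_apply]

theorem ι_ratCast (r : ℚ) : F.ι (r : E) = algebraMap ℚ_[q] Ω (r : ℚ_[q]) := by
  rw [ι_apply, ← F.compat]
  congr 1
  have h := tmul_ratCast (q := q) (1 : E) r
  rw [Rat.smul_def, mul_one] at h
  exact h

theorem ι_natCast (n : ℕ) : F.ι (n : E) = algebraMap ℚ_[q] Ω (n : ℚ_[q]) := by
  have := F.ι_ratCast (n : ℚ)
  simp only [Rat.cast_natCast] at this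
  exact this

/-- The kernel of a factor is a maximal ideal. -/
theorem ker_isMaximal : (RingHom.ker F.φ).IsMaximal :=
  RingHom.ker_isMaximal_of_surjective F.φ F.surj

/-- The spectral norm pulled back to `E`. -/
noncomputable def nu (x : E) : ℝ := spectralNorm ℚ_[q] Ω (F.ι x)

/-- The spectral norm pulled back to `E ⊗[ℚ] ℚ_[q]`. -/
noncomputable def nuA (a : E ⊗[ℚ] ℚ_[q]) : ℝ := spectralNorm ℚ_[q] Ω (F.φ a)

theorem nu_eq_nuA (x : E) : F.nu x = F.nuA (x ⊗ₜ 1) := rfl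

theorem spectralNorm_mul_eq (x y : Ω) :
    spectralNorm ℚ_[q] Ω (x * y) = spectralNorm ℚ_[q] Ω x * spectralNorm ℚ_[q] Ω y :=
  spectralAlgNorm_mul x y

theorem nuA_zero : F.nuA 0 = 0 := by rw [nuA, map_zero, spectralNorm_zero]

theorem nuA_nonneg (a : E ⊗[ℚ] ℚ_[q]) : 0 ≤ F.nuA a := spectralNorm_nonneg _

theorem nuA_add_le_max (a b : E ⊗[ℚ] ℚ_[q]) : F.nuA (a + b) ≤ max (F.nuA a) (F.nuA b) := by
  rw [nuA, map_add]
  exact isNonarchimedean_spectralNorm _ _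

theorem nuA_add_le (a b : E ⊗[ℚ] ℚ_[q]) : F.nuA (a + b) ≤ F.nuA a + F.nuA b :=
  (F.nuA_add_le_max a b).trans (max_le_add_of_nonneg (F.nuA_nonneg a) (F.nuA_nonneg b))

theorem nuA_mul (a b : E ⊗[ℚ] ℚ_[q]) : F.nuA (a * b) = F.nuA a * F.nuA b := by
  rw [nuA, map_mul, spectralNorm_mul_eq]; rfl

theorem nuA_one_tmul (c : ℚ_[q]) : F.nuA (1 ⊗ₜ c) = ‖c‖ := by
  rw [nuA, F.compat, spectralNorm_extends]

theorem nuA_neg (a : E ⊗[ℚ] ℚ_[q]) : F.nuA (-a) = F.nuA a := by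
  rw [nuA, map_neg, spectralNorm_neg (Algebra.IsAlgebraic.isAlgebraic _)]; rfl

theorem nuA_sub_comm (a b : E ⊗[ℚ] ℚ_[q]) : F.nuA (a - b) = F.nuA (b - a) := by
  rw [← F.nuA_neg (a - b), neg_sub]

theorem nu_mul (x y : E) : F.nu (x * y) = F.nu x * F.nu y := by
  rw [nu, map_mul, spectralNorm_mul_eq]; rfl

theorem nu_ratCast (r : ℚ) : F.nu (r : E) = ‖(r : ℚ_[q])‖ := by
  rw [nu, F.ι_ratCast, spectralNorm_extends]

theorem nu_natCast (n : ℕ) : F.nu (n : E) = ‖(n : ℚ_[q])‖ := by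
  rw [nu, F.ι_natCast, spectralNorm_extends]

theorem nu_add_le_max (x y : E) : F.nu (x + y) ≤ max (F.nu x) (F.nu y) := by
  rw [nu, map_add]
  exact isNonarchimedean_spectralNorm _ _

/-! #### the normed field structure used internally -/

/-- `Ω` as a normed field for the spectral norm (`‖x‖ = spectralNorm ℚ_[q] Ω x` by `rfl`). -/
@[reducible] noncomputable def normedFieldΩ (_F : Factor E q Ω) : NormedField Ω :=
  spectralNorm.normedField ℚ_[q] Ω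

theorem isUltrametricDistΩ :
    letI := F.normedFieldΩ
    IsUltrametricDist Ω :=
  letI := spectralNorm.normedField ℚ_[q] Ω
  letI := spectralNorm.normedAlgebra ℚ_[q] Ω
  IsUltrametricDist.of_normedAlgebra ℚ_[q]

theorem hasSmall :
    letI := F.normedFieldΩ
    HasSmall F.ι := by
  letI := F.normedFieldΩ
  refine ⟨(q : 𝓞 E), ?_, ?_⟩
  · exact_mod_cast (Fact.out : q.Prime).ne_zero
  · have h1 : ((q : 𝓞 E) : E) = (q : E) := by simp
    rw [h1]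
    show F.nu (q : E) < 1
    rw [F.nu_natCast]
    have : ‖(q : ℚ_[q])‖ = (q : ℝ)⁻¹ := Padic.norm_p
    rw [this]
    exact inv_lt_one_of_one_lt₀ (by exact_mod_cast (Fact.out : q.Prime).one_lt)

/-- **The place of `E` cut out by the factor.** -/
noncomputable def place : HeightOneSpectrum (𝓞 E) :=
  letI := F.normedFieldΩ
  haveI := F.isUltrametricDistΩ
  DecPlace.place F.hasSmall

theorem mem_place_iff (x : 𝓞 E) : x ∈ F.place.asIdeal ↔ F.nu (x : E) < 1 := Iff.rfl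

theorem natCast_mem_place : ((q : ℕ) : 𝓞 E) ∈ F.place.asIdeal := by
  rw [mem_place_iff]
  have h1 : (((q : ℕ) : 𝓞 E) : E) = (q : E) := by simp
  rw [h1, F.nu_natCast]
  have : ‖(q : ℚ_[q])‖ = (q : ℝ)⁻¹ := Padic.norm_p
  rw [this]
  exact inv_lt_one_of_one_lt₀ (by exact_mod_cast (Fact.out : q.Prime).one_lt)

theorem nu_int_le_one (x : 𝓞 E) : F.nu (x : E) ≤ 1 :=
  letI := F.normedFieldΩ
  haveI := F.isUltrametricDistΩ
  DecPlace.norm_int_le_one F.ι x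

theorem valuation_le_one_iff (x : E) : F.place.valuation E x ≤ 1 ↔ F.nu x ≤ 1 :=
  letI := F.normedFieldΩ
  haveI := F.isUltrametricDistΩ
  DecPlace.valuation_le_one_iff F.hasSmall x

theorem valuation_lt_one_iff (x : E) : F.place.valuation E x < 1 ↔ F.nu x < 1 :=
  letI := F.normedFieldΩ
  haveI := F.isUltrametricDistΩ
  DecPlace.valuation_lt_one_iff F.hasSmall x

theorem valuation_eq_one_iff (x : E) : F.place.valuation E x = 1 ↔ F.nu x = 1 :=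
  letI := F.normedFieldΩ
  haveI := F.isUltrametricDistΩ
  DecPlace.valuation_eq_one_iff F.hasSmall x

/-- **Exact form**: `nu x = c ^ ord_u x` for one constant `0 < c < 1`. -/
theorem exists_nu_eq_zpow :
    ∃ c : ℝ, 0 < c ∧ c < 1 ∧ ∀ x : E, x ≠ 0 →
      F.nu x = c ^ (-(WithZero.log (F.place.valuation E x))) :=
  letI := F.normedFieldΩ
  haveI := F.isUltrametricDistΩ
  DecPlace.exists_norm_eq_zpow F.hasSmall

/-! #### density -/

theorem nuA_smul_le (c : ℚ_[q]) (a : E ⊗[ℚ] ℚ_[q]) : F.nuA ((1 ⊗ₜ c) * a) ≤ ‖c‖ * F.nuA a := by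
  rw [F.nuA_mul, F.nuA_one_tmul]

/-- **`E` is dense in `E ⊗[ℚ] ℚ_[q]`** for the norm of the factor. -/
theorem exists_nuA_sub_lt (a : E ⊗[ℚ] ℚ_[q]) {ε : ℝ} (hε : 0 < ε) :
    ∃ x : E, F.nuA (a - x ⊗ₜ 1) < ε :=
  exists_approx F.nuA F.nuA_zero F.nuA_nonneg F.nuA_add_le F.nuA_smul_le a hε

/-- **`E` is dense in the factor `Ω`.** -/
theorem exists_spectralNorm_sub_lt (y : Ω) {ε : ℝ} (hε : 0 < ε) :
    ∃ x : E, spectralNorm ℚ_[q] Ω (y - F.ι x) < ε := by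
  obtain ⟨a, rfl⟩ := F.surj y
  obtain ⟨x, hx⟩ := F.exists_nuA_sub_lt a hε
  refine ⟨x, ?_⟩
  rw [nuA, map_sub] at hx
  exact hx

end Factor

/-! ### simultaneous approximation and injectivity of `factor ↦ place` -/

section Two

variable {Ω₁ : Type*} [Field Ω₁] [Algebra ℚ_[q] Ω₁] [Algebra.IsAlgebraic ℚ_[q] Ω₁]
  {Ω₂ : Type*} [Field Ω₂] [Algebra ℚ_[q] Ω₂] [Algebra.IsAlgebraic ℚ_[q] Ω₂]
  (F₁ : Factor E q Ω₁) (F₂ : Factor E q Ω₂)

/-- Simultaneous approximation in two factors. -/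
theorem exists_nuA_sub_lt₂ (a : E ⊗[ℚ] ℚ_[q]) {ε : ℝ} (hε : 0 < ε) :
    ∃ x : E, F₁.nuA (a - x ⊗ₜ 1) < ε ∧ F₂.nuA (a - x ⊗ₜ 1) < ε := by
  obtain ⟨x, hx⟩ := exists_approx (fun a => F₁.nuA a + F₂.nuA a)
    (by simp [F₁.nuA_zero, F₂.nuA_zero])
    (fun a => add_nonneg (F₁.nuA_nonneg a) (F₂.nuA_nonneg a))
    (fun a b => by
      have h1 := F₁.nuA_add_le a b
      have h2 := F₂.nuA_add_le a b
      show F₁.nuA (a + b) + F₂.nuA (a + b) ≤ (F₁.nuA a + F₂.nuA a) + (F₁.nuA b + F₂.nuA b)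
      linarith)
    (fun c a => by
      have h1 := F₁.nuA_smul_le c a
      have h2 := F₂.nuA_smul_le c a
      show F₁.nuA ((1 ⊗ₜ c) * a) + F₂.nuA ((1 ⊗ₜ c) * a) ≤ ‖c‖ * (F₁.nuA a + F₂.nuA a)
      rw [mul_add]
      linarith) a hε
  have hx' : F₁.nuA (a - x ⊗ₜ 1) + F₂.nuA (a - x ⊗ₜ 1) < ε := hx
  have h1 := F₁.nuA_nonneg (a - x ⊗ₜ 1)
  have h2 := F₂.nuA_nonneg (a - x ⊗ₜ 1)
  exact ⟨x, by linarith, by linarith⟩

/-- Factors with different kernels cut out different places. -/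
theorem place_ne_of_ker_ne (hne : RingHom.ker F₁.φ ≠ RingHom.ker F₂.φ) :
    F₁.place ≠ F₂.place := by
  have hcop := Ideal.IsMaximal.coprime_of_ne F₁.ker_isMaximal F₂.ker_isMaximal hne
  have hcop' : IsCoprime (RingHom.ker F₁.φ) (RingHom.ker F₂.φ) := by
    rw [Ideal.isCoprime_iff_sup_eq]; exact hcop
  obtain ⟨a, ha, b, hb, hab⟩ := Ideal.isCoprime_iff_exists.1 hcop'
  rw [RingHom.mem_ker] at ha hb
  -- `φ₁ a = 0`, `φ₂ a = 1`
  have ha2 : F₂.φ a = 1 := by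
    have := congrArg F₂.φ hab
    rw [map_add, hb, add_zero, map_one] at this
    exact this
  obtain ⟨x, hx1, hx2⟩ := exists_nuA_sub_lt₂ F₁ F₂ a one_pos
  -- `nu₁ x < 1`
  have h1 : F₁.nu x < 1 := by
    have : F₁.nuA (a - x ⊗ₜ 1) = F₁.nu x := by
      rw [F₁.nuA_sub_comm, Factor.nuA, map_sub, ha, sub_zero]; rfl
    rwa [this] at hx1
  -- `nu₂ x = 1`
  have h2 : F₂.nu x = 1 := by
    have e : F₂.nuA (a - x ⊗ₜ 1) = spectralNorm ℚ_[q] Ω₂ (1 - F₂.ι x) := by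
      rw [Factor.nuA, map_sub, ha2]; rfl
    rw [e] at hx2
    letI := F₂.normedFieldΩ
    haveI := F₂.isUltrametricDistΩ
    have hx2' : ‖(1 : Ω₂) - F₂.ι x‖ < 1 := hx2
    have hne' : ‖(F₂.ι x - 1)‖ ≠ ‖(1 : Ω₂)‖ := by
      rw [norm_one, norm_sub_rev]; exact hx2'.ne
    have := IsUltrametricDist.norm_add_eq_max_of_norm_ne_norm hne'
    rw [sub_add_cancel, norm_one, norm_sub_rev, max_eq_right hx2'.le] at this
    exact this
  intro heq
  have h3 := (F₁.valuation_lt_one_iff x).2 h1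
  rw [heq, F₂.valuation_lt_one_iff] at h3
  linarith

/-- Factors with the same kernel have the same pulled-back norm on `E`. -/
theorem nu_eq_of_ker_eq (heq : RingHom.ker F₁.φ = RingHom.ker F₂.φ) (x : E) :
    F₁.nu x = F₂.nu x := by
  -- the induced isomorphism `Ω₁ ≃ Ω₂` is a `ℚ_[q]`-algebra isomorphism
  let e₁ : (E ⊗[ℚ] ℚ_[q]) ⧸ RingHom.ker F₁.φ ≃+* Ω₁ :=
    RingHom.quotientKerEquivOfSurjective F₁.surj
  let e₂ : (E ⊗[ℚ] ℚ_[q]) ⧸ RingHom.ker F₂.φ ≃+* Ω₂ :=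
    RingHom.quotientKerEquivOfSurjective F₂.surj
  let e : Ω₁ ≃+* Ω₂ := (e₁.symm.trans (Ideal.quotEquivOfEq heq)).trans e₂
  have he : ∀ a : E ⊗[ℚ] ℚ_[q], e (F₁.φ a) = F₂.φ a := by
    intro a
    have h1 : e₁.symm (F₁.φ a) = Ideal.Quotient.mk _ a := by
      rw [RingEquiv.symm_apply_eq]; rfl
    show e₂ (Ideal.quotEquivOfEq heq (e₁.symm (F₁.φ a))) = F₂.φ a
    rw [h1, Ideal.quotEquivOfEq_mk]
    rfl
  let eA : Ω₁ ≃ₐ[ℚ_[q]] Ω₂ := AlgEquiv.ofRingEquiv (f := e) (by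
    intro c
    rw [← F₁.compat, he, F₂.compat])
  have : F₂.ι x = eA (F₁.ι x) := (he (x ⊗ₜ 1)).symm
  rw [Factor.nu, Factor.nu, this]
  unfold spectralNorm
  rw [minpoly.algEquiv_eq]

theorem place_eq_of_ker_eq (heq : RingHom.ker F₁.φ = RingHom.ker F₂.φ) :
    F₁.place = F₂.place := by
  apply HeightOneSpectrum.ext
  ext x
  rw [F₁.mem_place_iff, F₂.mem_place_iff, nu_eq_of_ker_eq F₁ F₂ heq]

/-- **Injectivity**: two factors cut out the same place iff they have the same kernel. -/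
theorem place_eq_iff_ker_eq : F₁.place = F₂.place ↔ RingHom.ker F₁.φ = RingHom.ker F₂.φ :=
  ⟨fun h => by
    by_contra hne
    exact place_ne_of_ker_ne F₁ F₂ hne h, place_eq_of_ker_eq F₁ F₂⟩

end Two

end Fermat.Agent.S55.Global.DecFactor
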