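/-
S55 / Global / G.dec, part C (helper50): SURJECTIVITY of `factor ↦ place`.

For a number field `E`, a prime `q` and a prime `u` of `𝓞 E` containing `q` there is a maximal ideal
`m` of `A := E ⊗[ℚ] ℚ_[q]` whose factor cuts out `u`.  Together with `DecFactor.place_eq_iff_ker_eq`:
the maximal ideals of `E ⊗[ℚ] ℚ_[q]` are in bijection with the primes of `𝓞 E` above `q`.

* `Fac E q m` : the CANONICAL factor `A ⧸ m` (a type synonym carrying its own `Algebra ℚ_[q]`
  instance, so nothing clashes with the consumer's instances on `A ⧸ m`), `canFactor m`;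
* `moduleFinite_of_surjective` : every factor is a finite `ℚ_[q]`-module (so the hypothesis
  `[Algebra.IsAlgebraic ℚ_[q] Ω]` of `DecFactor` is automatic);
* `isMaximal_of_isPrime` : prime ideals of `A` are maximal;
* `exists_maximal_place_eq`, `exists_factor_place_eq`; `Factor.place_eq_canFactor`.

Proof of surjectivity (no completion of `E`): `B := 𝓞 E ⊗[ℤ] ℤ_[q]` embeds in `A` (bases) and maps
onto `𝓞 E ⧸ u` (`psi`).  Take a prime `P` of `A` disjoint from the image of `B ∖ ker psi`.  If some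
`x ∈ u` had norm one in `A ⧸ P`, its inverse would be integral over `ℤ_[q]` (spectral norm `≤ 1` ⇒
integral minimal polynomial), producing `β ∈ B` with `j β ∈ P` and `psi β = 1`: contradiction.
-/
import Fermat.Agent.S55.Global.DecFactor

set_option autoImplicit false
set_option linter.unusedSectionVars false

open scoped TensorProduct
open NumberField IsDedekindDomain Polynomial

namespace Fermat.Agent.S55.Global.DecSurj

open Fermat.Agent.S55.Global.DecPlace Fermat.Agent.S55.Global.DecFactor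

variable {E : Type*} [Field E] [NumberField E] {q : ℕ} [Fact q.Prime]

/-! ### finiteness -/

/-- Any `ℚ_[q]`-algebra receiving a surjective compatible ring hom from `E ⊗[ℚ] ℚ_[q]` is a finite
`ℚ_[q]`-module. -/
theorem moduleFinite_of_surjective {R : Type*} [CommRing R] [Algebra ℚ_[q] R]
    (φ : E ⊗[ℚ] ℚ_[q] →+* R) (hφ : ∀ c : ℚ_[q], φ (1 ⊗ₜ c) = algebraMap ℚ_[q] R c)
    (hs : Function.Surjective φ) : Module.Finite ℚ_[q] R := by
  classical
  set b := Module.finBasis ℚ E with hb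
  let L : (Fin (Module.finrank ℚ E) → ℚ_[q]) →ₗ[ℚ_[q]] R :=
    Fintype.linearCombination ℚ_[q] (fun i => φ (b i ⊗ₜ 1))
  refine Module.Finite.of_surjective L ?_
  intro y
  obtain ⟨a, rfl⟩ := hs y
  obtain ⟨c, rfl⟩ := TensorProduct.eq_repr_basis_left b a
  refine ⟨fun i => c i, ?_⟩
  rw [Fintype.linearCombination_apply, Finsupp.sum_fintype _ _ (fun i => TensorProduct.tmul_zero _ _),
    map_sum]
  refine Finset.sum_congr rfl fun i _ => ?_
  have : (b i ⊗ₜ[ℚ] (c i : ℚ_[q]) : E ⊗[ℚ] ℚ_[q]) =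
      ((1 : E) ⊗ₜ[ℚ] (c i : ℚ_[q])) * (b i ⊗ₜ[ℚ] (1 : ℚ_[q])) := by
    rw [Algebra.TensorProduct.tmul_mul_tmul, one_mul, mul_one]
  rw [this, map_mul, hφ, Algebra.smul_def]

/-- Every factor is finite over `ℚ_[q]`. -/
theorem Factor.moduleFinite {Ω : Type*} [Field Ω] [Algebra ℚ_[q] Ω] (F : Factor E q Ω) :
    Module.Finite ℚ_[q] Ω :=
  moduleFinite_of_surjective F.φ F.compat F.surj

/-! ### the canonical factor `A ⧸ m` -/

variable (E q) in
/-- The canonical factor `(E ⊗[ℚ] ℚ_[q]) ⧸ m` (type synonym with its own instances). -/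
def Fac (m : Ideal (E ⊗[ℚ] ℚ_[q])) : Type _ := (E ⊗[ℚ] ℚ_[q]) ⧸ m

namespace Fac

variable (m : Ideal (E ⊗[ℚ] ℚ_[q])) [hm : m.IsMaximal]

noncomputable instance : Field (Fac E q m) := Ideal.Quotient.field m

/-- The projection `A → A ⧸ m`. -/
noncomputable def mk : E ⊗[ℚ] ℚ_[q] →+* Fac E q m := Ideal.Quotient.mk m

theorem mk_surjective : Function.Surjective (mk m) := Ideal.Quotient.mk_surjective

theorem ker_mk : RingHom.ker (mk m) = m := Ideal.mk_ker

noncomputable instance : Algebra ℚ_[q] (Fac E q m) :=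
  ((mk m).comp
    (Algebra.TensorProduct.includeRight : ℚ_[q] →ₐ[ℚ] E ⊗[ℚ] ℚ_[q]).toRingHom).toAlgebra

theorem algebraMap_apply (c : ℚ_[q]) : algebraMap ℚ_[q] (Fac E q m) c = mk m (1 ⊗ₜ c) := rfl

instance : Module.Finite ℚ_[q] (Fac E q m) :=
  moduleFinite_of_surjective (mk m) (fun _ => rfl) (mk_surjective m)

end Fac

/-- The canonical factor attached to a maximal ideal. -/
noncomputable def canFactor (m : Ideal (E ⊗[ℚ] ℚ_[q])) [m.IsMaximal] : Factor E q (Fac E q m) where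
  φ := Fac.mk m
  compat _ := rfl
  surj := Fac.mk_surjective m

theorem ker_canFactor (m : Ideal (E ⊗[ℚ] ℚ_[q])) [m.IsMaximal] :
    RingHom.ker (canFactor m).φ = m := Fac.ker_mk m

/-- Prime ideals of `E ⊗[ℚ] ℚ_[q]` are maximal. -/
theorem isMaximal_of_isPrime (P : Ideal (E ⊗[ℚ] ℚ_[q])) [hP : P.IsPrime] : P.IsMaximal := by
  letI : Algebra ℚ_[q] ((E ⊗[ℚ] ℚ_[q]) ⧸ P) :=
    ((Ideal.Quotient.mk P).comp
      (Algebra.TensorProduct.includeRight : ℚ_[q] →ₐ[ℚ] E ⊗[ℚ] ℚ_[q]).toRingHom).toAlgebra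
  haveI : Module.Finite ℚ_[q] ((E ⊗[ℚ] ℚ_[q]) ⧸ P) :=
    moduleFinite_of_surjective (Ideal.Quotient.mk P) (fun _ => rfl) Ideal.Quotient.mk_surjective
  haveI : Algebra.IsIntegral ℚ_[q] ((E ⊗[ℚ] ℚ_[q]) ⧸ P) := Algebra.IsIntegral.of_finite _ _
  have hf : IsField ((E ⊗[ℚ] ℚ_[q]) ⧸ P) :=
    isField_of_isIntegral_of_isField' (Field.toIsField ℚ_[q])
  exact Ideal.Quotient.maximal_of_isField P hf

/-- A factor cuts out the same place as the canonical factor of its kernel. -/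
theorem Factor.place_eq_canFactor {Ω : Type*} [Field Ω] [Algebra ℚ_[q] Ω]
    [Algebra.IsAlgebraic ℚ_[q] Ω] (F : Factor E q Ω) :
    haveI := F.ker_isMaximal
    F.place = (canFactor (RingHom.ker F.φ)).place := by
  haveI := F.ker_isMaximal
  exact place_eq_of_ker_eq F (canFactor (RingHom.ker F.φ)) (ker_canFactor _).symm

/-! ### the lattice `B = 𝓞 E ⊗[ℤ] ℤ_[q]` -/

section Lattice

variable (E q) in
/-- `𝓞 E ⊗[ℤ] ℤ_[q] → E ⊗[ℚ] ℚ_[q]`. -/
noncomputable def j : 𝓞 E ⊗[ℤ] ℤ_[q] →ₐ[ℤ] E ⊗[ℚ] ℚ_[q] :=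
  Algebra.TensorProduct.productMap
    ((Algebra.TensorProduct.includeLeftRingHom (R := ℚ) (A := E) (B := ℚ_[q])).comp
      (algebraMap (𝓞 E) E)).toIntAlgHom
    (((Algebra.TensorProduct.includeRight : ℚ_[q] →ₐ[ℚ] E ⊗[ℚ] ℚ_[q]).toRingHom).comp
      (PadicInt.Coe.ringHom (p := q))).toIntAlgHom

theorem j_tmul (x : 𝓞 E) (c : ℤ_[q]) :
    j E q (x ⊗ₜ c) = ((x : E) ⊗ₜ[ℚ] (c : ℚ_[q]) : E ⊗[ℚ] ℚ_[q]) := by
  rw [j, Algebra.TensorProduct.productMap_apply_tmul]
  show ((x : E) ⊗ₜ[ℚ] (1 : ℚ_[q])) * ((1 : E) ⊗ₜ[ℚ] (c : ℚ_[q])) = _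
  rw [Algebra.TensorProduct.tmul_mul_tmul, one_mul, mul_one]

theorem j_injective : Function.Injective (j E q) := by
  classical
  rw [injective_iff_map_eq_zero]
  intro β hβ
  obtain ⟨c, rfl⟩ := TensorProduct.eq_repr_basis_left (RingOfIntegers.basis E) β
  have hc0 : PadicInt.Coe.ringHom (p := q) 0 = 0 := map_zero _
  have h1 : j E q (c.sum fun i n => RingOfIntegers.basis E i ⊗ₜ[ℤ] n) =
      (Finsupp.lsum ℚ fun i => (TensorProduct.mk ℚ E ℚ_[q]) (integralBasis E i))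
        (c.mapRange (PadicInt.Coe.ringHom (p := q)) hc0) := by
    rw [Finsupp.sum, map_sum, Finsupp.lsum_apply,
      Finsupp.sum_mapRange_index (fun i => map_zero _), Finsupp.sum]
    refine Finset.sum_congr rfl fun i _ => ?_
    rw [j_tmul, integralBasis_apply]
    rfl
  rw [h1] at hβ
  have h2 : c.mapRange (PadicInt.Coe.ringHom (p := q)) hc0 = 0 := by
    apply TensorProduct.sum_tmul_basis_left_injective (N := ℚ_[q]) (integralBasis E)
    rw [hβ, map_zero]
  have h3 : c = 0 := by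
    ext i
    have := DFunLike.congr_fun h2 i
    rw [Finsupp.mapRange_apply, Finsupp.zero_apply] at this
    rw [Finsupp.zero_apply]
    exact Subtype.ext this
  rw [h3, Finsupp.sum_zero_index]

end Lattice

/-! ### surjectivity -/

/-- An element of `ℚ_[q]` of norm `≤ 1` as an element of `ℤ_[q]`. -/
def mkInt (a : ℚ_[q]) (h : ‖a‖ ≤ 1) : ℤ_[q] := ⟨a, h⟩

@[simp] theorem coe_mkInt (a : ℚ_[q]) (h : ‖a‖ ≤ 1) : ((mkInt a h : ℤ_[q]) : ℚ_[q]) = a := rfl

section Surj

variable (u : HeightOneSpectrum (𝓞 E)) (hq : ((q : ℕ) : 𝓞 E) ∈ u.asIdeal)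

include hq in
theorem charP_quot : CharP (𝓞 E ⧸ u.asIdeal) q := by
  haveI : Nontrivial (𝓞 E ⧸ u.asIdeal) := Ideal.Quotient.nontrivial_iff.2 u.isPrime.ne_top
  rw [CharP.charP_iff_prime_eq_zero Fact.out]
  rw [← map_natCast (Ideal.Quotient.mk u.asIdeal), Ideal.Quotient.eq_zero_iff_mem]
  exact hq

/-- `ℤ_[q] → 𝓞 E ⧸ u`. -/
noncomputable def f₂ : ℤ_[q] →+* 𝓞 E ⧸ u.asIdeal :=
  haveI := charP_quot u hq
  (ZMod.castHom (dvd_refl q) (𝓞 E ⧸ u.asIdeal)).comp PadicInt.toZMod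

/-- `𝓞 E ⊗[ℤ] ℤ_[q] → 𝓞 E ⧸ u`. -/
noncomputable def psi : 𝓞 E ⊗[ℤ] ℤ_[q] →ₐ[ℤ] 𝓞 E ⧸ u.asIdeal :=
  Algebra.TensorProduct.productMap (Ideal.Quotient.mkₐ ℤ u.asIdeal) (f₂ u hq).toIntAlgHom

theorem psi_tmul (x : 𝓞 E) (c : ℤ_[q]) :
    psi u hq (x ⊗ₜ c) = Ideal.Quotient.mk u.asIdeal x * f₂ u hq c := by
  rw [psi, Algebra.TensorProduct.productMap_apply_tmul]
  rfl

include hq in
/-- **Surjectivity**: every prime of `𝓞 E` above `q` is cut out by a maximal ideal of
`E ⊗[ℚ] ℚ_[q]`. -/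
theorem exists_maximal_place_eq :
    ∃ (m : Ideal (E ⊗[ℚ] ℚ_[q])) (_ : m.IsMaximal), (canFactor m).place = u := by
  classical
  haveI : (RingHom.ker (psi u hq)).IsPrime := RingHom.ker_isPrime _
  set S : Submonoid (E ⊗[ℚ] ℚ_[q]) :=
    (RingHom.ker (psi u hq)).primeCompl.map (j E q : 𝓞 E ⊗[ℤ] ℤ_[q] →* E ⊗[ℚ] ℚ_[q]) with hS
  have hdisj : Disjoint ((⊥ : Ideal (E ⊗[ℚ] ℚ_[q])) : Set (E ⊗[ℚ] ℚ_[q])) (S : Set _) := by
    rw [Set.disjoint_left]
    rintro a ha ⟨β, hβ, hβa⟩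
    have ha0 : a = 0 := ha
    rw [ha0] at hβa
    have hβ0 : β = 0 := j_injective (by
      have : j E q β = 0 := hβa
      rw [this, map_zero])
    apply hβ
    rw [hβ0]
    exact Ideal.zero_mem _
  obtain ⟨P, hP, -, hPS⟩ := Ideal.exists_le_prime_disjoint _ S hdisj
  haveI := hP
  haveI hPmax : P.IsMaximal := isMaximal_of_isPrime P
  refine ⟨P, hPmax, ?_⟩
  set F := canFactor P with hF
  -- key property of `P`
  have hkey : ∀ β : 𝓞 E ⊗[ℤ] ℤ_[q], j E q β ∈ P → psi u hq β = 0 := by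
    intro β hβ
    by_contra hne
    have h1 : j E q β ∈ (S : Set _) := ⟨β, hne, rfl⟩
    exact (Set.disjoint_left.1 hPS) hβ h1
  -- every element of `u` is small
  have hsmall : ∀ x : 𝓞 E, x ∈ u.asIdeal → F.nu (x : E) < 1 := by
    intro x hx
    by_contra hcon
    have hx1 : F.nu (x : E) = 1 := le_antisymm (F.nu_int_le_one x) (not_lt.1 hcon)
    have hιx : F.ι (x : E) ≠ 0 := by
      intro h0
      rw [Factor.nu, h0, spectralNorm_zero] at hx1
      exact zero_ne_one hx1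
    set y : Fac E q P := (F.ι (x : E))⁻¹ with hy
    have hy1 : spectralNorm ℚ_[q] (Fac E q P) y = 1 := by
      have h := Factor.spectralNorm_mul_eq (q := q) (F.ι (x : E)) y
      rw [hy, mul_inv_cancel₀ hιx, spectralNorm_one] at h
      have hx1' : spectralNorm ℚ_[q] (Fac E q P) (F.ι (x : E)) = 1 := hx1
      rw [hx1', one_mul] at h
      exact h.symm
    have hyint : IsIntegral ℚ_[q] y := Algebra.IsIntegral.isIntegral y
    set g := minpoly ℚ_[q] y with hg
    have hgm : g.Monic := minpoly.monic hyint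
    have hcoef : ∀ n, ‖g.coeff n‖ ≤ 1 := by
      apply (spectralValue_le_one_iff hgm).1
      have : spectralNorm ℚ_[q] (Fac E q P) y = spectralValue g := rfl
      rw [← this, hy1]
    set d := g.natDegree with hd
    have hsum : ∑ i ∈ Finset.range (d + 1), g.coeff i • y ^ i = 0 := by
      rw [← aeval_eq_sum_range, hg, minpoly.aeval]
    -- multiply by `(ι x) ^ d`
    have hsum2 : ∑ i ∈ Finset.range (d + 1),
        algebraMap ℚ_[q] (Fac E q P) (g.coeff i) * F.ι (x : E) ^ (d - i) = 0 := by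
      have h : ∑ i ∈ Finset.range (d + 1), (g.coeff i • y ^ i) * F.ι (x : E) ^ d = 0 :=
        (Finset.sum_mul (Finset.range (d + 1)) (fun i => g.coeff i • y ^ i)
          (F.ι (x : E) ^ d)).symm.trans
          ((congrArg (fun z => z * F.ι (x : E) ^ d) hsum).trans (zero_mul _))
      rw [← h]
      refine Finset.sum_congr rfl fun i hi => ?_
      have hi' : i ≤ d := Nat.lt_succ_iff.1 (Finset.mem_range.1 hi)
      rw [Algebra.smul_def, mul_assoc]
      congr 1
      have : F.ι (x : E) ^ d = F.ι (x : E) ^ i * F.ι (x : E) ^ (d - i) := by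
        rw [← pow_add, Nat.add_sub_cancel' hi']
      rw [this, ← mul_assoc, ← mul_pow, hy, inv_mul_cancel₀ hιx, one_pow, one_mul]
    -- the lift to `B`
    set β : 𝓞 E ⊗[ℤ] ℤ_[q] := ∑ i ∈ Finset.range (d + 1),
      (x ⊗ₜ[ℤ] (1 : ℤ_[q])) ^ (d - i) * ((1 : 𝓞 E) ⊗ₜ[ℤ] mkInt (g.coeff i) (hcoef i)) with hβ
    have hjβ : j E q β ∈ P := by
      rw [← Fac.ker_mk P, RingHom.mem_ker, hβ, map_sum, map_sum]
      rw [← hsum2]
      refine Finset.sum_congr rfl fun i _ => ?_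
      rw [map_mul, map_pow, j_tmul, j_tmul, map_mul, map_pow, mul_comm]
      rfl
    have hψ := hkey β hjβ
    have hmk : Ideal.Quotient.mk u.asIdeal x = 0 := Ideal.Quotient.eq_zero_iff_mem.2 hx
    rw [hβ, map_sum, Finset.sum_range_succ] at hψ
    have hz : ∑ i ∈ Finset.range d, psi u hq ((x ⊗ₜ[ℤ] (1 : ℤ_[q])) ^ (d - i) *
        ((1 : 𝓞 E) ⊗ₜ[ℤ] mkInt (g.coeff i) (hcoef i))) = 0 := by
      refine Finset.sum_eq_zero fun i hi => ?_
      have hi' : i < d := Finset.mem_range.1 hi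
      rw [map_mul, map_pow, psi_tmul, hmk, zero_mul, zero_pow (by omega), zero_mul]
    rw [hz, zero_add, Nat.sub_self, pow_zero, one_mul, psi_tmul, map_one, one_mul] at hψ
    have hlead : mkInt (g.coeff d) (hcoef d) = 1 := by
      apply Subtype.ext
      show g.coeff d = 1
      exact hgm.coeff_natDegree
    rw [hlead, map_one] at hψ
    haveI : Nontrivial (𝓞 E ⧸ u.asIdeal) := Ideal.Quotient.nontrivial_iff.2 u.isPrime.ne_top
    exact one_ne_zero hψ
  -- conclude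
  have hle : u.asIdeal ≤ F.place.asIdeal := fun x hx => (F.mem_place_iff x).2 (hsmall x hx)
  have hmax : u.asIdeal.IsMaximal := u.isMaximal
  have heq : u.asIdeal = F.place.asIdeal := hmax.eq_of_le F.place.isPrime.ne_top hle
  exact (HeightOneSpectrum.ext heq).symm

include hq in
/-- Surjectivity, existential-factor form. -/
theorem exists_factor_place_eq :
    ∃ (m : Ideal (E ⊗[ℚ] ℚ_[q])) (_ : m.IsMaximal),
      ∀ {Ω : Type*} [Field Ω] [Algebra ℚ_[q] Ω] [Algebra.IsAlgebraic ℚ_[q] Ω]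
        (F : Factor E q Ω), RingHom.ker F.φ = m → F.place = u := by
  obtain ⟨m, hm, hmu⟩ := exists_maximal_place_eq u hq
  refine ⟨m, hm, fun F hF => ?_⟩
  rw [← hmu]
  exact place_eq_of_ker_eq F (canFactor m) (hF.trans (ker_canFactor m).symm)

end Surj

/-- **The bijection** `MaxSpec (E ⊗[ℚ] ℚ_[q]) ≃ {primes of 𝓞 E above q}`, injectivity half, for
canonical factors. -/
theorem canFactor_place_injective {m m' : Ideal (E ⊗[ℚ] ℚ_[q])} [m.IsMaximal] [m'.IsMaximal]
    (h : (canFactor m).place = (canFactor m').place) : m = m' := by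
  have := (place_eq_iff_ker_eq (canFactor m) (canFactor m')).1 h
  rwa [ker_canFactor, ker_canFactor] at this

end Fermat.Agent.S55.Global.DecSurj
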