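/-
S55 / Global / G.descent — ABSTRACT ASSEMBLY (helper7, second seat of helper38's row; target
statement of helper38 #1886 with the conclusion of helper78 #1963).  Pure `Rep` algebra: Mathlib +
`Coh/PairEquiv` + `Global/Descent`, no number fields.

`0 → E → J → C → 0` short exact in `Rep k G`, `N ⊴ G` with `H¹(N, E) = 0`;
`0 → E' → J' → C' → 0` short exact in `Rep k G'`, `e : G ⧸ N ≃* G'`; `ψ : J' → J` linear, injective,
equivariant along `e`, with image the `N`-invariants of `J` and `ψ⁻¹(E) = E'`.  Then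
`(G ⧸ N, C^N) ≅ (G', C')` as pairs, by the map whose inverse is `g'(j') ↦ g(ψ j')`.
-/
import Mathlib
import Fermat.Agent.S55.Global.Descent
import Fermat.Agent.S55.Coh.PairEquiv

set_option autoImplicit false
set_option linter.unusedSectionVars false
set_option linter.unusedVariables false

namespace Fermat.Agent.S55.Global.DescentAssembly

open CategoryTheory
open Fermat.Agent.S55.Coh.PairEquiv

section abstract

universe u

variable {k : Type u} [CommRing k] {G Q : Type u} [Group G] [Group Q]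
variable (N : Subgroup G) [N.Normal] (e : G ⧸ N ≃* Q)
variable {X : ShortComplex (Rep.{u} k G)} (hX : X.ShortExact)
variable {Y : ShortComplex (Rep.{u} k Q)} (hY : Y.ShortExact)
variable (j : Y.X₂.V →ₗ[k] X.X₂.V)

/-- `J' → J → C`. -/
noncomputable def psiJ : Y.X₂.V →ₗ[k] X.X₃.V := X.g.hom.toLinearMap ∘ₗ j

theorem psiJ_apply (y : Y.X₂.V) : psiJ (X := X) (Y := Y) j y = X.g.hom (j y) := rfl

/-- The hypothesis `j⁻¹(E) = E'`. -/
def PreimageE : Prop :=
  ∀ y : Y.X₂.V, (∃ a : X.X₁.V, X.f.hom a = j y) ↔ (∃ a' : Y.X₁.V, Y.f.hom a' = y)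

include hY in
theorem ker_le_ker_psiJ (hE : PreimageE (X := X) (Y := Y) j) :
    LinearMap.ker Y.g.hom.toLinearMap ≤ LinearMap.ker (psiJ (X := X) (Y := Y) j) := by
  intro y hy
  rw [LinearMap.mem_ker] at hy ⊢
  obtain ⟨a', ha'⟩ := Descent.exists_of_shortExact hY y hy
  obtain ⟨a, ha⟩ := (hE y).2 ⟨a', ha'⟩
  rw [psiJ_apply, ← ha]
  exact Descent.comp_apply_eq_zero X a

/-- `C' → C`, induced by `j`. -/
noncomputable def psi0 (hE : PreimageE (X := X) (Y := Y) j) : Y.X₃.V →ₗ[k] X.X₃.V :=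
  ((LinearMap.ker Y.g.hom.toLinearMap).liftQ (psiJ (X := X) (Y := Y) j)
      (ker_le_ker_psiJ hY j hE)) ∘ₗ
    (LinearMap.quotKerEquivOfSurjective Y.g.hom.toLinearMap
      (Descent.surjective_of_shortExact hY)).symm.toLinearMap

theorem psi0_apply (hE : PreimageE (X := X) (Y := Y) j) (y : Y.X₂.V) :
    psi0 hY j hE (Y.g.hom y) = X.g.hom (j y) := by
  have h1 : (LinearMap.quotKerEquivOfSurjective Y.g.hom.toLinearMap
      (Descent.surjective_of_shortExact hY)).symm (Y.g.hom y) = Submodule.Quotient.mk y := by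
    rw [LinearEquiv.symm_apply_eq]
    exact (LinearMap.quotKerEquivOfSurjective_apply_mk _ _ y).symm
  show ((LinearMap.ker Y.g.hom.toLinearMap).liftQ (psiJ (X := X) (Y := Y) j)
      (ker_le_ker_psiJ hY j hE)) ((LinearMap.quotKerEquivOfSurjective Y.g.hom.toLinearMap
      (Descent.surjective_of_shortExact hY)).symm (Y.g.hom y)) = _
  rw [h1, Submodule.liftQ_apply, psiJ_apply]

/-- Equivariance of `j` along `G → G ⧸ N ≃ Q`. -/
def Equivariant : Prop :=
  ∀ (g : G) (y : Y.X₂.V), j (Y.X₂.ρ (e (QuotientGroup.mk g)) y) = X.X₂.ρ g (j y)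

theorem psi0_equivariant (hE : PreimageE (X := X) (Y := Y) j)
    (hje : Equivariant N e (X := X) (Y := Y) j) (g : G) (c : Y.X₃.V) :
    psi0 hY j hE (Y.X₃.ρ (e (QuotientGroup.mk g)) c) = X.X₃.ρ g (psi0 hY j hE c) := by
  obtain ⟨y, rfl⟩ := Descent.surjective_of_shortExact hY c
  rw [← Rep.hom_comm_apply, psi0_apply, psi0_apply, hje, Rep.hom_comm_apply]

theorem psi0_mem_invariants (hE : PreimageE (X := X) (Y := Y) j)
    (hje : Equivariant N e (X := X) (Y := Y) j) (c : Y.X₃.V) :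
    psi0 hY j hE c ∈ Representation.invariants (X.X₃.ρ.comp N.subtype) := by
  intro n
  have h1 : (QuotientGroup.mk (n : G) : G ⧸ N) = 1 := (QuotientGroup.eq_one_iff _).2 n.2
  have h2 := psi0_equivariant N e hY j hE hje (n : G) c
  rw [h1, map_one, map_one] at h2
  exact h2.symm

/-- `C' → C^N`. -/
noncomputable def psi (hE : PreimageE (X := X) (Y := Y) j)
    (hje : Equivariant N e (X := X) (Y := Y) j) :
    Y.X₃.V →ₗ[k] (X.X₃.quotientToInvariants N).V :=
  (psi0 hY j hE).codRestrict _ (psi0_mem_invariants N e hY j hE hje)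

theorem psi_coe (hE : PreimageE (X := X) (Y := Y) j)
    (hje : Equivariant N e (X := X) (Y := Y) j) (c : Y.X₃.V) :
    ((psi N e hY j hE hje c : (X.X₃.quotientToInvariants N).V) : X.X₃.V) = psi0 hY j hE c := rfl

include hX in
theorem psi_injective (hE : PreimageE (X := X) (Y := Y) j)
    (hje : Equivariant N e (X := X) (Y := Y) j) (hj : Function.Injective j) :
    Function.Injective (psi N e hY j hE hje) := by
  rw [← LinearMap.ker_eq_bot, LinearMap.ker_eq_bot']
  intro c hc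
  obtain ⟨y, rfl⟩ := Descent.surjective_of_shortExact hY c
  have h1 : psi0 hY j hE (Y.g.hom y) = 0 := congrArg Subtype.val hc
  rw [psi0_apply] at h1
  obtain ⟨a, ha⟩ := Descent.exists_of_shortExact hX (j y) h1
  obtain ⟨a', ha'⟩ := (hE y).1 ⟨a, ha⟩
  rw [← ha']
  exact Descent.comp_apply_eq_zero Y a'

include hX in
theorem psi_surjective (hE : PreimageE (X := X) (Y := Y) j)
    (hje : Equivariant N e (X := X) (Y := Y) j)
    (h1 : Descent.H1Vanishes X.X₁ N)
    (hjN : ∀ x : X.X₂.V, (∀ n : N, X.X₂.ρ n x = x) → ∃ y, j y = x) :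
    Function.Surjective (psi N e hY j hE hje) := by
  intro c
  obtain ⟨x, hx⟩ := Descent.surjective_map_invariants N hX h1 c
  obtain ⟨y, hy⟩ := hjN x.1 (fun n => x.2 n)
  refine ⟨Y.g.hom y, Subtype.ext ?_⟩
  rw [psi_coe, psi0_apply, hy]
  exact congrArg Subtype.val hx

include hX hY in
/-- **Abstract descent of pairs**, exposing the maps. -/
theorem exists_pairEquiv (hE : PreimageE (X := X) (Y := Y) j)
    (hje : Equivariant N e (X := X) (Y := Y) j) (hj : Function.Injective j)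
    (h1 : Descent.H1Vanishes X.X₁ N)
    (hjN : ∀ x : X.X₂.V, (∀ n : N, X.X₂.ρ n x = x) → ∃ y, j y = x) :
    ∃ P : PairEquiv (X.X₃.quotientToInvariants N) Y.X₃, P.e = e ∧
      ∀ y : Y.X₂.V, ((P.φ.symm (Y.g.hom y) : (X.X₃.quotientToInvariants N).V) : X.X₃.V) =
        X.g.hom (j y) := by
  let Ψ := LinearEquiv.ofBijective (psi N e hY j hE hje)
    ⟨psi_injective N e hX hY j hE hje hj, psi_surjective N e hX hY j hE hje h1 hjN⟩
  refine ⟨⟨e, Ψ.symm, ?_⟩, rfl, ?_⟩
  · intro g x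
    induction g using QuotientGroup.induction_on with
    | H g =>
      obtain ⟨c, rfl⟩ := Ψ.surjective x
      rw [LinearEquiv.symm_apply_apply, LinearEquiv.symm_apply_eq]
      apply Subtype.ext
      show _ = psi0 hY j hE (Y.X₃.ρ (e (QuotientGroup.mk g)) c)
      rw [psi0_equivariant N e hY j hE hje]
      rfl
  · intro y
    show ((Ψ.symm.symm (Y.g.hom y) : (X.X₃.quotientToInvariants N).V) : X.X₃.V) = _
    rw [LinearEquiv.symm_symm]
    exact psi0_apply hY j hE y

end abstract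

section statement

universe u

/-- **`pairEquiv_of_descent`** in the literal shape of helper38 #1886 / helper78 #1963
(universe-polymorphic; we use `Type 0`, `k = ℤ`). -/
theorem pairEquiv_of_descent {k G G' : Type u} [CommRing k] [Group G] [Group G']
    (N : Subgroup G) [N.Normal] (e : G ⧸ N ≃* G')
    {X : ShortComplex (Rep.{u} k G)} (hX : X.ShortExact)
    {X' : ShortComplex (Rep.{u} k G')} (hX' : X'.ShortExact)
    (ψ : X'.X₂.V →ₗ[k] X.X₂.V)
    (hequiv : ∀ (g : G) (j : X'.X₂.V), ψ (X'.X₂.ρ (e (QuotientGroup.mk g)) j) = X.X₂.ρ g (ψ j))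
    (hinj : Function.Injective ψ)
    (hrange : ∀ j : X.X₂.V, (∀ n : N, X.X₂.ρ (n : G) j = j) → ∃ j', ψ j' = j)
    (hE : ∀ j' : X'.X₂.V,
      (∃ a : X.X₁.V, X.f.hom a = ψ j') ↔ (∃ a' : X'.X₁.V, X'.f.hom a' = j'))
    (h1 : Descent.H1Vanishes X.X₁ N) :
    ∃ P : PairEquiv (X.X₃.quotientToInvariants N) X'.X₃, P.e = e ∧
      ∀ j' : X'.X₂.V, ((P.φ.symm (X'.g.hom j') : (X.X₃.quotientToInvariants N).V) : X.X₃.V) =
        X.g.hom (ψ j') :=
  exists_pairEquiv N e hX hX' ψ hE hequiv hinj h1 hrange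

/-- The bare `Nonempty` corollary. -/
theorem nonempty_pairEquiv_of_descent {k G G' : Type u} [CommRing k] [Group G] [Group G']
    (N : Subgroup G) [N.Normal] (e : G ⧸ N ≃* G')
    {X : ShortComplex (Rep.{u} k G)} (hX : X.ShortExact)
    {X' : ShortComplex (Rep.{u} k G')} (hX' : X'.ShortExact)
    (ψ : X'.X₂.V →ₗ[k] X.X₂.V)
    (hequiv : ∀ (g : G) (j : X'.X₂.V), ψ (X'.X₂.ρ (e (QuotientGroup.mk g)) j) = X.X₂.ρ g (ψ j))
    (hinj : Function.Injective ψ)
    (hrange : ∀ j : X.X₂.V, (∀ n : N, X.X₂.ρ (n : G) j = j) → ∃ j', ψ j' = j)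
    (hE : ∀ j' : X'.X₂.V,
      (∃ a : X.X₁.V, X.f.hom a = ψ j') ↔ (∃ a' : X'.X₁.V, X'.f.hom a' = j'))
    (h1 : Descent.H1Vanishes X.X₁ N) :
    Nonempty (PairEquiv (X.X₃.quotientToInvariants N) X'.X₃) := by
  obtain ⟨P, -, -⟩ := pairEquiv_of_descent N e hX hX' ψ hequiv hinj hrange hE h1
  exact ⟨P⟩

end statement

end Fermat.Agent.S55.Global.DescentAssembly
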