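/-
S55 / Global / G.descent, part 3c (helper38): GALOIS DESCENT OF THE `T`-IDELE CLASS MODULE (row
G.descent, interface v3).

Tower `K ⊆ L ⊆ M` of number fields, `M/K` Galois, `L/K` normal, `N ⊴ Gal(M/K)` with `M^N = L`,
`T` admissible for `M/K` (`Blocks2.AdmissibleQ K M p T`).  Then
`((Cn K M T)^N, Gal(M/K) ⧸ N) ≅ (Cn K L T, Gal(L/K))` as pairs (`Coh.PairEquiv`), the inverse being
`TransitionQ.transCn K L M T`.

* `descent_tower` : general form (`e : Gal(M/K) ⧸ N ≃* Gal(L/K)` compatible with restriction, and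
  the `N`-fixed elements of `M` come from `L`);
* `descent_fixedField`, `nonempty_pairEquiv_fixedField` : `L = fixedField N`,
  `e = IsGalois.normalAutEquivQuotient N`;
* `descent_ker` : `N = (rnHom K L M).ker`, `e = QuotientGroup.quotientKerEquivOfSurjective ..`.

Ingredients: `DescentUnits.h1Vanishes_En` (`H¹(N, E_{M,T}) = 0`), `DescentTensorQ`
(`(M ⊗[ℚ] A)^N = L ⊗[ℚ] A`), `DescentUnits.map_mem_EUnitsQ_iff` (`E_{M,T} ∩ L = E_{L,T}`) and the
abstract `DescentAssembly.pairEquiv_of_descent`.
-/
import Mathlib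
import Fermat.Agent.S55.Coh.PairEquiv
import Fermat.Agent.S55.Global.TransitionQ
import Fermat.Agent.S55.Global.DescentUnits
import Fermat.Agent.S55.Global.DescentTensorQ
import Fermat.Agent.S55.Global.DescentAssembly

set_option autoImplicit false
set_option linter.unusedSectionVars false

open NumberField IsDedekindDomain TensorProduct CategoryTheory

namespace Fermat.Agent.S55.Global.DescentTower

open Fermat.Agent.S55.Coh.PairEquiv
open Fermat.Agent.S55.Global.Objects Fermat.Agent.S55.Global.Objects2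
open Fermat.Agent.S55.Global.Objects5 Fermat.Agent.S55.Global.Blocks2
open Fermat.Agent.S55.Global.TransitionQ
open Fermat.Agent.S55.Global.DescentTensorQ
open Fermat.Agent.S55.Global.DescentAssembly

section units

variable (L : Type) [Field L] [NumberField L] (A : Type) [CommRing A] [Algebra ℚ A]

/-- The unit underlying an element of `JRep ℚ L A`. -/
noncomputable def unitOf (j : (JRep ℚ L A).V) : (L ⊗[ℚ] A)ˣ := Additive.toMul (Rep.toAdditive j)

/-- The element of `JRep ℚ L A` given by a unit. -/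
noncomputable def ofUnit (u : (L ⊗[ℚ] A)ˣ) : (JRep ℚ L A).V :=
  Rep.toAdditive.symm (Additive.ofMul u)

@[simp] theorem unitOf_ofUnit (u : (L ⊗[ℚ] A)ˣ) : unitOf L A (ofUnit L A u) = u := rfl

@[simp] theorem ofUnit_unitOf (j : (JRep ℚ L A).V) : ofUnit L A (unitOf L A j) = j := rfl

theorem unitOf_injective : Function.Injective (unitOf L A) := fun a b h => by
  rw [← ofUnit_unitOf L A a, h, ofUnit_unitOf]

theorem unitOf_ρ (σ : L ≃ₐ[ℚ] L) (j : (JRep ℚ L A).V) :
    unitOf L A ((JRep ℚ L A).ρ σ j) = σ • unitOf L A j := rfl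

end units

section tower

variable (K : Type) [Field K] [NumberField K]
variable (L : Type) [Field L] [NumberField L] [Algebra K L]
variable (M : Type) [Field M] [NumberField M] [Algebra K M] [Algebra L M] [IsScalarTower K L M]
variable (A : Type) [CommRing A] [Algebra ℚ A]
variable (T : Finset Nat.Primes)
variable (N : Subgroup (M ≃ₐ[K] M))

/-- `TransitionQ.transQ` is `DescentTensorQ.inclQ`. -/
theorem transQ_eq_inclQ (z : L ⊗[ℚ] A) : transQ L M A z = inclQ (F := L) (M := M) A z := by
  induction z using TensorProduct.induction_on with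
  | zero => simp
  | tmul x a => rfl
  | add x y hx hy => rw [map_add, map_add, hx, hy]

theorem transUnitsQ_eq (u : (L ⊗[ℚ] A)ˣ) :
    transUnitsQ L M A u = Units.map (inclQ (F := L) (M := M) A).toMonoidHom u :=
  Units.ext (transQ_eq_inclQ L M A (u : L ⊗[ℚ] A))

theorem unitOf_transLinQ (j : (JQ L T).V) :
    unitOf M (QT T) (transLinQ L M T j) = transUnitsQ L M (QT T) (unitOf L (QT T) j) := rfl

/-- `N`-invariant elements of `J_{M,T}` come from `J_{L,T}` when the `N`-fixed elements of `M` come
from `L`. -/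
theorem transLinQ_range
    (hfix : ∀ x : M, (∀ n ∈ N, n x = x) → x ∈ Set.range (algebraMap L M))
    (j : (JQ M T).V) (hj : ∀ n : N, (JQ M T).ρ (resHom K M (n : M ≃ₐ[K] M)) j = j) :
    ∃ j', transLinQ L M T j' = j := by
  obtain ⟨x, hx⟩ := exists_unit_of_invariantQ (F := L) (QT T)
    {σ : M ≃ₐ[ℚ] M | ∃ n ∈ N, σ = resHom K M n}
    (fun x hx => hfix x (fun n hn => hx (resHom K M n) ⟨n, hn, rfl⟩))
    (unitOf M (QT T) j) (by
      rintro σ ⟨n, hn, rfl⟩
      have h := congrArg (fun x => ((unitOf M (QT T) x : (M ⊗[ℚ] QT T)ˣ) : M ⊗[ℚ] QT T))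
        (hj ⟨n, hn⟩)
      exact h)
  refine ⟨ofUnit L (QT T) x, ?_⟩
  apply unitOf_injective
  rw [unitOf_transLinQ, unitOf_ofUnit, transUnitsQ_eq, hx]

/-- Elements coming from `J_{L,T}` are fixed by automorphisms fixing `L`. -/
theorem transLinQ_fixed (n : M ≃ₐ[K] M)
    (hn : ∀ x : L, n (algebraMap L M x) = algebraMap L M x) (j : (JQ L T).V) :
    (JQ M T).ρ (resHom K M n) (transLinQ L M T j) = transLinQ L M T j := by
  apply unitOf_injective
  rw [unitOf_ρ, unitOf_transLinQ, transUnitsQ_eq]
  apply Units.ext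
  exact tensorAct_inclQ (QT T) (σ := resHom K M n) hn _

theorem mem_ESubQ_iff (L : Type) [Field L] [NumberField L] (j : (JQ L T).V) :
    j ∈ ESubQ L T ↔ ∃ x ∈ EUnitsQ L T, inclUnits ℚ L (QT T) x = unitOf L (QT T) j := by
  rw [mem_imageSub, Subgroup.mem_map]
  rfl

/-- `ψ j' ∈ E_{M,T} ↔ j' ∈ E_{L,T}`. -/
theorem transLinQ_mem_ESubQ_iff (hT : T.Nonempty)
    (hN : ∀ n ∈ N, ∀ x : L, n (algebraMap L M x) = algebraMap L M x)
    (hfix : ∀ x : M, (∀ n ∈ N, n x = x) → x ∈ Set.range (algebraMap L M))
    (j' : (JQ L T).V) :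
    transLinQ L M T j' ∈ ESubQ M T ↔ j' ∈ ESubQ L T := by
  constructor
  · intro h
    rw [mem_ESubQ_iff] at h ⊢
    obtain ⟨x, hx, hxj⟩ := h
    -- `x` is fixed by `N`
    have hfixx : ∀ n ∈ N, (n : M ≃ₐ[K] M) • x = x := by
      intro n hn
      apply DescentUnits.inclUnits_injective M hT
      have h1 : (resHom K M n) • inclUnits ℚ M (QT T) x =
          inclUnits ℚ M (QT T) (n • x) := smul_inclUnits (QT T) _ x
      rw [← h1, hxj, ← unitOf_ρ, transLinQ_fixed K L M T n (hN n hn)]
    -- hence comes from `L`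
    obtain ⟨y₀, hy₀⟩ := hfix (x : M) (fun n hn => congrArg (fun u : Mˣ => (u : M)) (hfixx n hn))
    have hy₀0 : y₀ ≠ 0 := by
      rintro rfl
      rw [map_zero] at hy₀
      exact x.ne_zero hy₀.symm
    let y : Lˣ := Units.mk0 y₀ hy₀0
    have hyx : Units.map (algebraMap L M : L →* M) y = x := Units.ext hy₀
    refine ⟨y, ?_, ?_⟩
    · rw [← DescentUnits.map_mem_EUnitsQ_iff L M T, hyx]
      exact hx
    · apply unitsMap_inclQ_injective (F := L) (M := M) (QT T)
      rw [unitsMap_inclQ_inclUnits, hyx, hxj, unitOf_transLinQ, transUnitsQ_eq]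
  · exact fun h => transLinQ_mem_ESubQ L M T h

end tower

section final

variable (K : Type) [Field K] [NumberField K]
variable (L : Type) [Field L] [NumberField L] [Algebra K L]
variable (M : Type) [Field M] [NumberField M] [Algebra K M] [Algebra L M] [IsScalarTower K L M]
variable [IsGalois K M] [Normal K L]
variable {T : Finset Nat.Primes} {p : ℕ}
variable (N : Subgroup (M ≃ₐ[K] M)) [N.Normal]

/-- **Galois descent of the `T`-idele class module, tower form** (row G.descent).  `K ⊆ L ⊆ M`,
`M/K` Galois, `L/K` normal, `N ⊴ Gal(M/K)` with `M^N = L`, `e : Gal(M/K) ⧸ N ≃* Gal(L/K)` the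
restriction.  If `T` is admissible for `M/K` then `(C_{M,T})^N ≅ C_{L,T}` as a pair, the inverse
being `TransitionQ.transCn`. -/
theorem descent_tower (e : (M ≃ₐ[K] M) ⧸ N ≃* (L ≃ₐ[K] L))
    (he : ∀ g : M ≃ₐ[K] M, e (QuotientGroup.mk g) = rnHom K L M g)
    (hfix : ∀ x : M, (∀ n ∈ N, n x = x) → x ∈ Set.range (algebraMap L M))
    (hadm : AdmissibleQ K M p T) :
    ∃ P : PairEquiv ((Cn K M T).quotientToInvariants N) (Cn K L T), P.e = e ∧
      ∀ x : Cn K L T, ((P.φ.symm x : (Cn K M T).quotientToInvariants N) : Cn K M T) =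
        (transCn K L M T).hom x := by
  have hT := DescentUnits.nonempty_of_admissibleQ K M hadm
  have hN : ∀ n ∈ N, ∀ x : L, n (algebraMap L M x) = algebraMap L M x := by
    intro n hn x
    have h1 : (QuotientGroup.mk n : (M ≃ₐ[K] M) ⧸ N) = 1 := (QuotientGroup.eq_one_iff n).mpr hn
    have h2 : rnHom K L M n = 1 := by rw [← he, h1, map_one]
    rw [← rnHom_commutes, h2]
    rfl
  obtain ⟨P, hPe, hP⟩ := pairEquiv_of_descent N e
    (X := sesn K M T) (sesn_shortExact K M T)
    (X' := sesn K L T) (sesn_shortExact K L T)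
    (transLinQ L M T)
    (fun g j => by
      rw [he]
      exact transLinQ_comm K L M T g j)
    (transLinQ_injective L M T)
    (fun j hj => transLinQ_range K L M T N hfix j hj)
    (fun j' => by
      constructor
      · rintro ⟨a, ha⟩
        have h1 : transLinQ L M T j' ∈ ESubQ M T := by
          have h2 : (a.1 : (JQ M T).V) ∈ ESubQ M T := a.2
          have h3 : (a.1 : (JQ M T).V) = transLinQ L M T j' := ha
          rwa [h3] at h2
        exact ⟨⟨j', (transLinQ_mem_ESubQ_iff K L M T N hT hN hfix j').mp h1⟩, rfl⟩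
      · rintro ⟨a', ha'⟩
        have h1 : j' ∈ ESubQ L T := by
          have h2 : (a'.1 : (JQ L T).V) ∈ ESubQ L T := a'.2
          have h3 : (a'.1 : (JQ L T).V) = j' := ha'
          rwa [h3] at h2
        exact ⟨⟨_, (transLinQ_mem_ESubQ_iff K L M T N hT hN hfix j').mpr h1⟩, rfl⟩)
    (DescentUnits.h1Vanishes_En K M hadm N)
  refine ⟨P, hPe, fun x => ?_⟩
  obtain ⟨j', rfl⟩ : ∃ j' : (JQ L T).V, (sesn K L T).g.hom j' = x :=
    Descent.surjective_of_shortExact (sesn_shortExact K L T) x
  exact hP j'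

end final

section special

variable (K : Type) [Field K] [NumberField K]
variable (M : Type) [Field M] [NumberField M] [Algebra K M] [IsGalois K M]
variable {T : Finset Nat.Primes} {p : ℕ}

/-- **Descent, fixed-field form**: `N ⊴ Gal(M/K)`, `F = M^N`. -/
theorem descent_fixedField (N : Subgroup (M ≃ₐ[K] M)) [N.Normal] (hadm : AdmissibleQ K M p T) :
    ∃ P : PairEquiv ((Cn K M T).quotientToInvariants N)
        (Cn K (IntermediateField.fixedField N) T),
      P.e = IsGalois.normalAutEquivQuotient N ∧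
      ∀ x : Cn K (IntermediateField.fixedField N) T,
        ((P.φ.symm x : (Cn K M T).quotientToInvariants N) : Cn K M T) =
          (transCn K (IntermediateField.fixedField N) M T).hom x :=
  descent_tower K (IntermediateField.fixedField N) M N (IsGalois.normalAutEquivQuotient N)
    (fun _ => rfl)
    (fun x hx => ⟨⟨x, fun n => hx n.1 n.2⟩, rfl⟩) hadm

/-- The `Nonempty` corollary (shape of `DevissageFinal.DescentFixedQ`). -/
theorem nonempty_pairEquiv_fixedField (N : Subgroup (M ≃ₐ[K] M)) [N.Normal]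
    (hadm : AdmissibleQ K M p T) :
    Nonempty (PairEquiv ((Cn K M T).quotientToInvariants N)
      (Cn K (IntermediateField.fixedField N) T)) := by
  obtain ⟨P, -, -⟩ := descent_fixedField K M N hadm
  exact ⟨P⟩

variable (L : Type) [Field L] [NumberField L] [Algebra K L] [Algebra L M] [IsScalarTower K L M]
  [Normal K L]

/-- Elements of `M` fixed by the kernel of the restriction `Gal(M/K) → Gal(L/K)` come from `L`. -/
theorem mem_range_of_fixed_ker (x : M) (hx : ∀ n ∈ (rnHom K L M).ker, n x = x) :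
    x ∈ Set.range (algebraMap L M) := by
  let E : IntermediateField K M := (IsScalarTower.toAlgHom K L M).fieldRange
  have hle : E.fixingSubgroup ≤ (rnHom K L M).ker := by
    intro g hg
    rw [MonoidHom.mem_ker]
    apply AlgEquiv.ext
    intro y
    apply (algebraMap L M).injective
    rw [rnHom_commutes]
    exact (IntermediateField.mem_fixingSubgroup_iff E g).mp hg _ ⟨y, rfl⟩
  have hxE : x ∈ IntermediateField.fixedField E.fixingSubgroup := by
    rintro ⟨g, hg⟩
    exact hx g (hle hg)
  rw [IsGalois.fixedField_fixingSubgroup] at hxE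
  obtain ⟨y, hy⟩ := hxE
  exact ⟨y, hy⟩

/-- **Descent, kernel form**: tower `K ⊆ L ⊆ M`, `L/K` normal, `N = ker(Gal(M/K) → Gal(L/K))`. -/
theorem descent_ker (hadm : AdmissibleQ K M p T) :
    ∃ P : PairEquiv ((Cn K M T).quotientToInvariants (rnHom K L M).ker) (Cn K L T),
      P.e = QuotientGroup.quotientKerEquivOfSurjective (rnHom K L M)
        (AlgEquiv.restrictNormalHom_surjective M) ∧
      ∀ x : Cn K L T,
        ((P.φ.symm x : (Cn K M T).quotientToInvariants (rnHom K L M).ker) : Cn K M T) =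
          (transCn K L M T).hom x :=
  descent_tower K L M (rnHom K L M).ker _ (fun _ => rfl)
    (mem_range_of_fixed_ker K M L) hadm

end special

end Fermat.Agent.S55.Global.DescentTower
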