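/-
S55 / Global / G.descent, closing file (helper38): `DevissageFinal.DescentFixedQ p` holds for every
`p`, hence (G-i) `H1Vanish p` and (G-ii, weak) `H2CardDvd p` follow from the two inequalities alone.
-/
import Fermat.Agent.S55.Global.DevissageFinal
import Fermat.Agent.S55.Global.DescentTower

set_option autoImplicit false

namespace Fermat.Agent.S55.Global.DescentClosed

open Fermat.Agent.S55.Global.Blocks2

/-- **Row G.descent, consumer shape, CLOSED.** -/
theorem descentFixedQ (p : ℕ) : DevissageFinal.DescentFixedQ p :=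
  fun K L _ _ _ _ _ _ _ hadm N _ => DescentTower.nonempty_pairEquiv_fixedField K L N hadm

/-- `DevissageInstQ.DescentQuotQ p`, CLOSED. -/
theorem descentQuotQ (p : ℕ) : DevissageInstQ.DescentQuotQ p :=
  DevissageFinal.descentQuotQ (descentFixedQ p)

/-- **(G-i)** from the cyclic layers. -/
theorem h1Vanish_of_cyclicCoh {p : ℕ} (hC : CyclicCoh p) : H1Vanish p :=
  DevissageFinal.h1Vanish hC (descentFixedQ p)

/-- **(G-ii, weak form)** from the cyclic layers. -/
theorem h2CardDvd_of_cyclicCoh {p : ℕ} (hC : CyclicCoh p) : H2CardDvd p :=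
  DevissageFinal.h2CardDvd hC (descentFixedQ p)

/-- **(G-i)** from the two inequalities. -/
theorem h1Vanish_of_ineqs {p : ℕ} (h1 : FirstIneq p) (h2 : SecondIneq p) : H1Vanish p :=
  DevissageFinal.h1Vanish_of_ineqs h1 h2 (descentFixedQ p)

/-- **(G-ii, weak form)** from the two inequalities. -/
theorem h2CardDvd_of_ineqs {p : ℕ} (h1 : FirstIneq p) (h2 : SecondIneq p) : H2CardDvd p :=
  DevissageFinal.h2CardDvd_of_ineqs h1 h2 (descentFixedQ p)

end Fermat.Agent.S55.Global.DescentClosed
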