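/-
S55 / GLOBAL block — row G.devissage CLOSED for interface v3 (helper6), and row G.inflInj.

With helper38's Galois descent (`Global/DescentTower.lean`) the dévissage has NO open input besides
the cyclic layers:

* `descentFixedQ p : DevissageFinal.DescentFixedQ p`   (unconditional);
* `h1Vanish_of_cyclicCoh   : Blocks2.CyclicCoh p → Blocks2.H1Vanish p`       (= (G-i)),
  `h2CardDvd_of_cyclicCoh  : Blocks2.CyclicCoh p → Blocks2.H2CardDvd p`      (= (G-ii), weak form),
  `h1Vanish_of_ineqs`, `h2CardDvd_of_ineqs` : the same from `FirstIneq p` and `SecondIneq p`;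
* `InflInj p` (row G.inflInj, helper78 #1930) and `inflInj : H1Vanish p → InflInj p`:
  `inflCn K L M T 2 : H²(Gal(L/K), C_{L,T}) → H²(Gal(M/K), C_{M,T})` is injective for every tower
  `K ⊆ L ⊆ M` with `Setting p K M T`, `L/K` normal;
* `rest₂_inflCn`, `ker_rest₂_le_range_inflCn` : exactness at `H²(Gal(M/K), C_{M,T})`:
  the image of `inflCn` is exactly the kernel of the restriction to `Gal(M/L)`.
-/
import Fermat.Agent.S55.Global.DevissageFinal
import Fermat.Agent.S55.Global.DescentTower
import Fermat.Agent.S55.Global.LayerVanish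
import Fermat.Agent.S55.Coh.InflCompat

set_option autoImplicit false
set_option linter.unusedSectionVars false

open NumberField CategoryTheory

namespace Fermat.Agent.S55.Global.DevissageClosed

open Fermat.Agent.S55.Global.Objects Fermat.Agent.S55.Global.Objects2
open Fermat.Agent.S55.Global.Blocks2
open Fermat.Agent.S55.Global.TransitionQ
open Fermat.Agent.S55.Coh.PairEquiv
open Fermat.Agent.S55.Tate.InfRes2

/-- Row G.descent in the consumer shape of the dévissage: unconditional. -/
theorem descentFixedQ (p : ℕ) : DevissageFinal.DescentFixedQ p :=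
  fun K L _ _ _ _ _ _ _ hadm N _ => DescentTower.nonempty_pairEquiv_fixedField K L N hadm

/-- **(G-i)** `H¹(Gal(L/K), C_{L,T}) = 0` from the cyclic layers of degree `p`. -/
theorem h1Vanish_of_cyclicCoh {p : ℕ} (hC : CyclicCoh p) : H1Vanish p :=
  DevissageFinal.h1Vanish hC (descentFixedQ p)

/-- **(G-ii), weak form** `card H²(Gal(L/K), C_{L,T}) ∣ [L:K]` from the cyclic layers. -/
theorem h2CardDvd_of_cyclicCoh {p : ℕ} (hC : CyclicCoh p) : H2CardDvd p :=
  DevissageFinal.h2CardDvd hC (descentFixedQ p)

/-- **(G-i)** from the two inequalities. -/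
theorem h1Vanish_of_ineqs {p : ℕ} (h1 : FirstIneq p) (h2 : SecondIneq p) : H1Vanish p :=
  DevissageFinal.h1Vanish_of_ineqs h1 h2 (descentFixedQ p)

/-- **(G-ii), weak form** from the two inequalities. -/
theorem h2CardDvd_of_ineqs {p : ℕ} (h1 : FirstIneq p) (h2 : SecondIneq p) : H2CardDvd p :=
  DevissageFinal.h2CardDvd_of_ineqs h1 h2 (descentFixedQ p)

/-- **Row G.inflInj**: injectivity of the inflation `H²(Gal(L/K), C_{L,T}) → H²(Gal(M/K), C_{M,T})`. -/
def InflInj (p : ℕ) : Prop :=
  ∀ (K L M : Type) [Field K] [NumberField K] [Field L] [NumberField L] [Field M] [NumberField M]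
    [Algebra K L] [Algebra K M] [Algebra L M] [IsScalarTower K L M] [Normal K L]
    (T : Finset Nat.Primes), Setting p K M T →
    Function.Injective (inflCn K L M T 2).hom

section tower

variable {K L M : Type} [Field K] [NumberField K] [Field L] [NumberField L] [Field M]
  [NumberField M] [Algebra K L] [Algebra K M] [Algebra L M] [IsScalarTower K L M] [Normal K L]

/-- `inflCn` is injective in degree `2`. -/
theorem inflCn_two_injective {p : ℕ} (hV : H1Vanish p) {T : Finset Nat.Primes}
    (hs : Setting p K M T) : Function.Injective (inflCn K L M T 2).hom := by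
  have := hs.galois
  obtain ⟨P, hPe, hPφ⟩ := DescentTower.descent_ker K M L hs.adm
  refine Coh.InflCompat.map_two_injective (rnHom K L M).ker (rnHom K L M) (transCn K L M T) P
    (LayerVanish.h1ResTrivial_Cn hV hs _) ?_ hPφ
  intro g
  rw [hPe]
  rfl

/-- The image of `inflCn` in degree `2` restricts to `0` on `Gal(M/L) = ker(Gal(M/K) → Gal(L/K))`. -/
theorem rest₂_inflCn {p : ℕ} {T : Finset Nat.Primes} (hs : Setting p K M T)
    (x : groupCohomology (Cn K L T) 2) :
    (rest₂ (Cn K M T) (rnHom K L M).ker).hom ((inflCn K L M T 2).hom x) = 0 := by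
  have := hs.galois
  obtain ⟨P, hPe, hPφ⟩ := DescentTower.descent_ker K M L hs.adm
  refine Coh.InflCompat.rest₂_map_two (rnHom K L M).ker (rnHom K L M) (transCn K L M T) P ?_ hPφ x
  intro g
  rw [hPe]
  rfl

/-- **Exactness at `H²(Gal(M/K), C_{M,T})`**: a class restricting to `0` on `Gal(M/L)` is inflated
from `H²(Gal(L/K), C_{L,T})`. -/
theorem ker_rest₂_le_range_inflCn {p : ℕ} (hV : H1Vanish p) {T : Finset Nat.Primes}
    (hs : Setting p K M T) :
    LinearMap.ker (rest₂ (Cn K M T) (rnHom K L M).ker).hom ≤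
      LinearMap.range (inflCn K L M T 2).hom := by
  have := hs.galois
  obtain ⟨P, hPe, hPφ⟩ := DescentTower.descent_ker K M L hs.adm
  refine Coh.InflCompat.ker_rest₂_le_range_map_two (rnHom K L M).ker (rnHom K L M) (transCn K L M T) P
    (LayerVanish.h1ResTrivial_Cn hV hs _) ?_ hPφ
  intro g
  rw [hPe]
  rfl

end tower

/-- **Row G.inflInj** from (G-i). -/
theorem inflInj {p : ℕ} (hV : H1Vanish p) : InflInj p :=
  fun _ _ _ _ _ _ _ _ _ _ _ _ _ _ _ hs => inflCn_two_injective hV hs

end Fermat.Agent.S55.Global.DevissageClosed
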