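/-
S55 / Global block, row G.devissage (helper6): INSTANTIATION of the top-layer dévissage to the
`T`-idele class modules `C K L T` of `Global/Objects.lean`.

Two closed input Props (both over the FIXED ground field `K`):

* `TopLayer p`    : for `Setting p K L T` and a normal subgroup `N ⊴ Gal(L/K)` of order `p`:
                    `H¹(N, C K L T) = 0` and `H²(N, C K L T)` is finite of order dividing `p`
                    (first + second inequality for the top cyclic layer `L / L^N`, on the module
                    `C K L T` itself);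
* `DescentQuot p` : for the same data there is a number field `F` over `K` (think `F = L^N`) with
                    `Setting p K F T` and an isomorphism of pairs
                    `(Gal(L/K) ⧸ N, (C K L T)^N) ≅ (Gal(F/K), C K F T)`.

Output: `Blocks.H1Vanish p` and `Blocks.H2CardDvd p`.
-/
import Mathlib
import Fermat.Agent.S55.Global.Blocks
import Fermat.Agent.S55.Global.DevissageTop

set_option autoImplicit false
set_option linter.unusedVariables false
set_option linter.style.haveILetI false

namespace Fermat.Agent.S55.Global.DevissageInst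

open CategoryTheory CategoryTheory.Limits groupCohomology Rep NumberField
open Fermat.Agent.S55.Global.Objects Fermat.Agent.S55.Global.Blocks
open Fermat.Agent.S55.Coh.PairEquiv Fermat.Agent.S55.Global.DevissageTop

/-- **Top cyclic layer**: cohomology of a normal subgroup of order `p` of `Gal(L/K)` acting on
`C K L T`. -/
def TopLayer (p : ℕ) : Prop :=
  ∀ (K L : Type) [Field K] [NumberField K] [Field L] [NumberField L] [Algebra K L]
    (T : Finset (Place K)), Setting p K L T →
    ∀ (N : Subgroup (L ≃ₐ[K] L)) [N.Normal], Nat.card N = p →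
      IsZero (groupCohomology (Rep.res N.subtype (C K L T)) 1) ∧
      Finite (groupCohomology (Rep.res N.subtype (C K L T)) 2) ∧
      Nat.card (groupCohomology (Rep.res N.subtype (C K L T)) 2) ∣ p

/-- **Descent for the quotient**: `(Gal(L/K) ⧸ N, (C K L T)^N)` is the pair of a smaller layer over
the same ground field. -/
def DescentQuot (p : ℕ) : Prop :=
  ∀ (K L : Type) [Field K] [NumberField K] [Field L] [NumberField L] [Algebra K L]
    (T : Finset (Place K)), Setting p K L T →
    ∀ (N : Subgroup (L ≃ₐ[K] L)) [N.Normal], Nat.card N = p →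
      ∃ (F : Type) (_ : Field F) (_ : NumberField F) (_ : Algebra K F),
        Setting p K F T ∧
          Nonempty (PairEquiv ((C K L T).quotientToInvariants N) (C K F T))

/-- The family of pairs isomorphic to some `(Gal(L/K), C K L T)` with `Setting p K L T`. -/
def Fam (p : ℕ) : ∀ (G : Type) [Group G], Rep ℤ G → Prop :=
  fun G _ A => ∃ (K L : Type) (_ : Field K) (_ : NumberField K) (_ : Field L) (_ : NumberField L)
    (_ : Algebra K L) (T : Finset (Place K)), Setting p K L T ∧ Nonempty (PairEquiv A (C K L T))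

theorem card_gal_of_setting {p : ℕ} {K L : Type} [Field K] [NumberField K] [Field L]
    [NumberField L] [Algebra K L] {T : Finset (Place K)} (hs : Setting p K L T) :
    Nat.card (L ≃ₐ[K] L) = Module.finrank K L :=
  haveI := hs.galois
  IsGalois.card_aut_eq_finrank K L

theorem isPGroup_gal_of_setting {p : ℕ} {K L : Type} [Field K] [NumberField K] [Field L]
    [NumberField L] [Algebra K L] {T : Finset (Place K)} (hs : Setting p K L T) :
    IsPGroup p (L ≃ₐ[K] L) := by
  haveI : Fact p.Prime := ⟨hs.prime⟩
  obtain ⟨n, hn⟩ := hs.ppower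
  exact IsPGroup.of_card (n := n) (by rw [card_gal_of_setting hs, hn])

/-- **(G-i) and (G-ii, weak form) from the top cyclic layer and descent.** -/
theorem devissage_main {p : ℕ} (hT : TopLayer p) (hD : DescentQuot p)
    (K L : Type) [Field K] [NumberField K] [Field L] [NumberField L] [Algebra K L]
    (T : Finset (Place K)) (hs : Setting p K L T) :
    IsZero (groupCohomology (C K L T) 1) ∧ Finite (groupCohomology (C K L T) 2) ∧
      Nat.card (groupCohomology (C K L T) 2) ∣ Module.finrank K L := by
  haveI : Fact p.Prime := ⟨hs.prime⟩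
  -- transport of `(G, A, N)` to a concrete member
  have transport : ∀ (G : Type) [Group G] [Finite G] (A : Rep ℤ G), Fam p G A →
      IsPGroup p G → ∀ (N : Subgroup G) [N.Normal], Nat.card N = p →
      ∃ (K L : Type) (_ : Field K) (_ : NumberField K) (_ : Field L) (_ : NumberField L)
        (_ : Algebra K L) (T : Finset (Place K)) (_ : Setting p K L T)
        (h : PairEquiv A (C K L T)) (N₀ : Subgroup (L ≃ₐ[K] L)) (_ : N₀.Normal),
        Nat.card N₀ = p ∧ N.map (h.e : G →* (L ≃ₐ[K] L)) = N₀ := by
    intro G _ _ A hA hG N _ hNp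
    obtain ⟨K, L, _, _, _, _, _, T, hs, ⟨h⟩⟩ := hA
    have hN₀ : (N.map (h.e : G →* (L ≃ₐ[K] L))).Normal :=
      Subgroup.Normal.map inferInstance _ h.e.surjective
    refine ⟨K, L, _, _, _, _, _, T, hs, h, N.map (h.e : G →* (L ≃ₐ[K] L)), hN₀, ?_, rfl⟩
    rw [← hNp]
    exact (Nat.card_congr (h.e.subgroupMap N).toEquiv).symm
  haveI : FiniteDimensional K L := inferInstance
  have hmain := pGroup_devissage_top (Fam p) p ?_ ?_ ?_ (L ≃ₐ[K] L) (isPGroup_gal_of_setting hs)
    (C K L T) ⟨K, L, _, _, _, _, _, T, hs, ⟨PairEquiv.refl _⟩⟩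
  · obtain ⟨h1, h2f, h2d⟩ := hmain
    exact ⟨h1, h2f, (card_gal_of_setting hs) ▸ h2d⟩
  · intro G _ _ A hA hG N _ hNp
    obtain ⟨K, L, _, _, _, _, _, T, hs, h, N₀, _, hN₀p, hN₀⟩ := transport G A hA hG N hNp
    obtain ⟨F, _, _, _, hsF, ⟨hd⟩⟩ := hD K L T hs N₀ hN₀p
    exact ⟨K, F, _, _, _, _, _, T, hsF, ⟨(h.quot N N₀ hN₀).trans hd⟩⟩
  · intro G _ _ A hA hG N _ hNp
    obtain ⟨K, L, _, _, _, _, _, T, hs, h, N₀, _, hN₀p, hN₀⟩ := transport G A hA hG N hNp
    exact ((h.resOfMapEq N N₀ hN₀).isZero_iff 1).2 (hT K L T hs N₀ hN₀p).1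
  · intro G _ _ A hA hG N _ hNp
    obtain ⟨K, L, _, _, _, _, _, T, hs, h, N₀, _, hN₀p, hN₀⟩ := transport G A hA hG N hNp
    obtain ⟨-, hf, hd⟩ := hT K L T hs N₀ hN₀p
    exact ⟨((h.resOfMapEq N N₀ hN₀).finite_iff 2).2 hf,
      ((h.resOfMapEq N N₀ hN₀).card_eq 2) ▸ hd⟩

/-- **(G-i)** from the top cyclic layer and descent. -/
theorem h1Vanish {p : ℕ} (hT : TopLayer p) (hD : DescentQuot p) : H1Vanish p :=
  fun K L _ _ _ _ _ T hs => (devissage_main hT hD K L T hs).1

/-- **(G-ii, weak form)** from the top cyclic layer and descent. -/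
theorem h2CardDvd {p : ℕ} (hT : TopLayer p) (hD : DescentQuot p) : H2CardDvd p :=
  fun K L _ _ _ _ _ T hs => (devissage_main hT hD K L T hs).2

end Fermat.Agent.S55.Global.DevissageInst
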