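/-
S55 / GLOBAL block, row G.obj2 (helper47): lemmas on the `T`-units `EUnits K L T`, `ESub K L T`.

* `EUnits_eq` : `EUnits K L T = Set.unit (placesAbove K L T) L` (no Galois hypothesis needed);
  `placesAbove_finite`, `placesAboveFinset`, Galois stability of `placesAbove`;
* `inclUnits_injective`, `ker_inclUnits_KT` : `Lˣ → J_{L,T}` is injective for `T ≠ ∅`;
* `inclAdd : Additive Lˣ →+ J K L T`, equivariant (`inclAdd_sigmaEnd`), with
  `ESub_toAddSubgroup`, `mem_ESub_iff`: `ESub` is the image of S14's `sUnits L T_L`;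
* `sUnitsLinearEquivESub`, `finite_ESub`, `finrank_ESub` : f.g. and rank `= rank 𝓞_Lˣ + #T_L`;
* `mem_EUnits_fixed_iff` : `E^G` = `T`-units of `K` (`L/K` Galois);
* `invariantsLinearEquivESub`, `finite_ESub_inf_ker`, `finrank_ESub_inf_ker` :
  for a generator `σ`, `rank (E_{L,T})^σ = rank 𝓞_Kˣ + #T`.
-/
import Mathlib
import Fermat.Agent.S55.Global.Objects
import Fermat.Agent.S14.GalPrimes
import Fermat.Agent.S14.SUnitRanks

set_option autoImplicit false
set_option linter.unusedSectionVars false
set_option linter.style.haveILetI false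

open NumberField IsDedekindDomain TensorProduct Module

namespace Fermat.Agent.S55.Global.EUnitsLemmas

open Fermat.Agent.S55.Global.Objects
open Fermat.Agent.S14.NormIndexConcrete Fermat.Agent.S14.GalPrimes Fermat.Agent.S14.SUnitRanks

variable (K : Type) [Field K] [NumberField K]
variable (L : Type) [Field L] [NumberField L] [Algebra K L]

/-! ### `placesAbove` in the language of `primeBelow`, Galois stability, finiteness -/

theorem mem_placesAbove_iff (T : Finset (Place K)) (w : Place L) :
    w ∈ placesAbove K L T ↔ primeBelow K L w ∈ T := by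
  constructor
  · rintro ⟨v, hv, hw⟩
    have : primeBelow K L w = v := by
      ext1
      exact hw
    rw [this]
    exact hv
  · intro h
    exact ⟨primeBelow K L w, h, rfl⟩

theorem primePerm_mem_placesAbove (T : Finset (Place K)) (σ : L ≃ₐ[K] L) (w : Place L) :
    primePerm K L σ w ∈ placesAbove K L T ↔ w ∈ placesAbove K L T := by
  rw [mem_placesAbove_iff, mem_placesAbove_iff, primeBelow_primePerm]

theorem placesAbove_finite (T : Finset (Place K)) : (placesAbove K L T).Finite := by
  have h1 : ∀ v : Place K, {w : Place L | primeBelow K L w = v}.Finite := by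
    intro v
    have hfin := Algebra.QuasiFinite.finite_primesOver (S := 𝓞 L) v.asIdeal
    refine Set.Finite.of_finite_image (f := HeightOneSpectrum.asIdeal) (hfin.subset ?_) ?_
    · rintro _ ⟨w, hw, rfl⟩
      refine ⟨w.isPrime, ⟨?_⟩⟩
      rw [Set.mem_ofPred_eq] at hw
      rw [← hw]
      rfl
    · intro a _ b _ hab
      exact HeightOneSpectrum.ext hab
  have h2 : placesAbove K L T = ⋃ v ∈ T, {w : Place L | primeBelow K L w = v} := by
    ext w
    rw [mem_placesAbove_iff]
    simp
  rw [h2]
  exact Set.Finite.biUnion T.finite_toSet fun v _ => h1 v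

/-- The places of `L` above `T`, as a `Finset`. -/
noncomputable def placesAboveFinset (T : Finset (Place K)) : Finset (Place L) :=
  (placesAbove_finite K L T).toFinset

theorem coe_placesAboveFinset (T : Finset (Place K)) :
    (placesAboveFinset K L T : Set (Place L)) = placesAbove K L T :=
  Set.Finite.coe_toFinset _

theorem mem_placesAboveFinset (T : Finset (Place K)) (w : Place L) :
    w ∈ placesAboveFinset K L T ↔ primeBelow K L w ∈ T := by
  rw [← mem_placesAbove_iff, ← coe_placesAboveFinset, Finset.mem_coe]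

theorem primePerm_mem_placesAboveFinset (T : Finset (Place K)) (σ : L ≃ₐ[K] L) (w : Place L)
    (hw : w ∈ placesAboveFinset K L T) : primePerm K L σ w ∈ placesAboveFinset K L T := by
  rw [mem_placesAboveFinset] at hw ⊢
  rwa [primeBelow_primePerm]

theorem image_primeBelow_placesAboveFinset [DecidableEq (Place K)] (T : Finset (Place K)) :
    (placesAboveFinset K L T).image (primeBelow K L) = T := by
  ext v
  rw [Finset.mem_image]
  constructor
  · rintro ⟨w, hw, rfl⟩
    exact (mem_placesAboveFinset K L T w).mp hw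
  · intro hv
    obtain ⟨w, rfl⟩ := Fermat.Agent.S14.SUnitRanks.primeBelow_surjective K L v
    exact ⟨w, (mem_placesAboveFinset K L T w).mpr hv, rfl⟩

/-! ### `EUnits` is the group of `T_L`-units -/

theorem smul_mem_unit (T : Finset (Place K)) (σ : L ≃ₐ[K] L) {x : Lˣ}
    (hx : x ∈ Set.unit (placesAbove K L T) L) : σ • x ∈ Set.unit (placesAbove K L T) L := by
  intro w hw
  have h1 := valuation_primePerm K L σ ((primePerm K L σ).symm w) (x : L)
  rw [Equiv.apply_symm_apply] at h1
  have h2 : (primePerm K L σ).symm w ∉ placesAbove K L T := by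
    intro hmem
    apply hw
    have := (primePerm_mem_placesAbove K L T σ ((primePerm K L σ).symm w)).mpr hmem
    rwa [Equiv.apply_symm_apply] at this
  have h3 := hx _ h2
  show w.valuation L (σ (x : L)) = 1
  rw [h1, h3]

/-- **`EUnits` are the `T_L`-units** (no Galois hypothesis needed). -/
theorem EUnits_eq (T : Finset (Place K)) : EUnits K L T = Set.unit (placesAbove K L T) L := by
  refine le_antisymm (EUnits_le T) fun x hx => ?_
  rw [mem_EUnits]
  exact fun σ => smul_mem_unit K L T σ hx

theorem mem_EUnits_iff (T : Finset (Place K)) (x : Lˣ) :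
    x ∈ EUnits K L T ↔ ∀ w : Place L, w ∉ placesAbove K L T → w.valuation L (x : L) = 1 := by
  rw [EUnits_eq]
  rfl

theorem mem_EUnits_iff_sUnits (T : Finset (Place K)) (x : Lˣ) :
    x ∈ EUnits K L T ↔ Additive.ofMul x ∈ sUnits L (placesAboveFinset K L T) := by
  rw [mem_sUnits_iff_mem_unit, coe_placesAboveFinset, EUnits_eq]

/-! ### Injectivity of `Lˣ → (L ⊗[K] A)ˣ` -/

theorem inclUnits_injective (A : Type) [CommRing A] [Algebra K A] [Nontrivial A] :
    Function.Injective (inclUnits K L A) := by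
  intro x y h
  have h1 : ((x : L) ⊗ₜ[K] (1 : A) : L ⊗[K] A) = (y : L) ⊗ₜ[K] (1 : A) :=
    congrArg (fun u : (L ⊗[K] A)ˣ => (u : L ⊗[K] A)) h
  have hinj : Function.Injective (Algebra.TensorProduct.includeLeft : L →ₐ[K] L ⊗[K] A) :=
    Algebra.TensorProduct.includeLeft_injective (algebraMap K A).injective
  exact Units.ext (hinj h1)

theorem nontrivial_KT {T : Finset (Place K)} (hT : T.Nonempty) : Nontrivial (KT K T) := by
  obtain ⟨v, hv⟩ := hT
  exact Pi.nontrivial_at (⟨v, hv⟩ : T)

theorem inclUnits_KT_injective {T : Finset (Place K)} (hT : T.Nonempty) :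
    Function.Injective (inclUnits K L (KT K T)) := by
  haveI := nontrivial_KT K hT
  exact inclUnits_injective K L (KT K T)

/-- The kernel of `Lˣ → J_{L,T}` is trivial when `T ≠ ∅`. -/
theorem ker_inclUnits_KT {T : Finset (Place K)} (hT : T.Nonempty) :
    (inclUnits K L (KT K T)).ker = ⊥ :=
  (MonoidHom.ker_eq_bot_iff _).mpr (inclUnits_KT_injective K L hT)

/-! ### The additive / `ℤ`-linear bridge `Additive Lˣ → J_{L,T}` -/

/-- `x ↦ x ⊗ 1`, as an additive map into (the underlying group of) `J_{L,T}`. -/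
noncomputable def inclAdd (T : Finset (Place K)) : Additive Lˣ →+ (J K L T) :=
  (Rep.toAdditive (M := L ≃ₐ[K] L) (G := (L ⊗[K] KT K T)ˣ)).symm.toAddMonoidHom.comp
    (MonoidHom.toAdditive (inclUnits K L (KT K T)))

theorem toAdditive_inclAdd (T : Finset (Place K)) (x : Additive Lˣ) :
    Rep.toAdditive (inclAdd K L T x) =
      Additive.ofMul (inclUnits K L (KT K T) (Additive.toMul x)) := rfl

theorem toMul_inclAdd (T : Finset (Place K)) (x : Additive Lˣ) :
    Additive.toMul (Rep.toAdditive (inclAdd K L T x)) =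
      inclUnits K L (KT K T) (Additive.toMul x) := rfl

theorem inclAdd_injective {T : Finset (Place K)} (hT : T.Nonempty) :
    Function.Injective (inclAdd K L T) := by
  intro x y h
  have : inclUnits K L (KT K T) (Additive.toMul x) = inclUnits K L (KT K T) (Additive.toMul y) := by
    have h' := congrArg (fun a => Additive.toMul (Rep.toAdditive a)) h
    simpa only [toMul_inclAdd] using h'
  exact Additive.toMul.injective (inclUnits_KT_injective K L hT this)

/-- Equivariance: `σ(x) ⊗ 1 = σ • (x ⊗ 1)`. -/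
theorem inclAdd_sigmaEnd (T : Finset (Place K)) (σ : L ≃ₐ[K] L) (x : Additive Lˣ) :
    inclAdd K L T (sigmaEnd K L σ x) = (J K L T).ρ σ (inclAdd K L T x) := by
  obtain ⟨x, rfl⟩ := Additive.ofMul.surjective x
  apply (Rep.toAdditive (M := L ≃ₐ[K] L) (G := (L ⊗[K] KT K T)ˣ)).injective
  apply Additive.toMul.injective
  rw [toMul_inclAdd, sigmaEnd_apply, toMul_ofMul]
  show _ = σ • Additive.toMul (Rep.toAdditive (inclAdd K L T (Additive.ofMul x)))
  rw [toMul_inclAdd, toMul_ofMul, smul_inclUnits]
  rfl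

/-- Membership in `ESub` in terms of the `S`-units of S14. -/
theorem mem_ESub_iff (T : Finset (Place K)) (a : J K L T) :
    a ∈ ESub K L T ↔ ∃ x ∈ sUnits L (placesAboveFinset K L T), inclAdd K L T x = a := by
  rw [mem_ESub]
  constructor
  · rintro ⟨x, hx, hxa⟩
    refine ⟨Additive.ofMul x, (mem_EUnits_iff_sUnits K L T x).mp hx, ?_⟩
    apply (Rep.toAdditive (M := L ≃ₐ[K] L) (G := (L ⊗[K] KT K T)ˣ)).injective
    apply Additive.toMul.injective
    rw [toMul_inclAdd, toMul_ofMul, hxa]
  · rintro ⟨x, hx, rfl⟩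
    obtain ⟨x, rfl⟩ := Additive.ofMul.surjective x
    exact ⟨x, (mem_EUnits_iff_sUnits K L T x).mpr hx, rfl⟩

theorem inclAdd_mem_ESub_iff {T : Finset (Place K)} (hT : T.Nonempty) (x : Additive Lˣ) :
    inclAdd K L T x ∈ ESub K L T ↔ x ∈ sUnits L (placesAboveFinset K L T) := by
  rw [mem_ESub_iff]
  constructor
  · rintro ⟨y, hy, hxy⟩
    rwa [← inclAdd_injective K L hT hxy]
  · intro hx
    exact ⟨x, hx, rfl⟩

/-- `ESub` is the image of the `T_L`-units (as additive subgroups). -/
theorem ESub_toAddSubgroup (T : Finset (Place K)) :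
    (ESub K L T).toAddSubgroup =
      (sUnits L (placesAboveFinset K L T)).toAddSubgroup.map (inclAdd K L T) := by
  ext a
  rw [Submodule.mem_toAddSubgroup, mem_ESub_iff, AddSubgroup.mem_map]
  rfl

/-! ### `ESub ≃ T_L`-units: finite generation and rank -/

/-- The `T_L`-units (S14's `sUnits`) map isomorphically onto `ESub` (`T ≠ ∅`). -/
noncomputable def sUnitsToESub {T : Finset (Place K)} (hT : T.Nonempty) :
    ↥(sUnits L (placesAboveFinset K L T)) →+ ↥(ESub K L T) :=
  AddMonoidHom.mk'
    (fun x => ⟨inclAdd K L T x.1, (inclAdd_mem_ESub_iff K L hT x.1).mpr x.2⟩)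
    (fun a b => Subtype.ext (map_add (inclAdd K L T) a.1 b.1))

theorem coe_sUnitsToESub {T : Finset (Place K)} (hT : T.Nonempty)
    (x : ↥(sUnits L (placesAboveFinset K L T))) :
    ((sUnitsToESub K L hT x : ↥(ESub K L T)) : J K L T) = inclAdd K L T x.1 := rfl

theorem sUnitsToESub_bijective {T : Finset (Place K)} (hT : T.Nonempty) :
    Function.Bijective (sUnitsToESub K L hT) := by
  constructor
  · intro a b hab
    have := congrArg Subtype.val hab
    rw [coe_sUnitsToESub, coe_sUnitsToESub] at this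
    exact Subtype.ext (inclAdd_injective K L hT this)
  · rintro ⟨a, ha⟩
    obtain ⟨x, hx, rfl⟩ := (mem_ESub_iff K L T a).mp ha
    exact ⟨⟨x, hx⟩, rfl⟩

/-- `sUnits L T_L ≃ ESub` as additive groups. -/
noncomputable def sUnitsEquivESub {T : Finset (Place K)} (hT : T.Nonempty) :
    ↥(sUnits L (placesAboveFinset K L T)) ≃+ ↥(ESub K L T) :=
  AddEquiv.ofBijective (sUnitsToESub K L hT) (sUnitsToESub_bijective K L hT)

/-- `sUnits L T_L ≃ ESub` as `ℤ`-modules. -/
noncomputable def sUnitsLinearEquivESub {T : Finset (Place K)} (hT : T.Nonempty) :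
    ↥(sUnits L (placesAboveFinset K L T)) ≃ₗ[ℤ] ↥(ESub K L T) :=
  (sUnitsEquivESub K L hT).toIntLinearEquiv

theorem coe_sUnitsLinearEquivESub {T : Finset (Place K)} (hT : T.Nonempty)
    (x : ↥(sUnits L (placesAboveFinset K L T))) :
    ((sUnitsLinearEquivESub K L hT x : ↥(ESub K L T)) : J K L T) = inclAdd K L T x.1 := rfl

/-- `E_{L,T}` is finitely generated. -/
theorem finite_ESub {T : Finset (Place K)} (hT : T.Nonempty) :
    Module.Finite ℤ ↥(ESub K L T) :=
  Module.Finite.equiv (sUnitsLinearEquivESub K L hT)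

/-- **Rank of the `T_L`-units**: `rank E_{L,T} = rank 𝓞_Lˣ + #T_L`. -/
theorem finrank_ESub {T : Finset (Place K)} (hT : T.Nonempty) :
    finrank ℤ ↥(ESub K L T) = NumberField.Units.rank L + (placesAboveFinset K L T).card := by
  rw [← (sUnitsLinearEquivESub K L hT).finrank_eq, finrank_sUnits]

/-! ### Invariants -/

/-- `β ∈ Kˣ` is a `T_L`-unit of `L` iff it is a `T`-unit of `K`. -/
theorem baseChange_mem_sUnits_iff (T : Finset (Place K)) (β : Additive Kˣ) :
    baseChange K L β ∈ sUnits L (placesAboveFinset K L T) ↔ β ∈ sUnits K T := by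
  obtain ⟨β, rfl⟩ := Additive.ofMul.surjective β
  constructor
  · intro h v hv
    obtain ⟨w, rfl⟩ := Fermat.Agent.S14.SUnitRanks.primeBelow_surjective K L v
    have hw : w ∉ placesAboveFinset K L T := fun hw => hv ((mem_placesAboveFinset K L T w).mp hw)
    exact (ordM_baseChange_eq_zero_iff K L w β).mp (h w hw)
  · intro h w hw
    have hv : primeBelow K L w ∉ T := fun hv => hw ((mem_placesAboveFinset K L T w).mpr hv)
    exact (ordM_baseChange_eq_zero_iff K L w β).mpr (h _ hv)

/-- **`E^G` = `T`-units of `K`** (multiplicative form, `L/K` Galois): an element of `Lˣ` is a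
Galois-invariant `T_L`-unit iff it is the image of a `T`-unit of `K`. -/
theorem mem_EUnits_fixed_iff [IsGalois K L] (T : Finset (Place K)) (x : Lˣ) :
    (x ∈ EUnits K L T ∧ ∀ σ : L ≃ₐ[K] L, σ • x = x) ↔
      ∃ y : Kˣ, y ∈ Set.unit (T : Set (Place K)) K ∧
        Units.map ((algebraMap K L : K →+* L) : K →* L) y = x := by
  constructor
  · rintro ⟨hx, hfix⟩
    have hall : ∀ τ : L ≃ₐ[K] L, τ (x : L) = x := fun τ => by
      have := congrArg (fun u : Lˣ => (u : L)) (hfix τ)
      exact this
    obtain ⟨b, hb⟩ := (IntermediateField.mem_bot).mp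
      ((IsGalois.mem_bot_iff_fixed (F := K) (x : L)).mpr hall)
    have hb0 : b ≠ 0 := by
      rintro rfl
      rw [map_zero] at hb
      exact x.ne_zero hb.symm
    have hyx : Units.map ((algebraMap K L : K →+* L) : K →* L) (Units.mk0 b hb0) = x := by
      ext
      simpa using hb
    refine ⟨Units.mk0 b hb0, ?_, hyx⟩
    rw [← mem_sUnits_iff_mem_unit, ← baseChange_mem_sUnits_iff K L T, baseChange_apply, hyx]
    exact (mem_EUnits_iff_sUnits K L T x).mp hx
  · rintro ⟨y, hy, rfl⟩
    constructor
    · rw [mem_EUnits_iff_sUnits, ← baseChange_apply, baseChange_mem_sUnits_iff]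
      exact (mem_sUnits_iff_mem_unit K T y).mpr hy
    · intro σ
      ext
      show σ (algebraMap K L (y : K)) = algebraMap K L (y : K)
      exact σ.commutes _

/-- Membership in the `σ`-invariants of `ESub`, in terms of S14's invariant `S`-units. -/
theorem inclAdd_mem_ESub_inf_ker_iff {T : Finset (Place K)} (hT : T.Nonempty) (σ : L ≃ₐ[K] L)
    (x : Additive Lˣ) :
    inclAdd K L T x ∈ ESub K L T ⊓ LinearMap.ker ((J K L T).ρ σ - 1) ↔
      x ∈ sUnits L (placesAboveFinset K L T) ⊓ LinearMap.ker (sigmaEnd K L σ - 1) := by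
  rw [Submodule.mem_inf, Submodule.mem_inf, inclAdd_mem_ESub_iff K L hT, LinearMap.mem_ker,
    LinearMap.mem_ker, LinearMap.sub_apply, LinearMap.sub_apply, Module.End.one_apply,
    Module.End.one_apply, sub_eq_zero, sub_eq_zero, ← inclAdd_sigmaEnd]
  exact and_congr Iff.rfl (inclAdd_injective K L hT).eq_iff

/-- The `σ`-invariant `T_L`-units map isomorphically onto the `σ`-invariants of `ESub`. -/
noncomputable def invariantsToESub {T : Finset (Place K)} (hT : T.Nonempty) (σ : L ≃ₐ[K] L) :
    ↥(sUnits L (placesAboveFinset K L T) ⊓ LinearMap.ker (sigmaEnd K L σ - 1)) →+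
      ↥(ESub K L T ⊓ LinearMap.ker ((J K L T).ρ σ - 1)) :=
  AddMonoidHom.mk'
    (fun x => ⟨inclAdd K L T x.1, (inclAdd_mem_ESub_inf_ker_iff K L hT σ x.1).mpr x.2⟩)
    (fun a b => Subtype.ext (map_add (inclAdd K L T) a.1 b.1))

theorem invariantsToESub_bijective {T : Finset (Place K)} (hT : T.Nonempty) (σ : L ≃ₐ[K] L) :
    Function.Bijective (invariantsToESub K L hT σ) := by
  constructor
  · intro a b hab
    have : inclAdd K L T a.1 = inclAdd K L T b.1 := congrArg Subtype.val hab
    exact Subtype.ext (inclAdd_injective K L hT this)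
  · rintro ⟨a, ha⟩
    obtain ⟨x, -, rfl⟩ := (mem_ESub_iff K L T a).mp ha.1
    exact ⟨⟨x, (inclAdd_mem_ESub_inf_ker_iff K L hT σ x).mp ha⟩, rfl⟩

/-- `ℤ`-linear form of `invariantsToESub`. -/
noncomputable def invariantsLinearEquivESub {T : Finset (Place K)} (hT : T.Nonempty)
    (σ : L ≃ₐ[K] L) :
    ↥(sUnits L (placesAboveFinset K L T) ⊓ LinearMap.ker (sigmaEnd K L σ - 1)) ≃ₗ[ℤ]
      ↥(ESub K L T ⊓ LinearMap.ker ((J K L T).ρ σ - 1)) :=
  (AddEquiv.ofBijective (invariantsToESub K L hT σ)
    (invariantsToESub_bijective K L hT σ)).toIntLinearEquiv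

/-- **Rank of the invariants**: for `σ` a generator of `Gal(L/K)`,
`rank (E_{L,T})^σ = rank 𝓞_Kˣ + #T`. -/
theorem finrank_ESub_inf_ker [IsGalois K L] {T : Finset (Place K)} (hT : T.Nonempty)
    (σ : L ≃ₐ[K] L) (hσ : ∀ τ : L ≃ₐ[K] L, τ ∈ Subgroup.zpowers σ) :
    finrank ℤ ↥(ESub K L T ⊓ LinearMap.ker ((J K L T).ρ σ - 1)) =
      NumberField.Units.rank K + T.card := by
  classical
  rw [← (invariantsLinearEquivESub K L hT σ).finrank_eq,
    finrank_invariants K L σ hσ (placesAboveFinset K L T)
      (fun v hv => primePerm_mem_placesAboveFinset K L T σ v hv),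
    image_primeBelow_placesAboveFinset]

/-- The `σ`-invariants of `E_{L,T}` are finitely generated. -/
theorem finite_ESub_inf_ker [IsGalois K L] {T : Finset (Place K)} (hT : T.Nonempty)
    (σ : L ≃ₐ[K] L) (hσ : ∀ τ : L ≃ₐ[K] L, τ ∈ Subgroup.zpowers σ) :
    Module.Finite ℤ ↥(ESub K L T ⊓ LinearMap.ker ((J K L T).ρ σ - 1)) := by
  haveI := finite_invariants K L σ hσ (placesAboveFinset K L T)
    (fun v hv => primePerm_mem_placesAboveFinset K L T σ v hv)
  exact Module.Finite.equiv (invariantsLinearEquivESub K L hT σ)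

end Fermat.Agent.S55.Global.EUnitsLemmas
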