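import Mathlib
import Fermat.Agent.S55.Global.CyclicLayerFinal
import Fermat.Agent.S55.Global.DescentClosed

/-!
# S55 / Global — (G-i) and weak (G-ii), unconditional

* `h1Vanish p  : Blocks2.H1Vanish p`   — `H¹(Gal(L/K), C_{L,T}) = 0` for every `Setting p K L T`;
* `h2CardDvd p : Blocks2.H2CardDvd p`  — `#H²(Gal(L/K), C_{L,T}) ∣ [L:K]`.

From `FirstIneqFinal.firstIneq`, `SecondIneqBridge.secondIneq` (via `CyclicLayerFinal`) and
`DescentClosed.descentFixedQ`.
-/

set_option autoImplicit false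

namespace Fermat.Agent.S55.Global.GlobalH1Final

open Fermat.Agent.S55.Global.Blocks2

/-- **(G-i)** `H¹(Gal(L/K), C_{L,T}) = 0`. Unconditional. -/
theorem h1Vanish (p : ℕ) : H1Vanish p :=
  CyclicLayerFinal.h1Vanish_of_descent (DescentClosed.descentFixedQ p)

/-- **(G-ii), weak form** `#H²(Gal(L/K), C_{L,T}) ∣ [L:K]`. Unconditional. -/
theorem h2CardDvd (p : ℕ) : H2CardDvd p :=
  CyclicLayerFinal.h2CardDvd_of_descent (DescentClosed.descentFixedQ p)

end Fermat.Agent.S55.Global.GlobalH1Final
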