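/-
S55 / GLOBAL block — OBJECTS, part 4 (owner: helper78): the PER-PLACE local-norm predicate
(places of `K` above `q` = maximal ideals `𝔪` of `K ⊗[ℚ] ℚ_[q]`, `Blocks3`).  The per-rational-prime
predicate `Objects3.IsLocalNormQ` is NOT the right hypothesis for reciprocity as soon as `K` has two
places above `q` (helper46 #1723); use `IsLocalNormAt`.
-/
import Fermat.Agent.S55.Global.Blocks3

set_option autoImplicit false
set_option linter.unusedSectionVars false

open NumberField IsDedekindDomain TensorProduct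

namespace Fermat.Agent.S55.Global.Objects4

open Fermat.Agent.S55.Global.Objects Fermat.Agent.S55.Global.Objects2
  Fermat.Agent.S55.Global.Blocks3

section localnorm

variable (K M : Type) [Field K] [NumberField K] [Field M] [NumberField M] [Algebra K M]

/-- The norm `∏_{τ ∈ Gal(M/K)} τ • y` on `(M ⊗[K] A)ˣ` (`A` any commutative `K`-algebra). -/
noncomputable def galNormK (A : Type) [CommRing A] [Algebra K A] [Fintype (M ≃ₐ[K] M)]
    (y : (M ⊗[K] A)ˣ) : (M ⊗[K] A)ˣ :=
  ∏ τ : M ≃ₐ[K] M, τ • y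

/-- `b ∈ Kˣ` is a **local norm from `M` at the place `(q, 𝔪)` of `K`**: `b ⊗ 1 = ∏_τ τ • y` for
some `y ∈ (M ⊗[K] K_𝔪)ˣ` (product over `Gal(M/K)`; `M/K` Galois in the applications). -/
def IsLocalNormAt [Fintype (M ≃ₐ[K] M)] (q : Nat.Primes) (𝔪 : Ideal (Ksemi K q)) (b : Kˣ) :
    Prop :=
  ∃ y : (M ⊗[K] Kloc K q 𝔪)ˣ,
    galNormK K M (Kloc K q 𝔪) y =
      inclUnits K M (Kloc K q 𝔪) (Units.map (algebraMap K M).toMonoidHom b)

end localnorm

end Fermat.Agent.S55.Global.Objects4
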