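/-
S55 / Global / G.recip — R.chase (helper46).  Mathlib only.

The abstract diagram chase behind `Blocks3.NoSingleSupport`:  `L/K` an arbitrary Galois
`p`-extension, `M/K` the auxiliary cyclic cyclotomic extension, `N = L M`.

  `XL = H²(Gal(L/K), Lˣ)`, `XM = H²(Gal(M/K), Mˣ)`, `XN = H²(Gal(N/K), Nˣ)`,
  `XNM = H²(Gal(N/M), Nˣ)`;  `YL P, YM P, YN P` the local groups at a place `P` of `K`,
  `YNM Q` the local group of `N/M` at a place `Q` of `M`;  `under Q` the place of `K` below `Q`.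

Inputs: the commuting squares, `res ∘ inf = 0` locally, inflation–restriction exactness globally,
the Hasse principle for `N/M`, injectivity of the local inflations, the containment
`im (linfL P₀) ⊆ im (linfM P₀)` (local `H²` is cyclic) and the cyclic case for `M/K`.
-/
import Mathlib

set_option autoImplicit false

namespace Fermat.Agent.S55.Global.RecipChase

/-- **The chase.** -/
theorem chase {PK PM : Type*} (under : PM → PK) (P₀ : PK)
    {XL XM XN XNM : Type*} [Zero XL] [Zero XM] [Zero XN] [Zero XNM]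
    {YL YM YN : PK → Type*} {YNM : PM → Type*}
    [∀ P, Zero (YL P)] [∀ P, Zero (YM P)] [∀ P, Zero (YN P)] [∀ Q, Zero (YNM Q)]
    (infL : XL → XN) (infM : XM → XN) (res : XN → XNM)
    (locL : ∀ P, XL → YL P) (locM : ∀ P, XM → YM P) (locN : ∀ P, XN → YN P)
    (locNM : ∀ Q, XNM → YNM Q)
    (linfL : ∀ P, YL P → YN P) (linfM : ∀ P, YM P → YN P) (lres : ∀ Q, YN (under Q) → YNM Q)
    (linfL0 : ∀ P, linfL P 0 = 0) (linfM0 : ∀ P, linfM P 0 = 0) (lres0 : ∀ Q, lres Q 0 = 0)
    (sqL : ∀ P x, linfL P (locL P x) = locN P (infL x))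
    (sqM : ∀ P y, linfM P (locM P y) = locN P (infM y))
    (sqR : ∀ Q z, lres Q (locN (under Q) z) = locNM Q (res z))
    (zero : ∀ Q y, lres Q (linfM (under Q) y) = 0)
    (exact : ∀ z, res z = 0 → ∃ y, infM y = z)
    (hasse : ∀ w, (∀ Q, locNM Q w = 0) → w = 0)
    (linjL : ∀ a, linfL P₀ a = 0 → a = 0)
    (linjM : ∀ P, P ≠ P₀ → ∀ a, linfM P a = 0 → a = 0)
    (contain : ∀ a : YL P₀, ∃ y' : YM P₀, linfM P₀ y' = linfL P₀ a)
    (cyclic : ∀ y : XM, (∀ P, P ≠ P₀ → locM P y = 0) → locM P₀ y = 0)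
    (x : XL) (hx : ∀ P, P ≠ P₀ → locL P x = 0) : locL P₀ x = 0 := by
  -- `z = inf x` restricted to `N/M` is locally trivial everywhere
  have hres : res (infL x) = 0 := by
    apply hasse
    intro Q
    rw [← sqR]
    by_cases hQ : under Q = P₀
    · obtain ⟨y', hy'⟩ := contain (locL P₀ x)
      have h1 : locN (under Q) (infL x) = linfM (under Q) (hQ ▸ y') := by
        rw [← sqL]
        subst hQ
        exact hy'.symm
      rw [h1]
      exact zero Q _
    · rw [← sqL, hx _ hQ, linfL0, lres0]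
  obtain ⟨y, hy⟩ := exact _ hres
  -- `y` is locally trivial away from `P₀`
  have hyloc : ∀ P, P ≠ P₀ → locM P y = 0 := by
    intro P hP
    apply linjM P hP
    rw [sqM, hy, ← sqL, hx P hP, linfL0]
  have hy0 : locM P₀ y = 0 := cyclic y hyloc
  apply linjL
  rw [sqL, ← hy, ← sqM, hy0, linfM0]

end Fermat.Agent.S55.Global.RecipChase
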