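/-
S55 / GLOBAL block — row R.N (lemma 161, requester helper46; author helper70). Mathlib only.

`exists_compositum K L M`: for finite Galois extensions `L/K`, `M/K` (abstract types) there is a
field `N` with `K`-algebra, `L`-algebra, `M`-algebra structures and scalar towers, finite Galois over
`K`, with `[N:K] ∣ [L:K]·[M:K]`.  (`N` = compositum of the images of `L`, `M` in `AlgebraicClosure K`;
`Gal(N/K) ↪ Gal(L/K) × Gal(M/K)`.)  `exists_compositum_strong` adds: an automorphism of `N/K`
fixing the images of `L` and `M` is trivial.
-/
import Mathlib

set_option autoImplicit false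
set_option linter.unusedSectionVars false

namespace Fermat.Agent.S55.Global.RecipCompositum

open IntermediateField

/-- Abstract divisibility: if `N/K` is finite Galois, `L/K`, `M/K` are finite Galois subextensions
(given through algebra towers) which jointly "generate" `N` in the sense that an automorphism of `N/K`
restricting trivially to both is trivial, then `[N:K] ∣ [L:K][M:K]`. -/
theorem finrank_dvd_mul_of_faithful (K L M N : Type*) [Field K] [Field L] [Field M] [Field N]
    [Algebra K L] [Algebra K M] [Algebra K N] [Algebra L N] [Algebra M N]
    [IsScalarTower K L N] [IsScalarTower K M N]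
    [FiniteDimensional K L] [FiniteDimensional K M] [FiniteDimensional K N]
    [IsGalois K L] [IsGalois K M] [IsGalois K N]
    (hgen : ∀ σ : N ≃ₐ[K] N, (∀ x : L, σ (algebraMap L N x) = algebraMap L N x) →
      (∀ y : M, σ (algebraMap M N y) = algebraMap M N y) → σ = 1) :
    Module.finrank K N ∣ Module.finrank K L * Module.finrank K M := by
  let φ : (N ≃ₐ[K] N) →* (L ≃ₐ[K] L) × (M ≃ₐ[K] M) :=
    (AlgEquiv.restrictNormalHom L).prod (AlgEquiv.restrictNormalHom M)
  have hinj : Function.Injective φ := by
    rw [injective_iff_map_eq_one]
    intro σ hσ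
    have h1 : AlgEquiv.restrictNormalHom L σ = 1 := congrArg Prod.fst hσ
    have h2 : AlgEquiv.restrictNormalHom M σ = 1 := congrArg Prod.snd hσ
    apply hgen σ
    · intro x
      have := AlgEquiv.restrictNormal_commutes σ L x
      rw [← this]
      have h1' : σ.restrictNormal L = 1 := h1
      rw [h1']; rfl
    · intro y
      have := AlgEquiv.restrictNormal_commutes σ M y
      rw [← this]
      have h2' : σ.restrictNormal M = 1 := h2
      rw [h2']; rfl
  have hdvd := Subgroup.card_dvd_of_injective φ hinj
  rw [Nat.card_prod, IsGalois.card_aut_eq_finrank, IsGalois.card_aut_eq_finrank,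
    IsGalois.card_aut_eq_finrank] at hdvd
  exact hdvd

section construction

variable (K L M : Type) [Field K] [Field L] [Field M] [Algebra K L] [Algebra K M]
  [FiniteDimensional K L] [FiniteDimensional K M] [IsGalois K L] [IsGalois K M]

/-- An embedding of `L` into the algebraic closure of `K`. -/
noncomputable def embL : L →ₐ[K] AlgebraicClosure K := IsAlgClosed.lift

/-- The compositum as an intermediate field of the algebraic closure. -/
noncomputable def compIF : IntermediateField K (AlgebraicClosure K) :=
  (embL K L).fieldRange ⊔ (embL K M).fieldRange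

instance finDim_fieldRange : FiniteDimensional K (embL K L).fieldRange :=
  (AlgEquiv.ofInjectiveField (embL K L)).toLinearEquiv.finiteDimensional

instance isGalois_fieldRange : IsGalois K (embL K L).fieldRange :=
  IsGalois.of_algEquiv (AlgEquiv.ofInjectiveField (embL K L))

instance finDim_compIF : FiniteDimensional K (compIF K L M) := by
  unfold compIF; infer_instance

instance isGalois_compIF : IsGalois K (compIF K L M) := by
  unfold compIF
  exact ⟨⟩

/-- `L → compositum`. -/
noncomputable def toCompL : L →ₐ[K] compIF K L M :=
  (embL K L).codRestrict (compIF K L M).toSubalgebra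
    (fun x => (le_sup_left : (embL K L).fieldRange ≤ compIF K L M) ⟨x, rfl⟩)

/-- `M → compositum`. -/
noncomputable def toCompM : M →ₐ[K] compIF K L M :=
  (embL K M).codRestrict (compIF K L M).toSubalgebra
    (fun x => (le_sup_right : (embL K M).fieldRange ≤ compIF K L M) ⟨x, rfl⟩)

theorem coe_toCompL (x : L) : ((toCompL K L M x : compIF K L M) : AlgebraicClosure K) = embL K L x :=
  rfl

theorem coe_toCompM (y : M) : ((toCompM K L M y : compIF K L M) : AlgebraicClosure K) = embL K M y :=
  rfl

/-- An automorphism of the compositum fixing the images of `L` and `M` is trivial. -/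
theorem eq_one_of_fix (σ : compIF K L M ≃ₐ[K] compIF K L M)
    (hL : ∀ x : L, σ (toCompL K L M x) = toCompL K L M x)
    (hM : ∀ y : M, σ (toCompM K L M y) = toCompM K L M y) : σ = 1 := by
  -- the fixed field of `σ`, lifted to the algebraic closure
  let X : IntermediateField K (compIF K L M) := IntermediateField.fixedField (Subgroup.zpowers σ)
  have hX : ∀ z : compIF K L M, σ z = z → z ∈ X := by
    intro z hz
    rintro ⟨τ, hτ⟩
    have hle : Subgroup.zpowers σ ≤ MulAction.stabilizer (compIF K L M ≃ₐ[K] compIF K L M) z := by
      rw [Subgroup.zpowers_le]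
      exact hz
    exact hle hτ
  have hle : (embL K L).fieldRange ⊔ (embL K M).fieldRange ≤ IntermediateField.lift X := by
    apply sup_le
    · rintro _ ⟨x, rfl⟩
      exact (IntermediateField.mem_lift (toCompL K L M x)).mpr (hX _ (hL x))
    · rintro _ ⟨y, rfl⟩
      exact (IntermediateField.mem_lift (toCompM K L M y)).mpr (hX _ (hM y))
  apply AlgEquiv.ext
  intro z
  have hz : z ∈ X := by
    rw [← IntermediateField.mem_lift z]
    exact hle z.2
  exact hz ⟨σ, Subgroup.mem_zpowers σ⟩

end construction

/-- Strong form of row R.N: additionally, an automorphism of `N/K` fixing the images of `L` and `M`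
is trivial (i.e. `N` is generated by the images). -/
theorem exists_compositum_strong (K L M : Type) [Field K] [Field L] [Field M] [Algebra K L]
    [Algebra K M] [FiniteDimensional K L] [FiniteDimensional K M] [IsGalois K L] [IsGalois K M] :
    ∃ (N : Type) (_ : Field N) (_ : Algebra K N) (_ : Algebra L N) (_ : Algebra M N)
      (_ : IsScalarTower K L N) (_ : IsScalarTower K M N),
      FiniteDimensional K N ∧ IsGalois K N ∧
        Module.finrank K N ∣ Module.finrank K L * Module.finrank K M ∧
        ∀ σ : N ≃ₐ[K] N, (∀ x : L, σ (algebraMap L N x) = algebraMap L N x) →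
          (∀ y : M, σ (algebraMap M N y) = algebraMap M N y) → σ = 1 := by
  let aL : Algebra L (compIF K L M) := (toCompL K L M).toRingHom.toAlgebra
  let aM : Algebra M (compIF K L M) := (toCompM K L M).toRingHom.toAlgebra
  have tL : IsScalarTower K L (compIF K L M) :=
    IsScalarTower.of_algebraMap_eq (fun k => ((toCompL K L M).commutes k).symm)
  have tM : IsScalarTower K M (compIF K L M) :=
    IsScalarTower.of_algebraMap_eq (fun k => ((toCompM K L M).commutes k).symm)
  refine ⟨compIF K L M, inferInstance, inferInstance, aL, aM, tL, tM, inferInstance,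
    inferInstance, ?_, fun σ hL hM => eq_one_of_fix K L M σ hL hM⟩
  exact finrank_dvd_mul_of_faithful K L M (compIF K L M)
    (fun σ hL hM => eq_one_of_fix K L M σ hL hM)

/-- **Row R.N**: the compositum of two finite Galois extensions of `K`, as a type with all the
algebra/tower instances; its degree divides the product of the degrees. -/
theorem exists_compositum (K L M : Type) [Field K] [Field L] [Field M] [Algebra K L] [Algebra K M]
    [FiniteDimensional K L] [FiniteDimensional K M] [IsGalois K L] [IsGalois K M] :
    ∃ (N : Type) (_ : Field N) (_ : Algebra K N) (_ : Algebra L N) (_ : Algebra M N)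
      (_ : IsScalarTower K L N) (_ : IsScalarTower K M N),
      FiniteDimensional K N ∧ IsGalois K N ∧
        Module.finrank K N ∣ Module.finrank K L * Module.finrank K M := by
  obtain ⟨N, i1, i2, i3, i4, i5, i6, h1, h2, h3, -⟩ := exists_compositum_strong K L M
  exact ⟨N, i1, i2, i3, i4, i5, i6, h1, h2, h3⟩

end Fermat.Agent.S55.Global.RecipCompositum
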