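/-
S55 / Global / G.recip — R.defs (helper46).

The maps of the reduction of `Blocks3.NoSingleSupport` to the cyclic cyclotomic case, and the formal
identities between them (all are `groupCohomology.map`s):

* `gInf K E N n : Hⁿ(Gal(E/K), Eˣ) ⟶ Hⁿ(Gal(N/K), Nˣ)`   (global inflation, tower `K ⊆ E ⊆ N`);
* `Transition.inflJRep K E N A n : Hⁿ(Gal(E/K), (E ⊗[K] A)ˣ) ⟶ Hⁿ(Gal(N/K), (N ⊗[K] A)ˣ)`
  (local inflation) and the square `gInf_comp_locH`;
* `gRes K M N n : Hⁿ(Gal(N/K), Nˣ) ⟶ Hⁿ(Gal(N/M), Nˣ)`   (global restriction);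
* `lRes K M N A A' φ n : Hⁿ(Gal(N/K), (N ⊗[K] A)ˣ) ⟶ Hⁿ(Gal(N/M), (N ⊗[M] A')ˣ)` for
  `φ : A →ₐ[K] A'` (local restriction) and the square `gRes_comp_locH`;
* `inflJRep_comp_lRes : inflJRep K M N A n ≫ lRes K M N A A' φ n = 0` for `n ≥ 1`.
-/
import Fermat.Agent.S55.Global.Blocks3
import Fermat.Agent.S55.Global.Transition

set_option autoImplicit false
set_option linter.unusedSectionVars false

open NumberField IsDedekindDomain TensorProduct CategoryTheory

namespace Fermat.Agent.S55.Global.RecipDefs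

open Fermat.Agent.S55.Global.Objects Fermat.Agent.S55.Global.Objects2
  Fermat.Agent.S55.Global.Objects3 Fermat.Agent.S55.Global.Blocks3
  Fermat.Agent.S55.Global.Transition

/-- A `groupCohomology.map` along a trivial group homomorphism vanishes in positive degrees. -/
theorem map_eq_zero_of_trivial {G H : Type} [Group G] [Group H] (f : G →* H) (hf : ∀ g, f g = 1)
    {A : Rep ℤ H} {B : Rep ℤ G} (φ : Rep.res f A ⟶ B) (n : ℕ) :
    groupCohomology.map f φ (n + 1) = 0 := by
  let g : Unit →* H := 1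
  let h : G →* Unit := 1
  have hfg : f = g.comp h := by
    ext x
    rw [hf]
    rfl
  subst hfg
  have h1 := groupCohomology.map_comp g h (𝟙 (Rep.res g A)) φ (n + 1)
  have h2 : groupCohomology.map g (𝟙 (Rep.res g A)) (n + 1) = 0 :=
    (isZero_groupCohomology_succ_of_subsingleton (Rep.res g A) n).eq_of_tgt _ _
  rw [h2, Limits.zero_comp] at h1
  rw [← h1]
  exact groupCohomology.map_congr rfl (by simp) (n + 1)

section inflation

variable (K : Type) [Field K] [NumberField K]
variable (E : Type) [Field E] [NumberField E] [Algebra K E]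
variable (N : Type) [Field N] [NumberField N] [Algebra K N] [Algebra E N] [IsScalarTower K E N]

/-- `Res (Eˣ) ⟶ Nˣ` as `Gal(N/K)`-modules. -/
noncomputable def unitsRep [Normal K E] :
    Rep.res (resHom K E N) (Rep.ofAlgebraAutOnUnits K E) ⟶ Rep.ofAlgebraAutOnUnits K N :=
  Rep.ofHom ⟨(MonoidHom.toAdditive (baseUnits E N)).toIntLinearMap, fun τ => LinearMap.ext fun a =>
    congrArg Additive.ofMul (smul_baseUnits K E N τ (Additive.toMul a)).symm⟩

/-- Global inflation `Hⁿ(Gal(E/K), Eˣ) ⟶ Hⁿ(Gal(N/K), Nˣ)`. -/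
noncomputable def gInf [Normal K E] (n : ℕ) :
    groupCohomology (Rep.ofAlgebraAutOnUnits K E) n ⟶
      groupCohomology (Rep.ofAlgebraAutOnUnits K N) n :=
  groupCohomology.map (resHom K E N) (unitsRep K E N) n

/-- Localisation commutes with inflation. -/
theorem gInf_comp_locH [Normal K E] (A : Type) [CommRing A] [Algebra K A] (n : ℕ) :
    gInf K E N n ≫ locH K N A n = locH K E A n ≫ inflJRep K E N A n := by
  unfold gInf locH inflJRep
  rw [← groupCohomology.map_comp, ← groupCohomology.map_comp]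
  exact groupCohomology.map_congr rfl (by rfl) n

end inflation

section restriction

variable (K : Type) [Field K] [NumberField K]
variable (M : Type) [Field M] [NumberField M] [Algebra K M]
variable (N : Type) [Field N] [NumberField N] [Algebra K N] [Algebra M N] [IsScalarTower K M N]

/-- `Res (Nˣ as Gal(N/K)-module) ⟶ Nˣ as Gal(N/M)-module` (identity on carriers). -/
noncomputable def unitsResRep :
    Rep.res (subHom K M N) (Rep.ofAlgebraAutOnUnits K N) ⟶ Rep.ofAlgebraAutOnUnits M N :=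
  Rep.ofHom ⟨LinearMap.id, fun _ => LinearMap.ext fun _ => rfl⟩

/-- Global restriction `Hⁿ(Gal(N/K), Nˣ) ⟶ Hⁿ(Gal(N/M), Nˣ)`. -/
noncomputable def gRes (n : ℕ) :
    groupCohomology (Rep.ofAlgebraAutOnUnits K N) n ⟶
      groupCohomology (Rep.ofAlgebraAutOnUnits M N) n :=
  groupCohomology.map (subHom K M N) (unitsResRep K M N) n

variable (A : Type) [CommRing A] [Algebra K A]
variable (A' : Type) [CommRing A'] [Algebra M A'] [Algebra K A'] [IsScalarTower K M A']
variable (φ : A →ₐ[K] A')

/-- `N ⊗[K] A → N ⊗[M] A'`, `x ⊗ a ↦ x ⊗ φ a`. -/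
noncomputable def lresAlg : N ⊗[K] A →ₐ[K] N ⊗[M] A' :=
  Algebra.TensorProduct.lift
    ((Algebra.TensorProduct.includeLeft : N →ₐ[M] N ⊗[M] A').restrictScalars K)
    (((Algebra.TensorProduct.includeRight : A' →ₐ[M] N ⊗[M] A').restrictScalars K).comp φ)
    (fun _ _ => Commute.all _ _)

@[simp] theorem lresAlg_tmul (x : N) (a : A) :
    lresAlg K M N A A' φ (x ⊗ₜ[K] a) = x ⊗ₜ[M] φ a := by
  simp [lresAlg]

theorem smul_lresAlg (τ : N ≃ₐ[M] N) (z : N ⊗[K] A) :
    τ • lresAlg K M N A A' φ z = lresAlg K M N A A' φ (subHom K M N τ • z) := by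
  induction z using TensorProduct.induction_on with
  | zero => simp
  | tmul x a =>
    rw [lresAlg_tmul, Objects.smul_tmul', Objects.smul_tmul', lresAlg_tmul]
    rfl
  | add x y hx hy => rw [map_add, smul_add, hx, hy, smul_add, map_add]

/-- The map on units. -/
noncomputable def lresUnits : (N ⊗[K] A)ˣ →* (N ⊗[M] A')ˣ :=
  Units.map (lresAlg K M N A A' φ).toMonoidHom

@[simp] theorem val_lresUnits (u : (N ⊗[K] A)ˣ) :
    ((lresUnits K M N A A' φ u : (N ⊗[M] A')ˣ) : N ⊗[M] A') =
      lresAlg K M N A A' φ (u : N ⊗[K] A) := rfl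

theorem smul_lresUnits (τ : N ≃ₐ[M] N) (u : (N ⊗[K] A)ˣ) :
    τ • lresUnits K M N A A' φ u = lresUnits K M N A A' φ (subHom K M N τ • u) := by
  apply Units.ext
  rw [val_smul_units, val_lresUnits, val_lresUnits, val_smul_units]
  exact smul_lresAlg K M N A A' φ τ (u : N ⊗[K] A)

theorem lresUnits_inclUnits (x : Nˣ) :
    lresUnits K M N A A' φ (inclUnits K N A x) = inclUnits M N A' x := by
  apply Units.ext
  rw [val_lresUnits, val_inclUnits, val_inclUnits, lresAlg_tmul, map_one]

/-- `Res ((N ⊗[K] A)ˣ) ⟶ (N ⊗[M] A')ˣ` as `Gal(N/M)`-modules. -/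
noncomputable def lresRep :
    Rep.res (subHom K M N) (JRep K N A) ⟶ JRep M N A' :=
  Rep.ofHom ⟨(MonoidHom.toAdditive (lresUnits K M N A A' φ)).toIntLinearMap,
    fun τ => LinearMap.ext fun a =>
      congrArg Additive.ofMul (smul_lresUnits K M N A A' φ τ (Additive.toMul (Rep.toAdditive a))).symm⟩

/-- Local restriction `Hⁿ(Gal(N/K), (N ⊗[K] A)ˣ) ⟶ Hⁿ(Gal(N/M), (N ⊗[M] A')ˣ)`. -/
noncomputable def lRes (n : ℕ) :
    groupCohomology (JRep K N A) n ⟶ groupCohomology (JRep M N A') n :=
  groupCohomology.map (subHom K M N) (lresRep K M N A A' φ) n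

/-- Localisation commutes with restriction. -/
theorem gRes_comp_locH (n : ℕ) :
    gRes K M N n ≫ locH M N A' n = locH K N A n ≫ lRes K M N A A' φ n := by
  unfold gRes locH lRes
  rw [← groupCohomology.map_comp, ← groupCohomology.map_comp]
  refine groupCohomology.map_congr rfl ?_ n
  apply LinearMap.ext
  intro a
  exact congrArg Additive.ofMul (lresUnits_inclUnits K M N A A' φ (Additive.toMul a)).symm

theorem resHom_subHom [Normal K M] (τ : N ≃ₐ[M] N) : resHom K M N (subHom K M N τ) = 1 := by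
  apply AlgEquiv.ext
  intro x
  apply (algebraMap M N).injective
  rw [resHom_commutes]
  exact τ.commutes x

/-- **Restriction after inflation is zero** (locally, in positive degrees). -/
theorem inflJRep_comp_lRes [Normal K M] (n : ℕ) :
    inflJRep K M N A (n + 1) ≫ lRes K M N A A' φ (n + 1) = 0 := by
  unfold inflJRep lRes
  rw [← groupCohomology.map_comp]
  exact map_eq_zero_of_trivial _ (fun τ => resHom_subHom K M N τ) _ n

end restriction

end Fermat.Agent.S55.Global.RecipDefs
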