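/-
S55 / Global / G.recip — R.formal (helper46).  Mathlib only.

Two formal ingredients of the reduction of "no single support" for an arbitrary `p`-extension `L/K`
to the cyclic cyclotomic auxiliary extension `M/K` (both inside `N = L M`):

* `eq_zero_of_chase` : the diagram chase.  Two commuting squares
  `X₁ → Y₁` / `X₂ → Y₂` over `X → Y` (vertical maps = inflations); if inflation is injective on
  the relevant classes `S₁ ⊆ X₁`, injective on `Y₂`, every inflated class of `S₁` is an inflated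
  class of `S₂ ⊆ X₂`, and `I₂` is injective on `S₂` (cyclic case), then `I₁` is injective on `S₁`.
* `addSubgroup_le_of_cyclic` : in a finite cyclic group, a subgroup killed by `n` is contained in
  every subgroup containing an element whose order is divisible by `n`.
-/
import Mathlib

set_option autoImplicit false

namespace Fermat.Agent.S55.Global.RecipFormal

/-- **Diagram chase.** -/
theorem eq_zero_of_chase {X₁ Y₁ X₂ Y₂ X Y : Type*} [Zero X₁] [Zero Y₁] [Zero X₂] [Zero Y₂]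
    [Zero X] [Zero Y]
    (I₁ : X₁ → Y₁) (I₂ : X₂ → Y₂) (I : X → Y) (α₁ : X₁ → X) (γ₁ : Y₁ → Y) (α₂ : X₂ → X)
    (γ₂ : Y₂ → Y) (hγ₁ : γ₁ 0 = 0) (hγ₂0 : γ₂ 0 = 0)
    (sq₁ : ∀ x, γ₁ (I₁ x) = I (α₁ x)) (sq₂ : ∀ x, γ₂ (I₂ x) = I (α₂ x))
    (S₁ : Set X₁) (S₂ : Set X₂)
    (hα₁ : ∀ x ∈ S₁, ∀ x' ∈ S₁, α₁ x = α₁ x' → x = x')
    (hγ₂ : Function.Injective γ₂)
    (hI₂ : ∀ x ∈ S₂, I₂ x = 0 → x = 0)
    (h0₁ : (0 : X₁) ∈ S₁) (hα₁0 : α₁ 0 = 0) (hα₂0 : α₂ 0 = 0)
    (hrange : ∀ x ∈ S₁, ∃ x₂ ∈ S₂, α₂ x₂ = α₁ x)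
    (x : X₁) (hx : x ∈ S₁) (hIx : I₁ x = 0) : x = 0 := by
  obtain ⟨x₂, hx₂, hx₂eq⟩ := hrange x hx
  have h1 : γ₂ (I₂ x₂) = 0 := by
    rw [sq₂, hx₂eq, ← sq₁, hIx, hγ₁]
  have h2 : I₂ x₂ = 0 := hγ₂ (by rw [h1, hγ₂0])
  have h3 : x₂ = 0 := hI₂ x₂ hx₂ h2
  have h4 : α₁ x = α₁ 0 := by rw [← hx₂eq, h3, hα₂0, hα₁0]
  exact hα₁ x hx 0 h0₁ h4

/-- In a finite cyclic group, `ord a ∣ ord b` implies `a ∈ ⟨b⟩`. -/
theorem mem_zmultiples_of_addOrderOf_dvd {Z : Type*} [AddCommGroup Z] [Finite Z] [IsAddCyclic Z]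
    {a b : Z} (h : addOrderOf a ∣ addOrderOf b) : a ∈ AddSubgroup.zmultiples b := by
  classical
  have := Fintype.ofFinite Z
  set n := addOrderOf b with hn
  have hn0 : 0 < n := addOrderOf_pos b
  set S : Finset Z := Finset.univ.filter (fun z => n • z = 0) with hS
  have hcard : S.card ≤ n := IsAddCyclic.card_nsmul_eq_zero_le hn0
  have hsub : (AddSubgroup.zmultiples b : Set Z) ⊆ (S : Set Z) := by
    intro z hz
    obtain ⟨k, rfl⟩ := AddSubgroup.mem_zmultiples_iff.mp hz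
    simp only [hS, Finset.coe_filter, Finset.mem_univ, true_and, Set.mem_ofPred_eq]
    rw [smul_comm, hn, addOrderOf_nsmul_eq_zero, smul_zero]
  have hcard2 : (AddSubgroup.zmultiples b : Set Z).ncard = n := by
    rw [← Nat.card_coe_set_eq]
    exact Nat.card_zmultiples b
  have heq : (AddSubgroup.zmultiples b : Set Z) = (S : Set Z) := by
    apply Set.eq_of_subset_of_ncard_le hsub _ (Set.toFinite _)
    rw [hcard2, Set.ncard_coe_finset]
    exact hcard
  have ha : a ∈ (S : Set Z) := by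
    simp only [hS, Finset.coe_filter, Finset.mem_univ, true_and, Set.mem_ofPred_eq]
    exact addOrderOf_dvd_iff_nsmul_eq_zero.mp h
  rw [← heq] at ha
  exact ha

/-- In a finite cyclic group, a subgroup killed by `n` is contained in every subgroup containing
an element whose order is divisible by `n`. -/
theorem addSubgroup_le_of_cyclic {Z : Type*} [AddCommGroup Z] [Finite Z] [IsAddCyclic Z]
    (A B : AddSubgroup Z) (n : ℕ) (hA : ∀ a ∈ A, n • a = 0) (b : Z) (hb : b ∈ B)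
    (hn : n ∣ addOrderOf b) : A ≤ B := by
  intro a ha
  have h1 : addOrderOf a ∣ addOrderOf b :=
    (addOrderOf_dvd_iff_nsmul_eq_zero.mpr (hA a ha)).trans hn
  have h2 := mem_zmultiples_of_addOrderOf_dvd h1
  exact (AddSubgroup.zmultiples_le_of_mem hb) h2

end Fermat.Agent.S55.Global.RecipFormal
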