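import Mathlib
import Fermat.Agent.S55.Global.RecipDefs
import Fermat.Agent.S55.Global.RecipFormal
import Fermat.Agent.S55.Global.Objects4
import Fermat.Agent.S55.Global.SemilocalH3
import Fermat.Agent.S55.Local.AlgLF
import Fermat.Agent.S55.Local.CyclicCocycle
import Fermat.Agent.S55.Tate.ResCor

/-!
# S55 / Global / G.recip — row R.contain (helper36)

At a place `(q₀, 𝔪₀)` of `K`, with `A₀ = Kloc K q₀ 𝔪₀`:

* `localH2_cyclic` : `H²(Gal(N/K), (N ⊗[K] A₀)ˣ)` is finite cyclic (from `Local.Blocks.H2Cyclic`);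
* `contain` : inside `H²(Gal(N/K), (N ⊗[K] A₀)ˣ)`, the image of the inflation from `L` is contained
  in the image of the inflation from a cyclic `M` whose local degree at `(q₀, 𝔪₀)` is divisible by
  `[L : K]` (in the form: `b₀ ^ k` a local norm from `M` ⇒ `[L : K] ∣ k`).
-/

set_option autoImplicit false
set_option linter.unusedSectionVars false
set_option linter.style.haveILetI false

open NumberField IsDedekindDomain TensorProduct CategoryTheory

namespace Fermat.Agent.S55.Global.RecipContain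

open Fermat.Agent.S55.Global.Objects Fermat.Agent.S55.Global.Objects2
  Fermat.Agent.S55.Global.Objects3 Fermat.Agent.S55.Global.Blocks3
  Fermat.Agent.S55.Global.Objects4 Fermat.Agent.S55.Global.Transition
  Fermat.Agent.S55.Global.RecipDefs
open Fermat.Agent.S55

/-- A cyclic additive group killed by `n > 0` is finite. -/
theorem finite_of_isAddCyclic_of_nsmul {Z : Type*} [AddCommGroup Z] [IsAddCyclic Z] (n : ℕ)
    (hn : 0 < n) (h : ∀ z : Z, n • z = 0) : Finite Z := by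
  obtain ⟨g, hg⟩ := IsAddCyclic.exists_generator (α := Z)
  have hsurj : Function.Surjective (fun i : Fin n => (i : ℕ) • g) := by
    intro z
    obtain ⟨k, rfl⟩ := AddSubgroup.mem_zmultiples_iff.1 (hg z)
    have hn' : (n : ℤ) ≠ 0 := by exact_mod_cast hn.ne'
    have hpos : 0 ≤ k % (n : ℤ) := Int.emod_nonneg k hn'
    have hlt : k % (n : ℤ) < n := Int.emod_lt_of_pos k (by exact_mod_cast hn)
    refine ⟨⟨(k % (n : ℤ)).toNat, by omega⟩, ?_⟩
    show ((k % (n : ℤ)).toNat : ℕ) • g = k • g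
    rw [← natCast_zsmul, Int.toNat_of_nonneg hpos]
    conv_rhs => rw [← Int.emod_add_mul_ediv k n, add_zsmul, mul_comm, mul_zsmul, natCast_zsmul, h,
      smul_zero, add_zero]
  exact Finite.of_surjective _ hsurj

theorem localH2_cyclic (hcyc : Local.Blocks.H2Cyclic) (K N : Type) [Field K] [NumberField K]
    [Field N] [NumberField N] [Algebra K N] [IsGalois K N] (q : Nat.Primes)
    (𝔪 : Ideal (Ksemi K q)) [𝔪.IsMaximal] :
    Finite (groupCohomology (JRep K N (Kloc K q 𝔪)) 2) ∧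
      IsAddCyclic (groupCohomology (JRep K N (Kloc K q 𝔪)) 2) := by
  have h2 : IsAddCyclic (groupCohomology (JRep K N (Kloc K q 𝔪)) 2) :=
    SemilocalH3.isAddCyclic_H2_Jloc K N q 𝔪 hcyc
  refine ⟨?_, h2⟩
  exact finite_of_isAddCyclic_of_nsmul (Nat.card (N ≃ₐ[K] N)) Nat.card_pos
    (fun z => Tate.ResCor.card_smul_eq_zero₂ (JRep K N (Kloc K q 𝔪)) z)

section cyc

variable (K M : Type) [Field K] [NumberField K] [Field M] [NumberField M] [Algebra K M]
variable (A : Type) [CommRing A] [Algebra K A]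

/-- The image of `b ∈ Kˣ` in `(M ⊗[K] A)ˣ`, as a `Gal(M/K)`-invariant of `JRep K M A`. -/
noncomputable def baseInv (b : Kˣ) : (JRep K M A).ρ.invariants :=
  ⟨Additive.ofMul (inclUnits K M A (Units.map (algebraMap K M).toMonoidHom b)), fun g => by
    change Additive.ofMul (g • inclUnits K M A _) = _
    rw [smul_inclUnits]
    congr 2
    apply Units.ext
    exact g.commutes (b : K)⟩

theorem baseInv_pow (b : Kˣ) (k : ℕ) : baseInv K M A (b ^ k) = k • baseInv K M A b := by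
  apply Subtype.ext
  change Additive.ofMul (inclUnits K M A (Units.map (algebraMap K M).toMonoidHom (b ^ k))) =
    k • Additive.ofMul (inclUnits K M A (Units.map (algebraMap K M).toMonoidHom b))
  rw [map_pow, map_pow, ofMul_pow]

/-- For cyclic `M/K`: the cyclic class of `b ⊗ 1` vanishes iff `b ⊗ 1` is a norm. -/
theorem cycClass_baseInv_eq_zero_iff [IsGalois K M] {σ : M ≃ₐ[K] M} (hn : 0 < orderOf σ)
    (hgen : ∀ g : M ≃ₐ[K] M, ∃ i : ℕ, σ ^ i = g) (b : Kˣ) :
    Local.CyclicCocycle.cycClass hn hgen (baseInv K M A b) = 0 ↔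
      ∃ y : (M ⊗[K] A)ˣ, galNormK K M A y =
        inclUnits K M A (Units.map (algebraMap K M).toMonoidHom b) := by
  rw [Local.CyclicCocycle.cycClass_eq_zero_iff_sum hn hgen]
  have key : ∀ y : (M ⊗[K] A)ˣ,
      ∑ g : M ≃ₐ[K] M, (JRep K M A).ρ g (Additive.ofMul y) =
        Additive.ofMul (galNormK K M A y) := by
    intro y
    unfold galNormK
    rw [ofMul_prod]
    rfl
  constructor
  · rintro ⟨y, hy⟩
    refine ⟨Additive.toMul (Rep.toAdditive y), ?_⟩
    have h1 := key (Additive.toMul (Rep.toAdditive y))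
    apply Additive.ofMul.injective
    rw [← h1]
    exact hy.symm
  · rintro ⟨y, hy⟩
    refine ⟨Additive.ofMul y, ?_⟩
    rw [key y, hy]
    rfl

end cyc

theorem contain (hcyc : Local.Blocks.H2Cyclic) (K L M N : Type) [Field K] [NumberField K]
    [Field L] [NumberField L] [Field M] [NumberField M] [Field N] [NumberField N]
    [Algebra K L] [IsGalois K L] [Algebra K M] [IsGalois K M] [IsCyclic (M ≃ₐ[K] M)]
    [Algebra K N] [IsGalois K N] [Algebra L N] [IsScalarTower K L N] [Algebra M N]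
    [IsScalarTower K M N] (q₀ : Nat.Primes) (𝔪₀ : Ideal (Ksemi K q₀)) [𝔪₀.IsMaximal] (b₀ : Kˣ)
    (hord : ∀ k : ℕ, IsLocalNormAt K M q₀ 𝔪₀ (b₀ ^ k) → Module.finrank K L ∣ k)
    (hinj : Function.Injective (inflJRep K M N (Kloc K q₀ 𝔪₀) 2))
    (a : groupCohomology (JRep K L (Kloc K q₀ 𝔪₀)) 2) :
    ∃ y' : groupCohomology (JRep K M (Kloc K q₀ 𝔪₀)) 2,
      inflJRep K M N (Kloc K q₀ 𝔪₀) 2 y' = inflJRep K L N (Kloc K q₀ 𝔪₀) 2 a := by
  classical
  obtain ⟨hfin, hcycZ⟩ := localH2_cyclic hcyc K N q₀ 𝔪₀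
  obtain ⟨σ, hσ⟩ := IsCyclic.exists_generator (α := M ≃ₐ[K] M)
  have hgen : ∀ g : M ≃ₐ[K] M, ∃ i : ℕ, σ ^ i = g :=
    fun g => Local.CyclicCocycle.exists_pow_eq_of_zpowers hσ g
  have hn : 0 < orderOf σ := orderOf_pos σ
  set c : groupCohomology (JRep K M (Kloc K q₀ 𝔪₀)) 2 :=
    Local.CyclicCocycle.cycClass hn hgen (baseInv K M (Kloc K q₀ 𝔪₀) b₀) with hc
  let fM := (inflJRep K M N (Kloc K q₀ 𝔪₀) 2).hom
  let fL := (inflJRep K L N (Kloc K q₀ 𝔪₀) 2).hom
  let A : AddSubgroup (groupCohomology (JRep K N (Kloc K q₀ 𝔪₀)) 2) :=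
    (LinearMap.range fL).toAddSubgroup
  let B : AddSubgroup (groupCohomology (JRep K N (Kloc K q₀ 𝔪₀)) 2) :=
    (LinearMap.range fM).toAddSubgroup
  have hA : ∀ z ∈ A, Module.finrank K L • z = 0 := by
    rintro _ ⟨x, rfl⟩
    rw [← map_nsmul, ← IsGalois.card_aut_eq_finrank K L,
      Tate.ResCor.card_smul_eq_zero₂ (JRep K L (Kloc K q₀ 𝔪₀)) x, map_zero]
  have hb : fM c ∈ B := ⟨c, rfl⟩
  have hdvd : Module.finrank K L ∣ addOrderOf (fM c) := by
    apply hord
    have h0 : addOrderOf (fM c) • fM c = 0 := addOrderOf_nsmul_eq_zero _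
    rw [← map_nsmul] at h0
    have h1 : addOrderOf (fM c) • c = 0 := hinj (h0.trans (map_zero fM).symm)
    rw [hc, ← map_nsmul, ← baseInv_pow] at h1
    exact (cycClass_baseInv_eq_zero_iff K M _ hn hgen _).1 h1
  have hle := RecipFormal.addSubgroup_le_of_cyclic A B (Module.finrank K L) hA (fM c) hb hdvd
  obtain ⟨y', hy'⟩ := hle ⟨a, rfl⟩
  exact ⟨y', hy'⟩

end Fermat.Agent.S55.Global.RecipContain
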