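/-
S55 / Global / G.recip — ROW R.cycGlue (helper16, lemmas row 165, requester helper46).

For `M/K` a cyclic extension of number fields with group `G = Gal(M/K) = ⟨σ⟩`:

* `cl b := cycClass σ (b as a G-invariant of Mˣ)` (the carry 2-cocycle of `Local/CyclicCocycle`)
  is a surjection `Kˣ → H²(G, Mˣ)`  (invariants of `Mˣ` are `Kˣ`: `exists_baseInv_eq`);
* localisation commutes with `cycClass` (`locH_cycClass`, `map_cycClass_of_mul_eq` with `φ = id`);
* `cycClass (b ⊗ 1) = 0` in `H²(G, (M ⊗[K] A)ˣ)` iff `b ⊗ 1` is a `galNormK`-norm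
  (`cycClass_eq_zero_iff_norm`, from `cycClass_eq_zero_iff_sum`).

Main export: `locH_eq_zero_iff_isLocalNormAt`.
The `SMul` used by `Objects4.galNormK` IS `Objects.instMDMAUnits` (checked: `sum_rho_eq` is by `rfl`
after `ofMul_prod`), so there is no instance mismatch.
-/
import Fermat.Agent.S55.Global.RecipDefs
import Fermat.Agent.S55.Global.Objects4
import Fermat.Agent.S55.Local.CyclicCocycle

set_option autoImplicit false
set_option linter.unusedSectionVars false

open NumberField IsDedekindDomain TensorProduct CategoryTheory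

open Fermat.Agent.S55.Global.Objects Fermat.Agent.S55.Global.Objects2
  Fermat.Agent.S55.Global.Objects3 Fermat.Agent.S55.Global.Blocks3
  Fermat.Agent.S55.Global.Objects4
  Fermat.Agent.S55.Global.Transition Fermat.Agent.S55.Global.RecipDefs

namespace Fermat.Agent.S55.Global.RecipCycGlue

open Fermat.Agent.S55.Local.CyclicCocycle

variable (K M : Type) [Field K] [NumberField K] [Field M] [NumberField M] [Algebra K M]

/-- `b ∈ Kˣ` as an element of `Mˣ`. -/
noncomputable def baseUnit (b : Kˣ) : Mˣ := Units.map (algebraMap K M).toMonoidHom b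

theorem smul_baseUnit (g : M ≃ₐ[K] M) (b : Kˣ) : g • baseUnit K M b = baseUnit K M b := by
  apply Units.ext
  show g (algebraMap K M b) = algebraMap K M b
  exact g.commutes b

/-- `b ∈ Kˣ` as a `Gal(M/K)`-invariant of `Mˣ`. -/
noncomputable def baseInv (b : Kˣ) : (Rep.ofAlgebraAutOnUnits K M).ρ.invariants :=
  ⟨Additive.ofMul (baseUnit K M b), fun g => congrArg Additive.ofMul (smul_baseUnit K M g b)⟩

/-- every invariant of `Mˣ` comes from `Kˣ`. -/
theorem exists_baseInv_eq [IsGalois K M] (a : (Rep.ofAlgebraAutOnUnits K M).ρ.invariants) :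
    ∃ b : Kˣ, baseInv K M b = a := by
  obtain ⟨a, ha⟩ := a
  set u : Mˣ := Additive.toMul a with hu
  have hfix : ∀ g : M ≃ₐ[K] M, g (u : M) = (u : M) := by
    intro g
    have := ha g
    have h2 : g • u = u := congrArg Additive.toMul this
    exact congrArg Units.val h2
  obtain ⟨x, hx⟩ := (IsGalois.mem_range_algebraMap_iff_fixed (F := K) (E := M) (u : M)).2 hfix
  have hx0 : x ≠ 0 := by
    rintro rfl
    rw [map_zero] at hx
    exact u.ne_zero hx.symm
  refine ⟨Units.mk0 x hx0, ?_⟩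
  apply Subtype.ext
  show Additive.ofMul (baseUnit K M (Units.mk0 x hx0)) = a
  have : baseUnit K M (Units.mk0 x hx0) = u := Units.ext hx
  rw [this]
  rfl

section loc

variable (A : Type) [CommRing A] [Algebra K A]

/-- `LxToJ` as a morphism out of the (trivially) restricted representation. -/
noncomputable def inclRep :
    Rep.res (MonoidHom.id (M ≃ₐ[K] M)) (Rep.ofAlgebraAutOnUnits K M) ⟶ JRep K M A :=
  LxToJ K M A

theorem locH_cycClass {σ : M ≃ₐ[K] M} (hn : 0 < orderOf σ)
    (hgen : ∀ g : M ≃ₐ[K] M, ∃ i : ℕ, σ ^ i = g)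
    (a : (Rep.ofAlgebraAutOnUnits K M).ρ.invariants) :
    locH K M A 2 (cycClass hn hgen a) =
      cycClass hn hgen ⟨(inclRep K M A).hom (a : Rep.ofAlgebraAutOnUnits K M),
        map_invariant (MonoidHom.id _) (inclRep K M A) (fun g => a.2 g)⟩ :=
  map_cycClass_of_mul_eq hn hgen hn hgen (MonoidHom.id _) (inclRep K M A) (d := 1)
    (by simp) (one_mul _) a

end loc

section loc2

variable (A : Type) [CommRing A] [Algebra K A]

theorem inclRep_baseInv (b : Kˣ) :
    (inclRep K M A).hom ((baseInv K M b : (Rep.ofAlgebraAutOnUnits K M).ρ.invariants) :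
        Rep.ofAlgebraAutOnUnits K M) =
      Additive.ofMul (inclUnits K M A (Units.map (algebraMap K M).toMonoidHom b)) := rfl

theorem sum_rho_eq [Fintype (M ≃ₐ[K] M)] (y : JRep K M A) :
    ∑ g : M ≃ₐ[K] M, (JRep K M A).ρ g y =
      Additive.ofMul (galNormK K M A (Additive.toMul (Rep.toAdditive y))) := by
  unfold galNormK
  rw [ofMul_prod]
  rfl

theorem cycClass_eq_zero_iff_norm [Fintype (M ≃ₐ[K] M)] {σ : M ≃ₐ[K] M} (hn : 0 < orderOf σ)
    (hgen : ∀ g : M ≃ₐ[K] M, ∃ i : ℕ, σ ^ i = g) (b : Kˣ)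
    (h : ∀ g : M ≃ₐ[K] M, (JRep K M A).ρ g
      ((inclRep K M A).hom ((baseInv K M b : (Rep.ofAlgebraAutOnUnits K M).ρ.invariants) :
        Rep.ofAlgebraAutOnUnits K M)) = (inclRep K M A).hom
          ((baseInv K M b : (Rep.ofAlgebraAutOnUnits K M).ρ.invariants) :
        Rep.ofAlgebraAutOnUnits K M)) :
    cycClass (A := JRep K M A) hn hgen ⟨(inclRep K M A).hom
        ((baseInv K M b : (Rep.ofAlgebraAutOnUnits K M).ρ.invariants) :
          Rep.ofAlgebraAutOnUnits K M), h⟩ = 0 ↔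
      ∃ y : (M ⊗[K] A)ˣ, galNormK K M A y =
        inclUnits K M A (Units.map (algebraMap K M).toMonoidHom b) := by
  rw [cycClass_eq_zero_iff_sum]
  constructor
  · rintro ⟨y, hy⟩
    refine ⟨Additive.toMul (Rep.toAdditive y), ?_⟩
    rw [sum_rho_eq] at hy
    exact (congrArg Additive.toMul hy).symm
  · rintro ⟨y, hy⟩
    refine ⟨Rep.toAdditive.symm (Additive.ofMul y), ?_⟩
    rw [sum_rho_eq]
    exact (congrArg Additive.ofMul hy).symm

end loc2

/-- **ROW R.cycGlue.**  For `M/K` cyclic: `H²(Gal(M/K), Mˣ)` is the image of `Kˣ` (via the carry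
cocycles of a generator), and a class `cl b` is locally trivial at `(q, 𝔪)` iff `b` is a local norm
there. -/
theorem locH_eq_zero_iff_isLocalNormAt [IsGalois K M] [IsCyclic (M ≃ₐ[K] M)] :
    ∃ cl : Kˣ → groupCohomology (Rep.ofAlgebraAutOnUnits K M) 2, Function.Surjective cl ∧
      ∀ (b : Kˣ) (q : Nat.Primes) (𝔪 : Ideal (Ksemi K q)),
        locH K M (Kloc K q 𝔪) 2 (cl b) = 0 ↔ IsLocalNormAt K M q 𝔪 b := by
  obtain ⟨σ, hσ⟩ := IsCyclic.exists_generator (α := M ≃ₐ[K] M)
  have hn : 0 < orderOf σ := orderOf_pos σ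
  have hgen : ∀ g : M ≃ₐ[K] M, ∃ i : ℕ, σ ^ i = g := exists_pow_eq_of_zpowers hσ
  refine ⟨fun b => cycClass hn hgen (baseInv K M b), ?_, ?_⟩
  · intro y
    obtain ⟨a, rfl⟩ := cycClass_surjective hn hgen y
    obtain ⟨b, rfl⟩ := exists_baseInv_eq K M a
    exact ⟨b, rfl⟩
  · intro b q 𝔪
    show locH K M (Kloc K q 𝔪) 2 (cycClass hn hgen (baseInv K M b)) = 0 ↔ _
    rw [locH_cycClass K M (Kloc K q 𝔪) hn hgen (baseInv K M b)]
    exact cycClass_eq_zero_iff_norm K M (Kloc K q 𝔪) hn hgen b _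

end Fermat.Agent.S55.Global.RecipCycGlue
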