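/-
S55 / Global block, row R.infres of helper46's G.recip plan (helper35).

Inflation–restriction in degree 2 along an arbitrary SURJECTION `π : Γ →* G` (instead of a literal
quotient map `Γ →* Γ ⧸ N`): if `f : Res_π A ⟶ B` identifies `A` with the `ker π`-invariants of `B`
and `H¹(ker π, B) = 0`, then `H²(G, A) ⟶ H²(Γ, B)` is injective and its image is the kernel of the
restriction to `ker π`.
-/
import Mathlib
import Fermat.Agent.S55.Tate.Blocks
import Fermat.Agent.S55.Tate.InfRes2Block

set_option autoImplicit false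

namespace Fermat.Agent.S55.Global.RecipInfRes

open CategoryTheory CategoryTheory.Limits groupCohomology Rep
open Fermat.Agent.S55.Tate

section Gen

variable {k Γ G : Type} [CommRing k] [Group Γ] [Group G] (π : Γ →* G)
  (hπ : Function.Surjective π) (A : Rep k G) (B : Rep k Γ) (f : Rep.res π A ⟶ B)

/-- `a ↦ f a`, as a linear map into the `ker π`-invariants of `B`. -/
noncomputable def toInv : A.V →ₗ[k] (B.quotientToInvariants π.ker).V :=
  LinearMap.codRestrict _ f.hom.toLinearMap (fun a ⟨h, hh⟩ => by
    have h1 := Rep.hom_comm_apply f h a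
    have h2 : π h = 1 := hh
    simpa [h2] using h1.symm)

@[simp] lemma toInv_coe (a : A.V) : ((toInv π A B f a : (B.quotientToInvariants π.ker).V) : B.V) =
    f.hom a := rfl

lemma toInv_bijective (hf : Function.Injective f.hom)
    (hrange : ∀ b : B, (∀ h ∈ π.ker, B.ρ h b = b) → ∃ a : A, f.hom a = b) :
    Function.Bijective (toInv π A B f) := by
  constructor
  · intro a a' h
    apply hf
    exact congrArg Subtype.val h
  · rintro ⟨b, hb⟩
    obtain ⟨a, ha⟩ := hrange b (fun h hh => hb ⟨h, hh⟩)
    exact ⟨a, Subtype.ext ha⟩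

/-- The inverse identification `B^{ker π} ≃ A`. -/
noncomputable def invEquiv (hf : Function.Injective f.hom)
    (hrange : ∀ b : B, (∀ h ∈ π.ker, B.ρ h b = b) → ∃ a : A, f.hom a = b) :
    (B.quotientToInvariants π.ker).V ≃ₗ[k] A.V :=
  (LinearEquiv.ofBijective (toInv π A B f) (toInv_bijective π A B f hf hrange)).symm

lemma invEquiv_equivariant (hf : Function.Injective f.hom)
    (hrange : ∀ b : B, (∀ h ∈ π.ker, B.ρ h b = b) → ∃ a : A, f.hom a = b)
    (g : Γ ⧸ π.ker) :
    (invEquiv π A B f hf hrange).toLinearMap ∘ₗ (B.quotientToInvariants π.ker).ρ g =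
      A.ρ (QuotientGroup.quotientKerEquivOfSurjective π hπ g) ∘ₗ
        (invEquiv π A B f hf hrange).toLinearMap := by
  induction g using QuotientGroup.induction_on with
  | H γ =>
    ext x
    obtain ⟨a, rfl⟩ := (toInv_bijective π A B f hf hrange).2 x
    have e1 : invEquiv π A B f hf hrange (toInv π A B f a) = a :=
      (LinearEquiv.ofBijective (toInv π A B f) (toInv_bijective π A B f hf hrange)).symm_apply_apply a
    have e2 : (B.quotientToInvariants π.ker).ρ (γ : Γ ⧸ π.ker) (toInv π A B f a) =
        toInv π A B f (A.ρ (π γ) a) := by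
      apply Subtype.ext
      exact (Rep.hom_comm_apply f γ a).symm
    have e3 : invEquiv π A B f hf hrange (toInv π A B f (A.ρ (π γ) a)) = A.ρ (π γ) a :=
      (LinearEquiv.ofBijective (toInv π A B f) (toInv_bijective π A B f hf hrange)).symm_apply_apply _
    simp only [LinearMap.coe_comp, LinearEquiv.coe_coe, Function.comp_apply]
    rw [e2, e3, e1]
    rfl

/-- The comparison isomorphism `Hⁿ(Γ ⧸ ker π, B^{ker π}) ≅ Hⁿ(G, A)`. -/
noncomputable def cmpIso (hf : Function.Injective f.hom)
    (hrange : ∀ b : B, (∀ h ∈ π.ker, B.ρ h b = b) → ∃ a : A, f.hom a = b) (n : ℕ) :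
    groupCohomology (B.quotientToInvariants π.ker) n ≅ groupCohomology A n :=
  groupCohomology.mapIso (QuotientGroup.quotientKerEquivOfSurjective π hπ)
    (invEquiv π A B f hf hrange) (invEquiv_equivariant π hπ A B f hf hrange) n

/-- `Hⁿ(G, A) ⟶ Hⁿ(Γ, B)` factors as the comparison isomorphism followed by inflation. -/
theorem map_eq_cmpIso_inv_comp_inf (hf : Function.Injective f.hom)
    (hrange : ∀ b : B, (∀ h ∈ π.ker, B.ρ h b = b) → ∃ a : A, f.hom a = b) (n : ℕ) :
    groupCohomology.map π f n =
      (cmpIso π hπ A B f hf hrange n).inv ≫ Blocks.infMapGen π.ker B n := by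
  unfold cmpIso Blocks.infMapGen
  rw [groupCohomology.mapIso_inv, ← groupCohomology.map_comp]
  refine groupCohomology.map_congr ?_ ?_ n
  · ext γ
    rfl
  · ext a
    rfl

include hπ in
/-- Inflation–restriction in degree 2 along a surjection, general coefficient ring. -/
theorem infRes_of_surjectiveGen (hf : Function.Injective f.hom)
    (hrange : ∀ b : B, (∀ h ∈ π.ker, B.ρ h b = b) → ∃ a : A, f.hom a = b)
    (h1 : IsZero (groupCohomology (Rep.res π.ker.subtype B) 1)) :
    Function.Injective (groupCohomology.map π f 2) ∧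
      ∀ z : groupCohomology B 2,
        groupCohomology.map π.ker.subtype (𝟙 (Rep.res π.ker.subtype B)) 2 z = 0 →
          ∃ y, groupCohomology.map π f 2 y = z := by
  have hfac := map_eq_cmpIso_inv_comp_inf π hπ A B f hf hrange 2
  have hinj := InfRes2Block.infMapGen_injective π.ker B h1
  constructor
  · intro x y hxy
    rw [hfac] at hxy
    have h2 : Blocks.infMapGen π.ker B 2 ((cmpIso π hπ A B f hf hrange 2).inv x) =
        Blocks.infMapGen π.ker B 2 ((cmpIso π hπ A B f hf hrange 2).inv y) := by
      simpa using hxy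
    have h3 := hinj h2
    have h4 := congrArg (cmpIso π hπ A B f hf hrange 2).hom h3
    simpa using h4
  · intro z hz
    obtain ⟨y', hy'⟩ := InfRes2Block.infRes2Gen π.ker B h1 z hz
    refine ⟨(cmpIso π hπ A B f hf hrange 2).hom y', ?_⟩
    rw [hfac]
    simpa using hy'

end Gen

/-- **Row R.infres** (helper46 #1976), literal shape. -/
theorem infRes_of_surjective {Γ G : Type} [Group Γ] [Group G] (π : Γ →* G)
    (hπ : Function.Surjective π) (A : Rep ℤ G) (B : Rep ℤ Γ) (f : Rep.res π A ⟶ B)
    (hf : Function.Injective f.hom)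
    (hrange : ∀ b : B, (∀ h ∈ π.ker, B.ρ h b = b) → ∃ a : A, f.hom a = b)
    (h1 : Limits.IsZero (groupCohomology (Rep.res π.ker.subtype B) 1)) :
    Function.Injective (groupCohomology.map π f 2) ∧
      ∀ z : groupCohomology B 2,
        groupCohomology.map π.ker.subtype (𝟙 (Rep.res π.ker.subtype B)) 2 z = 0 →
          ∃ y, groupCohomology.map π f 2 y = z :=
  infRes_of_surjectiveGen π hπ A B f hf hrange h1

end Fermat.Agent.S55.Global.RecipInfRes
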