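/-
S55 / Global / G.semilocal — SEMILOCAL HILBERT 90 for `(L ⊗[k] A)ˣ` (helper23).

`L/k` finite separable, `A = ∏ i, F i` a finite product of fields over `k` (e.g. `A = ℚ_[q]`-like
single field via `ι = Unit`, or `A = QT T = ∏_{q ∈ T} ℚ_[q]`), `G` a finite group acting faithfully
on `L` by `k`-algebra automorphisms (e.g. `G = Gal(L/K)` for ANY intermediate field `K`), acting on
`B := L ⊗[k] A` through the left factor.  Then `B` is a reduced Artinian ring, every stabiliser of a
maximal ideal acts faithfully on the residue field, and hence (SemilocalOrbits):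

* `isArtinianRing_tensor_pi`, `isReduced_tensor_pi` : `L ⊗[k] ∏ F i` is reduced Artinian;
* `faithful_stab`           : stabilisers act faithfully on residue fields (any comm. `k`-algebra `A`);
* `hilbert90_tensor`        : every 1-cocycle `G → (L ⊗[k] A)ˣ` is a coboundary;
* `hilbert90_cyclic_tensor` : `G = ⟨σ⟩`, `∏_{i < orderOf σ} σ^i • x = 1 ⇒ x = σ • y / y`
  (both for any comm. `k`-algebra `A` with `L ⊗[k] A` reduced Artinian).
-/
import Mathlib
import Fermat.Agent.S55.Global.SemilocalOrbits

set_option linter.unusedSectionVars false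
set_option linter.style.haveILetI false

namespace Fermat.Agent.S55.Global.SemilocalH90

open scoped TensorProduct Pointwise
open Fermat.Agent.S55.Global.SemilocalDecomp
open Fermat.Agent.S55.Global.SemilocalOrbits
open groupCohomology

attribute [local instance] stabQuotAction

section Ring

variable (k L : Type*) [Field k] [Field L] [Algebra k L] [FiniteDimensional k L]
  {ι : Type*} [Finite ι] (F : ι → Type*) [∀ i, Field (F i)] [∀ i, Algebra k (F i)]

theorem isArtinianRing_tensor_pi : IsArtinianRing (L ⊗[k] (Π i, F i)) := by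
  have h1 : IsArtinianRing ((Π i, F i) ⊗[k] L) := by
    have : Module.Finite (Π i, F i) ((Π i, F i) ⊗[k] L) := inferInstance
    exact IsArtinianRing.of_finite (Π i, F i) _
  exact (Algebra.TensorProduct.comm k (Π i, F i) L).toRingEquiv.surjective.isArtinianRing

theorem isReduced_tensor_field [Algebra.IsSeparable k L] (F' : Type*) [Field F'] [Algebra k F'] :
    IsReduced (L ⊗[k] F') := by
  have h1 : IsReduced (F' ⊗[k] L) := by
    have : Algebra.FormallyUnramified k L := Algebra.FormallyUnramified.of_isSeparable k L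
    have : Algebra.FormallyUnramified F' (F' ⊗[k] L) := inferInstance
    have : Algebra.EssFiniteType F' (F' ⊗[k] L) := inferInstance
    exact Algebra.FormallyUnramified.isReduced_of_field F' (F' ⊗[k] L)
  exact isReduced_of_injective (Algebra.TensorProduct.comm k L F').toRingEquiv.toRingHom
    (Algebra.TensorProduct.comm k L F').injective

theorem isReduced_tensor_pi [Algebra.IsSeparable k L] : IsReduced (L ⊗[k] (Π i, F i)) := by
  classical
  cases nonempty_fintype ι
  have h1 : ∀ i, IsReduced (L ⊗[k] F i) := fun i => isReduced_tensor_field k L (F i)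
  have h2 : IsReduced (Π i, L ⊗[k] F i) := inferInstance
  exact isReduced_of_injective (Algebra.TensorProduct.piRight k k L F).toRingEquiv.toRingHom
    (Algebra.TensorProduct.piRight k k L F).injective

end Ring

section Faithful

variable {k L A G : Type*} [Field k] [Field L] [Algebra k L] [CommRing A] [Algebra k A]
  [Group G] [MulSemiringAction G L] [FaithfulSMul G L]
  [MulSemiringAction G (L ⊗[k] A)]
  (hact : ∀ (g : G) (l : L) (a : A), g • (l ⊗ₜ[k] a) = (g • l) ⊗ₜ[k] a)

include hact in
/-- The stabiliser of a maximal ideal `m` of `L ⊗[k] A` acts faithfully on the residue field. -/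
theorem faithful_stab (m : Ideal (L ⊗[k] A)) (hm : m.IsMaximal) :
    FaithfulSMul (MulAction.stabilizer G m) ((L ⊗[k] A) ⧸ m) := by
  refine ⟨fun {d d'} h => ?_⟩
  have : Nontrivial ((L ⊗[k] A) ⧸ m) := Ideal.Quotient.nontrivial_iff.mpr hm.ne_top
  let j : L →+* (L ⊗[k] A) ⧸ m :=
    (Ideal.Quotient.mk m).comp (Algebra.TensorProduct.includeLeft : L →ₐ[k] L ⊗[k] A).toRingHom
  have hj : Function.Injective j := j.injective
  apply Subtype.ext
  apply eq_of_smul_eq_smul (α := L)
  intro l
  apply hj
  have h1 := h (Ideal.Quotient.mk m (l ⊗ₜ[k] (1 : A)))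
  rw [stabQuotAction_mk, stabQuotAction_mk, hact, hact] at h1
  exact h1

end Faithful

section Main

variable {k L G A : Type*} [Field k] [Field L] [Algebra k L] [CommRing A] [Algebra k A]
  [IsArtinianRing (L ⊗[k] A)] [IsReduced (L ⊗[k] A)]
  [Group G] [Finite G] [MulSemiringAction G L] [FaithfulSMul G L]
  [MulSemiringAction G (L ⊗[k] A)]
  (hact : ∀ (g : G) (l : L) (a : A), g • (l ⊗ₜ[k] a) = (g • l) ⊗ₜ[k] a)
  [MulDistribMulAction G (L ⊗[k] A)ˣ]
  (hB : ∀ (g : G) (u : (L ⊗[k] A)ˣ), ((g • u : (L ⊗[k] A)ˣ) : L ⊗[k] A) = g • (u : L ⊗[k] A))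

include hact hB in
/-- **Semilocal Hilbert 90** for `(L ⊗[k] A)ˣ` (`L ⊗[k] A` reduced Artinian), cocycle form. -/
theorem hilbert90_tensor (c : G → (L ⊗[k] A)ˣ) (hc : IsMulCocycle₁ c) :
    IsMulCoboundary₁ c :=
  hilbert90 hB (fun m hm => faithful_stab hact m hm) c hc

include hact hB in
/-- **Semilocal Hilbert 90** for `(L ⊗[k] A)ˣ` (`L ⊗[k] A` reduced Artinian), cyclic form. -/
theorem hilbert90_cyclic_tensor (σ : G) (hσ : ∀ g : G, g ∈ Subgroup.zpowers σ)
    (x : (L ⊗[k] A)ˣ) (hx : ∏ i ∈ Finset.range (orderOf σ), σ ^ i • x = 1) :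
    ∃ y : (L ⊗[k] A)ˣ, x = σ • y / y :=
  hilbert90_cyclic hB (fun m hm => faithful_stab hact m hm) σ hσ x hx

end Main

end Fermat.Agent.S55.Global.SemilocalH90
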