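/-
S55 / Global / G.bridge2 (helper96), part 1: Galois descent for the semilocal algebra.

For `L/K` finite Galois (number fields), `A` any commutative `K`-algebra and `H` any subgroup of
`Gal(L/K)` acting on `L ⊗[K] A` through the left factor (`Objects.lean`):

* `mem_range_of_fixed`    : an `H`-fixed element of `L ⊗[K] A` lies in the image of `L^H ⊗[K] A`;
* `exists_eq_one_tmul`    : a `Gal(L/K)`-fixed element is `1 ⊗ a`;
* `exists_unit_eq`        : a `Gal(L/K)`-fixed unit is `1 ⊗ y` with `y` a unit of `A` (`A` nontrivial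
                            or not);
* `prod_smul_inclRight`   : `∏_τ τ • (1 ⊗ y) = 1 ⊗ y ^ |G|`;
* `prod_smul_inclUnits`   : `∏_τ τ • (b ⊗ 1) = 1 ⊗ N_{L/K}(b)`;
* `tmul_one_eq_one_tmul`  : `a ⊗ 1 = 1 ⊗ a` for `a ∈ K`.
-/
import Mathlib
import Fermat.Agent.S55.Global.Objects

set_option autoImplicit false
set_option linter.unusedSectionVars false

open TensorProduct

namespace Fermat.Agent.S55.Global.TensorInvariants

open Fermat.Agent.S55.Global.Objects

variable {K : Type} [Field K] [NumberField K] {L : Type} [Field L] [NumberField L] [Algebra K L]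
variable (A : Type) [CommRing A] [Algebra K A]

section coordinates

variable {A}
variable {ι : Type*} [DecidableEq ι] (𝒞 : Module.Basis ι K A)

/-- The coordinates of `σ • z` are the `σ`-images of the coordinates of `z`. -/
theorem coord_smul (σ : L ≃ₐ[K] L) (z : L ⊗[K] A) (i : ι) :
    TensorProduct.equivFinsuppOfBasisRight 𝒞 (σ • z) i
      = σ (TensorProduct.equivFinsuppOfBasisRight 𝒞 z i) := by
  classical
  induction z using TensorProduct.induction_on with
  | zero => simp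
  | tmul x a =>
    rw [Objects.smul_tmul', TensorProduct.equivFinsuppOfBasisRight_apply_tmul_apply,
      TensorProduct.equivFinsuppOfBasisRight_apply_tmul_apply]
    exact (σ.toLinearMap.map_smul _ _).symm
  | add x y hx hy =>
    rw [smul_add, map_add, map_add, Finsupp.add_apply, Finsupp.add_apply, hx, hy, map_add]

end coordinates

/-- The map `L^H ⊗[K] A → L ⊗[K] A`. -/
noncomputable def fixedIncl (H : Subgroup (L ≃ₐ[K] L)) :
    (IntermediateField.fixedField H) ⊗[K] A →ₐ[K] L ⊗[K] A :=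
  Algebra.TensorProduct.map (IntermediateField.fixedField H).val (AlgHom.id K A)

theorem fixedIncl_tmul (H : Subgroup (L ≃ₐ[K] L)) (x : IntermediateField.fixedField H) (a : A) :
    fixedIncl A H (x ⊗ₜ[K] a) = (x : L) ⊗ₜ[K] a := rfl

/-- **Descent.** An `H`-fixed element of `L ⊗[K] A` comes from `L^H ⊗[K] A`. -/
theorem mem_range_of_fixed (H : Subgroup (L ≃ₐ[K] L)) (z : L ⊗[K] A)
    (hz : ∀ σ ∈ H, σ • z = z) : z ∈ (fixedIncl A H).range := by
  classical
  let 𝒞 := Module.Free.chooseBasis K A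
  set c := TensorProduct.equivFinsuppOfBasisRight 𝒞 z with hc
  have hfix : ∀ i, c i ∈ IntermediateField.fixedField H := by
    intro i
    rw [IntermediateField.mem_fixedField_iff]
    intro σ hσ
    rw [hc, ← coord_smul 𝒞 σ z i, hz σ hσ]
  have hz' : z = c.sum fun i m => m ⊗ₜ[K] 𝒞 i := by
    rw [← TensorProduct.equivFinsuppOfBasisRight_symm_apply, hc, LinearEquiv.symm_apply_apply]
  rw [hz']
  refine Subalgebra.sum_mem _ fun i _ => ?_
  exact ⟨(⟨c i, hfix i⟩ : IntermediateField.fixedField H) ⊗ₜ[K] 𝒞 i, rfl⟩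

variable [FiniteDimensional K L] [IsGalois K L]

/-- A `Gal(L/K)`-fixed element of `L ⊗[K] A` is `1 ⊗ a`. -/
theorem exists_eq_one_tmul (z : L ⊗[K] A) (hz : ∀ σ : L ≃ₐ[K] L, σ • z = z) :
    ∃ a : A, z = (1 : L) ⊗ₜ[K] a := by
  classical
  let 𝒞 := Module.Free.chooseBasis K A
  set c := TensorProduct.equivFinsuppOfBasisRight 𝒞 z with hc
  have hfix : ∀ i, ∃ k : K, algebraMap K L k = c i := by
    intro i
    have h1 : c i ∈ IntermediateField.fixedField (⊤ : Subgroup (L ≃ₐ[K] L)) := by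
      rw [IntermediateField.mem_fixedField_iff]
      intro σ _
      rw [hc, ← coord_smul 𝒞 σ z i, hz σ]
    rw [IsGalois.fixedField_top, IntermediateField.mem_bot] at h1
    exact h1
  choose k hk using hfix
  have hz' : z = c.sum fun i m => m ⊗ₜ[K] 𝒞 i := by
    rw [← TensorProduct.equivFinsuppOfBasisRight_symm_apply, hc, LinearEquiv.symm_apply_apply]
  refine ⟨c.sum fun i _ => k i • 𝒞 i, ?_⟩
  rw [hz', Finsupp.sum, Finsupp.sum, TensorProduct.tmul_sum]
  refine Finset.sum_congr rfl fun i _ => ?_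
  rw [← hk i, Algebra.algebraMap_eq_smul_one, TensorProduct.smul_tmul]

/-- `a ⊗ 1 = 1 ⊗ a` for `a ∈ K`. -/
theorem tmul_one_eq_one_tmul (a : K) :
    (algebraMap K L a) ⊗ₜ[K] (1 : A) = (1 : L) ⊗ₜ[K] (algebraMap K A a) := by
  rw [Algebra.algebraMap_eq_smul_one, Algebra.algebraMap_eq_smul_one, TensorProduct.smul_tmul]

/-! ### Units -/

variable (K L) in
/-- `Aˣ → (L ⊗[K] A)ˣ`, `y ↦ 1 ⊗ y`. -/
noncomputable def inclRightUnits : Aˣ →* (L ⊗[K] A)ˣ :=
  Units.map (Algebra.TensorProduct.includeRight : A →ₐ[K] L ⊗[K] A).toMonoidHom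

@[simp] theorem val_inclRightUnits (y : Aˣ) :
    ((inclRightUnits K L A y : (L ⊗[K] A)ˣ) : L ⊗[K] A) = (1 : L) ⊗ₜ[K] (y : A) := rfl

theorem smul_inclRightUnits (σ : L ≃ₐ[K] L) (y : Aˣ) :
    σ • inclRightUnits K L A y = inclRightUnits K L A y := by
  apply Units.ext
  rw [val_smul_units, val_inclRightUnits, Objects.smul_tmul', map_one]

theorem inclRightUnits_injective : Function.Injective (inclRightUnits K L A) := by
  intro y y' h
  have hinj := Algebra.TensorProduct.includeRight_injective (R := K) (A := L) (B := A)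
    (algebraMap K L).injective
  apply Units.ext
  apply hinj
  exact congrArg Units.val h

/-- A `Gal(L/K)`-fixed unit of `L ⊗[K] A` is `1 ⊗ y` for a unit `y` of `A`. -/
theorem exists_unit_eq (u : (L ⊗[K] A)ˣ) (hu : ∀ σ : L ≃ₐ[K] L, σ • u = u) :
    ∃ y : Aˣ, u = inclRightUnits K L A y := by
  have h1 : ∀ σ : L ≃ₐ[K] L, σ • (u : L ⊗[K] A) = u := fun σ => by
    rw [← val_smul_units, hu σ]
  have h2 : ∀ σ : L ≃ₐ[K] L, σ • ((u⁻¹ : (L ⊗[K] A)ˣ) : L ⊗[K] A) = (u⁻¹ : (L ⊗[K] A)ˣ) :=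
    fun σ => by rw [← val_smul_units, smul_inv', hu σ]
  obtain ⟨a, ha⟩ := exists_eq_one_tmul A _ h1
  obtain ⟨a', ha'⟩ := exists_eq_one_tmul A _ h2
  have hinj := Algebra.TensorProduct.includeRight_injective (R := K) (A := L) (B := A)
    (algebraMap K L).injective
  have haa' : a * a' = 1 := by
    apply hinj
    show (1 : L) ⊗ₜ[K] (a * a') = (1 : L ⊗[K] A)
    have : (1 : L) ⊗ₜ[K] (a * a') = ((1 : L) ⊗ₜ[K] a) * ((1 : L) ⊗ₜ[K] a') := by
      rw [Algebra.TensorProduct.tmul_mul_tmul, one_mul]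
    rw [this, ← ha, ← ha', Units.mul_inv]
  exact ⟨⟨a, a', haa', by rw [mul_comm]; exact haa'⟩, Units.ext ha⟩

variable [Fintype (L ≃ₐ[K] L)]

/-- `∏_τ τ • (1 ⊗ y) = 1 ⊗ y ^ |G|`. -/
theorem prod_smul_inclRightUnits (y : Aˣ) :
    ∏ τ : L ≃ₐ[K] L, τ • inclRightUnits K L A y
      = inclRightUnits K L A (y ^ Fintype.card (L ≃ₐ[K] L)) := by
  simp only [smul_inclRightUnits, Finset.prod_const, Finset.card_univ, map_pow]

/-- `∏_τ τ • (b ⊗ 1) = 1 ⊗ N_{L/K}(b)`. -/
theorem prod_smul_inclUnits (b : Lˣ) :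
    ∏ τ : L ≃ₐ[K] L, τ • inclUnits K L A b
      = inclRightUnits K L A (Units.map (algebraMap K A).toMonoidHom
          (Units.map (Algebra.norm K : L →* K) b)) := by
  apply Units.ext
  rw [Units.coe_prod, val_inclRightUnits]
  simp only [val_smul_units, val_inclUnits, Objects.smul_tmul']
  have h1 : ∏ τ : L ≃ₐ[K] L, (τ (b : L)) ⊗ₜ[K] (1 : A)
      = (∏ τ : L ≃ₐ[K] L, τ (b : L)) ⊗ₜ[K] (1 : A) :=
    (map_prod (Algebra.TensorProduct.includeLeft : L →ₐ[K] L ⊗[K] A)
      (fun τ : L ≃ₐ[K] L => τ (b : L)) Finset.univ).symm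
  have h2 : algebraMap K L (Algebra.norm K (b : L)) = ∏ τ : L ≃ₐ[K] L, τ (b : L) := by
    rw [Algebra.norm_eq_prod_automorphisms]
    refine Finset.prod_congr ?_ (fun _ _ => rfl)
    ext τ
    simp
  rw [h1, ← h2]
  exact tmul_one_eq_one_tmul A _

end Fermat.Agent.S55.Global.TensorInvariants
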