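/-
S55 / Global / G.recip — R.infresGal (helper46).

Inflation–restriction in degree 2 for a tower `K ⊆ E ⊆ N` of number fields, `E/K` and `N/K` Galois:

* `gInf_injective`, `gInf_exact` : `0 → H²(Gal(E/K), Eˣ) → H²(Gal(N/K), Nˣ) → H²(Gal(N/E), Nˣ)`
  (Hilbert 90 for `N/E`);
* `inflJRep_injective` : the local inflation
  `H²(Gal(E/K), (E ⊗[K] F)ˣ) → H²(Gal(N/K), (N ⊗[K] F)ˣ)` is injective for every field `F` over `K`
  (semilocal Hilbert 90 for `Gal(N/E)` acting on `N ⊗[K] F`, helper23's `SemilocalH90`).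

Both are instances of the abstract `RecipInfRes.infRes_of_surjective` (helper35).
-/
import Fermat.Agent.S55.Global.RecipDefs
import Fermat.Agent.S55.Global.TensorInvariants
import Fermat.Agent.S55.Global.SemilocalH90
import Fermat.Agent.S55.Global.SemilocalTensor
import Fermat.Agent.S55.Global.Descent

set_option autoImplicit false
set_option linter.unusedSectionVars false
set_option linter.style.haveILetI false

open NumberField IsDedekindDomain TensorProduct CategoryTheory

namespace Fermat.Agent.S55.Global.RecipInfResGal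

open Fermat.Agent.S55.Global.Objects Fermat.Agent.S55.Global.Objects2
  Fermat.Agent.S55.Global.Objects3 Fermat.Agent.S55.Global.Blocks3
  Fermat.Agent.S55.Global.Transition Fermat.Agent.S55.Global.RecipDefs

/-- The statement of row R.infres (helper35), as a hypothesis. -/
def InfResStmt : Prop :=
  ∀ {Γ G : Type} [Group Γ] [Group G] (π : Γ →* G), Function.Surjective π →
    ∀ (A : Rep ℤ G) (B : Rep ℤ Γ) (f : Rep.res π A ⟶ B), Function.Injective f.hom →
    (∀ b : B, (∀ h ∈ π.ker, B.ρ h b = b) → ∃ a : A, f.hom a = b) →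
    Limits.IsZero (groupCohomology (Rep.res π.ker.subtype B) 1) →
    Function.Injective (groupCohomology.map π f 2) ∧
    ∀ z : groupCohomology B 2,
      groupCohomology.map π.ker.subtype (𝟙 (Rep.res π.ker.subtype B)) 2 z = 0 →
        ∃ y, groupCohomology.map π f 2 y = z

variable (K : Type) [Field K] [NumberField K]
variable (E : Type) [Field E] [NumberField E] [Algebra K E] [IsGalois K E]
variable (N : Type) [Field N] [NumberField N] [Algebra K N] [Algebra E N] [IsScalarTower K E N]
  [IsGalois K N]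

section kernel

theorem mem_ker_resHom_iff (τ : N ≃ₐ[K] N) :
    τ ∈ (resHom K E N).ker ↔ ∀ x : E, τ (algebraMap E N x) = algebraMap E N x := by
  rw [MonoidHom.mem_ker]
  constructor
  · intro h x
    rw [← resHom_commutes, h]
    rfl
  · intro h
    apply AlgEquiv.ext
    intro x
    apply (algebraMap E N).injective
    rw [resHom_commutes, h]
    rfl

/-- An element of the kernel of `Gal(N/K) → Gal(E/K)` as an `E`-automorphism of `N`. -/
noncomputable def kerToGal (u : (resHom K E N).ker) : N ≃ₐ[E] N :=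
  { (u : N ≃ₐ[K] N).toRingEquiv with
    commutes' := fun x => (mem_ker_resHom_iff K E N u).1 u.2 x }

theorem kerToGal_apply (u : (resHom K E N).ker) (x : N) :
    kerToGal K E N u x = (u : N ≃ₐ[K] N) x := rfl

theorem subHom_kerToGal (u : (resHom K E N).ker) :
    subHom K E N (kerToGal K E N u) = (u : N ≃ₐ[K] N) := by
  apply AlgEquiv.ext
  intro x
  rfl

theorem subHom_mem_ker (σ : N ≃ₐ[E] N) : subHom K E N σ ∈ (resHom K E N).ker :=
  MonoidHom.mem_ker.2 (resHom_subHom K E N σ)

theorem resHom_surjective : Function.Surjective (resHom K E N) :=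
  AlgEquiv.restrictNormalHom_surjective N

/-- `Gal(N/E) ≃* ker (Gal(N/K) → Gal(E/K))`. -/
noncomputable def kerEquiv : (N ≃ₐ[E] N) ≃* (resHom K E N).ker where
  toFun σ := ⟨subHom K E N σ, subHom_mem_ker K E N σ⟩
  invFun u := kerToGal K E N u
  left_inv σ := by
    apply AlgEquiv.ext
    intro x
    rfl
  right_inv u := Subtype.ext (subHom_kerToGal K E N u)
  map_mul' σ τ := Subtype.ext (map_mul (subHom K E N) σ τ)

theorem subtype_comp_kerEquiv :
    (resHom K E N).ker.subtype.comp (kerEquiv K E N).toMonoidHom = subHom K E N := rfl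

end kernel

section global

open groupCohomology

/-- Hilbert 90 for `N/E`, in the form `H¹(ker, Nˣ) = 0`. -/
theorem h1Vanishes_units :
    Descent.H1Vanishes (Rep.ofAlgebraAutOnUnits K N) (resHom K E N).ker := by
  intro χ hχ
  let toKer : (N ≃ₐ[E] N) → (resHom K E N).ker :=
    fun σ => ⟨subHom K E N σ, subHom_mem_ker K E N σ⟩
  let c : (N ≃ₐ[E] N) → Nˣ := fun σ => Additive.toMul (χ (toKer σ) : Additive Nˣ)
  have hc : IsMulCocycle₁ c := by
    intro g h
    have h1 := hχ (toKer g) (toKer h)
    have h2 : toKer (g * h) = toKer g * toKer h := by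
      apply Subtype.ext
      exact map_mul (subHom K E N) g h
    simp only [c]
    rw [h2, h1]
    rfl
  obtain ⟨β, hβ⟩ := isMulCoboundary₁_of_isMulCocycle₁_of_aut_to_units c hc
  refine ⟨(Additive.ofMul β : Additive Nˣ), fun u => ?_⟩
  have hu : toKer (kerToGal K E N u) = u := Subtype.ext (subHom_kerToGal K E N u)
  have h3 := hβ (kerToGal K E N u)
  simp only [c] at h3
  rw [hu] at h3
  have h4 : χ u = Additive.ofMul (kerToGal K E N u • β / β) := by
    rw [h3]; rfl
  rw [h4]
  rfl

theorem unitsRep_hom_injective : Function.Injective (unitsRep K E N).hom := by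
  intro a b h
  have h' : baseUnits E N (Additive.toMul a) = baseUnits E N (Additive.toMul b) :=
    congrArg Additive.toMul h
  exact congrArg Additive.ofMul (baseUnits_injective E N h')

theorem unitsRep_range (b : Rep.ofAlgebraAutOnUnits K N)
    (hb : ∀ h ∈ (resHom K E N).ker, (Rep.ofAlgebraAutOnUnits K N).ρ h b = b) :
    ∃ a : Rep.ofAlgebraAutOnUnits K E, (unitsRep K E N).hom a = b := by
  haveI : IsGalois E N := IsGalois.tower_top_of_isGalois K E N
  let u : Nˣ := Additive.toMul (b : Additive Nˣ)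
  have hfix : ∀ σ : N ≃ₐ[E] N, σ (u : N) = (u : N) := by
    intro σ
    have h1 := hb (subHom K E N σ) (subHom_mem_ker K E N σ)
    have h2 : (subHom K E N σ) • u = u := congrArg Additive.toMul h1
    exact congrArg (fun w : Nˣ => (w : N)) h2
  obtain ⟨e, he⟩ := (IsGalois.mem_range_algebraMap_iff_fixed (F := E) (E := N) (u : N)).2 hfix
  have he0 : e ≠ 0 := by
    rintro rfl
    rw [map_zero] at he
    exact u.ne_zero he.symm
  refine ⟨(Additive.ofMul (Units.mk0 e he0) : Additive Eˣ), ?_⟩
  apply congrArg Additive.ofMul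
  apply Units.ext
  exact he

variable {K E N} in
theorem gInf_injective (hIR : InfResStmt) : Function.Injective (gInf K E N 2) :=
  (hIR (resHom K E N) (resHom_surjective K E N) _ _ (unitsRep K E N)
    (unitsRep_hom_injective K E N) (unitsRep_range K E N)
    (Descent.isZero_of_h1Vanishes _ _ (h1Vanishes_units K E N))).1

/-- Restriction to `Gal(N/E)` vanishes iff restriction to the kernel subgroup vanishes. -/
theorem res_ker_eq_zero (z : groupCohomology (Rep.ofAlgebraAutOnUnits K N) 2)
    (hz : gRes K E N 2 z = 0) :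
    groupCohomology.map (resHom K E N).ker.subtype
      (𝟙 (Rep.res (resHom K E N).ker.subtype (Rep.ofAlgebraAutOnUnits K N))) 2 z = 0 := by
  set S := (resHom K E N).ker with hS
  let ι := mapIso (A := Rep.ofAlgebraAutOnUnits E N)
    (B := Rep.res S.subtype (Rep.ofAlgebraAutOnUnits K N)) (kerEquiv K E N).symm
    (LinearEquiv.refl ℤ (Additive Nˣ)) (by
      intro u
      refine LinearMap.ext fun a => ?_
      rfl) 2
  have h1 : gRes K E N 2 =
      groupCohomology.map S.subtype (𝟙 (Rep.res S.subtype (Rep.ofAlgebraAutOnUnits K N))) 2 ≫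
        ι.hom := by
    unfold gRes
    rw [mapIso_hom, ← groupCohomology.map_comp]
    exact groupCohomology.map_congr rfl (by rfl) 2
  rw [h1] at hz
  have h2 : Function.Injective ι.hom := (ModuleCat.mono_iff_injective ι.hom).1 inferInstance
  apply h2
  rw [map_zero]
  exact hz

variable {K E N} in
theorem gInf_exact (hIR : InfResStmt) (z : groupCohomology (Rep.ofAlgebraAutOnUnits K N) 2)
    (hz : gRes K E N 2 z = 0) : ∃ y, gInf K E N 2 y = z :=
  (hIR (resHom K E N) (resHom_surjective K E N) _ _ (unitsRep K E N)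
    (unitsRep_hom_injective K E N) (unitsRep_range K E N)
    (Descent.isZero_of_h1Vanishes _ _ (h1Vanishes_units K E N))).2 z (res_ker_eq_zero K E N z hz)

end global

section local_

open groupCohomology

variable (F : Type) [CommRing F] [Algebra K F]

/-- **Descent**: an element of `N ⊗[K] F` fixed by `Gal(N/E)` comes from `E ⊗[K] F`. -/
theorem mem_range_transAlg (z : N ⊗[K] F)
    (hz : ∀ σ ∈ (resHom K E N).ker, σ • z = z) : ∃ w : E ⊗[K] F, transAlg K E N F w = z := by
  classical
  haveI : IsGalois E N := IsGalois.tower_top_of_isGalois K E N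
  let 𝒞 := Module.Free.chooseBasis K F
  set c := TensorProduct.equivFinsuppOfBasisRight 𝒞 z with hc
  have hfix : ∀ i, ∃ e : E, algebraMap E N e = c i := by
    intro i
    refine (IsGalois.mem_range_algebraMap_iff_fixed (F := E) (E := N) (c i)).2 fun σ => ?_
    have h1 := TensorInvariants.coord_smul 𝒞 (subHom K E N σ) z i
    rw [hz _ (subHom_mem_ker K E N σ)] at h1
    exact h1.symm
  choose e he using hfix
  have hz' : z = c.sum fun i m => m ⊗ₜ[K] 𝒞 i := by
    rw [← TensorProduct.equivFinsuppOfBasisRight_symm_apply, hc, LinearEquiv.symm_apply_apply]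
  refine ⟨c.sum fun i _ => e i ⊗ₜ[K] 𝒞 i, ?_⟩
  conv_rhs => rw [hz']
  rw [Finsupp.sum, Finsupp.sum, map_sum]
  refine Finset.sum_congr rfl fun i _ => ?_
  rw [transAlg_tmul, he]

theorem transJRep_range (b : JRep K N F)
    (hb : ∀ h ∈ (resHom K E N).ker, (JRep K N F).ρ h b = b) :
    ∃ a : JRep K E F, (transJRep K E N F).hom a = b := by
  let u : (N ⊗[K] F)ˣ := Additive.toMul (Rep.toAdditive b)
  have hfix : ∀ σ ∈ (resHom K E N).ker, σ • u = u := fun σ hσ =>
    congrArg Additive.toMul (hb σ hσ)
  have hfix1 : ∀ σ ∈ (resHom K E N).ker, σ • (u : N ⊗[K] F) = (u : N ⊗[K] F) := fun σ hσ => by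
    rw [← val_smul_units, hfix σ hσ]
  have hfix2 : ∀ σ ∈ (resHom K E N).ker,
      σ • ((u⁻¹ : (N ⊗[K] F)ˣ) : N ⊗[K] F) = ((u⁻¹ : (N ⊗[K] F)ˣ) : N ⊗[K] F) := fun σ hσ => by
    rw [← val_smul_units, smul_inv', hfix σ hσ]
  obtain ⟨w, hw⟩ := mem_range_transAlg K E N F _ hfix1
  obtain ⟨w', hw'⟩ := mem_range_transAlg K E N F _ hfix2
  have hww' : w * w' = 1 := by
    apply transAlg_injective K E N F
    rw [map_mul, hw, hw', map_one, Units.mul_inv]
  let a : (E ⊗[K] F)ˣ := Units.mkOfMulEqOne w w' hww'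
  refine ⟨(Additive.ofMul a : Additive (E ⊗[K] F)ˣ), ?_⟩
  apply congrArg Additive.ofMul
  apply Units.ext
  exact hw

/-- Semilocal Hilbert 90 for `Gal(N/E)` acting on `N ⊗[K] F`, `F` a field over `K`. -/
theorem h1Vanishes_local (hF : IsField F) :
    Descent.H1Vanishes (JRep K N F) (resHom K E N).ker := by
  letI : Field F := hF.toField
  haveI : IsGalois E N := IsGalois.tower_top_of_isGalois K E N
  haveI : IsArtinianRing (N ⊗[K] F) := SemilocalTensor.isArtinianRing_tensor K N F
  haveI : IsReduced (N ⊗[K] F) := SemilocalTensor.isReduced_tensor K N F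
  letI : MulSemiringAction (N ≃ₐ[E] N) (N ⊗[K] F) :=
    MulSemiringAction.compHom _ (subHom K E N)
  letI : MulDistribMulAction (N ≃ₐ[E] N) (N ⊗[K] F)ˣ :=
    MulDistribMulAction.compHom _ (subHom K E N)
  have hact : ∀ (g : N ≃ₐ[E] N) (l : N) (a : F),
      g • (l ⊗ₜ[K] a : N ⊗[K] F) = (g • l) ⊗ₜ[K] a := fun _ _ _ => rfl
  have hB : ∀ (g : N ≃ₐ[E] N) (u : (N ⊗[K] F)ˣ),
      ((g • u : (N ⊗[K] F)ˣ) : N ⊗[K] F) = g • (u : N ⊗[K] F) := fun _ _ => rfl
  intro χ hχ
  let c : (N ≃ₐ[E] N) → (N ⊗[K] F)ˣ :=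
    fun σ => Additive.toMul (Rep.toAdditive (χ (kerEquiv K E N σ)))
  have hc : IsMulCocycle₁ c := by
    intro g h
    have h1 := hχ (kerEquiv K E N g) (kerEquiv K E N h)
    simp only [c]
    rw [map_mul, h1]
    rfl
  obtain ⟨β, hβ⟩ := SemilocalH90.hilbert90_tensor (k := K) hact hB c hc
  refine ⟨(Additive.ofMul β : Additive (N ⊗[K] F)ˣ), fun u => ?_⟩
  have hu : kerEquiv K E N (kerToGal K E N u) = u := (kerEquiv K E N).apply_symm_apply u
  have h3 := hβ (kerToGal K E N u)
  simp only [c] at h3
  rw [hu] at h3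
  have h4 : χ u = Additive.ofMul (kerToGal K E N u • β / β) := by
    rw [h3]; rfl
  rw [h4]
  rfl

variable {K E N} in
/-- **Local inflation is injective.** -/
theorem inflJRep_injective (hIR : InfResStmt) (F : Type) [CommRing F] [Algebra K F]
    (hF : IsField F) : Function.Injective (inflJRep K E N F 2) :=
  (hIR (resHom K E N) (resHom_surjective K E N) _ _ (transJRep K E N F)
    (transLin_injective K E N F) (transJRep_range K E N F)
    (Descent.isZero_of_h1Vanishes _ _ (h1Vanishes_local K E N F hF))).1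

end local_

end Fermat.Agent.S55.Global.RecipInfResGal
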