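/-
S55 / Global / G.recip — R.under (helper46).

Places of `M` above places of `K` in the `Blocks3` language (a place of `K` above the rational
prime `q` = a maximal ideal of `Ksemi K q = K ⊗[ℚ] ℚ_[q]`):

* `semiMap K M q : Ksemi K q →ₐ[K] Ksemi M q`;
* `under K M q 𝔫 := 𝔫.comap (semiMap K M q)`, maximal (`under_isMaximal`);
* `klocMap K M q 𝔫 : Kloc K q (under K M q 𝔫) →ₐ[K] Kloc M q 𝔫`;
* the index types `Pl K` of places, `Pl.under : Pl M → Pl K`, and `Pl.ne_iff`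
  (the side condition of `Blocks3.NoSingleSupport` is `P ≠ P₀` in `Pl K`).
-/
import Fermat.Agent.S55.Global.Blocks3

set_option autoImplicit false
set_option linter.unusedSectionVars false

open NumberField IsDedekindDomain TensorProduct

namespace Fermat.Agent.S55.Global.RecipPlaces

open Fermat.Agent.S55.Global.Objects Fermat.Agent.S55.Global.Objects2
  Fermat.Agent.S55.Global.Blocks3

section semi

variable (K : Type) [Field K] [NumberField K]

theorem isArtinianRing_Ksemi (q : Nat.Primes) : IsArtinianRing (Ksemi K q) := by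
  have h1 : IsArtinianRing (ℚ_[((q : Nat.Primes) : ℕ)] ⊗[ℚ] K) := by
    have : Module.Finite ℚ_[((q : Nat.Primes) : ℕ)] (ℚ_[((q : Nat.Primes) : ℕ)] ⊗[ℚ] K) :=
      inferInstance
    exact IsArtinianRing.of_finite ℚ_[((q : Nat.Primes) : ℕ)] _
  exact (Algebra.TensorProduct.comm ℚ ℚ_[((q : Nat.Primes) : ℕ)] K).toRingEquiv.surjective.isArtinianRing

variable (M : Type) [Field M] [NumberField M] [Algebra K M]

/-- `K ⊗[ℚ] ℚ_[q] → M ⊗[ℚ] ℚ_[q]`. -/
noncomputable def semiMap (q : Nat.Primes) : Ksemi K q →ₐ[K] Ksemi M q :=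
  Algebra.TensorProduct.map (Algebra.ofId K M) (AlgHom.id ℚ ℚ_[((q : Nat.Primes) : ℕ)])

@[simp] theorem semiMap_tmul (q : Nat.Primes) (x : K) (c : ℚ_[((q : Nat.Primes) : ℕ)]) :
    semiMap K M q (x ⊗ₜ[ℚ] c) = algebraMap K M x ⊗ₜ[ℚ] c := rfl

/-- The place of `K` below a place of `M`. -/
noncomputable def under (q : Nat.Primes) (𝔫 : Ideal (Ksemi M q)) : Ideal (Ksemi K q) :=
  𝔫.comap (semiMap K M q)

instance under_isMaximal (q : Nat.Primes) (𝔫 : Ideal (Ksemi M q)) [h : 𝔫.IsMaximal] :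
    (under K M q 𝔫).IsMaximal := by
  haveI := isArtinianRing_Ksemi K q
  haveI : (under K M q 𝔫).IsPrime := Ideal.comap_isPrime (semiMap K M q) 𝔫
  exact IsArtinianRing.isMaximal_of_isPrime (under K M q 𝔫)

/-- `K_𝔪 → M_𝔫` for `𝔪` the place below `𝔫`. -/
noncomputable def klocMap (q : Nat.Primes) (𝔫 : Ideal (Ksemi M q)) :
    Kloc K q (under K M q 𝔫) →ₐ[K] Kloc M q 𝔫 :=
  Ideal.quotientMapₐ 𝔫 (semiMap K M q) (le_refl _)

end semi

section Pl

variable (K : Type) [Field K] [NumberField K]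

/-- The places of `K`: pairs (rational prime `q`, maximal ideal of `K ⊗[ℚ] ℚ_[q]`). -/
def Pl : Type := Σ q : Nat.Primes, {𝔪 : Ideal (Ksemi K q) // 𝔪.IsMaximal}

variable {K}

theorem Pl.ne_iff {q₀ : Nat.Primes} {𝔪₀ : Ideal (Ksemi K q₀)} (h₀ : 𝔪₀.IsMaximal)
    {q : Nat.Primes} {𝔪 : Ideal (Ksemi K q)} (h : 𝔪.IsMaximal) :
    (⟨q, ⟨𝔪, h⟩⟩ : Pl K) ≠ ⟨q₀, ⟨𝔪₀, h₀⟩⟩ ↔ ¬ (∃ e : q = q₀, e ▸ 𝔪 = 𝔪₀) := by
  constructor
  · rintro hne ⟨e, he⟩
    subst e
    subst he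
    exact hne rfl
  · intro hne heq
    apply hne
    have h1 : q = q₀ := congrArg Sigma.fst heq
    subst h1
    refine ⟨rfl, ?_⟩
    have h2 := eq_of_heq (Sigma.mk.inj heq).2
    exact congrArg Subtype.val h2

variable (K) (M : Type) [Field M] [NumberField M] [Algebra K M]

/-- The place of `K` below a place of `M`. -/
noncomputable def Pl.under (Q : Pl M) : Pl K :=
  ⟨Q.1, ⟨RecipPlaces.under K M Q.1 Q.2.1, @under_isMaximal K _ _ M _ _ _ Q.1 Q.2.1 Q.2.2⟩⟩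

end Pl

end Fermat.Agent.S55.Global.RecipPlaces
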