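/-
S55 / Global / G.recip — R.asm (helper46): **(G-iv) `Blocks3.NoSingleSupport p`**, assembled.

  `noSingleSupport : HasseH2 p → Local.Blocks.H2Cyclic → AuxPackage p → NoSingleSupport p`

* `HasseH2 p` (Blocks3; consequence of (G-i)) is applied to `N/M`;
* `Local.Blocks.H2Cyclic` (Local block) gives that the local `H²` is cyclic (`RecipContain`);
* `AuxPackage p` packages the number theory of the auxiliary cyclic cyclotomic field `M/K`
  (row R.aux: `RecipCyclo` + `RecipApprox` + `RecipUnramFwd/Bwd` + `AuxUnram`).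

Route: `x ∈ H²(Gal(L/K), Lˣ)` locally trivial off `P₀`; `N = L M`;
`res_{N/M} (inf x)` is locally trivial everywhere (`RecipContain.contain` at the places over `P₀`,
`RecipDefs.inflJRep_comp_lRes`), hence `0` by Hasse; so `inf x = inf y` with
`y ∈ H²(Gal(M/K), Mˣ)` (`RecipInfResGal.gInf_exact`); `y` is locally trivial off `P₀` (local inflation
is injective), hence at `P₀` (cyclic case), hence so is `x`.  The chase is `RecipChase.chase`.
-/
import Fermat.Agent.S55.Global.RecipDefs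
import Fermat.Agent.S55.Global.RecipChase
import Fermat.Agent.S55.Global.RecipPlaces
import Fermat.Agent.S55.Global.RecipInfRes
import Fermat.Agent.S55.Global.RecipInfResGal
import Fermat.Agent.S55.Global.RecipCompositum
import Fermat.Agent.S55.Global.RecipContain
import Fermat.Agent.S55.Global.RecipCycGlue
import Fermat.Agent.S55.Global.Objects4
import Fermat.Agent.S55.Local.Blocks

set_option autoImplicit false
set_option linter.unusedSectionVars false
set_option linter.style.haveILetI false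

open NumberField IsDedekindDomain TensorProduct CategoryTheory

namespace Fermat.Agent.S55.Global.RecipAsm

open Fermat.Agent.S55.Global.Objects Fermat.Agent.S55.Global.Objects2
  Fermat.Agent.S55.Global.Objects3 Fermat.Agent.S55.Global.Blocks3
  Fermat.Agent.S55.Global.Objects4
  Fermat.Agent.S55.Global.Transition Fermat.Agent.S55.Global.RecipDefs
  Fermat.Agent.S55.Global.RecipPlaces

/-- **The auxiliary cyclic extension** (number-theoretic input of (G-iv)). -/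
def AuxPackage (p : ℕ) : Prop :=
  ∀ (K : Type) [Field K] [NumberField K], p.Prime → p ≠ 2 → (∃ ζ : K, IsPrimitiveRoot ζ p) →
  ∀ (q₀ : Nat.Primes) (𝔪₀ : Ideal (Ksemi K q₀)), 𝔪₀.IsMaximal → ∀ n : ℕ,
  ∃ (M : Type) (_ : Field M) (_ : NumberField M) (_ : Algebra K M) (_ : IsGalois K M),
    IsCyclic (M ≃ₐ[K] M) ∧ (∃ j : ℕ, Module.finrank K M = p ^ j) ∧
    (∀ b : Kˣ, (∀ (q : Nat.Primes) (𝔪 : Ideal (Ksemi K q)), 𝔪.IsMaximal →
        ¬ (∃ h : q = q₀, h ▸ 𝔪 = 𝔪₀) → IsLocalNormAt K M q 𝔪 b) → IsLocalNormAt K M q₀ 𝔪₀ b) ∧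
    (∃ b₀ : Kˣ, ∀ k : ℕ, IsLocalNormAt K M q₀ 𝔪₀ (b₀ ^ k) → p ^ n ∣ k)

theorem infResStmt : RecipInfResGal.InfResStmt :=
  fun π hπ A B f hf hr h1 => RecipInfRes.infRes_of_surjective π hπ A B f hf hr h1

/-! ### R.asm -/

theorem noSingleSupport (p : ℕ) (hH : HasseH2 p) (hcyc : Local.Blocks.H2Cyclic)
    (haux : AuxPackage p) : NoSingleSupport p := by
  intro K L _ _ _ _ _ _ hp hp2 hζ hn x q₀ 𝔪₀ h𝔪₀ hx
  obtain ⟨n, hn⟩ := hn
  obtain ⟨M, _, _, _, _, hMcyc, ⟨j, hj⟩, hnorm, b₀, hb₀⟩ := haux K hp hp2 hζ q₀ 𝔪₀ h𝔪₀ n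
  obtain ⟨N, _, _, _, _, _, _, hfin, hgal, hdvd⟩ := RecipCompositum.exists_compositum K L M
  haveI : NumberField N := NumberField.of_module_finite K N
  -- degrees
  have hLcard : Module.finrank K L = p ^ n := hn
  have hMN : ∃ i : ℕ, Module.finrank M N = p ^ i := by
    have h1 : Module.finrank K M * Module.finrank M N = Module.finrank K N :=
      Module.finrank_mul_finrank K M N
    have h2 : Module.finrank M N ∣ p ^ (n + j) := by
      have : Module.finrank M N ∣ Module.finrank K N := ⟨Module.finrank K M, by rw [← h1, mul_comm]⟩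
      refine this.trans ?_
      rw [pow_add, ← hLcard, ← hj]
      exact hdvd
    obtain ⟨i, _, hi⟩ := (Nat.dvd_prime_pow hp).1 h2
    exact ⟨i, hi⟩
  have hζM : ∃ ζ : M, IsPrimitiveRoot ζ p := by
    obtain ⟨ζ, hζ⟩ := hζ
    exact ⟨algebraMap K M ζ, hζ.map_of_injective (algebraMap K M).injective⟩
  haveI : IsGalois M N := IsGalois.tower_top_of_isGalois K M N
  obtain ⟨cl, hclsurj, hcl⟩ := RecipCycGlue.locH_eq_zero_iff_isLocalNormAt K M
  -- the chase
  let P₀ : Pl K := ⟨q₀, ⟨𝔪₀, h𝔪₀⟩⟩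
  have key := RecipChase.chase (PK := Pl K) (PM := Pl M) (Pl.under K M) P₀
    (XL := groupCohomology (Rep.ofAlgebraAutOnUnits K L) 2)
    (XM := groupCohomology (Rep.ofAlgebraAutOnUnits K M) 2)
    (XN := groupCohomology (Rep.ofAlgebraAutOnUnits K N) 2)
    (XNM := groupCohomology (Rep.ofAlgebraAutOnUnits M N) 2)
    (YL := fun P => groupCohomology (JRep K L (Kloc K P.1 P.2.1)) 2)
    (YM := fun P => groupCohomology (JRep K M (Kloc K P.1 P.2.1)) 2)
    (YN := fun P => groupCohomology (JRep K N (Kloc K P.1 P.2.1)) 2)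
    (YNM := fun Q => groupCohomology (JRep M N (Kloc M Q.1 Q.2.1)) 2)
    (fun x => gInf K L N 2 x) (fun y => gInf K M N 2 y) (fun z => gRes K M N 2 z)
    (fun P x => locH K L (Kloc K P.1 P.2.1) 2 x) (fun P y => locH K M (Kloc K P.1 P.2.1) 2 y)
    (fun P z => locH K N (Kloc K P.1 P.2.1) 2 z) (fun Q w => locH M N (Kloc M Q.1 Q.2.1) 2 w)
    (fun P a => inflJRep K L N (Kloc K P.1 P.2.1) 2 a)
    (fun P a => inflJRep K M N (Kloc K P.1 P.2.1) 2 a)
    (fun Q a => lRes K M N (Kloc K Q.1 (under K M Q.1 Q.2.1)) (Kloc M Q.1 Q.2.1)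
      (klocMap K M Q.1 Q.2.1) 2 a)
  haveI : 𝔪₀.IsMaximal := h𝔪₀
  refine key (fun P => map_zero _) (fun P => map_zero _) (fun Q => map_zero _) ?_ ?_ ?_ ?_ ?_ ?_ ?_
    ?_ ?_ ?_ x ?_
  · -- sqL
    intro P x
    exact (ConcreteCategory.congr_hom (gInf_comp_locH K L N (Kloc K P.1 P.2.1) 2) x).symm
  · -- sqM
    intro P y
    exact (ConcreteCategory.congr_hom (gInf_comp_locH K M N (Kloc K P.1 P.2.1) 2) y).symm
  · -- sqR
    intro Q z
    exact (ConcreteCategory.congr_hom (gRes_comp_locH K M N (Kloc K Q.1 (under K M Q.1 Q.2.1))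
      (Kloc M Q.1 Q.2.1) (klocMap K M Q.1 Q.2.1) 2) z).symm
  · -- zero
    intro Q y
    exact ConcreteCategory.congr_hom (inflJRep_comp_lRes K M N (Kloc K Q.1 (under K M Q.1 Q.2.1))
      (Kloc M Q.1 Q.2.1) (klocMap K M Q.1 Q.2.1) 1) y
  · -- exact
    intro z hz
    exact RecipInfResGal.gInf_exact infResStmt z hz
  · -- hasse
    intro w hw
    exact hH M N hp hp2 hζM hMN w (fun q 𝔫 h𝔫 => hw ⟨q, ⟨𝔫, h𝔫⟩⟩)
  · -- linjL
    intro a ha
    have hF : IsField (Kloc K q₀ 𝔪₀) := (Ideal.Quotient.maximal_ideal_iff_isField_quotient 𝔪₀).1 h𝔪₀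
    exact RecipInfResGal.inflJRep_injective (K := K) (E := L) (N := N) infResStmt (Kloc K q₀ 𝔪₀) hF
      (ha.trans (map_zero _).symm)
  · -- linjM
    intro P _ a ha
    have hF : IsField (Kloc K P.1 P.2.1) :=
      (Ideal.Quotient.maximal_ideal_iff_isField_quotient P.2.1).1 P.2.2
    exact RecipInfResGal.inflJRep_injective (K := K) (E := M) (N := N) infResStmt (Kloc K P.1 P.2.1) hF
      (ha.trans (map_zero _).symm)
  · -- contain
    intro a
    have hF : IsField (Kloc K q₀ 𝔪₀) := (Ideal.Quotient.maximal_ideal_iff_isField_quotient 𝔪₀).1 h𝔪₀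
    exact RecipContain.contain hcyc K L M N q₀ 𝔪₀ b₀ (fun k hk => hLcard ▸ hb₀ k hk)
      (RecipInfResGal.inflJRep_injective (K := K) (E := M) (N := N) infResStmt (Kloc K q₀ 𝔪₀) hF) a
  · -- cyclic
    intro y hy
    obtain ⟨b, rfl⟩ := hclsurj y
    refine (hcl b q₀ 𝔪₀).2 (hnorm b fun q 𝔪 h𝔪 hne => (hcl b q 𝔪).1 ?_)
    exact hy ⟨q, ⟨𝔪, h𝔪⟩⟩ ((Pl.ne_iff h𝔪₀ h𝔪).2 hne)
  · -- hx
    intro P hP
    exact hx P.1 P.2.1 P.2.2 ((Pl.ne_iff h𝔪₀ P.2.2).1 hP)

end Fermat.Agent.S55.Global.RecipAsm
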