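/-
S55 / Global / G.dec — ADAPTER `Kloc K q m → v.adicCompletion K` (helper71), the shape asked for by
helper44 (#1815 (C)) for `R.asm`:

* `exists_kloc_algHom v q hq` : for a prime `v` of `𝓞 K` above the rational prime `q` there is a
  maximal ideal `m` of `Ksemi K q = K ⊗[ℚ] ℚ_[q]` with `placeOfMax m = v` and a `K`-algebra
  isomorphism `Kloc K q m ≃ₐ[K] v.adicCompletion K` (in particular a `K`-algebra hom);
* `exists_place_algHom m` : conversely every maximal `m` has the place `v = placeOfMax m` above `q`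
  and a `K`-algebra isomorphism `Kloc K q m ≃ₐ[K] v.adicCompletion K`.

Proof: `m = ker (x ⊗ c ↦ e x * c)` for an embedding `e : K →+* PadicAlgCl q` with `place e = v`
(helper79 `CompletionCompare.exists_place_eq`), `Kloc = A ⧸ m ≅ ℚ_q(e K) ≅ K_v`
(`CompletionCompare.adicCompletionRingEquiv`).
-/
import Mathlib
import Fermat.Agent.S55.Global.PlaceBij
import Fermat.Agent.S55.Global.Blocks3

set_option autoImplicit false
set_option linter.unusedSectionVars false
set_option linter.style.haveILetI false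

namespace Fermat.Agent.S55.Global.PlaceKloc

open NumberField IsDedekindDomain
open scoped TensorProduct NumberField
open Fermat.Agent.S55.Global.PlaceBij Fermat.Agent.S55.Global.Blocks3
open Fermat.Agent.S55.Middle

section Emb

variable {q : ℕ} [Fact q.Prime] {K : Type*} [Field K] [NumberField K]
  (e : K →+* PadicAlgCl q)

theorem ofEmb_mem_localFieldOf (z : K ⊗[ℚ] ℚ_[q]) :
    ofEmb e z ∈ CompletionCompare.localFieldOf e := by
  induction z using TensorProduct.induction_on with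
  | zero => simp
  | tmul x c =>
    rw [ofEmb_tmul]
    exact mul_mem (CompletionCompare.map_mem_localFieldOf e x)
      ((CompletionCompare.localFieldOf e).algebraMap_mem c)
  | add a b ha hb =>
    rw [map_add]
    exact add_mem ha hb

/-- `ofEmb e` with codomain `ℚ_q(e K)`. -/
noncomputable def ofEmbL : K ⊗[ℚ] ℚ_[q] →+* CompletionCompare.localFieldOf e :=
  (ofEmb e).codRestrict (CompletionCompare.localFieldOf e).toSubring (ofEmb_mem_localFieldOf e)

theorem coe_ofEmbL (z : K ⊗[ℚ] ℚ_[q]) :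
    ((ofEmbL e z : CompletionCompare.localFieldOf e) : PadicAlgCl q) = ofEmb e z := rfl

theorem ker_ofEmbL : RingHom.ker (ofEmbL e) = RingHom.ker (ofEmb e) := by
  ext z
  rw [RingHom.mem_ker, RingHom.mem_ker, ← coe_ofEmbL]
  constructor
  · intro h; rw [h]; rfl
  · intro h; exact Subtype.ext h

/-- `ofEmbL e` is onto `ℚ_q(e K)`: its range is a subfield containing `ℚ_q` and `e K`. -/
theorem ofEmbL_surjective : Function.Surjective (ofEmbL e) := by
  -- the range of `ofEmb e` as a `ℚ_[q]`-subalgebra of `PadicAlgCl q`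
  let S : Subalgebra ℚ_[q] (PadicAlgCl q) :=
    { (ofEmb e).range.toSubsemiring with
      algebraMap_mem' := fun c => ⟨(1 : K) ⊗ₜ[ℚ] c, ofEmb_one_tmul e c⟩ }
  have hS : ∀ y, y ∈ S ↔ ∃ z, ofEmb e z = y := fun y => Iff.rfl
  -- algebraic over a field ⇒ the subalgebra is a field
  have hfield : IsField S := by
    have : Algebra.IsAlgebraic ℚ_[q] S := Algebra.IsAlgebraic.of_injective S.val Subtype.val_injective
    have : Algebra.IsIntegral ℚ_[q] S := Algebra.IsAlgebraic.isIntegral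
    exact isField_of_isIntegral_of_isField' (R := ℚ_[q]) (S := S) (Field.toIsField ℚ_[q])
  let F : IntermediateField ℚ_[q] (PadicAlgCl q) := S.toIntermediateField' hfield
  have hle : CompletionCompare.localFieldOf e ≤ F := by
    unfold CompletionCompare.localFieldOf
    rw [IntermediateField.adjoin_le_iff]
    rintro _ ⟨x, rfl⟩
    change e x ∈ S
    rw [hS]
    exact ⟨x ⊗ₜ[ℚ] (1 : ℚ_[q]), by rw [ofEmb_tmul, map_one, mul_one]⟩
  intro y
  have hy : (y : PadicAlgCl q) ∈ S := hle y.2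
  obtain ⟨z, hz⟩ := (hS _).mp hy
  exact ⟨z, Subtype.ext hz⟩

end Emb

section Main

variable (K : Type) [Field K] [NumberField K] (q : Nat.Primes)

/-- the `K`-algebra isomorphism `Kloc K q (ker) ≃ₐ[K] (place e).adicCompletion K`. -/
noncomputable def klocEquiv (e : K →+* PadicAlgCl ((q : Nat.Primes) : ℕ)) :
    Kloc K q (RingHom.ker (ofEmb e)) ≃ₐ[K] (CompletionCompare.place e).adicCompletion K :=
  let f1 : (Ksemi K q ⧸ RingHom.ker (ofEmbL e)) ≃+* CompletionCompare.localFieldOf e :=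
    RingHom.quotientKerEquivOfSurjective (ofEmbL_surjective e)
  let f0 : (Ksemi K q ⧸ RingHom.ker (ofEmb e)) ≃+* (Ksemi K q ⧸ RingHom.ker (ofEmbL e)) :=
    Ideal.quotEquivOfEq (ker_ofEmbL e).symm
  let f : Kloc K q (RingHom.ker (ofEmb e)) ≃+* (CompletionCompare.place e).adicCompletion K :=
    (f0.trans f1).trans (CompletionCompare.adicCompletionRingEquiv e).symm
  AlgEquiv.ofRingEquiv (f := f) (fun x => by
    change (CompletionCompare.adicCompletionRingEquiv e).symm
      (f1 (f0 (Ideal.Quotient.mk _ (x ⊗ₜ[ℚ] (1 : ℚ_[((q : Nat.Primes) : ℕ)])))) ) = _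
    rw [RingEquiv.symm_apply_eq, CompletionCompare.adicCompletionRingEquiv_algebraMap]
    apply Subtype.ext
    change ofEmb e (x ⊗ₜ[ℚ] (1 : ℚ_[((q : Nat.Primes) : ℕ)])) = e x
    rw [ofEmb_tmul, map_one, mul_one])

/-- **Adapter** (helper44 #1815 (C)): every prime `v` of `𝓞 K` above `q` is the place of a maximal
ideal `m` of `Ksemi K q`, and `Kloc K q m ≃ₐ[K] v.adicCompletion K`. -/
theorem exists_kloc_algEquiv (v : HeightOneSpectrum (𝓞 K))
    (hq : (((q : Nat.Primes) : ℕ) : 𝓞 K) ∈ v.asIdeal) :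
    ∃ (m : Ideal (Ksemi K q)) (hm : m.IsMaximal),
      @placeOfMax _ _ K _ _ m hm = v ∧ Nonempty (Kloc K q m ≃ₐ[K] v.adicCompletion K) := by
  let i : K →+* AlgebraicClosure ℚ := (IsAlgClosed.lift : K →ₐ[ℚ] AlgebraicClosure ℚ).toRingHom
  obtain ⟨g, rfl⟩ := CompletionCompare.exists_place_eq (q := ((q : Nat.Primes) : ℕ)) i v hq
  set e : K →+* PadicAlgCl ((q : Nat.Primes) : ℕ) :=
    ((padicEmbedding ((q : Nat.Primes) : ℕ)).toRingHom.comp
      (g : AlgebraicClosure ℚ →+* AlgebraicClosure ℚ)).comp i with he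
  refine ⟨RingHom.ker (ofEmb e), ker_ofEmb_isMaximal e, ?_, ⟨klocEquiv K q e⟩⟩
  haveI := ker_ofEmb_isMaximal e
  rw [← placeOf_eq_placeOfMax (RingHom.ker (ofEmb e)) (ofEmb e) (ofEmb_one_tmul e) rfl,
    placeOf_ofEmb]

theorem exists_kloc_algHom (v : HeightOneSpectrum (𝓞 K))
    (hq : (((q : Nat.Primes) : ℕ) : 𝓞 K) ∈ v.asIdeal) :
    ∃ (m : Ideal (Ksemi K q)) (_ : m.IsMaximal), Nonempty (Kloc K q m →ₐ[K] v.adicCompletion K) := by
  obtain ⟨m, hm, -, ⟨f⟩⟩ := exists_kloc_algEquiv K q v hq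
  exact ⟨m, hm, ⟨f.toAlgHom⟩⟩

/-- Conversely: every maximal ideal `m` of `Ksemi K q` is the place of `v := placeOfMax m` (a prime
above `q`) and `Kloc K q m ≃ₐ[K] v.adicCompletion K`. -/
theorem exists_place_algEquiv (m : Ideal (Ksemi K q)) [hm : m.IsMaximal] :
    (((q : Nat.Primes) : ℕ) : 𝓞 K) ∈ (placeOfMax m).asIdeal ∧
      Nonempty (Kloc K q m ≃ₐ[K] (placeOfMax m).adicCompletion K) := by
  refine ⟨natCast_mem_placeOfMax m, ?_⟩
  obtain ⟨m', hm', hpl, ⟨f⟩⟩ := exists_kloc_algEquiv K q (placeOfMax m) (natCast_mem_placeOfMax m)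
  have : m' = m := placeOfMax_injective m' m hpl
  subst this
  exact ⟨f⟩

end Main

end Fermat.Agent.S55.Global.PlaceKloc
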