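/-
S55 / Global / G.recip — R.cyclo (helper46): ART-FREE form of `RecipCore.single_support`.

For a Galois extension `L/F` of number fields inside the `m`-cyclotomic extension `C/F`
(`F` totally complex), unramified outside `m` (inertia-group form, as `S14.Unram` /
`Blocks.Admissible.ram`), the Artin map away from `m` exists (`artFn`, built from the frozen
`S14.BlockDProof.artOf`), so the no-single-support theorem can be stated purely in terms of
residue degrees:

* `isArtinAway_artFn` : `IsArtinAway m (artFn F L)`;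
* `single_support_inertiaDeg` : if `b = c/d`, `f_v ∣ v(b)` for all primes `v ≠ v₀` not over `m`,
  and `b` is `≡ 1 mod m` up to a global norm from `L`, then `f_{v₀} ∣ v₀(b)`.
-/
import Fermat.Agent.S55.Global.RecipCore
import Fermat.Agent.S14.BlockDProof

set_option autoImplicit false
set_option linter.unusedSectionVars false
set_option linter.style.haveILetI false
set_option linter.unusedVariables false

open NumberField nonZeroDivisors UniqueFactorizationMonoid

namespace Fermat.Agent.S55.Global.RecipCyclo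

open Fermat.Agent.S14 Fermat.Agent.S14.CycloFrob Fermat.Agent.S55.Global.RecipCore

section

variable (F L : Type*) [Field F] [NumberField F] [Field L] [NumberField L] [Algebra F L]
  [IsGalois F L] [IsMulCommutative (L ≃ₐ[F] L)]

open Classical in
/-- The Artin map of an abelian extension in function form (junk value `1` at `⊥`). -/
noncomputable def artFn (I : Ideal (𝓞 F)) : L ≃ₐ[F] L :=
  if h : I ≠ ⊥ then BlockDProof.artOf F L ⟨I, mem_nonZeroDivisors_of_ne_zero h⟩ else 1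

theorem artFn_of_ne_bot {I : Ideal (𝓞 F)} (h : I ≠ ⊥) :
    artFn F L I = BlockDProof.artOf F L ⟨I, mem_nonZeroDivisors_of_ne_zero h⟩ := by
  simp only [artFn, dif_pos h]

/-- `artFn` is an Artin map away from `m` as soon as `L/F` is unramified outside `m`. -/
theorem isArtinAway_artFn (m : ℕ)
    (hunr : ∀ (P : Ideal (𝓞 L)), P.IsPrime → P ≠ ⊥ → (m : 𝓞 L) ∉ P →
      ∀ σ : L ≃ₐ[F] L, σ ∈ P.inertia (L ≃ₐ[F] L) → σ = 1) :
    IsArtinAway m (artFn F L) := by
  refine ⟨?_, ?_, ?_, hunr⟩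
  · rw [artFn_of_ne_bot F L top_ne_bot]
    have : (⟨⊤, mem_nonZeroDivisors_of_ne_zero top_ne_bot⟩ : (Ideal (𝓞 F))⁰) = 1 := by
      ext1
      exact Ideal.one_eq_top.symm
    rw [this, map_one]
  · intro I J hI hJ
    have hIJ : I * J ≠ ⊥ := mul_ne_zero hI hJ
    rw [artFn_of_ne_bot F L hIJ, artFn_of_ne_bot F L hI, artFn_of_ne_bot F L hJ, ← map_mul]
    rfl
  · intro v hv hv0 _ P hP hPv
    rw [artFn_of_ne_bot F L hv0]
    exact (BlockDProof.isArtinMap_artOf F L).frob ⟨v, mem_nonZeroDivisors_of_ne_zero hv0⟩ P hv hP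
      ⟨hPv.symm⟩

end

section Main

variable {F L C : Type*} [Field F] [NumberField F] [Field L] [NumberField L] [Field C]
  [NumberField C] [Algebra F L] [Algebra F C] [Algebra L C] [IsScalarTower F L C]
  [IsGalois F L] [IsGalois F C]

/-- **No single support, residue-degree form.**  `F` totally complex, `L/F` Galois inside the
`m`-cyclotomic extension `C/F`, unramified outside `m`; `v₀` a prime of `F` not over `m`;
`b = c / d`.  If `f_v ∣ v(b)` for every prime `v ≠ v₀` not over `m` and `b ≡ 1 mod m` up to a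
global norm from `L`, then `f_{v₀} ∣ v₀(b)`. -/
theorem single_support_inertiaDeg {m : ℕ} [IsTotallyComplex F] [IsCyclotomicExtension {m} F C]
    (hunr : ∀ (P : Ideal (𝓞 L)), P.IsPrime → P ≠ ⊥ → (m : 𝓞 L) ∉ P →
      ∀ σ : L ≃ₐ[F] L, σ ∈ P.inertia (L ≃ₐ[F] L) → σ = 1)
    (v₀ : Ideal (𝓞 F)) (hv₀ : v₀.IsPrime) (hv₀0 : v₀ ≠ ⊥) (hv₀m : (m : 𝓞 F) ∉ v₀)
    (c d : 𝓞 F) (hc : c ≠ 0) (hd : d ≠ 0)
    (H1 : ∀ v : Ideal (𝓞 F), v.IsPrime → v ≠ ⊥ → v ≠ v₀ → (m : 𝓞 F) ∉ v →
      ∃ P : Ideal (𝓞 L), P.IsPrime ∧ P.under (𝓞 F) = v ∧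
        ((P.inertiaDeg (𝓞 F) : ℕ) : ℤ) ∣ ((normalizedFactors (Ideal.span {c})).count v : ℤ) -
          ((normalizedFactors (Ideal.span {d})).count v : ℤ))
    (H2 : ∃ (y z : 𝓞 L) (c' d' : 𝓞 F), y ≠ 0 ∧ z ≠ 0 ∧ d' ≠ 0 ∧
      IsCoprime (Ideal.span {d'}) (Ideal.span {(m : 𝓞 F)}) ∧
      c' - d' ∈ Ideal.span {(m : 𝓞 F)} ∧
      c * Algebra.intNorm (𝓞 F) (𝓞 L) z * d' = c' * d * Algebra.intNorm (𝓞 F) (𝓞 L) y)
    (P₀ : Ideal (𝓞 L)) (hP₀ : P₀.IsPrime) (hP₀v : P₀.under (𝓞 F) = v₀) :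
    ((P₀.inertiaDeg (𝓞 F) : ℕ) : ℤ) ∣ ((normalizedFactors (Ideal.span {c})).count v₀ : ℤ) -
        ((normalizedFactors (Ideal.span {d})).count v₀ : ℤ) := by
  haveI : IsAbelianGalois F C := IsCyclotomicExtension.isAbelianGalois {m} F C
  haveI : IsAbelianGalois F L := IsAbelianGalois.tower_bot F L C
  have hA : IsArtinAway m (artFn F L) := isArtinAway_artFn F L m hunr
  rw [← orderOf_art_eq_inertiaDeg hA v₀ hv₀ hv₀0 hv₀m P₀ hP₀ hP₀v]
  refine single_support (C := C) hA v₀ hv₀ hv₀0 hv₀m c d hc hd (fun v hv hv0 hvne hvm => ?_) H2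
  obtain ⟨P, hP, hPv, hdvd⟩ := H1 v hv hv0 hvne hvm
  rw [orderOf_art_eq_inertiaDeg hA v hv hv0 hvm P hP hPv]
  exact hdvd

end Main

end Fermat.Agent.S55.Global.RecipCyclo
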