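import Mathlib

/-!
# S55 / Global: weak approximation for finitely many finite places (Mathlib `adicCompletion`)

`R` a Dedekind domain with fraction field `K`, `T` a finite set of height-one primes.

* `exists_valuation_sub_lt` : elements `y v : K` can be simultaneously approximated by one `a : K`
  (Chinese remainder theorem);
* `exists_valued_sub_lt` : the same for `x v : v.adicCompletion K` (density of `K` in each
  completion);
* `exists_unit_valued_div_sub_one_lt` : multiplicative version, `x v ≠ 0`:
  there is `a : Kˣ` with `Valued.v (a / x v - 1) < γ v`, i.e. `a / x v` is a principal unit of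
  level `γ v`;
* `denseRange_diagonal` : `K` is dense in `∏_{v ∈ T} K_v`.
-/

set_option autoImplicit false

namespace Fermat.Agent.S55.Global.WeakApprox

open IsDedekindDomain HeightOneSpectrum WithZero

variable {R : Type*} [CommRing R] [IsDedekindDomain R] {K : Type*} [Field K] [Algebra R K]
  [IsFractionRing R K]

/-- every nonzero element of `ℤᵐ⁰` is strictly above some `exp (-e)`, `e : ℕ`. -/
lemma exists_exp_neg_lt {γ : WithZero (Multiplicative ℤ)} (hγ : γ ≠ 0) :
    ∃ e : ℕ, exp (-(e : ℤ)) < γ := by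
  obtain ⟨k, rfl⟩ : ∃ k : ℤ, γ = exp k := ⟨log γ, (exp_log hγ).symm⟩
  refine ⟨(1 - k).toNat, ?_⟩
  rw [exp_lt_exp]
  have := Int.self_le_toNat (1 - k)
  omega

/-- **Weak approximation in `K`** (Chinese remainder theorem). -/
theorem exists_valuation_sub_lt (T : Finset (HeightOneSpectrum R))
    (y : HeightOneSpectrum R → K) (γ : HeightOneSpectrum R → WithZero (Multiplicative ℤ))
    (hγ : ∀ v ∈ T, γ v ≠ 0) :
    ∃ a : K, ∀ v ∈ T, v.valuation K (a - y v) < γ v := by
  classical
  -- common denominator
  obtain ⟨s, hs⟩ := IsLocalization.exist_integer_multiples_of_finset (nonZeroDivisors R)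
    (T.image y)
  have hs0 : (algebraMap R K (s : R)) ≠ 0 := by
    have := nonZeroDivisors.coe_ne_zero s
    simp
  have hb : ∀ v ∈ T, ∃ b : R, algebraMap R K b = (s : R) • y v := fun v hv =>
    hs (y v) (Finset.mem_image_of_mem y hv)
  choose! b hb using hb
  -- exponents
  have he : ∀ v ∈ T, ∃ e : ℕ, exp (-(e : ℤ)) < γ v * v.valuation K (algebraMap R K (s : R)) :=
    fun v hv => exists_exp_neg_lt (mul_ne_zero (hγ v hv) (by
      rw [ne_eq, map_eq_zero]; exact hs0))
  choose! e he using he
  obtain ⟨c, hc⟩ := IsDedekindDomain.exists_forall_sub_mem_ideal (s := T)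
    (fun v => v.asIdeal) e (fun v _ => v.prime) (fun v _ w _ hvw h => hvw (HeightOneSpectrum.ext h))
    (fun v => b v)
  refine ⟨algebraMap R K c / algebraMap R K (s : R), fun v hv => ?_⟩
  have h1 : algebraMap R K c / algebraMap R K (s : R) - y v =
      algebraMap R K (c - b v) / algebraMap R K (s : R) := by
    rw [map_sub, hb v hv, Algebra.smul_def]
    field_simp
  rw [h1, map_div₀]
  have h2 : v.valuation K (algebraMap R K (c - b v)) ≤ exp (-(e v : ℤ)) := by
    rw [valuation_of_algebraMap, intValuation_le_pow_iff_dvd, Ideal.dvd_span_singleton]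
    exact hc v hv
  have hpos : 0 < v.valuation K (algebraMap R K (s : R)) := by
    rw [zero_lt_iff, ne_eq, map_eq_zero]; exact hs0
  rw [div_lt_iff₀ hpos]
  exact lt_of_le_of_lt h2 (he v hv)


/-- an open ball of nonzero radius `Valued.v t` around `x` is a neighbourhood of `x`. -/
lemma ball_mem_nhds (v : HeightOneSpectrum R) (x t : v.adicCompletion K) (ht : t ≠ 0) :
    {z : v.adicCompletion K | Valued.v (z - x) < Valued.v t} ∈ nhds x := by
  rw [Valued.mem_nhds]
  have h' : (Valued.v : Valuation (v.adicCompletion K) _).restrict t ≠ 0 := by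
    simp [ht]
  refine ⟨Units.mk0 _ h', fun z hz => ?_⟩
  rw [Units.val_mk0] at hz
  exact (Valued.v : Valuation (v.adicCompletion K) _).restrict_lt_iff.mp hz

/-- density of `K` in one completion, in valuation form. -/
lemma exists_valued_sub_lt_single (v : HeightOneSpectrum R) (x : v.adicCompletion K)
    {γ : WithZero (Multiplicative ℤ)} (hγ : γ ≠ 0) :
    ∃ y : K, Valued.v (x - (algebraMap K (v.adicCompletion K) y)) < γ := by
  obtain ⟨e, he⟩ := exists_exp_neg_lt hγ
  obtain ⟨π, hπ⟩ := v.valuation_exists_uniformizer K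
  set t : v.adicCompletion K := algebraMap K (v.adicCompletion K) (π ^ e) with ht
  have hvt : Valued.v t = exp (-(e : ℤ)) := by
    have : Valued.v t = v.valuation K (π ^ e) := valuedAdicCompletion_eq_valuation' v (π ^ e)
    rw [this, map_pow, hπ, ← exp_nsmul]
    simp
  have ht0 : t ≠ 0 := by
    intro h
    rw [h, map_zero] at hvt
    exact exp_ne_zero hvt.symm
  obtain ⟨y, hy⟩ := (denseRange_algebraMap K v).mem_nhds (ball_mem_nhds v x t ht0)
  refine ⟨y, ?_⟩
  rw [← Valuation.map_neg, neg_sub]
  have hy' : Valued.v (algebraMap K (v.adicCompletion K) y - x) < Valued.v t := hy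
  rw [hvt] at hy'
  exact lt_trans hy' he

/-- **Weak approximation in the completions.** -/
theorem exists_valued_sub_lt (T : Finset (HeightOneSpectrum R))
    (x : ∀ v : HeightOneSpectrum R, v.adicCompletion K)
    (γ : HeightOneSpectrum R → WithZero (Multiplicative ℤ)) (hγ : ∀ v ∈ T, γ v ≠ 0) :
    ∃ a : K, ∀ v ∈ T, Valued.v (x v - algebraMap K (v.adicCompletion K) a) < γ v := by
  classical
  have hy : ∀ v ∈ T, ∃ y : K, Valued.v (x v - algebraMap K (v.adicCompletion K) y) < γ v :=
    fun v hv => exists_valued_sub_lt_single v (x v) (hγ v hv)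
  choose! y hy using hy
  obtain ⟨a, ha⟩ := exists_valuation_sub_lt T y γ hγ
  refine ⟨a, fun v hv => ?_⟩
  have h1 : x v - algebraMap K (v.adicCompletion K) a =
      (x v - algebraMap K (v.adicCompletion K) (y v)) -
        algebraMap K (v.adicCompletion K) (a - y v) := by
    rw [map_sub]; ring
  rw [h1]
  refine lt_of_le_of_lt (Valuation.map_sub _ _ _) (max_lt (hy v hv) ?_)
  have : Valued.v (algebraMap K (v.adicCompletion K) (a - y v)) = v.valuation K (a - y v) :=
    valuedAdicCompletion_eq_valuation' v (a - y v)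
  rw [this]
  exact ha v hv

/-- **Weak approximation, multiplicative form**: nonzero local elements `x v` (`v ∈ T`) are
simultaneously approximated by one global unit `a`, up to principal units of any prescribed level. -/
theorem exists_unit_valued_div_sub_one_lt (T : Finset (HeightOneSpectrum R))
    (x : ∀ v : HeightOneSpectrum R, v.adicCompletion K) (hx : ∀ v ∈ T, x v ≠ 0)
    (γ : HeightOneSpectrum R → WithZero (Multiplicative ℤ)) (hγ : ∀ v ∈ T, γ v ≠ 0) :
    ∃ a : Kˣ, ∀ v ∈ T,
      Valued.v (algebraMap K (v.adicCompletion K) (a : K) / x v - 1) < γ v ∧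
      Valued.v (algebraMap K (v.adicCompletion K) (a : K)) = Valued.v (x v) := by
  classical
  rcases T.eq_empty_or_nonempty with hT | ⟨v₀, hv₀⟩
  · exact ⟨1, fun v hv => by simp [hT] at hv⟩
  -- bounds `min (γ v) 1 * v (x v)`
  set δ : HeightOneSpectrum R → WithZero (Multiplicative ℤ) :=
    fun v => min (γ v) 1 * Valued.v (x v) with hδ
  have hδ0 : ∀ v ∈ T, δ v ≠ 0 := fun v hv => by
    refine mul_ne_zero ?_ (by rw [ne_eq, map_eq_zero]; exact hx v hv)
    rcases min_choice (γ v) 1 with h | h <;> rw [h]
    · exact hγ v hv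
    · exact one_ne_zero
  obtain ⟨a, ha⟩ := exists_valued_sub_lt T x δ hδ0
  have hval : ∀ v ∈ T, Valued.v (algebraMap K (v.adicCompletion K) a) = Valued.v (x v) := by
    intro v hv
    have hpos : 0 < Valued.v (x v) := by
      rw [zero_lt_iff, ne_eq, map_eq_zero]; exact hx v hv
    have h1 : Valued.v (x v - algebraMap K (v.adicCompletion K) a) < Valued.v (x v) := by
      refine lt_of_lt_of_le (ha v hv) ?_
      calc δ v ≤ 1 * Valued.v (x v) := by
            simp only [hδ]
            exact mul_le_mul_left (min_le_right _ _) _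
        _ = Valued.v (x v) := one_mul _
    have h2 : algebraMap K (v.adicCompletion K) a =
        x v - (x v - algebraMap K (v.adicCompletion K) a) := by ring
    rw [h2]
    exact Valuation.map_sub_eq_of_lt_left _ h1
  have ha0 : a ≠ 0 := by
    intro h
    have := hval v₀ hv₀
    rw [h, map_zero, map_zero] at this
    exact hx v₀ hv₀ ((map_eq_zero _).1 this.symm)
  refine ⟨Units.mk0 a ha0, fun v hv => ⟨?_, hval v hv⟩⟩
  have hxv := hx v hv
  have hpos : 0 < Valued.v (x v) := by
    rw [zero_lt_iff, ne_eq, map_eq_zero]; exact hxv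
  have h3 : algebraMap K (v.adicCompletion K) ((Units.mk0 a ha0 : Kˣ) : K) / x v - 1 =
      -(x v - algebraMap K (v.adicCompletion K) a) / x v := by
    rw [Units.val_mk0]
    field_simp
    ring
  rw [h3, map_div₀, Valuation.map_neg, div_lt_iff₀ hpos]
  refine lt_of_lt_of_le (ha v hv) ?_
  simp only [hδ]
  exact mul_le_mul_left (min_le_left _ _) _


/-- every neighbourhood of `x` contains an open ball of nonzero radius. -/
lemma exists_ball_subset (v : HeightOneSpectrum R) (x : v.adicCompletion K)
    {s : Set (v.adicCompletion K)} (hs : s ∈ nhds x) :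
    ∃ δ : WithZero (Multiplicative ℤ), δ ≠ 0 ∧
      {z : v.adicCompletion K | Valued.v (z - x) < δ} ⊆ s := by
  rw [Valued.mem_nhds] at hs
  obtain ⟨γ, hγ⟩ := hs
  refine ⟨MonoidWithZeroHom.ValueGroup₀.embedding γ.1, ?_, fun z hz => hγ ?_⟩
  · rw [ne_eq, map_eq_zero]
    exact γ.ne_zero
  · exact (Valued.v : Valuation (v.adicCompletion K) _).restrict_lt_iff_lt_embedding.mpr hz

/-- **Weak approximation, topological form.** -/
theorem exists_forall_mem_of_mem_nhds (T : Finset (HeightOneSpectrum R))
    (x : ∀ v : HeightOneSpectrum R, v.adicCompletion K)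
    (s : ∀ v : HeightOneSpectrum R, Set (v.adicCompletion K))
    (hs : ∀ v ∈ T, s v ∈ nhds (x v)) :
    ∃ a : K, ∀ v ∈ T, algebraMap K (v.adicCompletion K) a ∈ s v := by
  classical
  have h : ∀ v ∈ T, ∃ δ : WithZero (Multiplicative ℤ), δ ≠ 0 ∧
      {z : v.adicCompletion K | Valued.v (z - x v) < δ} ⊆ s v :=
    fun v hv => exists_ball_subset v (x v) (hs v hv)
  choose! δ hδ0 hδ using h
  obtain ⟨a, ha⟩ := exists_valued_sub_lt T x δ hδ0
  refine ⟨a, fun v hv => hδ v hv ?_⟩
  show Valued.v (algebraMap K (v.adicCompletion K) a - x v) < δ v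
  rw [← Valuation.map_neg, neg_sub]
  exact ha v hv

/-- **Weak approximation, topological form, for units**: if `x v ≠ 0` the approximating global
element can be taken a unit with `v (a) = v (x v)`. -/
theorem exists_unit_forall_mem_of_mem_nhds (T : Finset (HeightOneSpectrum R))
    (x : ∀ v : HeightOneSpectrum R, v.adicCompletion K) (hx : ∀ v ∈ T, x v ≠ 0)
    (s : ∀ v : HeightOneSpectrum R, Set (v.adicCompletion K))
    (hs : ∀ v ∈ T, s v ∈ nhds (x v)) :
    ∃ a : Kˣ, ∀ v ∈ T, algebraMap K (v.adicCompletion K) (a : K) ∈ s v ∧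
      Valued.v (algebraMap K (v.adicCompletion K) (a : K)) = Valued.v (x v) := by
  classical
  have h : ∀ v ∈ T, ∃ δ : WithZero (Multiplicative ℤ), δ ≠ 0 ∧
      {z : v.adicCompletion K | Valued.v (z - x v) < δ} ⊆ s v :=
    fun v hv => exists_ball_subset v (x v) (hs v hv)
  choose! δ hδ0 hδ using h
  -- relative radii
  set γ : HeightOneSpectrum R → WithZero (Multiplicative ℤ) :=
    fun v => δ v / Valued.v (x v) with hγ
  have hγ0 : ∀ v ∈ T, γ v ≠ 0 := fun v hv =>
    div_ne_zero (hδ0 v hv) (by rw [ne_eq, map_eq_zero]; exact hx v hv)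
  obtain ⟨a, ha⟩ := exists_unit_valued_div_sub_one_lt T x hx γ hγ0
  refine ⟨a, fun v hv => ⟨hδ v hv ?_, (ha v hv).2⟩⟩
  show Valued.v (algebraMap K (v.adicCompletion K) (a : K) - x v) < δ v
  have hxv := hx v hv
  have hpos : 0 < Valued.v (x v) := by
    rw [zero_lt_iff, ne_eq, map_eq_zero]; exact hxv
  have h1 : algebraMap K (v.adicCompletion K) (a : K) - x v =
      (algebraMap K (v.adicCompletion K) (a : K) / x v - 1) * x v := by
    field_simp
  rw [h1, map_mul]
  have := (ha v hv).1
  simp only [hγ] at this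
  exact (lt_div_iff₀ hpos).mp this

end Fermat.Agent.S55.Global.WeakApprox
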