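/-
S55 / GLOBAL / G.recip.approx (helper44): simultaneous approximation of local norms by a global norm.

`M/K` finite Galois extension of number fields, `T` a finite set of finite places of `K`.  If `b_v`
is a local norm from `M ⊗[K] K_v` for every `v ∈ T`, then there is `y ∈ M` with `N_{M/K}(y)` as
close as we like to `b_v` at every `v ∈ T` simultaneously.

* `exists_eval_mem`: pure topology (density of `K` in `∏_{v ∈ T} K_v` + continuity of polynomials);
* `normForm`: the norm form of `M/K` in a basis, `∏_τ τ(∑ eᵢ Xᵢ)`, has coefficients in `K`;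
* `exists_norm_mem`: the approximation statement for open neighbourhoods;
* `exists_norm_close`: the valuation form `v(N y - b) < v(b) v(c)`, hence `v(b / N y - 1) < v(c)`.
-/
import Mathlib
import Fermat.Agent.S55.Global.Objects
import Fermat.Agent.S55.Global.WeakApprox

set_option autoImplicit false
set_option linter.unusedSectionVars false

open NumberField IsDedekindDomain TensorProduct

namespace Fermat.Agent.S55.Global.RecipApprox

open Fermat.Agent.S55.Global.Objects

section topology

variable (K : Type) [Field K] [NumberField K]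

/-- The diagonal map `K → ∏_{v ∈ T} K_v`. -/
noncomputable def diag (T : Finset (Place K)) (k : K) : KT K T :=
  fun v => algebraMap K ((v : Place K).adicCompletion K) k

/-- Weak approximation at the finite set `T`, in topological form. -/
def WeakApproxAt (T : Finset (Place K)) : Prop := DenseRange (diag K T)

variable {K}

/-- **Polynomial approximation.** If `K` is dense in `∏_{v ∈ T} K_v`, then for a polynomial `P` over
`K`, local points `a_v ∈ K_v^n` and open neighbourhoods `U_v` of `P(a_v)` there is a global point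
`c ∈ K^n` with `P(c) ∈ U_v` for all `v ∈ T`. -/
theorem exists_eval_mem {T : Finset (Place K)} (hT : WeakApproxAt K T) {n : ℕ}
    (P : MvPolynomial (Fin n) K)
    (a : ∀ v : T, Fin n → (v : Place K).adicCompletion K)
    (U : ∀ v : T, Set ((v : Place K).adicCompletion K)) (hU : ∀ v, IsOpen (U v))
    (ha : ∀ v : T, MvPolynomial.eval (a v)
      (MvPolynomial.map (algebraMap K ((v : Place K).adicCompletion K)) P) ∈ U v) :
    ∃ c : Fin n → K, ∀ v : T,
      algebraMap K ((v : Place K).adicCompletion K) (MvPolynomial.eval c P) ∈ U v := by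
  classical
  -- the map `Φ : (Fin n → K_T) → K_T`
  let Φ : (Fin n → KT K T) → KT K T := fun x v =>
    MvPolynomial.eval (fun i => x i v)
      (MvPolynomial.map (algebraMap K ((v : Place K).adicCompletion K)) P)
  have hΦ : Continuous Φ := by
    refine continuous_pi fun v => ?_
    have h1 : Continuous fun y : Fin n → (v : Place K).adicCompletion K =>
        MvPolynomial.eval y
          (MvPolynomial.map (algebraMap K ((v : Place K).adicCompletion K)) P) :=
      MvPolynomial.continuous_eval _
    have h2 : Continuous fun x : Fin n → KT K T => fun i => x i v :=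
      continuous_pi fun i => (continuous_apply v).comp (continuous_apply i)
    exact h1.comp h2
  let W : Set (KT K T) := Set.pi Set.univ U
  have hW : IsOpen W := isOpen_set_pi Set.finite_univ fun v _ => hU v
  have hdense : DenseRange (Pi.map fun _ : Fin n => diag K T) :=
    DenseRange.piMap fun _ => hT
  have hopen : IsOpen (Φ ⁻¹' W) := hW.preimage hΦ
  have hne : (Φ ⁻¹' W).Nonempty := by
    refine ⟨fun i v => a v i, ?_⟩
    intro v _
    exact ha v
  obtain ⟨c, hc⟩ := hdense.exists_mem_open hopen hne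
  refine ⟨c, fun v => ?_⟩
  have h3 := hc v (Set.mem_univ v)
  have h4 : Φ (Pi.map (fun _ : Fin n => diag K T) c) v =
      algebraMap K ((v : Place K).adicCompletion K) (MvPolynomial.eval c P) := by
    show MvPolynomial.eval (fun i => algebraMap K ((v : Place K).adicCompletion K) (c i))
      (MvPolynomial.map (algebraMap K ((v : Place K).adicCompletion K)) P) = _
    rw [MvPolynomial.eval_map, ← MvPolynomial.coe_eval₂Hom]
    have h6 : (MvPolynomial.eval₂Hom (algebraMap K ((v : Place K).adicCompletion K))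
        (fun i => algebraMap K ((v : Place K).adicCompletion K) (c i))) =
        (algebraMap K ((v : Place K).adicCompletion K)).comp (MvPolynomial.eval c) := by
      apply MvPolynomial.ringHom_ext
      · intro r; simp
      · intro i; simp
    rw [h6]
    rfl
  rw [h4] at h3
  exact h3

end topology

section normForm

variable (K : Type) [Field K] (M : Type) [Field M] [Algebra K M] [FiniteDimensional K M]
  [IsGalois K M]

/-- The product of the conjugates of the generic linear form `∑ eᵢ Xᵢ`, a polynomial over `M`. -/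
noncomputable def conjProd {n : ℕ} (e : Fin n → M) : MvPolynomial (Fin n) M :=
  ∏ τ : M ≃ₐ[K] M, ∑ i, MvPolynomial.C (τ (e i)) * MvPolynomial.X i

theorem map_conjProd {n : ℕ} (e : Fin n → M) (σ : M ≃ₐ[K] M) :
    MvPolynomial.map (σ : M →+* M) (conjProd K M e) = conjProd K M e := by
  unfold conjProd
  rw [map_prod]
  simp only [map_sum, map_mul, MvPolynomial.map_C, MvPolynomial.map_X]
  exact Fintype.prod_equiv (Equiv.mulLeft σ) _ _ (fun τ => rfl)

theorem exists_normForm {n : ℕ} (e : Fin n → M) :
    ∃ P : MvPolynomial (Fin n) K, MvPolynomial.map (algebraMap K M) P = conjProd K M e := by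
  have h : conjProd K M e ∈ Set.range (MvPolynomial.map (algebraMap K M)) := by
    rw [MvPolynomial.mem_range_map_iff_coeffs_subset]
    intro x hx
    rw [Finset.mem_coe, MvPolynomial.mem_coeffs_iff] at hx
    obtain ⟨m, -, rfl⟩ := hx
    rw [IsGalois.mem_range_algebraMap_iff_fixed]
    intro σ
    have h1 := congrArg (MvPolynomial.coeff m) (map_conjProd K M e σ)
    rw [MvPolynomial.coeff_map] at h1
    exact h1
  exact h

/-- **The norm form** of `M/K` with respect to the family `e`: the polynomial over `K` with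
`normForm(c) = N_{M/K}(∑ cᵢ eᵢ)`. -/
noncomputable def normForm {n : ℕ} (e : Fin n → M) : MvPolynomial (Fin n) K :=
  (exists_normForm K M e).choose

theorem map_normForm {n : ℕ} (e : Fin n → M) :
    MvPolynomial.map (algebraMap K M) (normForm K M e) = conjProd K M e :=
  (exists_normForm K M e).choose_spec

theorem eval_normForm {n : ℕ} (e : Fin n → M) (c : Fin n → K) :
    MvPolynomial.eval c (normForm K M e) = Algebra.norm K (∑ i, c i • e i) := by
  apply (algebraMap K M).injective
  rw [Algebra.norm_eq_prod_automorphisms]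
  have h1 : algebraMap K M (MvPolynomial.eval c (normForm K M e)) =
      MvPolynomial.eval (fun i => algebraMap K M (c i))
        (MvPolynomial.map (algebraMap K M) (normForm K M e)) := by
    rw [MvPolynomial.eval_map, ← MvPolynomial.coe_eval₂Hom]
    have h6 : (MvPolynomial.eval₂Hom (algebraMap K M) (fun i => algebraMap K M (c i))) =
        (algebraMap K M).comp (MvPolynomial.eval c) := by
      apply MvPolynomial.ringHom_ext
      · intro r; simp
      · intro i; simp
    rw [h6]
    rfl
  rw [h1, map_normForm]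
  unfold conjProd
  rw [map_prod]
  refine Finset.prod_congr rfl fun τ _ => ?_
  simp only [map_sum, map_mul, MvPolynomial.eval_C, MvPolynomial.eval_X, map_smul]
  refine Finset.sum_congr rfl fun i _ => ?_
  rw [Algebra.smul_def, mul_comm]

variable (A : Type) [CommRing A] [Algebra K A]

/-- **Local shape of the norm form**: the Galois norm `∏_τ τ • x` of `x = ∑ eᵢ ⊗ aᵢ ∈ M ⊗[K] A`
is `1 ⊗ normForm(a)`. -/
theorem prod_smul_eq {n : ℕ} (e : Fin n → M) (a : Fin n → A) :
    ∏ τ : M ≃ₐ[K] M, τ • (∑ i, e i ⊗ₜ[K] a i : M ⊗[K] A) =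
      (1 : M) ⊗ₜ[K] (MvPolynomial.eval a (MvPolynomial.map (algebraMap K A) (normForm K M e))) := by
  let φ : MvPolynomial (Fin n) M →ₐ[M] M ⊗[K] A :=
    MvPolynomial.aeval (fun i => (1 : M) ⊗ₜ[K] a i)
  have h1 : ∀ τ : M ≃ₐ[K] M, τ • (∑ i, e i ⊗ₜ[K] a i : M ⊗[K] A) =
      φ (∑ i, MvPolynomial.C (τ (e i)) * MvPolynomial.X i) := by
    intro τ
    rw [Finset.smul_sum, map_sum]
    refine Finset.sum_congr rfl fun i _ => ?_
    rw [map_mul, MvPolynomial.aeval_C, MvPolynomial.aeval_X, TensorProduct.smul_tmul',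
      Algebra.TensorProduct.algebraMap_apply, Algebra.TensorProduct.tmul_mul_tmul,
      AlgEquiv.smul_def]
    simp
  have h2 : ∏ τ : M ≃ₐ[K] M, τ • (∑ i, e i ⊗ₜ[K] a i : M ⊗[K] A) = φ (conjProd K M e) := by
    unfold conjProd
    rw [map_prod]
    exact Finset.prod_congr rfl fun τ _ => h1 τ
  rw [h2, ← map_normForm]
  have h3 : (φ : MvPolynomial (Fin n) M →+* M ⊗[K] A).comp (MvPolynomial.map (algebraMap K M)) =
      ((Algebra.TensorProduct.includeRight : A →ₐ[K] M ⊗[K] A) : A →+* M ⊗[K] A).comp
        ((MvPolynomial.eval a).comp (MvPolynomial.map (algebraMap K A))) := by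
    apply MvPolynomial.ringHom_ext
    · intro r
      simp only [RingHom.comp_apply, MvPolynomial.map_C, MvPolynomial.eval_C]
      show φ (MvPolynomial.C (algebraMap K M r)) = (1 : M) ⊗ₜ[K] (algebraMap K A r)
      rw [MvPolynomial.aeval_C, Algebra.TensorProduct.algebraMap_apply]
      simp only [Algebra.algebraMap_self, RingHom.id_apply]
      rw [Algebra.algebraMap_eq_smul_one, Algebra.algebraMap_eq_smul_one, smul_tmul]
    · intro i
      simp only [RingHom.comp_apply, MvPolynomial.map_X, MvPolynomial.eval_X]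
      show φ (MvPolynomial.X i) = (1 : M) ⊗ₜ[K] a i
      rw [MvPolynomial.aeval_X]
  exact congrArg (fun f : MvPolynomial (Fin n) K →+* M ⊗[K] A => f (normForm K M e)) h3

end normForm

section main

variable (K : Type) [Field K] [NumberField K]
variable (M : Type) [Field M] [Algebra K M] [FiniteDimensional K M] [IsGalois K M]

/-- **Approximation of local norms by a global norm, open-set form.**  If `b_v` is a Galois norm
from `M ⊗[K] K_v` for every `v ∈ T`, then for any open neighbourhoods `U_v ∋ b_v` there is `y ∈ M`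
with `N_{M/K}(y) ∈ U_v` for all `v ∈ T`. -/
theorem exists_norm_mem {T : Finset (Place K)} (hT : WeakApproxAt K T)
    (b : ∀ v : T, (v : Place K).adicCompletion K)
    (hloc : ∀ v : T, ∃ x : M ⊗[K] (v : Place K).adicCompletion K,
      ∏ τ : M ≃ₐ[K] M, τ • x = (1 : M) ⊗ₜ[K] b v)
    (U : ∀ v : T, Set ((v : Place K).adicCompletion K)) (hU : ∀ v, IsOpen (U v))
    (hb : ∀ v, b v ∈ U v) :
    ∃ y : M, ∀ v : T, algebraMap K ((v : Place K).adicCompletion K) (Algebra.norm K y) ∈ U v := by
  classical
  let e := Module.finBasis K M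
  have key : ∀ v : T, ∃ a : Fin (Module.finrank K M) → (v : Place K).adicCompletion K,
      MvPolynomial.eval a (MvPolynomial.map (algebraMap K ((v : Place K).adicCompletion K))
        (normForm K M e)) = b v := by
    intro v
    obtain ⟨x, hx⟩ := hloc v
    obtain ⟨f, hf⟩ := TensorProduct.eq_repr_basis_left e x
    refine ⟨f, ?_⟩
    have hx' : x = ∑ i, e i ⊗ₜ[K] f i := by
      rw [← hf, Finsupp.sum_fintype]
      intro i
      exact tmul_zero _ _
    rw [hx', prod_smul_eq] at hx
    have hinj : Function.Injective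
        (Algebra.TensorProduct.includeRight :
          (v : Place K).adicCompletion K →ₐ[K] M ⊗[K] (v : Place K).adicCompletion K) :=
      Algebra.TensorProduct.includeRight_injective (algebraMap K M).injective
    exact hinj hx
  choose a ha using key
  obtain ⟨c, hc⟩ := exists_eval_mem hT (normForm K M e) a U hU
    (fun v => by rw [ha v]; exact hb v)
  refine ⟨∑ i, c i • e i, fun v => ?_⟩
  rw [← eval_normForm]
  exact hc v

variable {K}

/-- Open balls `{z | v(z - b) < v(c)}`, `c ≠ 0`, of `K_v` are open. -/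
theorem isOpen_lt (v : Place K) (b c : v.adicCompletion K) (hc : c ≠ 0) :
    IsOpen {z : v.adicCompletion K | Valued.v (z - b) < Valued.v c} := by
  rw [isOpen_iff_mem_nhds]
  intro z0 hz0
  rw [Valued.mem_nhds]
  have hc' : (Valued.v : Valuation (v.adicCompletion K) _).restrict c ≠ 0 := by
    simpa using hc
  refine ⟨Units.mk0 _ hc', ?_⟩
  intro z hz
  rw [Set.mem_ofPred_eq, Units.val_mk0, Valuation.restrict_lt_iff] at hz
  rw [Set.mem_ofPred_eq] at hz0 ⊢
  have : z - b = (z - z0) + (z0 - b) := by ring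
  rw [this]
  exact lt_of_le_of_lt (Valuation.map_add _ _ _) (max_lt hz hz0)

variable (K)

/-- **Approximation of local norms by a global norm, valuation form.**  `b, c ∈ Kˣ`; if `b` is a
Galois norm from `M ⊗[K] K_v` for every `v ∈ T` then there is `y ∈ Mˣ` with
`v(b / N_{M/K}(y) - 1) < v(c)` for all `v ∈ T`. -/
theorem exists_norm_close {T : Finset (Place K)} (hT : WeakApproxAt K T)
    (b : K) (hb : b ≠ 0)
    (hloc : ∀ v : T, ∃ x : M ⊗[K] (v : Place K).adicCompletion K,
      ∏ τ : M ≃ₐ[K] M, τ • x =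
        (1 : M) ⊗ₜ[K] algebraMap K ((v : Place K).adicCompletion K) b)
    (c : K) (hc : c ≠ 0) (hc1 : ∀ v : T, (v : Place K).valuation K c ≤ 1) :
    ∃ y : M, y ≠ 0 ∧ ∀ v : T,
      (v : Place K).valuation K (b / Algebra.norm K y - 1) < (v : Place K).valuation K c := by
  classical
  by_cases hTe : IsEmpty T
  · exact ⟨1, one_ne_zero, fun v => (hTe.false v).elim⟩
  rw [not_isEmpty_iff] at hTe
  obtain ⟨y, hy⟩ := exists_norm_mem K M hT
    (fun v => algebraMap K ((v : Place K).adicCompletion K) b) hloc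
    (fun v => {z | Valued.v (z - algebraMap K ((v : Place K).adicCompletion K) b) <
      Valued.v (algebraMap K ((v : Place K).adicCompletion K) (b * c))})
    (fun v => isOpen_lt (v : Place K) _ _ (by
      rw [Ne, map_eq_zero_iff _ (algebraMap K ((v : Place K).adicCompletion K)).injective]
      exact mul_ne_zero hb hc))
    (fun v => by
      rw [Set.mem_ofPred_eq, sub_self, map_zero]
      rw [zero_lt_iff, Ne, map_eq_zero,
        map_eq_zero_iff _ (algebraMap K ((v : Place K).adicCompletion K)).injective]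
      exact mul_ne_zero hb hc)
  -- translate to valuations on `K`
  have hval : ∀ (v : T) (k : K), Valued.v (algebraMap K ((v : Place K).adicCompletion K) k) =
      (v : Place K).valuation K k := fun v k =>
    HeightOneSpectrum.valuedAdicCompletion_eq_valuation' (v : Place K) k
  have hy' : ∀ v : T, (v : Place K).valuation K (Algebra.norm K y - b) <
      (v : Place K).valuation K b * (v : Place K).valuation K c := by
    intro v
    have h1 := hy v
    rw [Set.mem_ofPred_eq, ← map_sub, hval, hval, map_mul] at h1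
    exact h1
  have hlt : ∀ v : T, (v : Place K).valuation K (Algebra.norm K y - b) <
      (v : Place K).valuation K b := fun v =>
    lt_of_lt_of_le (hy' v) (mul_le_of_le_one_right' (hc1 v))
  have hN : Algebra.norm K y ≠ 0 := by
    intro h0
    obtain ⟨v⟩ := hTe
    have := hlt v
    rw [h0, zero_sub, Valuation.map_neg] at this
    exact lt_irrefl _ this
  refine ⟨y, fun h => hN (by rw [h, Algebra.norm_zero]), fun v => ?_⟩
  have hNb : (v : Place K).valuation K (Algebra.norm K y) = (v : Place K).valuation K b :=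
    Valuation.map_eq_of_sub_lt _ (hlt v)
  have hbv : (v : Place K).valuation K b ≠ 0 := by
    rw [Ne, map_eq_zero]; exact hb
  have h2 : b / Algebra.norm K y - 1 = -(Algebra.norm K y - b) / Algebra.norm K y := by
    field_simp
    ring
  rw [h2, map_div₀, Valuation.map_neg, hNb, div_lt_iff₀ (zero_lt_iff.mpr hbv), mul_comm]
  exact hy' v

end main

section weakApprox

variable (K : Type) [Field K] [NumberField K]

/-- Weak approximation holds at every finite set of finite places (from `WeakApprox.lean`). -/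
theorem weakApproxAt (T : Finset (Place K)) : WeakApproxAt K T := by
  classical
  intro x
  rw [mem_closure_iff_nhds]
  intro U hU
  rw [nhds_pi, Filter.mem_pi] at hU
  obtain ⟨I, -, t, ht, hsub⟩ := hU
  let x' : ∀ v : Place K, v.adicCompletion K := fun v => if h : v ∈ T then x ⟨v, h⟩ else 0
  let s' : ∀ v : Place K, Set (v.adicCompletion K) :=
    fun v => if h : v ∈ T then t ⟨v, h⟩ else Set.univ
  have hs' : ∀ v ∈ T, s' v ∈ nhds (x' v) := by
    intro v hv
    simp only [x', s', dif_pos hv]
    exact ht ⟨v, hv⟩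
  obtain ⟨a, ha⟩ := WeakApprox.exists_forall_mem_of_mem_nhds (R := 𝓞 K) (K := K) T x' s' hs'
  refine ⟨diag K T a, hsub ?_, a, rfl⟩
  intro v _
  have := ha v v.2
  simp only [s', dif_pos v.2] at this
  exact this

end weakApprox

section bookkeeping

variable (K : Type) [Field K] [NumberField K]

/-- **Fraction bookkeeping.** If `u ∈ Kˣ` satisfies `v(u - 1) < v(m)` at every prime `v` containing
`m`, then `u = c'/d'` with `c', d' ∈ 𝓞 K`, `d'` prime to `m` and `c' ≡ d' mod m`. -/
theorem exists_frac_congr_one (m : 𝓞 K) (hm : m ≠ 0) (u : K)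
    (hclose : ∀ v : Place K, m ∈ v.asIdeal →
      v.valuation K (u - 1) < v.valuation K (algebraMap (𝓞 K) K m)) :
    ∃ c' d' : 𝓞 K, d' ≠ 0 ∧ IsCoprime (Ideal.span {d'}) (Ideal.span {m}) ∧
      c' - d' ∈ Ideal.span {m} ∧ algebraMap (𝓞 K) K d' * u = algebraMap (𝓞 K) K c' := by
  classical
  -- the denominator ideal of `u`
  let B : Ideal (𝓞 K) :=
    { carrier := {x | ∃ a : 𝓞 K, algebraMap (𝓞 K) K x * u = algebraMap (𝓞 K) K a}
      add_mem' := by
        rintro x y ⟨a, ha⟩ ⟨a', ha'⟩
        exact ⟨a + a', by rw [map_add, map_add, add_mul, ha, ha']⟩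
      zero_mem' := ⟨0, by simp⟩
      smul_mem' := by
        rintro r x ⟨a, ha⟩
        exact ⟨r * a, by rw [smul_eq_mul, map_mul, map_mul, mul_assoc, ha]⟩ }
  have hval1 : ∀ v : Place K, m ∈ v.asIdeal → v.valuation K u = 1 := by
    intro v hv
    have h1 := hclose v hv
    have h2 : v.valuation K (algebraMap (𝓞 K) K m) ≤ 1 := v.valuation_le_one m
    have h3 : v.valuation K (u - 1) < v.valuation K (1 : K) := by
      rw [map_one]; exact lt_of_lt_of_le h1 h2
    have := Valuation.map_eq_of_sub_lt _ h3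
    rw [this, map_one]
  -- `B` and `(m)` are coprime
  have hcop : IsCoprime B (Ideal.span {m}) := by
    rw [Ideal.isCoprime_iff_sup_eq]
    by_contra hne
    obtain ⟨P, hPmax, hPle⟩ := Ideal.exists_le_maximal _ hne
    have hP0 : P ≠ ⊥ := by
      intro h0
      have : m ∈ P := hPle (Ideal.mem_sup_right (Ideal.mem_span_singleton_self m))
      rw [h0, Ideal.mem_bot] at this
      exact hm this
    let v : Place K := ⟨P, hPmax.isPrime, hP0⟩
    have hmv : m ∈ v.asIdeal := hPle (Ideal.mem_sup_right (Ideal.mem_span_singleton_self m))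
    obtain ⟨n, d, hnd⟩ := v.exists_primeCompl_mul_eq_of_integer u (le_of_eq (hval1 v hmv))
    have hdB : (d : 𝓞 K) ∈ B := ⟨n, by rw [mul_comm]; exact hnd⟩
    exact d.2 (hPle (Ideal.mem_sup_left hdB))
  obtain ⟨i, hi, j, hj, hij⟩ := Ideal.isCoprime_iff_exists.mp hcop
  obtain ⟨c', hc'⟩ := hi
  by_cases htop : Ideal.span {m} = ⊤
  · -- degenerate case `(m) = ⊤`
    obtain ⟨⟨a, β, hβ⟩, hx⟩ := IsLocalization.surj (nonZeroDivisors (𝓞 K)) u
    refine ⟨a, β, nonZeroDivisors.ne_zero hβ, ?_, ?_, ?_⟩
    · rw [htop, ← Ideal.one_eq_top]; exact isCoprime_one_right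
    · rw [htop]; exact Submodule.mem_top
    · rw [mul_comm]; exact hx
  have hi0 : i ≠ 0 := by
    rintro rfl
    rw [zero_add] at hij
    rw [hij] at hj
    exact htop ((Ideal.eq_top_iff_one _).mpr hj)
  refine ⟨c', i, hi0, ?_, ?_, hc'⟩
  · rw [Ideal.isCoprime_iff_exists]
    exact ⟨i, Ideal.mem_span_singleton_self i, j, hj, hij⟩
  · -- `c' - i = i (u - 1)` is divisible by `m`
    have hmK : algebraMap (𝓞 K) K m ≠ 0 := by
      rwa [Ne, map_eq_zero_iff _ (IsFractionRing.injective (𝓞 K) K)]
    have hmem : (algebraMap (𝓞 K) K (c' - i)) / algebraMap (𝓞 K) K m ∈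
        (algebraMap (𝓞 K) K).range := by
      apply HeightOneSpectrum.mem_integers_of_valuation_le_one
      intro w
      have heq : algebraMap (𝓞 K) K (c' - i) = algebraMap (𝓞 K) K i * (u - 1) := by
        rw [map_sub, ← hc']; ring
      rw [map_div₀]
      by_cases hw : m ∈ w.asIdeal
      · rw [heq, map_mul]
        have h1 := hclose w hw
        have h2 : w.valuation K (algebraMap (𝓞 K) K i) ≤ 1 := w.valuation_le_one i
        have hpos : 0 < w.valuation K (algebraMap (𝓞 K) K m) := by
          rw [zero_lt_iff, Ne, map_eq_zero]; exact hmK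
        rw [div_le_one₀ hpos]
        calc w.valuation K (algebraMap (𝓞 K) K i) * w.valuation K (u - 1)
            ≤ 1 * w.valuation K (u - 1) := mul_le_mul_left h2 _
          _ = w.valuation K (u - 1) := one_mul _
          _ ≤ _ := le_of_lt h1
      · have h1 : w.valuation K (algebraMap (𝓞 K) K m) = 1 := by
          rw [HeightOneSpectrum.valuation_eq_one_iff_notMem]
          exact hw
        rw [h1, div_one]
        exact w.valuation_le_one _
    obtain ⟨t, ht⟩ := hmem
    rw [Ideal.mem_span_singleton]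
    refine ⟨t, ?_⟩
    apply IsFractionRing.injective (𝓞 K) K
    rw [map_mul, ht]
    field_simp

end bookkeeping

section final

variable (K M : Type) [Field K] [NumberField K] [Field M] [NumberField M] [Algebra K M]
  [IsGalois K M]

/-- **R.approx**: hypothesis `(H2)` of `RecipCore.single_support` from local norm conditions.
If `b = c/d` is a Galois norm from `M ⊗[K] K_v` at every prime `v` of `K` over `m`, then `b` is
congruent to `1` modulo `m` up to a global norm from `M`. -/
theorem exists_H2 (m : ℕ) (hm : (m : 𝓞 K) ≠ 0) (c d : 𝓞 K) (hc : c ≠ 0) (hd : d ≠ 0)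
    (hloc : ∀ v : Place K, (m : 𝓞 K) ∈ v.asIdeal →
      ∃ x : M ⊗[K] v.adicCompletion K, ∏ τ : M ≃ₐ[K] M, τ • x =
        (1 : M) ⊗ₜ[K] algebraMap K (v.adicCompletion K)
          (algebraMap (𝓞 K) K c / algebraMap (𝓞 K) K d)) :
    ∃ (y z : 𝓞 M) (c' d' : 𝓞 K), y ≠ 0 ∧ z ≠ 0 ∧ d' ≠ 0 ∧
      IsCoprime (Ideal.span {d'}) (Ideal.span {(m : 𝓞 K)}) ∧
      c' - d' ∈ Ideal.span {(m : 𝓞 K)} ∧
      c * Algebra.intNorm (𝓞 K) (𝓞 M) z * d' = c' * d * Algebra.intNorm (𝓞 K) (𝓞 M) y := by
  classical
  have hinj := IsFractionRing.injective (𝓞 K) K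
  have hcK : algebraMap (𝓞 K) K c ≠ 0 := by rwa [Ne, map_eq_zero_iff _ hinj]
  have hdK : algebraMap (𝓞 K) K d ≠ 0 := by rwa [Ne, map_eq_zero_iff _ hinj]
  have hmK : algebraMap (𝓞 K) K (m : 𝓞 K) ≠ 0 := by rwa [Ne, map_eq_zero_iff _ hinj]
  set b : K := algebraMap (𝓞 K) K c / algebraMap (𝓞 K) K d with hb
  have hb0 : b ≠ 0 := div_ne_zero hcK hdK
  -- the finite set of places over `m`
  have hfin : {v : Place K | (m : 𝓞 K) ∈ v.asIdeal}.Finite := by
    have h1 := Ideal.finite_factors (R := 𝓞 K) (I := Ideal.span {(m : 𝓞 K)})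
      (by rwa [Ne, Ideal.zero_eq_bot, Ideal.span_singleton_eq_bot])
    refine h1.subset fun v hv => ?_
    rw [Set.mem_ofPred_eq] at hv ⊢
    rw [Ideal.dvd_iff_le, Ideal.span_singleton_le_iff_mem]
    exact hv
  set T : Finset (Place K) := hfin.toFinset with hT
  have hmemT : ∀ v : Place K, v ∈ T ↔ (m : 𝓞 K) ∈ v.asIdeal := fun v => by
    rw [hT, Set.Finite.mem_toFinset, Set.mem_ofPred_eq]
  obtain ⟨y, hy0, hy⟩ := exists_norm_close K M (weakApproxAt K T) b hb0
    (fun v => hloc v ((hmemT v).mp v.2)) (algebraMap (𝓞 K) K (m : 𝓞 K)) hmK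
    (fun v => (v : Place K).valuation_le_one _)
  -- integral numerator and denominator of `y`
  obtain ⟨y0, z0, hz0, hyz⟩ := IsFractionRing.div_surjective (A := 𝓞 M) y
  have hz0' : z0 ≠ 0 := nonZeroDivisors.ne_zero hz0
  have hy0' : y0 ≠ 0 := by
    rintro rfl
    rw [map_zero, zero_div] at hyz
    exact hy0 hyz.symm
  have hNy : Algebra.norm K y = algebraMap (𝓞 K) K (Algebra.intNorm (𝓞 K) (𝓞 M) y0) /
      algebraMap (𝓞 K) K (Algebra.intNorm (𝓞 K) (𝓞 M) z0) := by
    have hzM : algebraMap (𝓞 M) M z0 ≠ 0 := by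
      rwa [Ne, map_eq_zero_iff _ (IsFractionRing.injective (𝓞 M) M)]
    have h1 : Algebra.norm K y * Algebra.norm K (algebraMap (𝓞 M) M z0) =
        Algebra.norm K (algebraMap (𝓞 M) M y0) := by
      rw [← map_mul, ← hyz, div_mul_cancel₀ _ hzM]
    rw [Algebra.algebraMap_intNorm (L := M), Algebra.algebraMap_intNorm (L := M), ← h1,
      mul_div_assoc, div_self, mul_one]
    rw [Ne, Algebra.norm_eq_zero_iff]
    exact hzM
  have hNy0 : algebraMap (𝓞 K) K (Algebra.intNorm (𝓞 K) (𝓞 M) y0) ≠ 0 := by
    rw [Ne, map_eq_zero_iff _ hinj, Algebra.intNorm_eq_zero]; exact hy0'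
  have hNz0 : algebraMap (𝓞 K) K (Algebra.intNorm (𝓞 K) (𝓞 M) z0) ≠ 0 := by
    rw [Ne, map_eq_zero_iff _ hinj, Algebra.intNorm_eq_zero]; exact hz0'
  -- the fraction `u = b / N(y)`
  obtain ⟨c', d', hd', hcop, hcong, hfrac⟩ := exists_frac_congr_one K (m : 𝓞 K) hm
    (b / Algebra.norm K y) (fun v hv => hy ⟨v, (hmemT v).mpr hv⟩)
  refine ⟨y0, z0, c', d', hy0', hz0', hd', hcop, hcong, ?_⟩
  apply hinj
  simp only [map_mul]
  rw [← hfrac, hNy, hb]
  field_simp

/-- The action of `Objects.lean` on `M ⊗[K] A` is the generic left action. -/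
theorem tensorAct_eq_smul (A : Type) [CommRing A] [Algebra K A] (τ : M ≃ₐ[K] M)
    (x : M ⊗[K] A) : Objects.tensorAct A τ x = τ • x := by
  induction x using TensorProduct.induction_on with
  | zero => simp
  | tmul x a => rw [Objects.tensorAct_tmul, TensorProduct.smul_tmul', AlgEquiv.smul_def]
  | add x y hx hy => rw [map_add, smul_add, hx, hy]

/-- `exists_H2` with the local norm condition spelled with `Objects.tensorAct` (the action used for
`J_{M,T} = (M ⊗[K] K_T)ˣ` in `Objects.lean`). -/
theorem exists_H2_tensorAct (m : ℕ) (hm : (m : 𝓞 K) ≠ 0) (c d : 𝓞 K) (hc : c ≠ 0) (hd : d ≠ 0)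
    (hloc : ∀ v : Place K, (m : 𝓞 K) ∈ v.asIdeal →
      ∃ x : M ⊗[K] v.adicCompletion K,
        ∏ τ : M ≃ₐ[K] M, Objects.tensorAct (v.adicCompletion K) τ x =
          (1 : M) ⊗ₜ[K] algebraMap K (v.adicCompletion K)
            (algebraMap (𝓞 K) K c / algebraMap (𝓞 K) K d)) :
    ∃ (y z : 𝓞 M) (c' d' : 𝓞 K), y ≠ 0 ∧ z ≠ 0 ∧ d' ≠ 0 ∧
      IsCoprime (Ideal.span {d'}) (Ideal.span {(m : 𝓞 K)}) ∧
      c' - d' ∈ Ideal.span {(m : 𝓞 K)} ∧
      c * Algebra.intNorm (𝓞 K) (𝓞 M) z * d' = c' * d * Algebra.intNorm (𝓞 K) (𝓞 M) y := by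
  refine exists_H2 K M m hm c d hc hd fun v hv => ?_
  obtain ⟨x, hx⟩ := hloc v hv
  refine ⟨x, ?_⟩
  rw [← hx]
  exact Finset.prod_congr rfl fun τ _ => (tensorAct_eq_smul K M _ τ x).symm

end final

end Fermat.Agent.S55.Global.RecipApprox
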