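/-
S55 / GLOBAL / G.recip.approx, complement (helper44): the local norm condition of `RecipApprox`
is insensitive to the model of the completion.

If `A` is ANY `K`-algebra with a `K`-algebra homomorphism `φ : A →ₐ[K] v.adicCompletion K`
(no topology on `A`, `φ` need not be bijective), a solution of `∏_τ τ • x = 1 ⊗ b` in `M ⊗[K] A`
maps to a solution in `M ⊗[K] K_v`.  So `RecipApprox.exists_H2` can be fed with local norms taken
in `Kloc K q 𝔪 = (K ⊗[ℚ] ℚ_[q]) ⧸ 𝔪` (Global/Blocks3) or in `ℚ_q(ι K) ⊆ PadicAlgCl q`.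
-/
import Mathlib
import Fermat.Agent.S55.Global.RecipApprox

set_option autoImplicit false

open NumberField IsDedekindDomain TensorProduct

namespace Fermat.Agent.S55.Global.RecipApproxAlg

open Fermat.Agent.S55.Global.Objects Fermat.Agent.S55.Global.RecipApprox

section transport

variable (K : Type) [Field K] (M : Type) [Field M] [Algebra K M]
variable {A A' : Type} [CommRing A] [Algebra K A] [CommRing A'] [Algebra K A']

/-- `id ⊗ φ` commutes with the Galois action on the left factor. -/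
theorem map_smul_tensor (φ : A →ₐ[K] A') (τ : M ≃ₐ[K] M) (x : M ⊗[K] A) :
    Algebra.TensorProduct.map (AlgHom.id K M) φ (τ • x) =
      τ • Algebra.TensorProduct.map (AlgHom.id K M) φ x := by
  induction x using TensorProduct.induction_on with
  | zero => simp
  | tmul y a =>
    rw [TensorProduct.smul_tmul', Algebra.TensorProduct.map_tmul, Algebra.TensorProduct.map_tmul,
      TensorProduct.smul_tmul']
    rfl
  | add x y hx hy => rw [smul_add, map_add, map_add, smul_add, hx, hy]

/-- Transport of a local Galois norm along a `K`-algebra homomorphism. -/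
theorem exists_of_algHom [FiniteDimensional K M] (φ : A →ₐ[K] A') (b : K)
    (h : ∃ x : M ⊗[K] A, ∏ τ : M ≃ₐ[K] M, τ • x = (1 : M) ⊗ₜ[K] algebraMap K A b) :
    ∃ x : M ⊗[K] A', ∏ τ : M ≃ₐ[K] M, τ • x = (1 : M) ⊗ₜ[K] algebraMap K A' b := by
  obtain ⟨x, hx⟩ := h
  refine ⟨Algebra.TensorProduct.map (AlgHom.id K M) φ x, ?_⟩
  have h1 := congrArg (Algebra.TensorProduct.map (AlgHom.id K M) φ) hx
  rw [map_prod, Algebra.TensorProduct.map_tmul, AlgHom.commutes, map_one] at h1
  rw [← h1]
  exact Finset.prod_congr rfl fun τ _ => (map_smul_tensor K M φ τ x).symm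

end transport

section final

variable (K M : Type) [Field K] [NumberField K] [Field M] [NumberField M] [Algebra K M]
  [IsGalois K M]

/-- **R.approx, model-independent form.**  At every prime `v` of `K` over `m` the element
`b = c/d` is a Galois norm from `M ⊗[K] A_v` for SOME `K`-algebra `A_v` mapping to the completion
`K_v`.  Then `(H2)` of `RecipCore.single_support` holds. -/
theorem exists_H2_of_algHom (m : ℕ) (hm : (m : 𝓞 K) ≠ 0) (c d : 𝓞 K) (hc : c ≠ 0) (hd : d ≠ 0)
    (hloc : ∀ v : Place K, (m : 𝓞 K) ∈ v.asIdeal →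
      ∃ (A : Type) (_ : CommRing A) (_ : Algebra K A) (_ : A →ₐ[K] v.adicCompletion K),
        ∃ x : M ⊗[K] A, ∏ τ : M ≃ₐ[K] M, τ • x =
          (1 : M) ⊗ₜ[K] algebraMap K A (algebraMap (𝓞 K) K c / algebraMap (𝓞 K) K d)) :
    ∃ (y z : 𝓞 M) (c' d' : 𝓞 K), y ≠ 0 ∧ z ≠ 0 ∧ d' ≠ 0 ∧
      IsCoprime (Ideal.span {d'}) (Ideal.span {(m : 𝓞 K)}) ∧
      c' - d' ∈ Ideal.span {(m : 𝓞 K)} ∧
      c * Algebra.intNorm (𝓞 K) (𝓞 M) z * d' = c' * d * Algebra.intNorm (𝓞 K) (𝓞 M) y := by
  refine exists_H2 K M m hm c d hc hd fun v hv => ?_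
  obtain ⟨A, _, _, φ, hx⟩ := hloc v hv
  exact exists_of_algHom K M φ _ hx

end final

end Fermat.Agent.S55.Global.RecipApproxAlg
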