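/-
S55 / GLOBAL / G.recip.unramFwd (helper44) = the FORWARD half of (7) R.unramLocal of helper46's split
of G.recip: a local norm at a prime `v` of `K` has `v`-adic valuation divisible by the residue
degree.

`M/K` Galois (NO hypothesis on ramification), `v` a prime of `𝓞 K`, `b = c/d ∈ Kˣ`.  If `1 ⊗ b` is
a Galois norm `∏_τ τ • x` from `M ⊗[K] A`, where `A` is ANY `K`-algebra with a `K`-algebra
homomorphism to the completion `K_v` (e.g. `A = Kloc K q 𝔪` of Blocks3, or `A = K_v`), then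
`f(P/v) ∣ v(c) - v(d)` for every prime `P ∣ v` of `𝓞 M` — literally hypothesis `(H1)` of
`RecipCyclo.single_support_inertiaDeg` at `v`.

Proof: approximate the local solution by a global `y ∈ Mˣ` (`RecipApprox.exists_norm_close` with
`T = {v}`), so that `b / N(y)` is a `v`-unit; and `v(N_{M/K} y) ∈ f ℤ` since
`relNorm P = (P ∩ 𝓞 K) ^ f(P)`.
-/
import Mathlib
import Fermat.Agent.S55.Global.RecipApproxAlg

set_option autoImplicit false
set_option linter.unusedVariables false
set_option linter.style.haveILetI false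

open NumberField IsDedekindDomain TensorProduct UniqueFactorizationMonoid

namespace Fermat.Agent.S55.Global.RecipUnramFwd

open Fermat.Agent.S55.Global.Objects Fermat.Agent.S55.Global.RecipApprox
  Fermat.Agent.S55.Global.RecipApproxAlg

section count

variable {R : Type*} [CommRing R] [IsDedekindDomain R]

/-- The valuation of a nonzero integer in terms of `normalizedFactors`. -/
theorem intValuation_eq_exp_neg_count (v : HeightOneSpectrum R) {r : R} (hr : r ≠ 0) :
    v.intValuation r =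
      WithZero.exp (-((normalizedFactors (Ideal.span {r})).count v.asIdeal : ℤ)) := by
  have hsr : Ideal.span {r} ≠ 0 := by
    rwa [Ne, Ideal.zero_eq_bot, Ideal.span_singleton_eq_bot]
  rw [v.intValuation_if_neg hr, Ideal.count_associates_factors_eq hsr v.isPrime v.ne_bot]

variable {F : Type*} [Field F] [Algebra R F] [IsFractionRing R F]

/-- `-log v(r) = count of v in (r)`. -/
theorem log_valuation_algebraMap (v : HeightOneSpectrum R) {r : R} (hr : r ≠ 0) :
    WithZero.log (v.valuation F (algebraMap R F r)) =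
      -((normalizedFactors (Ideal.span {r})).count v.asIdeal : ℤ) := by
  rw [HeightOneSpectrum.valuation_of_algebraMap, intValuation_eq_exp_neg_count v hr,
    WithZero.log_exp]

/-- `-log v(c/d) = count of v in (c) - count of v in (d)`. -/
theorem log_valuation_div (v : HeightOneSpectrum R) {c d : R} (hc : c ≠ 0) (hd : d ≠ 0) :
    -WithZero.log (v.valuation F (algebraMap R F c / algebraMap R F d)) =
      ((normalizedFactors (Ideal.span {c})).count v.asIdeal : ℤ) -
        ((normalizedFactors (Ideal.span {d})).count v.asIdeal : ℤ) := by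
  have hinj := IsFractionRing.injective R F
  have hcF : v.valuation F (algebraMap R F c) ≠ 0 := by
    rw [Ne, map_eq_zero, map_eq_zero_iff _ hinj]; exact hc
  have hdF : v.valuation F (algebraMap R F d) ≠ 0 := by
    rw [Ne, map_eq_zero, map_eq_zero_iff _ hinj]; exact hd
  rw [map_div₀, WithZero.log_div hcF hdF, log_valuation_algebraMap v hc,
    log_valuation_algebraMap v hd]
  ring

/-- An element `v`-adically close to `1` is a `v`-unit. -/
theorem valuation_eq_one_of_sub_one_lt (v : HeightOneSpectrum R) {u : F}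
    (h : v.valuation F (u - 1) < 1) : v.valuation F u = 1 := by
  have h1 : v.valuation F (1 + (u - 1)) = 1 := by
    have := Valuation.map_add_eq_of_lt_left (v.valuation F) (x := (1 : F)) (y := u - 1)
      (by rwa [map_one])
    rw [this, map_one]
  rwa [add_sub_cancel] at h1

end count

section relnorm

variable (K M : Type) [Field K] [NumberField K] [Field M] [NumberField M] [Algebra K M]

/-- If `f` divides the residue degree of every prime of `M` over `v`, then `f` divides the
multiplicity of `v` in every relative norm. -/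
theorem dvd_count_relNorm (v : Ideal (𝓞 K)) (hv : v.IsPrime) (hv0 : v ≠ ⊥) (f : ℕ)
    (hf : ∀ P : Ideal (𝓞 M), P.IsPrime → P.under (𝓞 K) = v → f ∣ P.inertiaDeg (𝓞 K))
    (J : Ideal (𝓞 M)) (hJ : J ≠ ⊥) :
    f ∣ (normalizedFactors (Ideal.relNorm (𝓞 K) J)).count v := by
  classical
  induction J using UniqueFactorizationMonoid.induction_on_prime with
  | h₁ => exact absurd Ideal.zero_eq_bot hJ
  | h₂ x hx =>
    rw [Ideal.isUnit_iff] at hx
    subst hx
    rw [Ideal.relNorm_top, ← Ideal.one_eq_top, normalizedFactors_one, Multiset.count_zero]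
    exact dvd_zero f
  | h₃ a P ha hP ih =>
    have hP0 : P ≠ ⊥ := hP.ne_zero
    have hPprime : P.IsPrime := (Ideal.prime_iff_isPrime hP0).mp hP
    have ha0 : a ≠ ⊥ := ha
    have h1 : Ideal.relNorm (𝓞 K) P ≠ 0 := by rwa [Ne, Ideal.zero_eq_bot, Ideal.relNorm_eq_bot_iff]
    have h2 : Ideal.relNorm (𝓞 K) a ≠ 0 := by rwa [Ne, Ideal.zero_eq_bot, Ideal.relNorm_eq_bot_iff]
    rw [map_mul, normalizedFactors_mul h1 h2, Multiset.count_add]
    refine dvd_add ?_ (ih ha0)
    -- the prime factor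
    have hPmax : P.IsMaximal := hPprime.isMaximal hP0
    set w : Ideal (𝓞 K) := P.under (𝓞 K) with hw
    have hPw : P.LiesOver w := ⟨rfl⟩
    have hwprime : w.IsPrime := Ideal.IsPrime.under (𝓞 K) P
    have hw0 : w ≠ ⊥ := by
      intro h0
      exact hP0 (Ideal.eq_bot_of_comap_eq_bot (R := 𝓞 K) (by rw [← Ideal.under_def, ← hw, h0]))
    have hwmax : w.IsMaximal := hwprime.isMaximal hw0
    have hrel : Ideal.relNorm (𝓞 K) P = w ^ P.inertiaDeg (𝓞 K) :=
      Ideal.relNorm_eq_pow_of_isMaximal P w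
    have hwirr : Irreducible w := ((Ideal.prime_iff_isPrime hw0).mpr hwprime).irreducible
    rw [hrel, normalizedFactors_pow, normalizedFactors_irreducible hwirr, normalize_eq,
      Multiset.count_nsmul, Multiset.count_singleton]
    by_cases hvw : v = w
    · rw [if_pos hvw, mul_one]
      exact hf P hPprime hvw.symm
    · rw [if_neg hvw, mul_zero]
      exact dvd_zero f

end relnorm

section main

variable (K M : Type) [Field K] [NumberField K] [Field M] [NumberField M] [Algebra K M]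
  [IsGalois K M]

/-- In a Galois extension all primes over `v` have the same residue degree. -/
theorem inertiaDeg_dvd_of_under_eq (v : Ideal (𝓞 K)) (hv : v.IsPrime) (hv0 : v ≠ ⊥)
    (P : Ideal (𝓞 M)) (hP : P.IsPrime) (hPv : P.under (𝓞 K) = v)
    (P' : Ideal (𝓞 M)) (hP' : P'.IsPrime) (hP'v : P'.under (𝓞 K) = v) :
    P.inertiaDeg (𝓞 K) ∣ P'.inertiaDeg (𝓞 K) := by
  haveI : v.IsMaximal := hv.isMaximal hv0
  haveI : P.LiesOver v := ⟨hPv.symm⟩
  haveI : P'.LiesOver v := ⟨hP'v.symm⟩
  rw [Ideal.inertiaDeg_eq_of_isGaloisGroup v P P' (M ≃ₐ[K] M)]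

/-- **Valuation of a global norm**: `f(P/v)` divides `v(N_{M/K} y)` for every `y ∈ 𝓞 M ∖ {0}`. -/
theorem inertiaDeg_dvd_count_intNorm (v : Ideal (𝓞 K)) (hv : v.IsPrime) (hv0 : v ≠ ⊥)
    (P : Ideal (𝓞 M)) (hP : P.IsPrime) (hPv : P.under (𝓞 K) = v) (y : 𝓞 M) (hy : y ≠ 0) :
    P.inertiaDeg (𝓞 K) ∣
      (normalizedFactors (Ideal.span {Algebra.intNorm (𝓞 K) (𝓞 M) y})).count v := by
  rw [← Ideal.relNorm_singleton]
  exact dvd_count_relNorm K M v hv hv0 _
    (fun P' hP' hP'v => inertiaDeg_dvd_of_under_eq K M v hv hv0 P hP hPv P' hP' hP'v) _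
    (by rwa [Ne, Ideal.span_singleton_eq_bot])

/-- **R.unramLocal, forward half, completion form.**  If `b = c/d` is a Galois norm from
`M ⊗[K] K_v`, then `f(P/v) ∣ v(c) - v(d)` for every prime `P` of `M` over `v`. -/
theorem inertiaDeg_dvd_of_localNorm (v : Place K) (c d : 𝓞 K) (hc : c ≠ 0) (hd : d ≠ 0)
    (hloc : ∃ x : M ⊗[K] v.adicCompletion K, ∏ τ : M ≃ₐ[K] M, τ • x =
      (1 : M) ⊗ₜ[K] algebraMap K (v.adicCompletion K)
        (algebraMap (𝓞 K) K c / algebraMap (𝓞 K) K d))
    (P : Ideal (𝓞 M)) (hP : P.IsPrime) (hPv : P.under (𝓞 K) = v.asIdeal) :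
    ((P.inertiaDeg (𝓞 K) : ℕ) : ℤ) ∣
      ((normalizedFactors (Ideal.span {c})).count v.asIdeal : ℤ) -
        ((normalizedFactors (Ideal.span {d})).count v.asIdeal : ℤ) := by
  classical
  have hinj := IsFractionRing.injective (𝓞 K) K
  have hcK : algebraMap (𝓞 K) K c ≠ 0 := by rwa [Ne, map_eq_zero_iff _ hinj]
  have hdK : algebraMap (𝓞 K) K d ≠ 0 := by rwa [Ne, map_eq_zero_iff _ hinj]
  set b : K := algebraMap (𝓞 K) K c / algebraMap (𝓞 K) K d with hb
  have hb0 : b ≠ 0 := div_ne_zero hcK hdK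
  obtain ⟨y, hy0, hy⟩ := exists_norm_close K M (weakApproxAt K {v}) b hb0
    (fun w => by
      have hw : (w : Place K) = v := Finset.mem_singleton.mp w.2
      rw [hw]
      exact hloc) 1 one_ne_zero (fun w => by rw [map_one])
  have hyv := hy ⟨v, Finset.mem_singleton_self v⟩
  rw [map_one] at hyv
  have hunit : v.valuation K (b / Algebra.norm K y) = 1 := valuation_eq_one_of_sub_one_lt v hyv
  -- integral numerator and denominator of `y`
  obtain ⟨y0, z0, hz0, hyz⟩ := IsFractionRing.div_surjective (A := 𝓞 M) y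
  have hz0' : z0 ≠ 0 := nonZeroDivisors.ne_zero hz0
  have hy0' : y0 ≠ 0 := by
    rintro rfl
    rw [map_zero, zero_div] at hyz
    exact hy0 hyz.symm
  have hNy : Algebra.norm K y = algebraMap (𝓞 K) K (Algebra.intNorm (𝓞 K) (𝓞 M) y0) /
      algebraMap (𝓞 K) K (Algebra.intNorm (𝓞 K) (𝓞 M) z0) := by
    have hzM : algebraMap (𝓞 M) M z0 ≠ 0 := by
      rwa [Ne, map_eq_zero_iff _ (IsFractionRing.injective (𝓞 M) M)]
    have h1 : Algebra.norm K y * Algebra.norm K (algebraMap (𝓞 M) M z0) =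
        Algebra.norm K (algebraMap (𝓞 M) M y0) := by
      rw [← map_mul, ← hyz, div_mul_cancel₀ _ hzM]
    rw [Algebra.algebraMap_intNorm (L := M), Algebra.algebraMap_intNorm (L := M), ← h1,
      mul_div_assoc, div_self, mul_one]
    rw [Ne, Algebra.norm_eq_zero_iff]
    exact hzM
  have hNy0 : Algebra.intNorm (𝓞 K) (𝓞 M) y0 ≠ 0 := by
    rw [Ne, Algebra.intNorm_eq_zero]; exact hy0'
  have hNz0 : Algebra.intNorm (𝓞 K) (𝓞 M) z0 ≠ 0 := by
    rw [Ne, Algebra.intNorm_eq_zero]; exact hz0'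
  have hNyK : Algebra.norm K y ≠ 0 := by
    rw [Ne, Algebra.norm_eq_zero_iff]; exact hy0
  -- `v(b) = v(N y)`
  have hvb : v.valuation K b = v.valuation K (Algebra.norm K y) := by
    have h1 : v.valuation K b = v.valuation K (b / Algebra.norm K y) *
        v.valuation K (Algebra.norm K y) := by
      rw [← map_mul, div_mul_cancel₀ _ hNyK]
    rw [h1, hunit, one_mul]
  have hlog : -WithZero.log (v.valuation K b) = -WithZero.log (v.valuation K (Algebra.norm K y)) :=
    by rw [hvb]
  rw [hb, log_valuation_div v hc hd, hNy, log_valuation_div v hNy0 hNz0] at hlog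
  rw [hlog]
  have h1 := inertiaDeg_dvd_count_intNorm K M v.asIdeal v.isPrime v.ne_bot P hP hPv y0 hy0'
  have h2 := inertiaDeg_dvd_count_intNorm K M v.asIdeal v.isPrime v.ne_bot P hP hPv z0 hz0'
  exact dvd_sub (Int.natCast_dvd_natCast.mpr h1) (Int.natCast_dvd_natCast.mpr h2)

/-- **R.unramLocal, forward half, model-independent form** = `(H1)` of
`RecipCyclo.single_support_inertiaDeg` at the prime `v`: the local norm is taken in `M ⊗[K] A` for
ANY `K`-algebra `A` with a `K`-algebra homomorphism to the completion of `K` at `v`. -/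
theorem inertiaDeg_dvd_of_localNorm_algHom (v : Ideal (𝓞 K)) (hv : v.IsPrime) (hv0 : v ≠ ⊥)
    (c d : 𝓞 K) (hc : c ≠ 0) (hd : d ≠ 0)
    {A : Type} [CommRing A] [Algebra K A]
    (φ : A →ₐ[K] (⟨v, hv, hv0⟩ : Place K).adicCompletion K)
    (hloc : ∃ x : M ⊗[K] A, ∏ τ : M ≃ₐ[K] M, τ • x =
      (1 : M) ⊗ₜ[K] algebraMap K A (algebraMap (𝓞 K) K c / algebraMap (𝓞 K) K d))
    (P : Ideal (𝓞 M)) (hP : P.IsPrime) (hPv : P.under (𝓞 K) = v) :
    ((P.inertiaDeg (𝓞 K) : ℕ) : ℤ) ∣
      ((normalizedFactors (Ideal.span {c})).count v : ℤ) -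
        ((normalizedFactors (Ideal.span {d})).count v : ℤ) :=
  inertiaDeg_dvd_of_localNorm K M ⟨v, hv, hv0⟩ c d hc hd (exists_of_algHom K M φ _ hloc) P hP hPv

/-- `(H1)` of `RecipCyclo.single_support_inertiaDeg` in its literal shape (`∃ P`), given a prime
of `M` over `v`. -/
theorem exists_inertiaDeg_dvd (v : Ideal (𝓞 K)) (hv : v.IsPrime) (hv0 : v ≠ ⊥)
    (c d : 𝓞 K) (hc : c ≠ 0) (hd : d ≠ 0)
    {A : Type} [CommRing A] [Algebra K A]
    (φ : A →ₐ[K] (⟨v, hv, hv0⟩ : Place K).adicCompletion K)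
    (hloc : ∃ x : M ⊗[K] A, ∏ τ : M ≃ₐ[K] M, τ • x =
      (1 : M) ⊗ₜ[K] algebraMap K A (algebraMap (𝓞 K) K c / algebraMap (𝓞 K) K d)) :
    ∃ P : Ideal (𝓞 M), P.IsPrime ∧ P.under (𝓞 K) = v ∧
      ((P.inertiaDeg (𝓞 K) : ℕ) : ℤ) ∣ ((normalizedFactors (Ideal.span {c})).count v : ℤ) -
        ((normalizedFactors (Ideal.span {d})).count v : ℤ) := by
  haveI : v.IsMaximal := hv.isMaximal hv0
  obtain ⟨P, hPmax, hPv⟩ := Ideal.exists_maximal_ideal_liesOver_of_isIntegral (S := 𝓞 M) v
  exact ⟨P, hPmax.isPrime, hPv.over.symm,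
    inertiaDeg_dvd_of_localNorm_algHom K M v hv hv0 c d hc hd φ hloc P hPmax.isPrime hPv.over.symm⟩

end main

end Fermat.Agent.S55.Global.RecipUnramFwd
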