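/-
S55 / GLOBAL / G.recip.cyclicNorm (helper44): ELEMENT-LEVEL single support for a sub-extension of a
cyclotomic extension, in the v3 language of `Blocks3` / `Objects4`.

`K` totally complex, `M/K` Galois inside the `l`-cyclotomic extension `C/K`, unramified outside `l`
(inertia form).  `b ∈ Kˣ`, `(q₀, 𝔪₀)` a place of `K` (maximal ideal of `K ⊗[ℚ] ℚ_[q₀]`) whose prime
`v₀ = placeOfMax 𝔪₀` of `𝓞 K` does not contain `l`.  If `b` is a local norm from `M`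
(`Objects4.IsLocalNormAt`) at every place `(q, 𝔪) ≠ (q₀, 𝔪₀)`, then `f(P₀/v₀) ∣ v₀(b)` for every
prime `P₀` of `M` over `v₀`.

Assembly of: `RecipCyclo.single_support_inertiaDeg` (helper46), `RecipApproxAlg.exists_H2_of_algHom`
and `RecipUnramFwd.exists_inertiaDeg_dvd` (helper44), `PlaceKloc.exists_kloc_algEquiv` (helper71).
The remaining step `f(P₀/v₀) ∣ v₀(b) ⇒ IsLocalNormAt K M q₀ 𝔪₀ b` is the backward half of
R.unramLocal (helper15, `RecipUnramBwd`); `isLocalNormAt_of_off` takes it as a hypothesis.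
-/
import Mathlib
import Fermat.Agent.S55.Global.RecipUnramFwd
import Fermat.Agent.S55.Global.RecipCyclo
import Fermat.Agent.S55.Global.Objects4
import Fermat.Agent.S55.Global.PlaceKloc

set_option autoImplicit false
set_option linter.unusedVariables false
set_option linter.unusedSectionVars false
set_option linter.style.haveILetI false

open NumberField IsDedekindDomain TensorProduct UniqueFactorizationMonoid

namespace Fermat.Agent.S55.Global.RecipCyclicNorm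

open Fermat.Agent.S55.Global.Objects Fermat.Agent.S55.Global.Blocks3
  Fermat.Agent.S55.Global.Objects4 Fermat.Agent.S55.Global.PlaceBij
  Fermat.Agent.S55.Global.PlaceKloc Fermat.Agent.S55.Global.RecipApprox
  Fermat.Agent.S55.Global.RecipApproxAlg Fermat.Agent.S55.Global.RecipUnramFwd
  Fermat.Agent.S55.Global.RecipCyclo

section unfold

variable (K M : Type) [Field K] [NumberField K] [Field M] [NumberField M] [Algebra K M]
  [IsGalois K M]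

/-- `Objects4.IsLocalNormAt` unfolded to the element form used by `RecipApprox*`/`RecipUnramFwd`
(any `K`-algebra `A` in place of `Kloc K q 𝔪`). -/
theorem exists_of_galNormK {A : Type} [CommRing A] [Algebra K A] (b : Kˣ)
    (h : ∃ y : (M ⊗[K] A)ˣ, galNormK K M A y =
      inclUnits K M A (Units.map (algebraMap K M).toMonoidHom b)) :
    ∃ x : M ⊗[K] A, ∏ τ : M ≃ₐ[K] M, τ • x = (1 : M) ⊗ₜ[K] algebraMap K A (b : K) := by
  obtain ⟨y, hy⟩ := h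
  refine ⟨(y : M ⊗[K] A), ?_⟩
  have h1 := congrArg (fun u : (M ⊗[K] A)ˣ => (u : M ⊗[K] A)) hy
  simp only [galNormK, Units.coe_prod, val_inclUnits] at h1
  have h2 : ((Units.map (algebraMap K M).toMonoidHom b : Mˣ) : M) ⊗ₜ[K] (1 : A) =
      (1 : M) ⊗ₜ[K] algebraMap K A (b : K) := by
    rw [Units.coe_map]
    change (algebraMap K M (b : K)) ⊗ₜ[K] (1 : A) = _
    rw [Algebra.algebraMap_eq_smul_one, TensorProduct.smul_tmul, ← Algebra.algebraMap_eq_smul_one]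
  rw [← h2, ← h1]
  exact Finset.prod_congr rfl fun τ _ => (tensorAct_eq_smul K M A τ (y : M ⊗[K] A)).symm

theorem exists_of_isLocalNormAt (q : Nat.Primes) (𝔪 : Ideal (Ksemi K q)) (b : Kˣ)
    (h : IsLocalNormAt K M q 𝔪 b) :
    ∃ x : M ⊗[K] Kloc K q 𝔪, ∏ τ : M ≃ₐ[K] M, τ • x =
      (1 : M) ⊗ₜ[K] algebraMap K (Kloc K q 𝔪) (b : K) :=
  exists_of_galNormK K M b h

end unfold

section primes

/-- A nonzero prime of `𝓞 K` contains a rational prime. -/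
theorem exists_primes_mem (K : Type) [Field K] [NumberField K] (P : Ideal (𝓞 K)) (hP : P.IsPrime)
    (hP0 : P ≠ ⊥) : ∃ q : Nat.Primes, (((q : Nat.Primes) : ℕ) : 𝓞 K) ∈ P := by
  have h1 : P.under ℤ ≠ ⊥ := Ideal.under_ne_bot ℤ hP0
  have h2 : (P.under ℤ).IsPrime := Ideal.IsPrime.under ℤ P
  obtain ⟨n, hn⟩ := (IsPrincipalIdealRing.principal (P.under ℤ)).principal
  have hn' : P.under ℤ = Ideal.span {n} := hn
  have hn0 : n ≠ 0 := by
    rintro rfl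
    apply h1
    rw [hn']
    simp
  have hnp : Prime n := by
    rw [hn'] at h2
    exact (Ideal.span_singleton_prime hn0).mp h2
  refine ⟨⟨n.natAbs, Int.prime_iff_natAbs_prime.mp hnp⟩, ?_⟩
  have h3 : ((n.natAbs : ℤ)) ∈ P.under ℤ := by
    rw [hn', Ideal.mem_span_singleton]
    exact Int.dvd_natAbs_self
  have h4 := Ideal.mem_comap.mp h3
  rw [algebraMap_int_eq, eq_intCast, Int.cast_natCast] at h4
  exact h4

end primes

section main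

variable {K M C : Type} [Field K] [NumberField K] [Field M] [NumberField M] [Field C]
  [NumberField C] [Algebra K M] [Algebra K C] [Algebra M C] [IsScalarTower K M C]
  [IsGalois K M] [IsGalois K C]

/-- A local-norm model at every prime `v ≠ v₀` of `𝓞 K`, from `IsLocalNormAt` off `(q₀, 𝔪₀)`. -/
theorem exists_model_of_off (q₀ : Nat.Primes) (𝔪₀ : Ideal (Ksemi K q₀)) [h𝔪₀ : 𝔪₀.IsMaximal]
    (b : Kˣ)
    (hloc : ∀ (q : Nat.Primes) (𝔪 : Ideal (Ksemi K q)), 𝔪.IsMaximal →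
      ¬ (∃ h : q = q₀, h ▸ 𝔪 = 𝔪₀) → IsLocalNormAt K M q 𝔪 b)
    (v : Place K) (hv : v ≠ placeOfMax 𝔪₀) :
    ∃ (A : Type) (_ : CommRing A) (_ : Algebra K A) (_ : A →ₐ[K] v.adicCompletion K),
      ∃ x : M ⊗[K] A, ∏ τ : M ≃ₐ[K] M, τ • x = (1 : M) ⊗ₜ[K] algebraMap K A (b : K) := by
  obtain ⟨q, hq⟩ := exists_primes_mem K v.asIdeal v.isPrime v.ne_bot
  obtain ⟨𝔪, h𝔪, hpl, ⟨f⟩⟩ := exists_kloc_algEquiv K q v hq
  have hne : ¬ (∃ h : q = q₀, h ▸ 𝔪 = 𝔪₀) := by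
    rintro ⟨h, h'⟩
    subst h
    have h'' : 𝔪 = 𝔪₀ := h'
    subst h''
    exact hv hpl.symm
  exact ⟨Kloc K q 𝔪, inferInstance, inferInstance, f.toAlgHom,
    exists_of_isLocalNormAt K M q 𝔪 b (hloc q 𝔪 h𝔪 hne)⟩

/-- **Cyclotomic single support, element level, count form.** -/
theorem inertiaDeg_dvd_count_of_off {l : ℕ} (hl : l ≠ 0) [IsTotallyComplex K]
    [IsCyclotomicExtension {l} K C]
    (hunr : ∀ (P : Ideal (𝓞 M)), P.IsPrime → P ≠ ⊥ → (l : 𝓞 M) ∉ P →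
      ∀ σ : M ≃ₐ[K] M, σ ∈ P.inertia (M ≃ₐ[K] M) → σ = 1)
    (q₀ : Nat.Primes) (𝔪₀ : Ideal (Ksemi K q₀)) [h𝔪₀ : 𝔪₀.IsMaximal]
    (hl₀ : (l : 𝓞 K) ∉ (placeOfMax 𝔪₀).asIdeal) (b : Kˣ)
    (hloc : ∀ (q : Nat.Primes) (𝔪 : Ideal (Ksemi K q)), 𝔪.IsMaximal →
      ¬ (∃ h : q = q₀, h ▸ 𝔪 = 𝔪₀) → IsLocalNormAt K M q 𝔪 b)
    (c d : 𝓞 K) (hc : c ≠ 0) (hd : d ≠ 0)
    (hb : (b : K) = algebraMap (𝓞 K) K c / algebraMap (𝓞 K) K d)
    (P₀ : Ideal (𝓞 M)) (hP₀ : P₀.IsPrime) (hP₀v : P₀.under (𝓞 K) = (placeOfMax 𝔪₀).asIdeal) :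
    ((P₀.inertiaDeg (𝓞 K) : ℕ) : ℤ) ∣
      ((normalizedFactors (Ideal.span {c})).count (placeOfMax 𝔪₀).asIdeal : ℤ) -
        ((normalizedFactors (Ideal.span {d})).count (placeOfMax 𝔪₀).asIdeal : ℤ) := by
  have hlK : ((l : ℕ) : 𝓞 K) ≠ 0 := by
    rw [Ne, Nat.cast_eq_zero]; exact hl
  set v₀ : Place K := placeOfMax 𝔪₀ with hv₀
  refine single_support_inertiaDeg (C := C) hunr v₀.asIdeal v₀.isPrime v₀.ne_bot hl₀ c d hc hd
    ?_ ?_ P₀ hP₀ hP₀v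
  · intro v hv hv0 hvne _
    have hne : (⟨v, hv, hv0⟩ : Place K) ≠ v₀ := fun h => hvne (congrArg (·.asIdeal) h)
    obtain ⟨A, _, _, φ, hx⟩ := exists_model_of_off (M := M) q₀ 𝔪₀ b hloc ⟨v, hv, hv0⟩ hne
    rw [hb] at hx
    exact exists_inertiaDeg_dvd K M v hv hv0 c d hc hd φ hx
  · refine exists_H2_of_algHom K M l hlK c d hc hd fun v hv => ?_
    have hne : v ≠ v₀ := fun h => hl₀ (h ▸ hv)
    obtain ⟨A, i1, i2, φ, hx⟩ := exists_model_of_off (M := M) q₀ 𝔪₀ b hloc v hne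
    rw [hb] at hx
    exact ⟨A, i1, i2, φ, hx⟩

/-- **Cyclotomic single support, element level, valuation form**: `f(P₀/v₀) ∣ v₀(b)`. -/
theorem inertiaDeg_dvd_log_of_off {l : ℕ} (hl : l ≠ 0) [IsTotallyComplex K]
    [IsCyclotomicExtension {l} K C]
    (hunr : ∀ (P : Ideal (𝓞 M)), P.IsPrime → P ≠ ⊥ → (l : 𝓞 M) ∉ P →
      ∀ σ : M ≃ₐ[K] M, σ ∈ P.inertia (M ≃ₐ[K] M) → σ = 1)
    (q₀ : Nat.Primes) (𝔪₀ : Ideal (Ksemi K q₀)) [h𝔪₀ : 𝔪₀.IsMaximal]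
    (hl₀ : (l : 𝓞 K) ∉ (placeOfMax 𝔪₀).asIdeal) (b : Kˣ)
    (hloc : ∀ (q : Nat.Primes) (𝔪 : Ideal (Ksemi K q)), 𝔪.IsMaximal →
      ¬ (∃ h : q = q₀, h ▸ 𝔪 = 𝔪₀) → IsLocalNormAt K M q 𝔪 b)
    (P₀ : Ideal (𝓞 M)) (hP₀ : P₀.IsPrime) (hP₀v : P₀.under (𝓞 K) = (placeOfMax 𝔪₀).asIdeal) :
    ((P₀.inertiaDeg (𝓞 K) : ℕ) : ℤ) ∣
      WithZero.log ((placeOfMax 𝔪₀).valuation K (b : K)) := by
  obtain ⟨c, d, hd, hcd⟩ := IsFractionRing.div_surjective (A := 𝓞 K) (b : K)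
  have hd' : d ≠ 0 := nonZeroDivisors.ne_zero hd
  have hc' : c ≠ 0 := by
    rintro rfl
    rw [map_zero, zero_div] at hcd
    exact b.ne_zero hcd.symm
  have h := inertiaDeg_dvd_count_of_off (C := C) hl hunr q₀ 𝔪₀ hl₀ b hloc c d hc' hd' hcd.symm
    P₀ hP₀ hP₀v
  rw [← log_valuation_div (F := K) (placeOfMax 𝔪₀) hc' hd', hcd] at h
  exact (dvd_neg.mp h)

/-- **Cyclotomic single support for local norms** (`NoSingleSupport` at the level of elements),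
modulo the backward half of R.unramLocal at `(q₀, 𝔪₀)` (hypothesis `hbwd`, = helper15's
`RecipUnramBwd`). -/
theorem isLocalNormAt_of_off {l : ℕ} (hl : l ≠ 0) [IsTotallyComplex K]
    [IsCyclotomicExtension {l} K C]
    (hunr : ∀ (P : Ideal (𝓞 M)), P.IsPrime → P ≠ ⊥ → (l : 𝓞 M) ∉ P →
      ∀ σ : M ≃ₐ[K] M, σ ∈ P.inertia (M ≃ₐ[K] M) → σ = 1)
    (q₀ : Nat.Primes) (𝔪₀ : Ideal (Ksemi K q₀)) [h𝔪₀ : 𝔪₀.IsMaximal]
    (hl₀ : (l : 𝓞 K) ∉ (placeOfMax 𝔪₀).asIdeal) (b : Kˣ)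
    (hbwd : (∀ P₀ : Ideal (𝓞 M), P₀.IsPrime → P₀.under (𝓞 K) = (placeOfMax 𝔪₀).asIdeal →
      ((P₀.inertiaDeg (𝓞 K) : ℕ) : ℤ) ∣ WithZero.log ((placeOfMax 𝔪₀).valuation K (b : K))) →
      IsLocalNormAt K M q₀ 𝔪₀ b)
    (hloc : ∀ (q : Nat.Primes) (𝔪 : Ideal (Ksemi K q)), 𝔪.IsMaximal →
      ¬ (∃ h : q = q₀, h ▸ 𝔪 = 𝔪₀) → IsLocalNormAt K M q 𝔪 b) :
    IsLocalNormAt K M q₀ 𝔪₀ b :=
  hbwd fun P₀ hP₀ hP₀v =>
    inertiaDeg_dvd_log_of_off (C := C) hl hunr q₀ 𝔪₀ hl₀ b hloc P₀ hP₀ hP₀v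

end main

end Fermat.Agent.S55.Global.RecipCyclicNorm
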