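import Mathlib
import Fermat.Agent.S55.Global.SemilocalDecomp

/-!
# S55 / Global / G.recip (7b), abstract core: norms lift from the decomposition group

`G` a finite group acting on a commutative ring `B`, `m` an ideal with stabiliser `D`, `E = B ⧸ m`
(with the `D`-action `SemilocalDecomp.stabQuotAction`).  Assume `B ≅ {D-equivariant maps G → E}`
(`hinj`, `hsurj`: the outputs `phi_injective`, `exists_phi_eq` of `SemilocalDecomp` /
`SemilocalTensor`).  If a `G`-invariant `b' ∈ B` has image in `E` equal to a `D`-norm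
`∏_{d ∈ D} d • z`, then `b'` is a `G`-norm `∏_{τ ∈ G} τ • y`.
-/

set_option autoImplicit false

namespace Fermat.Agent.S55.Global.RecipLift

open scoped Pointwise
open Fermat.Agent.S55.Global.SemilocalDecomp

attribute [local instance] stabQuotAction

variable {G B : Type*} [Group G] [Fintype G] [CommRing B] [MulSemiringAction G B] (m : Ideal B)
  [Fintype (MulAction.stabilizer G m)]

/-- **Norms lift from the decomposition group** (Shapiro in degree `0`). -/
theorem exists_prod_smul_eq
    (hinj : Function.Injective (fun (b : B) (g : G) => Ideal.Quotient.mk m (g • b)))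
    (hsurj : ∀ f : G → B ⧸ m,
      (∀ (d : MulAction.stabilizer G m) (g : G), f (d.1 * g) = d • f g) →
        ∃ b : B, ∀ g : G, Ideal.Quotient.mk m (g • b) = f g)
    (b' : B) (hb' : ∀ g : G, g • b' = b') (z : B ⧸ m)
    (hz : ∏ d : MulAction.stabilizer G m, d • z = Ideal.Quotient.mk m b') :
    ∃ y : B, ∏ τ : G, τ • y = b' := by
  classical
  set D := MulAction.stabilizer G m with hD
  let f : G → B ⧸ m := fun g => if h : g ∈ D then (⟨g, h⟩ : D) • z else 1
  have hfD : ∀ d : D, f d.1 = d • z := fun d => by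
    simp only [f, dif_pos d.2]
  have hfnD : ∀ g : G, g ∉ D → f g = 1 := fun g hg => by
    simp only [f, dif_neg hg]
  have hf : ∀ (d : D) (g : G), f (d.1 * g) = d • f g := by
    intro d g
    by_cases hg : g ∈ D
    · have h1 := hfD (d * ⟨g, hg⟩)
      have h2 := hfD ⟨g, hg⟩
      simp only [Subgroup.coe_mul] at h1 h2
      rw [h1, h2, mul_smul]
    · have hdg : d.1 * g ∉ D := fun h => hg (by
        have := D.mul_mem (D.inv_mem d.2) h
        simpa using this)
      rw [hfnD _ hg, hfnD _ hdg, smul_one]
  obtain ⟨y, hy⟩ := hsurj f hf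
  refine ⟨y, hinj (funext fun g => ?_)⟩
  show Ideal.Quotient.mk m (g • ∏ τ : G, τ • y) = Ideal.Quotient.mk m (g • b')
  rw [hb' g, Finset.smul_prod', map_prod]
  have h1 : ∀ τ : G, Ideal.Quotient.mk m (g • τ • y) = f (g * τ) := fun τ => by
    rw [← mul_smul, hy]
  simp_rw [h1]
  rw [Fintype.prod_equiv (Equiv.mulLeft g) (fun τ => f (g * τ)) f (fun τ => rfl), ← hz]
  rw [← Finset.prod_filter_mul_prod_filter_not Finset.univ (fun g : G => g ∈ D) f]
  have h2 : ∏ x ∈ Finset.univ.filter (fun g : G => ¬ g ∈ D), f x = 1 :=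
    Finset.prod_eq_one fun x hx => hfnD x (Finset.mem_filter.mp hx).2
  rw [h2, mul_one, Finset.prod_subtype (Finset.univ.filter (fun g : G => g ∈ D))
    (p := fun g => g ∈ D) (fun x => by simp) f]
  exact Finset.prod_congr rfl fun d _ => hfD d

/-- A factor of a unit norm is a unit. -/
theorem isUnit_of_prod_smul_eq {y b' : B} (h : ∏ τ : G, τ • y = b') (hb' : IsUnit b') :
    IsUnit y := by
  classical
  rw [← Finset.mul_prod_erase Finset.univ (fun τ : G => τ • y) (Finset.mem_univ 1), one_smul] at h
  exact isUnit_of_mul_isUnit_left (h ▸ hb')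

end Fermat.Agent.S55.Global.RecipLift
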