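import Mathlib

/-!
# S55 / Global / G.semilocal.valued (V1): completions of number fields are local fields

`K` a number field, `v : HeightOneSpectrum (𝓞 K)`, `K_v := v.adicCompletion K` with Mathlib's
normed field structure.  We show that `K_v` is a nonarchimedean local field in the sense (LF) of
`S55/Local/Basic.lean`: `NontriviallyNormedField`, `IsUltrametricDist`, `ProperSpace`.
-/

set_option autoImplicit false

namespace Fermat.Agent.S55.Global.SemilocalValued

open IsDedekindDomain NumberField IsDedekindDomain.HeightOneSpectrum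

open scoped Valued WithZero

variable (K : Type*) [Field K] [NumberField K] (v : HeightOneSpectrum (𝓞 K))

theorem valued_algebraMap_K (k : K) :
    Valued.v (algebraMap K (v.adicCompletion K) k) = v.valuation K k :=
  valuedAdicCompletion_eq_valuation' v k

theorem valued_algebraMap_int (r : 𝓞 K) :
    Valued.v (algebraMap (𝓞 K) (v.adicCompletion K) r) = v.intValuation r := by
  have h : algebraMap (𝓞 K) (v.adicCompletion K) r =
      algebraMap K (v.adicCompletion K) (algebraMap (𝓞 K) K r) :=
    IsScalarTower.algebraMap_apply (𝓞 K) K (v.adicCompletion K) r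
  rw [h, valued_algebraMap_K, valuation_of_algebraMap]

/-- The ring homomorphism `𝓞 K → 𝒪[K_v]`. -/
noncomputable def toInteger : 𝓞 K →+* 𝒪[v.adicCompletion K] :=
  (algebraMap (𝓞 K) (v.adicCompletion K)).codRestrict (Valued.integer (v.adicCompletion K))
    (fun r => by
      rw [Valuation.mem_integer_iff, valued_algebraMap_int]
      exact v.intValuation_le_one r)

theorem coe_toInteger (r : 𝓞 K) :
    ((toInteger K v r : 𝒪[v.adicCompletion K]) : v.adicCompletion K) =
      algebraMap (𝓞 K) (v.adicCompletion K) r := rfl

/-- Every local integer is congruent to a global integer modulo the maximal ideal. -/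
theorem exists_int_sub_lt (x : v.adicCompletion K) (hx : Valued.v x ≤ 1) :
    ∃ a : 𝓞 K, Valued.v (algebraMap (𝓞 K) (v.adicCompletion K) a - x) < 1 := by
  -- density of `K`
  have hopen : Metric.ball x 1 ∈ nhds x := Metric.ball_mem_nhds x one_pos
  obtain ⟨k, hy⟩ := (denseRange_algebraMap (R := 𝓞 K) K v).mem_nhds hopen
  have hy' : Valued.v (algebraMap K (v.adicCompletion K) k - x) < 1 := by
    rw [Metric.mem_ball, dist_eq_norm] at hy
    exact Valued.toNormedField.norm_lt_one_iff.1 hy
  have hk : v.valuation K k ≤ 1 := by
    rw [← valued_algebraMap_K]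
    have : algebraMap K (v.adicCompletion K) k = (algebraMap K (v.adicCompletion K) k - x) + x := by
      ring
    rw [this]
    exact (Valuation.map_add _ _ _).trans (max_le hy'.le hx)
  obtain ⟨a, ha⟩ := v.exists_valuation_sub_lt_of_integer (K := K) hk 1
  refine ⟨a, ?_⟩
  have h2 : algebraMap (𝓞 K) (v.adicCompletion K) a - x =
      algebraMap K (v.adicCompletion K) (algebraMap (𝓞 K) K a - k) +
        (algebraMap K (v.adicCompletion K) k - x) := by
    rw [map_sub, ← IsScalarTower.algebraMap_apply (𝓞 K) K (v.adicCompletion K)]
    ring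
  rw [h2]
  refine (Valuation.map_add _ _ _).trans_lt (max_lt ?_ hy')
  rw [valued_algebraMap_K]
  simpa using ha

theorem mem_maximalIdeal_integer_iff (x : 𝒪[v.adicCompletion K]) :
    x ∈ IsLocalRing.maximalIdeal 𝒪[v.adicCompletion K] ↔ Valued.v (x : v.adicCompletion K) < 1 := by
  rw [IsLocalRing.mem_maximalIdeal, mem_nonunits_iff,
    Valuation.Integer.not_isUnit_iff_valuation_lt_one]

/-- The residue map restricted to the global integers. -/
noncomputable def toResidue : 𝓞 K →+* 𝓀[v.adicCompletion K] :=
  (IsLocalRing.residue 𝒪[v.adicCompletion K]).comp (toInteger K v)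

theorem toResidue_surjective : Function.Surjective (toResidue K v) := by
  intro z
  obtain ⟨x, rfl⟩ := IsLocalRing.residue_surjective z
  obtain ⟨a, ha⟩ := exists_int_sub_lt K v (x : v.adicCompletion K)
    ((Valuation.mem_integer_iff _ _).1 x.2)
  refine ⟨a, ?_⟩
  rw [toResidue, RingHom.comp_apply, ← sub_eq_zero, ← map_sub, IsLocalRing.residue_eq_zero_iff,
    mem_maximalIdeal_integer_iff]
  exact ha

theorem toResidue_eq_zero_of_mem {a : 𝓞 K} (ha : a ∈ v.asIdeal) : toResidue K v a = 0 := by
  rw [toResidue, RingHom.comp_apply, IsLocalRing.residue_eq_zero_iff,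
    mem_maximalIdeal_integer_iff, coe_toInteger, valued_algebraMap_int]
  exact (v.intValuation_lt_one_iff_mem a).2 ha

/-- **The residue field of `K_v` is finite.** -/
theorem finite_residueField : Finite 𝓀[v.adicCompletion K] := by
  let f : 𝓞 K ⧸ v.asIdeal →+* 𝓀[v.adicCompletion K] :=
    Ideal.Quotient.lift v.asIdeal (toResidue K v) (fun a ha => toResidue_eq_zero_of_mem K v ha)
  have hf : Function.Surjective f := by
    intro z
    obtain ⟨a, rfl⟩ := toResidue_surjective K v z
    exact ⟨Ideal.Quotient.mk _ a, by simp [f]⟩
  have : Finite (𝓞 K ⧸ v.asIdeal) := inferInstance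
  exact Finite.of_surjective f hf

/-- **`K_v` is locally compact** (a proper metric space). -/
theorem properSpace : ProperSpace (v.adicCompletion K) := by
  rw [Valued.integer.properSpace_iff_completeSpace_and_isDiscreteValuationRing_integer_and_finite_residueField]
  refine ⟨inferInstance, ?_, finite_residueField K v⟩
  exact (inferInstance : IsDiscreteValuationRing (v.adicCompletionIntegers K))

theorem exists_norm_pos_lt_one : ∃ x : v.adicCompletion K, 0 < ‖x‖ ∧ ‖x‖ < 1 := by
  obtain ⟨π, hπ⟩ := v.valuation_exists_uniformizer K
  have hlt : Valued.v (algebraMap K (v.adicCompletion K) π) < 1 := by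
    rw [valued_algebraMap_K, hπ, ← WithZero.exp_zero, WithZero.exp_lt_exp]
    norm_num
  have hne : algebraMap K (v.adicCompletion K) π ≠ 0 := by
    intro h
    have h0 : v.valuation K π = 0 := by rw [← valued_algebraMap_K, h, map_zero]
    rw [hπ] at h0
    exact WithZero.exp_ne_zero h0
  exact ⟨algebraMap K (v.adicCompletion K) π, norm_pos_iff.2 hne,
    Valued.toNormedField.norm_lt_one_iff.2 hlt⟩

/-- `K_v` is nontrivially normed. -/
@[reducible] noncomputable def nontriviallyNormedField :
    NontriviallyNormedField (v.adicCompletion K) where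
  __ := (inferInstance : NormedField (v.adicCompletion K))
  non_trivial := by
    obtain ⟨x, hx0, hx1⟩ := exists_norm_pos_lt_one K v
    exact ⟨x⁻¹, by rw [norm_inv]; exact (one_lt_inv₀ hx0).2 hx1⟩

/-- `K_v` satisfies (LF) of `S55/Local/Basic.lean`. -/
example : True := by
  let _ : NontriviallyNormedField (v.adicCompletion K) := nontriviallyNormedField K v
  have h1 : IsUltrametricDist (v.adicCompletion K) := inferInstance
  have h2 : ProperSpace (v.adicCompletion K) := properSpace K v
  trivial

end Fermat.Agent.S55.Global.SemilocalValued
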