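import Mathlib
import Fermat.Agent.S55.Global.SemilocalValued

/-!
# S55 / Global / G.semilocal.valued (V3): the unramified dictionary

`K ⊆ L` number fields, `v` a finite place of `K`, `K_v := v.adicCompletion K`, and `E` a normed
field, finite normed `K_v`-algebra, containing `L` compatibly (e.g. a quotient field of
`L ⊗[K] K_v`).  We relate the norm of `E` restricted to `L` to the prime
`w := {x ∈ 𝓞 L | ‖x‖ < 1}` of `𝓞 L` cut out by `E`, and show that if `v 𝓞_L ⊄ w ^ 2`
(i.e. `e(w | v) = 1`) then `E / K_v` has the same value group as `K_v`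
(`∀ x : E, ∃ y : K_v, ‖x‖ = ‖y‖`), which is the Local block's `IsUnram`.
-/

set_option autoImplicit false
set_option linter.unusedSectionVars false

namespace Fermat.Agent.S55.Global.UnramDict

open IsDedekindDomain NumberField IsDedekindDomain.HeightOneSpectrum

open scoped Valued WithZero NNReal

section Integral

variable {E : Type*} [NormedField E] [IsUltrametricDist E]

/-- In an ultrametric normed field, elements integral over `ℤ` have norm `≤ 1`. -/
theorem norm_le_one_of_isIntegral {y : E} (hy : IsIntegral ℤ y) : ‖y‖ ≤ 1 := by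
  let A : ValuationSubring E := (NormedField.valuation (K := E)).valuationSubring
  have hA : IsIntegral A y := hy.tower_top
  obtain ⟨a, ha⟩ := IsIntegrallyClosed.isIntegral_iff.1 hA
  have h1 : NormedField.valuation (K := E) (a : E) ≤ 1 :=
    (Valuation.mem_valuationSubring_iff _ _).1 a.2
  rw [← ha]
  have : ‖(a : E)‖₊ ≤ 1 := h1
  exact_mod_cast this

end Integral

section Setting

variable (K : Type*) [Field K] [NumberField K] (v : HeightOneSpectrum (𝓞 K))
variable (L : Type*) [Field L] [NumberField L] [Algebra K L]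
variable (E : Type*) [NormedField E] [NormedAlgebra (v.adicCompletion K) E]
  [Algebra L E] [Algebra K E] [IsScalarTower K L E] [IsScalarTower K (v.adicCompletion K) E]

include K v

omit [Algebra K E] [IsScalarTower K (v.adicCompletion K) E] in
theorem isUltrametricDist : IsUltrametricDist E :=
  IsUltrametricDist.of_normedAlgebra (v.adicCompletion K)

/-- The norm of a global integer of `L` in `E` is `≤ 1`. -/
theorem norm_int_le_one (x : 𝓞 L) : ‖algebraMap L E (x : L)‖ ≤ 1 := by
  have := isUltrametricDist K v E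
  have hx : IsIntegral ℤ (x : L) := RingOfIntegers.isIntegral_coe x
  exact norm_le_one_of_isIntegral (hx.map (algebraMap L E).toIntAlgHom)

omit [NumberField L] in
/-- Norm in `E` of an element of `K`. -/
theorem norm_algebraMap_K (k : K) :
    ‖algebraMap L E (algebraMap K L k)‖ = ‖algebraMap K (v.adicCompletion K) k‖ := by
  rw [← IsScalarTower.algebraMap_apply K L E, IsScalarTower.algebraMap_apply K (v.adicCompletion K) E,
    norm_algebraMap']

omit [NumberField L] in
theorem norm_algebraMap_K_lt_one_iff (a : 𝓞 K) :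
    ‖algebraMap L E (algebraMap K L (a : K))‖ < 1 ↔ a ∈ v.asIdeal := by
  rw [norm_algebraMap_K K v L E, Valued.toNormedField.norm_lt_one_iff, SemilocalValued.valued_algebraMap_K,
    valuation_of_algebraMap, intValuation_lt_one_iff_mem]

/-- The prime ideal of `𝓞 L` cut out by `E`. -/
def primeIdeal : Ideal (𝓞 L) where
  carrier := {x | ‖algebraMap L E (x : L)‖ < 1}
  add_mem' := by
    intro x y hx hy
    have := isUltrametricDist K v E
    simp only [Set.mem_ofPred_eq, map_add] at hx hy ⊢
    exact (IsUltrametricDist.norm_add_le_max _ _).trans_lt (max_lt hx hy)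
  zero_mem' := by simp
  smul_mem' := by
    intro c x hx
    simp only [Set.mem_ofPred_eq, smul_eq_mul, map_mul, norm_mul] at hx ⊢
    calc ‖algebraMap L E (c : L)‖ * ‖algebraMap L E (x : L)‖
        ≤ 1 * ‖algebraMap L E (x : L)‖ :=
          mul_le_mul_of_nonneg_right (norm_int_le_one K v L E c) (norm_nonneg _)
      _ < 1 := by rwa [one_mul]

theorem mem_primeIdeal {x : 𝓞 L} : x ∈ primeIdeal K v L E ↔ ‖algebraMap L E (x : L)‖ < 1 := Iff.rfl

theorem norm_eq_one_of_notMem {x : 𝓞 L} (hx : x ∉ primeIdeal K v L E) :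
    ‖algebraMap L E (x : L)‖ = 1 :=
  le_antisymm (norm_int_le_one K v L E x) (not_lt.1 hx)

instance primeIdeal_isPrime : (primeIdeal K v L E).IsPrime := by
  rw [Ideal.isPrime_iff]
  refine ⟨?_, fun {x y} hxy => ?_⟩
  · rw [Ideal.ne_top_iff_one]
    intro h
    rw [mem_primeIdeal] at h
    simp at h
  · by_contra hcon
    have hcon' : x ∉ primeIdeal K v L E ∧ y ∉ primeIdeal K v L E := not_or.1 hcon
    obtain ⟨hx, hy⟩ := hcon'
    rw [mem_primeIdeal] at hxy
    simp only [map_mul, norm_mul] at hxy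
    rw [norm_eq_one_of_notMem K v L E hx, norm_eq_one_of_notMem K v L E hy] at hxy
    norm_num at hxy

theorem comap_primeIdeal :
    (primeIdeal K v L E).comap (algebraMap (𝓞 K) (𝓞 L)) = v.asIdeal := by
  ext a
  rw [Ideal.mem_comap, mem_primeIdeal]
  have : ((algebraMap (𝓞 K) (𝓞 L) a : 𝓞 L) : L) = algebraMap K L (a : K) := rfl
  rw [this, norm_algebraMap_K_lt_one_iff K v L E]

theorem primeIdeal_ne_bot : primeIdeal K v L E ≠ ⊥ := by
  obtain ⟨a, hav, ha0⟩ := Submodule.exists_mem_ne_zero_of_ne_bot v.ne_bot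
  intro h
  have hmem : algebraMap (𝓞 K) (𝓞 L) a ∈ primeIdeal K v L E := by
    rw [← Ideal.mem_comap, comap_primeIdeal]; exact hav
  rw [h, Ideal.mem_bot] at hmem
  exact ha0 ((FaithfulSMul.algebraMap_injective (𝓞 K) (𝓞 L)) (by rw [hmem, map_zero]))

/-- The place of `L` cut out by `E`. -/
def placeOf : HeightOneSpectrum (𝓞 L) :=
  ⟨primeIdeal K v L E, inferInstance, primeIdeal_ne_bot K v L E⟩

end Setting

section Dense

variable (K : Type*) [Field K] [NumberField K] (v : HeightOneSpectrum (𝓞 K))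
variable (L : Type*) [Field L] [NumberField L] [Algebra K L]
variable (E : Type*) [NormedField E] [NormedAlgebra (v.adicCompletion K) E]
  [Algebra L E] [Algebra K E] [IsScalarTower K L E] [IsScalarTower K (v.adicCompletion K) E]

include K v

/-- If `E` is generated by `L` over `K_v`, then `L` is dense in `E`. -/
theorem denseRange_algebraMap_L
    (hgen : Algebra.adjoin (v.adicCompletion K) (Set.range (algebraMap L E)) = ⊤) :
    DenseRange (algebraMap L E) := by
  let A : Subalgebra K E := (IsScalarTower.toAlgHom K L E).range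
  let T : Subalgebra K E := A.topologicalClosure
  have hAT : ∀ l : L, algebraMap L E l ∈ T := fun l =>
    A.le_topologicalClosure ⟨l, rfl⟩
  have claim1 : ∀ c : v.adicCompletion K, algebraMap (v.adicCompletion K) E c ∈ T := by
    intro c
    refine (denseRange_algebraMap (R := 𝓞 K) K v).induction_on c ?_ ?_
    · exact A.isClosed_topologicalClosure.preimage (continuous_algebraMap (v.adicCompletion K) E)
    · intro k
      have : algebraMap (v.adicCompletion K) E (algebraMap K (v.adicCompletion K) k) =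
          algebraMap L E (algebraMap K L k) := by
        rw [← IsScalarTower.algebraMap_apply K (v.adicCompletion K) E,
          ← IsScalarTower.algebraMap_apply K L E]
      rw [this]
      exact hAT _
  let T' : Subalgebra (v.adicCompletion K) E :=
    { T.toSubsemiring with algebraMap_mem' := claim1 }
  have hle : Algebra.adjoin (v.adicCompletion K) (Set.range (algebraMap L E)) ≤ T' := by
    refine Algebra.adjoin_le ?_
    rintro _ ⟨l, rfl⟩
    exact hAT l
  rw [hgen] at hle
  intro x
  have hx : x ∈ T' := hle Algebra.mem_top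
  have hx' : x ∈ closure (A : Set E) := hx
  have hA : (A : Set E) = Set.range (algebraMap L E) := by
    ext y
    constructor
    · rintro ⟨l, rfl⟩; exact ⟨l, rfl⟩
    · rintro ⟨l, rfl⟩; exact ⟨l, rfl⟩
  rwa [hA] at hx'

/-- Every nonzero element of `E` has the norm of an element of `L`. -/
theorem exists_norm_eq_of_ne_zero
    (hgen : Algebra.adjoin (v.adicCompletion K) (Set.range (algebraMap L E)) = ⊤)
    {x : E} (hx : x ≠ 0) : ∃ l : L, l ≠ 0 ∧ ‖algebraMap L E l‖ = ‖x‖ := by
  have := isUltrametricDist K v E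
  have hopen : Metric.ball x ‖x‖ ∈ nhds x := Metric.ball_mem_nhds x (norm_pos_iff.2 hx)
  obtain ⟨l, hl⟩ := (denseRange_algebraMap_L K v L E hgen).mem_nhds hopen
  rw [Metric.mem_ball, dist_eq_norm] at hl
  have hne : ‖algebraMap L E l - x‖ ≠ ‖x‖ := hl.ne
  have h2 := IsUltrametricDist.norm_add_eq_max_of_norm_ne_norm hne
  rw [sub_add_cancel, max_eq_right hl.le] at h2
  refine ⟨l, ?_, h2⟩
  rintro rfl
  rw [map_zero, norm_zero] at h2
  exact hx (norm_eq_zero.1 h2.symm)

end Dense

section Unram

variable (K : Type*) [Field K] [NumberField K] (v : HeightOneSpectrum (𝓞 K))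
variable (L : Type*) [Field L] [NumberField L] [Algebra K L]
variable (E : Type*) [NormedField E] [NormedAlgebra (v.adicCompletion K) E]
  [Algebra L E] [Algebra K E] [IsScalarTower K L E] [IsScalarTower K (v.adicCompletion K) E]

include K v

/-- Elements of `L` of `w`-adic valuation `1` have norm `1` in `E`. -/
theorem norm_eq_one_of_valuation_eq_one {u : L}
    (hu : (placeOf K v L E).valuation L u = 1) : ‖algebraMap L E u‖ = 1 := by
  obtain ⟨n, d, hnd⟩ := exists_primeCompl_mul_eq_of_integer (placeOf K v L E) u hu.le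
  have hd : (d : 𝓞 L) ∉ primeIdeal K v L E := d.2
  have hdv : (placeOf K v L E).valuation L (algebraMap (𝓞 L) L d) = 1 :=
    (valuation_eq_one_iff_notMem _).2 hd
  have hnv : (placeOf K v L E).valuation L (algebraMap (𝓞 L) L n) = 1 := by
    rw [← hnd, map_mul, hu, hdv, one_mul]
  have hn : n ∉ primeIdeal K v L E := (valuation_eq_one_iff_notMem (placeOf K v L E)).1 hnv
  have h1 := congrArg (fun z => ‖algebraMap L E z‖) hnd
  simp only [map_mul, norm_mul] at h1
  have hd1 : ‖algebraMap L E (algebraMap (𝓞 L) L (d : 𝓞 L))‖ = 1 :=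
    norm_eq_one_of_notMem K v L E hd
  have hn1 : ‖algebraMap L E (algebraMap (𝓞 L) L n)‖ = 1 :=
    norm_eq_one_of_notMem K v L E hn
  rw [hd1, hn1, mul_one] at h1
  exact h1

/-- If `ϖ ∈ w ∖ w²` then the norm of every nonzero element of `L` is an integral power of
`‖ϖ‖`. -/
theorem exists_norm_eq_zpow_of_uniformizer {ϖ : 𝓞 L} (h1 : ϖ ∈ primeIdeal K v L E)
    (h2 : ϖ ∉ (primeIdeal K v L E) ^ 2) {l : L} (hl : l ≠ 0) :
    ∃ a : ℤ, ‖algebraMap L E l‖ = ‖algebraMap L E (ϖ : L)‖ ^ a := by
  set W := placeOf K v L E with hW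
  have hWid : W.asIdeal = primeIdeal K v L E := rfl
  have hϖ0 : ϖ ≠ 0 := by
    rintro rfl
    exact h2 (Ideal.zero_mem _)
  -- valuation of `ϖ`
  have hvϖ : W.valuation L (algebraMap (𝓞 L) L ϖ) = WithZero.exp (-1 : ℤ) := by
    rw [valuation_of_algebraMap]
    have hne : W.intValuation ϖ ≠ 0 := W.intValuation_ne_zero ϖ hϖ0
    rw [← WithZero.exp_log hne]
    have hlt : W.intValuation ϖ < 1 := (W.intValuation_lt_one_iff_mem ϖ).2 (hWid ▸ h1)
    have hnle : ¬ W.intValuation ϖ ≤ WithZero.exp (-((2 : ℕ) : ℤ)) := fun h =>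
      h2 (hWid ▸ (W.intValuation_le_pow_iff_mem ϖ 2).1 h)
    rw [← WithZero.exp_log hne, ← WithZero.exp_zero, WithZero.exp_lt_exp] at hlt
    rw [← WithZero.exp_log hne, WithZero.exp_le_exp] at hnle
    congr 1
    push_cast at hnle
    omega
  -- valuation of `l`
  have hvl : W.valuation L l ≠ 0 := (Valuation.ne_zero_iff _).2 hl
  set b : ℤ := (W.valuation L l).log with hb
  have hvl' : W.valuation L l = WithZero.exp b := (WithZero.exp_log hvl).symm
  have hϖL : algebraMap (𝓞 L) L ϖ ≠ 0 := by
    intro h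
    exact hϖ0 ((FaithfulSMul.algebraMap_injective (𝓞 L) L) (by rw [h, map_zero]))
  -- `u := l / ϖ ^ (-b)` has valuation one
  set u : L := l * (algebraMap (𝓞 L) L ϖ) ^ b with hu
  have huv : W.valuation L u = 1 := by
    rw [hu, map_mul, map_zpow₀, hvl', hvϖ, ← WithZero.exp_zsmul, ← WithZero.exp_add,
      ← WithZero.exp_zero]
    congr 1
    simp
  have hu1 := norm_eq_one_of_valuation_eq_one K v L E huv
  refine ⟨-b, ?_⟩
  have hl' : l = u * (algebraMap (𝓞 L) L ϖ) ^ (-b) := by
    rw [hu, mul_assoc, ← zpow_add₀ hϖL, add_neg_cancel, zpow_zero, mul_one]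
  have : ‖algebraMap L E l‖ = ‖algebraMap L E u‖ * ‖algebraMap L E (algebraMap (𝓞 L) L ϖ)‖ ^ (-b) := by
    conv_lhs => rw [hl']
    rw [map_mul, norm_mul, map_zpow₀, norm_zpow]
  rw [this, hu1, one_mul]

/-- **Unramified dictionary.** If `v 𝓞_L ⊄ w ^ 2` for the prime `w` of `L` cut out by `E`
(i.e. `e(w | v) = 1`) and `E` is generated by `L` over `K_v`, then `E / K_v` is unramified in the
local sense: every element of `E` has the norm of an element of `K_v`. -/
theorem exists_norm_eq_of_unramified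
    (hgen : Algebra.adjoin (v.adicCompletion K) (Set.range (algebraMap L E)) = ⊤)
    (hunr : ¬ (v.asIdeal.map (algebraMap (𝓞 K) (𝓞 L)) ≤ (primeIdeal K v L E) ^ 2)) (x : E) :
    ∃ y : v.adicCompletion K, ‖x‖ = ‖y‖ := by
  by_cases hx : x = 0
  · exact ⟨0, by rw [hx, norm_zero, norm_zero]⟩
  -- a uniformiser of `v` which is a uniformiser of `w`
  obtain ⟨ϖ, hϖv, hϖ2⟩ : ∃ ϖ ∈ v.asIdeal, algebraMap (𝓞 K) (𝓞 L) ϖ ∉ (primeIdeal K v L E) ^ 2 := by
    by_contra hcon
    apply hunr
    rw [Ideal.map_le_iff_le_comap]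
    intro a ha
    by_contra h
    exact hcon ⟨a, ha, h⟩
  have hϖ1 : algebraMap (𝓞 K) (𝓞 L) ϖ ∈ primeIdeal K v L E := by
    rw [← Ideal.mem_comap, comap_primeIdeal]; exact hϖv
  obtain ⟨l, hl0, hl⟩ := exists_norm_eq_of_ne_zero K v L E hgen hx
  obtain ⟨a, ha⟩ := exists_norm_eq_zpow_of_uniformizer K v L E hϖ1 hϖ2 hl0
  refine ⟨(algebraMap K (v.adicCompletion K) (ϖ : K)) ^ a, ?_⟩
  rw [← hl, ha, norm_zpow]
  congr 1
  exact norm_algebraMap_K K v L E (ϖ : K)

instance primeIdeal_liesOver : (primeIdeal K v L E).LiesOver v.asIdeal :=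
  ⟨(comap_primeIdeal K v L E).symm⟩

/-- Variant of `exists_norm_eq_of_unramified` with the hypothesis in the `S14` form
`w.ramificationIdx (𝓞 K) = 1`. -/
theorem exists_norm_eq_of_ramificationIdx_eq_one
    (hgen : Algebra.adjoin (v.adicCompletion K) (Set.range (algebraMap L E)) = ⊤)
    (hunr : (primeIdeal K v L E).ramificationIdx (𝓞 K) = 1) (x : E) :
    ∃ y : v.adicCompletion K, ‖x‖ = ‖y‖ := by
  refine exists_norm_eq_of_unramified K v L E hgen (fun hle => ?_) x
  have h1 : v.asIdeal.ramificationIdx' (primeIdeal K v L E) = 1 := by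
    rw [Ideal.ramificationIdx'_eq_ramificationIdx v.asIdeal (primeIdeal K v L E) v.ne_bot, hunr]
  have hp : v.asIdeal.map (algebraMap (𝓞 K) (𝓞 L)) ≤ primeIdeal K v L E := by
    rw [Ideal.map_le_iff_le_comap, comap_primeIdeal]
  exact (Ideal.ramificationIdx'_ne_one_iff hp).2 hle h1

end Unram

end Fermat.Agent.S55.Global.UnramDict
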