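import Mathlib
import Fermat.Agent.S55.Global.Objects
import Fermat.Agent.S55.Global.RecipLift
import Fermat.Agent.S55.Global.SemilocalTensor
import Fermat.Agent.S55.Global.SemilocalValued
import Fermat.Agent.S55.Global.FiniteExtLF
import Fermat.Agent.S55.Global.UnramDict
import Fermat.Agent.S55.Local.UnramNormLF
import Fermat.Agent.S55.Global.RecipApproxAlg
import Fermat.Agent.S55.Global.Objects4

/-!
# S55 / Global / G.recip (7b): the unramified local norm theorem, backward half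

`M/K` Galois extension of number fields, `v` a prime of `K` unramified in `M`, `b ∈ Kˣ` with
`f(P/v) ∣ v(b)`.  Then `b ⊗ 1` is a Galois norm `∏_τ τ • y` of a unit `y` of
`M ⊗[K] K_v` (`K_v = v.adicCompletion K`), hence of `M ⊗[K] A` for every `K`-algebra `A`
receiving a `K`-algebra map from `K_v`.
-/

set_option autoImplicit false
set_option linter.unusedSectionVars false
set_option linter.style.haveILetI false

open NumberField IsDedekindDomain TensorProduct

namespace Fermat.Agent.S55.Global.RecipUnramBwd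

open Fermat.Agent.S55.Local

/-! ### Step 1: the local statement in the `(LF)` language -/

section LF

variable {F E : Type} [NontriviallyNormedField F] [IsUltrametricDist F] [ProperSpace F]
  [NontriviallyNormedField E] [IsUltrametricDist E] [ProperSpace E]
  [NormedAlgebra F E] [FiniteDimensional F E] [IsGalois F E]

/-- In an unramified extension `E/F` of local fields with Galois group `D`, an element `b` of `Fˣ`
whose valuation is divisible by `|D|` is a `D`-norm. -/
theorem exists_prod_smul_eq_of_dvd (hunr : Blocks.IsUnram F E) {D : Type*} [Group D] [Fintype D]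
    [MulSemiringAction D E] [IsGaloisGroup D F E] (b : Fˣ)
    (hb : (Fintype.card D : ℤ) ∣ ord F b) :
    ∃ z : E, ∏ d : D, d • z = algebraMap F E (b : F) := by
  have hcard : Module.finrank F E = Fintype.card D := by
    rw [← IsGaloisGroup.card_eq_finrank D F E, Nat.card_eq_fintype_card]
  have hmem : b ∈ (Blocks.unitsNorm F E).range := by
    rw [UnramNormLF.mem_range_unitsNorm_iff hunr, hcard]
    exact hb
  obtain ⟨z, hz⟩ := hmem
  refine ⟨(z : E), ?_⟩
  have h1 : Algebra.norm F (z : E) = (b : F) := by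
    have := congrArg (fun u : Fˣ => (u : F)) hz
    simpa [Blocks.unitsNorm] using this
  rw [← h1, Algebra.norm_eq_prod_automorphisms]
  exact Fintype.prod_equiv (IsGaloisGroup.mulEquivAlgEquiv D F E).toEquiv _ _ (fun d => rfl)

end LF

/-! ### Step 1': the same in the hypothesis-explicit language of `Local/UnramNorm` -/

section Explicit

variable {F E : Type*} [Field F] [NormedField E] [IsUltrametricDist E] [CompleteSpace E]
  [Algebra F E] [FiniteDimensional F E] [IsGalois F E]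

theorem exists_prod_smul_eq_of_norm_eq
    (hiso : ∀ (τ : E ≃ₐ[F] E) (x : E), ‖τ x‖ = ‖x‖)
    {ϖ : F} (hϖ0 : 0 < ‖algebraMap F E ϖ‖) (hϖ1 : ‖algebraMap F E ϖ‖ < 1)
    (hϖ : ∀ x : E, x ≠ 0 → ∃ k : ℤ, ‖x‖ = ‖algebraMap F E ϖ‖ ^ k)
    (hfin : ∃ R : Finset E, ∀ x : E, ‖x‖ ≤ 1 → ∃ r ∈ R, ‖x - r‖ < 1)
    {D : Type*} [Group D] [Fintype D] [MulSemiringAction D E] [IsGaloisGroup D F E]
    (b : F) (hb0 : b ≠ 0) (k : ℤ)
    (hb : ‖algebraMap F E b‖ = ‖algebraMap F E ϖ‖ ^ ((Fintype.card D : ℤ) * k)) :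
    ∃ z : E, ∏ d : D, d • z = algebraMap F E b := by
  have hcard : Module.finrank F E = Fintype.card D := by
    rw [← IsGaloisGroup.card_eq_finrank D F E, Nat.card_eq_fintype_card]
  have hmem : Units.mk0 b hb0 ∈ (Units.map (Algebra.norm F : E →* F)).range := by
    rw [UnramNormLF.mem_range_unitsMap_norm_iff_unram hiso hϖ0 hϖ1 hϖ hfin, hcard]
    exact ⟨k, hb⟩
  obtain ⟨z, hz⟩ := hmem
  refine ⟨(z : E), ?_⟩
  have h1 : Algebra.norm F (z : E) = b := by
    have := congrArg (fun u : Fˣ => (u : F)) hz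
    simpa using this
  rw [← h1, Algebra.norm_eq_prod_automorphisms]
  exact Fintype.prod_equiv (IsGaloisGroup.mulEquivAlgEquiv D F E).toEquiv _ _ (fun d => rfl)

end Explicit

/-! ### Step 2: the value group of `K_v` -/

section Valued

open IsDedekindDomain.HeightOneSpectrum
open scoped Valued WithZero

variable (K : Type) [Field K] [NumberField K] (v : HeightOneSpectrum (𝓞 K))

theorem norm_eq_one_of_valued_eq_one {x : v.adicCompletion K} (h : Valued.v x = 1) : ‖x‖ = 1 := by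
  apply le_antisymm
  · rw [Valued.toNormedField.norm_le_one_iff, h]
  · by_contra hlt
    rw [not_le, Valued.toNormedField.norm_lt_one_iff, h] at hlt
    exact lt_irrefl _ hlt

theorem norm_eq_zpow_of_valued {x ϖ : v.adicCompletion K} {n : ℤ} (hϖ : Valued.v ϖ ≠ 0)
    (h : Valued.v x = Valued.v ϖ ^ n) : ‖x‖ = ‖ϖ‖ ^ n := by
  have hϖ0 : ϖ ≠ 0 := fun h0 => hϖ (by rw [h0, map_zero])
  have h1 : Valued.v (x * ϖ ^ (-n)) = 1 := by
    rw [map_mul, map_zpow₀, h, ← zpow_add₀ hϖ, add_neg_cancel, zpow_zero]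
  have h2 := norm_eq_one_of_valued_eq_one K v h1
  rw [norm_mul, norm_zpow, zpow_neg] at h2
  have h3 : ‖ϖ‖ ^ n ≠ 0 := zpow_ne_zero _ (norm_ne_zero_iff.mpr hϖ0)
  field_simp at h2
  exact h2

theorem exp_eq_zpow (m : ℤ) : (WithZero.exp m : ℤᵐ⁰) = (WithZero.exp (-1 : ℤ)) ^ (-m) := by
  rw [← WithZero.exp_zsmul]; simp

variable {K v} in
/-- the image in `K_v` of a global uniformiser generates the value group. -/
theorem uniformizer_spec {π : K} (hπ : v.valuation K π = WithZero.exp (-1 : ℤ)) :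
    0 < ‖algebraMap K (v.adicCompletion K) π‖ ∧ ‖algebraMap K (v.adicCompletion K) π‖ < 1 ∧
    (∀ x : v.adicCompletion K, x ≠ 0 →
      ∃ n : ℤ, ‖x‖ = ‖algebraMap K (v.adicCompletion K) π‖ ^ n) ∧
    (∀ (b : K) (n : ℤ), v.valuation K b = WithZero.exp (-n) →
      ‖algebraMap K (v.adicCompletion K) b‖ = ‖algebraMap K (v.adicCompletion K) π‖ ^ n) := by
  have hv : Valued.v (algebraMap K (v.adicCompletion K) π) = WithZero.exp (-1 : ℤ) := by
    rw [SemilocalValued.valued_algebraMap_K, hπ]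
  have hne : Valued.v (algebraMap K (v.adicCompletion K) π) ≠ 0 := by
    rw [hv]; exact WithZero.exp_ne_zero
  have hπ0 : algebraMap K (v.adicCompletion K) π ≠ 0 := fun h0 => hne (by rw [h0, map_zero])
  refine ⟨norm_pos_iff.mpr hπ0, ?_, ?_, ?_⟩
  · rw [Valued.toNormedField.norm_lt_one_iff, hv, ← WithZero.exp_zero, WithZero.exp_lt_exp]
    norm_num
  · intro x hx
    have hx0 : Valued.v x ≠ 0 := (Valuation.ne_zero_iff _).mpr hx
    refine ⟨-(Valued.v x).log, norm_eq_zpow_of_valued K v hne ?_⟩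
    rw [hv, ← exp_eq_zpow, WithZero.exp_log hx0]
  · intro b n hb
    refine norm_eq_zpow_of_valued K v hne ?_
    rw [hv, SemilocalValued.valued_algebraMap_K, hb, exp_eq_zpow, neg_neg]

end Valued

/-! ### Step 3: one local factor `E` of `M ⊗[K] K_v`, abstractly -/

section Core

open scoped Pointwise

variable (K M : Type) [Field K] [NumberField K] [Field M] [NumberField M] [Algebra K M]
  [IsGalois K M] (v : HeightOneSpectrum (𝓞 K))
variable (E : Type) [Field E] [Algebra (v.adicCompletion K) E]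
  [FiniteDimensional (v.adicCompletion K) E] [Algebra M E]
variable (D : Subgroup (M ≃ₐ[K] M)) [Fintype D] [MulSemiringAction D E]
  [IsGaloisGroup D (v.adicCompletion K) E]

/-- **The unramified local norm theorem at one factor.**  `E` a field, finite over `K_v`, generated
by the image of `M`, Galois over `K_v` with group `D ≤ Gal(M/K)` acting compatibly.  If `M/K` is
unramified above `v` (inertia form) and `f(P/v) ∣ v(b)` for the primes `P ∣ v`, then `b` is a
`D`-norm from `E`. -/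
theorem exists_prod_smul_eq_core
    (hKM : ∀ k : K, algebraMap M E (algebraMap K M k) =
      algebraMap (v.adicCompletion K) E (algebraMap K (v.adicCompletion K) k))
    (hgen : Algebra.adjoin (v.adicCompletion K) (Set.range (algebraMap M E)) = ⊤)
    (hcompat : ∀ (d : D) (m : M), d • algebraMap M E m = algebraMap M E (d.1 m))
    (hunr : ∀ P : Ideal (𝓞 M), P.IsPrime → P.LiesOver v.asIdeal →
      ∀ σ : M ≃ₐ[K] M, σ ∈ P.inertia (M ≃ₐ[K] M) → σ = 1)
    (b : K) (hb : b ≠ 0)
    (hdvd : ∀ P : Ideal (𝓞 M), P.IsPrime → P.LiesOver v.asIdeal →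
      ∃ k : ℤ, v.valuation K b = WithZero.exp (-(((P.inertiaDeg (𝓞 K) : ℕ) : ℤ) * k))) :
    ∃ z : E, ∏ d : D, d • z =
      algebraMap (v.adicCompletion K) E (algebraMap K (v.adicCompletion K) b) := by
  classical
  letI : Algebra K E :=
    ((algebraMap (v.adicCompletion K) E).comp (algebraMap K (v.adicCompletion K))).toAlgebra
  haveI : IsScalarTower K (v.adicCompletion K) E := IsScalarTower.of_algebraMap_eq' rfl
  haveI : IsScalarTower K M E := IsScalarTower.of_algebraMap_eq (fun k => (hKM k).symm)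
  letI : NontriviallyNormedField (v.adicCompletion K) :=
    SemilocalValued.nontriviallyNormedField K v
  haveI : ProperSpace (v.adicCompletion K) := SemilocalValued.properSpace K v
  letI : NontriviallyNormedField E :=
    FiniteExtLF.nontriviallyNormedFieldExt (v.adicCompletion K) E
  letI : NormedAlgebra (v.adicCompletion K) E := FiniteExtLF.normedAlgebraExt (v.adicCompletion K) E
  haveI : IsUltrametricDist E := FiniteExtLF.isUltrametricDistExt (v.adicCompletion K) E
  haveI : ProperSpace E := FiniteExtLF.properSpaceExt (v.adicCompletion K) E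
  haveI : IsGalois (v.adicCompletion K) E := IsGaloisGroup.isGalois D (v.adicCompletion K) E
  -- isometry of the `D`-action
  have hisoD : ∀ (d : D) (e : E), ‖d • e‖ = ‖e‖ := fun d e =>
    FiniteExtLF.norm_algEquiv (v.adicCompletion K) E
      (MulSemiringAction.toAlgEquiv (v.adicCompletion K) E d) e
  -- the prime of `M` cut out by `E`
  set P0 := UnramDict.primeIdeal K v M E with hP0def
  have hP0 : P0.IsPrime := inferInstance
  have hP0v : P0.LiesOver v.asIdeal := inferInstance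
  -- `e = 1`
  have hI : Nat.card (P0.inertia (M ≃ₐ[K] M)) = 1 := by
    rw [Nat.card_eq_one_iff_unique]
    refine ⟨⟨fun a b => Subtype.ext ?_⟩, ⟨1⟩⟩
    rw [hunr P0 hP0 hP0v a.1 a.2, hunr P0 hP0 hP0v b.1 b.2]
  have he : P0.ramificationIdx (𝓞 K) = 1 := by
    rw [← Ideal.ramificationIdxIn_eq_ramificationIdx v.asIdeal P0 (M ≃ₐ[K] M),
      ← Ideal.card_inertia_eq_ramificationIdxIn (G := M ≃ₐ[K] M) v.asIdeal P0, hI]
  have hval := UnramDict.exists_norm_eq_of_ramificationIdx_eq_one K v M E hgen he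
  -- `D` stabilises `P0`
  have hDle : D ≤ MulAction.stabilizer (M ≃ₐ[K] M) P0 := by
    intro d hd
    rw [MulAction.mem_stabilizer_iff]
    ext x
    rw [Ideal.mem_pointwise_smul_iff_inv_smul_mem, hP0def, UnramDict.mem_primeIdeal,
      UnramDict.mem_primeIdeal]
    have h1 : algebraMap M E ((d⁻¹ • x : 𝓞 M) : M) =
        (⟨d⁻¹, D.inv_mem hd⟩ : D) • algebraMap M E (x : M) := by
      rw [hcompat]
      rfl
    rw [h1, hisoD]
  have hcardStab : Nat.card (MulAction.stabilizer (M ≃ₐ[K] M) P0) = P0.inertiaDeg (𝓞 K) := by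
    rw [Ideal.card_stabilizer_eq_card_inertia_mul_finrank v.asIdeal P0, hI, one_mul]
  have hDdvd : Fintype.card D ∣ P0.inertiaDeg (𝓞 K) := by
    rw [← hcardStab, ← Nat.card_eq_fintype_card]
    exact Subgroup.card_dvd_of_le hDle
  obtain ⟨k, hk⟩ := hdvd P0 hP0 hP0v
  obtain ⟨c, hc⟩ := hDdvd
  obtain ⟨π, hπ⟩ := v.valuation_exists_uniformizer K
  obtain ⟨hπ0, hπ1, hπgen, hπval⟩ := uniformizer_spec hπ
  have hnormF : ∀ y : v.adicCompletion K, ‖algebraMap (v.adicCompletion K) E y‖ = ‖y‖ :=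
    fun y => FiniteExtLF.norm_algebraMap (v.adicCompletion K) E y
  have key := exists_prod_smul_eq_of_norm_eq (F := v.adicCompletion K) (E := E) (D := D)
    (fun τ x => FiniteExtLF.norm_algEquiv (v.adicCompletion K) E τ x)
    (ϖ := algebraMap K (v.adicCompletion K) π)
    (by rw [hnormF]; exact hπ0) (by rw [hnormF]; exact hπ1)
    (fun x hx => by
      obtain ⟨y, hy⟩ := hval x
      have hy0 : y ≠ 0 := by
        rintro rfl
        rw [norm_zero] at hy
        exact hx (norm_eq_zero.mp hy)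
      obtain ⟨n, hn⟩ := hπgen y hy0
      exact ⟨n, by rw [hnormF, hy, hn]⟩)
    (UnramNormLF.exists_finite_residue_system_LF E)
    (algebraMap K (v.adicCompletion K) b)
    (by rw [Ne, map_eq_zero]; exact hb) ((c : ℤ) * k)
    (by
      rw [hnormF, hnormF, hπval b _ hk, hc]
      push_cast
      ring_nf)
  exact key

end Core

/-! ### Step 4: the semilocal algebra `M ⊗[K] K_v` -/

section Final

open scoped Pointwise

attribute [local instance] Algebra.TensorProduct.rightAlgebra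
attribute [local instance] SemilocalDecomp.stabQuotAction

variable (K M : Type) [Field K] [NumberField K] [Field M] [NumberField M] [Algebra K M]
  [IsGalois K M] (v : HeightOneSpectrum (𝓞 K)) [Fintype (M ≃ₐ[K] M)]

/-- **(7b) R.unramLocal, backward half** (completion model).  `M/K` Galois, unramified above `v`
(inertia form), `b ∈ Kˣ` with `f(P/v) ∣ v(b)` for the primes `P ∣ v`: then `1 ⊗ b` is the Galois
norm of a unit of `M ⊗[K] K_v`. -/
theorem exists_galNorm_eq
    (hunr : ∀ P : Ideal (𝓞 M), P.IsPrime → P.LiesOver v.asIdeal →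
      ∀ σ : M ≃ₐ[K] M, σ ∈ P.inertia (M ≃ₐ[K] M) → σ = 1)
    (b : K) (hb : b ≠ 0)
    (hdvd : ∀ P : Ideal (𝓞 M), P.IsPrime → P.LiesOver v.asIdeal →
      ∃ k : ℤ, v.valuation K b = WithZero.exp (-(((P.inertiaDeg (𝓞 K) : ℕ) : ℤ) * k))) :
    ∃ y : M ⊗[K] v.adicCompletion K, IsUnit y ∧
      ∏ τ : M ≃ₐ[K] M, τ • y = (1 : M) ⊗ₜ[K] algebraMap K (v.adicCompletion K) b := by
  classical
  obtain ⟨𝔫, h𝔫⟩ := Ideal.exists_maximal (M ⊗[K] v.adicCompletion K)
  haveI := h𝔫
  letI : Field ((M ⊗[K] v.adicCompletion K) ⧸ 𝔫) := Ideal.Quotient.field 𝔫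
  have hact : ∀ (g : M ≃ₐ[K] M) (l : M) (f : v.adicCompletion K),
      g • (l ⊗ₜ[K] f : M ⊗[K] v.adicCompletion K) = (g • l) ⊗ₜ[K] f := fun g l f => rfl
  haveI : IsGaloisGroup (MulAction.stabilizer (M ≃ₐ[K] M) 𝔫) (v.adicCompletion K)
      ((M ⊗[K] v.adicCompletion K) ⧸ 𝔫) := SemilocalTensor.isGaloisGroup_stab hact 𝔫
  letI : Fintype (MulAction.stabilizer (M ≃ₐ[K] M) 𝔫) := Fintype.ofFinite _
  have hME : ∀ m : M, algebraMap M ((M ⊗[K] v.adicCompletion K) ⧸ 𝔫) m =
      Ideal.Quotient.mk 𝔫 (m ⊗ₜ[K] (1 : v.adicCompletion K)) := fun m => rfl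
  have hFE : ∀ f : v.adicCompletion K,
      algebraMap (v.adicCompletion K) ((M ⊗[K] v.adicCompletion K) ⧸ 𝔫) f =
        Ideal.Quotient.mk 𝔫 ((1 : M) ⊗ₜ[K] f) := fun f => rfl
  have hKM : ∀ k : K, algebraMap M ((M ⊗[K] v.adicCompletion K) ⧸ 𝔫) (algebraMap K M k) =
      algebraMap (v.adicCompletion K) ((M ⊗[K] v.adicCompletion K) ⧸ 𝔫)
        (algebraMap K (v.adicCompletion K) k) := fun k => by
    rw [hFE, hME, Algebra.algebraMap_eq_smul_one, Algebra.algebraMap_eq_smul_one,
      TensorProduct.smul_tmul]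
  haveI : FiniteDimensional (v.adicCompletion K) ((M ⊗[K] v.adicCompletion K) ⧸ 𝔫) :=
    IsGaloisGroup.finiteDimensional (MulAction.stabilizer (M ≃ₐ[K] M) 𝔫) (v.adicCompletion K) _
  have hgen : Algebra.adjoin (v.adicCompletion K)
      (Set.range (algebraMap M ((M ⊗[K] v.adicCompletion K) ⧸ 𝔫))) = ⊤ := by
    have hall : ∀ t : M ⊗[K] v.adicCompletion K, Ideal.Quotient.mk 𝔫 t ∈
        Algebra.adjoin (v.adicCompletion K)
          (Set.range (algebraMap M ((M ⊗[K] v.adicCompletion K) ⧸ 𝔫))) := by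
      intro t
      induction t using TensorProduct.induction_on with
      | zero => rw [map_zero]; exact Subalgebra.zero_mem _
      | tmul m f =>
        have h1 : (m ⊗ₜ[K] f : M ⊗[K] v.adicCompletion K) =
            ((1 : M) ⊗ₜ[K] f) * (m ⊗ₜ[K] (1 : v.adicCompletion K)) := by
          rw [Algebra.TensorProduct.tmul_mul_tmul, one_mul, mul_one]
        rw [h1, map_mul, ← hFE, ← hME]
        exact Subalgebra.mul_mem _ (Subalgebra.algebraMap_mem _ _)
          (Algebra.subset_adjoin (Set.mem_range_self m))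
      | add x y hx hy => rw [map_add]; exact Subalgebra.add_mem _ hx hy
    rw [eq_top_iff]
    intro x _
    obtain ⟨t, rfl⟩ := Ideal.Quotient.mk_surjective x
    exact hall t
  have hcompat : ∀ (d : MulAction.stabilizer (M ≃ₐ[K] M) 𝔫) (m : M),
      d • algebraMap M ((M ⊗[K] v.adicCompletion K) ⧸ 𝔫) m =
        algebraMap M ((M ⊗[K] v.adicCompletion K) ⧸ 𝔫) (d.1 m) := by
    intro d m
    rw [hME, hME, SemilocalDecomp.stabQuotAction_mk]
    rfl
  obtain ⟨z, hz⟩ := exists_prod_smul_eq_core K M v ((M ⊗[K] v.adicCompletion K) ⧸ 𝔫)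
    (MulAction.stabilizer (M ≃ₐ[K] M) 𝔫) hKM hgen hcompat hunr b hb hdvd
  obtain ⟨y, hy⟩ := RecipLift.exists_prod_smul_eq 𝔫 (SemilocalTensor.phi_injective hact 𝔫)
    (SemilocalTensor.exists_phi_eq hact 𝔫)
    ((1 : M) ⊗ₜ[K] algebraMap K (v.adicCompletion K) b) (fun g => (Objects.smul_tmul' _ g (1 : M) _).trans (by rw [map_one])) z
    (by rw [hz]; rfl)
  refine ⟨y, RecipLift.isUnit_of_prod_smul_eq hy ?_, hy⟩
  have hu : IsUnit (algebraMap K (v.adicCompletion K) b) :=
    (IsUnit.mk0 b hb).map (algebraMap K (v.adicCompletion K))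
  exact hu.map (Algebra.TensorProduct.includeRight :
    v.adicCompletion K →ₐ[K] M ⊗[K] v.adicCompletion K)

/-- the valuation of a quotient of integers in terms of prime factor counts. -/
theorem valuation_div_eq (c d : 𝓞 K) (hc : c ≠ 0) (hd : d ≠ 0) :
    v.valuation K (algebraMap (𝓞 K) K c / algebraMap (𝓞 K) K d) =
      WithZero.exp (-(((UniqueFactorizationMonoid.normalizedFactors (Ideal.span {c})).count
        v.asIdeal : ℤ) -
        ((UniqueFactorizationMonoid.normalizedFactors (Ideal.span {d})).count v.asIdeal : ℤ))) := by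
  have hc' : Ideal.span {c} ≠ 0 := by
    rw [Ne, Ideal.zero_eq_bot, Ideal.span_singleton_eq_bot]; exact hc
  have hd' : Ideal.span {d} ≠ 0 := by
    rw [Ne, Ideal.zero_eq_bot, Ideal.span_singleton_eq_bot]; exact hd
  rw [map_div₀, HeightOneSpectrum.valuation_of_algebraMap, HeightOneSpectrum.valuation_of_algebraMap,
    HeightOneSpectrum.intValuation_if_neg v hc, HeightOneSpectrum.intValuation_if_neg v hd,
    Ideal.count_associates_factors_eq hc' v.isPrime v.ne_bot,
    Ideal.count_associates_factors_eq hd' v.isPrime v.ne_bot, ← WithZero.exp_sub]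
  congr 1
  ring

/-- **(7b), transported to any model of the completion.**  `A` any commutative `K`-algebra with a
`K`-algebra map `K_v → A` (e.g. `A = Kloc K q 𝔪`): then `b ⊗ 1` is the Galois norm of a unit of
`M ⊗[K] A` (the shape of `Objects4.IsLocalNormAt`). -/
theorem exists_unit_galNorm_eq_of_algHom (A : Type) [CommRing A] [Algebra K A]
    (φ : v.adicCompletion K →ₐ[K] A)
    (hunr : ∀ P : Ideal (𝓞 M), P.IsPrime → P.LiesOver v.asIdeal →
      ∀ σ : M ≃ₐ[K] M, σ ∈ P.inertia (M ≃ₐ[K] M) → σ = 1)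
    (b : Kˣ)
    (hdvd : ∀ P : Ideal (𝓞 M), P.IsPrime → P.LiesOver v.asIdeal →
      ∃ k : ℤ, v.valuation K (b : K) = WithZero.exp (-(((P.inertiaDeg (𝓞 K) : ℕ) : ℤ) * k))) :
    ∃ y : (M ⊗[K] A)ˣ, ∏ τ : M ≃ₐ[K] M, τ • y =
      Objects.inclUnits K M A (Units.map (algebraMap K M).toMonoidHom b) := by
  obtain ⟨y, hyu, hy⟩ := exists_galNorm_eq K M v hunr (b : K) b.ne_zero hdvd
  set ψ : M ⊗[K] v.adicCompletion K →ₐ[K] M ⊗[K] A :=
    Algebra.TensorProduct.map (AlgHom.id K M) φ with hψ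
  refine ⟨(hyu.map ψ).unit, Units.ext ?_⟩
  rw [Units.coe_prod]
  have h1 : ∀ τ : M ≃ₐ[K] M, ((τ • (hyu.map ψ).unit : (M ⊗[K] A)ˣ) : M ⊗[K] A) = ψ (τ • y) :=
    fun τ => (RecipApproxAlg.map_smul_tensor K M φ τ y).symm
  simp_rw [h1]
  rw [← map_prod, hy, hψ, Algebra.TensorProduct.map_tmul, AlgHom.commutes]
  show (1 : M) ⊗ₜ[K] algebraMap K A (b : K) = (algebraMap K M (b : K)) ⊗ₜ[K] (1 : A)
  rw [Algebra.algebraMap_eq_smul_one, Algebra.algebraMap_eq_smul_one, TensorProduct.smul_tmul]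

open Fermat.Agent.S55.Global.Blocks3 in
/-- **(7b) in the `Objects4.IsLocalNormAt` language.** -/
theorem isLocalNormAt_of_dvd (q : Nat.Primes) (𝔪 : Ideal (Ksemi K q))
    (φ : v.adicCompletion K →ₐ[K] Kloc K q 𝔪)
    (hunr : ∀ P : Ideal (𝓞 M), P.IsPrime → P.LiesOver v.asIdeal →
      ∀ σ : M ≃ₐ[K] M, σ ∈ P.inertia (M ≃ₐ[K] M) → σ = 1)
    (b : Kˣ)
    (hdvd : ∀ P : Ideal (𝓞 M), P.IsPrime → P.LiesOver v.asIdeal →
      ∃ k : ℤ, v.valuation K (b : K) = WithZero.exp (-(((P.inertiaDeg (𝓞 K) : ℕ) : ℤ) * k))) :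
    Objects4.IsLocalNormAt K M q 𝔪 b :=
  exists_unit_galNorm_eq_of_algHom K M v (Kloc K q 𝔪) φ hunr b hdvd

open Fermat.Agent.S55.Global.Blocks3 in
/-- **(7b), count form** (the shape of the conclusion of
`RecipCyclo.single_support_inertiaDeg`): `b = c / d`, and `f(P/v) ∣ count_v (c) - count_v (d)` for
the primes `P ∣ v`. -/
theorem isLocalNormAt_of_count_dvd (q : Nat.Primes) (𝔪 : Ideal (Ksemi K q))
    (φ : v.adicCompletion K →ₐ[K] Kloc K q 𝔪)
    (hunr : ∀ P : Ideal (𝓞 M), P.IsPrime → P.under (𝓞 K) = v.asIdeal →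
      ∀ σ : M ≃ₐ[K] M, σ ∈ P.inertia (M ≃ₐ[K] M) → σ = 1)
    (c d : 𝓞 K) (hc : c ≠ 0) (hd : d ≠ 0) (b : Kˣ)
    (hb : (b : K) = algebraMap (𝓞 K) K c / algebraMap (𝓞 K) K d)
    (hdvd : ∀ P : Ideal (𝓞 M), P.IsPrime → P.under (𝓞 K) = v.asIdeal →
      ((P.inertiaDeg (𝓞 K) : ℕ) : ℤ) ∣
        ((UniqueFactorizationMonoid.normalizedFactors (Ideal.span {c})).count v.asIdeal : ℤ) -
        ((UniqueFactorizationMonoid.normalizedFactors (Ideal.span {d})).count v.asIdeal : ℤ)) :
    Objects4.IsLocalNormAt K M q 𝔪 b := by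
  refine isLocalNormAt_of_dvd K M v q 𝔪 φ
    (fun P hP hPv => hunr P hP (hPv.over).symm) b (fun P hP hPv => ?_)
  obtain ⟨k, hk⟩ := hdvd P hP (hPv.over).symm
  exact ⟨k, by rw [hb, valuation_div_eq K v c d hc hd, hk]⟩

end Final

end Fermat.Agent.S55.Global.RecipUnramBwd
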