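/-
S55 / GLOBAL / G.recip row **R.aux** (helper15; statement literal of helper46 #1976): the auxiliary
cyclic extension package `AuxPackage p`, i.e. ALL the number theory of (G-iv) `NoSingleSupport`.

For `K ∋ ζ_p` (`p` odd), a place `(q₀, 𝔪₀)` of `K` and `n : ℕ` there is a cyclic Galois extension
`M/K` of `p`-power degree (`M = auxM ⊆ K(ζ_l)` for a suitable auxiliary prime `l`,
`AuxUnram.exists_aux_field`) such that
* (3) `b ∈ Kˣ` a local norm from `M` at all places `≠ (q₀, 𝔪₀)` is a local norm at `(q₀, 𝔪₀)`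
  (helper44 `RecipCyclicNorm.isLocalNormAt_of_off` + `RecipUnramBwd.isLocalNormAt_of_dvd`);
* (4) there is `b₀ ∈ Kˣ` (a uniformizer at `v₀ = placeOfMax 𝔪₀`) with
  `b₀ ^ k` local norm at `(q₀, 𝔪₀)` ⇒ `p ^ n ∣ k` (helper44 `RecipUnramFwd` + `AuxDeg.inertiaDeg_auxM`).
-/
import Mathlib
import Fermat.Agent.S55.Global.AuxDeg
import Fermat.Agent.S55.Global.RecipCyclicNorm
import Fermat.Agent.S55.Global.RecipUnramBwd
import Fermat.Agent.S55.Global.PlaceNormTransport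

set_option autoImplicit false
set_option linter.unusedVariables false
set_option linter.unusedSectionVars false
set_option linter.style.haveILetI false

open NumberField IsDedekindDomain TensorProduct CategoryTheory

namespace Fermat.Agent.S55.Global.RecipAux

open Fermat.Agent.S55.Global.Objects Fermat.Agent.S55.Global.Objects2
  Fermat.Agent.S55.Global.Objects3 Fermat.Agent.S55.Global.Blocks3
  Fermat.Agent.S55.Global.Objects4

/-- **R.aux**: the auxiliary cyclic extension (all the number theory of (G-iv)). -/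
def AuxPackage (p : ℕ) : Prop :=
  ∀ (K : Type) [Field K] [NumberField K], p.Prime → p ≠ 2 → (∃ ζ : K, IsPrimitiveRoot ζ p) →
    ∀ (q₀ : Nat.Primes) (𝔪₀ : Ideal (Ksemi K q₀)), 𝔪₀.IsMaximal → ∀ n : ℕ,
      ∃ (M : Type) (_ : Field M) (_ : NumberField M) (_ : Algebra K M) (_ : IsGalois K M),
        IsCyclic (M ≃ₐ[K] M) ∧ (∃ j : ℕ, Module.finrank K M = p ^ j) ∧
        (∀ b : Kˣ, (∀ (q : Nat.Primes) (𝔪 : Ideal (Ksemi K q)), 𝔪.IsMaximal →
            ¬ (∃ h : q = q₀, h ▸ 𝔪 = 𝔪₀) → IsLocalNormAt K M q 𝔪 b) →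
          IsLocalNormAt K M q₀ 𝔪₀ b) ∧
        (∃ b₀ : Kˣ, ∀ k : ℕ, IsLocalNormAt K M q₀ 𝔪₀ (b₀ ^ k) → p ^ n ∣ k)

section tc

/-- A field containing a primitive `n`-th root of unity with `n ≥ 3` is totally complex. -/
theorem isTotallyComplex_of_primitiveRoot {F : Type*} [Field F] {n : ℕ} (hn : 3 ≤ n) {ζ : F}
    (hζ : IsPrimitiveRoot ζ n) : IsTotallyComplex F := by
  refine ⟨fun v ↦ ?_⟩
  rw [← InfinitePlace.not_isReal_iff_isComplex]
  intro hv
  let φ : F →+* ℝ := InfinitePlace.embedding_of_isReal hv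
  have hφ : IsPrimitiveRoot (φ ζ) n := hζ.map_of_injective φ.injective
  have hn0 : n ≠ 0 := by omega
  have h1 : (φ ζ) ^ n = 1 := hφ.pow_eq_one
  have habs : |φ ζ| = 1 := by
    have : |φ ζ| ^ n = 1 := by rw [← abs_pow, h1, abs_one]
    exact (pow_eq_one_iff_of_nonneg (abs_nonneg _) hn0).mp this
  have hsq : (φ ζ) ^ 2 = 1 := by
    rw [← sq_abs, habs, one_pow]
  have := Nat.le_of_dvd (by norm_num) (hφ.dvd_of_pow_eq_one 2 hsq)
  omega

end tc

section conj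

variable (K M : Type) [Field K] [NumberField K] [Field M] [NumberField M] [Algebra K M]
  [IsGalois K M]

open Fermat.Agent.S55.Global.PlaceBij

/-- **Backward half at `(q₀, 𝔪₀)`, log form**: the hypothesis `hbwd` of
`RecipCyclicNorm.isLocalNormAt_of_off`. -/
theorem isLocalNormAt_of_log_dvd (q₀ : Nat.Primes) (𝔪₀ : Ideal (Ksemi K q₀)) [h𝔪₀ : 𝔪₀.IsMaximal]
    (hunr : ∀ P : Ideal (𝓞 M), P.IsPrime → P.under (𝓞 K) = (placeOfMax 𝔪₀).asIdeal →
      ∀ σ : M ≃ₐ[K] M, σ ∈ P.inertia (M ≃ₐ[K] M) → σ = 1)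
    (b : Kˣ)
    (hdvd : ∀ P₀ : Ideal (𝓞 M), P₀.IsPrime → P₀.under (𝓞 K) = (placeOfMax 𝔪₀).asIdeal →
      ((P₀.inertiaDeg (𝓞 K) : ℕ) : ℤ) ∣ WithZero.log ((placeOfMax 𝔪₀).valuation K (b : K))) :
    IsLocalNormAt K M q₀ 𝔪₀ b := by
  obtain ⟨-, ⟨e⟩⟩ := PlaceKloc.exists_place_algEquiv K q₀ 𝔪₀
  refine RecipUnramBwd.isLocalNormAt_of_dvd K M (placeOfMax 𝔪₀) q₀ 𝔪₀ e.symm.toAlgHom
    (fun P hP hPv => hunr P hP (hPv.over).symm) b (fun P hP hPv => ?_)
  obtain ⟨k, hk⟩ := hdvd P hP (hPv.over).symm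
  refine ⟨-k, ?_⟩
  have hb0 : (placeOfMax 𝔪₀).valuation K (b : K) ≠ 0 := by
    rw [Ne, map_eq_zero]; exact b.ne_zero
  rw [← WithZero.exp_log hb0, hk]
  congr 1
  ring

/-- **Forward half at `(q₀, 𝔪₀)` for powers of a uniformizer**: if `b₀ = c` with `v₀(c) = 1` and
`b₀ ^ k` is a local norm at `(q₀, 𝔪₀)`, then `f(P/v₀) ∣ k`. -/
theorem inertiaDeg_dvd_of_isLocalNormAt_pow (q₀ : Nat.Primes) (𝔪₀ : Ideal (Ksemi K q₀))
    [h𝔪₀ : 𝔪₀.IsMaximal] (c : 𝓞 K)
    (hc : (placeOfMax 𝔪₀).intValuation c = WithZero.exp (-1 : ℤ))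
    (b₀ : Kˣ) (hb₀ : (b₀ : K) = algebraMap (𝓞 K) K c) (k : ℕ)
    (h : IsLocalNormAt K M q₀ 𝔪₀ (b₀ ^ k))
    (P : Ideal (𝓞 M)) (hP : P.IsPrime) (hPv : P.under (𝓞 K) = (placeOfMax 𝔪₀).asIdeal) :
    P.inertiaDeg (𝓞 K) ∣ k := by
  obtain ⟨-, ⟨e⟩⟩ := PlaceKloc.exists_place_algEquiv K q₀ 𝔪₀
  set v₀ : Place K := placeOfMax 𝔪₀ with hv₀
  have hc0 : c ≠ 0 := by
    rintro rfl
    rw [map_zero] at hc
    exact WithZero.exp_ne_zero hc.symm
  have hck : c ^ k ≠ 0 := pow_ne_zero k hc0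
  obtain ⟨x, hx⟩ := RecipCyclicNorm.exists_of_isLocalNormAt K M q₀ 𝔪₀ (b₀ ^ k) h
  have hb : ((b₀ ^ k : Kˣ) : K) = algebraMap (𝓞 K) K (c ^ k) / algebraMap (𝓞 K) K 1 := by
    rw [Units.val_pow_eq_pow_val, hb₀, map_pow, map_one, div_one]
  rw [hb] at hx
  have h1 := RecipUnramFwd.inertiaDeg_dvd_of_localNorm_algHom K M v₀.asIdeal v₀.isPrime v₀.ne_bot
    (c ^ k) 1 hck one_ne_zero e.toAlgHom ⟨x, hx⟩ P hP hPv
  rw [← RecipUnramFwd.log_valuation_div (F := K) v₀ hck one_ne_zero] at h1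
  have h2 : v₀.valuation K (algebraMap (𝓞 K) K (c ^ k) / algebraMap (𝓞 K) K 1) =
      WithZero.exp (-(k : ℤ)) := by
    rw [map_one, div_one, map_pow, map_pow, HeightOneSpectrum.valuation_of_algebraMap, hc,
      ← WithZero.exp_nsmul]
    congr 1
    simp
  rw [h2, WithZero.log_exp, neg_neg] at h1
  exact Int.natCast_dvd_natCast.mp h1

end conj

section main

open Fermat.Agent.S55.Global.PlaceBij Fermat.Agent.S55.Global.AuxField
  Fermat.Agent.S55.Global.AuxUnram Fermat.Agent.S55.Global.AuxDeg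

/-- **R.aux** (helper46 #1976): the auxiliary cyclic `p`-power extension inside `K(ζ_l)`. -/
theorem auxPackage (p : ℕ) : AuxPackage p := by
  intro K _ _ hp hp2 hζ q₀ 𝔪₀ h𝔪₀ n
  obtain ⟨ζ, hζ⟩ := hζ
  haveI : Fact p.Prime := ⟨hp⟩
  haveI : IsTotallyComplex K :=
    isTotallyComplex_of_primitiveRoot (by have := hp.two_le; omega) hζ
  set v₀ : Place K := placeOfMax 𝔪₀ with hv₀
  haveI : v₀.asIdeal.IsPrime := v₀.isPrime
  obtain ⟨l, hl, hcop, s, art, hB, hlp, hlv, hks, hs1, hord, hcyc, hfin, hdvd, hA, hordA⟩ :=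
    exists_aux_field K p hp2 v₀.asIdeal v₀.ne_bot n (q₀ : ℕ)
  haveI : NeZero l := ⟨hl.out.ne_zero⟩
  -- the field
  refine ⟨auxM K l (CyclotomicField l K) hcop p, inferInstance, inferInstance, inferInstance,
    inferInstance, hcyc, hfin, ?_, ?_⟩
  · -- third conjunct: local norm off `(q₀, 𝔪₀)` ⇒ local norm at `(q₀, 𝔪₀)`
    intro b hloc
    have hunr := hunr_auxM K l (CyclotomicField l K) hcop p
    haveI : IsGalois K (CyclotomicField l K) := IsCyclotomicExtension.isGalois {l} K _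
    refine RecipCyclicNorm.isLocalNormAt_of_off (C := CyclotomicField l K) hl.out.ne_zero
      hunr q₀ 𝔪₀ hlv b ?_ hloc
    intro hdiv
    refine isLocalNormAt_of_log_dvd K _ q₀ 𝔪₀ (fun P hP hPv σ hσ => ?_) b hdiv
    have hP0 : P ≠ ⊥ := by
      rintro rfl
      apply v₀.ne_bot
      rw [← hPv]
      exact Ideal.under_bot _ _
    have hlP : (l : 𝓞 (auxM K l (CyclotomicField l K) hcop p)) ∉ P := by
      intro hmem
      apply hlv
      rw [← hPv, Ideal.under_def, Ideal.mem_comap, map_natCast]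
      exact hmem
    exact hunr P hP hP0 hlP σ hσ
  · -- fourth conjunct: a uniformizer at `v₀` has local norm order divisible by `p ^ n`
    obtain ⟨c, hc⟩ := v₀.intValuation_exists_uniformizer
    have hc0 : c ≠ 0 := by
      rintro rfl
      rw [map_zero] at hc
      exact WithZero.exp_ne_zero hc.symm
    have hcK : algebraMap (𝓞 K) K c ≠ 0 := by
      rwa [Ne, map_eq_zero_iff _ (IsFractionRing.injective (𝓞 K) K)]
    refine ⟨Units.mk0 (algebraMap (𝓞 K) K c) hcK, fun k hk => ?_⟩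
    haveI : v₀.asIdeal.IsMaximal := v₀.isPrime.isMaximal v₀.ne_bot
    obtain ⟨P, hPmax, hPv⟩ := Ideal.exists_maximal_ideal_liesOver_of_isIntegral
      (S := 𝓞 (auxM K l (CyclotomicField l K) hcop p)) v₀.asIdeal
    have h1 := inertiaDeg_dvd_of_isLocalNormAt_pow K _ q₀ 𝔪₀ c hc _ (Units.val_mk0 hcK) k hk
      P hPmax.isPrime hPv.over.symm
    rw [inertiaDeg_auxM K l (CyclotomicField l K) hcop p v₀.asIdeal v₀.isPrime v₀.ne_bot hlv s hord
      P hPmax.isPrime hPv.over.symm] at h1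
    exact (pow_dvd_pow p hks).trans h1

end main

end Fermat.Agent.S55.Global.RecipAux
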