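/-
S55 / GLOBAL / G.recip — final glue (helper15): `RecipAsm.AuxPackage p` (helper46's literal copy of the
R.aux statement) is discharged by `RecipAux.auxPackage` (the two `AuxPackage` definitions are
definitionally equal), hence **(G-iv)** `Blocks3.NoSingleSupport p` from `Blocks3.HasseH2 p` and
`Local.Blocks.H2Cyclic` alone.
-/
import Fermat.Agent.S55.Global.RecipAsm
import Fermat.Agent.S55.Global.RecipAux

namespace Fermat.Agent.S55.Global.RecipFinal

/-- `RecipAsm.AuxPackage p`, discharged by `RecipAux.auxPackage`. -/
theorem auxPackage (p : ℕ) : RecipAsm.AuxPackage p := RecipAux.auxPackage p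

/-- **(G-iv)** with the auxiliary package discharged. -/
theorem noSingleSupport (p : ℕ) (hH : Blocks3.HasseH2 p) (hcyc : Local.Blocks.H2Cyclic) :
    Blocks3.NoSingleSupport p :=
  RecipAsm.noSingleSupport p hH hcyc (auxPackage p)

end Fermat.Agent.S55.Global.RecipFinal
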