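import Fermat.Agent.S55.Global.LocalProdAbs

/-!
# Product decompositions: composition, Artinian rings, tensor products
(abstract tools for `G.localProd`; Mathlib only)
-/

set_option autoImplicit false
set_option linter.unusedSectionVars false

open TensorProduct

namespace Fermat.Agent.S55.Global.LocalProdTensor

open Fermat.Agent.S55.Global.LocalProdAbs

section basic

/-- A ring isomorphism onto a product gives a product decomposition. -/
theorem isProdDecomp_of_ringEquiv {ι R : Type} [CommRing R] {B : ι → Type} [∀ i, CommRing (B i)]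
    (e : R ≃+* (∀ i, B i)) (π : ∀ i, R →+* B i) (h : ∀ r i, π i r = e r i) : IsProdDecomp π := by
  have : (fun (r : R) (i : ι) => π i r) = e := by
    funext r i
    exact h r i
  unfold IsProdDecomp
  rw [this]
  exact e.bijective

/-- Composition of product decompositions (indexed by a sigma type). -/
theorem isProdDecomp_sigma {ι R : Type} [CommRing R] {B : ι → Type} [∀ i, CommRing (B i)]
    {π : ∀ i, R →+* B i} (h : IsProdDecomp π) {M : ι → Type} {C : ∀ i, M i → Type}
    [∀ i m, CommRing (C i m)] {ρ : ∀ i (m : M i), B i →+* C i m} (hρ : ∀ i, IsProdDecomp (ρ i)) :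
    IsProdDecomp (ι := Σ i, M i) (B := fun x => C x.1 x.2) (fun x => (ρ x.1 x.2).comp (π x.1)) := by
  constructor
  · intro r r' hrr'
    apply h.1
    funext i
    apply (hρ i).1
    funext m
    exact congrFun hrr' ⟨i, m⟩
  · intro y
    have h1 : ∀ i, ∃ b : B i, ∀ m, ρ i m b = y ⟨i, m⟩ := fun i => by
      obtain ⟨b, hb⟩ := (hρ i).2 (fun m => y ⟨i, m⟩)
      exact ⟨b, fun m => congrFun hb m⟩
    choose b hb using h1
    obtain ⟨r, hr⟩ := h.2 b
    refine ⟨r, ?_⟩
    funext ⟨i, m⟩
    have : π i r = b i := congrFun hr i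
    simp only [RingHom.comp_apply, this, hb]

/-- A reduced Artinian ring is the product of its residue fields. -/
theorem isProdDecomp_quotient (R : Type) [CommRing R] [IsArtinianRing R] [IsReduced R] :
    IsProdDecomp (ι := MaximalSpectrum R) (B := fun m => R ⧸ m.asIdeal)
      (fun m => Ideal.Quotient.mk m.asIdeal) :=
  isProdDecomp_of_ringEquiv (IsArtinianRing.equivPi R).toRingEquiv _
    (fun r m => (IsArtinianRing.equivPi_apply R r m).symm)

end basic

section tensor

variable (k : Type) [Field k] (L : Type) [CommRing L] [Algebra k L]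

/-- `L ⊗[k] (∏ A j) → L ⊗[k] A j` is a product decomposition (finite products). -/
theorem isProdDecomp_tensor_pi {J : Type} [Fintype J] [DecidableEq J] (A : J → Type)
    [∀ j, CommRing (A j)] [∀ j, Algebra k (A j)] :
    IsProdDecomp (R := L ⊗[k] (∀ j, A j)) (B := fun j => L ⊗[k] A j)
      (fun j => (Algebra.TensorProduct.map (AlgHom.id k L) (Pi.evalAlgHom k A j)).toRingHom) := by
  refine isProdDecomp_of_ringEquiv (Algebra.TensorProduct.piRight k k L A).toRingEquiv _ ?_
  intro r j
  induction r using TensorProduct.induction_on with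
  | zero => simp
  | tmul x f =>
    simp [Algebra.TensorProduct.piRight_tmul]
  | add x y hx hy =>
    simp only [_root_.map_add, Pi.add_apply] at hx hy ⊢
    rw [hx, hy]

/-- Base change of a product decomposition: if `κ i : M →ₐ[k] C i` is a product decomposition of
the `k`-algebra `M`, then `id ⊗ κ i : L ⊗[k] M → L ⊗[k] C i` is one of `L ⊗[k] M`. -/
theorem isProdDecomp_baseChange {ι : Type} [Fintype ι] [DecidableEq ι] {M : Type} [CommRing M]
    [Algebra k M] {C : ι → Type} [∀ i, CommRing (C i)] [∀ i, Algebra k (C i)]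
    (κ : ∀ i, M →ₐ[k] C i) (hκ : IsProdDecomp (fun i => (κ i).toRingHom)) :
    IsProdDecomp (R := L ⊗[k] M) (B := fun i => L ⊗[k] C i)
      (fun i => (Algebra.TensorProduct.map (AlgHom.id k L) (κ i)).toRingHom) := by
  -- `M ≃ₐ[k] ∏ C i`
  let e : M ≃ₐ[k] (∀ i, C i) :=
    AlgEquiv.ofBijective (AlgHom.pi κ) hκ
  let E : L ⊗[k] M ≃ₐ[k] (∀ i, L ⊗[k] C i) :=
    (Algebra.TensorProduct.congr (AlgEquiv.refl (R := k) (A₁ := L)) e).trans
      (Algebra.TensorProduct.piRight k k L C)
  refine isProdDecomp_of_ringEquiv E.toRingEquiv _ ?_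
  intro r i
  induction r using TensorProduct.induction_on with
  | zero => simp
  | tmul x f =>
    simp [E, e, Algebra.TensorProduct.piRight_tmul]
  | add x y hx hy =>
    simp only [_root_.map_add, Pi.add_apply] at hx hy ⊢
    rw [hx, hy]

end tensor

end Fermat.Agent.S55.Global.LocalProdTensor
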