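/-
S55 / Global / G.semilocal.h3, part 2 (helper49) — `H³(Gal(L/K), J_{L,T}) = 0`.

The product decomposition over the places of `K` (Blocks3 language: a place above `q` is a maximal
ideal `𝔪` of `Ksemi K q = K ⊗[ℚ] ℚ_[q]`):

  `projPlace K L T (q, 𝔪) : L ⊗[ℚ] ℚ_T → L ⊗[ℚ] ℚ_[q] ≃ L ⊗[K] (K ⊗[ℚ] ℚ_[q]) → L ⊗[K] Kloc K q 𝔪`,
  `projPlace_tmul : l ⊗ f ↦ l ⊗ mk_𝔪 (1 ⊗ f q)`,
  `isProdDecomp_projPlace : LocalProdAbs.IsProdDecomp (projPlace K L T)`   (index `PlacesT K T`),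
  `projPlace_smul` : `Gal(L/K)`-equivariance,

built from helper1's `LocalProdAbs` / `LocalProdTensor` tools, and the consumer statements

  `isZero_Hn_Jn  : (∀ places, IsZero (Hⁿ(Gal(L/K), Jloc K L q 𝔪))) → IsZero (Hⁿ(Gal(L/K), Jn K L T))`,
  `isZero_H3_Jn  : Local.Reduction2.H3Vanish → IsZero (groupCohomology (Jn K L T) 3)`.
-/
import Mathlib
import Fermat.Agent.S55.Global.SemilocalH3
import Fermat.Agent.S55.Global.LocalProdTensor

set_option autoImplicit false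
set_option linter.unusedSectionVars false
set_option linter.style.haveILetI false

open TensorProduct CategoryTheory CategoryTheory.Limits

namespace Fermat.Agent.S55.Global.SemilocalH3Jn

open Fermat.Agent.S55.Global.Objects Fermat.Agent.S55.Global.Objects2
open Fermat.Agent.S55.Global.Blocks3
open Fermat.Agent.S55.Global.LocalProdAbs Fermat.Agent.S55.Global.LocalProdTensor

section generic

variable (K L : Type) [Field K] [NumberField K] [Field L] [NumberField L] [Algebra K L]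
variable (A : Type) [CommRing A] [Algebra ℚ A]

/-- `Gal(L/K)` acts on `(L ⊗[ℚ] A)ˣ` through `resHom`. -/
@[reducible] noncomputable def actQ : MulDistribMulAction (L ≃ₐ[K] L) (L ⊗[ℚ] A)ˣ :=
  MulDistribMulAction.compHom _ (resHom K L)

/-- `Rep.res (resHom K L) (JRep ℚ L A)` is the `Rep` of the restricted action. -/
theorem res_JRep_eq :
    Rep.res (resHom K L) (JRep ℚ L A) =
      @Rep.ofMulDistribMulAction (L ≃ₐ[K] L) (L ⊗[ℚ] A)ˣ _ _ (actQ K L A) := rfl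

end generic

section compEquiv

/-- Precomposition of a product decomposition with a ring isomorphism. -/
theorem isProdDecomp_comp_equiv {ι R R' : Type} [CommRing R] [CommRing R'] {B : ι → Type}
    [∀ i, CommRing (B i)] {π : ∀ i, R →+* B i} (h : IsProdDecomp π) (e : R' ≃+* R) :
    IsProdDecomp (fun i => (π i).comp e.toRingHom) := by
  have : (fun (r : R') (i : ι) => ((π i).comp e.toRingHom) r) =
      (fun (r : R) (i : ι) => π i r) ∘ e := rfl
  unfold IsProdDecomp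
  rw [this]
  exact h.comp e.bijective

end compEquiv

section decomposition

variable (K L : Type) [Field K] [NumberField K] [Field L] [NumberField L] [Algebra K L]
variable (T : Finset Nat.Primes)

attribute [local instance] SemilocalH3.finiteDimensional_nf

/-- First step: `L ⊗[ℚ] ℚ_T → L ⊗[ℚ] ℚ_[q]`. -/
noncomputable def projQ (q : T) : L ⊗[ℚ] QT T →+* L ⊗[ℚ] ℚ_[((q : Nat.Primes) : ℕ)] :=
  (Algebra.TensorProduct.map (AlgHom.id ℚ L)
    (Pi.evalAlgHom ℚ (fun q : T => ℚ_[((q : Nat.Primes) : ℕ)]) q)).toRingHom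

theorem isProdDecomp_projQ :
    IsProdDecomp (R := L ⊗[ℚ] QT T) (B := fun q : T => L ⊗[ℚ] ℚ_[((q : Nat.Primes) : ℕ)])
      (projQ L T) :=
  isProdDecomp_tensor_pi ℚ L (fun q : T => ℚ_[((q : Nat.Primes) : ℕ)])

theorem projQ_tmul (q : T) (l : L) (f : QT T) : projQ L T q (l ⊗ₜ[ℚ] f) = l ⊗ₜ[ℚ] f q := by
  simp [projQ]

/-- Second step: `L ⊗[ℚ] ℚ_[q] ≃ L ⊗[K] (K ⊗[ℚ] ℚ_[q])`. -/
noncomputable def cancelEquiv (q : Nat.Primes) :
    L ⊗[ℚ] ℚ_[(q : ℕ)] ≃+* L ⊗[K] Ksemi K q :=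
  (Algebra.TensorProduct.cancelBaseChange ℚ K K L ℚ_[(q : ℕ)]).symm.toRingEquiv

theorem cancelEquiv_tmul (q : Nat.Primes) (l : L) (a : ℚ_[(q : ℕ)]) :
    cancelEquiv K L q (l ⊗ₜ[ℚ] a) = l ⊗ₜ[K] ((1 : K) ⊗ₜ[ℚ] a) :=
  Algebra.TensorProduct.cancelBaseChange_symm_tmul ..

theorem isArtinianRing_Ksemi (q : Nat.Primes) : IsArtinianRing (Ksemi K q) :=
  SemilocalTensor.isArtinianRing_tensor ℚ K ℚ_[(q : ℕ)]

theorem isReduced_Ksemi (q : Nat.Primes) : IsReduced (Ksemi K q) :=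
  SemilocalTensor.isReduced_tensor ℚ K ℚ_[(q : ℕ)]

/-- The places of `K` above `q`. -/
abbrev PlacesQ (q : Nat.Primes) : Type := MaximalSpectrum (Ksemi K q)

theorem finite_PlacesQ (q : Nat.Primes) : Finite (PlacesQ K q) := by
  haveI := isArtinianRing_Ksemi K q
  infer_instance

/-- `K ⊗[ℚ] ℚ_[q] → K_𝔪` as a `K`-algebra hom. -/
noncomputable def kapp (q : Nat.Primes) (𝔪 : PlacesQ K q) : Ksemi K q →ₐ[K] Kloc K q 𝔪.asIdeal :=
  Ideal.Quotient.mkₐ K 𝔪.asIdeal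

theorem isProdDecomp_kapp (q : Nat.Primes) :
    IsProdDecomp (R := Ksemi K q) (B := fun 𝔪 : PlacesQ K q => Kloc K q 𝔪.asIdeal)
      (fun 𝔪 => (kapp K q 𝔪).toRingHom) := by
  haveI := isArtinianRing_Ksemi K q
  haveI := isReduced_Ksemi K q
  exact isProdDecomp_quotient (Ksemi K q)

/-- Third step: `L ⊗[K] (K ⊗[ℚ] ℚ_[q]) → L ⊗[K] K_𝔪`. -/
noncomputable def projLoc (q : Nat.Primes) (𝔪 : PlacesQ K q) :
    L ⊗[K] Ksemi K q →+* L ⊗[K] Kloc K q 𝔪.asIdeal :=
  (Algebra.TensorProduct.map (AlgHom.id K L) (kapp K q 𝔪)).toRingHom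

theorem projLoc_tmul (q : Nat.Primes) (𝔪 : PlacesQ K q) (l : L) (x : Ksemi K q) :
    projLoc K L q 𝔪 (l ⊗ₜ[K] x) = l ⊗ₜ[K] (Ideal.Quotient.mk 𝔪.asIdeal x) := by
  simp [projLoc, kapp]

theorem isProdDecomp_projLoc (q : Nat.Primes) :
    IsProdDecomp (R := L ⊗[K] Ksemi K q) (B := fun 𝔪 : PlacesQ K q => L ⊗[K] Kloc K q 𝔪.asIdeal)
      (projLoc K L q) := by
  classical
  haveI := finite_PlacesQ K q
  letI := Fintype.ofFinite (PlacesQ K q)
  exact isProdDecomp_baseChange K L (kapp K q) (isProdDecomp_kapp K q)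

/-- The index set: places `(q, 𝔪)` of `K` above `T`. -/
abbrev PlacesT : Type := Σ q : T, PlacesQ K (q : Nat.Primes)

/-- The projection `L ⊗[ℚ] ℚ_T → L ⊗[K] K_𝔪` for a place `(q, 𝔪)`. -/
noncomputable def projPlace (x : PlacesT K T) :
    L ⊗[ℚ] QT T →+* L ⊗[K] Kloc K (x.1 : Nat.Primes) x.2.asIdeal :=
  ((projLoc K L (x.1 : Nat.Primes) x.2).comp
    (cancelEquiv K L (x.1 : Nat.Primes)).toRingHom).comp (projQ L T x.1)

theorem projPlace_tmul (x : PlacesT K T) (l : L) (f : QT T) :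
    projPlace K L T x (l ⊗ₜ[ℚ] f) =
      l ⊗ₜ[K] (Ideal.Quotient.mk x.2.asIdeal ((1 : K) ⊗ₜ[ℚ] f x.1)) := by
  simp only [projPlace, RingHom.comp_apply, projQ_tmul]
  erw [cancelEquiv_tmul, projLoc_tmul]

theorem isProdDecomp_projPlace :
    IsProdDecomp (R := L ⊗[ℚ] QT T)
      (B := fun x : PlacesT K T => L ⊗[K] Kloc K (x.1 : Nat.Primes) x.2.asIdeal)
      (projPlace K L T) :=
  isProdDecomp_sigma (isProdDecomp_projQ L T)
    (fun q => isProdDecomp_comp_equiv (isProdDecomp_projLoc K L (q : Nat.Primes))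
      (cancelEquiv K L (q : Nat.Primes)))

end decomposition

section abstractPlaces

variable (K L : Type) [Field K] [NumberField K] [Field L] [NumberField L] [Algebra K L]
variable {ι : Type} [Fintype ι] [DecidableEq ι] (A : ι → Type) [∀ i, CommRing (A i)]
  [∀ i, Algebra K (A i)] (R : Type) [CommRing R] [Algebra ℚ R]
  (π : ∀ i, L ⊗[ℚ] R →+* L ⊗[K] A i) (φ : ∀ i, R → A i)

omit [Fintype ι] [DecidableEq ι] in
/-- Ring homs `L ⊗[ℚ] R → L ⊗[K] A` which are the identity on the `L`-factor are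
`Gal(L/K)`-equivariant. -/
theorem smul_of_tmul (i : ι) (hφ : ∀ (l : L) (r : R), π i (l ⊗ₜ[ℚ] r) = l ⊗ₜ[K] φ i r)
    (g : L ≃ₐ[K] L) (z : L ⊗[ℚ] R) : π i (resHom K L g • z) = g • π i z := by
  induction z using TensorProduct.induction_on with
  | zero => simp
  | tmul l f =>
    rw [Objects.smul_tmul', hφ, hφ, Objects.smul_tmul']
    rfl
  | add a b ha hb =>
    rw [smul_add, (π i).map_add, (π i).map_add, smul_add, ha, hb]

/-- Vanishing of `Hⁿ(Gal(L/K), (L ⊗[ℚ] R)ˣ)` from a product decomposition into `K`-based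
factors `L ⊗[K] A i`. -/
theorem isZero_of_places (hπ : IsProdDecomp π)
    (hφ : ∀ (i : ι) (l : L) (r : R), π i (l ⊗ₜ[ℚ] r) = l ⊗ₜ[K] φ i r) (n : ℕ)
    (h : ∀ i, IsZero (groupCohomology (JRep K L (A i)) n)) :
    IsZero (groupCohomology (Rep.res (resHom K L) (JRep ℚ L R)) n) := by
  letI := actQ K L R
  exact isZero_of_proj (G := L ≃ₐ[K] L) hπ
    (fun i g u => Units.ext (smul_of_tmul K L A R π φ i (hφ i) g (u : L ⊗[ℚ] R))) n h

end abstractPlaces

section main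

variable (K L : Type) [Field K] [NumberField K] [Field L] [NumberField L] [Algebra K L]
  [IsGalois K L]
variable (T : Finset Nat.Primes)

/-- The projections to the places are `Gal(L/K)`-equivariant. -/
theorem projPlace_smul (x : PlacesT K T) (g : L ≃ₐ[K] L) (z : L ⊗[ℚ] QT T) :
    projPlace K L T x (resHom K L g • z) = g • projPlace K L T x z :=
  smul_of_tmul K L (fun x : PlacesT K T => Kloc K (x.1 : Nat.Primes) x.2.asIdeal) (QT T)
    (projPlace K L T) (fun x f => Ideal.Quotient.mk x.2.asIdeal ((1 : K) ⊗ₜ[ℚ] f x.1)) x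
    (fun l f => projPlace_tmul K L T x l f) g z

/-- `Hⁿ(Gal(L/K), J_{L,T})` vanishes as soon as all local `Hⁿ(Gal(L/K), (L ⊗[K] K_𝔪)ˣ)` do. -/
theorem isZero_Hn_Jn (n : ℕ)
    (h : ∀ (q : Nat.Primes), q ∈ T → ∀ (𝔪 : Ideal (Ksemi K q)), 𝔪.IsMaximal →
      IsZero (groupCohomology (Jloc K L q 𝔪) n)) :
    IsZero (groupCohomology (Jn K L T) n) := by
  classical
  haveI : ∀ q : T, Finite (PlacesQ K (q : Nat.Primes)) := fun q => finite_PlacesQ K q
  haveI : Finite (PlacesT K T) := inferInstance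
  letI := Fintype.ofFinite (PlacesT K T)
  exact isZero_of_places K L (fun x : PlacesT K T => Kloc K (x.1 : Nat.Primes) x.2.asIdeal)
    (QT T) (projPlace K L T)
    (fun x f => Ideal.Quotient.mk x.2.asIdeal ((1 : K) ⊗ₜ[ℚ] f x.1))
    (isProdDecomp_projPlace K L T) (fun x l f => projPlace_tmul K L T x l f) n
    (fun x => h (x.1 : Nat.Primes) x.1.2 x.2.asIdeal x.2.isMaximal)

/-- **`H³(Gal(L/K), J_{L,T}) = 0`** (`J_{L,T} = (L ⊗[ℚ] ℚ_T)ˣ`), from local Tate `H³ = 0`. -/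
theorem isZero_H3_Jn (h3 : Local.Reduction2.H3Vanish) :
    IsZero (groupCohomology (Jn K L T) 3) :=
  isZero_Hn_Jn K L T 3 (fun q _ 𝔪 h𝔪 => SemilocalH3.isZero_H3_Jloc K L q 𝔪 (h𝔪 := h𝔪) h3)

end main

end Fermat.Agent.S55.Global.SemilocalH3Jn
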