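/-
S55 / Global / G.localProd.B (helper49) — LOCAL COMPONENTS vs `J_{L,T}`.

On top of the place decomposition `SemilocalH3Jn.isProdDecomp_projPlace`:

* `map_LxnToJR_eq_zero` : a class `x ∈ Hⁿ(Gal(L/K), Lˣ)` with `locH K L (Kloc K q 𝔪) n x = 0` at all
  places `(q, 𝔪)`, `q ∈ T`, has zero image in `Hⁿ(Gal(L/K), Jn K L T)`;
* `localProdZero : Middle.HasseH2.LocalProdZero` (the literal consumer Prop of `M.hbnInj`);
* `admissibleQExists : Middle.HasseH2.AdmissibleQExists`;
* `hasseH2_of_H1Vanish : Blocks2.H1Vanish p → Blocks3.HasseH2 p`.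
-/
import Mathlib
import Fermat.Agent.S55.Global.SemilocalH3Jn
import Fermat.Agent.S55.Global.Objects5
import Fermat.Agent.S55.Middle.HasseH2
import Fermat.Agent.S55.Global.AdmissibleQExists

set_option autoImplicit false
set_option linter.unusedSectionVars false
set_option linter.style.haveILetI false

open TensorProduct CategoryTheory CategoryTheory.Limits

namespace Fermat.Agent.S55.Global.SemilocalLoc

open Fermat.Agent.S55.Global.Objects Fermat.Agent.S55.Global.Objects2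
open Fermat.Agent.S55.Global.Blocks3
open Fermat.Agent.S55.Global.LocalProdAbs Fermat.Agent.S55.Global.LocalProdTensor
open Fermat.Agent.S55.Global.SemilocalH3Jn

section abstractPlaces

variable (K L : Type) [Field K] [NumberField K] [Field L] [NumberField L] [Algebra K L]
variable {ι : Type} [Fintype ι] [DecidableEq ι] (A : ι → Type) [∀ i, CommRing (A i)]
  [∀ i, Algebra K (A i)] (R : Type) [CommRing R] [Algebra ℚ R]
  (π : ∀ i, L ⊗[ℚ] R →+* L ⊗[K] A i) (φ : ∀ i, R → A i)

/-- `Lˣ ⟶ (L ⊗[ℚ] R)ˣ` as a morphism of `Gal(L/K)`-modules. -/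
noncomputable def LxnToJR :
    Rep.ofAlgebraAutOnUnits K L ⟶ Rep.res (resHom K L) (JRep ℚ L R) :=
  Rep.ofHom
    { toLinearMap := (MonoidHom.toAdditive (inclUnits ℚ L R)).toIntLinearMap
      isIntertwining' := fun σ => by
        ext a
        rfl }

theorem map_eq_zero_of_places (hπ : IsProdDecomp π)
    (hφ : ∀ (i : ι) (l : L) (r : R), π i (l ⊗ₜ[ℚ] r) = l ⊗ₜ[K] φ i r)
    (hφ1 : ∀ i, φ i 1 = 1) (n : ℕ)
    (x : groupCohomology (Rep.ofAlgebraAutOnUnits K L) n)
    (hx : ∀ i, groupCohomology.map (MonoidHom.id (L ≃ₐ[K] L)) (LxToJ K L (A i)) n x = 0) :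
    groupCohomology.map (MonoidHom.id (L ≃ₐ[K] L)) (LxnToJR K L R) n x = 0 := by
  letI := actQ K L R
  have hequiv : ∀ (i : ι) (g : L ≃ₐ[K] L) (u : (L ⊗[ℚ] R)ˣ),
      Units.map (π i : L ⊗[ℚ] R →* L ⊗[K] A i) (g • u) =
        g • Units.map (π i : L ⊗[ℚ] R →* L ⊗[K] A i) u :=
    fun i g u => Units.ext (smul_of_tmul K L A R π φ i (hφ i) g (u : L ⊗[ℚ] R))
  refine eq_zero_of_proj (G := L ≃ₐ[K] L) hπ hequiv n _ (fun i => ?_)
  have hcomp : LxnToJR K L R ≫ proj hequiv i = LxToJ K L (A i) := by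
    apply Rep.hom_ext
    apply Representation.IntertwiningMap.ext
    refine LinearMap.ext fun a => ?_
    apply congrArg Additive.ofMul
    apply Units.ext
    show π i ((Additive.toMul a : Lˣ) ⊗ₜ[ℚ] (1 : R)) = ((Additive.toMul a : Lˣ) : L) ⊗ₜ[K] (1 : A i)
    rw [hφ, hφ1]
  have h1 := groupCohomology.map_id_comp (LxnToJR K L R) (proj hequiv i) n
  rw [hcomp] at h1
  have h2 := congrArg (fun f => f.hom x) h1
  simp only [ModuleCat.hom_comp, LinearMap.comp_apply] at h2
  exact h2.symm.trans (hx i)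

end abstractPlaces

section main

variable (K L : Type) [Field K] [NumberField K] [Field L] [NumberField L] [Algebra K L]
  [IsGalois K L]
variable (T : Finset Nat.Primes)

/-- A class of `Hⁿ(Gal(L/K), Lˣ)` which is trivial at every place `(q, 𝔪)`, `q ∈ T`, of `K` has
trivial image in `Hⁿ(Gal(L/K), (L ⊗[ℚ] ℚ_T)ˣ)`. -/
theorem map_LxnToJR_eq_zero (n : ℕ) (x : groupCohomology (Rep.ofAlgebraAutOnUnits K L) n)
    (hx : ∀ (q : Nat.Primes), q ∈ T → ∀ (𝔪 : Ideal (Ksemi K q)), 𝔪.IsMaximal →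
      locH K L (Kloc K q 𝔪) n x = 0) :
    groupCohomology.map (MonoidHom.id (L ≃ₐ[K] L)) (LxnToJR K L (QT T)) n x = 0 := by
  classical
  haveI : ∀ q : T, Finite (PlacesQ K (q : Nat.Primes)) := fun q => finite_PlacesQ K q
  haveI : Finite (PlacesT K T) := inferInstance
  letI := Fintype.ofFinite (PlacesT K T)
  exact map_eq_zero_of_places K L (fun x : PlacesT K T => Kloc K (x.1 : Nat.Primes) x.2.asIdeal)
    (QT T) (projPlace K L T)
    (fun x f => Ideal.Quotient.mk x.2.asIdeal ((1 : K) ⊗ₜ[ℚ] f x.1))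
    (isProdDecomp_projPlace K L T) (fun x l f => projPlace_tmul K L T x l f)
    (fun x => map_one _) n x
    (fun x => hx (x.1 : Nat.Primes) x.1.2 x.2.asIdeal x.2.isMaximal)

theorem LxnToJR_eq_LxnToJn : LxnToJR K L (QT T) = Objects5.LxnToJn K L T := rfl

theorem LxnToJR_eq_LxToJn : LxnToJR K L (QT T) = Middle.HasseH2.LxToJn K L T := rfl

end main

/-- **Row `G.localProd`, consumer form of `Middle/HasseH2.lean`.** -/
theorem localProdZero : Middle.HasseH2.LocalProdZero := by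
  intro K L _ _ _ _ _ _ T x hx
  exact map_LxnToJR_eq_zero K L T 2 x (fun q _ 𝔪 h𝔪 => hx q 𝔪 h𝔪)

/-- Row `G.admissible` (helper56) in the consumer form of `Middle/HasseH2.lean`. -/
theorem admissibleQExists : Middle.HasseH2.AdmissibleQExists := by
  intro K L _ _ _ _ _ p hp T₀
  exact AdmissibleQExists.exists_admissibleQ K L hp T₀

/-- **(HBN-inj) = `Blocks3.HasseH2 p` from `(G-i)` alone.** -/
theorem hasseH2_of_H1Vanish {p : ℕ} (h1 : Blocks2.H1Vanish p) : Blocks3.HasseH2 p :=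
  Middle.HasseH2.hasseH2_of_H1Vanish h1 localProdZero admissibleQExists

end Fermat.Agent.S55.Global.SemilocalLoc
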