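import Mathlib
import Fermat.Agent.S55.Global.Blocks4
import Fermat.Agent.S55.Global.GlobalH1Final
import Fermat.Agent.S55.Global.SemilocalLoc
import Fermat.Agent.S55.Global.RecipFinal
import Fermat.Agent.S55.Global.SemilocalH3Jn
import Fermat.Agent.S55.Global.CycloKillsH3
import Fermat.Agent.S55.Local.CycloTower
import Fermat.Agent.S55.Middle.HbnH3Inst

/-!
# S55 / Global — the export sheet of the Global block

Everything the Middle block consumes from the Global block, in ONE file, with the exact status.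

## Unconditional (no hypothesis at all)

* `h1Vanish p        : Blocks2.H1Vanish p`        — (G-i)  `H¹(Gal(L/K), C_{L,T}) = 0`;
* `h2CardDvd p       : Blocks2.H2CardDvd p`       — weak (G-ii) `#H²(Gal(L/K), C_{L,T}) ∣ [L:K]`;
* `hasseH2 p         : Blocks3.HasseH2 p`         — (HBN-inj) Hasse principle for `H²`;
* `noSingleSupport p : Blocks3.NoSingleSupport p` — (G-iv) = (HBN-single);
* `isZero_H3_Jn K L T : IsZero (H³(Gal(L/K), J_{L,T}))`.

## Conditional on row 152 only (`Remaining p`)

* `Remaining p` := `Blocks4.H2CyclicIn p ∧ Blocks4.CycloGen p` (structure);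
* `cycloKillsH3 : Blocks4.CycloGen p → Blocks4.CycloKillsH3 p`;
* `hbnH3` : (HBN-H3) from `Blocks4.CycloGen p` ALONE (all other inputs discharged here);
* `exports : Remaining p → Exports p` — the whole sheet.
-/

set_option autoImplicit false

namespace Fermat.Agent.S55.Global.Final

open Fermat.Agent.S55.Global.Objects Fermat.Agent.S55.Global.Objects2
  Fermat.Agent.S55.Global.Blocks2 Fermat.Agent.S55.Global.Blocks3
  Fermat.Agent.S55.Global.Blocks4 Fermat.Agent.S55.Global.TransitionQ

/-- **(G-i)** `H¹(Gal(L/K), C_{L,T}) = 0`. Unconditional. -/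
theorem h1Vanish (p : ℕ) : H1Vanish p := GlobalH1Final.h1Vanish p

/-- **(G-ii), weak form** `#H²(Gal(L/K), C_{L,T}) ∣ [L:K]`. Unconditional. -/
theorem h2CardDvd (p : ℕ) : H2CardDvd p := GlobalH1Final.h2CardDvd p

/-- **(HBN-inj)** the Hasse principle for `H²`. Unconditional. -/
theorem hasseH2 (p : ℕ) : HasseH2 p := SemilocalLoc.hasseH2_of_H1Vanish (h1Vanish p)

/-- **(G-iv) = (HBN-single)**. Unconditional. -/
theorem noSingleSupport (p : ℕ) : NoSingleSupport p :=
  RecipFinal.noSingleSupport p (hasseH2 p) Fermat.Agent.S55.Local.CycloTower.h2Cyclic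

/-- **`H³(Gal(L/K), J_{L,T}) = 0`**. Unconditional. -/
theorem isZero_H3_Jn (K L : Type) [Field K] [NumberField K] [Field L] [NumberField L]
    [Algebra K L] [IsGalois K L] (T : Finset Nat.Primes) :
    CategoryTheory.Limits.IsZero (groupCohomology (Jn K L T) 3) :=
  SemilocalH3Jn.isZero_H3_Jn K L T Fermat.Agent.S55.Local.CycloTower.h3Vanish

/-- What is still missing from the Global block: row 152. -/
structure Remaining (p : ℕ) : Prop where
  h2CyclicIn : H2CyclicIn p
  cycloGen : CycloGen p

/-- `CycloGen p → CycloKillsH3 p`. -/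
theorem cycloKillsH3 {p : ℕ} (h : CycloGen p) : CycloKillsH3 p :=
  CycloKillsH3.cycloKillsH3 h

/-- **(HBN-H3)** from `Blocks4.CycloGen p` alone. -/
theorem hbnH3 {p : ℕ} (hgen : CycloGen p)
    (K L F M : Type) [Field K] [NumberField K] [Field L] [NumberField L] [Field F]
    [NumberField F] [Field M] [NumberField M] [Algebra K L] [Algebra K F] [Algebra K M]
    [Algebra L M] [Algebra F M] [IsScalarTower K L M] [IsScalarTower K F M] [IsGalois K L]
    [IsGalois K F]
    (hp : p.Prime) (hodd : p ≠ 2) (hζ : ∃ ζ : K, IsPrimitiveRoot ζ p) [IsGalois K M]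
    (hpp : ∃ n : ℕ, Module.finrank K M = p ^ n) (hcyc : IsCyclic (F ≃ₐ[K] F))
    (hcyclo : ∃ (k : ℕ) (C : Type) (_ : Field C) (_ : Algebra K C),
      IsCyclotomicExtension {p ^ k} K C ∧ Nonempty (F →ₐ[K] C))
    (hdeg : Module.finrank K F = Module.finrank K L)
    (y : groupCohomology (Lxn K L) 3) : (inflLxn K L M 3).hom y = 0 :=
  Fermat.Agent.S55.Middle.HbnH3Inst.hbnH3 K L F M (cycloKillsH3 hgen)
    (fun T => isZero_H3_Jn K L T) hp hodd hζ hpp hcyc hcyclo hdeg y

/-- The whole export sheet of the Global block. -/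
structure Exports (p : ℕ) : Prop where
  h1Vanish : H1Vanish p
  h2CardDvd : H2CardDvd p
  hasseH2 : HasseH2 p
  noSingleSupport : NoSingleSupport p
  h2CyclicIn : H2CyclicIn p
  cycloGen : CycloGen p
  cycloKillsH3 : CycloKillsH3 p

/-- The export sheet, from row 152. -/
theorem exports {p : ℕ} (h : Remaining p) : Exports p where
  h1Vanish := h1Vanish p
  h2CardDvd := h2CardDvd p
  hasseH2 := hasseH2 p
  noSingleSupport := noSingleSupport p
  h2CyclicIn := h.h2CyclicIn
  cycloGen := h.cycloGen
  cycloKillsH3 := cycloKillsH3 h.cycloGen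

end Fermat.Agent.S55.Global.Final
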