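import Mathlib
import Fermat.Agent.S55.Tate.InfRes2
import Fermat.Agent.S55.Local.CyclicCocycle

/-!
# S55 / Global, row `G.h2cyclic` (abstract part): coincidence of two inflation images in `H²`

Setting (helper78 #1461, rows (G-ii)/(G-iii)): `G = Gal(L K_m / K)`, `N₁ = Gal(L K_m / L)`,
`N₂ = Gal(L K_m / K_m)`, `A = C_{L K_m, T}`.

* `range_infl₂_eq_of_generator` (PART 1, pure group cohomology): if `H¹(N₁, A) = H¹(N₂, A) = 0`,
  `H²(G ⧸ N₂, A^{N₂})` is generated by a class `u` of order `n`, `H²(G ⧸ N₁, A^{N₁})` is finite of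
  order `≤ n`, and `res_{N₁} (infl u) = 0`, then the images of the two inflations in `H²(G, A)`
  coincide and `H²(G ⧸ N₁, A^{N₁})` is cyclic of order exactly `n`.
* `rest₂_infl₂_cycClass`, `rest₂_infl₂_cycClass_eq_zero_iff` (PART 2, cyclic calculus on top of
  helper53's `Local/CyclicCocycle`): when `G ⧸ N₂ = ⟨σ⟩` and `N₁ = ⟨τ⟩` are cyclic with
  `τ ≡ σ ^ d mod N₂`, then `res_{N₁} infl [cyc σ a] = [cyc τ ((d * |τ| / |σ|) • a)]`, and this
  vanishes iff `(d * |τ| / |σ|) • a` is an `N₁`-norm of `A`.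
* `range_infl₂_eq_of_cyclic` : both parts combined.
Owner: helper54.
-/

set_option autoImplicit false

namespace Fermat.Agent.S55.Global.H2Cyclic

open CategoryTheory groupCohomology Rep
open Fermat.Agent.S55.Tate.InfRes2
open Fermat.Agent.S55.Local.CyclicCocycle

universe u

variable {k G : Type u} [CommRing k] [Group G] (A : Rep k G)

/-! ### PART 1 -/

section Part1

variable (N₁ N₂ : Subgroup G) [N₁.Normal] [N₂.Normal]

/-- **PART 1.** Coincidence of the inflation images from `G ⧸ N₁` and `G ⧸ N₂`. -/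
theorem range_infl₂_eq_of_generator (h1 : H1ResTrivial A N₁) (h2 : H1ResTrivial A N₂)
    [Finite (groupCohomology (A.quotientToInvariants N₁) 2)]
    (u : groupCohomology (A.quotientToInvariants N₂) 2)
    (hu : AddSubgroup.zmultiples u = ⊤)
    (hcard : Nat.card (groupCohomology (A.quotientToInvariants N₁) 2) ≤ addOrderOf u)
    (hres : (rest₂ A N₁).hom ((infl₂ A N₂).hom u) = 0) :
    ∃ v : groupCohomology (A.quotientToInvariants N₁) 2,
      (infl₂ A N₁).hom v = (infl₂ A N₂).hom u ∧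
      AddSubgroup.zmultiples v = ⊤ ∧
      addOrderOf v = addOrderOf u ∧
      Nat.card (groupCohomology (A.quotientToInvariants N₁) 2) = addOrderOf u ∧
      LinearMap.range (infl₂ A N₁).hom = LinearMap.range (infl₂ A N₂).hom := by
  obtain ⟨v, hv⟩ := ker_rest₂_le_range_infl₂ h1 (LinearMap.mem_ker.2 hres)
  have hi1 := infl₂_injective h1
  have hi2 := infl₂_injective h2
  have hord : addOrderOf v = addOrderOf u := by
    rw [← addOrderOf_injective (infl₂ A N₁).hom.toAddMonoidHom hi1 v,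
      ← addOrderOf_injective (infl₂ A N₂).hom.toAddMonoidHom hi2 u]
    exact congrArg addOrderOf hv
  have hcz : Nat.card (AddSubgroup.zmultiples v) = addOrderOf u := by
    rw [Nat.card_zmultiples, hord]
  have htop : AddSubgroup.zmultiples v = ⊤ := by
    apply AddSubgroup.eq_top_of_le_card
    rw [hcz]
    exact hcard
  have hcardeq : Nat.card (groupCohomology (A.quotientToInvariants N₁) 2) = addOrderOf u := by
    rw [← hcz, htop]
    exact (Nat.card_congr AddSubgroup.topEquiv.toEquiv).symm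
  refine ⟨v, hv, htop, hord, hcardeq, ?_⟩
  apply le_antisymm
  · rintro _ ⟨x, rfl⟩
    have hx : x ∈ AddSubgroup.zmultiples v := by rw [htop]; trivial
    obtain ⟨m, rfl⟩ := AddSubgroup.mem_zmultiples_iff.1 hx
    refine ⟨m • u, ?_⟩
    rw [map_zsmul, map_zsmul, hv]
  · rintro _ ⟨x, rfl⟩
    have hx : x ∈ AddSubgroup.zmultiples u := by rw [hu]; trivial
    obtain ⟨m, rfl⟩ := AddSubgroup.mem_zmultiples_iff.1 hx
    refine ⟨m • v, ?_⟩
    rw [map_zsmul, map_zsmul, hv]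

end Part1

/-! ### PART 2 -/

section Part2

variable (N₁ N₂ : Subgroup G) [N₂.Normal]

/-- The group homomorphism `N₁ → G → G ⧸ N₂`. -/
abbrev toQuot : N₁ →* G ⧸ N₂ := (QuotientGroup.mk' N₂).comp N₁.subtype

/-- The morphism of representations `A^{N₂} → A` over `toQuot`. -/
noncomputable abbrev toQuotHom :
    Rep.res (toQuot N₁ N₂) (A.quotientToInvariants N₂) ⟶ Rep.res N₁.subtype A :=
  (resFunctor N₁.subtype).map (ofHom <| A.ρ.quotientToInvariants_lift N₂) ≫ 𝟙 _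

theorem rest₂_infl₂_eq_map :
    infl₂ A N₂ ≫ rest₂ A N₁ = groupCohomology.map (toQuot N₁ N₂) (toQuotHom A N₁ N₂) 2 := by
  have := (groupCohomology.map_comp (A := A.quotientToInvariants N₂) (B := A)
    (C := Rep.res N₁.subtype A) (QuotientGroup.mk' N₂) N₁.subtype
    (ofHom <| A.ρ.quotientToInvariants_lift N₂) (𝟙 (Rep.res N₁.subtype A)) 2)
  exact this.symm

variable {N₁ N₂}

theorem toQuotHom_apply (a : A.quotientToInvariants N₂) :
    (toQuotHom A N₁ N₂).hom a = (a.1 : A) := rfl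

/-- **PART 2.** `res_{N₁} infl_{G ⧸ N₂} [cyc σ a] = [cyc τ ((d |τ| / |σ|) • a)]`. -/
theorem rest₂_infl₂_cycClass {σ : G ⧸ N₂} (hn : 0 < orderOf σ)
    (hgen : ∀ g : G ⧸ N₂, ∃ i : ℕ, σ ^ i = g)
    {τ : N₁} (hm : 0 < orderOf τ) (hgen' : ∀ g : N₁, ∃ i : ℕ, τ ^ i = g)
    {d : ℕ} (hd : ((τ : G) : G ⧸ N₂) = σ ^ d)
    (a : (A.quotientToInvariants N₂).ρ.invariants) :
    (rest₂ A N₁).hom ((infl₂ A N₂).hom (cycClass hn hgen a)) =
      cycClass (A := Rep.res N₁.subtype A) hm hgen'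
        ⟨(d * orderOf τ / orderOf σ) • ((a : A.quotientToInvariants N₂).1 : A), fun g => by
          have := map_invariant (toQuot N₁ N₂) (toQuotHom A N₁ N₂) (fun g => a.2 g) g
          rw [map_nsmul]
          exact congrArg _ this⟩ := by
  have h := map_cycClass hn hgen hm hgen' (toQuot N₁ N₂) (toQuotHom A N₁ N₂) (d := d) hd a
  rw [← rest₂_infl₂_eq_map] at h
  exact h

/-- **PART 2, vanishing criterion.** -/
theorem rest₂_infl₂_cycClass_eq_zero_iff [Fintype N₁] {σ : G ⧸ N₂} (hn : 0 < orderOf σ)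
    (hgen : ∀ g : G ⧸ N₂, ∃ i : ℕ, σ ^ i = g)
    {τ : N₁} (hm : 0 < orderOf τ) (hgen' : ∀ g : N₁, ∃ i : ℕ, τ ^ i = g)
    {d : ℕ} (hd : ((τ : G) : G ⧸ N₂) = σ ^ d)
    (a : (A.quotientToInvariants N₂).ρ.invariants) :
    (rest₂ A N₁).hom ((infl₂ A N₂).hom (cycClass hn hgen a)) = 0 ↔
      ∃ b : A, (d * orderOf τ / orderOf σ) • ((a : A.quotientToInvariants N₂).1 : A) =
        ∑ s : N₁, A.ρ s b := by
  rw [rest₂_infl₂_cycClass A hn hgen hm hgen' hd a, cycClass_eq_zero_iff_sum]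
  rfl

end Part2

/-! ### Both parts combined -/

/-- **`G.h2cyclic`, abstract form.** `G ⧸ N₂ = ⟨σ⟩`, `N₁ = ⟨τ⟩` cyclic, `τ ≡ σ ^ d mod N₂`,
`H¹(N₁, A) = H¹(N₂, A) = 0`; `a ∈ A^G` such that `[cyc σ a]` generates `H²(G ⧸ N₂, A^{N₂})`,
`H²(G ⧸ N₁, A^{N₁})` finite of order at most the order of `[cyc σ a]`, and
`(d |τ| / |σ|) • a` is an `N₁`-norm. Then the two inflation images in `H²(G, A)` coincide and
`H²(G ⧸ N₁, A^{N₁})` is cyclic of the same order as `H²(G ⧸ N₂, A^{N₂})`. -/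
theorem range_infl₂_eq_of_cyclic (N₁ N₂ : Subgroup G) [N₁.Normal] [N₂.Normal] [Fintype N₁]
    (h1 : H1ResTrivial A N₁) (h2 : H1ResTrivial A N₂)
    [Finite (groupCohomology (A.quotientToInvariants N₁) 2)]
    {σ : G ⧸ N₂} (hn : 0 < orderOf σ) (hgen : ∀ g : G ⧸ N₂, ∃ i : ℕ, σ ^ i = g)
    {τ : N₁} (hm : 0 < orderOf τ) (hgen' : ∀ g : N₁, ∃ i : ℕ, τ ^ i = g)
    {d : ℕ} (hd : ((τ : G) : G ⧸ N₂) = σ ^ d)
    (a : (A.quotientToInvariants N₂).ρ.invariants)
    (hu : AddSubgroup.zmultiples (cycClass hn hgen a) = ⊤)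
    (hcard : Nat.card (groupCohomology (A.quotientToInvariants N₁) 2) ≤
      addOrderOf (cycClass hn hgen a))
    (hnorm : ∃ b : A, (d * orderOf τ / orderOf σ) • ((a : A.quotientToInvariants N₂).1 : A) =
      ∑ s : N₁, A.ρ s b) :
    ∃ v : groupCohomology (A.quotientToInvariants N₁) 2,
      (infl₂ A N₁).hom v = (infl₂ A N₂).hom (cycClass hn hgen a) ∧
      AddSubgroup.zmultiples v = ⊤ ∧
      addOrderOf v = addOrderOf (cycClass hn hgen a) ∧
      Nat.card (groupCohomology (A.quotientToInvariants N₁) 2) =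
        addOrderOf (cycClass hn hgen a) ∧
      LinearMap.range (infl₂ A N₁).hom = LinearMap.range (infl₂ A N₂).hom :=
  range_infl₂_eq_of_generator A N₁ N₂ h1 h2 _ hu hcard
    ((rest₂_infl₂_cycClass_eq_zero_iff A hn hgen hm hgen' hd a).2 hnorm)

end Fermat.Agent.S55.Global.H2Cyclic
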