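import Mathlib
import Fermat.Agent.S55.Global.Blocks2
import Fermat.Agent.S55.Coh.PairEquiv

/-!
# S55 / Global: transport of the `ℚ`-based objects along a field isomorphism (row `G.isoTransport`)

For number fields `L`, `L'` and a field isomorphism `f : L ≃ₐ[ℚ] L'` (in particular
`e : L ≃ₐ[K] L'` over a common base field `K`) we transport

* valuations / places (`valuation_equivOfRingEquiv`), the `T`-units `EUnitsQ`;
* the modules `JQ`, `EQ`, `CQ` (as `PairEquiv`s over `Aut(L/ℚ) ≃* Aut(L'/ℚ)`),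
  and `Jn`, `En`, `Cn` (as `PairEquiv`s over `Gal(L/K) ≃* Gal(L'/K)`);
* the hypotheses `AdmissibleQ`, `Setting`, `CyclicSetting` of `Blocks2`.
-/

set_option autoImplicit false
set_option linter.unusedSectionVars false

namespace Fermat.Agent.S55.Global.IsoTransport

open NumberField IsDedekindDomain TensorProduct
open Fermat.Agent.S55.Global.Objects Fermat.Agent.S55.Global.Objects2
open Fermat.Agent.S55.Global.Blocks2

/-! ### Valuations along a ring isomorphism of Dedekind domains -/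

section General

variable {R S : Type*} [CommRing R] [IsDedekindDomain R] [CommRing S] [IsDedekindDomain S]

/-- The multiplicative isomorphism on ideals induced by a ring isomorphism. -/
noncomputable def idealMulEquiv (e : R ≃+* S) : Ideal R ≃* Ideal S where
  toFun := Ideal.map e
  invFun := Ideal.map e.symm
  left_inv I := Ideal.map_of_equiv e
  right_inv I := by
    have := Ideal.map_of_equiv (I := I) e.symm
    rwa [RingEquiv.symm_symm] at this
  map_mul' I J := Ideal.map_mul _ I J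

theorem idealMulEquiv_apply (e : R ≃+* S) (I : Ideal R) : idealMulEquiv e I = I.map e := rfl

theorem intValuation_equivOfRingEquiv (e : R ≃+* S) (v : HeightOneSpectrum R) (r : R) :
    (HeightOneSpectrum.equivOfRingEquiv e v).intValuation (e r) = v.intValuation r := by
  rcases eq_or_ne r 0 with rfl | hr
  · simp
  have her : e r ≠ 0 := (EmbeddingLike.map_ne_zero_iff).mpr hr
  rw [HeightOneSpectrum.intValuation_eq_exp_neg_multiplicity _ her,
    HeightOneSpectrum.intValuation_eq_exp_neg_multiplicity _ hr]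
  have h1 : (HeightOneSpectrum.equivOfRingEquiv e v).asIdeal = idealMulEquiv e v.asIdeal := by
    rw [idealMulEquiv_apply]
    show v.asIdeal.comap e.symm = _
    exact Ideal.comap_symm _
  have h2 : Ideal.span {e r} = idealMulEquiv e (Ideal.span {r}) := by
    rw [idealMulEquiv_apply, Ideal.map_span, Set.image_singleton]
  rw [h1, h2, multiplicity_map_eq]

theorem valuation_equivOfRingEquiv {F F' : Type*} [Field F] [Algebra R F] [IsFractionRing R F]
    [Field F'] [Algebra S F'] [IsFractionRing S F']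
    (e : R ≃+* S) (ef : F ≃+* F')
    (hef : ∀ r : R, ef (algebraMap R F r) = algebraMap S F' (e r))
    (v : HeightOneSpectrum R) (x : F) :
    (HeightOneSpectrum.equivOfRingEquiv e v).valuation F' (ef x) = v.valuation F x := by
  obtain ⟨a, b, hb, rfl⟩ := IsFractionRing.div_surjective (A := R) x
  rw [map_div₀, map_div₀, map_div₀, hef, hef, HeightOneSpectrum.valuation_of_algebraMap,
    HeightOneSpectrum.valuation_of_algebraMap, HeightOneSpectrum.valuation_of_algebraMap,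
    HeightOneSpectrum.valuation_of_algebraMap, intValuation_equivOfRingEquiv,
    intValuation_equivOfRingEquiv]

end General

/-! ### Places and `T`-units along a field isomorphism -/

section Units

variable {L L' : Type} [Field L] [NumberField L] [Field L'] [NumberField L']

/-- The bijection on finite places induced by a field isomorphism. -/
noncomputable def placeEquiv (f : L ≃+* L') : Place L ≃ Place L' :=
  HeightOneSpectrum.equivOfRingEquiv (RingOfIntegers.mapRingEquiv f)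

theorem valuation_placeEquiv (f : L ≃+* L') (w : Place L) (x : L) :
    (placeEquiv f w).valuation L' (f x) = w.valuation L x :=
  valuation_equivOfRingEquiv (RingOfIntegers.mapRingEquiv f) f (fun _ => rfl) w x

theorem placeEquiv_mem_placesAboveQ (f : L ≃+* L') (T : Finset Nat.Primes) (w : Place L) :
    placeEquiv f w ∈ placesAboveQ L' T ↔ w ∈ placesAboveQ L T := by
  have key : ∀ q : Nat.Primes, (((q : Nat.Primes) : ℕ) : 𝓞 L') ∈ (placeEquiv f w).asIdeal ↔
      (((q : Nat.Primes) : ℕ) : 𝓞 L) ∈ w.asIdeal := by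
    intro q
    show (RingOfIntegers.mapRingEquiv f).symm (((q : Nat.Primes) : ℕ) : 𝓞 L') ∈ w.asIdeal ↔ _
    rw [map_natCast]
  constructor
  · rintro ⟨q, hq, h⟩
    exact ⟨q, hq, (key q).mp h⟩
  · rintro ⟨q, hq, h⟩
    exact ⟨q, hq, (key q).mpr h⟩

theorem map_mem_unit (f : L ≃+* L') (T : Finset Nat.Primes) {x : Lˣ}
    (hx : x ∈ Set.unit (placesAboveQ L T) L) :
    Units.map (f : L →* L') x ∈ Set.unit (placesAboveQ L' T) L' := by
  intro w' hw'
  obtain ⟨w, rfl⟩ := (placeEquiv f).surjective w'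
  have hw : w ∉ placesAboveQ L T := fun h => hw' ((placeEquiv_mem_placesAboveQ f T w).mpr h)
  have h1 := hx w hw
  show (placeEquiv f w).valuation L' (f (x : L)) = 1
  rw [valuation_placeEquiv]
  exact h1

theorem map_mem_EUnitsQ (f : L ≃ₐ[ℚ] L') (T : Finset Nat.Primes) {x : Lˣ}
    (hx : x ∈ EUnitsQ L T) : Units.map ((f : L ≃+* L') : L →* L') x ∈ EUnitsQ L' T := by
  rw [mem_EUnitsQ] at hx ⊢
  intro σ'
  have h := map_mem_unit (f : L ≃+* L') T (hx ((f.trans σ').trans f.symm))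
  have heq : σ' • Units.map ((f : L ≃+* L') : L →* L') x =
      Units.map ((f : L ≃+* L') : L →* L') (((f.trans σ').trans f.symm) • x) := by
    apply Units.ext
    show σ' (f (x : L)) = f (f.symm (σ' (f (x : L))))
    rw [AlgEquiv.apply_symm_apply]
  rw [heq]
  exact h

theorem mem_EUnitsQ_map_iff (f : L ≃ₐ[ℚ] L') (T : Finset Nat.Primes) (x : Lˣ) :
    Units.map ((f : L ≃+* L') : L →* L') x ∈ EUnitsQ L' T ↔ x ∈ EUnitsQ L T := by
  refine ⟨fun h => ?_, map_mem_EUnitsQ f T⟩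
  have h' := map_mem_EUnitsQ f.symm T h
  have heq : Units.map ((f.symm : L' ≃+* L) : L' →* L)
      (Units.map ((f : L ≃+* L') : L →* L') x) = x := by
    apply Units.ext
    show f.symm (f (x : L)) = x
    rw [AlgEquiv.symm_apply_apply]
  rwa [heq] at h'

end Units

/-! ### The tensor algebra and its unit group -/

section Tensor

variable {L L' : Type} [Field L] [NumberField L] [Field L'] [NumberField L']
variable (A : Type) [CommRing A] [Algebra ℚ A]

/-- `Aut(L/ℚ) ≃* Aut(L'/ℚ)`, `σ ↦ f σ f⁻¹`. -/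
noncomputable abbrev galEquivQ (f : L ≃ₐ[ℚ] L') : (L ≃ₐ[ℚ] L) ≃* (L' ≃ₐ[ℚ] L') :=
  AlgEquiv.autCongr f

theorem galEquivQ_apply (f : L ≃ₐ[ℚ] L') (σ : L ≃ₐ[ℚ] L) (y : L') :
    galEquivQ f σ y = f (σ (f.symm y)) := rfl

/-- `L ⊗[ℚ] A ≃ₐ[ℚ] L' ⊗[ℚ] A`. -/
noncomputable def tensorEquiv (f : L ≃ₐ[ℚ] L') : L ⊗[ℚ] A ≃ₐ[ℚ] L' ⊗[ℚ] A :=
  Algebra.TensorProduct.congr f AlgEquiv.refl

@[simp] theorem tensorEquiv_tmul (f : L ≃ₐ[ℚ] L') (x : L) (a : A) :
    tensorEquiv A f (x ⊗ₜ[ℚ] a) = f x ⊗ₜ[ℚ] a := rfl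

theorem tensorEquiv_smul (f : L ≃ₐ[ℚ] L') (σ : L ≃ₐ[ℚ] L) (z : L ⊗[ℚ] A) :
    tensorEquiv A f (tensorAct A σ z) = tensorAct A (galEquivQ f σ) (tensorEquiv A f z) := by
  induction z using TensorProduct.induction_on with
  | zero => simp
  | tmul x a =>
    rw [tensorAct_tmul, tensorEquiv_tmul, tensorEquiv_tmul, tensorAct_tmul, galEquivQ_apply,
      AlgEquiv.symm_apply_apply]
  | add x y hx hy => rw [map_add, map_add, map_add, map_add, hx, hy]

/-- `(L ⊗[ℚ] A)ˣ ≃* (L' ⊗[ℚ] A)ˣ`. -/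
noncomputable def unitsEquiv (f : L ≃ₐ[ℚ] L') : (L ⊗[ℚ] A)ˣ ≃* (L' ⊗[ℚ] A)ˣ :=
  Units.mapEquiv (tensorEquiv A f).toMulEquiv

@[simp] theorem val_unitsEquiv (f : L ≃ₐ[ℚ] L') (u : (L ⊗[ℚ] A)ˣ) :
    ((unitsEquiv A f u : (L' ⊗[ℚ] A)ˣ) : L' ⊗[ℚ] A) = tensorEquiv A f (u : L ⊗[ℚ] A) := rfl

theorem unitsEquiv_smul (f : L ≃ₐ[ℚ] L') (σ : L ≃ₐ[ℚ] L) (u : (L ⊗[ℚ] A)ˣ) :
    unitsEquiv A f (σ • u) = galEquivQ f σ • unitsEquiv A f u := by
  apply Units.ext
  exact tensorEquiv_smul A f σ (u : L ⊗[ℚ] A)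

theorem unitsEquiv_inclUnits (f : L ≃ₐ[ℚ] L') (x : Lˣ) :
    unitsEquiv A f (inclUnits ℚ L A x) =
      inclUnits ℚ L' A (Units.map ((f : L ≃+* L') : L →* L') x) := by
  apply Units.ext
  rfl

end Tensor

/-! ### `PairEquiv`s over `Aut(L/ℚ) ≃* Aut(L'/ℚ)` -/

section Pairs

open Fermat.Agent.S55.Coh.PairEquiv

variable {L L' : Type} [Field L] [NumberField L] [Field L'] [NumberField L']

attribute [-instance] AddCommGroup.toIntModule

/-- The additive equivalence `JQ L T ≃ JQ L' T`. -/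
noncomputable def jAdd (f : L ≃ₐ[ℚ] L') (T : Finset Nat.Primes) :
    (JQ L T).V ≃+ (JQ L' T).V :=
  (MulEquiv.toAdditive (unitsEquiv (QT T) f) :
    Additive (L ⊗[ℚ] QT T)ˣ ≃+ Additive (L' ⊗[ℚ] QT T)ˣ)

/-- The linear equivalence `JQ L T ≃ JQ L' T`. -/
noncomputable def jLin (f : L ≃ₐ[ℚ] L') (T : Finset Nat.Primes) :
    (JQ L T).V ≃ₗ[ℤ] (JQ L' T).V :=
  (jAdd f T).toLinearEquiv (fun n a => by
    simpa using map_intCast_smul (jAdd f T).toAddMonoidHom ℤ ℤ n a)

theorem jLin_apply (f : L ≃ₐ[ℚ] L') (T : Finset Nat.Primes) (a : (JQ L T).V) :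
    jLin f T a = Additive.ofMul (unitsEquiv (QT T) f (Additive.toMul (Rep.toAdditive a))) := rfl

/-- `(Aut(L/ℚ), JQ L T) ≅ (Aut(L'/ℚ), JQ L' T)`. -/
noncomputable def pairJQ (f : L ≃ₐ[ℚ] L') (T : Finset Nat.Primes) :
    PairEquiv (JQ L T) (JQ L' T) where
  e := galEquivQ f
  φ := jLin f T
  comm σ a := by
    show Additive.ofMul (unitsEquiv (QT T) f (σ • Additive.toMul (Rep.toAdditive a))) =
      Additive.ofMul (galEquivQ f σ • unitsEquiv (QT T) f (Additive.toMul (Rep.toAdditive a)))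
    rw [unitsEquiv_smul]

theorem jLin_mem_ESubQ_iff (f : L ≃ₐ[ℚ] L') (T : Finset Nat.Primes) (a : (JQ L T).V) :
    jLin f T a ∈ ESubQ L' T ↔ a ∈ ESubQ L T := by
  rw [mem_imageSub, mem_imageSub]
  constructor
  · rintro ⟨y, hy, hya⟩
    obtain ⟨x, rfl⟩ : ∃ x : Lˣ, Units.map ((f : L ≃+* L') : L →* L') x = y :=
      ⟨Units.map ((f.symm : L' ≃+* L) : L' →* L) y, by
        apply Units.ext
        show f (f.symm (y : L')) = y
        rw [AlgEquiv.apply_symm_apply]⟩
    refine ⟨x, (mem_EUnitsQ_map_iff f T x).mp hy, ?_⟩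
    apply (unitsEquiv (QT T) f).injective
    rw [unitsEquiv_inclUnits, hya]
    rfl
  · rintro ⟨x, hx, hxa⟩
    refine ⟨Units.map ((f : L ≃+* L') : L →* L') x, map_mem_EUnitsQ f T hx, ?_⟩
    rw [← unitsEquiv_inclUnits, hxa]
    rfl

theorem map_ESubQ (f : L ≃ₐ[ℚ] L') (T : Finset Nat.Primes) :
    (ESubQ L T).map (jLin f T).toLinearMap = ESubQ L' T := by
  ext b
  constructor
  · rintro ⟨a, ha, rfl⟩
    exact (jLin_mem_ESubQ_iff f T a).mpr ha
  · intro hb
    refine ⟨(jLin f T).symm b, (jLin_mem_ESubQ_iff f T _).mp ?_, (jLin f T).apply_symm_apply b⟩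
    rw [LinearEquiv.apply_symm_apply]
    exact hb

/-- The linear equivalence `CQ L T ≃ CQ L' T`. -/
noncomputable def cLin (f : L ≃ₐ[ℚ] L') (T : Finset Nat.Primes) :
    (CQ L T).V ≃ₗ[ℤ] (CQ L' T).V :=
  Submodule.Quotient.equiv (ESubQ L T) (ESubQ L' T) (jLin f T) (map_ESubQ f T)

theorem cLin_mk (f : L ≃ₐ[ℚ] L') (T : Finset Nat.Primes) (a : (JQ L T).V) :
    cLin f T ((JQtoCQ L T).hom a) = (JQtoCQ L' T).hom (jLin f T a) := rfl

/-- `(Aut(L/ℚ), CQ L T) ≅ (Aut(L'/ℚ), CQ L' T)`. -/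
noncomputable def pairCQ (f : L ≃ₐ[ℚ] L') (T : Finset Nat.Primes) :
    PairEquiv (CQ L T) (CQ L' T) where
  e := galEquivQ f
  φ := cLin f T
  comm σ x := by
    obtain ⟨a, rfl⟩ := Submodule.Quotient.mk_surjective (ESubQ L T) x
    show cLin f T ((JQtoCQ L T).hom ((JQ L T).ρ σ a)) =
      (JQtoCQ L' T).hom ((JQ L' T).ρ (galEquivQ f σ) (jLin f T a))
    rw [cLin_mk]
    exact congrArg (JQtoCQ L' T).hom ((pairJQ f T).comm σ a)

/-- The linear equivalence `EQ L T ≃ EQ L' T`. -/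
noncomputable def eLin (f : L ≃ₐ[ℚ] L') (T : Finset Nat.Primes) :
    (EQ L T).V ≃ₗ[ℤ] (EQ L' T).V :=
  ((jLin f T).submoduleMap (ESubQ L T)).trans (LinearEquiv.ofEq _ _ (map_ESubQ f T))

theorem eLin_coe (f : L ≃ₐ[ℚ] L') (T : Finset Nat.Primes) (a : (EQ L T).V) :
    ((eLin f T a : (EQ L' T).V) : (JQ L' T).V) = jLin f T (a : (JQ L T).V) := rfl

/-- `(Aut(L/ℚ), EQ L T) ≅ (Aut(L'/ℚ), EQ L' T)`. -/
noncomputable def pairEQ (f : L ≃ₐ[ℚ] L') (T : Finset Nat.Primes) :
    PairEquiv (EQ L T) (EQ L' T) where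
  e := galEquivQ f
  φ := eLin f T
  comm σ x := by
    apply Subtype.ext
    exact (pairJQ f T).comm σ (x : (JQ L T).V)

/-- Restriction of a `PairEquiv` along compatible group homomorphisms. -/
def resAlong {G' G H' H : Type} [Group G'] [Group G] [Group H'] [Group H]
    {B : Rep ℤ G'} {A : Rep ℤ G} (h : PairEquiv B A) (r' : H' →* G') (r : H →* G)
    (eH : H' ≃* H) (hcomm : ∀ x, r (eH x) = h.e (r' x)) :
    PairEquiv (Rep.res r' B) (Rep.res r A) where
  e := eH
  φ := h.φ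
  comm g x := by
    show h.φ (B.ρ (r' g) x) = A.ρ (r (eH g)) (h.φ x)
    rw [hcomm, h.comm]

end Pairs

/-! ### The relative modules `Jn`, `En`, `Cn` along `e : L ≃ₐ[K] L'` -/

section Relative

open Fermat.Agent.S55.Coh.PairEquiv

variable {K L L' : Type} [Field K] [NumberField K] [Field L] [NumberField L]
  [Field L'] [NumberField L'] [Algebra K L] [Algebra K L']

/-- The underlying `ℚ`-isomorphism. -/
noncomputable abbrev toQ (e : L ≃ₐ[K] L') : L ≃ₐ[ℚ] L' := e.restrictScalars ℚ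

/-- `Gal(L/K) ≃* Gal(L'/K)`, `σ ↦ e σ e⁻¹`. -/
noncomputable abbrev galEquiv (e : L ≃ₐ[K] L') : (L ≃ₐ[K] L) ≃* (L' ≃ₐ[K] L') :=
  AlgEquiv.autCongr e

theorem galEquiv_apply (e : L ≃ₐ[K] L') (σ : L ≃ₐ[K] L) (y : L') :
    galEquiv e σ y = e (σ (e.symm y)) := rfl

theorem resHom_galEquiv (e : L ≃ₐ[K] L') (σ : L ≃ₐ[K] L) :
    resHom K L' (galEquiv e σ) = galEquivQ (toQ e) (resHom K L σ) := by
  ext y
  rfl

/-- `(Gal(L/K), Jn K L T) ≅ (Gal(L'/K), Jn K L' T)`. -/
noncomputable def pairJn (e : L ≃ₐ[K] L') (T : Finset Nat.Primes) :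
    PairEquiv (Jn K L T) (Jn K L' T) :=
  resAlong (pairJQ (toQ e) T) (resHom K L) (resHom K L') (galEquiv e) (resHom_galEquiv e)

/-- `(Gal(L/K), En K L T) ≅ (Gal(L'/K), En K L' T)`. -/
noncomputable def pairEn (e : L ≃ₐ[K] L') (T : Finset Nat.Primes) :
    PairEquiv (En K L T) (En K L' T) :=
  resAlong (pairEQ (toQ e) T) (resHom K L) (resHom K L') (galEquiv e) (resHom_galEquiv e)

/-- `(Gal(L/K), Cn K L T) ≅ (Gal(L'/K), Cn K L' T)`. -/
noncomputable def pairCn (e : L ≃ₐ[K] L') (T : Finset Nat.Primes) :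
    PairEquiv (Cn K L T) (Cn K L' T) :=
  resAlong (pairCQ (toQ e) T) (resHom K L) (resHom K L') (galEquiv e) (resHom_galEquiv e)

@[simp] theorem pairCn_e (e : L ≃ₐ[K] L') (T : Finset Nat.Primes) :
    (pairCn e T).e = galEquiv e := rfl

@[simp] theorem pairJn_e (e : L ≃ₐ[K] L') (T : Finset Nat.Primes) :
    (pairJn e T).e = galEquiv e := rfl

@[simp] theorem pairEn_e (e : L ≃ₐ[K] L') (T : Finset Nat.Primes) :
    (pairEn e T).e = galEquiv e := rfl

/-- The map of `pairCn` on classes of ideles. -/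
theorem pairCn_φ_mk (e : L ≃ₐ[K] L') (T : Finset Nat.Primes) (a : (JQ L T).V) :
    (pairCn e T).φ ((JQtoCQ L T).hom a) = (JQtoCQ L' T).hom (jLin (toQ e) T a) := rfl

/-- Cohomology transfers: cardinalities. -/
theorem card_H_Cn (e : L ≃ₐ[K] L') (T : Finset Nat.Primes) (n : ℕ) :
    Nat.card (groupCohomology (Cn K L T) n) = Nat.card (groupCohomology (Cn K L' T) n) :=
  (pairCn e T).card_eq n

/-! ### Transport of the hypotheses of `Blocks2` -/

theorem mapRingEquiv_smul (e : L ≃ₐ[K] L') (σ : L ≃ₐ[K] L) (x : 𝓞 L) :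
    RingOfIntegers.mapRingEquiv (e : L ≃+* L') (σ • x) =
      galEquiv e σ • RingOfIntegers.mapRingEquiv (e : L ≃+* L') x := by
  apply RingOfIntegers.ext
  show e (σ (x : L)) = e (σ (e.symm (e (x : L))))
  rw [AlgEquiv.symm_apply_apply]

theorem mem_inertia_placeEquiv (e : L ≃ₐ[K] L') (w : Place L) (σ : L ≃ₐ[K] L) :
    galEquiv e σ ∈ (placeEquiv (e : L ≃+* L') w).asIdeal.inertia (L' ≃ₐ[K] L') ↔
      σ ∈ w.asIdeal.inertia (L ≃ₐ[K] L) := by
  have hmem : ∀ y : 𝓞 L', y ∈ (placeEquiv (e : L ≃+* L') w).asIdeal ↔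
      (RingOfIntegers.mapRingEquiv (e : L ≃+* L')).symm y ∈ w.asIdeal := fun y => Iff.rfl
  constructor
  · intro h x
    have h1 : RingOfIntegers.mapRingEquiv (e : L ≃+* L') (σ • x - x) ∈
        (placeEquiv (e : L ≃+* L') w).asIdeal := by
      have := h (RingOfIntegers.mapRingEquiv (e : L ≃+* L') x)
      rwa [← mapRingEquiv_smul, ← map_sub] at this
    have h2 := (hmem _).mp h1
    rw [RingEquiv.symm_apply_apply] at h2
    exact h2
  · intro h y
    obtain ⟨x, rfl⟩ := (RingOfIntegers.mapRingEquiv (e : L ≃+* L')).surjective y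
    rw [← mapRingEquiv_smul, ← map_sub]
    show _ ∈ (placeEquiv (e : L ≃+* L') w).asIdeal
    rw [hmem, RingEquiv.symm_apply_apply]
    exact h x

theorem admissibleQ_of_algEquiv (e : L ≃ₐ[K] L') {p : ℕ} {T : Finset Nat.Primes}
    (h : AdmissibleQ K L p T) : AdmissibleQ K L' p T where
  mem_p := h.mem_p
  ram := by
    rintro w' ⟨σ', hσ', hne⟩
    obtain ⟨w, rfl⟩ := (placeEquiv (e : L ≃+* L')).surjective w'
    obtain ⟨σ, rfl⟩ := (galEquiv e).surjective σ'
    rw [placeEquiv_mem_placesAboveQ]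
    refine h.ram w ⟨σ, (mem_inertia_placeEquiv e w σ).mp hσ', ?_⟩
    rintro rfl
    exact hne (map_one _)
  principal := fun E _ _ g I hI =>
    h.principal E (((e.symm : L' ≃+* L) : L' →+* L).comp g) I hI

theorem setting_of_algEquiv (e : L ≃ₐ[K] L') {p : ℕ} {T : Finset Nat.Primes}
    (h : Setting p K L T) : Setting p K L' T where
  prime := h.prime
  odd := h.odd
  zeta := h.zeta
  galois := by
    have := h.galois
    exact IsGalois.of_algEquiv e
  ppower := by
    obtain ⟨n, hn⟩ := h.ppower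
    exact ⟨n, by rw [← hn]; exact e.toLinearEquiv.finrank_eq.symm⟩
  adm := admissibleQ_of_algEquiv e h.adm

theorem cyclicSetting_of_algEquiv (e : L ≃ₐ[K] L') {p : ℕ} {T : Finset Nat.Primes}
    {σ : L ≃ₐ[K] L} (h : CyclicSetting p K L T σ) :
    CyclicSetting p K L' T (galEquiv e σ) where
  toSetting := setting_of_algEquiv e h.toSetting
  degree := by rw [← h.degree]; exact e.toLinearEquiv.finrank_eq.symm
  gen := by
    intro τ'
    obtain ⟨τ, rfl⟩ := (galEquiv e).surjective τ'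
    obtain ⟨n, rfl⟩ := Subgroup.mem_zpowers_iff.mp (h.gen τ)
    rw [map_zpow]
    exact Subgroup.zpow_mem_zpowers _ n

end Relative

end Fermat.Agent.S55.Global.IsoTransport
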