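/-
S55 / GLOBAL block, row `G.h2cyclic`, ARITHMETIC HALF = ASSEMBLY (helper77).

`K ∋ ζ_p` a number field, `L/K` Galois of degree `p^m`, `F ⊆ K(ζ_{p^k})` a cyclotomic layer with
`[F:K] = [L:K]` (`CycloLayer.exists_cyclic_layer`), `M = L·F` (`Compositum.M K L F`),
`G = Gal(M/K)`, `N₁ = Gal(M/L)`, `N₂ = Gal(M/F)`, `A = Cn K M T` with `T` admissible for `M/K`.

CLOSED INPUT PROPS (hypotheses of the assembly):
* `Blocks2.H1Vanish p`, `Blocks2.H2CardDvd p`      -- (G-i), weak (G-ii)  (`DevissageFinal`)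
* `DevissageFinal.DescentFixedQ p`                  -- row G.descent (helper38)
* `IsoTransportCn`                                  -- row G.isoTransport (helper42): PROVED, `isoTransportCn`
* `CycloLayerH2 p`   (E1): `H²(Gal(F/K), C_{F,T})` cyclic of order `[F:K]` for cyclotomic layers
* `CycloNorm p`      (E2): every `Gal(M/K)`-invariant class of `C_{M,T}` is an `N₁`-norm
                                                    -- (E1), (E2): row G.cycloArtin (helper61/69)

OUTPUT (`h2cyclic_main`, packaged as the closed Props `H2CyclicM p`, `CycloGenM p`):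
* (G-ii)  `H²(Gal(L/K), C_{L,T})` is cyclic of order `[L:K]`;
* (G-iii) `range (infl from G ⧸ N₁) = range (infl from G ⧸ N₂)` inside `H²(G, C_{M,T})`.
`exists_layer_setting`: the data `(k, F, T ⊇ T₀)` exist; `exists_setting_h2cyclic`: (G-ii) holds for
some admissible `T ⊇ T₀`, for every `T₀`.

Pure group cohomology used: `H2Cyclic.range_infl₂_eq_of_generator` (helper54) and
`rest₂_infl₂_eq_zero_of_norm` below (`res_{N₁} ∘ infl_{G ⧸ N₂} = 0` on `H²` from the norm statement,
via helper53's cyclic cocycles).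
-/
import Mathlib
import Fermat.Agent.S55.Global.Compositum
import Fermat.Agent.S55.Global.CycloLayer
import Fermat.Agent.S55.Global.H2Cyclic
import Fermat.Agent.S55.Global.DevissageFinal
import Fermat.Agent.S55.Global.AdmissibleQExists
import Fermat.Agent.S55.Global.IsoTransport

set_option autoImplicit false
set_option linter.unusedSectionVars false

open NumberField CategoryTheory groupCohomology Rep

namespace Fermat.Agent.S55.Global.H2CyclicInst

open Fermat.Agent.S55.Global.Objects Fermat.Agent.S55.Global.Objects2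
open Fermat.Agent.S55.Global.Blocks2
open Fermat.Agent.S55.Global.DevissageInstQ Fermat.Agent.S55.Global.DevissageFinal
open Fermat.Agent.S55.Coh.PairEquiv
open Fermat.Agent.S55.Tate.InfRes2
open Fermat.Agent.S55.Local.CyclicCocycle
open Fermat.Agent.S55.Global.H2Cyclic
open Fermat.Agent.S55.Global.Compositum

universe u

section abstract

variable {k G : Type u} [CommRing k] [Group G] (A : Rep k G)

/-- An element of `(A^{N₂})^{G ⧸ N₂}` is `G`-invariant in `A`. -/
theorem invariant_of_quot (N₂ : Subgroup G) [N₂.Normal]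
    (a : (A.quotientToInvariants N₂).ρ.invariants) (g : G) :
    A.ρ g ((a : A.quotientToInvariants N₂).1 : A) = ((a : A.quotientToInvariants N₂).1 : A) := by
  have h := a.2 (QuotientGroup.mk g)
  exact congrArg Subtype.val h

/-- **Vanishing of `res_{N₁} ∘ infl_{G ⧸ N₂}` on `H²` from a norm statement.**  `G` finite,
`G ⧸ N₂` cyclic, `N₁ ⊓ N₂ = ⊥`; if every `G`-invariant element of `A` is an `N₁`-norm, then
`res_{N₁} (infl x) = 0` for every `x ∈ H²(G ⧸ N₂, A^{N₂})`. -/
theorem rest₂_infl₂_eq_zero_of_norm [Finite G] (N₁ N₂ : Subgroup G) [N₂.Normal] [Fintype N₁]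
    (hcyc : IsCyclic (G ⧸ N₂)) (hinf : N₁ ⊓ N₂ = ⊥)
    (hnorm : ∀ a : A, (∀ g : G, A.ρ g a = a) → ∃ b : A, a = ∑ s : N₁, A.ρ (s : G) b)
    (x : groupCohomology (A.quotientToInvariants N₂) 2) :
    (rest₂ A N₁).hom ((infl₂ A N₂).hom x) = 0 := by
  obtain ⟨σ, hσ⟩ := hcyc.exists_generator
  have hgen : ∀ g : G ⧸ N₂, ∃ i : ℕ, σ ^ i = g := exists_pow_eq_of_zpowers hσ
  have hn : 0 < orderOf σ := orderOf_pos σ
  have hinj : Function.Injective (toQuot N₁ N₂) := by
    rw [injective_iff_map_eq_one]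
    intro s hs
    have h2 : (s : G) ∈ N₂ := by
      have : ((s : G) : G ⧸ N₂) = 1 := hs
      exact (QuotientGroup.eq_one_iff _).1 this
    have h3 : (s : G) ∈ N₁ ⊓ N₂ := ⟨s.2, h2⟩
    rw [hinf, Subgroup.mem_bot] at h3
    exact Subtype.ext h3
  have hcyc₁ : IsCyclic N₁ := isCyclic_of_injective (toQuot N₁ N₂) hinj
  obtain ⟨τ, hτ⟩ := hcyc₁.exists_generator
  have hgen' : ∀ g : N₁, ∃ i : ℕ, τ ^ i = g := exists_pow_eq_of_zpowers hτ
  have hm : 0 < orderOf τ := orderOf_pos τ
  obtain ⟨d, hd⟩ := hgen (((τ : G) : G ⧸ N₂))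
  obtain ⟨a, rfl⟩ := cycClass_surjective (A := A.quotientToInvariants N₂) hn hgen x
  rw [rest₂_infl₂_cycClass_eq_zero_iff A hn hgen hm hgen' hd.symm a]
  refine hnorm _ (fun g => ?_)
  rw [map_nsmul, invariant_of_quot A N₂ a g]

/-- Transport of a generator along a linear equivalence. -/
theorem zmultiples_eq_top_of_equiv {X Y : Type*} [AddCommGroup X] [AddCommGroup Y]
    (e : X ≃+ Y) {u : X} (hu : ∀ x : X, ∃ n : ℤ, x = n • u) :
    AddSubgroup.zmultiples (e u) = ⊤ := by
  rw [eq_top_iff]
  intro y _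
  obtain ⟨n, hn⟩ := hu (e.symm y)
  rw [AddSubgroup.mem_zmultiples_iff]
  refine ⟨n, ?_⟩
  rw [← map_zsmul, ← hn, AddEquiv.apply_symm_apply]

theorem addOrderOf_eq_card_of_zmultiples_eq_top {X : Type*} [AddCommGroup X] {u : X}
    (hu : AddSubgroup.zmultiples u = ⊤) : addOrderOf u = Nat.card X := by
  rw [← Nat.card_zmultiples, hu]
  exact Nat.card_congr AddSubgroup.topEquiv.toEquiv

end abstract

/-! ### The closed input Props -/

/-- **Field-isomorphism transport** (row `G.isoTransport`, helper42 `IsoTransport.pairEquivCn`). -/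
def IsoTransportCn : Prop :=
  ∀ (K L L' : Type) [Field K] [NumberField K] [Field L] [NumberField L] [Field L']
    [NumberField L'] [Algebra K L] [Algebra K L'] (_ : L ≃ₐ[K] L') (T : Finset Nat.Primes),
    Nonempty (PairEquiv (Cn K L T) (Cn K L' T))

/-- `IsoTransportCn` holds (helper42, `IsoTransport.pairCn`). -/
theorem isoTransportCn : IsoTransportCn :=
  fun _ _ _ _ _ _ _ _ _ _ _ e T => ⟨IsoTransport.pairCn e T⟩

/-- **(E1) `H²` of a cyclotomic layer**: for a subfield `F` of `K(ζ_{p^k})` (automatically cyclic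
over `K`, `p` odd) and `T` admissible for `F/K`: `H²(Gal(F/K), C_{F,T})` is cyclic of order
`[F:K]`.  (= the conclusion of `Blocks2.H2Cyclic` for the cyclotomic layers; row `G.cycloArtin`:
the Artin map `ψ : C_K ⧸ N C_F → Gal(F/K)` is onto, hence bijective by `H2CardDvd`.) -/
def CycloLayerH2 (p : ℕ) : Prop :=
  ∀ (K : Type) [Field K] [NumberField K] (T : Finset Nat.Primes) (k : ℕ)
    (F : IntermediateField K (CyclotomicField (p ^ k) K)), Setting p K F T →
    Nat.card (groupCohomology (Cn K F T) 2) = Module.finrank K F ∧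
      ∃ u : groupCohomology (Cn K F T) 2, ∀ x : groupCohomology (Cn K F T) 2, ∃ n : ℤ, x = n • u

/-- **(E2) Norm statement** (functoriality of the cyclotomic Artin map): `L/K` Galois, `F` a
subfield of `K(ζ_{p^k})` with `[F:K] ∣ [L:K]`, `M = L·F`, `T` admissible for `M/K`.  Every
`Gal(M/K)`-invariant class of `C_{M,T}` (= every class coming from `C_{K,T}`) is a norm from
`C_{M,T}` to `C_{L,T}`:  `ψ_{M/L}(a)|_F = ψ_{F/K}(a)^{[L:K]} = 1`. -/
def CycloNorm (p : ℕ) : Prop :=
  ∀ (K L : Type) [Field K] [NumberField K] [Field L] [NumberField L] [Algebra K L] [IsGalois K L]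
    (T : Finset Nat.Primes) (k : ℕ) (F : IntermediateField K (CyclotomicField (p ^ k) K))
    [IsGalois K F] [Fintype (N₁ K L F)],
    Module.finrank K F ∣ Module.finrank K L → Setting p K (M K L F) T →
    ∀ a : Cn K (M K L F) T, (∀ g : M K L F ≃ₐ[K] M K L F, (Cn K (M K L F) T).ρ g a = a) →
      ∃ b : Cn K (M K L F) T,
        a = ∑ s : N₁ K L F, (Cn K (M K L F) T).ρ (s : M K L F ≃ₐ[K] M K L F) b

/-! ### The fixed fields of `N₁`, `N₂` in the compositum -/

section fix

variable (K L F : Type) [Field K] [Field L] [Field F] [Algebra K L] [Algebra K F]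
  [FiniteDimensional K L] [FiniteDimensional K F] [IsGalois K L] [IsGalois K F]

/-- `L ≃ₐ[K] M^{N₁}`. -/
noncomputable def eFix₁ : L ≃ₐ[K] IntermediateField.fixedField (N₁ K L F) :=
  (eL K L F).trans (IntermediateField.equivOfEq
    (IsGalois.fixedField_fixingSubgroup (Lm K L F)).symm)

/-- `F ≃ₐ[K] M^{N₂}`. -/
noncomputable def eFix₂ : F ≃ₐ[K] IntermediateField.fixedField (N₂ K L F) :=
  (eF K L F).trans (IntermediateField.equivOfEq
    (IsGalois.fixedField_fixingSubgroup (Fm K L F)).symm)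

end fix

/-! ### The assembly -/

section main

variable {p : ℕ} (K L : Type) [Field K] [NumberField K] [Field L] [NumberField L] [Algebra K L]
  [IsGalois K L] (T : Finset Nat.Primes) (k : ℕ)
  (F : IntermediateField K (CyclotomicField (p ^ k) K)) [IsGalois K F]

/-- `Setting` for the cyclotomic layer `F/K` from `Setting` for the compositum. -/
theorem setting_F (hsM : Setting p K (M K L F) T) : Setting p K F T := by
  let _ : Algebra F (M K L F) := ((Fm K L F).val.comp (eF K L F).toAlgHom).toRingHom.toAlgebra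
  have : IsScalarTower K F (M K L F) :=
    IsScalarTower.of_algebraMap_eq (fun x =>
      (((Fm K L F).val.comp (eF K L F).toAlgHom).commutes x).symm)
  exact HeredityDown.setting_quotient K F (M K L F) hsM

/-- `Setting` for `L/K` from `Setting` for the compositum. -/
theorem setting_L (hsM : Setting p K (M K L F) T) : Setting p K L T := by
  let _ : Algebra L (M K L F) := ((Lm K L F).val.comp (eL K L F).toAlgHom).toRingHom.toAlgebra
  have : IsScalarTower K L (M K L F) :=
    IsScalarTower.of_algebraMap_eq (fun x =>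
      (((Lm K L F).val.comp (eL K L F).toAlgHom).commutes x).symm)
  exact HeredityDown.setting_quotient K L (M K L F) hsM

/-- `H¹(N, C_{M,T}) = 0` for every subgroup `N` of `Gal(M/K)` (from (G-i) and heredity). -/
theorem h1ResTrivial_of_setting (hH1 : H1Vanish p) {M' : Type} [Field M'] [NumberField M']
    [Algebra K M'] (hsM : Setting p K M' T) (N : Subgroup (M' ≃ₐ[K] M')) :
    H1ResTrivial (Cn K M' T) N := by
  have hs1 : Setting p (IntermediateField.fixedField N) M' T :=
    HeredityUpProof.heredityUp p K M' T hsM (IntermediateField.fixedField N)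
  have hz1 := hH1 (IntermediateField.fixedField N) M' T hs1
  exact h1ResTrivial_of_isZero _ _ (((topPair K M' T N).isZero_iff 1).2 hz1)

/-- **Row `G.h2cyclic`, assembly.**  `L/K` Galois, `F ⊆ K(ζ_{p^k})` with `[F:K] = [L:K]`,
`M = L·F`, `T` admissible for `M/K`.  Then `H²(Gal(L/K), C_{L,T})` is cyclic of order `[L:K]`
((G-ii)), and inside `H²(Gal(M/K), C_{M,T})` the inflation images from `L/K` and from the
cyclotomic layer `F/K` coincide ((G-iii)). -/
theorem h2cyclic_main (hH1 : H1Vanish p) (hH2 : H2CardDvd p) (hD : DescentFixedQ p)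
    (hIso : IsoTransportCn) (hE1 : CycloLayerH2 p) (hE2 : CycloNorm p)
    (hdeg : Module.finrank K F = Module.finrank K L)
    (hsM : Setting p K (M K L F) T) :
    (Nat.card (groupCohomology (Cn K L T) 2) = Module.finrank K L ∧
      ∃ u : groupCohomology (Cn K L T) 2, ∀ x : groupCohomology (Cn K L T) 2,
        ∃ n : ℤ, x = n • u) ∧
    LinearMap.range (infl₂ (Cn K (M K L F) T) (N₁ K L F)).hom =
      LinearMap.range (infl₂ (Cn K (M K L F) T) (N₂ K L F)).hom := by
  classical
  -- the two vanishing statements in degree one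
  have h1 := h1ResTrivial_of_setting K T hH1 hsM (N₁ K L F)
  have h2 := h1ResTrivial_of_setting K T hH1 hsM (N₂ K L F)
  -- descent and transport
  obtain ⟨D₁⟩ := hD K (M K L F) T hsM.adm (N₁ K L F)
  obtain ⟨D₂⟩ := hD K (M K L F) T hsM.adm (N₂ K L F)
  obtain ⟨T₁⟩ := hIso K L _ (eFix₁ K L F) T
  obtain ⟨T₂⟩ := hIso K F _ (eFix₂ K L F) T
  have P₁ := T₁.trans D₁.symm
  have P₂ := T₂.trans D₂.symm
  -- the cyclotomic layer
  obtain ⟨hcF, u₀, hu₀⟩ := hE1 K T k F (setting_F K L T k F hsM)
  set u := P₂.cohomologyEquiv 2 u₀ with hu_def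
  have hu : AddSubgroup.zmultiples u = ⊤ :=
    zmultiples_eq_top_of_equiv (P₂.cohomologyEquiv 2).toAddEquiv hu₀
  have hord : addOrderOf u = Module.finrank K L := by
    rw [addOrderOf_eq_card_of_zmultiples_eq_top hu, ← P₂.card_eq 2, hcF, hdeg]
  -- the bound for `L/K`
  have hs₁ : Setting p K (IntermediateField.fixedField (N₁ K L F)) T :=
    HeredityDown.setting_fixedField hsM (N₁ K L F)
  obtain ⟨hfin₁, hdvd₁⟩ := hH2 K (IntermediateField.fixedField (N₁ K L F)) T hs₁
  have hrk : Module.finrank K (IntermediateField.fixedField (N₁ K L F)) = Module.finrank K L :=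
    (eFix₁ K L F).toLinearEquiv.finrank_eq.symm
  have hfin : Finite (groupCohomology ((Cn K (M K L F) T).quotientToInvariants (N₁ K L F)) 2) :=
    (D₁.finite_iff 2).2 hfin₁
  have hpos : 0 < Module.finrank K L := Module.finrank_pos
  have hcard : Nat.card (groupCohomology
      ((Cn K (M K L F) T).quotientToInvariants (N₁ K L F)) 2) ≤ addOrderOf u := by
    rw [hord, D₁.card_eq 2]
    exact Nat.le_of_dvd hpos (hrk ▸ hdvd₁)
  -- the restriction of the inflated class vanishes
  have hcycF : IsCyclic (F ≃ₐ[K] F) := by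
    have : NeZero (p ^ k) := ⟨pow_ne_zero _ hsM.prime.ne_zero⟩
    have hgalC : IsGalois K (CyclotomicField (p ^ k) K) :=
      IsCyclotomicExtension.isGalois {p ^ k} K _
    have hcycC : IsCyclic (CyclotomicField (p ^ k) K ≃ₐ[K] CyclotomicField (p ^ k) K) :=
      CycloLayer.isCyclic_gal hsM.prime hsM.odd k K _
    exact isCyclic_of_surjective
      (AlgEquiv.restrictNormalHom (F := K) (K₁ := CyclotomicField (p ^ k) K) F)
      (AlgEquiv.restrictNormalHom_surjective (CyclotomicField (p ^ k) K))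
  have hres : (rest₂ (Cn K (M K L F) T) (N₁ K L F)).hom
      ((infl₂ (Cn K (M K L F) T) (N₂ K L F)).hom u) = 0 := by
    have : Fintype (N₁ K L F) := Fintype.ofFinite _
    refine rest₂_infl₂_eq_zero_of_norm (Cn K (M K L F) T) (N₁ K L F) (N₂ K L F) ?_
      (N₁_inf_N₂ K L F) ?_ u
    · exact isCyclic_of_surjective (quotEquivF K L F).symm (quotEquivF K L F).symm.surjective
    · intro a ha
      exact hE2 K L T k F (hdeg ▸ dvd_rfl) hsM a ha
  obtain ⟨v, -, hv, -, hcv, hrange⟩ :=
    range_infl₂_eq_of_generator (Cn K (M K L F) T) (N₁ K L F) (N₂ K L F) h1 h2 u hu hcard hres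
  refine ⟨⟨?_, (P₁.cohomologyEquiv 2).symm v, ?_⟩, hrange⟩
  · rw [P₁.card_eq 2, hcv, hord]
  · intro x
    have hx : P₁.cohomologyEquiv 2 x ∈ AddSubgroup.zmultiples v := by rw [hv]; trivial
    obtain ⟨n, hn⟩ := AddSubgroup.mem_zmultiples_iff.1 hx
    refine ⟨n, ?_⟩
    rw [← map_zsmul, hn, LinearEquiv.symm_apply_apply]

end main

/-! ### Existence of the auxiliary data, and the closed output Props -/

section exist

variable {p : ℕ} (K L : Type) [Field K] [NumberField K] [Field L] [NumberField L] [Algebra K L]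
  [IsGalois K L]

/-- For `K ∋ ζ_p`, `L/K` Galois of `p`-power degree and a finite set `T₀` of rational primes there
are a cyclotomic layer `F/K` with `[F:K] = [L:K]` and `T ⊇ T₀` admissible for `L·F / K`. -/
theorem exists_layer_setting (hp : p.Prime) (hodd : p ≠ 2) (hζ : ∃ ζ : K, IsPrimitiveRoot ζ p)
    (hpp : ∃ n : ℕ, Module.finrank K L = p ^ n) (T₀ : Finset Nat.Primes) :
    ∃ (k : ℕ) (F : IntermediateField K (CyclotomicField (p ^ k) K)) (_ : IsGalois K F)
      (T : Finset Nat.Primes), T₀ ⊆ T ∧ Module.finrank K F = Module.finrank K L ∧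
        Setting p K (M K L F) T := by
  have : Fact p.Prime := ⟨hp⟩
  obtain ⟨n, hn⟩ := hpp
  obtain ⟨k, F, hgal, hdeg, -⟩ := CycloLayer.exists_cyclic_layer p hodd K n
  obtain ⟨c, hc⟩ := exists_finrank_M_eq_pow K L F hp hn hdeg
  obtain ⟨T, hT0, hT⟩ := AdmissibleQExists.exists_setting K (M K L F) hp hodd hζ ⟨c, hc⟩ T₀
  exact ⟨k, F, hgal, T, hT0, hdeg.trans hn.symm, hT⟩

end exist

/-- **(G-ii), form proved here**: `H²(Gal(L/K), C_{L,T})` is cyclic of order `[L:K]` as soon as `T`
is admissible for the compositum of `L` with a cyclotomic layer `F/K` of the same degree. -/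
def H2CyclicM (p : ℕ) : Prop :=
  ∀ (K L : Type) [Field K] [NumberField K] [Field L] [NumberField L] [Algebra K L] [IsGalois K L]
    (T : Finset Nat.Primes) (k : ℕ) (F : IntermediateField K (CyclotomicField (p ^ k) K))
    [IsGalois K F], Module.finrank K F = Module.finrank K L → Setting p K (M K L F) T →
    Nat.card (groupCohomology (Cn K L T) 2) = Module.finrank K L ∧
      ∃ u : groupCohomology (Cn K L T) 2, ∀ x : groupCohomology (Cn K L T) 2, ∃ n : ℤ, x = n • u

/-- **(G-iii) `CycloGen`, form proved here**: inside `H²(Gal(L·F/K), C_{L·F,T})` the inflation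
images from `L/K` and from the cyclotomic layer `F/K` (`[F:K] = [L:K]`) coincide. -/
def CycloGenM (p : ℕ) : Prop :=
  ∀ (K L : Type) [Field K] [NumberField K] [Field L] [NumberField L] [Algebra K L] [IsGalois K L]
    (T : Finset Nat.Primes) (k : ℕ) (F : IntermediateField K (CyclotomicField (p ^ k) K))
    [IsGalois K F], Module.finrank K F = Module.finrank K L → Setting p K (M K L F) T →
    LinearMap.range (infl₂ (Cn K (M K L F) T) (N₁ K L F)).hom =
      LinearMap.range (infl₂ (Cn K (M K L F) T) (N₂ K L F)).hom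

theorem h2CyclicM {p : ℕ} (hH1 : H1Vanish p) (hH2 : H2CardDvd p) (hD : DescentFixedQ p)
    (hIso : IsoTransportCn) (hE1 : CycloLayerH2 p) (hE2 : CycloNorm p) : H2CyclicM p :=
  fun K L _ _ _ _ _ _ T k F _ hdeg hsM =>
    (h2cyclic_main K L T k F hH1 hH2 hD hIso hE1 hE2 hdeg hsM).1

theorem cycloGenM {p : ℕ} (hH1 : H1Vanish p) (hH2 : H2CardDvd p) (hD : DescentFixedQ p)
    (hIso : IsoTransportCn) (hE1 : CycloLayerH2 p) (hE2 : CycloNorm p) : CycloGenM p :=
  fun K L _ _ _ _ _ _ T k F _ hdeg hsM =>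
    (h2cyclic_main K L T k F hH1 hH2 hD hIso hE1 hE2 hdeg hsM).2

/-- `H2CyclicM p` with the transport input discharged. -/
theorem h2CyclicM' {p : ℕ} (hH1 : H1Vanish p) (hH2 : H2CardDvd p) (hD : DescentFixedQ p)
    (hE1 : CycloLayerH2 p) (hE2 : CycloNorm p) : H2CyclicM p :=
  h2CyclicM hH1 hH2 hD isoTransportCn hE1 hE2

/-- `CycloGenM p` with the transport input discharged. -/
theorem cycloGenM' {p : ℕ} (hH1 : H1Vanish p) (hH2 : H2CardDvd p) (hD : DescentFixedQ p)
    (hE1 : CycloLayerH2 p) (hE2 : CycloNorm p) : CycloGenM p :=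
  cycloGenM hH1 hH2 hD isoTransportCn hE1 hE2

/-- **(G-ii) for all sufficiently large `T`**: for `K ∋ ζ_p`, `L/K` Galois of `p`-power degree and
any finite `T₀` there is an admissible `T ⊇ T₀` for `L/K` with `H²(Gal(L/K), C_{L,T})` cyclic of
order `[L:K]`. -/
theorem exists_setting_h2cyclic {p : ℕ} (h : H2CyclicM p)
    (K L : Type) [Field K] [NumberField K] [Field L] [NumberField L] [Algebra K L] [IsGalois K L]
    (hp : p.Prime) (hodd : p ≠ 2) (hζ : ∃ ζ : K, IsPrimitiveRoot ζ p)
    (hpp : ∃ n : ℕ, Module.finrank K L = p ^ n) (T₀ : Finset Nat.Primes) :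
    ∃ T : Finset Nat.Primes, T₀ ⊆ T ∧ Setting p K L T ∧
      Nat.card (groupCohomology (Cn K L T) 2) = Module.finrank K L ∧
      ∃ u : groupCohomology (Cn K L T) 2, ∀ x : groupCohomology (Cn K L T) 2, ∃ n : ℤ, x = n • u := by
  obtain ⟨k, F, hgal, T, hT0, hdeg, hsM⟩ := exists_layer_setting K L hp hodd hζ hpp T₀
  exact ⟨T, hT0, setting_L K L T k F hsM, h K L T k F hdeg hsM⟩

end Fermat.Agent.S55.Global.H2CyclicInst
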