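/-
S55 / GLOBAL block — glue for row G.h2cyclic, item (c) of helper77's analysis (helper6).

For `Setting p K L T` and ANY subgroup `N ≤ Gal(L/K)`, the restriction `Res_N (Cn K L T)` is literally
the module `Cn (L^N) L T` of the layer `L / L^N` (`DevissageInstQ.topPair`), and `Setting` is inherited
(`HeredityUp`).  Hence the global theorems (G-i), (G-ii weak) for ALL layers give

* `isZero_H1_res_Cn`   : `H¹(N, Cn K L T) = 0`,
* `h1ResTrivial_Cn`    : the same in the cocycle form `Tate.InfRes2.H1ResTrivial` consumed by
                         `H2Cyclic.range_infl₂_eq_of_generator` and `InfRes2.infl₂_injective`,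
* `card_H2_res_Cn_dvd` : `H²(N, Cn K L T)` is finite of order dividing `|N|`.
-/
import Fermat.Agent.S55.Global.HeredityUp

set_option autoImplicit false
set_option linter.unusedSectionVars false

open NumberField CategoryTheory

namespace Fermat.Agent.S55.Global.LayerVanish

open Fermat.Agent.S55.Global.Objects Fermat.Agent.S55.Global.Objects2
open Fermat.Agent.S55.Global.Blocks2
open Fermat.Agent.S55.Global.DevissageInstQ
open Fermat.Agent.S55.Coh.PairEquiv
open Fermat.Agent.S55.Tate.InfRes2

variable {K L : Type} [Field K] [NumberField K] [Field L] [NumberField L] [Algebra K L]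

/-- `H¹(N, Cn K L T) = 0` for every subgroup `N ≤ Gal(L/K)`. -/
theorem isZero_H1_res_Cn {p : ℕ} (hV : H1Vanish p) {T : Finset Nat.Primes}
    (hs : Setting p K L T) (N : Subgroup (L ≃ₐ[K] L)) :
    Limits.IsZero (groupCohomology (Rep.res N.subtype (Cn K L T)) 1) :=
  ((topPair K L T N).isZero_iff 1).2
    (hV (IntermediateField.fixedField N) L T
      (HeredityUpProof.heredityUp p K L T hs (IntermediateField.fixedField N)))

/-- `H¹(N, Cn K L T) = 0` in cocycle form. -/
theorem h1ResTrivial_Cn {p : ℕ} (hV : H1Vanish p) {T : Finset Nat.Primes}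
    (hs : Setting p K L T) (N : Subgroup (L ≃ₐ[K] L)) :
    H1ResTrivial (Cn K L T) N :=
  h1ResTrivial_of_isZero (Cn K L T) N (isZero_H1_res_Cn hV hs N)

/-- `H²(N, Cn K L T)` is finite of order dividing `|N|`. -/
theorem card_H2_res_Cn_dvd {p : ℕ} (hD : H2CardDvd p) {T : Finset Nat.Primes}
    (hs : Setting p K L T) (N : Subgroup (L ≃ₐ[K] L)) :
    Finite (groupCohomology (Rep.res N.subtype (Cn K L T)) 2) ∧
      Nat.card (groupCohomology (Rep.res N.subtype (Cn K L T)) 2) ∣ Nat.card N := by
  have hsE := HeredityUpProof.heredityUp p K L T hs (IntermediateField.fixedField N)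
  obtain ⟨hfin, hdvd⟩ := hD (IntermediateField.fixedField N) L T hsE
  have h := topPair K L T N
  have := hsE.galois
  refine ⟨(h.finite_iff 2).2 hfin, ?_⟩
  rw [h.card_eq 2, Nat.card_congr h.e.toEquiv,
    IsGalois.card_aut_eq_finrank (IntermediateField.fixedField N) L]
  exact hdvd

end Fermat.Agent.S55.Global.LayerVanish
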