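import Mathlib
import Fermat.Agent.S55.Global.TransitionQ

/-!
# S55 / Global: transitivity of the transition / inflation maps of `TransitionQ`

Tower `K → L → M' → M` of number fields, `L/K` and `M'/K` normal.  Then

* `rnHom K L M = (rnHom K L M').comp (rnHom K M' M)`;
* `transQ`, `transUnitsQ`, `baseUnits`, `transLinQ` are transitive;
* `(transCn K L M T).hom c = (transCn K M' M T).hom ((transCn K L M' T).hom c)` (same for `Jn`,
  `En`, `Lxn`);
* `inflCn K L M T n = inflCn K L M' T n ≫ inflCn K M' M T n` (same for `inflJn`, `inflEn`,
  `inflLxn`).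
-/

set_option autoImplicit false
set_option linter.unusedSectionVars false

namespace Fermat.Agent.S55.Global.TransitionQTrans

open NumberField IsDedekindDomain TensorProduct CategoryTheory
open Fermat.Agent.S55.Global.Objects Fermat.Agent.S55.Global.Objects2
open Fermat.Agent.S55.Global.Objects5
open Fermat.Agent.S55.Global.TransitionQ

section Tower

variable (L M' M : Type) [Field L] [NumberField L] [Field M'] [NumberField M']
  [Field M] [NumberField M] [Algebra L M'] [Algebra L M] [Algebra M' M] [IsScalarTower L M' M]

section Basic

variable (A : Type) [CommRing A] [Algebra ℚ A]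

theorem transQ_trans (z : L ⊗[ℚ] A) :
    transQ M' M A (transQ L M' A z) = transQ L M A z := by
  induction z using TensorProduct.induction_on with
  | zero => simp
  | tmul x a =>
    rw [transQ_tmul, transQ_tmul, transQ_tmul]
    congr 1
    exact (IsScalarTower.algebraMap_apply L M' M x).symm
  | add x y hx hy => rw [map_add, map_add, map_add, hx, hy]

theorem transUnitsQ_trans (u : (L ⊗[ℚ] A)ˣ) :
    transUnitsQ M' M A (transUnitsQ L M' A u) = transUnitsQ L M A u := by
  apply Units.ext
  exact transQ_trans L M' M A (u : L ⊗[ℚ] A)

theorem baseUnits_trans (x : Lˣ) :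
    Transition.baseUnits M' M (Transition.baseUnits L M' x) = Transition.baseUnits L M x := by
  apply Units.ext
  exact (IsScalarTower.algebraMap_apply L M' M (x : L)).symm

end Basic

variable (T : Finset Nat.Primes)

theorem transLinQ_trans (a : (JQ L T).V) :
    transLinQ M' M T (transLinQ L M' T a) = transLinQ L M T a :=
  congrArg Additive.ofMul
    (transUnitsQ_trans L M' M (QT T) (Additive.toMul (Rep.toAdditive a)))

end Tower

section Galois

variable (K L M' M : Type) [Field K] [NumberField K] [Field L] [NumberField L]
  [Field M'] [NumberField M'] [Field M] [NumberField M]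
  [Algebra K L] [Algebra K M'] [Algebra K M] [Algebra L M'] [Algebra L M] [Algebra M' M]
  [IsScalarTower K L M'] [IsScalarTower K M' M] [IsScalarTower K L M] [IsScalarTower L M' M]
  [Normal K L] [Normal K M']

theorem rnHom_trans_apply (τ : M ≃ₐ[K] M) :
    rnHom K L M τ = rnHom K L M' (rnHom K M' M τ) := by
  ext x
  apply (algebraMap L M).injective
  rw [rnHom_commutes, IsScalarTower.algebraMap_apply L M' M, IsScalarTower.algebraMap_apply L M' M,
    rnHom_commutes, rnHom_commutes]

/-- **Transitivity of restriction**: `Gal(M/K) → Gal(M'/K) → Gal(L/K)`. -/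
theorem rnHom_trans : rnHom K L M = (rnHom K L M').comp (rnHom K M' M) := by
  ext τ : 1
  exact rnHom_trans_apply K L M' M τ

variable (T : Finset Nat.Primes)

theorem transJn_trans (c : Jn K L T) :
    (transJn K L M T).hom c = (transJn K M' M T).hom ((transJn K L M' T).hom c) :=
  (transLinQ_trans L M' M T c).symm

theorem transEn_trans (c : En K L T) :
    (transEn K L M T).hom c = (transEn K M' M T).hom ((transEn K L M' T).hom c) :=
  Subtype.ext (transLinQ_trans L M' M T (c : JQ L T)).symm

theorem transCn_trans (c : Cn K L T) :
    (transCn K L M T).hom c = (transCn K M' M T).hom ((transCn K L M' T).hom c) := by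
  obtain ⟨a, rfl⟩ := Submodule.mkQ_surjective _ c
  exact congrArg (Submodule.mkQ (ESubQ M T)) (transLinQ_trans L M' M T a).symm

theorem transLxn_trans (c : Lxn K L) :
    (transLxn K L M).hom c = (transLxn K M' M).hom ((transLxn K L M').hom c) :=
  congrArg Additive.ofMul
    (baseUnits_trans L M' M (Additive.toMul (Rep.toAdditive c))).symm

variable (n : ℕ)

/-- **Transitivity of inflation** on `Hⁿ(C)`. -/
theorem inflCn_trans :
    inflCn K L M T n = inflCn K L M' T n ≫ inflCn K M' M T n := by
  unfold inflCn
  rw [← groupCohomology.map_comp]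
  refine groupCohomology.map_congr (rnHom_trans K L M' M) ?_ n
  apply LinearMap.ext
  intro c
  exact transCn_trans K L M' M T c

/-- **Transitivity of inflation** on `Hⁿ(J)`. -/
theorem inflJn_trans :
    inflJn K L M T n = inflJn K L M' T n ≫ inflJn K M' M T n := by
  unfold inflJn
  rw [← groupCohomology.map_comp]
  refine groupCohomology.map_congr (rnHom_trans K L M' M) ?_ n
  apply LinearMap.ext
  intro c
  exact transJn_trans K L M' M T c

/-- **Transitivity of inflation** on `Hⁿ(E)`. -/
theorem inflEn_trans :
    inflEn K L M T n = inflEn K L M' T n ≫ inflEn K M' M T n := by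
  unfold inflEn
  rw [← groupCohomology.map_comp]
  refine groupCohomology.map_congr (rnHom_trans K L M' M) ?_ n
  apply LinearMap.ext
  intro c
  exact transEn_trans K L M' M T c

/-- **Transitivity of inflation** on `Hⁿ(Lˣ)`. -/
theorem inflLxn_trans :
    inflLxn K L M n = inflLxn K L M' n ≫ inflLxn K M' M n := by
  unfold inflLxn
  rw [← groupCohomology.map_comp]
  refine groupCohomology.map_congr (rnHom_trans K L M' M) ?_ n
  apply LinearMap.ext
  intro c
  exact transLxn_trans K L M' M c

theorem inflCn_trans_apply (x : groupCohomology (Cn K L T) n) :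
    (inflCn K L M T n).hom x = (inflCn K M' M T n).hom ((inflCn K L M' T n).hom x) := by
  rw [inflCn_trans K L M' M T n]
  rfl

theorem inflJn_trans_apply (x : groupCohomology (Jn K L T) n) :
    (inflJn K L M T n).hom x = (inflJn K M' M T n).hom ((inflJn K L M' T n).hom x) := by
  rw [inflJn_trans K L M' M T n]
  rfl

theorem inflEn_trans_apply (x : groupCohomology (En K L T) n) :
    (inflEn K L M T n).hom x = (inflEn K M' M T n).hom ((inflEn K L M' T n).hom x) := by
  rw [inflEn_trans K L M' M T n]
  rfl

theorem inflLxn_trans_apply (x : groupCohomology (Lxn K L) n) :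
    (inflLxn K L M n).hom x = (inflLxn K M' M n).hom ((inflLxn K L M' n).hom x) := by
  rw [inflLxn_trans K L M' M n]
  rfl

end Galois

end Fermat.Agent.S55.Global.TransitionQTrans
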