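/-
S55 / GLOBAL block, row `G.h2cyclic` (lemmas row 152), FINAL ASSEMBLY in TOWER form (helper77).

LITERAL TARGETS (`Global/Blocks4.lean`):
  `h2CyclicIn : CycloLayerH2 p → CycloNorm p → Blocks4.H2CyclicIn p`      -- (G-ii)
  `cycloGen   : CycloLayerH2 p → CycloNorm p → Blocks4.CycloGen p`        -- (G-iii)
  `range_inflCn_eq` : `range (inflCn K L M T 2) = range (inflCn K F M T 2)` in a `CycloSetting`.

The ONLY remaining hypotheses are the two cyclotomic inputs (row `G.cycloArtin`):
* `CycloLayerH2 p` (E1): `H²(Gal(F/K), C_{F,T})` cyclic of order `[F:K]` for cyclic cyclotomic layers;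
* `CycloNorm p`    (E2): towers `K ⊆ L ⊆ M`, `K ⊆ F ⊆ M`, `M = L·F`, `[F:K] ∣ [L:K]`: every
                          `Gal(M/K)`-invariant class of `C_{M,T}` is a norm from `C_{M,T}` to `C_{L,T}`.

Everything else is discharged from main: (G-i), weak (G-ii) (`GlobalH1Final`), tower descent with
compatibility (`DescentTower.descent_ker`, helper38), `Coh/InflCompat` + `LayerVanish` (helper6),
`H2Cyclic.range_infl₂_eq_of_generator` (helper54), `H2CyclicInst.rest₂_infl₂_eq_zero_of_norm`,
(E3) `CycloJSurj.jToC_surjective` (helper29), transitivity of inflation (`TransitionQTrans`, helper42).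

Structure: `core` (case `M = L·F`, i.e. `Gal(M/L) ⊓ Gal(M/F) = ⊥`); `SubComp` (the compositum
`LF ⊆ M` as an intermediate field with all towers); `main_eq`, `cycloGen_eq` (general `M`).
-/
import Mathlib
import Fermat.Agent.S55.Global.H2CyclicInst
import Fermat.Agent.S55.Global.Blocks4
import Fermat.Agent.S55.Coh.InflCompat
import Fermat.Agent.S55.Global.LayerVanish
import Fermat.Agent.S55.Global.DescentTower
import Fermat.Agent.S55.Global.TransitionQTrans
import Fermat.Agent.S55.Global.CycloJSurj
import Fermat.Agent.S55.Global.GlobalH1Final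

set_option autoImplicit false
set_option linter.unusedSectionVars false

open NumberField CategoryTheory groupCohomology Rep

namespace Fermat.Agent.S55.Global.H2CyclicTower

open Fermat.Agent.S55.Global.Objects Fermat.Agent.S55.Global.Objects2
open Fermat.Agent.S55.Global.Objects5
open Fermat.Agent.S55.Global.Blocks2 Fermat.Agent.S55.Global.Blocks4
open Fermat.Agent.S55.Global.TransitionQ
open Fermat.Agent.S55.Coh.PairEquiv Fermat.Agent.S55.Coh.InflCompat
open Fermat.Agent.S55.Tate.InfRes2
open Fermat.Agent.S55.Global.H2Cyclic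

/-! ### Closed input Props (tower form) -/

/-- "`F` embeds into a `p^k`-cyclotomic extension of `K`" (the `cycloF` clause of
`Blocks4.CycloSetting`). -/
def IsCycloSub (p : ℕ) (K F : Type) [Field K] [Field F] [Algebra K F] : Prop :=
  ∃ (k : ℕ) (C : Type) (_ : Field C) (_ : Algebra K C),
    IsCyclotomicExtension {p ^ k} K C ∧ Nonempty (F →ₐ[K] C)

/-- **Tower descent with compatibility** (row `G.descent`, helper38 `DescentTower.descent_ker`):
for a tower `K ⊆ L ⊆ M` with `L/K`, `M/K` Galois and `T` admissible for `M/K`, the descent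
isomorphism `(Gal(M/K) ⧸ Gal(M/L), (C_{M,T})^{Gal(M/L)}) ≅ (Gal(L/K), C_{L,T})` compatible with
`rnHom` and `transCn`. -/
def DescentKerQ (p : ℕ) : Prop :=
  ∀ (K L M : Type) [Field K] [NumberField K] [Field L] [NumberField L] [Field M] [NumberField M]
    [Algebra K L] [Algebra K M] [Algebra L M] [IsScalarTower K L M] [IsGalois K M] [IsGalois K L]
    (T : Finset Nat.Primes), AdmissibleQ K M p T →
    ∃ P : PairEquiv ((Cn K M T).quotientToInvariants (rnHom K L M).ker) (Cn K L T),
      (∀ g : M ≃ₐ[K] M, P.e (QuotientGroup.mk g) = rnHom K L M g) ∧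
      ∀ x : Cn K L T,
        ((P.φ.symm x : (Cn K M T).quotientToInvariants (rnHom K L M).ker) : Cn K M T) =
          (transCn K L M T).hom x

/-- **(E1)** `H²(Gal(F/K), C_{F,T})` is cyclic of order `[F:K]` for a cyclic layer `F/K` inside a
`p`-power cyclotomic extension, `T` admissible for `F/K`.  (`= Blocks4.H2CyclicIn` for
`L = F = M`.) -/
def CycloLayerH2 (p : ℕ) : Prop :=
  ∀ (K F : Type) [Field K] [NumberField K] [Field F] [NumberField F] [Algebra K F]
    (T : Finset Nat.Primes), Setting p K F T → IsCyclic (F ≃ₐ[K] F) → IsCycloSub p K F →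
    Nat.card (groupCohomology (Cn K F T) 2) = Module.finrank K F ∧
      ∃ u : groupCohomology (Cn K F T) 2, ∀ x : groupCohomology (Cn K F T) 2, ∃ n : ℤ, x = n • u

/-- **(E2)** Norm statement: towers `K ⊆ L ⊆ M`, `K ⊆ F ⊆ M` with `M = L·F`
(`Gal(M/L) ⊓ Gal(M/F) = ⊥`), `F/K` a cyclic cyclotomic layer with `[F:K] ∣ [L:K]`, `T` admissible
for `M/K`: every `Gal(M/K)`-invariant class of `C_{M,T}` is a norm from `C_{M,T}` to `C_{L,T}`. -/
def CycloNorm (p : ℕ) : Prop :=
  ∀ (K L F M : Type) [Field K] [NumberField K] [Field L] [NumberField L] [Field F]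
    [NumberField F] [Field M] [NumberField M] [Algebra K L] [Algebra K F] [Algebra K M]
    [Algebra L M] [Algebra F M] [IsScalarTower K L M] [IsScalarTower K F M] [IsGalois K L]
    [IsGalois K F] [IsGalois K M] (T : Finset Nat.Primes), Setting p K M T →
    IsCyclic (F ≃ₐ[K] F) → IsCycloSub p K F → Module.finrank K F ∣ Module.finrank K L →
    (rnHom K L M).ker ⊓ (rnHom K F M).ker = ⊥ →
    ∀ [Fintype (rnHom K L M).ker] (a : Cn K M T),
      (∀ g : M ≃ₐ[K] M, (Cn K M T).ρ g a = a) →
      ∃ b : Cn K M T, a = ∑ s : (rnHom K L M).ker, (Cn K M T).ρ (s : M ≃ₐ[K] M) b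

/-! ### The core: `M = L·F`, `[F:K] = [L:K]` -/

section core

variable {p : ℕ} (K L F M : Type) [Field K] [NumberField K] [Field L] [NumberField L] [Field F]
  [NumberField F] [Field M] [NumberField M] [Algebra K L] [Algebra K F] [Algebra K M]
  [Algebra L M] [Algebra F M] [IsScalarTower K L M] [IsScalarTower K F M] [IsGalois K L]
  [IsGalois K F] [IsGalois K M] (T : Finset Nat.Primes)

theorem core (hH1 : H1Vanish p) (hH2 : H2CardDvd p) (hD : DescentKerQ p)
    (hE1 : CycloLayerH2 p) (hE2 : CycloNorm p) (hsM : Setting p K M T)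
    (hcyc : IsCyclic (F ≃ₐ[K] F)) (hcyclo : IsCycloSub p K F)
    (hdeg : Module.finrank K F = Module.finrank K L)
    (hinf : (rnHom K L M).ker ⊓ (rnHom K F M).ker = ⊥) :
    (Nat.card (groupCohomology (Cn K L T) 2) = Module.finrank K L ∧
      ∃ u : groupCohomology (Cn K L T) 2, ∀ x : groupCohomology (Cn K L T) 2,
        ∃ n : ℤ, x = n • u) ∧
    LinearMap.range (inflCn K L M T 2).hom = LinearMap.range (inflCn K F M T 2).hom := by
  classical
  have h1 := LayerVanish.h1ResTrivial_Cn hH1 hsM (rnHom K L M).ker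
  have h2 := LayerVanish.h1ResTrivial_Cn hH1 hsM (rnHom K F M).ker
  obtain ⟨P₁, he₁, hφ₁⟩ := hD K L M T hsM.adm
  obtain ⟨P₂, he₂, hφ₂⟩ := hD K F M T hsM.adm
  have hsF : Setting p K F T := HeredityDown.setting_quotient K F M hsM
  have hsL : Setting p K L T := HeredityDown.setting_quotient K L M hsM
  -- the cyclotomic layer
  obtain ⟨hcF, u₀, hu₀⟩ := hE1 K F T hsF hcyc hcyclo
  set u := (P₂.cohomologyEquiv 2).symm u₀ with hu_def
  have hu : AddSubgroup.zmultiples u = ⊤ :=
    H2CyclicInst.zmultiples_eq_top_of_equiv (P₂.cohomologyEquiv 2).symm.toAddEquiv hu₀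
  have hord : addOrderOf u = Module.finrank K L := by
    rw [H2CyclicInst.addOrderOf_eq_card_of_zmultiples_eq_top hu, P₂.card_eq 2, hcF, hdeg]
  -- the bound for `L/K`
  obtain ⟨hfinL, hdvdL⟩ := hH2 K L T hsL
  have hfin : Finite (groupCohomology
      ((Cn K M T).quotientToInvariants (rnHom K L M).ker) 2) := (P₁.finite_iff 2).2 hfinL
  have hpos : 0 < Module.finrank K L := Module.finrank_pos
  have hcard : Nat.card (groupCohomology
      ((Cn K M T).quotientToInvariants (rnHom K L M).ker) 2) ≤ addOrderOf u := by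
    rw [hord, P₁.card_eq 2]
    exact Nat.le_of_dvd hpos hdvdL
  -- the restriction of the inflated class vanishes
  have hres : (rest₂ (Cn K M T) (rnHom K L M).ker).hom
      ((infl₂ (Cn K M T) (rnHom K F M).ker).hom u) = 0 := by
    have : Fintype (rnHom K L M).ker := Fintype.ofFinite _
    refine H2CyclicInst.rest₂_infl₂_eq_zero_of_norm (Cn K M T) (rnHom K L M).ker
      (rnHom K F M).ker ?_ hinf ?_ u
    · exact isCyclic_of_surjective P₂.e.symm P₂.e.symm.surjective
    · intro a ha
      exact hE2 K L F M T hsM hcyc hcyclo (hdeg ▸ dvd_rfl) hinf a ha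
  obtain ⟨v, -, hv, -, hcv, hrange⟩ :=
    range_infl₂_eq_of_generator (Cn K M T) (rnHom K L M).ker (rnHom K F M).ker h1 h2 u hu
      hcard hres
  refine ⟨⟨?_, P₁.cohomologyEquiv 2 v, ?_⟩, ?_⟩
  · rw [← P₁.card_eq 2, hcv, hord]
  · intro x
    have hx : (P₁.cohomologyEquiv 2).symm x ∈ AddSubgroup.zmultiples v := by rw [hv]; trivial
    obtain ⟨n, hn⟩ := AddSubgroup.mem_zmultiples_iff.1 hx
    refine ⟨n, ?_⟩
    rw [← map_zsmul, hn, LinearEquiv.apply_symm_apply]
  · have r₁ := range_map_eq_range_inflN (rnHom K L M).ker (rnHom K L M) (transCn K L M T) P₁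
      he₁ hφ₁ 2
    have r₂ := range_map_eq_range_inflN (rnHom K F M).ker (rnHom K F M) (transCn K F M T) P₂
      he₂ hφ₂ 2
    exact r₁.trans (hrange.trans r₂.symm)

end core

/-! ### The compositum `L·F` inside `M` -/

namespace SubComp

variable (K L F M : Type) [Field K] [Field L] [Field F] [Field M] [Algebra K L] [Algebra K F]
  [Algebra K M] [Algebra L M] [Algebra F M] [IsScalarTower K L M] [IsScalarTower K F M]

/-- The image of `L` in `M`. -/
noncomputable def Lr : IntermediateField K M := (IsScalarTower.toAlgHom K L M).fieldRange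

/-- The image of `F` in `M`. -/
noncomputable def Fr : IntermediateField K M := (IsScalarTower.toAlgHom K F M).fieldRange

/-- The compositum `L·F` inside `M`. -/
noncomputable def LF : IntermediateField K M := Lr K L M ⊔ Fr K F M

theorem Lr_le : Lr K L M ≤ LF K L F M := le_sup_left
theorem Fr_le : Fr K F M ≤ LF K L F M := le_sup_right

/-- `L → L·F`. -/
noncomputable def toLF₁ : L →ₐ[K] LF K L F M :=
  (IsScalarTower.toAlgHom K L M).codRestrict (LF K L F M).toSubalgebra
    (fun x => Lr_le K L F M ⟨x, rfl⟩)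

/-- `F → L·F`. -/
noncomputable def toLF₂ : F →ₐ[K] LF K L F M :=
  (IsScalarTower.toAlgHom K F M).codRestrict (LF K L F M).toSubalgebra
    (fun x => Fr_le K L F M ⟨x, rfl⟩)

/-- `L·F` as an `L`-algebra. -/
@[reducible] noncomputable def algL : Algebra L (LF K L F M) := (toLF₁ K L F M).toRingHom.toAlgebra

/-- `L·F` as an `F`-algebra. -/
@[reducible] noncomputable def algF : Algebra F (LF K L F M) := (toLF₂ K L F M).toRingHom.toAlgebra

attribute [local instance] algL algF

theorem towerKL : IsScalarTower K L (LF K L F M) :=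
  IsScalarTower.of_algebraMap_eq (fun x => ((toLF₁ K L F M).commutes x).symm)

theorem towerKF : IsScalarTower K F (LF K L F M) :=
  IsScalarTower.of_algebraMap_eq (fun x => ((toLF₂ K L F M).commutes x).symm)

theorem towerLM : IsScalarTower L (LF K L F M) M :=
  IsScalarTower.of_algebraMap_eq (fun _ => rfl)

theorem towerFM : IsScalarTower F (LF K L F M) M :=
  IsScalarTower.of_algebraMap_eq (fun _ => rfl)

instance normal_Lr [Normal K L] : Normal K (Lr K L M) :=
  Normal.of_algEquiv (AlgEquiv.ofInjectiveField (IsScalarTower.toAlgHom K L M))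

instance normal_Fr [Normal K F] : Normal K (Fr K F M) :=
  Normal.of_algEquiv (AlgEquiv.ofInjectiveField (IsScalarTower.toAlgHom K F M))

instance normal_LF [Normal K L] [Normal K F] : Normal K (LF K L F M) :=
  show Normal K ↥(Lr K L M ⊔ Fr K F M) from inferInstance

instance isGalois_LF [Normal K L] [Normal K F] [Algebra.IsSeparable K M] :
    IsGalois K (LF K L F M) :=
  { to_isSeparable := inferInstance
    to_normal := inferInstance }

/-- The images of `L` and `F` generate `L·F`. -/
theorem restrict_sup_restrict :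
    IntermediateField.restrict (Lr_le K L F M) ⊔ IntermediateField.restrict (Fr_le K L F M) =
      (⊤ : IntermediateField K (LF K L F M)) := by
  apply IntermediateField.lift_injective
  rw [IntermediateField.lift_sup, IntermediateField.lift_top, IntermediateField.lift_restrict,
    IntermediateField.lift_restrict]
  rfl

/-- An automorphism of `L·F` over `K` fixing the images of `L` and `F` is trivial. -/
theorem eq_one_of_fixes (σ : LF K L F M ≃ₐ[K] LF K L F M)
    (h₁ : ∀ x : L, σ (toLF₁ K L F M x) = toLF₁ K L F M x)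
    (h₂ : ∀ x : F, σ (toLF₂ K L F M x) = toLF₂ K L F M x) : σ = 1 := by
  have hL : σ ∈ (IntermediateField.restrict (Lr_le K L F M)).fixingSubgroup := by
    rw [IntermediateField.mem_fixingSubgroup_iff]
    intro y hy
    obtain ⟨x, hx⟩ := (IntermediateField.mem_restrict (Lr_le K L F M) y).1 hy
    have : y = toLF₁ K L F M x := Subtype.ext hx.symm
    rw [this]
    exact h₁ x
  have hF : σ ∈ (IntermediateField.restrict (Fr_le K L F M)).fixingSubgroup := by
    rw [IntermediateField.mem_fixingSubgroup_iff]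
    intro y hy
    obtain ⟨x, hx⟩ := (IntermediateField.mem_restrict (Fr_le K L F M) y).1 hy
    have : y = toLF₂ K L F M x := Subtype.ext hx.symm
    rw [this]
    exact h₂ x
  have h3 : σ ∈ (IntermediateField.restrict (Lr_le K L F M) ⊔
      IntermediateField.restrict (Fr_le K L F M)).fixingSubgroup := by
    rw [IntermediateField.fixingSubgroup_sup]
    exact ⟨hL, hF⟩
  rw [restrict_sup_restrict, IntermediateField.fixingSubgroup_top] at h3
  exact Subgroup.mem_bot.mp h3

end SubComp

/-! ### From `L·F ⊆ M` to `M` -/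

/-- **(E3)** For a cyclic layer `F/K` with `T` admissible, `H²(Gal(F/K), J_{F,T}) → H²(Gal(F/K),
C_{F,T})` is onto (`Ĥ⁰(C) = C_K / N C_F` is a quotient of `J_K`, by `H¹(G, E_{F,T}) = 0`). -/
def JSurj (p : ℕ) : Prop :=
  ∀ (K F : Type) [Field K] [NumberField K] [Field F] [NumberField F] [Algebra K F] [IsGalois K F]
    (T : Finset Nat.Primes), AdmissibleQ K F p T → IsCyclic (F ≃ₐ[K] F) →
    Function.Surjective (groupCohomology.map (A := Jn K F T) (B := Cn K F T)
      (MonoidHom.id (F ≃ₐ[K] F)) (JnToCn K F T) 2).hom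

/-- **Transitivity of inflation** for `K ⊆ L ⊆ M' ⊆ M` (row `G.trans`, helper42). -/
def InflTransCn : Prop :=
  ∀ (K L M' M : Type) [Field K] [NumberField K] [Field L] [NumberField L] [Field M']
    [NumberField M'] [Field M] [NumberField M] [Algebra K L] [Algebra K M'] [Algebra K M]
    [Algebra L M'] [Algebra M' M] [Algebra L M] [IsScalarTower K L M'] [IsScalarTower K M' M]
    [IsScalarTower K L M] [IsScalarTower L M' M] [Normal K L] [Normal K M']
    (T : Finset Nat.Primes) (n : ℕ) (c : groupCohomology (Cn K L T) n),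
    (inflCn K L M T n).hom c = (inflCn K M' M T n).hom ((inflCn K L M' T n).hom c)

section general

open SubComp

attribute [local instance] SubComp.algL SubComp.algF SubComp.towerKL SubComp.towerKF
  SubComp.towerLM SubComp.towerFM

variable {p : ℕ} (K L F M : Type) [Field K] [NumberField K] [Field L] [NumberField L] [Field F]
  [NumberField F] [Field M] [NumberField M] [Algebra K L] [Algebra K F] [Algebra K M]
  [Algebra L M] [Algebra F M] [IsScalarTower K L M] [IsScalarTower K F M] [IsGalois K L]
  [IsGalois K F] (T : Finset Nat.Primes)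

theorem ker_inf_ker_LF :
    (rnHom K L (LF K L F M)).ker ⊓ (rnHom K F (LF K L F M)).ker = ⊥ := by
  rw [eq_bot_iff]
  intro σ hσ
  rw [Subgroup.mem_bot]
  apply eq_one_of_fixes K L F M σ
  · intro x
    have h := rnHom_commutes K L (LF K L F M) σ x
    have h1 : rnHom K L (LF K L F M) σ = 1 := hσ.1
    rw [h1] at h
    exact h.symm
  · intro x
    have h := rnHom_commutes K F (LF K L F M) σ x
    have h1 : rnHom K F (LF K L F M) σ = 1 := hσ.2
    rw [h1] at h
    exact h.symm

/-- **Equal degrees, general `M`.**  (G-ii) for `L/K`, and the inflation images of `L/K` and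
`F/K` in `H²(Gal(M/K), C_{M,T})` coincide. -/
theorem main_eq (hH1 : H1Vanish p) (hH2 : H2CardDvd p) (hD : DescentKerQ p)
    (hE1 : CycloLayerH2 p) (hE2 : CycloNorm p) (hTr : InflTransCn)
    (hS : CycloSetting p K L F M T) (hdeg : Module.finrank K F = Module.finrank K L) :
    (Nat.card (groupCohomology (Cn K L T) 2) = Module.finrank K L ∧
      ∃ u : groupCohomology (Cn K L T) 2, ∀ x : groupCohomology (Cn K L T) 2,
        ∃ n : ℤ, x = n • u) ∧
    LinearMap.range (inflCn K L M T 2).hom = LinearMap.range (inflCn K F M T 2).hom := by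
  have hgalM : IsGalois K M := hS.big.galois
  have hsM' : Setting p K (LF K L F M) T :=
    HeredityDown.setting_quotient K (LF K L F M) M hS.big
  obtain ⟨h2, hr⟩ := core K L F (LF K L F M) T hH1 hH2 hD hE1 hE2 hsM' hS.cyclicF hS.cycloF hdeg
    (ker_inf_ker_LF K L F M)
  refine ⟨h2, ?_⟩
  apply le_antisymm
  · rintro _ ⟨c, rfl⟩
    have hc : (inflCn K L (LF K L F M) T 2).hom c ∈
        LinearMap.range (inflCn K F (LF K L F M) T 2).hom := hr ▸ ⟨c, rfl⟩
    obtain ⟨x, hx⟩ := hc
    refine ⟨x, ?_⟩
    rw [hTr K F (LF K L F M) M T 2 x, hx, ← hTr K L (LF K L F M) M T 2 c]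
  · rintro _ ⟨x, rfl⟩
    have hx : (inflCn K F (LF K L F M) T 2).hom x ∈
        LinearMap.range (inflCn K L (LF K L F M) T 2).hom := hr.symm ▸ ⟨x, rfl⟩
    obtain ⟨c, hc⟩ := hx
    refine ⟨c, ?_⟩
    rw [hTr K L (LF K L F M) M T 2 c, hc, ← hTr K F (LF K L F M) M T 2 x]

/-- **Equal degrees: cyclotomic generation.** -/
theorem cycloGen_eq (hH1 : H1Vanish p) (hH2 : H2CardDvd p) (hD : DescentKerQ p)
    (hE1 : CycloLayerH2 p) (hE2 : CycloNorm p) (hE3 : JSurj p) (hTr : InflTransCn)
    (hS : CycloSetting p K L F M T) (hdeg : Module.finrank K F = Module.finrank K L)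
    (c : groupCohomology (Cn K L T) 2) :
    ∃ j : groupCohomology (Jn K M T) 2,
      (groupCohomology.map (MonoidHom.id _) (JnToCn K M T) 2).hom j =
        (inflCn K L M T 2).hom c := by
  have hgalM : IsGalois K M := hS.big.galois
  obtain ⟨-, hr⟩ := main_eq K L F M T hH1 hH2 hD hE1 hE2 hTr hS hdeg
  have hc : (inflCn K L M T 2).hom c ∈ LinearMap.range (inflCn K F M T 2).hom :=
    hr ▸ ⟨c, rfl⟩
  obtain ⟨x, hx⟩ := hc
  have hsF : Setting p K F T := HeredityDown.setting_quotient K F M hS.big
  obtain ⟨jF, hjF⟩ := hE3 K F T hsF.adm hS.cyclicF x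
  refine ⟨(inflJn K F M T 2).hom jF, ?_⟩
  have hsq := congr($(inflJn_comp K F M T 2).hom jF)
  simp only [ModuleCat.hom_comp, LinearMap.coe_comp, Function.comp_apply] at hsq
  rw [hsq, hjF, hx]

end general

/-! ### Discharging the landed inputs -/

/-- Tower descent with compatibility holds (helper38, `DescentTower.descent_ker`). -/
theorem descentKerQ (p : ℕ) : DescentKerQ p := by
  intro K L M _ _ _ _ _ _ _ _ _ _ _ _ T hadm
  obtain ⟨P, he, hφ⟩ := DescentTower.descent_ker K M L hadm
  refine ⟨P, fun g => ?_, hφ⟩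
  rw [he]
  rfl

/-- (E3) holds (helper29, `CycloJSurj.jToC_surjective`). -/
theorem jSurj (p : ℕ) : JSurj p :=
  fun K F _ _ _ _ _ _ T hadm hcyc => CycloJSurj.jToC_surjective K F hcyc T hadm

/-- Transitivity of inflation holds (helper42, `TransitionQTrans.inflCn_trans_apply`). -/
theorem inflTransCn : InflTransCn :=
  fun K L M' M _ _ _ _ _ _ _ _ _ _ _ _ _ _ _ _ _ _ _ _ T n c =>
    TransitionQTrans.inflCn_trans_apply K L M' M T n c

/-! ### The literal targets of row `G.h2cyclic` -/

/-- **(G-ii), literal `Blocks4.H2CyclicIn p`**, from the two cyclotomic inputs (E1), (E2). -/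
theorem h2CyclicIn {p : ℕ} (hE1 : CycloLayerH2 p) (hE2 : CycloNorm p) : H2CyclicIn p := by
  intro K L F M _ _ _ _ _ _ _ _ _ _ _ _ _ _ _ _ _ T hS
  exact (main_eq K L F M T (GlobalH1Final.h1Vanish p) (GlobalH1Final.h2CardDvd p)
    (descentKerQ p) hE1 hE2 inflTransCn hS hS.degree).1

/-- **(G-iii), literal `Blocks4.CycloGen p`**, from the two cyclotomic inputs (E1), (E2). -/
theorem cycloGen {p : ℕ} (hE1 : CycloLayerH2 p) (hE2 : CycloNorm p) : CycloGen p := by
  intro K L F M _ _ _ _ _ _ _ _ _ _ _ _ _ _ _ _ _ T hS c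
  exact cycloGen_eq K L F M T (GlobalH1Final.h1Vanish p) (GlobalH1Final.h2CardDvd p)
    (descentKerQ p) hE1 hE2 (jSurj p) inflTransCn hS hS.degree c

/-- The inflation images of `L/K` and of the cyclotomic layer `F/K` in `H²(Gal(M/K), C_{M,T})`
coincide (strong form of (G-iii)). -/
theorem range_inflCn_eq {p : ℕ} (hE1 : CycloLayerH2 p) (hE2 : CycloNorm p)
    (K L F M : Type) [Field K] [NumberField K] [Field L] [NumberField L] [Field F]
    [NumberField F] [Field M] [NumberField M] [Algebra K L] [Algebra K F] [Algebra K M]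
    [Algebra L M] [Algebra F M] [IsScalarTower K L M] [IsScalarTower K F M] [IsGalois K L]
    [IsGalois K F] (T : Finset Nat.Primes) (hS : CycloSetting p K L F M T) :
    LinearMap.range (inflCn K L M T 2).hom = LinearMap.range (inflCn K F M T 2).hom :=
  (main_eq K L F M T (GlobalH1Final.h1Vanish p) (GlobalH1Final.h2CardDvd p)
    (descentKerQ p) hE1 hE2 inflTransCn hS hS.degree).2

end Fermat.Agent.S55.Global.H2CyclicTower
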