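import Mathlib
import Fermat.Agent.S55.Global.Final
import Fermat.Agent.S55.Global.H2CyclicTower
import Fermat.Agent.S55.Global.CycloNormClosed

/-!
# S55 / Global — the Global block, CLOSED

`remaining p : Final.Remaining p` and `exports p : Final.Exports p`, with NO hypothesis: row 152
((G-ii) `Blocks4.H2CyclicIn p`, (G-iii) `Blocks4.CycloGen p`, `Blocks4.CycloKillsH3 p`) from
`H2CyclicTower` (helper77) and the cyclotomic inputs (E1), (E2) of `CycloNormClosed` (helper61).
-/

set_option autoImplicit false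

namespace Fermat.Agent.S55.Global.FinalClosed

open Fermat.Agent.S55.Global.Blocks2 Fermat.Agent.S55.Global.Blocks3
  Fermat.Agent.S55.Global.Blocks4

/-- (E1) in the form of `H2CyclicTower`. -/
theorem cycloLayerH2 (p : ℕ) : H2CyclicTower.CycloLayerH2 p := by
  intro K F _ _ _ _ _ T hS hcyc hsub
  haveI : IsGalois K F := hS.galois
  exact CycloNormClosed.cycloLayerH2_of_cardDvd (Final.h2CardDvd p) K F T hS hcyc hsub

/-- (E2) in the form of `H2CyclicTower`. -/
theorem cycloNorm (p : ℕ) : H2CyclicTower.CycloNorm p :=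
  CycloNormClosed.cycloNorm_of_cardDvd (Final.h2CardDvd p)

/-- **(G-ii), exact form.** Unconditional. -/
theorem h2CyclicIn (p : ℕ) : H2CyclicIn p :=
  H2CyclicTower.h2CyclicIn (cycloLayerH2 p) (cycloNorm p)

/-- **(G-iii).** Unconditional. -/
theorem cycloGen (p : ℕ) : CycloGen p :=
  H2CyclicTower.cycloGen (cycloLayerH2 p) (cycloNorm p)

/-- **(G-iii), `H³` consequence.** Unconditional. -/
theorem cycloKillsH3 (p : ℕ) : CycloKillsH3 p := Final.cycloKillsH3 (cycloGen p)

/-- Row 152 is closed. -/
theorem remaining (p : ℕ) : Final.Remaining p := ⟨h2CyclicIn p, cycloGen p⟩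

/-- **The Global block is closed**: the whole export sheet, without hypotheses. -/
theorem exports (p : ℕ) : Final.Exports p := Final.exports (remaining p)

/-- **(HBN-H3)**, unconditional. -/
theorem hbnH3 {p : ℕ}
    (K L F M : Type) [Field K] [NumberField K] [Field L] [NumberField L] [Field F]
    [NumberField F] [Field M] [NumberField M] [Algebra K L] [Algebra K F] [Algebra K M]
    [Algebra L M] [Algebra F M] [IsScalarTower K L M] [IsScalarTower K F M] [IsGalois K L]
    [IsGalois K F]
    (hp : p.Prime) (hodd : p ≠ 2) (hζ : ∃ ζ : K, IsPrimitiveRoot ζ p) [IsGalois K M]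
    (hpp : ∃ n : ℕ, Module.finrank K M = p ^ n) (hcyc : IsCyclic (F ≃ₐ[K] F))
    (hcyclo : ∃ (k : ℕ) (C : Type) (_ : Field C) (_ : Algebra K C),
      IsCyclotomicExtension {p ^ k} K C ∧ Nonempty (F →ₐ[K] C))
    (hdeg : Module.finrank K F = Module.finrank K L)
    (y : groupCohomology (Objects2.Lxn K L) 3) : (TransitionQ.inflLxn K L M 3).hom y = 0 :=
  Final.hbnH3 (cycloGen p) K L F M hp hodd hζ hpp hcyc hcyclo hdeg y

end Fermat.Agent.S55.Global.FinalClosed
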