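/-
S55 / GLOBAL block — (G-i) and (G-ii, weak form) UNCONDITIONAL (helper6, assembly).

Both inequalities for cyclic layers of degree `p` are on main:
`FirstIneqFinal.firstIneq p : Blocks2.FirstIneq p` (helper31) and
`SecondIneqBridge.secondIneq p : Blocks2.SecondIneq p` (helper54 + helper96 + helper2 + helper42 + …),
the descent is `DescentTower` (helper38), the dévissage `DevissageClosed` (helper6).  Hence, for
every `p` (the hypotheses "`p` odd prime, `ζ_p ∈ K`, `[L:K]` a `p`-power, `T` admissible" are inside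
`Blocks2.Setting`):

* `cyclicLayer p : Blocks2.CyclicLayer p`,  `cyclicCoh p : Blocks2.CyclicCoh p`;
* `h1Vanish p : Blocks2.H1Vanish p`            — **(G-i)**  `H¹(Gal(L/K), C_{L,T}) = 0`;
* `h2CardDvd p : Blocks2.H2CardDvd p`          — **(G-ii), weak**  `#H²(Gal(L/K), C_{L,T}) ∣ [L:K]`;
* `inflInj p : DevissageClosed.InflInj p`      — row G.inflInj;
* layer forms for an arbitrary subgroup `N ≤ Gal(L/K)`: `isZero_H1_res_Cn`, `h1ResTrivial_Cn`,
  `card_H2_res_Cn_dvd`; exactness of inflation–restriction for towers: `inflCn_two_injective`,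
  `ker_rest₂_le_range_inflCn`.
-/
import Fermat.Agent.S55.Global.DevissageClosed
import Fermat.Agent.S55.Global.FirstIneqFinal
import Fermat.Agent.S55.Global.SecondIneqBridge

set_option autoImplicit false
set_option linter.unusedSectionVars false

open NumberField CategoryTheory

namespace Fermat.Agent.S55.Global.GlobalMain

open Fermat.Agent.S55.Global.Objects Fermat.Agent.S55.Global.Objects2
open Fermat.Agent.S55.Global.Blocks2
open Fermat.Agent.S55.Global.TransitionQ
open Fermat.Agent.S55.Tate.InfRes2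

/-- Cyclic layers of degree `p`: `h0 = p`, `h1 = 1`. -/
theorem cyclicLayer (p : ℕ) : CyclicLayer p :=
  cyclicLayer_of_ineqs (FirstIneqFinal.firstIneq p) (SecondIneqBridge.secondIneq p)

/-- Cyclic layers of degree `p`, cohomological form. -/
theorem cyclicCoh (p : ℕ) : CyclicCoh p :=
  CyclicLayerInstQ.cyclicCoh_of_ineqs (FirstIneqFinal.firstIneq p) (SecondIneqBridge.secondIneq p)

/-- **(G-i)** `H¹(Gal(L/K), C_{L,T}) = 0`. -/
theorem h1Vanish (p : ℕ) : H1Vanish p :=
  DevissageClosed.h1Vanish_of_cyclicCoh (cyclicCoh p)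

/-- **(G-ii), weak form** `card H²(Gal(L/K), C_{L,T}) ∣ [L:K]`. -/
theorem h2CardDvd (p : ℕ) : H2CardDvd p :=
  DevissageClosed.h2CardDvd_of_cyclicCoh (cyclicCoh p)

/-- Row G.inflInj. -/
theorem inflInj (p : ℕ) : DevissageClosed.InflInj p :=
  DevissageClosed.inflInj (h1Vanish p)

section layers

variable {K L : Type} [Field K] [NumberField K] [Field L] [NumberField L] [Algebra K L]

/-- `H¹(N, C_{L,T}) = 0` for every subgroup `N ≤ Gal(L/K)`. -/
theorem isZero_H1_res_Cn {p : ℕ} {T : Finset Nat.Primes} (hs : Setting p K L T)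
    (N : Subgroup (L ≃ₐ[K] L)) :
    Limits.IsZero (groupCohomology (Rep.res N.subtype (Cn K L T)) 1) :=
  LayerVanish.isZero_H1_res_Cn (h1Vanish p) hs N

/-- The same in cocycle form. -/
theorem h1ResTrivial_Cn {p : ℕ} {T : Finset Nat.Primes} (hs : Setting p K L T)
    (N : Subgroup (L ≃ₐ[K] L)) : H1ResTrivial (Cn K L T) N :=
  LayerVanish.h1ResTrivial_Cn (h1Vanish p) hs N

/-- `H²(N, C_{L,T})` is finite of order dividing `|N|`. -/
theorem card_H2_res_Cn_dvd {p : ℕ} {T : Finset Nat.Primes} (hs : Setting p K L T)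
    (N : Subgroup (L ≃ₐ[K] L)) :
    Finite (groupCohomology (Rep.res N.subtype (Cn K L T)) 2) ∧
      Nat.card (groupCohomology (Rep.res N.subtype (Cn K L T)) 2) ∣ Nat.card N :=
  LayerVanish.card_H2_res_Cn_dvd (h2CardDvd p) hs N

end layers

section tower

variable {K L M : Type} [Field K] [NumberField K] [Field L] [NumberField L] [Field M]
  [NumberField M] [Algebra K L] [Algebra K M] [Algebra L M] [IsScalarTower K L M] [Normal K L]

/-- Inflation `H²(Gal(L/K), C_{L,T}) → H²(Gal(M/K), C_{M,T})` is injective. -/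
theorem inflCn_two_injective {p : ℕ} {T : Finset Nat.Primes} (hs : Setting p K M T) :
    Function.Injective (inflCn K L M T 2).hom :=
  DevissageClosed.inflCn_two_injective (h1Vanish p) hs

/-- Exactness at `H²(Gal(M/K), C_{M,T})`. -/
theorem ker_rest₂_le_range_inflCn {p : ℕ} {T : Finset Nat.Primes} (hs : Setting p K M T) :
    LinearMap.ker (rest₂ (Cn K M T) (rnHom K L M).ker).hom ≤
      LinearMap.range (inflCn K L M T 2).hom :=
  DevissageClosed.ker_rest₂_le_range_inflCn (h1Vanish p) hs

end tower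

end Fermat.Agent.S55.Global.GlobalMain
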