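/-
S55 / Global — (G-i) and weak (G-ii), UNCONDITIONAL (helper38).

`h1Vanish p : Blocks2.H1Vanish p`, `h2CardDvd p : Blocks2.H2CardDvd p`, `inflInj p`:
both inequalities (`FirstIneqFinal`, `SecondIneqBridge`), the dévissage (`DevissageFinal`) and the
descent row (`DescentClosed.descentFixedQ`) are on main.
-/
import Fermat.Agent.S55.Global.CyclicLayerFinal
import Fermat.Agent.S55.Global.DescentClosed
import Fermat.Agent.S55.Global.DevissageClosed

set_option autoImplicit false

namespace Fermat.Agent.S55.Global.H1VanishFinal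

open Fermat.Agent.S55.Global.Blocks2

/-- **(G-i)** `H¹(Gal(L/K), C_{L,T}) = 0` for every `Setting p K L T`.  Unconditional. -/
theorem h1Vanish (p : ℕ) : H1Vanish p :=
  CyclicLayerFinal.h1Vanish_of_descent (DescentClosed.descentFixedQ p)

/-- **(G-ii, weak form)** `card H²(Gal(L/K), C_{L,T}) ∣ [L:K]`.  Unconditional. -/
theorem h2CardDvd (p : ℕ) : H2CardDvd p :=
  CyclicLayerFinal.h2CardDvd_of_descent (DescentClosed.descentFixedQ p)

/-- Injectivity of inflation `H²(Gal(F/K), C_{F,T}) → H²(Gal(M/K), C_{M,T})`.  Unconditional. -/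
theorem inflInj (p : ℕ) : DevissageClosed.InflInj p :=
  DevissageClosed.inflInj (h1Vanish p)

end Fermat.Agent.S55.Global.H1VanishFinal
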