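/-
S55 / GLOBAL block, row `G.h2cyclic` (lemmas row 152) — CLOSED, UNCONDITIONAL (helper77).

* `h2CyclicIn p : Blocks4.H2CyclicIn p`     -- (G-ii), exact form
* `cycloGen p   : Blocks4.CycloGen p`       -- (G-iii)
* `cycloKillsH3 p : Blocks4.CycloKillsH3 p`
* `remaining p  : Final.Remaining p`,  `exports p : Final.Exports p`  -- the Global export sheet

= `H2CyclicTower.h2CyclicIn / cycloGen` (assembly) applied to the closed cyclotomic inputs
(E1) `CycloNormClosed.cycloLayerH2_of_cardDvd`, (E2) `CycloNormClosed.cycloNorm_of_cardDvd`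
(helper61, helper69, helper96, helper2, helper19, helper42) and `GlobalH1Final.h2CardDvd`.
-/
import Fermat.Agent.S55.Global.H2CyclicTower
import Fermat.Agent.S55.Global.CycloNormClosed
import Fermat.Agent.S55.Global.Final

set_option autoImplicit false

namespace Fermat.Agent.S55.Global.H2CyclicFinal

open Fermat.Agent.S55.Global.Blocks2 Fermat.Agent.S55.Global.Blocks4

/-- (E1), in the shape consumed by `H2CyclicTower`. -/
theorem cycloLayerH2 (p : ℕ) : H2CyclicTower.CycloLayerH2 p := by
  intro K F _ _ _ _ _ T hs hcyc hC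
  have := hs.galois
  exact CycloNormClosed.cycloLayerH2_of_cardDvd (GlobalH1Final.h2CardDvd p) K F T hs hcyc hC

/-- (E2), in the shape consumed by `H2CyclicTower`. -/
theorem cycloNorm (p : ℕ) : H2CyclicTower.CycloNorm p :=
  CycloNormClosed.cycloNorm_of_cardDvd (GlobalH1Final.h2CardDvd p)

/-- **(G-ii), exact form.**  Unconditional. -/
theorem h2CyclicIn (p : ℕ) : H2CyclicIn p :=
  H2CyclicTower.h2CyclicIn (cycloLayerH2 p) (cycloNorm p)

/-- **(G-iii) cyclotomic generation.**  Unconditional. -/
theorem cycloGen (p : ℕ) : CycloGen p :=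
  H2CyclicTower.cycloGen (cycloLayerH2 p) (cycloNorm p)

/-- **(G-iii), consequence for `H³(E)`.**  Unconditional. -/
theorem cycloKillsH3 (p : ℕ) : CycloKillsH3 p :=
  Final.cycloKillsH3 (cycloGen p)

/-- Row 152 is closed. -/
theorem remaining (p : ℕ) : Final.Remaining p :=
  ⟨h2CyclicIn p, cycloGen p⟩

/-- **The whole export sheet of the Global block**, with no hypothesis. -/
theorem exports (p : ℕ) : Final.Exports p :=
  Final.exports (remaining p)

end Fermat.Agent.S55.Global.H2CyclicFinal
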