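import Mathlib
import Fermat.Agent.S55.Global.GlobalH1Final
import Fermat.Agent.S55.Global.SemilocalLoc

/-!
# S55 / Global — the Hasse principle for `H²(Gal(L/K), Lˣ)`, unconditional

`hasseH2 p : Blocks3.HasseH2 p` from `GlobalH1Final.h1Vanish` (both inequalities + descent) and
helper49's `SemilocalLoc.hasseH2_of_H1Vanish` (local products + admissible sets + helper93's
`Middle/HasseH2`).
-/

set_option autoImplicit false

namespace Fermat.Agent.S55.Global.HasseH2Final

/-- **Hasse principle** `(HBN-inj)`: a class of `H²(Gal(L/K), Lˣ)` (`K ∋ ζ_p`, `[L:K]` a power of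
`p`) that is locally trivial at every place of `K` is trivial. Unconditional. -/
theorem hasseH2 (p : ℕ) : Blocks3.HasseH2 p :=
  SemilocalLoc.hasseH2_of_H1Vanish (GlobalH1Final.h1Vanish p)

end Fermat.Agent.S55.Global.HasseH2Final
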