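/-
S55 / Global block — Hensel for `p`-th powers in Mathlib's `v.adicCompletion K` (helper62).
Input of `G.bridge2` step (d): `1 + v^N ⊆ (K_vˣ)^p` for `N` large, hence `U_T^{(m)} ⊆ N J`.

* `exists_pow_eq v hp : ∃ N, ∀ x : v.adicCompletion K, Valued.v (x - 1) ≤ exp (-N) → ∃ y, y ^ p = x`
  (`R` Dedekind, `K = Frac R` of characteristic zero, `v : HeightOneSpectrum R`, `p` prime).
* `exists_pow_eq_coe` (for `a : K` with `v.valuation K (a - 1) ≤ exp (-N)`),
  `exists_pow_eq_of_sub_one_mem` (for `r : R` with `r - 1 ∈ v.asIdeal ^ N`),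
  `exists_pow_eq_mono`, `exists_pow_eq_finset` (uniform `N` for a finite set of places).
* generic core `exists_pow_eq_generic`: complete ultrametric normed field `L`, a valuation subring
  `A` equal to the unit ball, `π` with `0 < ‖π‖ < 1` generating the value group, `(p : L) ≠ 0`:
  `‖p‖ = ‖π‖^e` and for `1 ≤ n`, `e < n (p-1)`: `‖x - 1‖ ≤ ‖π‖^(n+e) → ∃ y, y^p = x ∧ ‖y - 1‖ ≤ ‖π‖^n`.
  (glue of `Local/PowerIndex.lean` : `map_pow_U`.)
-/
import Mathlib
import Fermat.Agent.S55.Local.PowerIndex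

set_option autoImplicit false
set_option linter.unusedSectionVars false

namespace Fermat.Agent.S55.Global.HenselPow

open Fermat.Agent.S55.Local.PowerIndex
open IsDedekindDomain HeightOneSpectrum WithZero

section Generic

variable {L : Type*} [NormedField L] [IsUltrametricDist L] [CompleteSpace L]
  (A : ValuationSubring L) (hA : ∀ x : L, x ∈ A ↔ ‖x‖ ≤ 1)
  (π : L) (h0 : 0 < ‖π‖) (h1 : ‖π‖ < 1)

include hA in
theorem norm_coe_le_one (x : A) : ‖(x : L)‖ ≤ 1 := (hA x).mp x.2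

/-- the uniformizer as an element of `A`. -/
def unifA : A := ⟨π, (hA π).mpr h1.le⟩

include h0 in
theorem dvd_iff_norm_le (n : ℕ) (x : A) :
    (unifA A hA π h1) ^ n ∣ x ↔ ‖(x : L)‖ ≤ ‖π‖ ^ n := by
  constructor
  · rintro ⟨c, rfl⟩
    rw [MulMemClass.coe_mul, norm_mul, SubmonoidClass.coe_pow, norm_pow]
    exact mul_le_of_le_one_right (by positivity) (norm_coe_le_one A hA c)
  · intro h
    have hne : π ^ n ≠ 0 := pow_ne_zero _ (norm_pos_iff.mp h0)
    have hc : (x : L) / π ^ n ∈ A := by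
      rw [hA, norm_div, norm_pow]
      exact div_le_one_of_le₀ h (by positivity)
    refine ⟨⟨_, hc⟩, ?_⟩
    apply Subtype.ext
    rw [MulMemClass.coe_mul, SubmonoidClass.coe_pow]
    simp only [unifA]
    field_simp

include h0 in
theorem haus : ∀ x : A, (∀ n, (unifA A hA π h1) ^ n ∣ x) → x = 0 := by
  intro x hx
  have hle : ∀ n : ℕ, ‖(x : L)‖ ≤ ‖π‖ ^ n := fun n => (dvd_iff_norm_le A hA π h0 h1 n x).mp (hx n)
  have hlim : Filter.Tendsto (fun n : ℕ => ‖π‖ ^ n) Filter.atTop (nhds 0) :=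
    tendsto_pow_atTop_nhds_zero_of_lt_one h0.le h1
  have : ‖(x : L)‖ ≤ 0 := ge_of_tendsto' hlim hle
  have : (x : L) = 0 := norm_le_zero_iff.mp this
  exact Subtype.ext this

include h0 in
theorem prec : ∀ f : ℕ → A, (∀ k, (unifA A hA π h1) ^ k ∣ f (k + 1) - f k) →
    ∃ Lim, ∀ k, (unifA A hA π h1) ^ k ∣ Lim - f k := by
  intro f hf
  set r := ‖π‖ with hr
  have hstep : ∀ k, ‖((f (k + 1) : L)) - (f k : L)‖ ≤ r ^ k := by
    intro k
    have := (dvd_iff_norm_le A hA π h0 h1 k _).mp (hf k)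
    simpa using this
  have hmono : ∀ k m, k ≤ m → ‖((f m : L)) - (f k : L)‖ ≤ r ^ k := by
    intro k m hkm
    induction m, hkm using Nat.le_induction with
    | base => simp; positivity
    | succ m hkm ih =>
      have : ((f (m + 1) : L)) - (f k : L) =
          ((f (m + 1) : L) - (f m : L)) + ((f m : L) - (f k : L)) := by ring
      rw [this]
      refine (IsUltrametricDist.norm_add_le_max _ _).trans (max_le ?_ ih)
      exact (hstep m).trans (pow_le_pow_of_le_one h0.le h1.le hkm)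
  have hcau : CauchySeq (fun k => (f k : L)) := by
    apply cauchySeq_of_le_geometric r 1 h1
    intro k
    rw [dist_eq_norm, one_mul, ← norm_neg, neg_sub]
    exact hstep k
  obtain ⟨Lim, hL⟩ := cauchySeq_tendsto_of_complete hcau
  have hLk : ∀ k, ‖Lim - (f k : L)‖ ≤ r ^ k := by
    intro k
    have : Filter.Tendsto (fun m => ‖(f m : L) - (f k : L)‖) Filter.atTop
        (nhds ‖Lim - (f k : L)‖) := ((hL.sub_const _).norm)
    refine le_of_tendsto this ?_
    filter_upwards [Filter.eventually_ge_atTop k] with m hm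
    exact hmono k m hm
  have hLO : Lim ∈ A := by
    rw [hA]
    have h := hLk 0
    have : Lim = (Lim - (f 0 : L)) + (f 0 : L) := by ring
    rw [this]
    refine (IsUltrametricDist.norm_add_le_max _ _).trans (max_le ?_ (norm_coe_le_one A hA _))
    simpa using h
  refine ⟨⟨Lim, hLO⟩, fun k => ?_⟩
  rw [dvd_iff_norm_le A hA π h0 h1]
  simpa using hLk k

include h0 in
theorem unifA_mem_maximalIdeal : unifA A hA π h1 ∈ IsLocalRing.maximalIdeal A := by
  rw [IsLocalRing.mem_maximalIdeal, mem_nonunits_iff]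
  intro hu
  obtain ⟨c, hc⟩ := hu.exists_right_inv
  have := congrArg (fun y : A => ‖(y : L)‖) hc
  simp only [MulMemClass.coe_mul, norm_mul, OneMemClass.coe_one, norm_one, unifA] at this
  have hc1 := norm_coe_le_one A hA c
  nlinarith [norm_nonneg (c : L)]

end Generic

section Generic

variable {L : Type*} [NormedField L] [IsUltrametricDist L] [CompleteSpace L]
  (A : ValuationSubring L) (hA : ∀ x : L, x ∈ A ↔ ‖x‖ ≤ 1)
  (π : L) (h0 : 0 < ‖π‖) (h1 : ‖π‖ < 1)

include h0 in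
/-- `p = u ϖ^e` in `A`. -/
theorem exists_natCast_eq (hdisc : ∀ x : L, x ≠ 0 → ∃ n : ℤ, ‖x‖ = ‖π‖ ^ n) {p : ℕ}
    (hp0 : (p : L) ≠ 0) :
    ∃ (e : ℕ) (u : A), IsUnit u ∧ ((p : ℕ) : A) = (unifA A hA π h1) ^ e * u ∧
      ‖(p : L)‖ = ‖π‖ ^ e := by
  obtain ⟨k, hk⟩ := hdisc _ hp0
  have hpA : ‖(p : L)‖ ≤ 1 := by
    have : ((p : ℕ) : L) ∈ A := natCast_mem A p
    exact (hA _).mp this
  have hk0 : 0 ≤ k := by
    rw [hk] at hpA
    exact (zpow_le_one_iff_right_of_lt_one₀ h0 h1).mp hpA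
  obtain ⟨e, rfl⟩ := Int.eq_ofNat_of_zero_le hk0
  rw [zpow_natCast] at hk
  have hπ0 : π ≠ 0 := norm_pos_iff.mp h0
  have hne : π ^ e ≠ 0 := pow_ne_zero _ hπ0
  have hu1 : ‖(p : L) / π ^ e‖ = 1 := by
    rw [norm_div, norm_pow, hk, div_self (pow_ne_zero _ h0.ne')]
  have huA : (p : L) / π ^ e ∈ A := (hA _).mpr hu1.le
  have huA' : ((p : L) / π ^ e)⁻¹ ∈ A := (hA _).mpr (by rw [norm_inv, hu1, inv_one])
  have hune : (p : L) / π ^ e ≠ 0 := div_ne_zero hp0 hne
  refine ⟨e, ⟨_, huA⟩, ?_, ?_, hk⟩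
  · refine ⟨⟨⟨_, huA⟩, ⟨_, huA'⟩, ?_, ?_⟩, rfl⟩
    · apply Subtype.ext
      exact mul_inv_cancel₀ hune
    · apply Subtype.ext
      exact inv_mul_cancel₀ hune
  · apply Subtype.ext
    simp only [MulMemClass.coe_mul, SubmonoidClass.coe_pow, unifA]
    rw [show (((p : ℕ) : A) : L) = (p : L) from rfl]
    field_simp

include A hA h0 h1 in
/-- **Generic Hensel for `p`-th powers.** -/
theorem exists_pow_eq_generic (hdisc : ∀ x : L, x ≠ 0 → ∃ n : ℤ, ‖x‖ = ‖π‖ ^ n) {p : ℕ}
    (hp : p.Prime) (hp0 : (p : L) ≠ 0) :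
    ∃ e : ℕ, ‖(p : L)‖ = ‖π‖ ^ e ∧ ∀ n : ℕ, 1 ≤ n → e < n * (p - 1) →
      ∀ x : L, ‖x - 1‖ ≤ ‖π‖ ^ (n + e) → ∃ y : L, y ^ p = x ∧ ‖y - 1‖ ≤ ‖π‖ ^ n := by
  obtain ⟨e, u, hu, hpe, hnorm⟩ := exists_natCast_eq A hA π h0 h1 hdisc hp0
  refine ⟨e, hnorm, fun n hn hen x hx => ?_⟩
  set ϖ := unifA A hA π h1 with hϖdef
  have hϖm : ϖ ∈ IsLocalRing.maximalIdeal A := unifA_mem_maximalIdeal A hA π h0 h1
  have hmap := map_pow_U (O := A) hp hϖm hpe hu (haus A hA π h0 h1) (prec A hA π h0 h1) hn hen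
  -- x as a unit of A in U (n+e)
  have hpow1 : ‖π‖ ^ (n + e) ≤ 1 := pow_le_one₀ h0.le h1.le
  have hxA : x ∈ A := by
    rw [hA]
    have : x = (x - 1) + 1 := by ring
    rw [this]
    refine (IsUltrametricDist.norm_add_le_max _ _).trans (max_le (hx.trans hpow1) ?_)
    simp
  have hdvd : ϖ ^ (n + e) ∣ (⟨x, hxA⟩ : A) - 1 := by
    rw [dvd_iff_norm_le A hA π h0 h1]
    simpa using hx
  have hxu : IsUnit (⟨x, hxA⟩ : A) := by
    obtain ⟨c, hc⟩ := hdvd
    have : (⟨x, hxA⟩ : A) = 1 + ϖ * (ϖ ^ (n + e - 1) * c) := by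
      have h2 : ϖ ^ (n + e) = ϖ * ϖ ^ (n + e - 1) := by rw [← pow_succ']; congr 1; omega
      rw [← mul_assoc, ← h2, ← hc]; ring
    rw [this]
    exact isUnit_one_add_mul hϖm _
  have hmem : hxu.unit ∈ U ϖ (n + e) := by
    rw [mem_U]; simpa using hdvd
  rw [← hmap] at hmem
  obtain ⟨yu, hyu, hyx⟩ := hmem
  refine ⟨((yu : A) : L), ?_, ?_⟩
  · have := congrArg (fun z : Aˣ => ((z : A) : L)) hyx
    simpa using this
  · have := (dvd_iff_norm_le A hA π h0 h1 n ((yu : A) - 1)).mp (mem_U.mp hyu)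
    simpa using this

end Generic

section Adic

variable {R : Type*} [CommRing R] [IsDedekindDomain R] {K : Type*} [Field K] [Algebra R K]
  [IsFractionRing R K] (v : HeightOneSpectrum R)

/-- **Hensel for `p`-th powers in `v.adicCompletion K`**: elements sufficiently close to `1` are
`p`-th powers. -/
theorem exists_pow_eq [CharZero K] {p : ℕ} (hp : p.Prime) :
    ∃ N : ℕ, ∀ x : v.adicCompletion K, Valued.v (x - 1) ≤ exp (-(N : ℤ)) →
      ∃ y : v.adicCompletion K, y ^ p = x := by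
  let hv : (Valued.v : Valuation (v.adicCompletion K) ℤᵐ⁰).RankOne :=
    Valuation.IsRankOneDiscrete.rankOne _ (e := 2) (by norm_num)
  let _ : NormedField (v.adicCompletion K) := Valued.toNormedField (v.adicCompletion K) ℤᵐ⁰
  obtain ⟨π₀, hπ₀⟩ := v.valuation_exists_uniformizer K
  set π : v.adicCompletion K := (π₀ : v.adicCompletion K) with hπdef
  have hπv : Valued.v π = exp (-1 : ℤ) := by
    rw [hπdef, valuedAdicCompletion_eq_valuation', hπ₀]
  have hA : ∀ x : v.adicCompletion K, x ∈ v.adicCompletionIntegers K ↔ ‖x‖ ≤ 1 := by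
    intro x
    rw [mem_adicCompletionIntegers, Valued.toNormedField.norm_le_one_iff]
  have hπ0 : π ≠ 0 := by
    intro h
    rw [h, map_zero] at hπv
    exact exp_ne_zero hπv.symm
  have h0 : 0 < ‖π‖ := norm_pos_iff.mpr hπ0
  have h1 : ‖π‖ < 1 := by
    rw [Valued.toNormedField.norm_lt_one_iff, hπv, ← exp_zero, exp_lt_exp]
    norm_num
  have hnorm_eq : ∀ x y : v.adicCompletion K, Valued.v x = Valued.v y → ‖x‖ = ‖y‖ := by
    intro x y h
    apply le_antisymm
    · rw [Valued.toNormedField.norm_le_iff, h]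
    · rw [Valued.toNormedField.norm_le_iff, h]
  have hdisc : ∀ x : v.adicCompletion K, x ≠ 0 → ∃ n : ℤ, ‖x‖ = ‖π‖ ^ n := by
    intro x hx
    have hvx : Valued.v x ≠ 0 := (Valuation.ne_zero_iff _).mpr hx
    refine ⟨-(log (Valued.v x)), ?_⟩
    rw [← norm_zpow]
    apply hnorm_eq
    rw [map_zpow₀, hπv, ← exp_zsmul, smul_eq_mul, mul_neg, mul_one, neg_neg, exp_log hvx]
  have hp0 : ((p : ℕ) : v.adicCompletion K) ≠ 0 := by
    have : ((p : ℕ) : v.adicCompletion K) = ((p : K) : v.adicCompletion K) := by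
      have h3 : ((p : K) : v.adicCompletion K) = algebraMap K (v.adicCompletion K) (p : K) := by
        rw [algebraMap_adicCompletion]; rfl
      rw [h3, map_natCast]
    rw [this]
    intro h
    have h2 : Valued.v ((p : K) : v.adicCompletion K) = 0 := by rw [h, map_zero]
    rw [valuedAdicCompletion_eq_valuation', Valuation.zero_iff] at h2
    exact hp.ne_zero (Nat.cast_eq_zero.mp h2)
  obtain ⟨e, -, hmain⟩ := exists_pow_eq_generic (v.adicCompletionIntegers K) hA π h0 h1 hdisc hp hp0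
  refine ⟨(e + 1) + e, fun x hx => ?_⟩
  have hen : e < (e + 1) * (p - 1) := by
    have : 1 ≤ p - 1 := by have := hp.two_le; omega
    nlinarith
  obtain ⟨y, hy, -⟩ := hmain (e + 1) (by omega) hen x (by
    rw [← norm_pow, Valued.toNormedField.norm_le_iff, map_pow, hπv, ← exp_nsmul]
    convert hx using 2
    simp)
  exact ⟨y, hy⟩

end Adic

section Adic

variable {R : Type*} [CommRing R] [IsDedekindDomain R] {K : Type*} [Field K] [Algebra R K]
  [IsFractionRing R K] (v : HeightOneSpectrum R)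

/-- version for elements of `K`. -/
theorem exists_pow_eq_coe [CharZero K] {p : ℕ} (hp : p.Prime) :
    ∃ N : ℕ, ∀ a : K, v.valuation K (a - 1) ≤ exp (-(N : ℤ)) →
      ∃ y : v.adicCompletion K, y ^ p = (a : v.adicCompletion K) := by
  obtain ⟨N, hN⟩ := exists_pow_eq (K := K) v hp
  refine ⟨N, fun a ha => hN _ ?_⟩
  have : ((a : v.adicCompletion K) - 1) = ((a - 1 : K) : v.adicCompletion K) := by
    have h3 : ∀ b : K, (b : v.adicCompletion K) = algebraMap K (v.adicCompletion K) b := by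
      intro b; rw [algebraMap_adicCompletion]; rfl
    rw [h3, h3, map_sub, map_one]
  rw [this, valuedAdicCompletion_eq_valuation']
  exact ha

/-- version for elements of `R` congruent to `1` modulo a power of the prime. -/
theorem exists_pow_eq_of_sub_one_mem [CharZero K] {p : ℕ} (hp : p.Prime) :
    ∃ N : ℕ, ∀ r : R, r - 1 ∈ v.asIdeal ^ N →
      ∃ y : v.adicCompletion K, y ^ p = ((algebraMap R K r : K) : v.adicCompletion K) := by
  obtain ⟨N, hN⟩ := exists_pow_eq_coe (K := K) v hp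
  refine ⟨N, fun r hr => hN _ ?_⟩
  have : (algebraMap R K r - 1 : K) = algebraMap R K (r - 1) := by rw [map_sub, map_one]
  rw [this, valuation_of_algebraMap, intValuation_le_pow_iff_mem]
  exact hr

/-- monotonicity in the exponent. -/
theorem exists_pow_eq_mono [CharZero K] {p : ℕ} {N N' : ℕ} (hNN' : N ≤ N')
    (hN : ∀ x : v.adicCompletion K, Valued.v (x - 1) ≤ exp (-(N : ℤ)) →
      ∃ y : v.adicCompletion K, y ^ p = x) :
    ∀ x : v.adicCompletion K, Valued.v (x - 1) ≤ exp (-(N' : ℤ)) →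
      ∃ y : v.adicCompletion K, y ^ p = x := by
  intro x hx
  refine hN x (hx.trans ?_)
  rw [exp_le_exp]
  omega

/-- uniform version for a finite set of places. -/
theorem exists_pow_eq_finset [CharZero K] {p : ℕ} (hp : p.Prime) (T : Finset (HeightOneSpectrum R)) :
    ∃ N : ℕ, ∀ v ∈ T, ∀ x : v.adicCompletion K, Valued.v (x - 1) ≤ exp (-(N : ℤ)) →
      ∃ y : v.adicCompletion K, y ^ p = x := by
  classical
  induction T using Finset.induction_on with
  | empty => exact ⟨0, by simp⟩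
  | insert w T hw ih =>
    obtain ⟨N₁, h₁⟩ := ih
    obtain ⟨N₂, h₂⟩ := exists_pow_eq (K := K) w hp
    refine ⟨max N₁ N₂, fun v hv => ?_⟩
    rcases Finset.mem_insert.mp hv with rfl | hvT
    · exact exists_pow_eq_mono v (le_max_right _ _) h₂
    · exact exists_pow_eq_mono v (le_max_left _ _) (h₁ v hvT)

end Adic

end Fermat.Agent.S55.Global.HenselPow
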