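/-
S55 / GLOBAL block — heredity UP of `Blocks2.AdmissibleQ` / `Blocks2.Setting` for an ABSTRACT tower
`K → L → M` of number fields (`[Algebra K L] [Algebra K M] [Algebra L M] [IsScalarTower K L M]`), helper6.

`Global/HeredityUp.lean` has the same statements for `E : IntermediateField K M`; consumers working
with towers of types (TransitionQ, Blocks4, CycloNorm) need this form:

* `admissibleQ_up_tower : AdmissibleQ K M p T → AdmissibleQ L M p T`;
* `setting_up_tower     : Setting p K M T → Setting p L M T`   (`M/L` Galois by `tower_top`);
* `setting_down_tower   : [IsGalois K L] → Setting p K M T → Setting p K L T`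
  (restatement of `HeredityDown.setting_quotient`).
-/
import Fermat.Agent.S55.Global.HeredityDown

set_option autoImplicit false
set_option linter.unusedSectionVars false

open NumberField IsDedekindDomain

namespace Fermat.Agent.S55.Global.HeredityTower

open Fermat.Agent.S55.Global.Objects Fermat.Agent.S55.Global.Objects2
open Fermat.Agent.S55.Global.Blocks2

variable (K L M : Type) [Field K] [NumberField K] [Field L] [NumberField L] [Field M]
  [NumberField M] [Algebra K L] [Algebra K M] [Algebra L M] [IsScalarTower K L M]

/-- `T` admissible for `M/K` ⟹ `T` admissible for `M/L`. -/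
theorem admissibleQ_up_tower {p : ℕ} {T : Finset Nat.Primes} (h : AdmissibleQ K M p T) :
    AdmissibleQ L M p T where
  mem_p := h.mem_p
  ram := by
    intro w ⟨σ, hσ, hσ1⟩
    refine h.ram w ⟨σ.restrictScalars K, ?_, ?_⟩
    · intro x
      exact hσ x
    · intro h1
      apply hσ1
      ext x
      have := congr($h1 x)
      exact this
  principal := h.principal

/-- `Setting p K M T → Setting p L M T` for a tower `K → L → M`. -/
theorem setting_up_tower {p : ℕ} {T : Finset Nat.Primes} (hs : Setting p K M T) :
    Setting p L M T := by
  have := hs.galois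
  refine ⟨hs.prime, hs.odd, ?_, IsGalois.tower_top_of_isGalois K L M, ?_,
    admissibleQ_up_tower K L M hs.adm⟩
  · obtain ⟨ζ, hζ⟩ := hs.zeta
    exact ⟨algebraMap K L ζ, hζ.map_of_injective (algebraMap K L).injective⟩
  · obtain ⟨n, hn⟩ := hs.ppower
    have hmul : Module.finrank K L * Module.finrank L M = Module.finrank K M :=
      Module.finrank_mul_finrank K L M
    have hdvd : Module.finrank L M ∣ p ^ n := by
      rw [← hn, ← hmul]
      exact Dvd.intro_left _ rfl
    obtain ⟨m, -, hm⟩ := (Nat.dvd_prime_pow hs.prime).1 hdvd
    exact ⟨m, hm⟩

/-- `Setting p K M T → Setting p K L T` for a tower `K → L → M` with `L/K` Galois. -/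
theorem setting_down_tower [IsGalois K L] {p : ℕ} {T : Finset Nat.Primes}
    (hs : Setting p K M T) : Setting p K L T :=
  HeredityDown.setting_quotient K L M hs

end Fermat.Agent.S55.Global.HeredityTower
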