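/-
S55 / GLOBAL block — row G.inflInj (helper60; assigned by helper78, reports 1926/1930).

For a tower `K ⊆ F ⊆ M` of number fields with `F/K` Galois and `Setting p K M T` (so `M/K` is Galois
of `p`-power degree, `K ∋ ζ_p`, `T` admissible for `M/K`), the transition map

  `inflCn K F M T 2 : H²(Gal(F/K), C_{F,T}) ⟶ H²(Gal(M/K), C_{M,T})`

is INJECTIVE (given (G-i) `H1Vanish p`), its image is exactly the kernel of the restriction to
`Gal(M/F) = ker (Gal(M/K) → Gal(F/K))`, and in every degree it is Mathlib's inflation composed with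
the descent isomorphism.

Ingredients (all on main): `DescentTower.descent_ker` (helper38), `Coh/InflCompat` (helper6),
`LayerVanish.h1ResTrivial_Cn` (helper6: heredity + `topPair`), `Tate/InfRes2`.
-/
import Mathlib
import Fermat.Agent.S55.Global.LayerVanish
import Fermat.Agent.S55.Global.DescentTower
import Fermat.Agent.S55.Global.TransitionQ
import Fermat.Agent.S55.Coh.InflCompat

set_option autoImplicit false
set_option linter.unusedSectionVars false

open NumberField CategoryTheory groupCohomology

namespace Fermat.Agent.S55.Global.InflInj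

open Fermat.Agent.S55.Global.Objects Fermat.Agent.S55.Global.Objects2
open Fermat.Agent.S55.Global.Blocks2 Fermat.Agent.S55.Global.TransitionQ
open Fermat.Agent.S55.Coh.PairEquiv Fermat.Agent.S55.Coh.InflCompat
open Fermat.Agent.S55.Tate.InfRes2

/-- **(G-inflInj)** the closed Prop: inflation of `T`-idele class cohomology in degree `2` is
injective. -/
def InflInj (p : ℕ) : Prop :=
  ∀ (K F M : Type) [Field K] [NumberField K] [Field F] [NumberField F] [Field M] [NumberField M]
    [Algebra K F] [Algebra K M] [Algebra F M] [IsScalarTower K F M] [IsGalois K F]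
    (T : Finset Nat.Primes), Setting p K M T →
      Function.Injective (inflCn K F M T 2).hom

section tower

variable {K F M : Type} [Field K] [NumberField K] [Field F] [NumberField F] [Field M]
  [NumberField M] [Algebra K F] [Algebra K M] [Algebra F M] [IsScalarTower K F M] [Normal K F]
  {p : ℕ} {T : Finset Nat.Primes}

/-- In every degree the transition map is the descent isomorphism followed by Mathlib's inflation
from `Gal(M/K) ⧸ Gal(M/F)` acting on `(C_{M,T})^{Gal(M/F)}`. -/
theorem exists_inflCn_eq [IsGalois K M] (hadm : AdmissibleQ K M p T) :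
    ∃ P : PairEquiv ((Cn K M T).quotientToInvariants (rnHom K F M).ker) (Cn K F T),
      ∀ n : ℕ, inflCn K F M T n =
        (P.cohomologyIso n).inv ≫ inflN (Cn K M T) (rnHom K F M).ker n := by
  obtain ⟨P, hPe, hPφ⟩ := DescentTower.descent_ker K M F hadm
  refine ⟨P, fun n => ?_⟩
  exact map_eq_inv_comp_inflN (rnHom K F M).ker (rnHom K F M) (transCn K F M T) P
    (fun g => by rw [hPe]; rfl) hPφ n

/-- **Injectivity of `inflCn` in degree `2`.** -/
theorem inflCn_two_injective (hV : H1Vanish p) (hs : Setting p K M T) :
    Function.Injective (inflCn K F M T 2).hom := by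
  haveI := hs.galois
  obtain ⟨P, hPe, hPφ⟩ := DescentTower.descent_ker K M F hs.adm
  exact map_two_injective (rnHom K F M).ker (rnHom K F M) (transCn K F M T) P
    (LayerVanish.h1ResTrivial_Cn hV hs _) (fun g => by rw [hPe]; rfl) hPφ

/-- The image of `inflCn` in degree `2` is killed by restriction to `Gal(M/F)`. -/
theorem rest₂_inflCn_two (hs : Setting p K M T) (x : groupCohomology (Cn K F T) 2) :
    (rest₂ (Cn K M T) (rnHom K F M).ker).hom ((inflCn K F M T 2).hom x) = 0 := by
  haveI := hs.galois
  obtain ⟨P, hPe, hPφ⟩ := DescentTower.descent_ker K M F hs.adm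
  exact rest₂_map_two (rnHom K F M).ker (rnHom K F M) (transCn K F M T) P
    (fun g => by rw [hPe]; rfl) hPφ x

/-- **Exactness**: a class of `H²(Gal(M/K), C_{M,T})` whose restriction to `Gal(M/F)` vanishes is
inflated from `H²(Gal(F/K), C_{F,T})`. -/
theorem ker_rest₂_le_range_inflCn_two (hV : H1Vanish p) (hs : Setting p K M T) :
    LinearMap.ker (rest₂ (Cn K M T) (rnHom K F M).ker).hom ≤
      LinearMap.range (inflCn K F M T 2).hom := by
  haveI := hs.galois
  obtain ⟨P, hPe, hPφ⟩ := DescentTower.descent_ker K M F hs.adm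
  exact ker_rest₂_le_range_map_two (rnHom K F M).ker (rnHom K F M) (transCn K F M T) P
    (LayerVanish.h1ResTrivial_Cn hV hs _) (fun g => by rw [hPe]; rfl) hPφ

/-- element form of exactness -/
theorem exists_inflCn_two_eq (hV : H1Vanish p) (hs : Setting p K M T)
    (z : groupCohomology (Cn K M T) 2)
    (hz : (rest₂ (Cn K M T) (rnHom K F M).ker).hom z = 0) :
    ∃ y : groupCohomology (Cn K F T) 2, (inflCn K F M T 2).hom y = z :=
  ker_rest₂_le_range_inflCn_two hV hs (LinearMap.mem_ker.mpr hz)

end tower

/-- **Row G.inflInj**: `(G-i) ⇒ InflInj`. -/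
theorem inflInj_of_h1Vanish {p : ℕ} (hV : H1Vanish p) : InflInj p := by
  intro K F M _ _ _ _ _ _ _ _ _ _ _ T hs
  exact inflCn_two_injective hV hs

end Fermat.Agent.S55.Global.InflInj
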