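/-
S55 / GLOBAL block — row G.inflInj (helper86): **inflation of idele class cohomology is injective
in degree 2**.

For a tower `K ⊆ F ⊆ M` of number fields with `F/K` Galois and `Setting p K M T` (`M/K` Galois of
`p`-power degree, `K ∋ ζ_p`, `T` admissible for `M/K`):

  `inflCn K F M T 2 : H²(Gal(F/K), C_{F,T}) ⟶ H²(Gal(M/K), C_{M,T})`   is injective.

Inputs: `Blocks2.H1Vanish p` (= (G-i), for the layer `M/F`).  Everything else is proved here:

* `map_injective_of_descent` (abstract, any `k`): for a surjection `π : Γ →* G`, `A : Rep k G`,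
  `B : Rep k Γ`, `f : Res_π A ⟶ B` injective with image the `ker π`-invariants of `B`, and
  `H¹(ker π, B) = 0`, the map `groupCohomology.map π f 2` is injective
  (= `mapIso` along `Γ ⧸ ker π ≃* G` followed by Mathlib's inflation; `Coh/InfRes2.infl_injective`).
* TOWER DESCENT for `C`, in `TransitionQ` language (no `PairEquiv`, no fixed fields):
  `transCn_hom_injective`            : `C_{F,T} → C_{M,T}` is injective (`M/F` Galois, `T ≠ ∅`);
  `exists_transCn_eq_of_invariant`   : a class of `C_{M,T}` fixed by `ker(Gal(M/K) → Gal(F/K))`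
                                        comes from `C_{F,T}` (`T` admissible for `M/K`);
  (from helper38's `DescentTensorQ`, `DescentUnits.h1Vanishes_En`, `Descent.surjective_map_invariants`).
* `h1Vanishes_ker` : `H¹(Gal(M/F), C_{M,T}) = 0` from `H1Vanish p` + `HeredityUp` + `topPair`.
-/
import Mathlib
import Fermat.Agent.S55.Coh.InfRes2
import Fermat.Agent.S55.Global.TransitionQ
import Fermat.Agent.S55.Global.DescentUnits
import Fermat.Agent.S55.Global.DescentTensorQ
import Fermat.Agent.S55.Global.HeredityUp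

set_option autoImplicit false
set_option linter.unusedSectionVars false
set_option linter.dupNamespace false
set_option linter.style.haveILetI false

namespace Fermat.Agent.S55.Global.InflInjB

/-! ### The abstract statement -/

section abstract

open CategoryTheory Rep Representation groupCohomology
open Fermat.Agent.S55.Coh

variable {k Γ G : Type} [CommRing k] [Group Γ] [Group G] (π : Γ →* G) (A : Rep k G) (B : Rep k Γ)
  (f : Rep.res π A ⟶ B)

/-- The image of `f` lies in the `ker π`-invariants. -/
theorem hom_mem_invariants (a : A) :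
    f.hom a ∈ Representation.invariants (B.ρ.comp π.ker.subtype) := by
  intro s
  have h1 := Rep.hom_comm_apply f (s : Γ) a
  have h2 : π (s : Γ) = 1 := s.2
  show B.ρ (s : Γ) (f.hom a) = f.hom a
  rw [← h1]
  show f.hom (A.ρ (π (s : Γ)) a) = f.hom a
  rw [h2, map_one]
  rfl

/-- `a ↦ f a` as a linear map into the invariants. -/
noncomputable def toInv : A.V →ₗ[k] (B.quotientToInvariants π.ker).V :=
  f.hom.toLinearMap.codRestrict (Representation.invariants (B.ρ.comp π.ker.subtype))
    (hom_mem_invariants π A B f)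

theorem toInv_coe (a : A) :
    ((toInv π A B f a : (B.quotientToInvariants π.ker).V) : B.V) = f.hom a := rfl

variable {π A B f}

theorem toInv_bijective (hf : Function.Injective f.hom)
    (hrange : ∀ b : B, (∀ h ∈ π.ker, B.ρ h b = b) → ∃ a : A, f.hom a = b) :
    Function.Bijective (toInv π A B f) := by
  constructor
  · intro a a' h
    exact hf (congrArg Subtype.val h)
  · intro b
    obtain ⟨a, ha⟩ := hrange b.1 (fun h hh => b.2 ⟨h, hh⟩)
    exact ⟨a, Subtype.ext ha⟩

variable (π A B f)

theorem toInv_equivariant (g : Γ) (a : A) :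
    toInv π A B f (A.ρ (π g) a) =
      (B.quotientToInvariants π.ker).ρ (QuotientGroup.mk g) (toInv π A B f a) := by
  apply Subtype.ext
  exact Rep.hom_comm_apply f g a

variable {π A B f}

/-- **Inflation along a surjection is injective in degree 2** when the coefficient map identifies
`A` with the `ker π`-invariants of `B` and `H¹(ker π, B) = 0`. -/
theorem map_injective_of_descent (hπ : Function.Surjective π)
    (hf : Function.Injective f.hom)
    (hrange : ∀ b : B, (∀ h ∈ π.ker, B.ρ h b = b) → ∃ a : A, f.hom a = b)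
    (h1 : InfRes2.H1Vanishes B π.ker) :
    Function.Injective (groupCohomology.map π f 2) := by
  let e : Γ ⧸ π.ker ≃* G := QuotientGroup.quotientKerEquivOfSurjective π hπ
  let E : A.V ≃ₗ[k] (B.quotientToInvariants π.ker).V :=
    LinearEquiv.ofBijective (toInv π A B f) (toInv_bijective hf hrange)
  have hE : ∀ q : Γ ⧸ π.ker, E.symm.toLinearMap ∘ₗ (B.quotientToInvariants π.ker).ρ q =
      A.ρ (e q) ∘ₗ E.symm.toLinearMap := by
    intro q
    induction q using QuotientGroup.induction_on with | @H g =>
    apply LinearMap.ext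
    intro b
    obtain ⟨a, rfl⟩ := E.surjective b
    show E.symm ((B.quotientToInvariants π.ker).ρ (QuotientGroup.mk g) (E a)) =
      A.ρ (e (QuotientGroup.mk g)) (E.symm (E a))
    rw [E.symm_apply_apply]
    have h2 : E (A.ρ (π g) a) = (B.quotientToInvariants π.ker).ρ (QuotientGroup.mk g) (E a) :=
      toInv_equivariant π A B f g a
    rw [← h2, E.symm_apply_apply]
    rfl
  let I := groupCohomology.mapIso (A := A) (B := B.quotientToInvariants π.ker) e E.symm hE 2
  have hcomp : groupCohomology.map π f 2 =
      I.inv ≫ groupCohomology.map (QuotientGroup.mk' π.ker)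
        (ofHom <| B.ρ.quotientToInvariants_lift π.ker) 2 := by
    show _ = groupCohomology.map _ _ 2 ≫ _
    rw [← groupCohomology.map_comp]
    refine groupCohomology.map_congr ?_ ?_ 2
    · exact MonoidHom.ext fun g => rfl
    · exact LinearMap.ext fun a => rfl
  rw [hcomp]
  have hinj := InfRes2.infl_injective B π.ker h1
  intro x y hxy
  have h3 : I.inv x = I.inv y := hinj (by simpa using hxy)
  have := congrArg I.hom h3
  simpa using this

end abstract

open NumberField IsDedekindDomain TensorProduct

open Fermat.Agent.S55.Global.Objects Fermat.Agent.S55.Global.Objects2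
  Fermat.Agent.S55.Global.Objects5 Fermat.Agent.S55.Global.TransitionQ
  Fermat.Agent.S55.Global.Blocks2

/-! ### Descent along `F ⊆ M` for `ℚ`-based tensor products -/

section descent

variable (F : Type) [Field F] [NumberField F]
variable (M : Type) [Field M] [NumberField M] [Algebra F M]
variable (A : Type) [CommRing A] [Algebra ℚ A]

/-- Elements in the image of the transition map are fixed by the automorphisms fixing `F`. -/
theorem smul_transQ_of_fixes (σ : M ≃ₐ[ℚ] M)
    (hσ : ∀ x : F, σ (algebraMap F M x) = algebraMap F M x) (z : F ⊗[ℚ] A) :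
    σ • transQ F M A z = transQ F M A z := by
  induction z using TensorProduct.induction_on with
  | zero => simp
  | tmul x a =>
    rw [transQ_tmul, Objects.smul_tmul', hσ]
  | add x y hx hy => rw [map_add, smul_add, hx, hy]

theorem smul_transUnitsQ_of_fixes (σ : M ≃ₐ[ℚ] M)
    (hσ : ∀ x : F, σ (algebraMap F M x) = algebraMap F M x) (u : (F ⊗[ℚ] A)ˣ) :
    σ • transUnitsQ F M A u = transUnitsQ F M A u := by
  apply Units.ext
  exact smul_transQ_of_fixes F M A σ hσ (u : F ⊗[ℚ] A)

/-- `TransitionQ.transQ` and `DescentTensorQ.inclQ` are the same map. -/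
theorem transQ_eq_inclQ (z : F ⊗[ℚ] A) :
    transQ F M A z = DescentTensorQ.inclQ (F := F) (M := M) A z := by
  induction z using TensorProduct.induction_on with
  | zero => simp
  | tmul x a => rfl
  | add x y hx hy => rw [map_add, map_add, hx, hy]

variable (T : Finset Nat.Primes)

/-- The unit of `M ⊗[ℚ] ℚ_T` underlying an element of `J_{M,T}`. -/
noncomputable def unitOf (j : JQ M T) := Additive.toMul (Rep.toAdditive j)

/-- An element of `J_{F,T}` whose image in `J_{M,T}` is (the image of) a `T_M`-unit of `M` is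
(the image of) a `T_F`-unit of `F`. -/
theorem mem_ESubQ_of_transLinQ_mem [IsGalois F M] (hT : T.Nonempty) (a : JQ F T)
    (ha : transLinQ F M T a ∈ ESubQ M T) : a ∈ ESubQ F T := by
  obtain ⟨x, hx, hxa⟩ := ha
  have hxa' : inclUnits ℚ M (QT T) x =
      transUnitsQ F M (QT T) (Additive.toMul (Rep.toAdditive a)) := hxa
  have hinj := DescentUnits.inclUnits_injective M hT
  -- `x` is fixed by `Gal(M/F)`
  have hfix : ∀ σ : M ≃ₐ[F] M, σ (x : M) = x := by
    intro σ
    have h1 : (resHom F M σ) • inclUnits ℚ M (QT T) x =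
        inclUnits ℚ M (QT T) ((resHom F M σ) • x) := smul_inclUnits (QT T) _ x
    have h2 : (resHom F M σ) • inclUnits ℚ M (QT T) x = inclUnits ℚ M (QT T) x := by
      rw [hxa']
      exact smul_transUnitsQ_of_fixes F M (QT T) _ (fun y => σ.commutes y) _
    have h3 : (resHom F M σ) • x = x := hinj (h1.symm.trans h2)
    exact congrArg Units.val h3
  obtain ⟨y₀, hy₀⟩ := (IsGalois.mem_range_algebraMap_iff_fixed (F := F) (E := M) (x : M)).2 hfix
  have hy₀ne : y₀ ≠ 0 := by
    rintro rfl
    rw [map_zero] at hy₀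
    exact x.ne_zero hy₀.symm
  set y : Fˣ := Units.mk0 y₀ hy₀ne with hy
  have hyx : Transition.baseUnits F M y = x := Units.ext hy₀
  have hyE : y ∈ EUnitsQ F T := by
    rw [← DescentUnits.map_mem_EUnitsQ_iff F M T y]
    have : Units.map (algebraMap F M : F →* M) y = x := hyx
    rw [this]
    exact hx
  refine ⟨y, hyE, ?_⟩
  apply transUnitsQ_injective F M (QT T)
  rw [transUnitsQ_inclUnits, hyx]
  exact hxa'

end descent

/-! ### Tower descent for `C_{·,T}` -/

section tower

variable (K : Type) [Field K] [NumberField K]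
variable (F : Type) [Field F] [NumberField F] [Algebra K F]
variable (M : Type) [Field M] [NumberField M] [Algebra K M] [Algebra F M] [IsScalarTower K F M]
variable [Normal K F] (T : Finset Nat.Primes)

/-- **Tower descent, injectivity**: `C_{F,T} → C_{M,T}` is injective (`M/F` Galois, `T ≠ ∅`). -/
theorem transCn_hom_injective [IsGalois F M] (hT : T.Nonempty) :
    Function.Injective (transCn K F M T).hom := by
  intro c c' h
  have h0 : (transCn K F M T).hom (c - c') = 0 := by rw [map_sub, h, sub_self]
  obtain ⟨a, ha⟩ := Descent.surjective_of_shortExact (sesn_shortExact K F T) (c - c')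
  have ha' : (JnToCn K F T).hom (a : Jn K F T) = c - c' := ha
  have h1 : (JnToCn K M T).hom (transLinQ F M T (a : Jn K F T)) = 0 := by
    have : (transCn K F M T).hom ((JnToCn K F T).hom (a : Jn K F T)) = 0 := by
      rw [ha']; exact h0
    exact this
  obtain ⟨e, he⟩ := Descent.exists_of_shortExact (sesn_shortExact K M T)
    (transLinQ F M T (a : Jn K F T)) h1
  have hmem : transLinQ F M T (a : Jn K F T) ∈ ESubQ M T := by
    have he' : (EnToJn K M T).hom (e : En K M T) = transLinQ F M T (a : Jn K F T) := he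
    have he2 : (Subtype.val (e : En K M T) : JQ M T) = transLinQ F M T (a : Jn K F T) := he'
    rw [← he2]
    exact (e : En K M T).2
  have haE : (a : Jn K F T) ∈ ESubQ F T := mem_ESubQ_of_transLinQ_mem F M T hT a hmem
  have hz : (JnToCn K F T).hom (a : Jn K F T) = 0 :=
    Descent.comp_apply_eq_zero (sesn K F T) (⟨a, haE⟩ : En K F T)
  rw [hz] at ha'
  exact sub_eq_zero.mp ha'.symm

/-- `Gal(M/F) ⊆ ker (Gal(M/K) → Gal(F/K))`. -/
theorem restrictScalars_mem_ker (σ : M ≃ₐ[F] M) :
    σ.restrictScalars K ∈ (rnHom K F M).ker := by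
  rw [MonoidHom.mem_ker]
  apply AlgEquiv.ext
  intro y
  apply (algebraMap F M).injective
  rw [rnHom_commutes]
  exact σ.commutes y

/-- An element of `M` fixed by `ker (Gal(M/K) → Gal(F/K))` lies in `F` (`M/F` Galois). -/
theorem mem_range_of_fixed_ker [IsGalois F M] (x : M)
    (hx : ∀ τ ∈ (rnHom K F M).ker, τ x = x) : x ∈ Set.range (algebraMap F M) :=
  (IsGalois.mem_range_algebraMap_iff_fixed (F := F) (E := M) x).2
    (fun σ => hx _ (restrictScalars_mem_ker K F M σ))

/-- **Tower descent, surjectivity**: a class of `C_{M,T}` fixed by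
`ker (Gal(M/K) → Gal(F/K))` comes from `C_{F,T}` (`T` admissible for `M/K`). -/
theorem exists_transCn_eq_of_invariant [IsGalois K M] [IsGalois F M] {p : ℕ}
    (hadm : AdmissibleQ K M p T) (c : Cn K M T)
    (hc : ∀ τ ∈ (rnHom K F M).ker, (Cn K M T).ρ τ c = c) :
    ∃ a : Cn K F T, (transCn K F M T).hom a = c := by
  have h1E := DescentUnits.h1Vanishes_En K M hadm (rnHom K F M).ker
  have hsurj := Descent.surjective_map_invariants (rnHom K F M).ker (sesn_shortExact K M T) h1E
  obtain ⟨j', hj'⟩ := hsurj ⟨c, fun s => hc s.1 s.2⟩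
  obtain ⟨j, hj⟩ : ∃ j : JQ M T, j = j'.1 := ⟨j'.1, rfl⟩
  have hj1 : (JnToCn K M T).hom (j : Jn K M T) = c := by
    rw [hj]; exact congrArg Subtype.val hj'
  have hjinv : ∀ τ ∈ (rnHom K F M).ker, (JQ M T).ρ (resHom K M τ) j = j := by
    intro τ hτ
    rw [hj]
    exact j'.2 ⟨τ, hτ⟩
  have huinv : ∀ τ ∈ (rnHom K F M).ker, (resHom K M τ) • unitOf M T j = unitOf M T j := by
    intro τ hτ
    exact congrArg (unitOf M T) (hjinv τ hτ)
  obtain ⟨w, hw⟩ := DescentTensorQ.exists_unit_of_invariantQ (F := F) (M := M) (QT T)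
    {σ | ∃ τ ∈ (rnHom K F M).ker, resHom K M τ = σ}
    (fun x hx => mem_range_of_fixed_ker K F M x (fun τ hτ => hx _ ⟨τ, hτ, rfl⟩))
    (unitOf M T j) (by
      rintro σ ⟨τ, hτ, rfl⟩
      exact congrArg Units.val (huinv τ hτ))
  have hw' : transUnitsQ F M (QT T) w = unitOf M T j := by
    rw [← hw]
    exact Units.ext (transQ_eq_inclQ F M (QT T) (w : F ⊗[ℚ] QT T))
  obtain ⟨a, ha⟩ : ∃ a : JQ F T, unitOf F T a = w := ⟨Rep.toAdditive.symm (Additive.ofMul w), rfl⟩
  refine ⟨(JnToCn K F T).hom (a : Jn K F T), ?_⟩
  rw [transCn_hom_mkQ, ← hj1]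
  congr 1
  rw [transLinQ_apply]
  show Additive.ofMul (transUnitsQ F M (QT T) (unitOf F T a)) = _
  rw [ha, hw']
  rfl

/-- `H¹(ker (Gal(M/K) → Gal(F/K)), C_{M,T}) = 0` from (G-i) for the layer `M / M^N`. -/
theorem h1Vanishes_ker {p : ℕ} (h1 : H1Vanish p) (hs : Setting p K M T) :
    Fermat.Agent.S55.Coh.InfRes2.H1Vanishes (Cn K M T) (rnHom K F M).ker := by
  have hsE := HeredityUpProof.heredityUp p K M T hs
    (IntermediateField.fixedField (rnHom K F M).ker)
  have hz := h1 _ M T hsE
  have hP := DevissageInstQ.topPair K M T (rnHom K F M).ker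
  exact Fermat.Agent.S55.Coh.InfRes2.h1Vanishes_of_isZero (Cn K M T) (rnHom K F M).ker
    ((hP.isZero_iff 1).2 hz)

end tower

/-! ### The row -/

/-- **G.inflInj** (closed Prop): for a tower `K ⊆ F ⊆ M` with `F/K` Galois and `Setting p K M T`,
the inflation `H²(Gal(F/K), C_{F,T}) ⟶ H²(Gal(M/K), C_{M,T})` is injective. -/
def InflInj (p : ℕ) : Prop :=
  ∀ (K F M : Type) [Field K] [NumberField K] [Field F] [NumberField F] [Field M] [NumberField M]
    [Algebra K F] [Algebra K M] [Algebra F M] [IsScalarTower K F M] [IsGalois K F]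
    (T : Finset Nat.Primes), Setting p K M T →
    Function.Injective (inflCn K F M T 2).hom

/-- **G.inflInj from (G-i).** -/
theorem inflInj {p : ℕ} (h1 : H1Vanish p) : InflInj p := by
  intro K F M _ _ _ _ _ _ _ _ _ _ _ T hs
  haveI := hs.galois
  haveI : IsGalois F M := IsGalois.tower_top_of_isGalois K F M
  have hT := DescentUnits.nonempty_of_admissibleQ K M hs.adm
  exact map_injective_of_descent (π := rnHom K F M) (A := Cn K F T) (B := Cn K M T)
    (f := transCn K F M T) (AlgEquiv.restrictNormalHom_surjective M)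
    (transCn_hom_injective K F M T hT)
    (fun b hb => exists_transCn_eq_of_invariant K F M T hs.adm b hb)
    (h1Vanishes_ker K F M T h1 hs)

end Fermat.Agent.S55.Global.InflInjB
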