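/-
S55 / GLOBAL block — row G.descent, leaf (C) (helper6): Galois-invariant ideals whose prime factors
are unramified are extended from the base.

Relativised form of helper62's `S14/InvariantIdeals` (there: EVERY nonzero prime unramified).

* `exists_map_eq_of_unramifiedAt` : `B/A` integral extension of Dedekind domains, `G` a finite group
  acting on `B` with invariants `A`; a nonzero `G`-invariant ideal `I` of `B` such that every prime
  `P ⊇ I` has `e(P|A) = 1` is the extension of an ideal of `A`.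
* `ramificationIdx_eq_one_of_inertia_trivial`, `ramificationIdx_intermediate_eq_one` : number fields,
  `M/K` Galois: trivial inertia group of `P` in `Gal(M/K)` ⟹ `e(P|𝓞 K) = 1`, `e(P|𝓞 F) = 1` for
  every intermediate field `F`.
* `exists_ideal_map_eq_of_admissibleQ` : interface v3: `T` admissible for `M/K`, `N ≤ Gal(M/K)`,
  `I ≠ ⊥` an `N`-stable ideal of `𝓞 M` none of whose prime factors lies above `T`
  ⟹ `I = 𝔞 𝓞_M` for an ideal `𝔞` of `𝓞 (M^N)`.
-/
import Mathlib
import Fermat.Agent.S14.InvariantIdeals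
import Fermat.Agent.S55.Global.Blocks2

set_option autoImplicit false

open Pointwise

namespace Fermat.Agent.S55.Global.InvariantIdealsT

open Fermat.Agent.S14.InvariantIdeals

section abstract

variable {A B : Type*} [CommRing A] [CommRing B] [IsDedekindDomain A] [IsDedekindDomain B]
  [Algebra A B] [Module.IsTorsionFree A B] [Algebra.IsIntegral A B]
  {G : Type*} [Group G] [Finite G] [MulSemiringAction G B] [SMulCommClass G A B]
  [Algebra.IsInvariant A B G]

/-- If `P` is a nonzero prime containing the `G`-invariant ideal `I` and all primes containing `I`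
are unramified over `A`, then the extension of `P ∩ A` divides `I`. -/
theorem map_under_dvd_of_unramifiedAt
    (I : Ideal B) (hinv : ∀ g : G, g • I = I)
    (hur : ∀ P : Ideal B, P.IsPrime → P ≠ ⊥ → I ≤ P → P.ramificationIdx A = 1)
    (P : Ideal B) [hP : P.IsPrime] (hP0 : P ≠ ⊥)
    (hIP : I ≤ P) : (P.under A).map (algebraMap A B) ∣ I := by
  classical
  have hp0 : P.under A ≠ ⊥ := Ideal.under_ne_bot A hP0
  have hpprime : (P.under A).IsPrime := Ideal.IsPrime.under A P
  have hpmax : (P.under A).IsMaximal := hpprime.isMaximal hp0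
  rw [Ideal.map_algebraMap_eq_finsetProd_pow hp0, Ideal.dvd_iff_le,
    ← IsDedekindDomain.inf_pow_eq_prod_of_prime]
  · refine Finset.le_inf fun Q hQ => ?_
    rw [Set.mem_toFinset] at hQ
    have hQprime : Q.IsPrime := hQ.1
    have hQover : Q.under A = P.under A := (hQ.2.over).symm
    obtain ⟨g, rfl⟩ := Algebra.IsInvariant.exists_smul_of_under_eq A B G P Q hQover.symm
    have hQ0 : g • P ≠ ⊥ := by
      intro h
      apply hP0
      have := congrArg (fun J => g⁻¹ • J) h
      simpa using this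
    have hIQ : I ≤ g • P := by
      rw [← hinv g]
      exact Ideal.pointwise_smul_le_pointwise_smul_iff.mpr hIP
    rw [hur _ hQprime hQ0 hIQ, pow_one]
    exact hIQ
  · intro Q hQ
    rw [Set.mem_toFinset] at hQ
    have hQprime : Q.IsPrime := hQ.1
    have hQ0 : Q ≠ ⊥ := by
      intro h
      have h1 : Q.under A = P.under A := (hQ.2.over).symm
      rw [h, Ideal.under_bot] at h1
      exact hp0 h1.symm
    exact Ideal.prime_of_isPrime hQ0 hQprime
  · intro Q _ Q' _ h
    exact h

/-- **Invariant ideals with unramified prime factors are extended.** -/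
theorem exists_map_eq_of_unramifiedAt
    (I : Ideal B) (hI : I ≠ ⊥) (hinv : ∀ g : G, g • I = I)
    (hur : ∀ P : Ideal B, P.IsPrime → P ≠ ⊥ → I ≤ P → P.ramificationIdx A = 1) :
    ∃ 𝔞 : Ideal A, 𝔞.map (algebraMap A B) = I := by
  induction I using WellFoundedGT.induction with
  | ind I ih =>
    by_cases htop : I = ⊤
    · exact ⟨⊤, by rw [htop, Ideal.map_top]⟩
    obtain ⟨P, hPmax, hIP⟩ := Ideal.exists_le_maximal I htop
    have hPprime : P.IsPrime := hPmax.isPrime
    have hP0 : P ≠ ⊥ := fun h => hI (le_bot_iff.mp (h ▸ hIP))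
    obtain ⟨I', hI'⟩ := map_under_dvd_of_unramifiedAt I hinv hur P hP0 hIP
    set 𝔭B := (P.under A).map (algebraMap A B) with h𝔭B
    have h𝔭B0 : 𝔭B ≠ ⊥ := by
      intro h
      apply hI
      rw [hI', h, Ideal.bot_mul]
    have hI'0 : I' ≠ ⊥ := by
      intro h
      apply hI
      rw [hI', h, Ideal.mul_bot]
    have h𝔭Ble : 𝔭B ≤ P := Ideal.map_le_iff_le_comap.mpr le_rfl
    have hII' : I ≤ I' := le_of_eq_of_le hI' Ideal.mul_le_right
    -- `I'` is invariant
    have hinv' : ∀ g : G, g • I' = I' := by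
      intro g
      have h1 := hinv g
      rw [hI', smul_ideal_mul, smul_map_algebraMap] at h1
      exact mul_left_cancel₀ h𝔭B0 h1
    -- `I < I'`
    have hlt : I < I' := by
      refine lt_of_le_of_ne hII' fun h => ?_
      have h2 : 𝔭B * I' = ⊤ * I' := by rw [Ideal.top_mul, ← hI', h]
      have h3 : 𝔭B = ⊤ := mul_right_cancel₀ hI'0 h2
      exact hPprime.ne_top (top_le_iff.mp (h3 ▸ h𝔭Ble))
    obtain ⟨𝔞', h𝔞'⟩ := ih I' hlt hI'0 hinv'
      (fun Q hQ hQ0 hQI => hur Q hQ hQ0 (hII'.trans hQI))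
    exact ⟨P.under A * 𝔞', by rw [Ideal.map_mul, h𝔞', hI']⟩

end abstract

section numberField

open NumberField IsDedekindDomain
open Fermat.Agent.S55.Global.Objects Fermat.Agent.S55.Global.Objects2
open Fermat.Agent.S55.Global.Blocks2

variable {K M : Type} [Field K] [NumberField K] [Field M] [NumberField M] [Algebra K M]
  [IsGalois K M]

/-- Trivial inertia group in `Gal(M/K)` ⟹ ramification index one over `𝓞 K`. -/
theorem ramificationIdx_eq_one_of_inertia_trivial (P : Ideal (𝓞 M)) [P.IsPrime]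
    (h : ∀ σ : M ≃ₐ[K] M, σ ∈ P.inertia (M ≃ₐ[K] M) → σ = 1) :
    P.ramificationIdx (𝓞 K) = 1 := by
  have hlo : P.LiesOver (P.under (𝓞 K)) := ⟨rfl⟩
  have h1 : Nat.card (P.inertia (M ≃ₐ[K] M)) = Ideal.ramificationIdxIn (P.under (𝓞 K)) (𝓞 M) :=
    Ideal.card_inertia_eq_ramificationIdxIn (G := M ≃ₐ[K] M) (P.under (𝓞 K)) P
  rw [Ideal.ramificationIdxIn_eq_ramificationIdx (P.under (𝓞 K)) P (M ≃ₐ[K] M)] at h1
  rw [← h1]
  have hbot : P.inertia (M ≃ₐ[K] M) = ⊥ := by
    rw [eq_bot_iff]
    intro σ hσ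
    rw [Subgroup.mem_bot]
    exact h σ hσ
  rw [hbot]
  exact Subgroup.card_bot

/-- ... hence ramification index one over `𝓞 F` for every intermediate field `F`. -/
theorem ramificationIdx_intermediate_eq_one (F : IntermediateField K M) (P : Ideal (𝓞 M))
    [P.IsPrime] (h : ∀ σ : M ≃ₐ[K] M, σ ∈ P.inertia (M ≃ₐ[K] M) → σ = 1) :
    P.ramificationIdx (𝓞 F) = 1 := by
  have hlo : P.LiesOver (P.under (𝓞 F)) := ⟨rfl⟩
  have hdvd : P.ramificationIdx (𝓞 F) ∣ P.ramificationIdx (𝓞 K) :=
    Ideal.ramificationIdx_above_dvd (R := 𝓞 K) (P.under (𝓞 F)) P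
  rw [ramificationIdx_eq_one_of_inertia_trivial P h] at hdvd
  exact Nat.dvd_one.mp hdvd

/-- **Invariant ideals prime to `T` are extended from `𝓞 (M^N)`** (`T` admissible for `M/K`). -/
theorem exists_ideal_map_eq_of_admissibleQ {p : ℕ} {T : Finset Nat.Primes}
    (hT : AdmissibleQ K M p T) (N : Subgroup (M ≃ₐ[K] M)) (I : Ideal (𝓞 M)) (hI : I ≠ ⊥)
    (hinv : ∀ σ : M ≃ₐ[K] M, σ ∈ N → ∀ x ∈ I, σ • x ∈ I)
    (hIT : ∀ P : Ideal (𝓞 M), P.IsPrime → I ≤ P →
      ∀ q ∈ T, (((q : Nat.Primes) : ℕ) : 𝓞 M) ∉ P) :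
    ∃ 𝔞 : Ideal (𝓞 (IntermediateField.fixedField N)),
      𝔞.map (algebraMap (𝓞 (IntermediateField.fixedField N)) (𝓞 M)) = I := by
  have hG : IsGaloisGroup N (IntermediateField.fixedField N) M :=
    IsGaloisGroup.subgroup (M ≃ₐ[K] M) K M N
  have hG' : IsGaloisGroup N (𝓞 (IntermediateField.fixedField N)) (𝓞 M) :=
    IsGaloisGroup.of_isFractionRing N (𝓞 (IntermediateField.fixedField N)) (𝓞 M)
      (IntermediateField.fixedField N) M
  have := hG'.commutes
  have := hG'.isInvariant
  refine exists_map_eq_of_unramifiedAt (G := N) I hI ?_ ?_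
  · intro g
    apply le_antisymm
    · intro x hx
      rw [Ideal.mem_pointwise_smul_iff_inv_smul_mem] at hx
      have := hinv (g : M ≃ₐ[K] M) g.2 _ hx
      rwa [← Subgroup.smul_def, smul_inv_smul] at this
    · intro x hx
      rw [Ideal.mem_pointwise_smul_iff_inv_smul_mem]
      exact hinv ((g⁻¹ : N) : M ≃ₐ[K] M) (g⁻¹).2 x hx
  · intro P hP hP0 hIP
    have := hP
    apply ramificationIdx_intermediate_eq_one
    intro σ hσ
    by_contra hσ1
    obtain ⟨q, hq, hqP⟩ := hT.ram ⟨P, hP, hP0⟩ ⟨σ, hσ, hσ1⟩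
    exact hIT P hP hIP q hq hqP

end numberField

end Fermat.Agent.S55.Global.InvariantIdealsT
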