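import Mathlib
import Fermat.Agent.S55.Global.IsoTransport
import Fermat.Agent.S55.Global.TransitionQ

/-!
# S55 / Global: compatibility of `IsoTransport` with the transition maps of `TransitionQ`

Towers `K → L → M` and `K → L' → M`, an isomorphism `e : L ≃ₐ[K] L'` compatible with the maps to
`M` (`algebraMap L' M (e x) = algebraMap L M x`).  Then

* `rnHom K L' M τ = galEquiv e (rnHom K L M τ)`;
* `transCn K L' M T ∘ (pairCn e T).φ = transCn K L M T` (same for `Jn`, `En`);
* `cohomologyIso (pairCn e T) n ≫ inflCn K L' M T n = inflCn K L M T n` (same for `Jn`, `En`).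
-/

set_option autoImplicit false
set_option linter.unusedSectionVars false

namespace Fermat.Agent.S55.Global.IsoTransportTrans

open NumberField IsDedekindDomain TensorProduct CategoryTheory
open Fermat.Agent.S55.Global.Objects Fermat.Agent.S55.Global.Objects2
open Fermat.Agent.S55.Global.Objects5
open Fermat.Agent.S55.Global.IsoTransport Fermat.Agent.S55.Global.TransitionQ
open Fermat.Agent.S55.Coh.PairEquiv

variable {K L L' M : Type} [Field K] [NumberField K] [Field L] [NumberField L]
  [Field L'] [NumberField L'] [Field M] [NumberField M]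
  [Algebra K L] [Algebra K L'] [Algebra K M] [Algebra L M] [Algebra L' M]
  [IsScalarTower K L M] [IsScalarTower K L' M]

section Basic

variable (A : Type) [CommRing A] [Algebra ℚ A]

theorem transQ_tensorEquiv (e : L ≃ₐ[K] L')
    (he : ∀ x : L, algebraMap L' M (e x) = algebraMap L M x) (z : L ⊗[ℚ] A) :
    transQ L' M A (tensorEquiv A (toQ e) z) = transQ L M A z := by
  induction z using TensorProduct.induction_on with
  | zero => simp
  | tmul x a =>
    rw [tensorEquiv_tmul, transQ_tmul, transQ_tmul]
    congr 1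
    exact he x
  | add x y hx hy => rw [map_add, map_add, map_add, hx, hy]

theorem transUnitsQ_unitsEquiv (e : L ≃ₐ[K] L')
    (he : ∀ x : L, algebraMap L' M (e x) = algebraMap L M x) (u : (L ⊗[ℚ] A)ˣ) :
    transUnitsQ L' M A (unitsEquiv A (toQ e) u) = transUnitsQ L M A u := by
  apply Units.ext
  exact transQ_tensorEquiv A e he (u : L ⊗[ℚ] A)

variable [Normal K L] [Normal K L']

theorem rnHom_galEquiv (e : L ≃ₐ[K] L')
    (he : ∀ x : L, algebraMap L' M (e x) = algebraMap L M x) (τ : M ≃ₐ[K] M) :
    rnHom K L' M τ = galEquiv e (rnHom K L M τ) := by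
  ext y
  apply (algebraMap L' M).injective
  rw [rnHom_commutes, galEquiv_apply, he, rnHom_commutes, ← he, AlgEquiv.apply_symm_apply]

theorem galEquiv_symm_comp_rnHom (e : L ≃ₐ[K] L')
    (he : ∀ x : L, algebraMap L' M (e x) = algebraMap L M x) :
    ((galEquiv e).symm : (L' ≃ₐ[K] L') →* (L ≃ₐ[K] L)).comp (rnHom K L' M) = rnHom K L M := by
  ext τ : 1
  show (galEquiv e).symm (rnHom K L' M τ) = rnHom K L M τ
  rw [rnHom_galEquiv e he, MulEquiv.symm_apply_apply]

end Basic

section Reps

variable (T : Finset Nat.Primes)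

theorem transLinQ_jLin (e : L ≃ₐ[K] L')
    (he : ∀ x : L, algebraMap L' M (e x) = algebraMap L M x) (a : (JQ L T).V) :
    transLinQ L' M T (jLin (toQ e) T a) = transLinQ L M T a :=
  congrArg Additive.ofMul
    (transUnitsQ_unitsEquiv (QT T) e he (Additive.toMul (Rep.toAdditive a)))

variable [Normal K L] [Normal K L']

theorem transJn_pairJn (e : L ≃ₐ[K] L')
    (he : ∀ x : L, algebraMap L' M (e x) = algebraMap L M x) (a : (Jn K L T).V) :
    (transJn K L' M T).hom ((pairJn e T).φ a) = (transJn K L M T).hom a :=
  transLinQ_jLin T e he a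

theorem transEn_pairEn (e : L ≃ₐ[K] L')
    (he : ∀ x : L, algebraMap L' M (e x) = algebraMap L M x) (a : (En K L T).V) :
    (transEn K L' M T).hom ((pairEn e T).φ a) = (transEn K L M T).hom a :=
  Subtype.ext (transLinQ_jLin T e he (a : (JQ L T).V))

theorem transCn_pairCn (e : L ≃ₐ[K] L')
    (he : ∀ x : L, algebraMap L' M (e x) = algebraMap L M x) (c : (Cn K L T).V) :
    (transCn K L' M T).hom ((pairCn e T).φ c) = (transCn K L M T).hom c := by
  obtain ⟨a, rfl⟩ := Submodule.Quotient.mk_surjective (ESubQ L T) c
  show (JnToCn K M T).hom (transLinQ L' M T (jLin (toQ e) T a)) =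
    (JnToCn K M T).hom (transLinQ L M T a)
  rw [transLinQ_jLin T e he a]

end Reps

section Cohomology

variable (T : Finset Nat.Primes) (n : ℕ) [Normal K L] [Normal K L']

/-- `H^n(pairCn e T) ≫ inflCn K L' M T n = inflCn K L M T n`. -/
theorem cohomologyIso_comp_inflCn (e : L ≃ₐ[K] L')
    (he : ∀ x : L, algebraMap L' M (e x) = algebraMap L M x) :
    ((pairCn e T).cohomologyIso n).hom ≫ inflCn K L' M T n = inflCn K L M T n := by
  unfold inflCn
  show groupCohomology.map _ _ n ≫ groupCohomology.map _ _ n = _
  rw [← groupCohomology.map_comp]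
  exact groupCohomology.map_congr (galEquiv_symm_comp_rnHom e he)
    (LinearMap.ext fun c => transCn_pairCn T e he c) n

/-- `H^n(pairJn e T) ≫ inflJn K L' M T n = inflJn K L M T n`. -/
theorem cohomologyIso_comp_inflJn (e : L ≃ₐ[K] L')
    (he : ∀ x : L, algebraMap L' M (e x) = algebraMap L M x) :
    ((pairJn e T).cohomologyIso n).hom ≫ inflJn K L' M T n = inflJn K L M T n := by
  unfold inflJn
  show groupCohomology.map _ _ n ≫ groupCohomology.map _ _ n = _
  rw [← groupCohomology.map_comp]
  exact groupCohomology.map_congr (galEquiv_symm_comp_rnHom e he)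
    (LinearMap.ext fun c => transJn_pairJn T e he c) n

/-- `H^n(pairEn e T) ≫ inflEn K L' M T n = inflEn K L M T n`. -/
theorem cohomologyIso_comp_inflEn (e : L ≃ₐ[K] L')
    (he : ∀ x : L, algebraMap L' M (e x) = algebraMap L M x) :
    ((pairEn e T).cohomologyIso n).hom ≫ inflEn K L' M T n = inflEn K L M T n := by
  unfold inflEn
  show groupCohomology.map _ _ n ≫ groupCohomology.map _ _ n = _
  rw [← groupCohomology.map_comp]
  exact groupCohomology.map_congr (galEquiv_symm_comp_rnHom e he)
    (LinearMap.ext fun c => transEn_pairEn T e he c) n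

/-- Element form. -/
theorem inflCn_cohomologyEquiv (e : L ≃ₐ[K] L')
    (he : ∀ x : L, algebraMap L' M (e x) = algebraMap L M x)
    (c : groupCohomology (Cn K L T) n) :
    (inflCn K L' M T n).hom ((pairCn e T).cohomologyEquiv n c) = (inflCn K L M T n).hom c := by
  have h := cohomologyIso_comp_inflCn T n e he
  exact congrArg (fun f => f.hom c) h

/-- `inflCn K L M T n` is injective iff `inflCn K L' M T n` is. -/
theorem inflCn_injective_iff (e : L ≃ₐ[K] L')
    (he : ∀ x : L, algebraMap L' M (e x) = algebraMap L M x) :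
    Function.Injective (inflCn K L' M T n).hom ↔ Function.Injective (inflCn K L M T n).hom := by
  have h : ∀ c, (inflCn K L M T n).hom c =
      (inflCn K L' M T n).hom ((pairCn e T).cohomologyEquiv n c) :=
    fun c => (inflCn_cohomologyEquiv T n e he c).symm
  constructor
  · intro hinj a b hab
    rw [h, h] at hab
    exact ((pairCn e T).cohomologyEquiv n).injective (hinj hab)
  · intro hinj a b hab
    obtain ⟨a', rfl⟩ := ((pairCn e T).cohomologyEquiv n).surjective a
    obtain ⟨b', rfl⟩ := ((pairCn e T).cohomologyEquiv n).surjective b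
    rw [← h, ← h] at hab
    rw [hinj hab]

end Cohomology

end Fermat.Agent.S55.Global.IsoTransportTrans
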