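import Mathlib
import Fermat.Agent.S14.HerbrandFg

/-!
# S55 / Global: abstract counting lemmas behind `dim V_S(K) = |S| + r₂ + dim Cl_S[p]`

* `index_range_nsmul`: for a finitely generated abelian group `X` and a prime `p`,
  `[X : pX] = p ^ rank X * #X[p]`.
* `relIndex_comap_eq`: for `f : A →+ B` with `B` `p`-torsion free, `E = ker f`, `C = B / f(A)`,
  `V = f⁻¹(pB)`:  `[V : pA] = [E : pE] * #C[p]`  (the exact sequence
  `0 → E/pE → V/pA → C[p] → 0`).
-/

set_option autoImplicit false

namespace Fermat.Agent.S55.Global.KummerDimAbstract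

open Module Fermat.Agent.S14.HerbrandPrime Fermat.Agent.S14.HerbrandFg

section FG

variable {X : Type*} [AddCommGroup X]

/-- In a free finitely generated abelian group `Y`, `[Y : pY] = p ^ rank Y`. -/
theorem index_range_nsmul_free {Y : Type*} [AddCommGroup Y] [Module.Free ℤ Y] [Module.Finite ℤ Y]
    (p : ℕ) [hp : Fact p.Prime] :
    (nsmulAddMonoidHom (α := Y) p).range.index = p ^ finrank ℤ Y := by
  have hinj : Function.Injective ⇑((p : ℤ) • (1 : Module.End ℤ Y)) := by
    intro x y hxy
    have : (p : ℤ) • x = (p : ℤ) • y := by simpa using hxy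
    exact smul_right_injective _ (by exact_mod_cast hp.out.ne_zero) this
  have h := index_range_eq_natAbs_det ((p : ℤ) • (1 : Module.End ℤ Y)) hinj
  rw [LinearMap.det_smul, map_one, mul_one, Int.natAbs_pow, Int.natAbs_natCast] at h
  rw [← h]
  congr 1
  ext y
  simp only [AddMonoidHom.mem_range, nsmulAddMonoidHom_apply, Submodule.mem_toAddSubgroup,
    LinearMap.mem_range, LinearMap.smul_apply, Module.End.one_apply]
  constructor
  · rintro ⟨x, rfl⟩
    exact ⟨x, by rw [natCast_zsmul]⟩
  · rintro ⟨x, rfl⟩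
    exact ⟨x, by rw [natCast_zsmul]⟩

/-- For a finitely generated abelian group `X` and a prime `p`:
`[X : pX] = p ^ rank X * #X[p]`. -/
theorem index_range_nsmul [Module.Finite ℤ X] (p : ℕ) [hp : Fact p.Prime] :
    (nsmulAddMonoidHom (α := X) p).range.index =
      p ^ finrank ℤ X * Nat.card (nsmulAddMonoidHom (α := X) p).ker := by
  obtain ⟨n, hn0, hn⟩ := exists_nat_kill_torsion (X := X)
  set A : Submodule ℤ X := nX n with hA
  have hAidx : A.toAddSubgroup.index ≠ 0 := nX_index_ne_zero hn0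
  have : Module.IsTorsionFree ℤ A := nX_torsionFree hn
  have : Module.Free ℤ A := Module.free_of_finite_type_torsion_free'
  set g : X →+ X := nsmulAddMonoidHom p with hg
  have hgA : A.toAddSubgroup.map g ≤ A.toAddSubgroup := by
    rintro _ ⟨x, hx, rfl⟩
    exact A.toAddSubgroup.nsmul_mem hx p
  have key := qa_mul_qa_eq (0 : X →+ X) g (fun x => rfl) (fun x => by simp)
    (A := A.toAddSubgroup) (B := ⊤) le_top (by rintro _ ⟨x, hx, rfl⟩; exact A.toAddSubgroup.zero_mem)
    hgA le_top le_top (by rwa [AddSubgroup.relIndex_top_right])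
  -- the four Herbrand numbers
  have q1 : qa (0 : X →+ X) g ⊤ = g.range.index := by
    unfold qa
    rw [AddMonoidHom.ker_zero, inf_top_eq, AddSubgroup.relIndex_top_right, AddMonoidHom.range_eq_map]
  have q4 : qa g (0 : X →+ X) ⊤ = Nat.card g.ker := by
    unfold qa
    have : (⊤ : AddSubgroup X).map (0 : X →+ X) = ⊥ := by
      ext y; simp
    rw [this, top_inf_eq, AddSubgroup.relIndex_bot_left]
  have q2 : qa g (0 : X →+ X) A.toAddSubgroup = 1 := by
    unfold qa
    have h0 : A.toAddSubgroup.map (0 : X →+ X) = ⊥ := by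
      ext y
      simp only [AddSubgroup.mem_map, AddMonoidHom.zero_apply, AddSubgroup.mem_bot]
      constructor
      · rintro ⟨x, -, rfl⟩; rfl
      · rintro rfl; exact ⟨0, A.toAddSubgroup.zero_mem, rfl⟩
    have h1 : A.toAddSubgroup ⊓ g.ker = ⊥ := by
      rw [eq_bot_iff]
      rintro x ⟨hxA, hxg⟩
      have hx0 : (p : ℤ) • (⟨x, hxA⟩ : A) = 0 := by
        apply Subtype.ext
        have : p • x = 0 := hxg
        simpa [natCast_zsmul] using this
      have := (smul_eq_zero.mp hx0).resolve_left (by exact_mod_cast hp.out.ne_zero)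
      exact congrArg Subtype.val this
    rw [h0, h1, AddSubgroup.relIndex_bot_left]
    exact Nat.card_unique
  have q3 : qa (0 : X →+ X) g A.toAddSubgroup = p ^ finrank ℤ X := by
    unfold qa
    rw [AddMonoidHom.ker_zero, inf_top_eq]
    have hrk : finrank ℤ A = finrank ℤ X := by
      have h := finrank_eq_of_relIndex_ne_zero (X := X) A ⊤ le_top
        (by
          have : (⊤ : Submodule ℤ X).toAddSubgroup = ⊤ := rfl
          rw [this, AddSubgroup.relIndex_top_right]; exact hAidx)
      rw [h, finrank_top]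
    rw [← hrk, ← index_range_nsmul_free (Y := A) p, AddSubgroup.relIndex]
    congr 1
    ext ⟨y, hy⟩
    simp only [AddSubgroup.mem_addSubgroupOf, AddSubgroup.mem_map, AddMonoidHom.mem_range,
      nsmulAddMonoidHom_apply, hg, Submodule.mem_toAddSubgroup]
    constructor
    · rintro ⟨x, hx, hxy⟩
      exact ⟨⟨x, hx⟩, Subtype.ext hxy⟩
    · rintro ⟨⟨x, hx⟩, hxy⟩
      exact ⟨x, hx, congrArg Subtype.val hxy⟩
  rw [q1, q2, q3, q4, mul_one] at key
  exact key

end FG

section Exact

variable {A B : Type*} [AddCommGroup A] [AddCommGroup B]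

/-- `pB` for an additive group. -/
abbrev pMul (Y : Type*) [AddCommGroup Y] (p : ℕ) : Y →+ Y := nsmulAddMonoidHom p

/-- The subgroup `V = f⁻¹(pB)`. -/
def Vsub (f : A →+ B) (p : ℕ) : AddSubgroup A := (pMul B p).range.comap f

theorem mem_Vsub (f : A →+ B) (p : ℕ) (a : A) : a ∈ Vsub f p ↔ ∃ b : B, p • b = f a := by
  simp [Vsub, AddMonoidHom.mem_range]

theorem range_pMul_le_Vsub (f : A →+ B) (p : ℕ) : (pMul A p).range ≤ Vsub f p := by
  rintro _ ⟨a, rfl⟩
  exact (mem_Vsub f p _).mpr ⟨f a, by simp⟩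

theorem ker_le_Vsub (f : A →+ B) (p : ℕ) : f.ker ≤ Vsub f p := by
  intro a ha
  exact (mem_Vsub f p _).mpr ⟨0, by rw [smul_zero]; exact ((AddMonoidHom.mem_ker).mp ha).symm⟩

variable (f : A →+ B) (p : ℕ) (hB : ∀ b : B, p • b = 0 → b = 0)

include hB in
theorem pMul_injective : Function.Injective (pMul B p) := by
  rw [injective_iff_map_eq_zero]
  intro b hb
  exact hB b hb

/-- division by `p` on `V`. -/
noncomputable def divP : Vsub f p →+ B :=
  (AddMonoidHom.ofInjective (pMul_injective p hB)).symm.toAddMonoidHom.comp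
    ((f.comp (Vsub f p).subtype).codRestrict (pMul B p).range (fun a => a.2))

theorem divP_spec (a : Vsub f p) : p • divP f p hB a = f a := by
  have h := (AddMonoidHom.ofInjective (pMul_injective p hB)).apply_symm_apply
    (((f.comp (Vsub f p).subtype).codRestrict (pMul B p).range (fun a => a.2)) a)
  have h2 := congrArg Subtype.val h
  rw [AddMonoidHom.ofInjective_apply] at h2
  exact h2

/-- the map `V → C = B / f(A)`. -/
noncomputable def psi : Vsub f p →+ B ⧸ f.range :=
  (QuotientAddGroup.mk' f.range).comp (divP f p hB)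

theorem psi_ker : (psi f p hB).ker = (f.ker ⊔ (pMul A p).range).addSubgroupOf (Vsub f p) := by
  ext ⟨a, ha⟩
  simp only [AddMonoidHom.mem_ker, psi, AddMonoidHom.comp_apply, QuotientAddGroup.mk'_apply,
    QuotientAddGroup.eq_zero_iff, AddSubgroup.mem_addSubgroupOf, AddSubgroup.mem_sup]
  constructor
  · rintro ⟨a', ha'⟩
    refine ⟨a - p • a', ?_, p • a', ⟨a', rfl⟩, by abel⟩
    rw [map_sub, map_nsmul, ha', divP_spec]
    simp
  · rintro ⟨e, he, _, ⟨a', rfl⟩, hsum⟩
    refine ⟨a', ?_⟩
    apply pMul_injective p hB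
    simp only [nsmulAddMonoidHom_apply] at hsum ⊢
    rw [divP_spec]
    have h3 : f a = f (p • a') := by
      have : a = e + p • a' := by rw [← hsum]
      rw [this, map_add, he, zero_add]
    rw [h3, map_nsmul]

theorem psi_range : (psi f p hB).range = (pMul (B ⧸ f.range) p).ker := by
  ext c
  simp only [AddMonoidHom.mem_range, AddMonoidHom.mem_ker, nsmulAddMonoidHom_apply]
  constructor
  · rintro ⟨a, rfl⟩
    simp only [psi, AddMonoidHom.comp_apply, QuotientAddGroup.mk'_apply]
    rw [← QuotientAddGroup.mk_nsmul, divP_spec, QuotientAddGroup.eq_zero_iff]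
    exact ⟨a, rfl⟩
  · intro hc
    obtain ⟨b, rfl⟩ := QuotientAddGroup.mk_surjective c
    rw [← QuotientAddGroup.mk_nsmul, QuotientAddGroup.eq_zero_iff] at hc
    obtain ⟨a, ha⟩ := hc
    have haV : a ∈ Vsub f p := (mem_Vsub f p a).mpr ⟨b, ha.symm⟩
    refine ⟨⟨a, haV⟩, ?_⟩
    simp only [psi, AddMonoidHom.comp_apply, QuotientAddGroup.mk'_apply]
    congr 1
    apply pMul_injective p hB
    simp only [nsmulAddMonoidHom_apply]
    rw [divP_spec]
    exact ha

include hB in
/-- **The counting form of `0 → E/pE → V/pA → C[p] → 0`.**  -/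
theorem relIndex_Vsub :
    (pMul A p).range.relIndex (Vsub f p) =
      (pMul f.ker p).range.index * Nat.card (pMul (B ⧸ f.range) p).ker := by
  have h1 : (pMul A p).range ≤ f.ker ⊔ (pMul A p).range := le_sup_right
  have h2 : f.ker ⊔ (pMul A p).range ≤ Vsub f p :=
    sup_le (ker_le_Vsub f p) (range_pMul_le_Vsub f p)
  rw [← AddSubgroup.relIndex_mul_relIndex _ _ _ h1 h2]
  congr 1
  · -- `[E + pA : pA] = [E : pE]`
    rw [AddSubgroup.relIndex_sup_right, ← AddSubgroup.inf_relIndex_right, AddSubgroup.relIndex]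
    congr 1
    ext ⟨e, he⟩
    simp only [AddSubgroup.mem_addSubgroupOf, AddSubgroup.mem_inf, AddMonoidHom.mem_range,
      nsmulAddMonoidHom_apply]
    constructor
    · rintro ⟨⟨a, rfl⟩, -⟩
      have hfa : f a = 0 := by
        apply hB
        rw [← map_nsmul]; exact he
      exact ⟨⟨a, hfa⟩, Subtype.ext rfl⟩
    · rintro ⟨⟨a, ha⟩, hae⟩
      exact ⟨⟨a, congrArg Subtype.val hae⟩, he⟩
  · -- `[V : E + pA] = #C[p]`
    rw [AddSubgroup.relIndex, ← psi_ker f p hB, AddSubgroup.index_ker, psi_range]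

end Exact

end Fermat.Agent.S55.Global.KummerDimAbstract
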