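import Mathlib
import Fermat.Agent.S14.SUnitTheorem
import Fermat.Agent.S55.Global.KummerDimAbstract

/-!
# S55 / Global: the size of the Kummer group `V_T(K) / Kˣᵖ`

`K` a number field, `p` a prime, `T` a finite set of primes of `K`.
`V_T := {a ∈ Kˣ : p ∣ ord_v a for all v ∉ T}` (so `V_T / Kˣᵖ = H¹(G_{K,T}, μ_p)` by Kummer theory when
`μ_p ⊂ K` and `T ⊇ {v ∣ p}`).  With `ClT K T` the `T`-class group in divisor form
(divisors supported outside `T` modulo divisors of elements of `Kˣ`), we prove
`[V_T : Kˣᵖ] = p ^ (rank 𝓞_Kˣ + #T + 1) * #ClT[p]` when `K` contains a primitive `p`-th root of unity.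
-/

set_option autoImplicit false

open IsDedekindDomain NumberField Module nonZeroDivisors

namespace Fermat.Agent.S55.Global.KummerDim

open Fermat.Agent.S55.Global.KummerDimAbstract

section Dedekind

variable {R : Type*} [CommRing R] [IsDedekindDomain R] (K : Type*) [Field K] [Algebra R K]
  [IsFractionRing R K] (T : Set (HeightOneSpectrum R))

/-- The additive valuation `ord_v : Kˣ → ℤ` (with Mathlib's sign convention for
`valuationOfNeZero`, i.e. `ordv v x = - ord_v x`; only divisibility and vanishing matter). -/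
noncomputable def ordv (v : HeightOneSpectrum R) : Additive Kˣ →+ ℤ :=
  (AddEquiv.additiveMultiplicative ℤ).toAddMonoidHom.comp
    (MonoidHom.toAdditive (v.valuationOfNeZero (K := K)))

theorem ordv_apply (v : HeightOneSpectrum R) (x : Additive Kˣ) :
    ordv K v x = Multiplicative.toAdd (v.valuationOfNeZero (Additive.toMul x)) := rfl

theorem ordv_eq_zero_iff (v : HeightOneSpectrum R) (x : Additive Kˣ) :
    ordv K v x = 0 ↔ v.valuation K ((Additive.toMul x : Kˣ) : K) = 1 := by
  rw [ordv_apply, ← HeightOneSpectrum.valuationOfNeZero_eq]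
  constructor
  · intro h
    have : v.valuationOfNeZero (Additive.toMul x) = 1 := by
      apply Multiplicative.toAdd.injective
      rw [h]; rfl
    rw [this]; rfl
  · intro h
    have : v.valuationOfNeZero (Additive.toMul x) = 1 := by
      exact_mod_cast h
    rw [this]; rfl

theorem finite_ordv_ne_zero (x : Additive Kˣ) : {v : HeightOneSpectrum R | ordv K v x ≠ 0}.Finite := by
  have h1 := HeightOneSpectrum.Support.finite R ((Additive.toMul x : Kˣ) : K)
  have h2 := HeightOneSpectrum.Support.finite R (((Additive.toMul x : Kˣ)⁻¹ : Kˣ) : K)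
  refine (h1.union h2).subset ?_
  intro v hv
  simp only [Set.mem_ofPred_eq, ne_eq, ordv_eq_zero_iff] at hv
  simp only [Set.mem_union, HeightOneSpectrum.Support, Set.mem_ofPred_eq]
  rcases lt_or_gt_of_ne hv with h | h
  · right
    rw [Units.val_inv_eq_inv_val, map_inv₀]
    exact (one_lt_inv₀ (by
      rw [Valuation.pos_iff]; exact (Additive.toMul x : Kˣ).ne_zero)).mpr h
  · left; exact h

/-- The divisor of `x ∈ Kˣ` outside `T`. -/
noncomputable def divT : Additive Kˣ →+ ({v : HeightOneSpectrum R // v ∉ T} →₀ ℤ) where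
  toFun x := Finsupp.ofSupportFinite (fun v => ordv K v.1 x)
    ((finite_ordv_ne_zero K x).preimage Subtype.val_injective.injOn)
  map_zero' := by ext v; simp [Finsupp.ofSupportFinite_coe]
  map_add' x y := by
    ext v
    rw [Finsupp.add_apply]
    exact map_add (ordv K v.1) x y

@[simp] theorem divT_apply (x : Additive Kˣ) (v : {v : HeightOneSpectrum R // v ∉ T}) :
    divT K T x v = ordv K v.1 x := rfl

/-- The `T`-class group in divisor form. -/
abbrev ClT : Type _ := ({v : HeightOneSpectrum R // v ∉ T} →₀ ℤ) ⧸ (divT K T).range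

/-- `V_T = {a : p ∣ ord_v a ∀ v ∉ T}` as an additive subgroup of `Additive Kˣ`. -/
noncomputable def VT (p : ℕ) : AddSubgroup (Additive Kˣ) := Vsub (divT K T) p

theorem mem_VT_iff (p : ℕ) (x : Additive Kˣ) :
    x ∈ VT K T p ↔ ∀ v : HeightOneSpectrum R, v ∉ T → (p : ℤ) ∣ ordv K v x := by
  rw [VT, mem_Vsub]
  constructor
  · rintro ⟨b, hb⟩ v hv
    have := DFunLike.congr_fun hb ⟨v, hv⟩
    rw [divT_apply, Finsupp.smul_apply] at this
    exact ⟨b ⟨v, hv⟩, by rw [← this, nsmul_eq_mul]⟩
  · intro h
    refine ⟨Finsupp.ofSupportFinite (fun v => ordv K v.1 x / (p : ℤ)) ?_, ?_⟩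
    · refine ((finite_ordv_ne_zero K x).preimage Subtype.val_injective.injOn).subset ?_
      intro v hv
      simp only [Function.mem_support, ne_eq, Set.mem_preimage, Set.mem_ofPred_eq] at hv ⊢
      intro h0
      apply hv
      rw [h0, Int.zero_ediv]
    · ext v
      rw [Finsupp.smul_apply, Finsupp.ofSupportFinite_coe, divT_apply, nsmul_eq_mul]
      exact Int.mul_ediv_cancel' (h v.1 v.2)

omit [IsDedekindDomain R] in
theorem divT_torsionFree (p : ℕ) (hp : p ≠ 0) (b : {v : HeightOneSpectrum R // v ∉ T} →₀ ℤ)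
    (hb : p • b = 0) : b = 0 := by
  ext v
  have := DFunLike.congr_fun hb v
  rw [Finsupp.smul_apply, nsmul_eq_mul, Finsupp.zero_apply] at this
  rcases mul_eq_zero.mp this with h | h
  · exact absurd (by exact_mod_cast h) hp
  · exact h

/-- **Counting form of `0 → O_T^×/p → V_T/Kˣᵖ → Cl_T[p] → 0`.** -/
theorem relIndex_VT (p : ℕ) (hp : p ≠ 0) :
    (pMul (Additive Kˣ) p).range.relIndex (VT K T p) =
      (pMul (divT K T).ker p).range.index * Nat.card (pMul (ClT K T) p).ker :=
  relIndex_Vsub (divT K T) p (divT_torsionFree T p hp)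

/-- The kernel of `divT` is the group of `T`-units. -/
noncomputable def kerEquiv : (divT K T).ker ≃+ Additive (T.unit K) where
  toFun x := Additive.ofMul ⟨Additive.toMul x.1, fun v hv => by
    have h := DFunLike.congr_fun (AddMonoidHom.mem_ker.mp x.2) ⟨v, hv⟩
    rw [divT_apply, Finsupp.zero_apply, ordv_eq_zero_iff] at h
    exact h⟩
  invFun y := ⟨Additive.ofMul ((Additive.toMul y : T.unit K) : Kˣ), by
    rw [AddMonoidHom.mem_ker]
    ext v
    rw [divT_apply, Finsupp.zero_apply, ordv_eq_zero_iff]
    exact (Additive.toMul y).2 v.1 v.2⟩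
  left_inv x := rfl
  right_inv y := rfl
  map_add' x y := rfl

/-! ### Link with the ideal class group: `Cl(R) ↠ Cl_T` -/

/-- `count_v (x) = - ordv v x`. -/
theorem count_spanSingleton (v : HeightOneSpectrum R) (x : Kˣ) :
    FractionalIdeal.count K v (FractionalIdeal.spanSingleton R⁰ (x : K)) =
      - ordv K v (Additive.ofMul x) := by
  classical
  obtain ⟨a, b, hb, hab⟩ := IsFractionRing.div_surjective (A := R) (x : K)
  have hb0 : b ≠ 0 := nonZeroDivisors.ne_zero hb
  have hbM : algebraMap R K b ≠ 0 := by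
    rwa [Ne, FaithfulSMul.algebraMap_eq_zero_iff]
  have ha0 : a ≠ 0 := by
    rintro rfl
    rw [map_zero, zero_div] at hab
    exact x.ne_zero hab.symm
  have hmul : (x : K) * algebraMap R K b = algebraMap R K a := by
    rw [← hab, div_mul_cancel₀ _ hbM]
  have hval : v.valuation K (x : K) * v.valuation K (algebraMap R K b) =
      v.valuation K (algebraMap R K a) := by
    rw [← map_mul, hmul]
  have hx0 : v.valuation K (x : K) ≠ 0 := (Valuation.ne_zero_iff _).mpr x.ne_zero
  have hvb0 : v.valuation K (algebraMap R K b) ≠ 0 := (Valuation.ne_zero_iff _).mpr hbM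
  have hlog := congrArg WithZero.log hval
  rw [WithZero.log_mul hx0 hvb0, HeightOneSpectrum.valuation_of_algebraMap,
    HeightOneSpectrum.valuation_of_algebraMap, v.intValuation_if_neg ha0,
    v.intValuation_if_neg hb0, WithZero.log_exp, WithZero.log_exp] at hlog
  have hI : FractionalIdeal.spanSingleton R⁰ (x : K) ≠ 0 := by
    rw [Ne, FractionalIdeal.spanSingleton_eq_zero_iff]
    exact x.ne_zero
  have hrepr : FractionalIdeal.spanSingleton R⁰ (x : K) =
      FractionalIdeal.spanSingleton R⁰ ((algebraMap R K) b)⁻¹ *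
        ((Ideal.span {a} : Ideal R) : FractionalIdeal R⁰ K) := by
    rw [FractionalIdeal.coeIdeal_span_singleton, FractionalIdeal.spanSingleton_mul_spanSingleton,
      ← hab, div_eq_inv_mul]
  have hord : (ordv K v (Additive.ofMul x) : ℤ) = WithZero.log (v.valuation K (x : K)) := by
    rw [ordv_apply, ← HeightOneSpectrum.valuationOfNeZero_eq]
    rfl
  rw [FractionalIdeal.count_well_defined K v hI hrepr, hord]
  linarith

theorem finite_count_ne_zero (J : FractionalIdeal R⁰ K) :
    {v : HeightOneSpectrum R | FractionalIdeal.count K v J ≠ 0}.Finite := by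
  have := FractionalIdeal.finite_factors (K := K) J
  rwa [Filter.eventually_cofinite] at this

/-- The divisor outside `T` of an invertible fractional ideal. -/
noncomputable def divFrac :
    (FractionalIdeal R⁰ K)ˣ →* Multiplicative ({v : HeightOneSpectrum R // v ∉ T} →₀ ℤ) where
  toFun J := Multiplicative.ofAdd (Finsupp.ofSupportFinite
    (fun v => FractionalIdeal.count K v.1 (J : FractionalIdeal R⁰ K))
    ((finite_count_ne_zero K (J : FractionalIdeal R⁰ K)).preimage Subtype.val_injective.injOn))
  map_one' := by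
    apply Multiplicative.toAdd.injective
    ext v
    simp [Finsupp.ofSupportFinite_coe, FractionalIdeal.count_one]
  map_mul' I J := by
    apply Multiplicative.toAdd.injective
    ext v
    simp only [Units.val_mul, toAdd_ofAdd, toAdd_mul, Finsupp.coe_add, Pi.add_apply,
      Finsupp.ofSupportFinite_coe]
    exact FractionalIdeal.count_mul K v.1 I.ne_zero J.ne_zero

theorem divFrac_apply (J : (FractionalIdeal R⁰ K)ˣ) (v : {v : HeightOneSpectrum R // v ∉ T}) :
    Multiplicative.toAdd (divFrac K T J) v = FractionalIdeal.count K v.1 (J : FractionalIdeal R⁰ K) :=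
  rfl

theorem divFrac_toPrincipalIdeal (x : Kˣ) :
    Multiplicative.toAdd (divFrac K T (toPrincipalIdeal R K x)) = - divT K T (Additive.ofMul x) := by
  ext v
  rw [divFrac_apply, coe_toPrincipalIdeal, count_spanSingleton, Finsupp.neg_apply, divT_apply]

theorem divFrac_surjective : Function.Surjective (divFrac K T) := by
  classical
  intro b
  -- extend the divisor by zero to all primes
  let b' : HeightOneSpectrum R →₀ ℤ :=
    (Multiplicative.toAdd b).mapDomain Subtype.val
  have hb' : ∀ v : {v : HeightOneSpectrum R // v ∉ T}, b' v.1 = Multiplicative.toAdd b v := fun v =>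
    Finsupp.mapDomain_apply Subtype.val_injective _ _
  set I : FractionalIdeal R⁰ K := b'.prod (HeightOneSpectrum.asIdeal · ^ ·) with hI
  have hI0 : I ≠ 0 := by
    rw [hI, Finsupp.prod, Finset.prod_ne_zero_iff]
    intro w _
    exact zpow_ne_zero _ (FractionalIdeal.coeIdeal_ne_zero.mpr w.ne_bot)
  refine ⟨Units.mk0 I hI0, ?_⟩
  apply Multiplicative.toAdd.injective
  ext v
  rw [divFrac_apply, Units.val_mk0, hI, FractionalIdeal.count_finsuppProd, hb']

/-- The surjection `Cl(R) ↠ Cl_T` (written multiplicatively). -/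
noncomputable def classGroupToClT : ClassGroup R →* Multiplicative (ClT K T) :=
  (QuotientGroup.lift (toPrincipalIdeal R K).range
    ((AddMonoidHom.toMultiplicative (QuotientAddGroup.mk' (divT K T).range)).comp (divFrac K T))
    (by
      rintro _ ⟨x, rfl⟩
      rw [MonoidHom.mem_ker, MonoidHom.comp_apply]
      apply Multiplicative.toAdd.injective
      change QuotientAddGroup.mk' (divT K T).range
        (Multiplicative.toAdd (divFrac K T (toPrincipalIdeal R K x))) = 0
      rw [divFrac_toPrincipalIdeal, QuotientAddGroup.mk'_apply, QuotientAddGroup.eq_zero_iff]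
      exact (divT K T).range.neg_mem ⟨_, rfl⟩)).comp (ClassGroup.equiv K).toMonoidHom

theorem classGroupToClT_surjective : Function.Surjective (classGroupToClT K T) := by
  intro c
  obtain ⟨b, rfl⟩ := QuotientAddGroup.mk_surjective (Multiplicative.toAdd c)
  obtain ⟨J, hJ⟩ := divFrac_surjective K T (Multiplicative.ofAdd b)
  refine ⟨(ClassGroup.equiv K).symm (QuotientGroup.mk J), ?_⟩
  simp only [classGroupToClT, MonoidHom.comp_apply, MulEquiv.coe_toMonoidHom,
    MulEquiv.apply_symm_apply, QuotientGroup.lift_mk, hJ]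
  rfl

theorem finite_ClT [Finite (ClassGroup R)] : Finite (ClT K T) :=
  Finite.of_surjective (fun c => Multiplicative.toAdd (classGroupToClT K T c))
    (fun c => by
      obtain ⟨x, hx⟩ := classGroupToClT_surjective K T (Multiplicative.ofAdd c)
      exact ⟨x, by show Multiplicative.toAdd ((classGroupToClT K T) x) = c; rw [hx]; rfl⟩)

end Dedekind

section NumberFieldCase

variable (K : Type*) [Field K] [NumberField K] (T : Finset (HeightOneSpectrum (𝓞 K)))
  (p : ℕ) [hp : Fact p.Prime]

/-- the `p`-torsion of the `T`-units is `μ_p(K)`. -/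
noncomputable def torsionEquiv :
    (pMul (divT K (T : Set (HeightOneSpectrum (𝓞 K)))).ker p).ker ≃ rootsOfUnity p K where
  toFun x := ⟨Additive.toMul x.1.1, by
    rw [mem_rootsOfUnity]
    have h := AddMonoidHom.mem_ker.mp x.2
    have h2 : p • (x.1.1 : Additive Kˣ) = 0 := congrArg Subtype.val h
    exact congrArg Additive.toMul h2⟩
  invFun u := ⟨⟨Additive.ofMul u.1, by
    rw [AddMonoidHom.mem_ker]
    ext v
    rw [divT_apply, Finsupp.zero_apply]
    have hu : (u.1 : Kˣ) ^ p = 1 := (mem_rootsOfUnity _ _).mp u.2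
    have h1 : p • ordv K v.1 (Additive.ofMul u.1) = 0 := by
      rw [← map_nsmul, ← ofMul_pow, hu]; simp
    rw [nsmul_eq_mul] at h1
    rcases mul_eq_zero.mp h1 with h | h
    · exact absurd (by exact_mod_cast h) hp.out.ne_zero
    · exact h⟩, by
    rw [AddMonoidHom.mem_ker]
    apply Subtype.ext
    have hu : (u.1 : Kˣ) ^ p = 1 := (mem_rootsOfUnity _ _).mp u.2
    simp only [nsmulAddMonoidHom_apply, AddSubgroup.coe_nsmul, ← ofMul_pow, hu]
    rfl⟩
  left_inv x := rfl
  right_inv u := rfl

theorem finite_ker_divT :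
    Module.Finite ℤ (divT K (T : Set (HeightOneSpectrum (𝓞 K)))).ker := by
  have := Fermat.Agent.S14.SUnitTheorem.finite_sUnit_numberField K T
  exact Module.Finite.equiv (kerEquiv K (T : Set (HeightOneSpectrum (𝓞 K)))).symm.toIntLinearEquiv

theorem finrank_ker_divT :
    finrank ℤ (divT K (T : Set (HeightOneSpectrum (𝓞 K)))).ker = NumberField.Units.rank K + T.card := by
  rw [← Fermat.Agent.S14.SUnitTheorem.finrank_sUnit_numberField K T]
  exact (kerEquiv K (T : Set (HeightOneSpectrum (𝓞 K)))).toIntLinearEquiv.finrank_eq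

/-- `[O_T^× : (O_T^×)^p] = p ^ (rank + #T + 1)` when `μ_p ⊂ K`. -/
theorem index_pMul_ker {ζ : K} (hζ : IsPrimitiveRoot ζ p) :
    (pMul (divT K (T : Set (HeightOneSpectrum (𝓞 K)))).ker p).range.index =
      p ^ (NumberField.Units.rank K + T.card + 1) := by
  have := finite_ker_divT K T
  have hne : NeZero p := ⟨hp.out.ne_zero⟩
  rw [pMul, index_range_nsmul (X := (divT K (T : Set (HeightOneSpectrum (𝓞 K)))).ker) p,
    finrank_ker_divT, Nat.card_congr (torsionEquiv K T p), hζ.card_rootsOfUnity, pow_succ]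

/-- **The size of the Kummer group**: `[V_T : Kˣᵖ] = p ^ (rank 𝓞_Kˣ + #T + 1) * #Cl_T[p]`. -/
theorem relIndex_VT_numberField {ζ : K} (hζ : IsPrimitiveRoot ζ p) :
    (pMul (Additive Kˣ) p).range.relIndex (VT K (T : Set (HeightOneSpectrum (𝓞 K))) p) =
      p ^ (NumberField.Units.rank K + T.card + 1) *
        Nat.card (pMul (ClT K (T : Set (HeightOneSpectrum (𝓞 K)))) p).ker := by
  rw [relIndex_VT K _ p hp.out.ne_zero, index_pMul_ker K T p hζ]

instance finite_ClT_numberField : Finite (ClT K (T : Set (HeightOneSpectrum (𝓞 K)))) :=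
  finite_ClT K _

/-- For the finite group `Cl_T`: `#Cl_T[p] = [Cl_T : p Cl_T]`. -/
theorem card_ker_pMul_ClT :
    Nat.card (pMul (ClT K (T : Set (HeightOneSpectrum (𝓞 K)))) p).ker =
      (pMul (ClT K (T : Set (HeightOneSpectrum (𝓞 K)))) p).range.index := by
  have : Module.Finite ℤ (ClT K (T : Set (HeightOneSpectrum (𝓞 K)))) := Module.Finite.of_finite
  rw [pMul, index_range_nsmul (X := ClT K (T : Set (HeightOneSpectrum (𝓞 K)))) p,
    Fermat.Agent.S14.HerbrandFg.finrank_eq_zero_of_finite', pow_zero, one_mul]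

omit hp in
/-- If `K` contains a primitive `p`-th root of unity with `p` odd, then `K` is totally complex and
`rank 𝓞_Kˣ + 1 = r₂`. -/
theorem rank_add_one_eq_nrComplexPlaces {ζ : K} (hζ : IsPrimitiveRoot ζ p) (hp2 : 2 < p) :
    NumberField.Units.rank K + 1 = NumberField.InfinitePlace.nrComplexPlaces K := by
  have h0 := NumberField.InfinitePlace.IsPrimitiveRoot.nrRealPlaces_eq_zero_of_two_lt hp2 hζ
  have hcard := NumberField.InfinitePlace.card_eq_nrRealPlaces_add_nrComplexPlaces K
  rw [h0, zero_add] at hcard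
  have hpos : 0 < Fintype.card (NumberField.InfinitePlace K) := Fintype.card_pos
  rw [NumberField.Units.rank, ← hcard]
  omega

/-- **The size of the Kummer group, totally complex form**:
`[V_T : Kˣᵖ] = p ^ (r₂ + #T) * #Cl_T[p]` for `p` odd, `μ_p ⊂ K`. -/
theorem relIndex_VT_numberField' {ζ : K} (hζ : IsPrimitiveRoot ζ p) (hp2 : 2 < p) :
    (pMul (Additive Kˣ) p).range.relIndex (VT K (T : Set (HeightOneSpectrum (𝓞 K))) p) =
      p ^ (NumberField.InfinitePlace.nrComplexPlaces K + T.card) *
        Nat.card (pMul (ClT K (T : Set (HeightOneSpectrum (𝓞 K)))) p).ker := by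
  rw [relIndex_VT_numberField K T p hζ, ← rank_add_one_eq_nrComplexPlaces K p hζ hp2]
  congr 2
  omega

end NumberFieldCase

end Fermat.Agent.S55.Global.KummerDim
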