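import Mathlib
import Fermat.Agent.S55.Global.TensorLattice

/-!
# S55 / Global, leaf `G.cycloArtin.modelQ.dict`: dictionary "lattice ⟶ equation"

On top of `Global/TensorLattice` (`Lam K T n` = elements of `K ⊗[ℚ] ℚ_T` whose integral-basis
coordinates have norm `≤ q^(-n)` at every `q ∈ T`; `ϖ = varpi T = ∏_{q ∈ T} q`):

* (D1) `exists_int_of_tmul_mem_Lam`: `x ⊗ 1 ∈ Lam K T N ⇒ d * x = ϖ^N * r`, `r : 𝓞 K`, `d` prime to `T`;
* (D2) `exists_int_of_algebraMap_tmul_mem_Lam`: the same for `u ∈ K ⊆ L` tested in `Lam L T N`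
  (`r ∈ 𝓞 K` because `K ∩ 𝓞 L = 𝓞 K`);
* (D3) `tmul_mem_Lam_of_eq`: the converse of (D1);
* (D4) `smul_mem_Lam`: `Lam L T n` is stable under `Aut(L/ℚ)` acting on the left factor.

The equation form is the input shape of `CycloArtinAbs.isOneModAt_of_eq` /
`CycloArtinAbs.valuation_eq_one_of_eq` (hypothesis (M2) of the cyclotomic Artin map).
-/

set_option autoImplicit false

open NumberField TensorProduct

namespace Fermat.Agent.S55.Global.LamDict

open Fermat.Agent.S55.Global.Objects Fermat.Agent.S55.Global.Objects2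
  Fermat.Agent.S55.Global.TensorLattice

/-- A rational number of `p`-adic norm `≤ 1` has denominator prime to `p`. -/
theorem not_dvd_den_of_norm_le_one (p : ℕ) [hp : Fact p.Prime] (r : ℚ) (h : ‖(r : ℚ_[p])‖ ≤ 1) :
    ¬ p ∣ r.den := by
  intro hd
  have hden : ‖((r.den : ℕ) : ℚ_[p])‖ < 1 := Padic.norm_natCast_lt_one_iff.mpr hd
  have hnum : ‖((r.num : ℤ) : ℚ_[p])‖ = 1 := by
    rw [Padic.norm_intCast_eq_one_iff]
    have hcop : Nat.Coprime r.num.natAbs r.den := r.reduced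
    have h1 : ¬ p ∣ r.num.natAbs := by
      intro h2
      have := Nat.dvd_gcd h2 hd
      rw [hcop] at this
      exact hp.out.one_lt.ne' (Nat.dvd_one.mp this)
    rw [Int.isCoprime_iff_gcd_eq_one, Int.gcd, Int.natAbs_natCast]
    exact (Nat.Coprime.symm ((Nat.Prime.coprime_iff_not_dvd hp.out).mpr h1))
  have hr : (r : ℚ_[p]) * ((r.den : ℕ) : ℚ_[p]) = ((r.num : ℤ) : ℚ_[p]) := by
    have := Rat.mul_den_eq_num r
    have h2 : ((r * (r.den : ℚ) : ℚ) : ℚ_[p]) = ((r.num : ℚ) : ℚ_[p]) := by rw [this]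
    push_cast at h2
    exact h2
  have := congrArg norm hr
  rw [norm_mul, hnum] at this
  have hpos : 0 ≤ ‖((r.den : ℕ) : ℚ_[p])‖ := norm_nonneg _
  nlinarith [norm_nonneg (r : ℚ_[p])]

section D1

variable {K : Type} [Field K] [NumberField K] {T : Finset Nat.Primes}

/-- the `q`-component of `c • 1 : QT T` is the cast of `c`. -/
theorem smul_one_apply (c : ℚ) (q : T) :
    (c • (1 : QT T)) q = ((c : ℚ) : ℚ_[((q : Nat.Primes) : ℕ)]) := by
  rw [Pi.smul_apply, Pi.one_apply, Rat.smul_one_eq_cast]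

/-- coordinates of `x ⊗ 1`. -/
theorem crd_tmul_one (x : K) (i : ι K) :
    crd K T (x ⊗ₜ[ℚ] (1 : QT T)) i = ((integralBasis K).repr x i : ℚ) • (1 : QT T) :=
  crd_tmul x 1 i

/-- **Dictionary (D1)**: if `x ⊗ 1 ∈ ϖ^N Λ` then `d x = ϖ^N r` with `r` integral and `d` prime to
`T`. -/
theorem exists_int_of_tmul_mem_Lam (x : K) (N : ℕ)
    (h : x ⊗ₜ[ℚ] (1 : QT T) ∈ Lam K T N) :
    ∃ (r : 𝓞 K) (d : ℕ), (∀ q ∈ T, ¬ ((q : Nat.Primes) : ℕ) ∣ d) ∧ d ≠ 0 ∧
      (d : K) * x = ((varpi T ^ N : ℕ) : K) * (r : K) := by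
  classical
  set c : ι K → ℚ := fun i => (integralBasis K).repr x i with hc
  set c' : ι K → ℚ := fun i => c i / ((varpi T : ℚ) ^ N) with hc'
  have hϖ : ((varpi T : ℚ) ^ N) ≠ 0 := pow_ne_zero _ (by exact_mod_cast varpi_ne_zero T)
  -- the `c' i` are `q`-integral for all `q ∈ T`
  have hint : ∀ (i : ι K) (q : T), ‖((c' i : ℚ) : ℚ_[((q : Nat.Primes) : ℕ)])‖ ≤ 1 := by
    intro i q
    have h1 := h i q
    rw [crd_tmul_one, smul_one_apply] at h1
    have hq0 : (0 : ℝ) < (((q : Nat.Primes) : ℕ) : ℝ) := by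
      exact_mod_cast (q : Nat.Primes).2.pos
    rw [hc']
    push_cast
    rw [norm_div, norm_pow, norm_varpi T q, div_le_one (pow_pos (inv_pos.mpr hq0) N)]
    refine h1.trans (le_of_eq ?_)
    rw [zpow_neg, zpow_natCast, inv_pow]
  have hden : ∀ (i : ι K) (q : Nat.Primes), q ∈ T → ¬ ((q : Nat.Primes) : ℕ) ∣ (c' i).den :=
    fun i q hq => not_dvd_den_of_norm_le_one _ _ (hint i ⟨q, hq⟩)
  set d : ℕ := ∏ i : ι K, (c' i).den with hd
  have hd0 : d ≠ 0 := Finset.prod_ne_zero_iff.mpr (fun i _ => (c' i).den_nz)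
  have hdT : ∀ q ∈ T, ¬ ((q : Nat.Primes) : ℕ) ∣ d := by
    intro q hq hdvd
    rw [hd, (Nat.prime_iff.mp (q : Nat.Primes).2).dvd_finsetProd_iff] at hdvd
    obtain ⟨i, -, hi⟩ := hdvd
    exact hden i q hq hi
  -- integers `z i` with `d * c' i = z i`
  have hz : ∀ i : ι K, ∃ z : ℤ, (d : ℚ) * c' i = (z : ℚ) := by
    intro i
    obtain ⟨e, he⟩ : (c' i).den ∣ d := Finset.dvd_prod_of_mem _ (Finset.mem_univ i)
    refine ⟨(e : ℤ) * (c' i).num, ?_⟩
    have h2 := Rat.mul_den_eq_num (c' i)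
    rw [he]
    push_cast
    rw [← h2]
    ring
  choose z hz using hz
  refine ⟨∑ i : ι K, z i • RingOfIntegers.basis K i, d, hdT, hd0, ?_⟩
  -- the equation
  have hx : x = ∑ i : ι K, c i • integralBasis K i := ((integralBasis K).sum_repr x).symm
  have hr : ((∑ i : ι K, z i • RingOfIntegers.basis K i : 𝓞 K) : K) =
      ∑ i : ι K, ((z i : ℚ)) • integralBasis K i := by
    rw [show ((∑ i : ι K, z i • RingOfIntegers.basis K i : 𝓞 K) : K) =
      algebraMap (𝓞 K) K (∑ i : ι K, z i • RingOfIntegers.basis K i) from rfl, map_sum]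
    refine Finset.sum_congr rfl (fun i _ => ?_)
    rw [map_zsmul, integralBasis_apply, Int.cast_smul_eq_zsmul]
  rw [hr]
  conv_lhs => rw [hx]
  rw [Finset.mul_sum, Finset.mul_sum]
  refine Finset.sum_congr rfl (fun i _ => ?_)
  have h3 : (z i : ℚ) = (d : ℚ) * c i / ((varpi T : ℚ) ^ N) := by
    rw [← hz i, hc']
    ring
  rw [h3, Algebra.smul_def, Algebra.smul_def]
  push_cast
  rw [eq_ratCast]
  have hϖK : ((varpi T : K) ^ N) ≠ 0 := pow_ne_zero _ (by exact_mod_cast varpi_ne_zero T)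
  field_simp
  exact mul_comm _ _

end D1

section D2

variable {K : Type} [Field K] [NumberField K] {L : Type} [Field L] [NumberField L] [Algebra K L]
variable {T : Finset Nat.Primes}

/-- **Dictionary (D2), relative form**: for `u ∈ K ⊆ L`, if `u ⊗ 1 ∈ ϖ^N Λ_L` then `d u = ϖ^N r`
with `r ∈ 𝓞 K` and `d` prime to `T`. -/
theorem exists_int_of_algebraMap_tmul_mem_Lam (u : K) (N : ℕ)
    (h : (algebraMap K L u) ⊗ₜ[ℚ] (1 : QT T) ∈ Lam L T N) :
    ∃ (r : 𝓞 K) (d : ℕ), (∀ q ∈ T, ¬ ((q : Nat.Primes) : ℕ) ∣ d) ∧ d ≠ 0 ∧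
      (d : K) * u = ((varpi T ^ N : ℕ) : K) * (r : K) := by
  obtain ⟨rL, d, hdT, hd0, heq⟩ := exists_int_of_tmul_mem_Lam (algebraMap K L u) N h
  have hϖK : ((varpi T ^ N : ℕ) : K) ≠ 0 := by
    exact_mod_cast pow_ne_zero N (varpi_ne_zero T)
  have hϖL : ((varpi T ^ N : ℕ) : L) ≠ 0 := by
    exact_mod_cast pow_ne_zero N (varpi_ne_zero T)
  set y : K := (d : K) * u / ((varpi T ^ N : ℕ) : K) with hy
  have hyL : algebraMap K L y = (rL : L) := by
    rw [hy, map_div₀, map_mul, map_natCast, map_natCast, heq, mul_div_cancel_left₀ _ hϖL]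
  have hint : IsIntegral ℤ y := by
    have h1 : IsIntegral ℤ (algebraMap K L y) := by
      rw [hyL]
      exact RingOfIntegers.isIntegral_coe rL
    exact (isIntegral_algebraMap_iff (algebraMap K L).injective).mp h1
  refine ⟨IsIntegralClosure.mk' (𝓞 K) y hint, d, hdT, hd0, ?_⟩
  have : ((IsIntegralClosure.mk' (𝓞 K) y hint : 𝓞 K) : K) = y :=
    IsIntegralClosure.algebraMap_mk' (𝓞 K) y hint
  rw [this, hy, mul_div_cancel₀ _ hϖK]

end D2

section D3

variable {K : Type} [Field K] [NumberField K] {T : Finset Nat.Primes}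

/-- **Converse (D3)**: `(ϖ^N r / d) ⊗ 1 ∈ ϖ^N Λ` for `r` integral and `d` prime to `T`. -/
theorem tmul_mem_Lam_of_eq (x : K) (N : ℕ) (r : 𝓞 K) (d : ℕ)
    (hdT : ∀ q ∈ T, ¬ ((q : Nat.Primes) : ℕ) ∣ d)
    (heq : (d : K) * x = ((varpi T ^ N : ℕ) : K) * (r : K)) :
    x ⊗ₜ[ℚ] (1 : QT T) ∈ Lam K T N := by
  by_cases hT : T = ∅
  · subst hT
    intro i q
    exact (Finset.notMem_empty _ q.2).elim
  have hd0 : d ≠ 0 := by
    rintro rfl
    obtain ⟨q, hq⟩ := Finset.nonempty_iff_ne_empty.mpr hT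
    exact hdT q hq (dvd_zero _)
  have hdK : (d : K) ≠ 0 := by exact_mod_cast hd0
  set c : ℚ := ((varpi T ^ N : ℕ) : ℚ) / (d : ℚ) with hc
  have hx : x = c • (r : K) := by
    rw [Algebra.smul_def, eq_ratCast, hc]
    push_cast
    field_simp
    rw [mul_comm]
    push_cast at heq
    linear_combination heq
  rw [hx, TensorProduct.smul_tmul]
  refine tmul_mem_Lam r ?_
  rw [mem_zn]
  intro q
  rw [smul_one_apply, hc]
  push_cast
  have hq0 : (0 : ℝ) < (((q : Nat.Primes) : ℕ) : ℝ) := by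
    exact_mod_cast (q : Nat.Primes).2.pos
  have hdn : ‖((d : ℕ) : ℚ_[((q : Nat.Primes) : ℕ)])‖ = 1 := by
    rw [Padic.norm_natCast_eq_one_iff]
    exact (Nat.Prime.coprime_iff_not_dvd (q : Nat.Primes).2).mpr (hdT q q.2)
  rw [norm_div, hdn, div_one, norm_pow, norm_varpi T q, zpow_neg, zpow_natCast, inv_pow]

end D3

section D4

variable {L : Type} [Field L] [NumberField L] {T : Finset Nat.Primes}

/-- **Galois stability (D4)**: the lattices `Lam L T n` are stable under every automorphism of `L`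
acting on the left tensor factor. -/
theorem smul_mem_Lam (σ : L ≃ₐ[ℚ] L) {n : ℕ} {z : L ⊗[ℚ] QT T} (hz : z ∈ Lam L T n) :
    σ • z ∈ Lam L T n := by
  rw [eq_sum_tmul z, Finset.smul_sum]
  refine (Lam L T n).sum_mem (fun i _ => ?_)
  rw [Objects.smul_tmul']
  have hint : IsIntegral ℤ (σ (integralBasis L i)) := by
    rw [integralBasis_apply]
    exact (RingOfIntegers.isIntegral_coe _).map σ
  have e : σ (integralBasis L i) = ((IsIntegralClosure.mk' (𝓞 L) _ hint : 𝓞 L) : L) :=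
    (IsIntegralClosure.algebraMap_mk' (𝓞 L) _ hint).symm
  rw [e]
  exact tmul_mem_Lam _ (hz i)

end D4

end Fermat.Agent.S55.Global.LamDict
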