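import Fermat.Agent.S55.Global.LamDict
import Fermat.Agent.S55.Global.CycloArtinAbs

/-!
# S55 / Global: from the lattice condition to hypothesis (M2) of the cyclotomic Artin map

`u ∈ K ⊆ L` with `(u - 1) ⊗ 1 ∈ Lam L T N`, `p ∈ T`, `k ≤ N`, `1 ≤ N` ⇒
`CycloArtinIdeal.IsOneModAt K p k u` and `v(u) = 1` for every prime `v` of `K` above `T`.
-/

set_option autoImplicit false

open NumberField TensorProduct IsDedekindDomain

namespace Fermat.Agent.S55.Global.LamDictCyclo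

open Fermat.Agent.S55.Global.Objects Fermat.Agent.S55.Global.Objects2
  Fermat.Agent.S55.Global.TensorLattice Fermat.Agent.S55.Global.LamDict

variable {K : Type} [Field K] [NumberField K]

omit [NumberField K] in
/-- If `q ∤ d` (a rational prime `q`, `d : ℕ`) and `(q : 𝓞 K) ∈ v` then `(d : 𝓞 K) ∉ v`. -/
theorem natCast_notMem_of_not_dvd (v : HeightOneSpectrum (𝓞 K)) (q d : ℕ) (hq : q.Prime)
    (hqd : ¬ q ∣ d) (hqv : (q : 𝓞 K) ∈ v.asIdeal) : (d : 𝓞 K) ∉ v.asIdeal := by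
  intro hdv
  have hcop : Nat.Coprime q d := (Nat.Prime.coprime_iff_not_dvd hq).mpr hqd
  have hI : IsCoprime (q : ℤ) (d : ℤ) := Nat.isCoprime_iff_coprime.mpr hcop
  obtain ⟨a, b, hab⟩ := hI
  have h1 : ((a : 𝓞 K)) * (q : 𝓞 K) + (b : 𝓞 K) * (d : 𝓞 K) = 1 := by
    have := congrArg (fun n : ℤ => (n : 𝓞 K)) hab
    simpa using this
  have : (1 : 𝓞 K) ∈ v.asIdeal := by
    rw [← h1]
    exact v.asIdeal.add_mem (v.asIdeal.mul_mem_left _ hqv) (v.asIdeal.mul_mem_left _ hdv)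
  exact v.isPrime.ne_top ((Ideal.eq_top_iff_one _).mpr this)

variable {L : Type} [Field L] [NumberField L] [Algebra K L] {T : Finset Nat.Primes}

/-- **(M2) adapter**: the lattice condition `(u - 1) ⊗ 1 ∈ Lam L T N` (`u ∈ K ⊆ L`, `p ∈ T`,
`k ≤ N`, `1 ≤ N`) gives `IsOneModAt K p k u` and `v(u) = 1` at every prime of `K` above `T`. -/
theorem isOneModAt_and_valuation_of_mem_Lam (p k N : ℕ) (hpT : ∃ q ∈ T, ((q : Nat.Primes) : ℕ) = p)
    (hkN : k ≤ N) (hN : 1 ≤ N) (u : K)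
    (h : (algebraMap K L (u - 1)) ⊗ₜ[ℚ] (1 : QT T) ∈ Lam L T N) :
    CycloArtinIdeal.IsOneModAt K p k u ∧
      ∀ v : HeightOneSpectrum (𝓞 K), v ∈ placesAboveQ K T → v.valuation K u = 1 := by
  obtain ⟨r, d, hdT, -, heq⟩ := exists_int_of_algebraMap_tmul_mem_Lam (L := L) (u - 1) N h
  obtain ⟨q₀, hq₀T, hq₀p⟩ := hpT
  have hdvd : ∀ q ∈ T, ((q : Nat.Primes) : ℕ) ∣ varpi T := fun q hq =>
    Finset.dvd_prod_of_mem (fun q : Nat.Primes => (q : ℕ)) hq
  refine ⟨?_, ?_⟩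
  · refine CycloArtinAbs.isOneModAt_of_eq (p := p) k u r (varpi T ^ N) d ?_ ?_ heq
    · have h1 : p ∣ varpi T := hq₀p ▸ hdvd q₀ hq₀T
      exact (pow_dvd_pow p hkN).trans (pow_dvd_pow_of_dvd h1 N)
    · intro v hv
      refine natCast_notMem_of_not_dvd v p d (hq₀p ▸ (q₀ : Nat.Primes).2) ?_ hv
      rw [← hq₀p]
      exact hdT q₀ hq₀T
  · rintro v ⟨q, hqT, hqv⟩
    refine CycloArtinAbs.valuation_eq_one_of_eq v u r (varpi T ^ N) d ?_ ?_ heq
    · obtain ⟨e, he⟩ := hdvd q hqT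
      obtain ⟨N', rfl⟩ : ∃ N', N = N' + 1 := ⟨N - 1, by omega⟩
      rw [pow_succ, he]
      push_cast
      rw [mul_comm, mul_assoc]
      exact v.asIdeal.mul_mem_right _ hqv
    · exact natCast_notMem_of_not_dvd v q d (q : Nat.Primes).2 (hdT q hqT) hqv

end Fermat.Agent.S55.Global.LamDictCyclo
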