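import Fermat.Agent.S55.Global.LocalProdInst
import Fermat.Agent.S55.Global.SemilocalTensor
import Fermat.Agent.S55.Global.Objects5

/-!
# Row `G.localProd`: `Jn K L T ≅ ∏_{q ∈ T} ∏_{𝔪 | q} Jloc K L q 𝔪` and its cohomological corollaries

Instantiation of `LocalProdRep` / `LocalProdInst` at `F q = ℚ_[q]`, `q ∈ T`.
-/

set_option autoImplicit false
set_option linter.unusedSectionVars false
set_option linter.style.haveILetI false

open NumberField TensorProduct CategoryTheory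

namespace Fermat.Agent.S55.Global.LocalProd

open Fermat.Agent.S55.Global.Objects Fermat.Agent.S55.Global.Objects2
open Fermat.Agent.S55.Global.Blocks3
open Fermat.Agent.S55.Global.LocalProdAbs Fermat.Agent.S55.Global.LocalProdRep
open Fermat.Agent.S55.Global.LocalProdInst

variable (K : Type) [Field K] [NumberField K]
variable (L : Type) [Field L] [NumberField L] [Algebra K L]
variable (T : Finset Nat.Primes)

/-- The family `q ↦ ℚ_[q]`, `q ∈ T`. -/
abbrev QF : T → Type := fun q => ℚ_[((q : Nat.Primes) : ℕ)]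

theorem isArtinianRing_Ksemi (q : Nat.Primes) : IsArtinianRing (Ksemi K q) :=
  SemilocalTensor.isArtinianRing_tensor ℚ K ℚ_[((q : Nat.Primes) : ℕ)]

theorem isReduced_Ksemi (q : Nat.Primes) : IsReduced (Ksemi K q) :=
  SemilocalTensor.isReduced_tensor ℚ K ℚ_[((q : Nat.Primes) : ℕ)]

/-- The places of `K` above `T`: pairs `(q, 𝔪)`, `q ∈ T`, `𝔪` a maximal ideal of `K ⊗[ℚ] ℚ_[q]`. -/
abbrev PlaceIdx : Type := Σ q : T, MaximalSpectrum (Ksemi K (q : Nat.Primes))

/-- The projections `L ⊗[ℚ] ℚ_T →+* L ⊗[K] K_𝔪`. -/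
noncomputable abbrev πT (x : PlaceIdx K T) :
    L ⊗[ℚ] QT T →+* L ⊗[K] Kloc K (x.1 : Nat.Primes) x.2.asIdeal :=
  πc K L (QF T) x

theorem πT_tmul (x : PlaceIdx K T) (l : L) (a : QT T) :
    πT K L T x (l ⊗ₜ[ℚ] a) =
      l ⊗ₜ[K] (Ideal.Quotient.mk x.2.asIdeal ((1 : K) ⊗ₜ[ℚ] a x.1)) :=
  πc_tmul K L (QF T) x l a

/-- **`L ⊗[ℚ] ℚ_T ≅ ∏_{(q, 𝔪)} L ⊗[K] K_𝔪`, `Gal(L/K)`-equivariantly.** -/
theorem isLocalDecomp_πT :
    IsLocalDecomp (K := K) (L := L) (A := QT T)
      (C := fun x : PlaceIdx K T => Kloc K (x.1 : Nat.Primes) x.2.asIdeal) (πT K L T) :=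
  haveI : ∀ q : T, IsArtinianRing (K ⊗[ℚ] QF T q) := fun q => isArtinianRing_Ksemi K q
  haveI : ∀ q : T, IsReduced (K ⊗[ℚ] QF T q) := fun q => isReduced_Ksemi K q
  isLocalDecomp_πc K L (QF T)

/-- There are finitely many places of `K` above `T`. -/
@[reducible] noncomputable def fintypePlaceIdx : Fintype (PlaceIdx K T) :=
  haveI : ∀ q : T, IsArtinianRing (K ⊗[ℚ] QF T q) := fun q => isArtinianRing_Ksemi K q
  haveI : ∀ q : T, IsReduced (K ⊗[ℚ] QF T q) := fun q => isReduced_Ksemi K q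
  fintypeIdx K (QF T)

/-- The projection `Jn K L T ⟶ Jloc K L q 𝔪`. -/
noncomputable def projLoc (x : PlaceIdx K T) :
    Jn K L T ⟶ Jloc K L (x.1 : Nat.Primes) x.2.asIdeal :=
  projJ (isLocalDecomp_πT K L T) x

theorem projLoc_apply (x : PlaceIdx K T) (a : Jn K L T) :
    (projLoc K L T x).hom a = Additive.ofMul (Units.map
      (πT K L T x : L ⊗[ℚ] QT T →* L ⊗[K] Kloc K (x.1 : Nat.Primes) x.2.asIdeal)
      (Additive.toMul a)) := rfl

/-- The section `Jloc K L q 𝔪 ⟶ Jn K L T` (`1` at the other places). -/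
noncomputable def secLoc (x : PlaceIdx K T) :
    Jloc K L (x.1 : Nat.Primes) x.2.asIdeal ⟶ Jn K L T :=
  letI := fintypePlaceIdx K T
  letI := Classical.decEq (PlaceIdx K T)
  secJ (isLocalDecomp_πT K L T) x

theorem sum_projLoc_secLoc :
    letI := fintypePlaceIdx K T
    ∑ x, projLoc K L T x ≫ secLoc K L T x = 𝟙 (Jn K L T) := by
  letI := fintypePlaceIdx K T
  letI := Classical.decEq (PlaceIdx K T)
  exact sum_projJ_secJ (isLocalDecomp_πT K L T)

theorem secLoc_projLoc_self (x : PlaceIdx K T) :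
    secLoc K L T x ≫ projLoc K L T x = 𝟙 _ := by
  letI := fintypePlaceIdx K T
  letI := Classical.decEq (PlaceIdx K T)
  exact secJ_projJ_self (isLocalDecomp_πT K L T) x

theorem secLoc_projLoc_of_ne {x y : PlaceIdx K T} (hxy : x ≠ y) :
    secLoc K L T x ≫ projLoc K L T y = 0 := by
  letI := fintypePlaceIdx K T
  letI := Classical.decEq (PlaceIdx K T)
  exact secJ_projJ_of_ne (isLocalDecomp_πT K L T) hxy

/-! ### Cohomology of `Jn K L T` -/

/-- **Injectivity of `Hⁿ(G, Jn K L T) → ∏ Hⁿ(G, Jloc)`.** -/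
theorem eq_zero_of_projLoc (n : ℕ) (y : groupCohomology (Jn K L T) n)
    (hy : ∀ x : PlaceIdx K T,
      groupCohomology.map (MonoidHom.id (L ≃ₐ[K] L)) (projLoc K L T x) n y = 0) : y = 0 := by
  letI := fintypePlaceIdx K T
  letI := Classical.decEq (PlaceIdx K T)
  exact eq_zero_of_projJ (isLocalDecomp_πT K L T) n y hy

theorem eq_of_projLoc (n : ℕ) (y z : groupCohomology (Jn K L T) n)
    (hyz : ∀ x : PlaceIdx K T,
      groupCohomology.map (MonoidHom.id (L ≃ₐ[K] L)) (projLoc K L T x) n y =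
        groupCohomology.map (MonoidHom.id (L ≃ₐ[K] L)) (projLoc K L T x) n z) : y = z := by
  letI := fintypePlaceIdx K T
  letI := Classical.decEq (PlaceIdx K T)
  exact eq_of_projJ (isLocalDecomp_πT K L T) n y z hyz

/-- **Vanishing**: `Hⁿ(G, Jn K L T) = 0` as soon as `Hⁿ(G, Jloc K L q 𝔪) = 0` for all places
`(q, 𝔪)` of `K` above `T`. -/
theorem isZero_of_projLoc (n : ℕ)
    (h : ∀ (q : Nat.Primes), q ∈ T → ∀ 𝔪 : Ideal (Ksemi K q), 𝔪.IsMaximal →
      Limits.IsZero (groupCohomology (Jloc K L q 𝔪) n)) :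
    Limits.IsZero (groupCohomology (Jn K L T) n) := by
  letI := fintypePlaceIdx K T
  letI := Classical.decEq (PlaceIdx K T)
  exact isZero_of_projJ (isLocalDecomp_πT K L T) n
    (fun x => h x.1 x.1.2 x.2.asIdeal x.2.isMaximal)

/-- **Surjectivity**: local components can be prescribed. -/
theorem exists_of_projLoc (n : ℕ)
    (y : ∀ x : PlaceIdx K T, groupCohomology (Jloc K L (x.1 : Nat.Primes) x.2.asIdeal) n) :
    ∃ z : groupCohomology (Jn K L T) n, ∀ x : PlaceIdx K T,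
      groupCohomology.map (MonoidHom.id (L ≃ₐ[K] L)) (projLoc K L T x) n z = y x := by
  letI := fintypePlaceIdx K T
  letI := Classical.decEq (PlaceIdx K T)
  exact exists_of_projJ (isLocalDecomp_πT K L T) n y

/-! ### Global classes -/

/-- `Lˣ ⟶ Jn K L T ⟶ Jloc K L q 𝔪` is `Blocks3.LxToJ`. -/
theorem incl_comp_projLoc (inc : Rep.ofAlgebraAutOnUnits K L ⟶ Jn K L T)
    (hinc : ∀ a : Rep.ofAlgebraAutOnUnits K L,
      inc.hom a = Additive.ofMul (inclUnits ℚ L (QT T) (Additive.toMul a)))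
    (x : PlaceIdx K T) :
    inc ≫ projLoc K L T x = LxToJ K L (Kloc K (x.1 : Nat.Primes) x.2.asIdeal) := by
  letI := fintypePlaceIdx K T
  letI := Classical.decEq (PlaceIdx K T)
  exact incl_comp_projJ (isLocalDecomp_πT K L T) inc hinc x

/-- **Row `G.localProd`, corollary**: a class `y ∈ Hⁿ(Gal(L/K), Lˣ)` which is locally trivial at
every place `(q, 𝔪)` of `K` with `q ∈ T` has zero image in `Hⁿ(Gal(L/K), Jn K L T)`, for any
morphism `inc : Lˣ ⟶ Jn K L T` given by `x ↦ x ⊗ 1`. -/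
theorem map_incl_eq_zero_of_locH (inc : Rep.ofAlgebraAutOnUnits K L ⟶ Jn K L T)
    (hinc : ∀ a : Rep.ofAlgebraAutOnUnits K L,
      inc.hom a = Additive.ofMul (inclUnits ℚ L (QT T) (Additive.toMul a)))
    (n : ℕ) (y : groupCohomology (Rep.ofAlgebraAutOnUnits K L) n)
    (hy : ∀ (q : Nat.Primes), q ∈ T → ∀ 𝔪 : Ideal (Ksemi K q), 𝔪.IsMaximal →
      locH K L (Kloc K q 𝔪) n y = 0) :
    groupCohomology.map (MonoidHom.id (L ≃ₐ[K] L)) inc n y = 0 := by
  letI := fintypePlaceIdx K T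
  letI := Classical.decEq (PlaceIdx K T)
  exact map_incl_eq_zero (isLocalDecomp_πT K L T) inc hinc n y
    (fun x => hy x.1 x.1.2 x.2.asIdeal x.2.isMaximal)

/-- The same for `Objects5.LxnToJn K L T` (the restriction of `LxQtoJQ L T` to `Gal(L/K)`). -/
theorem map_LxnToJn_eq_zero_of_locH
    (n : ℕ) (y : groupCohomology (Rep.ofAlgebraAutOnUnits K L) n)
    (hy : ∀ (q : Nat.Primes), q ∈ T → ∀ 𝔪 : Ideal (Ksemi K q), 𝔪.IsMaximal →
      locH K L (Kloc K q 𝔪) n y = 0) :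
    groupCohomology.map (MonoidHom.id (L ≃ₐ[K] L)) (Objects5.LxnToJn K L T) n y = 0 :=
  map_incl_eq_zero_of_locH K L T (Objects5.LxnToJn K L T) (fun _ => rfl) n y hy

end Fermat.Agent.S55.Global.LocalProd
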