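import Mathlib

/-!
# Finite product decompositions and group cohomology (abstract half of `G.localProd`)

* `map_add`, `map_sum`: `groupCohomology.map (MonoidHom.id G) · n` is additive in the morphism.
* `Retract`: objects `X`, `Y i` of `Rep k G` with `p i : X ⟶ Y i`, `s i : Y i ⟶ X`,
  `∑ i, p i ≫ s i = 𝟙 X`.  Then a class of `Hⁿ(G, X)` all of whose components vanish is zero, and
  `Hⁿ(G, X)` vanishes as soon as all `Hⁿ(G, Y i)` do.
* `IsProdDecomp`: a finite family of ring homs `π i : R →+* B i` identifying `R` with `∏ B i`;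
  the unit groups: `unitsEquiv : Rˣ ≃* ∀ i, (B i)ˣ`, the sections `sec i : (B i)ˣ →* Rˣ`.
-/

set_option autoImplicit false
set_option linter.unusedSectionVars false

namespace Fermat.Agent.S55.Global.LocalProdAbs

open CategoryTheory CategoryTheory.Limits groupCohomology

section additivity

variable {k G : Type} [CommRing k] [Group G] {A B : Rep k G}

theorem map_add (φ ψ : A ⟶ B) (n : ℕ) :
    groupCohomology.map (MonoidHom.id G) (φ + ψ) n =
      groupCohomology.map (MonoidHom.id G) φ n + groupCohomology.map (MonoidHom.id G) ψ n := by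
  have h : cochainsMap (MonoidHom.id G) (φ + ψ) =
      cochainsMap (MonoidHom.id G) φ + cochainsMap (MonoidHom.id G) ψ :=
    (cochainsFunctor k G).map_add
  unfold groupCohomology.map
  rw [h, HomologicalComplex.homologyMap_add]
  rfl

theorem map_zero' (n : ℕ) :
    groupCohomology.map (MonoidHom.id G) (0 : A ⟶ B) n = 0 :=
  (functor k G n).map_zero A B

theorem map_sum {ι : Type} (s : Finset ι) (φ : ι → (A ⟶ B)) (n : ℕ) :
    groupCohomology.map (MonoidHom.id G) (∑ i ∈ s, φ i) n =
      ∑ i ∈ s, groupCohomology.map (MonoidHom.id G) (φ i) n := by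
  classical
  induction s using Finset.induction_on with
  | empty => simp [map_zero']
  | insert a s ha ih => rw [Finset.sum_insert ha, Finset.sum_insert ha, map_add, ih]

end additivity


section retract

variable {k G : Type} [CommRing k] [Group G] {ι : Type} [Fintype ι]
  {X : Rep k G} {Y : ι → Rep k G} (p : ∀ i, X ⟶ Y i) (s : ∀ i, Y i ⟶ X)

theorem map_id_eq_sum (h : ∑ i, p i ≫ s i = 𝟙 X) (n : ℕ) :
    𝟙 (groupCohomology X n) =
      ∑ i, groupCohomology.map (MonoidHom.id G) (p i) n ≫
        groupCohomology.map (MonoidHom.id G) (s i) n := by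
  rw [← groupCohomology.map_id, ← h, map_sum]
  refine Finset.sum_congr rfl fun i _ => ?_
  rw [groupCohomology.map_id_comp]

/-- A class all of whose components vanish is zero. -/
theorem eq_zero_of_components (h : ∑ i, p i ≫ s i = 𝟙 X) (n : ℕ) (x : groupCohomology X n)
    (hx : ∀ i, groupCohomology.map (MonoidHom.id G) (p i) n x = 0) : x = 0 := by
  have key := congrArg (fun f : groupCohomology X n ⟶ groupCohomology X n => f.hom x)
    (map_id_eq_sum p s h n)
  simp only [ModuleCat.hom_id, LinearMap.id_coe, id_eq, ModuleCat.hom_sum, LinearMap.sum_apply,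
    ModuleCat.hom_comp, LinearMap.comp_apply] at key
  rw [key]
  refine Finset.sum_eq_zero fun i _ => ?_
  have := hx i
  change (ModuleCat.Hom.hom (groupCohomology.map (MonoidHom.id G) (p i) n)) x = 0 at this
  rw [this, _root_.map_zero]

/-- Two classes with the same components are equal. -/
theorem eq_of_components (h : ∑ i, p i ≫ s i = 𝟙 X) (n : ℕ) (x y : groupCohomology X n)
    (hxy : ∀ i, groupCohomology.map (MonoidHom.id G) (p i) n x =
      groupCohomology.map (MonoidHom.id G) (p i) n y) : x = y := by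
  rw [← sub_eq_zero]
  refine eq_zero_of_components p s h n _ fun i => ?_
  rw [_root_.map_sub, hxy i, sub_self]

/-- If all `Hⁿ(G, Y i)` vanish then so does `Hⁿ(G, X)`. -/
theorem isZero_of_components (h : ∑ i, p i ≫ s i = 𝟙 X) (n : ℕ)
    (hY : ∀ i, IsZero (groupCohomology (Y i) n)) : IsZero (groupCohomology X n) := by
  rw [IsZero.iff_id_eq_zero, map_id_eq_sum p s h n]
  refine Finset.sum_eq_zero fun i _ => ?_
  rw [(hY i).eq_zero_of_tgt (groupCohomology.map (MonoidHom.id G) (p i) n), zero_comp]

/-- Components can be prescribed (given the orthogonality relations). -/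
theorem exists_of_components [DecidableEq ι]
    (horth : ∀ i j, i ≠ j → s i ≫ p j = 0) (hid : ∀ i, s i ≫ p i = 𝟙 (Y i)) (n : ℕ)
    (y : ∀ i, groupCohomology (Y i) n) :
    ∃ x : groupCohomology X n, ∀ i, groupCohomology.map (MonoidHom.id G) (p i) n x = y i := by
  refine ⟨∑ j, groupCohomology.map (MonoidHom.id G) (s j) n (y j), fun i => ?_⟩
  rw [_root_.map_sum]
  rw [Finset.sum_eq_single i]
  · have : groupCohomology.map (MonoidHom.id G) (s i) n ≫
        groupCohomology.map (MonoidHom.id G) (p i) n = 𝟙 _ := by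
      rw [← groupCohomology.map_id_comp, hid i, groupCohomology.map_id]
    have h2 := congrArg (fun f => f.hom (y i)) this
    simpa using h2
  · intro j _ hji
    have : groupCohomology.map (MonoidHom.id G) (s j) n ≫
        groupCohomology.map (MonoidHom.id G) (p i) n = 0 := by
      rw [← groupCohomology.map_id_comp, horth j i hji, map_zero']
    have h2 := congrArg (fun f => f.hom (y j)) this
    simpa using h2
  · intro hi
    exact absurd (Finset.mem_univ i) hi

end retract


section units

variable {ι : Type} [Fintype ι] [DecidableEq ι] {R : Type} [CommRing R]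
  {B : ι → Type} [∀ i, CommRing (B i)] (π : ∀ i, R →+* B i)

/-- The ring homs `π i` identify `R` with `∏ B i`. -/
def IsProdDecomp : Prop := Function.Bijective (fun (r : R) (i : ι) => π i r)

variable {π}

/-- `R ≃+* ∏ B i`. -/
noncomputable def IsProdDecomp.ringEquiv (h : IsProdDecomp π) : R ≃+* (∀ i, B i) :=
  RingEquiv.ofBijective (RingHom.pi π) h

@[simp] lemma IsProdDecomp.ringEquiv_apply (h : IsProdDecomp π) (r : R) (i : ι) :
    h.ringEquiv r i = π i r := rfl

/-- `Rˣ ≃* ∏ (B i)ˣ`. -/
noncomputable def IsProdDecomp.unitsEquiv (h : IsProdDecomp π) : Rˣ ≃* (∀ i, (B i)ˣ) :=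
  (Units.mapEquiv h.ringEquiv.toMulEquiv).trans MulEquiv.piUnits

@[simp] lemma IsProdDecomp.unitsEquiv_apply (h : IsProdDecomp π) (u : Rˣ) (i : ι) :
    h.unitsEquiv u i = Units.map (π i : R →* B i) u := by
  ext
  rfl

/-- The section `(B i)ˣ →* Rˣ` (insert `1` in the other components). -/
noncomputable def IsProdDecomp.sec (h : IsProdDecomp π) (i : ι) : (B i)ˣ →* Rˣ :=
  h.unitsEquiv.symm.toMonoidHom.comp (MonoidHom.mulSingle (fun j => (B j)ˣ) i)

lemma IsProdDecomp.map_sec (h : IsProdDecomp π) (i j : ι) (u : (B i)ˣ) :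
    Units.map (π j : R →* B j) (h.sec i u) = (Pi.mulSingle i u : ∀ j, (B j)ˣ) j := by
  have h1 := h.unitsEquiv_apply (h.sec i u) j
  rw [← h1]
  have h2 : h.unitsEquiv (h.sec i u) = Pi.mulSingle i u := by
    simp only [IsProdDecomp.sec, MonoidHom.coe_comp, MulEquiv.coe_toMonoidHom,
      Function.comp_apply, MulEquiv.apply_symm_apply, MonoidHom.mulSingle_apply]
  rw [h2]

lemma IsProdDecomp.map_sec_self (h : IsProdDecomp π) (i : ι) (u : (B i)ˣ) :
    Units.map (π i : R →* B i) (h.sec i u) = u := by
  rw [h.map_sec, Pi.mulSingle_eq_same]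

lemma IsProdDecomp.map_sec_of_ne (h : IsProdDecomp π) {i j : ι} (hij : i ≠ j) (u : (B i)ˣ) :
    Units.map (π j : R →* B j) (h.sec i u) = 1 := by
  rw [h.map_sec, Pi.mulSingle_eq_of_ne' hij]

lemma IsProdDecomp.prod_sec_map (h : IsProdDecomp π) (u : Rˣ) :
    ∏ i, h.sec i (Units.map (π i : R →* B i) u) = u := by
  apply h.unitsEquiv.injective
  rw [map_prod]
  funext j
  rw [Finset.prod_apply]
  simp only [IsProdDecomp.sec, MonoidHom.coe_comp, MulEquiv.coe_toMonoidHom, Function.comp_apply,
    MulEquiv.apply_symm_apply, MonoidHom.mulSingle_apply]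
  rw [Finset.prod_eq_single j]
  · simp
  · intro i _ hij
    exact Pi.mulSingle_eq_of_ne' hij _
  · intro hj
    exact absurd (Finset.mem_univ j) hj

/-- Units are determined by their components. -/
lemma IsProdDecomp.units_ext (h : IsProdDecomp π) {u v : Rˣ}
    (huv : ∀ i, Units.map (π i : R →* B i) u = Units.map (π i : R →* B i) v) : u = v := by
  apply h.unitsEquiv.injective
  funext i
  rw [h.unitsEquiv_apply, h.unitsEquiv_apply, huv i]

/-- Units with prescribed components. -/
lemma IsProdDecomp.exists_unit (h : IsProdDecomp π) (y : ∀ i, (B i)ˣ) :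
    ∃ u : Rˣ, ∀ i, Units.map (π i : R →* B i) u = y i :=
  ⟨h.unitsEquiv.symm y, fun i => by rw [← h.unitsEquiv_apply, MulEquiv.apply_symm_apply]⟩

/-- Equivariance of the sections, for any actions compatible with the `π i`. -/
lemma IsProdDecomp.smul_sec {G : Type} [Group G] [MulDistribMulAction G Rˣ]
    [∀ i, MulDistribMulAction G (B i)ˣ] (h : IsProdDecomp π)
    (hπ : ∀ (i : ι) (g : G) (u : Rˣ),
      Units.map (π i : R →* B i) (g • u) = g • Units.map (π i : R →* B i) u)
    (i : ι) (g : G) (u : (B i)ˣ) : g • h.sec i u = h.sec i (g • u) := by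
  apply h.units_ext
  intro j
  rw [hπ]
  by_cases hij : i = j
  · subst hij
    rw [h.map_sec_self, h.map_sec_self]
  · rw [h.map_sec_of_ne hij, h.map_sec_of_ne hij, smul_one]

end units


section rep

variable {G : Type} [Group G]

/-- The morphism of `Rep ℤ G` induced by an equivariant monoid hom of `G`-modules written
multiplicatively. -/
noncomputable def repHom {M N : Type} [CommGroup M] [CommGroup N] [MulDistribMulAction G M]
    [MulDistribMulAction G N] (f : M →* N) (hf : ∀ (g : G) (m : M), f (g • m) = g • f m) :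
    Rep.ofMulDistribMulAction G M ⟶ Rep.ofMulDistribMulAction G N :=
  Rep.ofHom
    { toLinearMap := (MonoidHom.toAdditive f).toIntLinearMap
      isIntertwining' := fun g => by
        refine LinearMap.ext fun a => ?_
        exact congrArg Additive.ofMul (hf g (Additive.toMul a)) }

lemma repHom_apply {M N : Type} [CommGroup M] [CommGroup N] [MulDistribMulAction G M]
    [MulDistribMulAction G N] (f : M →* N) (hf : ∀ (g : G) (m : M), f (g • m) = g • f m)
    (a : Additive M) : (repHom f hf).hom a = Additive.ofMul (f (Additive.toMul a)) := rfl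

variable {ι : Type} [Fintype ι] [DecidableEq ι] {R : Type} [CommRing R]
  {B : ι → Type} [∀ i, CommRing (B i)] {π : ∀ i, R →+* B i}
  [MulDistribMulAction G Rˣ] [∀ i, MulDistribMulAction G (B i)ˣ]

/-- The projection `Rˣ ⟶ (B i)ˣ` in `Rep ℤ G`. -/
noncomputable def proj
    (hπ : ∀ (i : ι) (g : G) (u : Rˣ),
      Units.map (π i : R →* B i) (g • u) = g • Units.map (π i : R →* B i) u) (i : ι) :
    Rep.ofMulDistribMulAction G Rˣ ⟶ Rep.ofMulDistribMulAction G (B i)ˣ :=
  repHom (Units.map (π i : R →* B i)) (hπ i)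

/-- The section `(B i)ˣ ⟶ Rˣ` in `Rep ℤ G`. -/
noncomputable def secRep (h : IsProdDecomp π)
    (hπ : ∀ (i : ι) (g : G) (u : Rˣ),
      Units.map (π i : R →* B i) (g • u) = g • Units.map (π i : R →* B i) u) (i : ι) :
    Rep.ofMulDistribMulAction G (B i)ˣ ⟶ Rep.ofMulDistribMulAction G Rˣ :=
  repHom (h.sec i) (fun g u => (h.smul_sec hπ i g u).symm)

theorem sum_proj_sec (h : IsProdDecomp π)
    (hπ : ∀ (i : ι) (g : G) (u : Rˣ),
      Units.map (π i : R →* B i) (g • u) = g • Units.map (π i : R →* B i) u) :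
    ∑ i, proj hπ i ≫ secRep h hπ i = 𝟙 (Rep.ofMulDistribMulAction G Rˣ) := by
  apply Rep.hom_ext
  apply Representation.IntertwiningMap.ext
  refine LinearMap.ext fun a => ?_
  have h1 : ∀ i, (proj hπ i ≫ secRep h hπ i).hom a =
      Additive.ofMul (h.sec i (Units.map (π i : R →* B i) (Additive.toMul a))) := fun i => rfl
  have h2 := h.prod_sec_map (Additive.toMul a)
  have h3 : Additive.ofMul (∏ i, h.sec i (Units.map (π i : R →* B i) (Additive.toMul a))) = a :=
    congrArg Additive.ofMul h2
  rw [ofMul_prod] at h3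
  have h4 : (∑ i, proj hπ i ≫ secRep h hπ i).hom a =
      ∑ i, (proj hπ i ≫ secRep h hπ i).hom a := by
    rw [Rep.sum_hom, Representation.IntertwiningMap.sum_apply]
  change (∑ i, proj hπ i ≫ secRep h hπ i).hom a = a
  rw [h4]
  simp only [h1]
  exact h3

theorem sec_proj_self (h : IsProdDecomp π)
    (hπ : ∀ (i : ι) (g : G) (u : Rˣ),
      Units.map (π i : R →* B i) (g • u) = g • Units.map (π i : R →* B i) u) (i : ι) :
    secRep h hπ i ≫ proj hπ i = 𝟙 _ := by
  apply Rep.hom_ext
  apply Representation.IntertwiningMap.ext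
  refine LinearMap.ext fun a => ?_
  exact congrArg Additive.ofMul (h.map_sec_self i (Additive.toMul a))

theorem sec_proj_of_ne (h : IsProdDecomp π)
    (hπ : ∀ (i : ι) (g : G) (u : Rˣ),
      Units.map (π i : R →* B i) (g • u) = g • Units.map (π i : R →* B i) u) {i j : ι}
    (hij : i ≠ j) : secRep h hπ i ≫ proj hπ j = 0 := by
  apply Rep.hom_ext
  apply Representation.IntertwiningMap.ext
  refine LinearMap.ext fun a => ?_
  exact congrArg Additive.ofMul (h.map_sec_of_ne hij (Additive.toMul a))

/-- **Injectivity**: a class of `Hⁿ(G, Rˣ)` whose components in all `Hⁿ(G, (B i)ˣ)` vanish is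
zero. -/
theorem eq_zero_of_proj (h : IsProdDecomp π)
    (hπ : ∀ (i : ι) (g : G) (u : Rˣ),
      Units.map (π i : R →* B i) (g • u) = g • Units.map (π i : R →* B i) u) (n : ℕ)
    (x : groupCohomology (Rep.ofMulDistribMulAction G Rˣ) n)
    (hx : ∀ i, groupCohomology.map (MonoidHom.id G) (proj hπ i) n x = 0) : x = 0 :=
  eq_zero_of_components (proj hπ) (secRep h hπ) (sum_proj_sec h hπ) n x hx

/-- **Vanishing**: if all `Hⁿ(G, (B i)ˣ)` vanish, so does `Hⁿ(G, Rˣ)`. -/
theorem isZero_of_proj (h : IsProdDecomp π)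
    (hπ : ∀ (i : ι) (g : G) (u : Rˣ),
      Units.map (π i : R →* B i) (g • u) = g • Units.map (π i : R →* B i) u) (n : ℕ)
    (hB : ∀ i, IsZero (groupCohomology (Rep.ofMulDistribMulAction G (B i)ˣ) n)) :
    IsZero (groupCohomology (Rep.ofMulDistribMulAction G Rˣ) n) :=
  isZero_of_components (proj hπ) (secRep h hπ) (sum_proj_sec h hπ) n hB

/-- **Surjectivity**: components can be prescribed. -/
theorem exists_of_proj (h : IsProdDecomp π)
    (hπ : ∀ (i : ι) (g : G) (u : Rˣ),
      Units.map (π i : R →* B i) (g • u) = g • Units.map (π i : R →* B i) u) (n : ℕ)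
    (y : ∀ i, groupCohomology (Rep.ofMulDistribMulAction G (B i)ˣ) n) :
    ∃ x : groupCohomology (Rep.ofMulDistribMulAction G Rˣ) n,
      ∀ i, groupCohomology.map (MonoidHom.id G) (proj hπ i) n x = y i :=
  exists_of_components (proj hπ) (secRep h hπ)
    (fun _ _ hij => sec_proj_of_ne h hπ hij) (fun i => sec_proj_self h hπ i) n y

end rep

end Fermat.Agent.S55.Global.LocalProdAbs
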