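import Fermat.Agent.S55.Global.LocalProdAbs
import Fermat.Agent.S55.Global.Objects3

/-!
# S55 / Global, row `G.localProd`, the `T`-level half (helper93; abstract half: helper1)

`L ⊗[ℚ] ℚ_T = ∏_{q ∈ T} L ⊗[ℚ] ℚ_[q]`, `Aut(L/ℚ)`-equivariantly, hence in `Rep ℤ (Gal(L/K))`
`Jn K L T` is a retract-sum of the `Jq K L q := Res (JRep ℚ L ℚ_[q])`, `q ∈ T`.

* `evalQ T q : L ⊗[ℚ] QT T →+* L ⊗[ℚ] ℚ_[q]`, `isProdDecomp_evalQ`;
* `LxToJA K L A : Lˣ ⟶ Res (JRep ℚ L A)` (`x ↦ x ⊗ 1`, any commutative `ℚ`-algebra `A`),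
  `projQ K L T q : Jn K L T ⟶ Jq K L q`, `LxToJA_comp_projQ`;
* `eq_zero_of_forall_q` : a class of `Hⁿ(Gal(L/K), Jn K L T)` whose components in all
  `Hⁿ(Gal(L/K), Jq K L q)` vanish is zero;
* `map_LxToJA_eq_zero` : `x ∈ Hⁿ(Gal(L/K), Lˣ)` with zero image in every `Hⁿ(Gal(L/K), Jq K L q)`,
  `q ∈ T`, has zero image in `Hⁿ(Gal(L/K), Jn K L T)`;
* `isZero_Jn_of_forall_q` : `Hⁿ(Jq) = 0` for all `q ∈ T` implies `Hⁿ(Jn K L T) = 0`.
-/

set_option autoImplicit false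
set_option linter.unusedSectionVars false

open CategoryTheory CategoryTheory.Limits groupCohomology NumberField TensorProduct

namespace Fermat.Agent.S55.Global.LocalProdT

open Fermat.Agent.S55.Global.Objects Fermat.Agent.S55.Global.Objects2
open Fermat.Agent.S55.Global

section ring

variable (L : Type) [Field L] [NumberField L] (T : Finset Nat.Primes)

/-- `L ⊗[ℚ] ℚ_[q]`, `q ∈ T`. -/
abbrev Bq (q : T) : Type := L ⊗[ℚ] ℚ_[((q : Nat.Primes) : ℕ)]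

/-- The `q`-th projection `L ⊗[ℚ] ℚ_T → L ⊗[ℚ] ℚ_[q]`. -/
noncomputable def evalQ (q : T) : L ⊗[ℚ] QT T →+* Bq L T q :=
  (Algebra.TensorProduct.map (AlgHom.id ℚ L)
    (Pi.evalAlgHom ℚ (fun q : T => ℚ_[((q : Nat.Primes) : ℕ)]) q)).toRingHom

@[simp] theorem evalQ_tmul (q : T) (x : L) (a : QT T) :
    evalQ L T q (x ⊗ₜ[ℚ] a) = x ⊗ₜ[ℚ] a q := rfl

theorem evalQ_eq_piRight (z : L ⊗[ℚ] QT T) :
    (fun q : T => evalQ L T q z) =
      TensorProduct.piRight ℚ ℚ L (fun q : T => ℚ_[((q : Nat.Primes) : ℕ)]) z := by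
  induction z using TensorProduct.induction_on with
  | zero =>
    funext q
    simp
  | tmul x a =>
    rw [TensorProduct.piRight_apply, TensorProduct.piRightHom_tmul]
    rfl
  | add x y hx hy =>
    rw [map_add, ← hx, ← hy]
    funext q
    simp

theorem isProdDecomp_evalQ :
    LocalProdAbs.IsProdDecomp (R := L ⊗[ℚ] QT T) (B := Bq L T) (evalQ L T) := by
  have h : (fun (r : L ⊗[ℚ] QT T) (q : T) => evalQ L T q r) =
      ⇑(TensorProduct.piRight ℚ ℚ L (fun q : T => ℚ_[((q : Nat.Primes) : ℕ)])) := by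
    funext z
    exact evalQ_eq_piRight L T z
  unfold LocalProdAbs.IsProdDecomp
  rw [h]
  exact LinearEquiv.bijective _

theorem evalQ_smul (q : T) (σ : L ≃ₐ[ℚ] L) (z : L ⊗[ℚ] QT T) :
    evalQ L T q (σ • z) = σ • evalQ L T q z := by
  induction z using TensorProduct.induction_on with
  | zero => simp
  | tmul x a => rfl
  | add x y hx hy => rw [smul_add, map_add, map_add, smul_add, hx, hy]

theorem units_evalQ_smul (q : T) (σ : L ≃ₐ[ℚ] L) (u : (L ⊗[ℚ] QT T)ˣ) :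
    Units.map (evalQ L T q : L ⊗[ℚ] QT T →* Bq L T q) (σ • u) =
      σ • Units.map (evalQ L T q : L ⊗[ℚ] QT T →* Bq L T q) u := by
  apply Units.ext
  exact evalQ_smul L T q σ u

end ring

section rep

variable (K : Type) [Field K] [NumberField K]
variable (L : Type) [Field L] [NumberField L] [Algebra K L]
variable (T : Finset Nat.Primes)

/-- `(L ⊗[ℚ] A)ˣ` as a `Gal(L/K)`-module (`A` any commutative `ℚ`-algebra). -/
noncomputable abbrev JA (A : Type) [CommRing A] [Algebra ℚ A] : Rep ℤ (L ≃ₐ[K] L) :=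
  Rep.res (resHom K L) (JRep ℚ L A)

/-- `(L ⊗[ℚ] ℚ_[q])ˣ` as a `Gal(L/K)`-module. -/
noncomputable abbrev Jq (q : Nat.Primes) : Rep ℤ (L ≃ₐ[K] L) :=
  JA K L ℚ_[((q : Nat.Primes) : ℕ)]

/-- `Lˣ ⟶ (L ⊗[ℚ] A)ˣ`, `x ↦ x ⊗ 1`, as a morphism of `Gal(L/K)`-modules. -/
noncomputable def LxToJA (A : Type) [CommRing A] [Algebra ℚ A] :
    Rep.ofAlgebraAutOnUnits K L ⟶ JA K L A :=
  Rep.ofHom
    { toLinearMap := (MonoidHom.toAdditive (inclUnits ℚ L A)).toIntLinearMap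
      isIntertwining' := fun σ => by
        ext a
        rfl }

theorem LxToJA_apply (A : Type) [CommRing A] [Algebra ℚ A] (a : Rep.ofAlgebraAutOnUnits K L) :
    (LxToJA K L A).hom a = Additive.ofMul (inclUnits ℚ L A (Additive.toMul a)) := rfl

/-- The projection `JQ L T ⟶ JRep ℚ L ℚ_[q]` over `Aut(L/ℚ)`. -/
noncomputable def projQQ (q : T) : JQ L T ⟶ JRep ℚ L ℚ_[((q : Nat.Primes) : ℕ)] :=
  LocalProdAbs.proj (G := L ≃ₐ[ℚ] L) (R := L ⊗[ℚ] QT T) (B := Bq L T) (π := evalQ L T)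
    (units_evalQ_smul L T) q

/-- The section `JRep ℚ L ℚ_[q] ⟶ JQ L T` over `Aut(L/ℚ)`. -/
noncomputable def secQQ (q : T) : JRep ℚ L ℚ_[((q : Nat.Primes) : ℕ)] ⟶ JQ L T :=
  LocalProdAbs.secRep (G := L ≃ₐ[ℚ] L) (R := L ⊗[ℚ] QT T) (B := Bq L T) (π := evalQ L T)
    (isProdDecomp_evalQ L T) (units_evalQ_smul L T) q

theorem sum_projQQ_secQQ : ∑ q : T, projQQ L T q ≫ secQQ L T q = 𝟙 (JQ L T) := by
  have h := LocalProdAbs.sum_proj_sec (G := L ≃ₐ[ℚ] L) (R := L ⊗[ℚ] QT T) (B := Bq L T)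
    (π := evalQ L T) (isProdDecomp_evalQ L T) (units_evalQ_smul L T)
  exact h

/-- The projection `Jn K L T ⟶ Jq K L q` over `Gal(L/K)`. -/
noncomputable def projQ (q : T) : Jn K L T ⟶ Jq K L q :=
  (Rep.resFunctor (resHom K L)).map (projQQ L T q)

/-- The section `Jq K L q ⟶ Jn K L T` over `Gal(L/K)`. -/
noncomputable def secQ (q : T) : Jq K L q ⟶ Jn K L T :=
  (Rep.resFunctor (resHom K L)).map (secQQ L T q)

theorem sum_projQ_secQ : ∑ q : T, projQ K L T q ≫ secQ K L T q = 𝟙 (Jn K L T) := by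
  have h := (Rep.resFunctor (resHom K L)).congr_map (sum_projQQ_secQQ L T)
  rw [Functor.map_sum] at h
  have h2 : (Rep.resFunctor (resHom K L)).map (𝟙 (JQ L T)) = 𝟙 (Jn K L T) :=
    (Rep.resFunctor (resHom K L)).map_id _
  rw [h2] at h
  rw [← h]
  refine Finset.sum_congr rfl fun q _ => ?_
  exact ((Rep.resFunctor (resHom K L)).map_comp _ _).symm

theorem projQ_apply (q : T) (a : Jn K L T) :
    (projQ K L T q).hom a =
      Additive.ofMul (Units.map (evalQ L T q : L ⊗[ℚ] QT T →* Bq L T q)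
        (Additive.toMul a)) := rfl

/-- `x ⊗ 1 ↦ x ⊗ 1`. -/
theorem LxToJA_comp_projQ (q : T) :
    LxToJA K L (QT T) ≫ projQ K L T q = LxToJA K L ℚ_[((q : Nat.Primes) : ℕ)] := by
  apply Rep.hom_ext
  apply Representation.IntertwiningMap.ext
  refine LinearMap.ext fun a => ?_
  apply congrArg Additive.ofMul
  apply Units.ext
  rfl

/-- A class of `Hⁿ(Gal(L/K), Jn K L T)` whose components at all `q ∈ T` vanish is zero. -/
theorem eq_zero_of_forall_q (n : ℕ) (y : groupCohomology (Jn K L T) n)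
    (hy : ∀ q : T, groupCohomology.map (MonoidHom.id (L ≃ₐ[K] L)) (projQ K L T q) n y = 0) :
    y = 0 :=
  LocalProdAbs.eq_zero_of_components (projQ K L T) (secQ K L T) (sum_projQ_secQ K L T) n y hy

/-- `x ∈ Hⁿ(Gal(L/K), Lˣ)` with zero image in `Hⁿ(Gal(L/K), (L ⊗[ℚ] ℚ_[q])ˣ)` for all `q ∈ T` has zero
image in `Hⁿ(Gal(L/K), (L ⊗[ℚ] ℚ_T)ˣ)`. -/
theorem map_LxToJA_eq_zero (n : ℕ) (x : groupCohomology (Rep.ofAlgebraAutOnUnits K L) n)
    (hx : ∀ q ∈ T, (groupCohomology.map (MonoidHom.id (L ≃ₐ[K] L))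
      (LxToJA K L ℚ_[((q : Nat.Primes) : ℕ)]) n).hom x = 0) :
    (groupCohomology.map (MonoidHom.id (L ≃ₐ[K] L)) (LxToJA K L (QT T)) n).hom x = 0 := by
  apply eq_zero_of_forall_q K L T n
  intro q
  have h := hx q q.2
  rw [← LxToJA_comp_projQ K L T q, groupCohomology.map_id_comp] at h
  exact h

/-- If `Hⁿ(Gal(L/K), (L ⊗[ℚ] ℚ_[q])ˣ) = 0` for all `q ∈ T` then `Hⁿ(Gal(L/K), Jn K L T) = 0`. -/
theorem isZero_Jn_of_forall_q (n : ℕ) (h : ∀ q ∈ T, IsZero (groupCohomology (Jq K L q) n)) :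
    IsZero (groupCohomology (Jn K L T) n) :=
  LocalProdAbs.isZero_of_components (projQ K L T) (secQ K L T) (sum_projQ_secQ K L T) n
    (fun q => h q q.2)

end rep

end Fermat.Agent.S55.Global.LocalProdT
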