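import Fermat.Agent.S55.Global.LocalProdCoh
import Fermat.Agent.S55.Global.LocalProdT

/-!
# Row `G.localProd`: bridge between the per-PRIME decomposition (`LocalProdT`, helper93) and the
per-PLACE decomposition (`LocalProd`, helper1)

`projLoc K L T ⟨q, 𝔪⟩ = LocalProdT.projQ K L T q ≫ projPlace K L T q 𝔪`, where
`projPlace K L T q 𝔪 : Jq K L q ⟶ Jloc K L q 𝔪` is the projection of
`(L ⊗[ℚ] ℚ_[q])ˣ ≅ ∏_{𝔪 | q} (L ⊗[K] K_𝔪)ˣ`.  Consequences: a class of `Hⁿ(G, Jn K L T)` all of whose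
place-components above `q` vanish has vanishing `q`-component, etc.
-/

set_option autoImplicit false
set_option linter.unusedSectionVars false
set_option linter.style.haveILetI false

open NumberField TensorProduct CategoryTheory

namespace Fermat.Agent.S55.Global.LocalProdBridge

open Fermat.Agent.S55.Global.Objects Fermat.Agent.S55.Global.Objects2
open Fermat.Agent.S55.Global.Blocks3
open Fermat.Agent.S55.Global.LocalProdAbs Fermat.Agent.S55.Global.LocalProdTensor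
open Fermat.Agent.S55.Global.LocalProdRep Fermat.Agent.S55.Global.LocalProdInst
open Fermat.Agent.S55.Global.LocalProd Fermat.Agent.S55.Global.LocalProdCoh

section generic

variable (K : Type) [Field K] [NumberField K]
variable (L : Type) [Field L] [NumberField L] [Algebra K L]
variable {J : Type} (F : J → Type) [∀ j, CommRing (F j)] [∀ j, Algebra ℚ (F j)]

/-- Equivariance of `ρc`. -/
theorem ρc_tensorAct (j : J) (𝔪 : MaximalSpectrum (K ⊗[ℚ] F j)) (σ : L ≃ₐ[K] L)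
    (z : L ⊗[ℚ] F j) :
    ρc K L F j 𝔪 (tensorAct (F j) (resHom K L σ) z) =
      tensorAct ((K ⊗[ℚ] F j) ⧸ 𝔪.asIdeal) σ (ρc K L F j 𝔪 z) := by
  induction z using TensorProduct.induction_on with
  | zero => simp
  | tmul l a =>
    rw [tensorAct_tmul, ρc_tmul, ρc_tmul, tensorAct_tmul]
    rfl
  | add y z hy hz => rw [_root_.map_add, _root_.map_add, hy, hz, _root_.map_add, _root_.map_add]

theorem ρc_includeLeft (j : J) (𝔪 : MaximalSpectrum (K ⊗[ℚ] F j)) (l : L) :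
    ρc K L F j 𝔪 (l ⊗ₜ[ℚ] (1 : F j)) = l ⊗ₜ[K] (1 : (K ⊗[ℚ] F j) ⧸ 𝔪.asIdeal) := by
  rw [ρc_tmul]
  rfl

/-- The family `ρc K L F j` (one `j`, all maximal ideals of `K ⊗[ℚ] F j`) is a local
decomposition of `L ⊗[ℚ] F j`. -/
theorem isLocalDecomp_ρc [Fintype J] [DecidableEq J] (j : J) [IsArtinianRing (K ⊗[ℚ] F j)]
    [IsReduced (K ⊗[ℚ] F j)] :
    IsLocalDecomp (K := K) (L := L) (A := F j)
      (C := fun 𝔪 : MaximalSpectrum (K ⊗[ℚ] F j) => (K ⊗[ℚ] F j) ⧸ 𝔪.asIdeal) (ρc K L F j) :=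
  ⟨isProdDecomp_ρc K L F j, fun 𝔪 σ z => ρc_tensorAct K L F j 𝔪 σ z,
    fun 𝔪 l => ρc_includeLeft K L F j 𝔪 l⟩

theorem πc_eq_comp (x : Idx K F) (z : L ⊗[ℚ] (∀ j, F j)) :
    πc K L F x z = ρc K L F x.1 x.2
      ((Algebra.TensorProduct.map (AlgHom.id ℚ L) (Pi.evalAlgHom ℚ F x.1)).toRingHom z) := rfl

end generic

section places

variable (K : Type) [Field K] [NumberField K]
variable (L : Type) [Field L] [NumberField L] [Algebra K L]
variable (T : Finset Nat.Primes)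

/-- `L ⊗[ℚ] ℚ_[q] →+* L ⊗[K] K_𝔪` for a place `𝔪` of `K` above `q ∈ T`. -/
noncomputable abbrev πPlace (q : T) (𝔪 : MaximalSpectrum (Ksemi K (q : Nat.Primes))) :
    L ⊗[ℚ] ℚ_[((q : Nat.Primes) : ℕ)] →+* L ⊗[K] Kloc K (q : Nat.Primes) 𝔪.asIdeal :=
  ρc K L (QF T) q 𝔪

theorem πPlace_tmul (q : T) (𝔪 : MaximalSpectrum (Ksemi K (q : Nat.Primes))) (l : L)
    (a : ℚ_[((q : Nat.Primes) : ℕ)]) :
    πPlace K L T q 𝔪 (l ⊗ₜ[ℚ] a) = l ⊗ₜ[K] (Ideal.Quotient.mk 𝔪.asIdeal ((1 : K) ⊗ₜ[ℚ] a)) :=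
  ρc_tmul K L (QF T) q 𝔪 l a

/-- `πT ⟨q, 𝔪⟩ = πPlace q 𝔪 ∘ evalQ q`. -/
theorem πT_eq_comp (q : T) (𝔪 : MaximalSpectrum (Ksemi K (q : Nat.Primes))) (z : L ⊗[ℚ] QT T) :
    πT K L T ⟨q, 𝔪⟩ z = πPlace K L T q 𝔪 (LocalProdT.evalQ L T q z) := rfl

/-- **`L ⊗[ℚ] ℚ_[q] ≅ ∏_{𝔪 | q} L ⊗[K] K_𝔪`, `Gal(L/K)`-equivariantly** (`q ∈ T`). -/
theorem isLocalDecomp_πPlace (q : T) :
    IsLocalDecomp (K := K) (L := L) (A := ℚ_[((q : Nat.Primes) : ℕ)])
      (C := fun 𝔪 : MaximalSpectrum (Ksemi K (q : Nat.Primes)) =>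
        Kloc K (q : Nat.Primes) 𝔪.asIdeal) (πPlace K L T q) :=
  haveI : IsArtinianRing (K ⊗[ℚ] QF T q) := isArtinianRing_Ksemi K q
  haveI : IsReduced (K ⊗[ℚ] QF T q) := isReduced_Ksemi K q
  isLocalDecomp_ρc K L (QF T) q

/-- The projection `Jq K L q ⟶ Jloc K L q 𝔪`. -/
noncomputable def projPlace (q : T) (𝔪 : MaximalSpectrum (Ksemi K (q : Nat.Primes))) :
    LocalProdT.Jq K L (q : Nat.Primes) ⟶ Jloc K L (q : Nat.Primes) 𝔪.asIdeal :=
  projJ (isLocalDecomp_πPlace K L T q) 𝔪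

/-- `projLoc K L T ⟨q, 𝔪⟩` with its type written in terms of `q`, `𝔪`. -/
noncomputable abbrev projLocAt (q : T) (𝔪 : MaximalSpectrum (Ksemi K (q : Nat.Primes))) :
    Jn K L T ⟶ Jloc K L (q : Nat.Primes) 𝔪.asIdeal :=
  projLoc K L T ⟨q, 𝔪⟩

/-- **Bridge**: the place-projection factors through the prime-projection of `LocalProdT`. -/
theorem projLoc_eq_projQ_comp (q : T) (𝔪 : MaximalSpectrum (Ksemi K (q : Nat.Primes))) :
    projLocAt K L T q 𝔪 = LocalProdT.projQ K L T q ≫ projPlace K L T q 𝔪 := by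
  apply Rep.hom_ext
  apply Representation.IntertwiningMap.ext
  refine LinearMap.ext fun a => ?_
  apply congrArg Additive.ofMul
  apply Units.ext
  rfl

/-- Finitely many places of `K` above `q`. -/
@[reducible] noncomputable def fintypePlaces (q : Nat.Primes) :
    Fintype (MaximalSpectrum (Ksemi K q)) :=
  haveI : IsArtinianRing (Ksemi K q) := isArtinianRing_Ksemi K q
  Fintype.ofFinite _

theorem map_projPlace_map_projQ (n : ℕ) (a : groupCohomology (Jn K L T) n) (q : T)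
    (𝔪 : MaximalSpectrum (Ksemi K (q : Nat.Primes))) :
    groupCohomology.map (MonoidHom.id (L ≃ₐ[K] L)) (projPlace K L T q 𝔪) n
        (groupCohomology.map (MonoidHom.id (L ≃ₐ[K] L)) (LocalProdT.projQ K L T q) n a) =
      groupCohomology.map (MonoidHom.id (L ≃ₐ[K] L)) (projLocAt K L T q 𝔪) n a := by
  have h1 : groupCohomology.map (A := Jn K L T) (MonoidHom.id (L ≃ₐ[K] L))
        (LocalProdT.projQ K L T q) n ≫
      groupCohomology.map (A := LocalProdT.Jq K L (q : Nat.Primes)) (MonoidHom.id (L ≃ₐ[K] L))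
        (projPlace K L T q 𝔪) n =
        groupCohomology.map (A := Jn K L T) (MonoidHom.id (L ≃ₐ[K] L))
          (projLocAt K L T q 𝔪) n := by
    rw [← groupCohomology.map_id_comp, projLoc_eq_projQ_comp]
  have h2 := congrArg (fun f => f.hom a) h1
  simp only [ModuleCat.hom_comp, LinearMap.comp_apply] at h2
  exact h2

/-- **All place-components above `q` vanish ⇒ the `q`-component vanishes.** -/
theorem map_projQ_eq_zero_of_projLoc (n : ℕ) (a : groupCohomology (Jn K L T) n) (q : T)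
    (h : ∀ 𝔪 : MaximalSpectrum (Ksemi K (q : Nat.Primes)),
      groupCohomology.map (MonoidHom.id (L ≃ₐ[K] L)) (projLocAt K L T q 𝔪) n a = 0) :
    groupCohomology.map (MonoidHom.id (L ≃ₐ[K] L)) (LocalProdT.projQ K L T q) n a = 0 := by
  letI := fintypePlaces K (q : Nat.Primes)
  letI := Classical.decEq (MaximalSpectrum (Ksemi K (q : Nat.Primes)))
  refine eq_zero_of_projJ (isLocalDecomp_πPlace K L T q) n _ fun 𝔪 => ?_
  exact (map_projPlace_map_projQ K L T n a q 𝔪).trans (h 𝔪)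

/-- Conversely, the place-components above `q` are determined by the `q`-component. -/
theorem map_projLoc_eq_zero_of_projQ (n : ℕ) (a : groupCohomology (Jn K L T) n) (q : T)
    (h : groupCohomology.map (MonoidHom.id (L ≃ₐ[K] L)) (LocalProdT.projQ K L T q) n a = 0)
    (𝔪 : MaximalSpectrum (Ksemi K (q : Nat.Primes))) :
    groupCohomology.map (MonoidHom.id (L ≃ₐ[K] L)) (projLocAt K L T q 𝔪) n a = 0 := by
  rw [← map_projPlace_map_projQ, h, _root_.map_zero]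

/-- `Hⁿ(G, (L ⊗[ℚ] ℚ_[q])ˣ) ≃+ ∏_{𝔪 | q} Hⁿ(G, Jloc K L q 𝔪)` (`q ∈ T`). -/
noncomputable def cohEquivPlace (q : T) (n : ℕ) :
    groupCohomology (LocalProdT.Jq K L (q : Nat.Primes)) n ≃+
      (∀ 𝔪 : MaximalSpectrum (Ksemi K (q : Nat.Primes)),
        groupCohomology (Jloc K L (q : Nat.Primes) 𝔪.asIdeal) n) :=
  letI := fintypePlaces K (q : Nat.Primes)
  letI := Classical.decEq (MaximalSpectrum (Ksemi K (q : Nat.Primes)))
  cohEquiv (isLocalDecomp_πPlace K L T q) n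

theorem cohEquivPlace_apply (q : T) (n : ℕ)
    (y : groupCohomology (LocalProdT.Jq K L (q : Nat.Primes)) n)
    (𝔪 : MaximalSpectrum (Ksemi K (q : Nat.Primes))) :
    cohEquivPlace K L T q n y 𝔪 =
      groupCohomology.map (MonoidHom.id (L ≃ₐ[K] L)) (projPlace K L T q 𝔪) n y := rfl

/-- `Lˣ ⟶ (L ⊗[ℚ] ℚ_[q])ˣ ⟶ Jloc K L q 𝔪` is `Blocks3.LxToJ`. -/
theorem LxToJA_comp_projPlace (q : T) (𝔪 : MaximalSpectrum (Ksemi K (q : Nat.Primes))) :
    LocalProdT.LxToJA K L ℚ_[((q : Nat.Primes) : ℕ)] ≫ projPlace K L T q 𝔪 =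
      LxToJ K L (Kloc K (q : Nat.Primes) 𝔪.asIdeal) := by
  letI := fintypePlaces K (q : Nat.Primes)
  letI := Classical.decEq (MaximalSpectrum (Ksemi K (q : Nat.Primes)))
  exact incl_comp_projJ (isLocalDecomp_πPlace K L T q)
    (LocalProdT.LxToJA K L ℚ_[((q : Nat.Primes) : ℕ)]) (fun _ => rfl) 𝔪

end places

end Fermat.Agent.S55.Global.LocalProdBridge
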