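import Fermat.Agent.S55.Global.LocalProd

/-!
# Row `G.localProd`: the packaged isomorphism `Hⁿ(G, Jn K L T) ≃+ ∏_{(q, 𝔪)} Hⁿ(G, Jloc K L q 𝔪)`
-/

set_option autoImplicit false
set_option linter.unusedSectionVars false
set_option linter.style.haveILetI false

open NumberField TensorProduct CategoryTheory

namespace Fermat.Agent.S55.Global.LocalProdCoh

open Fermat.Agent.S55.Global.Objects Fermat.Agent.S55.Global.Objects2
open Fermat.Agent.S55.Global.Blocks3 Fermat.Agent.S55.Global.LocalProdAbs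
open Fermat.Agent.S55.Global.LocalProdRep Fermat.Agent.S55.Global.LocalProd

section generic

variable {K : Type} [Field K] [NumberField K]
variable {L : Type} [Field L] [NumberField L] [Algebra K L]
variable {A : Type} [CommRing A] [Algebra ℚ A]
variable {ι : Type} {C : ι → Type} [∀ i, CommRing (C i)] [∀ i, Algebra K (C i)]
variable {φ : ∀ i, L ⊗[ℚ] A →+* L ⊗[K] C i} [Fintype ι] [DecidableEq ι]

/-- The map `Hⁿ(G, (L ⊗[ℚ] A)ˣ) → ∏ i, Hⁿ(G, (L ⊗[K] C i)ˣ)`. -/
noncomputable def cohMap (h : IsLocalDecomp φ) (n : ℕ) :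
    groupCohomology (Jtot K L A) n →+ (∀ i, groupCohomology (JRep K L (C i)) n) :=
  AddMonoidHom.mk' (fun x i => groupCohomology.map (MonoidHom.id (L ≃ₐ[K] L)) (projJ h i) n x)
    (fun x y => by
      funext i
      exact _root_.map_add _ x y)

theorem cohMap_apply (h : IsLocalDecomp φ) (n : ℕ) (x : groupCohomology (Jtot K L A) n)
    (i : ι) : cohMap h n x i =
      groupCohomology.map (MonoidHom.id (L ≃ₐ[K] L)) (projJ h i) n x := rfl

theorem cohMap_bijective (h : IsLocalDecomp φ) (n : ℕ) : Function.Bijective (cohMap h n) := by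
  constructor
  · intro x y hxy
    refine eq_of_projJ h n x y fun i => ?_
    have := congrFun hxy i
    rwa [cohMap_apply, cohMap_apply] at this
  · intro y
    obtain ⟨x, hx⟩ := exists_of_projJ h n y
    refine ⟨x, ?_⟩
    funext i
    rw [cohMap_apply]
    exact hx i

/-- `Hⁿ(G, (L ⊗[ℚ] A)ˣ) ≃ ∏ i, Hⁿ(G, (L ⊗[K] C i)ˣ)`. -/
noncomputable def cohEquiv (h : IsLocalDecomp φ) (n : ℕ) :
    groupCohomology (Jtot K L A) n ≃+ (∀ i, groupCohomology (JRep K L (C i)) n) :=
  AddEquiv.ofBijective (cohMap h n) (cohMap_bijective h n)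

theorem cohEquiv_apply (h : IsLocalDecomp φ) (n : ℕ) (x : groupCohomology (Jtot K L A) n)
    (i : ι) : cohEquiv h n x i =
      groupCohomology.map (MonoidHom.id (L ≃ₐ[K] L)) (projJ h i) n x := rfl

end generic

section places

variable (K : Type) [Field K] [NumberField K]
variable (L : Type) [Field L] [NumberField L] [Algebra K L]
variable (T : Finset Nat.Primes)

/-- **`Hⁿ(Gal(L/K), Jn K L T) ≃+ ∏_{(q, 𝔪), q ∈ T} Hⁿ(Gal(L/K), Jloc K L q 𝔪)`**, the components
being induced by `projLoc`. -/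
noncomputable def cohEquivLoc (n : ℕ) :
    groupCohomology (Jn K L T) n ≃+
      (∀ x : PlaceIdx K T, groupCohomology (Jloc K L (x.1 : Nat.Primes) x.2.asIdeal) n) :=
  letI := fintypePlaceIdx K T
  letI := Classical.decEq (PlaceIdx K T)
  cohEquiv (isLocalDecomp_πT K L T) n

theorem cohEquivLoc_apply (n : ℕ) (y : groupCohomology (Jn K L T) n) (x : PlaceIdx K T) :
    cohEquivLoc K L T n y x =
      groupCohomology.map (MonoidHom.id (L ≃ₐ[K] L)) (projLoc K L T x) n y := rfl

/-- The component at `x` of the image of a global class is its localisation `locH`. -/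
theorem cohEquivLoc_map_incl (inc : Rep.ofAlgebraAutOnUnits K L ⟶ Jn K L T)
    (hinc : ∀ a : Rep.ofAlgebraAutOnUnits K L,
      inc.hom a = Additive.ofMul (inclUnits ℚ L (QT T) (Additive.toMul a)))
    (n : ℕ) (y : groupCohomology (Rep.ofAlgebraAutOnUnits K L) n) (x : PlaceIdx K T) :
    cohEquivLoc K L T n (groupCohomology.map (MonoidHom.id (L ≃ₐ[K] L)) inc n y) x =
      locH K L (Kloc K (x.1 : Nat.Primes) x.2.asIdeal) n y := by
  rw [cohEquivLoc_apply]
  have h1 : groupCohomology.map (MonoidHom.id (L ≃ₐ[K] L)) inc n ≫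
      groupCohomology.map (MonoidHom.id (L ≃ₐ[K] L)) (projLoc K L T x) n =
        locH K L (Kloc K (x.1 : Nat.Primes) x.2.asIdeal) n := by
    rw [← groupCohomology.map_id_comp, incl_comp_projLoc K L T inc hinc x]
    rfl
  have h2 := congrArg (fun f => f.hom y) h1
  simp only [ModuleCat.hom_comp, LinearMap.comp_apply] at h2
  exact h2

end places

end Fermat.Agent.S55.Global.LocalProdCoh
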