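import Fermat.Agent.S55.Global.Blocks3
import Fermat.Agent.S55.Global.LocalProdAbs

/-!
# `G.localProd`, generic form

`K ⊆ L` number fields, `A` a commutative `ℚ`-algebra, `C i` a finite family of commutative
`K`-algebras and ring homs `φ i : L ⊗[ℚ] A →+* L ⊗[K] C i` which
* identify `L ⊗[ℚ] A` with `∏ i, L ⊗[K] C i`,
* are `Gal(L/K)`-equivariant,
* send `l ⊗ 1` to `l ⊗ 1`.
Then `Rep.res (resHom K L) (JRep ℚ L A) ≅ ∏ i, JRep K L (C i)` (as a biproduct: projections
`projJ`, sections `secJ`), group cohomology decomposes accordingly, and a class of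
`Hⁿ(Gal(L/K), Lˣ)` which is locally trivial at every `C i` dies in `Hⁿ(Gal(L/K), (L ⊗[ℚ] A)ˣ)`.
-/

set_option autoImplicit false
set_option linter.unusedSectionVars false

open NumberField TensorProduct CategoryTheory

namespace Fermat.Agent.S55.Global.LocalProdRep

open Fermat.Agent.S55.Global.Objects Fermat.Agent.S55.Global.Objects2
open Fermat.Agent.S55.Global.Blocks3 Fermat.Agent.S55.Global.LocalProdAbs

variable (K : Type) [Field K] [NumberField K]
variable (L : Type) [Field L] [NumberField L] [Algebra K L]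
variable (A : Type) [CommRing A] [Algebra ℚ A]
variable {ι : Type} (C : ι → Type) [∀ i, CommRing (C i)] [∀ i, Algebra K (C i)]

/-- The action of `Gal(L/K)` on `(L ⊗[ℚ] A)ˣ` through `Gal(L/K) → Aut(L/ℚ)`. -/
@[reducible] noncomputable def actRes : MulDistribMulAction (L ≃ₐ[K] L) (L ⊗[ℚ] A)ˣ :=
  MulDistribMulAction.compHom _ (resHom K L)

/-- `Rep.res (resHom K L) (JRep ℚ L A)` is `(L ⊗[ℚ] A)ˣ` with the action `actRes`. -/
theorem res_JRep_eq :
    Rep.res (resHom K L) (JRep ℚ L A) =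
      @Rep.ofMulDistribMulAction (L ≃ₐ[K] L) (L ⊗[ℚ] A)ˣ _ _ (actRes K L A) := rfl

/-- The total module `(L ⊗[ℚ] A)ˣ` as a `Gal(L/K)`-module (`= Jn K L T` for `A = QT T`). -/
noncomputable abbrev Jtot : Rep ℤ (L ≃ₐ[K] L) := Rep.res (resHom K L) (JRep ℚ L A)

variable {K L A C}

/-- The hypotheses on the family `φ i : L ⊗[ℚ] A →+* L ⊗[K] C i`. -/
structure IsLocalDecomp (φ : ∀ i, L ⊗[ℚ] A →+* L ⊗[K] C i) : Prop where
  prod : IsProdDecomp (R := L ⊗[ℚ] A) (B := fun i => L ⊗[K] C i) φ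
  equivariant : ∀ (i : ι) (σ : L ≃ₐ[K] L) (z : L ⊗[ℚ] A),
    φ i (tensorAct A (resHom K L σ) z) = tensorAct (C i) σ (φ i z)
  incl : ∀ (i : ι) (l : L), φ i (l ⊗ₜ[ℚ] (1 : A)) = l ⊗ₜ[K] (1 : C i)

variable {φ : ∀ i, L ⊗[ℚ] A →+* L ⊗[K] C i}

theorem IsLocalDecomp.units_smul (h : IsLocalDecomp φ) (i : ι) (σ : L ≃ₐ[K] L)
    (u : (L ⊗[ℚ] A)ˣ) :
    Units.map (φ i : L ⊗[ℚ] A →* L ⊗[K] C i)
        (@HSMul.hSMul _ _ _ (@instHSMul _ _ (actRes K L A).toSMul) σ u) =
      σ • Units.map (φ i : L ⊗[ℚ] A →* L ⊗[K] C i) u := by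
  apply Units.ext
  exact h.equivariant i σ u

/-- The projection `Jtot ⟶ JRep K L (C i)`. -/
noncomputable def projJ (h : IsLocalDecomp φ) (i : ι) : Jtot K L A ⟶ JRep K L (C i) :=
  Rep.ofHom
    { toLinearMap := (MonoidHom.toAdditive (Units.map
        (φ i : L ⊗[ℚ] A →* L ⊗[K] C i))).toIntLinearMap
      isIntertwining' := fun σ => by
        refine LinearMap.ext fun a => ?_
        exact congrArg Additive.ofMul (h.units_smul i σ (Additive.toMul a)) }

theorem projJ_apply (h : IsLocalDecomp φ) (i : ι) (a : Jtot K L A) :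
    (projJ h i).hom a = Additive.ofMul (Units.map
      (φ i : L ⊗[ℚ] A →* L ⊗[K] C i) (Additive.toMul a)) := rfl

variable [Fintype ι] [DecidableEq ι]

/-- The section `(L ⊗[K] C i)ˣ →* (L ⊗[ℚ] A)ˣ` (`1` at the other components). -/
noncomputable def secU (h : IsLocalDecomp φ) (i : ι) : (L ⊗[K] C i)ˣ →* (L ⊗[ℚ] A)ˣ :=
  h.prod.sec i

theorem map_secU_self (h : IsLocalDecomp φ) (i : ι) (u : (L ⊗[K] C i)ˣ) :
    Units.map (φ i : L ⊗[ℚ] A →* L ⊗[K] C i) (secU h i u) = u :=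
  h.prod.map_sec_self i u

theorem map_secU_of_ne (h : IsLocalDecomp φ) {i j : ι} (hij : i ≠ j) (u : (L ⊗[K] C i)ˣ) :
    Units.map (φ j : L ⊗[ℚ] A →* L ⊗[K] C j) (secU h i u) = 1 :=
  h.prod.map_sec_of_ne hij u

theorem prod_secU_map (h : IsLocalDecomp φ) (u : (L ⊗[ℚ] A)ˣ) :
    ∏ i, secU h i (Units.map (φ i : L ⊗[ℚ] A →* L ⊗[K] C i) u) = u :=
  h.prod.prod_sec_map u

theorem secU_smul (h : IsLocalDecomp φ) (i : ι) (σ : L ≃ₐ[K] L) (u : (L ⊗[K] C i)ˣ) :
    secU h i (σ • u) =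
      @HSMul.hSMul _ _ _ (@instHSMul _ _ (actRes K L A).toSMul) σ (secU h i u) :=
  (@IsProdDecomp.smul_sec ι _ _ (L ⊗[ℚ] A) _ (fun i => L ⊗[K] C i) _ φ (L ≃ₐ[K] L) _
    (actRes K L A) (fun i => instMDMAUnits (C i)) h.prod h.units_smul i σ u).symm

/-- The section `JRep K L (C i) ⟶ Jtot`. -/
noncomputable def secJ (h : IsLocalDecomp φ) (i : ι) : JRep K L (C i) ⟶ Jtot K L A :=
  Rep.ofHom
    { toLinearMap := (MonoidHom.toAdditive (secU h i)).toIntLinearMap
      isIntertwining' := fun σ => by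
        refine LinearMap.ext fun a => ?_
        exact congrArg Additive.ofMul (secU_smul h i σ (Additive.toMul a)) }

theorem secJ_apply (h : IsLocalDecomp φ) (i : ι) (a : JRep K L (C i)) :
    (secJ h i).hom a = Additive.ofMul (secU h i (Additive.toMul a)) := rfl

theorem sum_projJ_secJ (h : IsLocalDecomp φ) :
    ∑ i, projJ h i ≫ secJ h i = 𝟙 (Jtot K L A) := by
  apply Rep.hom_ext
  apply Representation.IntertwiningMap.ext
  refine LinearMap.ext fun a => ?_
  have h1 : ∀ i, (projJ h i ≫ secJ h i).hom a =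
      Additive.ofMul (secU h i (Units.map (φ i : L ⊗[ℚ] A →* L ⊗[K] C i) (Additive.toMul a))) :=
    fun i => rfl
  have h2 := prod_secU_map h (Additive.toMul a)
  have h3 : Additive.ofMul
      (∏ i, secU h i (Units.map (φ i : L ⊗[ℚ] A →* L ⊗[K] C i) (Additive.toMul a))) = a :=
    congrArg Additive.ofMul h2
  rw [ofMul_prod] at h3
  have h4 : (∑ i, projJ h i ≫ secJ h i).hom a = ∑ i, (projJ h i ≫ secJ h i).hom a := by
    rw [Rep.sum_hom, Representation.IntertwiningMap.sum_apply]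
  change (∑ i, projJ h i ≫ secJ h i).hom a = a
  rw [h4]
  simp only [h1]
  exact h3

theorem secJ_projJ_self (h : IsLocalDecomp φ) (i : ι) :
    secJ h i ≫ projJ h i = 𝟙 (JRep K L (C i)) := by
  apply Rep.hom_ext
  apply Representation.IntertwiningMap.ext
  refine LinearMap.ext fun a => ?_
  exact congrArg Additive.ofMul (map_secU_self h i (Additive.toMul a))

theorem secJ_projJ_of_ne (h : IsLocalDecomp φ) {i j : ι} (hij : i ≠ j) :
    secJ h i ≫ projJ h j = 0 := by
  apply Rep.hom_ext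
  apply Representation.IntertwiningMap.ext
  refine LinearMap.ext fun a => ?_
  exact congrArg Additive.ofMul (map_secU_of_ne h hij (Additive.toMul a))

/-! ### Cohomology -/

/-- **Injectivity**: a class of `Hⁿ(Gal(L/K), (L ⊗[ℚ] A)ˣ)` all of whose local components vanish
is zero. -/
theorem eq_zero_of_projJ (h : IsLocalDecomp φ) (n : ℕ) (x : groupCohomology (Jtot K L A) n)
    (hx : ∀ i, groupCohomology.map (MonoidHom.id (L ≃ₐ[K] L)) (projJ h i) n x = 0) : x = 0 :=
  eq_zero_of_components (projJ h) (secJ h) (sum_projJ_secJ h) n x hx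

/-- Two classes with the same local components are equal. -/
theorem eq_of_projJ (h : IsLocalDecomp φ) (n : ℕ) (x y : groupCohomology (Jtot K L A) n)
    (hxy : ∀ i, groupCohomology.map (MonoidHom.id (L ≃ₐ[K] L)) (projJ h i) n x =
      groupCohomology.map (MonoidHom.id (L ≃ₐ[K] L)) (projJ h i) n y) : x = y :=
  eq_of_components (projJ h) (secJ h) (sum_projJ_secJ h) n x y hxy

/-- **Vanishing**: if all `Hⁿ(Gal(L/K), (L ⊗[K] C i)ˣ)` vanish, so does
`Hⁿ(Gal(L/K), (L ⊗[ℚ] A)ˣ)`. -/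
theorem isZero_of_projJ (h : IsLocalDecomp φ) (n : ℕ)
    (hC : ∀ i, Limits.IsZero (groupCohomology (JRep K L (C i)) n)) :
    Limits.IsZero (groupCohomology (Jtot K L A) n) :=
  isZero_of_components (projJ h) (secJ h) (sum_projJ_secJ h) n hC

/-- **Surjectivity**: local components can be prescribed. -/
theorem exists_of_projJ (h : IsLocalDecomp φ) (n : ℕ)
    (y : ∀ i, groupCohomology (JRep K L (C i)) n) :
    ∃ x : groupCohomology (Jtot K L A) n,
      ∀ i, groupCohomology.map (MonoidHom.id (L ≃ₐ[K] L)) (projJ h i) n x = y i :=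
  exists_of_components (projJ h) (secJ h)
    (fun _ _ hij => secJ_projJ_of_ne h hij) (fun i => secJ_projJ_self h i) n y

/-! ### Compatibility with `Lˣ → (L ⊗ ·)ˣ` -/

/-- Any morphism `Lˣ ⟶ (L ⊗[ℚ] A)ˣ` given by `x ↦ x ⊗ 1` composes with the `i`-th projection to
`Blocks3.LxToJ K L (C i)`. -/
theorem incl_comp_projJ (h : IsLocalDecomp φ)
    (inc : Rep.ofAlgebraAutOnUnits K L ⟶ Jtot K L A)
    (hinc : ∀ a : Rep.ofAlgebraAutOnUnits K L,
      inc.hom a = Additive.ofMul (inclUnits ℚ L A (Additive.toMul a))) (i : ι) :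
    inc ≫ projJ h i = LxToJ K L (C i) := by
  apply Rep.hom_ext
  apply Representation.IntertwiningMap.ext
  refine LinearMap.ext fun a => ?_
  change (projJ h i).hom (inc.hom a) = _
  rw [hinc a, projJ_apply]
  refine congrArg Additive.ofMul ?_
  apply Units.ext
  exact h.incl i ((Additive.toMul a : Lˣ) : L)

/-- **Local-global for the image in `(L ⊗[ℚ] A)ˣ`**: a class `x ∈ Hⁿ(Gal(L/K), Lˣ)` with
`locH K L (C i) n x = 0` for every `i` has zero image in `Hⁿ(Gal(L/K), (L ⊗[ℚ] A)ˣ)`. -/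
theorem map_incl_eq_zero (h : IsLocalDecomp φ)
    (inc : Rep.ofAlgebraAutOnUnits K L ⟶ Jtot K L A)
    (hinc : ∀ a : Rep.ofAlgebraAutOnUnits K L,
      inc.hom a = Additive.ofMul (inclUnits ℚ L A (Additive.toMul a)))
    (n : ℕ) (x : groupCohomology (Rep.ofAlgebraAutOnUnits K L) n)
    (hx : ∀ i, locH K L (C i) n x = 0) :
    groupCohomology.map (MonoidHom.id (L ≃ₐ[K] L)) inc n x = 0 := by
  refine eq_zero_of_projJ h n _ fun i => ?_
  have h1 : groupCohomology.map (MonoidHom.id (L ≃ₐ[K] L)) inc n ≫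
      groupCohomology.map (MonoidHom.id (L ≃ₐ[K] L)) (projJ h i) n = locH K L (C i) n := by
    rw [← groupCohomology.map_id_comp, incl_comp_projJ h inc hinc i]
    rfl
  have h2 := congrArg (fun f => f.hom x) h1
  simp only [ModuleCat.hom_comp, LinearMap.comp_apply] at h2
  exact h2.trans (hx i)

end Fermat.Agent.S55.Global.LocalProdRep
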