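import Fermat.Agent.S55.Global.Blocks3
import Fermat.Agent.S55.Global.LocalProdTensor
import Fermat.Agent.S55.Global.LocalProdRep

/-!
# `G.localProd`: the local decomposition of `(L ⊗[ℚ] ∏_j F_j)ˣ` as a `Gal(L/K)`-module

`K ⊆ L` number fields, `F j` a finite family of commutative `ℚ`-algebras such that every
`K ⊗[ℚ] F j` is reduced Artinian (e.g. `F j = ℚ_[q]`).  Then, `Gal(L/K)`-equivariantly,

  `L ⊗[ℚ] ∏_j F j ≅ ∏_j L ⊗[ℚ] F j ≅ ∏_j L ⊗[K] (K ⊗[ℚ] F j) ≅ ∏_j ∏_𝔪 L ⊗[K] ((K ⊗[ℚ] F j) ⧸ 𝔪)`.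
-/

set_option autoImplicit false
set_option linter.unusedSectionVars false

open NumberField TensorProduct CategoryTheory

namespace Fermat.Agent.S55.Global.LocalProdInst

open Fermat.Agent.S55.Global.Objects Fermat.Agent.S55.Global.Objects2
open Fermat.Agent.S55.Global.LocalProdAbs Fermat.Agent.S55.Global.LocalProdTensor

section ring

/-- Precomposing a product decomposition with a ring isomorphism. -/
theorem isProdDecomp_comp_equiv {ι R R' : Type} [CommRing R] [CommRing R'] {B : ι → Type}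
    [∀ i, CommRing (B i)] {π : ∀ i, R →+* B i} (h : IsProdDecomp π) (e : R' ≃+* R) :
    IsProdDecomp (fun i => (π i).comp e.toRingHom) := by
  have : (fun (r : R') (i : ι) => ((π i).comp e.toRingHom) r) =
      (fun (r : R) (i : ι) => π i r) ∘ e := rfl
  unfold IsProdDecomp
  rw [this]
  exact h.comp e.bijective

variable (K : Type) [Field K] [NumberField K]
variable (L : Type) [Field L] [NumberField L] [Algebra K L]
variable {J : Type} (F : J → Type) [∀ j, CommRing (F j)] [∀ j, Algebra ℚ (F j)]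

/-- The index set: pairs `(j, 𝔪)`, `𝔪` a maximal ideal of `K ⊗[ℚ] F j`. -/
abbrev Idx : Type := Σ j : J, MaximalSpectrum (K ⊗[ℚ] F j)

/-- The residue field `(K ⊗[ℚ] F j) ⧸ 𝔪`. -/
abbrev Res (x : Idx K F) : Type := (K ⊗[ℚ] F x.1) ⧸ x.2.asIdeal

/-- `L ⊗[ℚ] F j → L ⊗[K] ((K ⊗[ℚ] F j) ⧸ 𝔪)`. -/
noncomputable def ρc (j : J) (𝔪 : MaximalSpectrum (K ⊗[ℚ] F j)) :
    L ⊗[ℚ] F j →+* L ⊗[K] ((K ⊗[ℚ] F j) ⧸ 𝔪.asIdeal) :=
  (Algebra.TensorProduct.map (AlgHom.id K L) (Ideal.Quotient.mkₐ K 𝔪.asIdeal)).toRingHom.comp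
    (Algebra.TensorProduct.cancelBaseChange ℚ K K L (F j)).symm.toRingEquiv.toRingHom

theorem ρc_tmul (j : J) (𝔪 : MaximalSpectrum (K ⊗[ℚ] F j)) (l : L) (a : F j) :
    ρc K L F j 𝔪 (l ⊗ₜ[ℚ] a) = l ⊗ₜ[K] (Ideal.Quotient.mk 𝔪.asIdeal (1 ⊗ₜ[ℚ] a)) := by
  simp only [ρc, RingHom.comp_apply]
  erw [Algebra.TensorProduct.cancelBaseChange_symm_tmul]
  rfl

/-- `L ⊗[ℚ] ∏ F j → L ⊗[K] ((K ⊗[ℚ] F j) ⧸ 𝔪)`. -/
noncomputable def πc (x : Idx K F) : L ⊗[ℚ] (∀ j, F j) →+* L ⊗[K] Res K F x :=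
  (ρc K L F x.1 x.2).comp
    (Algebra.TensorProduct.map (AlgHom.id ℚ L) (Pi.evalAlgHom ℚ F x.1)).toRingHom

theorem πc_tmul (x : Idx K F) (l : L) (a : ∀ j, F j) :
    πc K L F x (l ⊗ₜ[ℚ] a) = l ⊗ₜ[K] (Ideal.Quotient.mk x.2.asIdeal (1 ⊗ₜ[ℚ] a x.1)) := by
  simp only [πc, RingHom.comp_apply]
  erw [Algebra.TensorProduct.map_tmul]
  exact ρc_tmul K L F x.1 x.2 l (a x.1)

theorem isProdDecomp_ρc [Fintype J] [DecidableEq J] (j : J) [IsArtinianRing (K ⊗[ℚ] F j)]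
    [IsReduced (K ⊗[ℚ] F j)] :
    IsProdDecomp (ι := MaximalSpectrum (K ⊗[ℚ] F j)) (R := L ⊗[ℚ] F j)
      (B := fun 𝔪 => L ⊗[K] ((K ⊗[ℚ] F j) ⧸ 𝔪.asIdeal)) (ρc K L F j) := by
  classical
  have : Fintype (MaximalSpectrum (K ⊗[ℚ] F j)) := Fintype.ofFinite _
  have h1 : IsProdDecomp (ι := MaximalSpectrum (K ⊗[ℚ] F j))
      (fun 𝔪 => (Ideal.Quotient.mkₐ K 𝔪.asIdeal).toRingHom) :=
    isProdDecomp_quotient (K ⊗[ℚ] F j)
  have h2 := isProdDecomp_baseChange K L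
    (fun 𝔪 : MaximalSpectrum (K ⊗[ℚ] F j) => Ideal.Quotient.mkₐ K 𝔪.asIdeal) h1
  exact isProdDecomp_comp_equiv h2
    (Algebra.TensorProduct.cancelBaseChange ℚ K K L (F j)).symm.toRingEquiv

/-- **The local decomposition** `L ⊗[ℚ] ∏_j F j ≅ ∏_{(j, 𝔪)} L ⊗[K] ((K ⊗[ℚ] F j) ⧸ 𝔪)`. -/
theorem isProdDecomp_πc [Fintype J] [DecidableEq J] [∀ j, IsArtinianRing (K ⊗[ℚ] F j)]
    [∀ j, IsReduced (K ⊗[ℚ] F j)] :
    IsProdDecomp (ι := Idx K F) (R := L ⊗[ℚ] (∀ j, F j)) (B := fun x => L ⊗[K] Res K F x)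
      (πc K L F) :=
  isProdDecomp_sigma (isProdDecomp_tensor_pi ℚ L F)
    (M := fun j => MaximalSpectrum (K ⊗[ℚ] F j))
    (C := fun j 𝔪 => L ⊗[K] ((K ⊗[ℚ] F j) ⧸ 𝔪.asIdeal)) (ρ := ρc K L F)
    (fun j => isProdDecomp_ρc K L F j)

/-- Equivariance of the projections under `Gal(L/K)`. -/
theorem πc_tensorAct (x : Idx K F) (σ : L ≃ₐ[K] L) (z : L ⊗[ℚ] (∀ j, F j)) :
    πc K L F x (tensorAct (∀ j, F j) (resHom K L σ) z) =
      tensorAct (Res K F x) σ (πc K L F x z) := by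
  induction z using TensorProduct.induction_on with
  | zero => simp
  | tmul l a =>
    rw [tensorAct_tmul, πc_tmul, πc_tmul, tensorAct_tmul]
    rfl
  | add y z hy hz => rw [_root_.map_add, _root_.map_add, hy, hz, _root_.map_add, _root_.map_add]

/-- The projections are compatible with `l ↦ l ⊗ 1`. -/
theorem πc_includeLeft (x : Idx K F) (l : L) :
    πc K L F x (l ⊗ₜ[ℚ] (1 : ∀ j, F j)) = l ⊗ₜ[K] (1 : Res K F x) := by
  rw [πc_tmul]
  rfl

end ring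

section rep

open Fermat.Agent.S55.Global.LocalProdRep

variable (K : Type) [Field K] [NumberField K]
variable (L : Type) [Field L] [NumberField L] [Algebra K L]
variable {J : Type} (F : J → Type) [∀ j, CommRing (F j)] [∀ j, Algebra ℚ (F j)]
variable [Fintype J] [DecidableEq J] [∀ j, IsArtinianRing (K ⊗[ℚ] F j)]
  [∀ j, IsReduced (K ⊗[ℚ] F j)]

/-- The index set is finite. -/
@[reducible] noncomputable def fintypeIdx : Fintype (Idx K F) :=
  haveI : ∀ j, Fintype (MaximalSpectrum (K ⊗[ℚ] F j)) := fun _ => Fintype.ofFinite _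
  inferInstance

/-- The family `πc` satisfies the hypotheses of the generic `G.localProd` file. -/
theorem isLocalDecomp_πc :
    IsLocalDecomp (K := K) (L := L) (A := ∀ j, F j) (C := fun x : Idx K F => Res K F x)
      (πc K L F) :=
  ⟨isProdDecomp_πc K L F, fun x σ z => πc_tensorAct K L F x σ z,
    fun x l => πc_includeLeft K L F x l⟩

end rep

end Fermat.Agent.S55.Global.LocalProdInst
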