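import Fermat.Agent.S55.Global.LocalProd
import Fermat.Agent.S55.Middle.HasseH2

/-!
# Row `G.localProd` closes the hypothesis `Middle.HasseH2.LocalProdZero`
-/

set_option autoImplicit false
set_option linter.unusedSectionVars false

open NumberField TensorProduct CategoryTheory

namespace Fermat.Agent.S55.Global.LocalProdZeroGlue

open Fermat.Agent.S55.Global.Objects Fermat.Agent.S55.Global.Objects2
open Fermat.Agent.S55.Global.Blocks2 Fermat.Agent.S55.Global.Blocks3

/-- **`LocalProdZero` holds** (row `G.localProd`). -/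
theorem localProdZero : Fermat.Agent.S55.Middle.HasseH2.LocalProdZero := by
  intro K L _ _ _ _ _ _ T x hx
  exact LocalProd.map_incl_eq_zero_of_locH K L T
    (Fermat.Agent.S55.Middle.HasseH2.LxToJn K L T) (fun _ => rfl) 2 x
    (fun q _ 𝔪 h𝔪 => hx q 𝔪 h𝔪)

/-- **(HBN-inj) `Blocks3.HasseH2 p`** from `(G-i)` and `G.admissible` alone. -/
theorem hasseH2_of_H1Vanish' {p : ℕ} (h1 : H1Vanish p)
    (hAdm : Fermat.Agent.S55.Middle.HasseH2.AdmissibleQExists) : HasseH2 p :=
  Fermat.Agent.S55.Middle.HasseH2.hasseH2_of_H1Vanish h1 localProdZero hAdm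

end Fermat.Agent.S55.Global.LocalProdZeroGlue
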