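/-
S55 / Global / G.recip — FINAL, part 2 (helper46): **(G-iv)** from the Hasse principle alone
(the Local block is closed: `Local.BrauerUnramFinal.h2Cyclic : Local.Blocks.H2Cyclic`).

  `noSingleSupport_of_hasse : Blocks3.HasseH2 p → Blocks3.NoSingleSupport p`
-/
import Fermat.Agent.S55.Global.RecipFinal
import Fermat.Agent.S55.Local.BrauerUnramFinal

set_option autoImplicit false

namespace Fermat.Agent.S55.Global.RecipFinal2

open Fermat.Agent.S55.Global

/-- **(G-iv) No single support** follows from the Hasse principle for `H²`. -/
theorem noSingleSupport_of_hasse (p : ℕ) (hH : Blocks3.HasseH2 p) : Blocks3.NoSingleSupport p :=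
  RecipFinal.noSingleSupport p hH Fermat.Agent.S55.Local.BrauerUnramFinal.h2Cyclic

end Fermat.Agent.S55.Global.RecipFinal2
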