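import Mathlib
import Fermat.Agent.S55.Global.HasseH2Final
import Fermat.Agent.S55.Global.RecipFinal2

/-!
# S55 / Global — (G-iv) no single support, unconditional

`noSingleSupport p : Blocks3.NoSingleSupport p` from `HasseH2Final.hasseH2` and helper46's
`RecipFinal2.noSingleSupport_of_hasse`.
-/

set_option autoImplicit false

namespace Fermat.Agent.S55.Global.NoSingleSupportFinal

/-- **(G-iv) No single support** (reciprocity, tame form). Unconditional. -/
theorem noSingleSupport (p : ℕ) : Blocks3.NoSingleSupport p :=
  RecipFinal2.noSingleSupport_of_hasse p (HasseH2Final.hasseH2 p)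

end Fermat.Agent.S55.Global.NoSingleSupportFinal
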