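import Mathlib
import Fermat.Agent.S55.Global.PlaceBij
import Fermat.Agent.S55.Global.FirstIneq2

/-!
# S55 / Global / G.dec.card: counting the maximal ideals of `E ⊗[ℚ] ℚ_q`

For a number field `E` and a rational prime `q`:
`#MaxSpec (E ⊗[ℚ] ℚ_q) = #{places of E above q}` — the cardinality input `(*)` of G.first
(helper31 #1802), a corollary of `PlaceBij.maxSpecEquiv` (helper71).

Owner: helper88.
-/

set_option autoImplicit false

open NumberField IsDedekindDomain
open scoped TensorProduct NumberField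

namespace Fermat.Agent.S55.Global.PlaceCard

open Fermat.Agent.S55.Global Fermat.Agent.S55.Global.FirstIneq2

/-- the places of `E` above `q`, as a subtype, are the elements of `placesOverQ E {q}`. -/
noncomputable def placesOverEquiv (E : Type) [Field E] [NumberField E] (q : Nat.Primes) :
    {u : HeightOneSpectrum (𝓞 E) // (((q : ℕ) : ℕ) : 𝓞 E) ∈ u.asIdeal} ≃
      {u : HeightOneSpectrum (𝓞 E) // u ∈ placesOverQ E {q}} :=
  Equiv.subtypeEquivRight fun u => by
    rw [mem_placesOverQ]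
    simp

/-- **G.dec.card**: maximal ideals of `E ⊗[ℚ] ℚ_q` ↔ elements of `placesOverQ E {q}`. -/
noncomputable def maxSpecEquivPlacesOverQ (E : Type) [Field E] [NumberField E] (q : Nat.Primes) :
    {m : Ideal (E ⊗[ℚ] ℚ_[(q : ℕ)]) // m.IsMaximal} ≃
      {u : HeightOneSpectrum (𝓞 E) // u ∈ placesOverQ E {q}} :=
  (PlaceBij.maxSpecEquiv E (q : ℕ)).trans (placesOverEquiv E q)

theorem maxSpecEquivPlacesOverQ_apply (E : Type) [Field E] [NumberField E] (q : Nat.Primes)
    (m : {m : Ideal (E ⊗[ℚ] ℚ_[(q : ℕ)]) // m.IsMaximal}) :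
    ((maxSpecEquivPlacesOverQ E q m :
        {u : HeightOneSpectrum (𝓞 E) // u ∈ placesOverQ E {q}}) : HeightOneSpectrum (𝓞 E)) =
      @PlaceBij.placeOfMax (q : ℕ) _ E _ _ m.1 m.2 := rfl

/-- **G.dec.card** (helper31's `(*)` input): `#MaxSpec (E ⊗[ℚ] ℚ_q) = #{places of E above q}`. -/
theorem card_maxSpec (E : Type) [Field E] [NumberField E] (q : Nat.Primes) :
    Nat.card {m : Ideal (E ⊗[ℚ] ℚ_[(q : ℕ)]) // m.IsMaximal} = (placesOverQ E {q}).card := by
  rw [Nat.card_congr (maxSpecEquivPlacesOverQ E q), Nat.card_eq_fintype_card, Fintype.card_coe]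

/-- the `ncard` form. -/
theorem card_maxSpec_ncard (E : Type) [Field E] [NumberField E] (q : Nat.Primes) :
    Nat.card {m : Ideal (E ⊗[ℚ] ℚ_[(q : ℕ)]) // m.IsMaximal} =
      {u : HeightOneSpectrum (𝓞 E) | (((q : ℕ) : ℕ) : 𝓞 E) ∈ u.asIdeal}.ncard := by
  rw [Nat.card_congr (PlaceBij.maxSpecEquiv E (q : ℕ))]
  rfl

/-- finiteness of the maximal spectrum. -/
theorem finite_maxSpec (E : Type) [Field E] [NumberField E] (q : Nat.Primes) :
    Finite {m : Ideal (E ⊗[ℚ] ℚ_[(q : ℕ)]) // m.IsMaximal} :=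
  Finite.of_equiv _ (maxSpecEquivPlacesOverQ E q).symm

end Fermat.Agent.S55.Global.PlaceCard
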