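/-
S55 / Global / G.dec adapters — TRANSPORT OF LOCAL GALOIS NORMS between models of the completion
(helper71).

`Objects4.IsLocalNormAt K M q 𝔪 b` lives in `M ⊗[K] Kloc K q 𝔪`.  Statements proved in the
`v.adicCompletion K` model (helper36 `UnramDict`, `SemilocalPrimesTensor`, helper44 `RecipApprox`)
transport along any `K`-algebra hom `A →ₐ[K] Kloc K q 𝔪`, in particular along the isomorphism
`(placeOfMax 𝔪).adicCompletion K ≃ₐ[K] Kloc K q 𝔪` of `PlaceKloc`.

* `mapUnits φ : (M ⊗[K] A)ˣ →* (M ⊗[K] A')ˣ`, `mapUnits_smul`, `mapUnits_galNormK`,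
  `mapUnits_inclUnits`;
* `isLocalNormAt_of_algHom`, `isLocalNormAt_of_adicCompletion` (unit form),
  `isLocalNormAt_of_adicCompletion'` (element form `∏ τ, τ • x = 1 ⊗ₜ b`, the shape of
  `RecipApproxAlg.exists_of_algHom`);
* `exists_adicCompletion_of_isLocalNormAt` (the converse transport).
-/
import Mathlib
import Fermat.Agent.S55.Global.PlaceKloc
import Fermat.Agent.S55.Global.Objects4

set_option autoImplicit false
set_option linter.unusedSectionVars false

namespace Fermat.Agent.S55.Global.PlaceNormTransport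

open NumberField IsDedekindDomain
open scoped TensorProduct NumberField
open Fermat.Agent.S55.Global.Objects Fermat.Agent.S55.Global.Objects2
open Fermat.Agent.S55.Global.Blocks3 Fermat.Agent.S55.Global.Objects4
open Fermat.Agent.S55.Global.PlaceBij

section Generic

variable {K M : Type} [Field K] [NumberField K] [Field M] [NumberField M] [Algebra K M]
  {A A' : Type} [CommRing A] [Algebra K A] [CommRing A'] [Algebra K A']

/-- `id ⊗ φ` on units. -/
noncomputable def mapUnits (φ : A →ₐ[K] A') : (M ⊗[K] A)ˣ →* (M ⊗[K] A')ˣ :=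
  Units.map (Algebra.TensorProduct.map (AlgHom.id K M) φ).toRingHom.toMonoidHom

theorem val_mapUnits (φ : A →ₐ[K] A') (y : (M ⊗[K] A)ˣ) :
    ((mapUnits φ y : (M ⊗[K] A')ˣ) : M ⊗[K] A') =
      Algebra.TensorProduct.map (AlgHom.id K M) φ (y : M ⊗[K] A) := rfl

theorem map_smul_tensor (φ : A →ₐ[K] A') (τ : M ≃ₐ[K] M) (z : M ⊗[K] A) :
    Algebra.TensorProduct.map (AlgHom.id K M) φ (τ • z) =
      τ • Algebra.TensorProduct.map (AlgHom.id K M) φ z := by
  induction z using TensorProduct.induction_on with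
  | zero => simp
  | tmul x a => rfl
  | add x y hx hy => rw [smul_add, map_add, map_add, smul_add, hx, hy]

theorem mapUnits_smul (φ : A →ₐ[K] A') (τ : M ≃ₐ[K] M) (y : (M ⊗[K] A)ˣ) :
    mapUnits φ (τ • y) = τ • mapUnits φ y := by
  apply Units.ext
  rw [val_mapUnits, val_smul_units, val_smul_units, val_mapUnits]
  exact map_smul_tensor φ τ _

theorem mapUnits_galNormK [Fintype (M ≃ₐ[K] M)] (φ : A →ₐ[K] A') (y : (M ⊗[K] A)ˣ) :
    mapUnits φ (galNormK K M A y) = galNormK K M A' (mapUnits φ y) := by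
  unfold galNormK
  rw [map_prod]
  exact Finset.prod_congr rfl fun τ _ => mapUnits_smul φ τ y

theorem mapUnits_inclUnits (φ : A →ₐ[K] A') (x : Mˣ) :
    mapUnits φ (inclUnits K M A x) = inclUnits K M A' x := by
  apply Units.ext
  rw [val_mapUnits, val_inclUnits, val_inclUnits, Algebra.TensorProduct.map_tmul, map_one]
  rfl

/-- **Transport** of a local Galois norm along a `K`-algebra homomorphism. -/
theorem exists_galNormK_of_algHom [Fintype (M ≃ₐ[K] M)] (φ : A →ₐ[K] A') (x : Mˣ)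
    (h : ∃ y : (M ⊗[K] A)ˣ, galNormK K M A y = inclUnits K M A x) :
    ∃ y : (M ⊗[K] A')ˣ, galNormK K M A' y = inclUnits K M A' x := by
  obtain ⟨y, hy⟩ := h
  exact ⟨mapUnits φ y, by rw [← mapUnits_galNormK, hy, mapUnits_inclUnits]⟩

/-- From the element form `∏ τ, τ • z = 1 ⊗ₜ b` (shape of `RecipApproxAlg`) to the unit form. -/
theorem exists_unit_of_prod_eq [Fintype (M ≃ₐ[K] M)] (b : Kˣ)
    (h : ∃ z : M ⊗[K] A, ∏ τ : M ≃ₐ[K] M, τ • z = (1 : M) ⊗ₜ[K] algebraMap K A (b : K)) :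
    ∃ y : (M ⊗[K] A)ˣ, galNormK K M A y =
      inclUnits K M A (Units.map (algebraMap K M).toMonoidHom b) := by
  classical
  obtain ⟨z, hz⟩ := h
  -- `1 ⊗ b = b ⊗ 1` is a unit
  have hb : (1 : M) ⊗ₜ[K] algebraMap K A (b : K) =
      ((inclUnits K M A (Units.map (algebraMap K M).toMonoidHom b) : (M ⊗[K] A)ˣ) :
        M ⊗[K] A) := by
    rw [val_inclUnits]
    change _ = (algebraMap K M (b : K)) ⊗ₜ[K] (1 : A)
    rw [Algebra.algebraMap_eq_smul_one, Algebra.algebraMap_eq_smul_one (b : K),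
      TensorProduct.smul_tmul]
  have hunit : IsUnit (∏ τ : M ≃ₐ[K] M, τ • z) := by
    rw [hz, hb]
    exact Units.isUnit _
  -- hence `z` is a unit (the factor `τ = 1`)
  have hz1 : IsUnit z := by
    rw [← Finset.mul_prod_erase Finset.univ (fun τ : M ≃ₐ[K] M => τ • z) (Finset.mem_univ 1),
      one_smul] at hunit
    exact isUnit_of_mul_isUnit_left hunit
  refine ⟨hz1.unit, ?_⟩
  apply Units.ext
  rw [← hb, ← hz]
  unfold galNormK
  rw [Units.coe_prod]
  exact Finset.prod_congr rfl fun τ _ => rfl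

end Generic

section Kloc

variable (K M : Type) [Field K] [NumberField K] [Field M] [NumberField M] [Algebra K M]
  [Fintype (M ≃ₐ[K] M)] (q : Nat.Primes)

/-- A local norm in any model `A` with a `K`-algebra hom to `Kloc K q 𝔪` is a local norm at
`(q, 𝔪)`. -/
theorem isLocalNormAt_of_algHom (𝔪 : Ideal (Ksemi K q)) {A : Type} [CommRing A] [Algebra K A]
    (φ : A →ₐ[K] Kloc K q 𝔪) (b : Kˣ)
    (h : ∃ y : (M ⊗[K] A)ˣ, galNormK K M A y =
      inclUnits K M A (Units.map (algebraMap K M).toMonoidHom b)) :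
    IsLocalNormAt K M q 𝔪 b :=
  exists_galNormK_of_algHom φ _ h

/-- **K_v-model ⇒ Kloc-model** (unit form). -/
theorem isLocalNormAt_of_adicCompletion (𝔪 : Ideal (Ksemi K q)) [𝔪.IsMaximal] (b : Kˣ)
    (h : ∃ y : (M ⊗[K] (placeOfMax 𝔪).adicCompletion K)ˣ,
      galNormK K M ((placeOfMax 𝔪).adicCompletion K) y =
        inclUnits K M ((placeOfMax 𝔪).adicCompletion K)
          (Units.map (algebraMap K M).toMonoidHom b)) :
    IsLocalNormAt K M q 𝔪 b := by
  obtain ⟨-, ⟨e⟩⟩ := PlaceKloc.exists_place_algEquiv K q 𝔪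
  exact isLocalNormAt_of_algHom K M q 𝔪 e.symm.toAlgHom b h

/-- **K_v-model ⇒ Kloc-model** (element form, the shape of `RecipApproxAlg.exists_of_algHom`). -/
theorem isLocalNormAt_of_adicCompletion' (𝔪 : Ideal (Ksemi K q)) [𝔪.IsMaximal] (b : Kˣ)
    (h : ∃ z : M ⊗[K] (placeOfMax 𝔪).adicCompletion K,
      ∏ τ : M ≃ₐ[K] M, τ • z =
        (1 : M) ⊗ₜ[K] algebraMap K ((placeOfMax 𝔪).adicCompletion K) (b : K)) :
    IsLocalNormAt K M q 𝔪 b :=
  isLocalNormAt_of_adicCompletion K M q 𝔪 b (exists_unit_of_prod_eq b h)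

/-- **Kloc-model ⇒ K_v-model**. -/
theorem exists_adicCompletion_of_isLocalNormAt (𝔪 : Ideal (Ksemi K q)) [𝔪.IsMaximal] (b : Kˣ)
    (h : IsLocalNormAt K M q 𝔪 b) :
    ∃ y : (M ⊗[K] (placeOfMax 𝔪).adicCompletion K)ˣ,
      galNormK K M ((placeOfMax 𝔪).adicCompletion K) y =
        inclUnits K M ((placeOfMax 𝔪).adicCompletion K)
          (Units.map (algebraMap K M).toMonoidHom b) := by
  obtain ⟨-, ⟨e⟩⟩ := PlaceKloc.exists_place_algEquiv K q 𝔪
  exact exists_galNormK_of_algHom e.toAlgHom _ h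

/-- The same for a prime `v` of `K` above `q`: there is a place `(q, 𝔪)` with `placeOfMax 𝔪 = v`
such that local norms in the `K_v`-model are local norms at `(q, 𝔪)` and conversely. -/
theorem exists_place_isLocalNormAt_iff (v : HeightOneSpectrum (𝓞 K))
    (hq : (((q : Nat.Primes) : ℕ) : 𝓞 K) ∈ v.asIdeal) :
    ∃ (𝔪 : Ideal (Ksemi K q)) (hm : 𝔪.IsMaximal), @placeOfMax _ _ K _ _ 𝔪 hm = v ∧
      ∀ b : Kˣ, IsLocalNormAt K M q 𝔪 b ↔
        ∃ y : (M ⊗[K] v.adicCompletion K)ˣ, galNormK K M (v.adicCompletion K) y =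
          inclUnits K M (v.adicCompletion K) (Units.map (algebraMap K M).toMonoidHom b) := by
  obtain ⟨𝔪, hm, hv, ⟨e⟩⟩ := PlaceKloc.exists_kloc_algEquiv K q v hq
  refine ⟨𝔪, hm, hv, fun b => ⟨fun h => ?_, fun h => ?_⟩⟩
  · exact exists_galNormK_of_algHom e.toAlgHom _ h
  · exact exists_galNormK_of_algHom e.symm.toAlgHom _ h

end Kloc

end Fermat.Agent.S55.Global.PlaceNormTransport
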