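/-
S55 / Global / G.bridge2.powQ — Hensel and weak approximation for `B = K ⊗[ℚ] ℚ_T`
(interface v3, helper2).

`K` a number field, `T : Finset Nat.Primes`, `B := K ⊗[ℚ] QT T`, `π := piT T = ∏_{q ∈ T} q`.
`Lam K T : Subring B` is the `ℤ_T`-lattice spanned by `𝓞 K ⊗ 1`; it is `π`-adically complete.
-/
import Fermat.Agent.S55.Global.PowAbstract
import Fermat.Agent.S55.Global.Objects2

set_option autoImplicit false

open NumberField TensorProduct

namespace Fermat.Agent.S55.Global.PowLatticeQ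

open Fermat.Agent.S55.Global.Objects Fermat.Agent.S55.Global.Objects2
open Fermat.Agent.S55.Global.PowAbstract

/-! ### `p`-adic preliminaries -/

/-- `π_T = ∏_{q ∈ T} q`. -/
def piT (T : Finset Nat.Primes) : ℕ := ∏ q ∈ T, ((q : Nat.Primes) : ℕ)

theorem piT_ne_zero (T : Finset Nat.Primes) : piT T ≠ 0 :=
  Finset.prod_ne_zero_iff.mpr fun q _ => q.2.ne_zero

theorem piT_pos (T : Finset Nat.Primes) : 0 < piT T := Nat.pos_of_ne_zero (piT_ne_zero T)

/-- `‖π_T‖_q = q⁻¹` for `q ∈ T`. -/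
theorem norm_piT (T : Finset Nat.Primes) (q : T) :
    ‖((piT T : ℕ) : ℚ_[((q : Nat.Primes) : ℕ)])‖ = (((q : Nat.Primes) : ℕ) : ℝ)⁻¹ := by
  have hq : (q : Nat.Primes) ∈ T := q.2
  rw [piT, ← Finset.mul_prod_erase T _ hq, Nat.cast_mul, norm_mul, Padic.norm_p]
  have h1 : ‖((∏ x ∈ T.erase (q : Nat.Primes), ((x : Nat.Primes) : ℕ) : ℕ) :
      ℚ_[((q : Nat.Primes) : ℕ)])‖ = 1 := by
    rw [Padic.norm_natCast_eq_one_iff]
    apply Nat.Coprime.prod_right
    intro x hx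
    rw [Finset.mem_erase] at hx
    exact (Nat.coprime_primes (q : Nat.Primes).2 x.2).mpr
      (fun h => hx.1 (Subtype.ext h.symm))
  rw [h1, mul_one]

/-- A sequence in `ℚ_[q]` with `‖s (n+1) - s n‖ ≤ ρ ^ n`, `ρ < 1`, converges, with the expected
estimate. -/
theorem exists_padic_limit {q : ℕ} [Fact q.Prime] (s : ℕ → ℚ_[q]) {ρ : ℝ} (hρ0 : 0 ≤ ρ)
    (hρ1 : ρ < 1) (h : ∀ n, ‖s (n + 1) - s n‖ ≤ ρ ^ n) : ∃ t : ℚ_[q], ∀ n, ‖t - s n‖ ≤ ρ ^ n := by
  have hmn : ∀ n k, ‖s (n + k) - s n‖ ≤ ρ ^ n := by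
    intro n k
    induction k with
    | zero => simp [pow_nonneg hρ0]
    | succ k ih =>
      have e : s (n + (k + 1)) - s n = (s (n + k + 1) - s (n + k)) + (s (n + k) - s n) := by
        rw [← add_assoc]; ring
      rw [e]
      refine (Padic.nonarchimedean _ _).trans (max_le ?_ ih)
      exact (h (n + k)).trans (pow_le_pow_of_le_one hρ0 hρ1.le (Nat.le_add_right n k))
  have hc : CauchySeq s := by
    refine cauchySeq_of_le_geometric ρ 1 hρ1 fun n => ?_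
    rw [dist_comm, dist_eq_norm, one_mul]
    exact h n
  obtain ⟨t, ht⟩ := cauchySeq_tendsto_of_complete hc
  refine ⟨t, fun n => ?_⟩
  have h1 : Filter.Tendsto (fun m => ‖s m - s n‖) Filter.atTop (nhds ‖t - s n‖) :=
    (ht.sub_const (s n)).norm
  refine le_of_tendsto h1 ?_
  filter_upwards [Filter.eventually_ge_atTop n] with m hm
  obtain ⟨k, rfl⟩ := Nat.exists_eq_add_of_le hm
  exact hmn n k

/-! ### The integral subring of `ℚ_T` -/

/-- `ℤ_T = ∏_{q ∈ T} ℤ_q ⊆ ℚ_T`. -/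
def intQT (T : Finset Nat.Primes) : Subring (QT T) where
  carrier := {c | ∀ q, ‖c q‖ ≤ 1}
  mul_mem' := by
    intro a b ha hb q
    rw [Pi.mul_apply, norm_mul]
    exact mul_le_one₀ (ha q) (norm_nonneg _) (hb q)
  one_mem' := fun q => by simp
  add_mem' := by
    intro a b ha hb q
    exact (Padic.nonarchimedean _ _).trans (max_le (ha q) (hb q))
  zero_mem' := fun q => by simp
  neg_mem' := by
    intro a ha q
    rw [Pi.neg_apply, norm_neg]
    exact ha q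

theorem mem_intQT {T : Finset Nat.Primes} {c : QT T} : c ∈ intQT T ↔ ∀ q, ‖c q‖ ≤ 1 := Iff.rfl

theorem natCast_QT_apply (T : Finset Nat.Primes) (n : ℕ) (q : T) :
    ((n : QT T)) q = (n : ℚ_[((q : Nat.Primes) : ℕ)]) := rfl

/-- Divisibility by `π ^ n` in `ℤ_T`, in terms of norms. -/
theorem exists_eq_pi_pow_mul_iff {T : Finset Nat.Primes} (c : QT T) (n : ℕ) :
    (∃ d ∈ intQT T, c = ((piT T : ℕ) : QT T) ^ n * d) ↔
      ∀ q : T, ‖c q‖ ≤ ((((q : Nat.Primes) : ℕ) : ℝ)⁻¹) ^ n := by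
  constructor
  · rintro ⟨d, hd, rfl⟩ q
    rw [Pi.mul_apply, Pi.pow_apply, natCast_QT_apply, norm_mul, norm_pow, norm_piT]
    exact mul_le_of_le_one_right (by positivity) (hd q)
  · intro h
    have hpi : ∀ q : T, ((piT T : ℕ) : ℚ_[((q : Nat.Primes) : ℕ)]) ≠ 0 := fun q => by
      exact_mod_cast piT_ne_zero T
    refine ⟨fun q => c q / ((piT T : ℕ) : ℚ_[((q : Nat.Primes) : ℕ)]) ^ n, fun q => ?_, ?_⟩
    · show ‖c q / ((piT T : ℕ) : ℚ_[((q : Nat.Primes) : ℕ)]) ^ n‖ ≤ 1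
      rw [norm_div, norm_pow, norm_piT]
      have hpos : (0 : ℝ) < ((((q : Nat.Primes) : ℕ) : ℝ)⁻¹) ^ n := by
        have : (0 : ℝ) < (((q : Nat.Primes) : ℕ) : ℝ) := by exact_mod_cast (q : Nat.Primes).2.pos
        positivity
      rw [div_le_one hpos]
      exact h q
    · funext q
      rw [Pi.mul_apply, Pi.pow_apply, natCast_QT_apply]
      field_simp [hpi q]

/-! ### Coordinates and the lattice -/

section Lattice

variable (K : Type) [Field K] [NumberField K] (T : Finset Nat.Primes)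

/-- The index type of the integral basis. -/
abbrev Idx : Type := Module.Free.ChooseBasisIndex ℤ (𝓞 K)

/-- `B = K ⊗[ℚ] ℚ_T`. -/
abbrev BT : Type := K ⊗[ℚ] QT T

open scoped Classical in
/-- Coordinates of `K ⊗[ℚ] ℚ_T` with respect to the integral basis of `K`. -/
noncomputable def coord : (K ⊗[ℚ] QT T) ≃ₗ[ℚ] (Idx K →₀ QT T) :=
  TensorProduct.equivFinsuppOfBasisLeft (integralBasis K)

theorem coord_tmul (x : K) (c : QT T) (i : Idx K) :
    coord K T (x ⊗ₜ c) i = (integralBasis K).repr x i • c := by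
  classical
  exact TensorProduct.equivFinsuppOfBasisLeft_apply_tmul_apply _ _ _ _

theorem coord_symm_apply (b : Idx K →₀ QT T) :
    (coord K T).symm b = b.sum fun i c => integralBasis K i ⊗ₜ c := by
  classical
  exact TensorProduct.equivFinsuppOfBasisLeft_symm_apply _ _

theorem ratCast_smul_QT_apply (r : ℚ) (c : QT T) (q : T) :
    (r • c) q = (r : ℚ_[((q : Nat.Primes) : ℕ)]) * c q := by
  rw [Pi.smul_apply, Algebra.smul_def, eq_ratCast]

/-- The multiplicative generators `x ⊗ c`, `x ∈ 𝓞 K`, `c ∈ ℤ_T`. -/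
noncomputable def gens : Submonoid (K ⊗[ℚ] QT T) where
  carrier := {z | ∃ (x : 𝓞 K) (c : QT T), c ∈ intQT T ∧ z = (x : K) ⊗ₜ[ℚ] c}
  one_mem' := ⟨1, 1, one_mem _, by simp [Algebra.TensorProduct.one_def]⟩
  mul_mem' := by
    rintro _ _ ⟨x, c, hc, rfl⟩ ⟨x', c', hc', rfl⟩
    exact ⟨x * x', c * c', mul_mem hc hc', by simp [Algebra.TensorProduct.tmul_mul_tmul]⟩

/-- The lattice `𝓞 K ⊗ ℤ_T` inside `K ⊗[ℚ] ℚ_T`, as a subring. -/
noncomputable def Lam : Subring (K ⊗[ℚ] QT T) := Subring.closure (gens K T : Set (K ⊗[ℚ] QT T))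

theorem tmul_mem_Lam (x : 𝓞 K) {c : QT T} (hc : c ∈ intQT T) :
    (x : K) ⊗ₜ[ℚ] c ∈ Lam K T :=
  Subring.subset_closure ⟨x, c, hc, rfl⟩

/-- Coordinates of a generator are integral. -/
theorem coord_gen_mem (x : 𝓞 K) {c : QT T} (hc : c ∈ intQT T) (i : Idx K) :
    coord K T ((x : K) ⊗ₜ[ℚ] c) i ∈ intQT T := by
  rw [coord_tmul, integralBasis_repr_apply]
  intro q
  rw [ratCast_smul_QT_apply, norm_mul]
  refine mul_le_one₀ ?_ (norm_nonneg _) (hc q)
  rw [eq_intCast, Rat.cast_intCast]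
  exact Padic.norm_int_le_one _

/-- **The lattice in coordinates.** -/
theorem mem_Lam_iff {z : K ⊗[ℚ] QT T} : z ∈ Lam K T ↔ ∀ i, coord K T z i ∈ intQT T := by
  constructor
  · intro hz
    have key : ∀ y ∈ AddSubgroup.closure (gens K T : Set (K ⊗[ℚ] QT T)),
        ∀ i, coord K T y i ∈ intQT T := by
      intro y hy
      refine AddSubgroup.closure_induction (p := fun y _ => ∀ i, coord K T y i ∈ intQT T)
        ?_ ?_ ?_ ?_ hy
      · rintro _ ⟨x, c, hc, rfl⟩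
        exact coord_gen_mem K T x hc
      · intro i
        rw [map_zero, Finsupp.zero_apply]
        exact zero_mem _
      · intro a b _ _ ha hb i
        rw [map_add, Finsupp.add_apply]
        exact add_mem (ha i) (hb i)
      · intro a _ ha i
        rw [map_neg, Finsupp.neg_apply]
        exact neg_mem (ha i)
    have hz' : z ∈ AddSubgroup.closure
        ((Submonoid.closure (gens K T : Set (K ⊗[ℚ] QT T)) : Submonoid (K ⊗[ℚ] QT T)) :
          Set (K ⊗[ℚ] QT T)) := Subring.mem_closure_iff.mp hz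
    rw [Submonoid.closure_eq] at hz'
    exact key z hz'
  · intro h
    have e := coord_symm_apply K T (coord K T z)
    rw [LinearEquiv.symm_apply_apply] at e
    rw [e, Finsupp.sum]
    refine sum_mem fun i _ => ?_
    rw [integralBasis_apply]
    exact tmul_mem_Lam K T _ (h i)

end Lattice

/-! ### `π`-adic completeness of the lattice -/

section Complete

variable (K : Type) [Field K] [NumberField K] (T : Finset Nat.Primes)

theorem coord_natCast_mul (n : ℕ) (z : K ⊗[ℚ] QT T) (i : Idx K) :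
    coord K T ((n : K ⊗[ℚ] QT T) * z) i = (n : QT T) * coord K T z i := by
  rw [← nsmul_eq_mul, map_nsmul, Finsupp.smul_apply, nsmul_eq_mul]

/-- The element of `Idx K →₀ QT T` with prescribed coordinates. -/
noncomputable def ofCoords (d : Idx K → QT T) : K ⊗[ℚ] QT T :=
  (coord K T).symm (Finsupp.equivFunOnFinite.symm d)

theorem coord_ofCoords (d : Idx K → QT T) (i : Idx K) : coord K T (ofCoords K T d) i = d i := by
  rw [ofCoords, LinearEquiv.apply_symm_apply]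
  rfl

theorem eq_of_coord_eq {z z' : K ⊗[ℚ] QT T} (h : ∀ i, coord K T z i = coord K T z' i) :
    z = z' :=
  (coord K T).injective (Finsupp.ext h)

/-- Divisibility by `π ^ n` in the lattice, in coordinates. -/
theorem exists_eq_pi_pow_mul_iff_coord (z : K ⊗[ℚ] QT T) (n : ℕ) :
    (∃ l ∈ Lam K T, z = ((piT T : ℕ) : K ⊗[ℚ] QT T) ^ n * l) ↔
      ∀ (i : Idx K) (q : T), ‖coord K T z i q‖ ≤ ((((q : Nat.Primes) : ℕ) : ℝ)⁻¹) ^ n := by
  constructor
  · rintro ⟨l, hl, rfl⟩ i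
    rw [← Nat.cast_pow, coord_natCast_mul, Nat.cast_pow]
    exact (exists_eq_pi_pow_mul_iff _ n).mp ⟨_, (mem_Lam_iff K T).mp hl i, rfl⟩
  · intro h
    have h' : ∀ i, ∃ d ∈ intQT T, coord K T z i = ((piT T : ℕ) : QT T) ^ n * d := fun i =>
      (exists_eq_pi_pow_mul_iff _ n).mpr (h i)
    choose d hd hdz using h'
    refine ⟨ofCoords K T d, (mem_Lam_iff K T).mpr fun i => ?_, eq_of_coord_eq K T fun i => ?_⟩
    · rw [coord_ofCoords]; exact hd i
    · rw [← Nat.cast_pow, coord_natCast_mul, Nat.cast_pow, coord_ofCoords, hdz i]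

/-- `π_T` as an element of the lattice. -/
noncomputable def piLam : Lam K T := ((piT T : ℕ) : Lam K T)

theorem coe_piLam : ((piLam K T : Lam K T) : K ⊗[ℚ] QT T) = ((piT T : ℕ) : K ⊗[ℚ] QT T) := by
  simp [piLam]

theorem piLam_pow_dvd_iff (a : Lam K T) (n : ℕ) :
    piLam K T ^ n ∣ a ↔
      ∀ (i : Idx K) (q : T),
        ‖coord K T (a : K ⊗[ℚ] QT T) i q‖ ≤ ((((q : Nat.Primes) : ℕ) : ℝ)⁻¹) ^ n := by
  refine Iff.trans ?_ (exists_eq_pi_pow_mul_iff_coord K T (a : K ⊗[ℚ] QT T) n)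
  constructor
  · rintro ⟨l, rfl⟩
    refine ⟨l, l.2, ?_⟩
    push_cast
    rw [coe_piLam]
  · rintro ⟨l, hl, h⟩
    refine ⟨⟨l, hl⟩, Subtype.ext ?_⟩
    push_cast
    rw [coe_piLam]
    exact h

theorem isUnit_natCast {n : ℕ} (hn : n ≠ 0) : IsUnit ((n : ℕ) : K ⊗[ℚ] QT T) := by
  have h : ((n : ℕ) : K ⊗[ℚ] QT T) * (((n : K)⁻¹) ⊗ₜ[ℚ] (1 : QT T)) = 1 := by
    rw [Algebra.TensorProduct.natCast_def, Algebra.TensorProduct.tmul_mul_tmul,
      mul_inv_cancel₀ (by exact_mod_cast hn), mul_one, Algebra.TensorProduct.one_def]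
  have h' : (((n : K)⁻¹) ⊗ₜ[ℚ] (1 : QT T)) * ((n : ℕ) : K ⊗[ℚ] QT T) = 1 :=
    (mul_comm (((n : K)⁻¹) ⊗ₜ[ℚ] (1 : QT T)) ((n : ℕ) : K ⊗[ℚ] QT T)).trans h
  exact ⟨⟨_, _, h, h'⟩, rfl⟩

theorem inv_q_lt_one (q : T) : ((((q : Nat.Primes) : ℕ) : ℝ)⁻¹) < 1 := by
  have : (1 : ℝ) < (((q : Nat.Primes) : ℕ) : ℝ) := by exact_mod_cast (q : Nat.Primes).2.one_lt
  exact inv_lt_one_of_one_lt₀ this

theorem inv_q_nonneg (q : T) : 0 ≤ ((((q : Nat.Primes) : ℕ) : ℝ)⁻¹) := by positivity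

/-- **The lattice is `π`-adically complete and separated.** -/
theorem isPiComplete : IsPiComplete (piLam K T) where
  regular := by
    intro x hx
    have h1 : ((piT T : ℕ) : K ⊗[ℚ] QT T) * (x : K ⊗[ℚ] QT T) = 0 := by
      have := congrArg (Subtype.val) hx
      rwa [Subring.coe_mul, coe_piLam, Subring.coe_zero] at this
    refine Subtype.ext ?_
    rw [Subring.coe_zero]
    obtain ⟨u, hu⟩ := isUnit_natCast K T (piT_ne_zero T)
    have e : (x : K ⊗[ℚ] QT T) = ↑u⁻¹ * (↑u * (x : K ⊗[ℚ] QT T)) := by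
      rw [← mul_assoc, Units.inv_mul, one_mul]
    rw [e, hu, h1, mul_zero]
  complete := by
    intro f hf
    have hs : ∀ (i : Idx K) (q : T), ∃ t : ℚ_[((q : Nat.Primes) : ℕ)],
        ∀ n, ‖t - coord K T (f n : K ⊗[ℚ] QT T) i q‖ ≤ ((((q : Nat.Primes) : ℕ) : ℝ)⁻¹) ^ n := by
      intro i q
      refine exists_padic_limit (fun n => coord K T (f n : K ⊗[ℚ] QT T) i q)
        (inv_q_nonneg T q) (inv_q_lt_one T q) fun n => ?_
      have := (piLam_pow_dvd_iff K T (f (n + 1) - f n) n).mp (hf n) i q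
      rwa [AddSubgroupClass.coe_sub, map_sub, Finsupp.sub_apply, Pi.sub_apply] at this
    choose t ht using hs
    have hmem : ofCoords K T (fun i q => t i q) ∈ Lam K T := by
      rw [mem_Lam_iff]
      intro i q
      rw [coord_ofCoords]
      have h0 := ht i q 0
      rw [pow_zero] at h0
      have hf0 := (mem_Lam_iff K T).mp (f 0).2 i q
      have e : t i q = (t i q - coord K T (f 0 : K ⊗[ℚ] QT T) i q) +
          coord K T (f 0 : K ⊗[ℚ] QT T) i q := by ring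
      rw [e]
      exact (Padic.nonarchimedean _ _).trans (max_le h0 hf0)
    refine ⟨⟨_, hmem⟩, fun n => ?_⟩
    rw [piLam_pow_dvd_iff]
    intro i q
    rw [AddSubgroupClass.coe_sub, map_sub, Finsupp.sub_apply, Pi.sub_apply, coord_ofCoords]
    exact ht i q n
  separated := by
    intro z hz
    apply Subtype.ext
    rw [Subring.coe_zero]
    apply eq_of_coord_eq
    intro i
    rw [map_zero, Finsupp.zero_apply]
    funext q
    rw [Pi.zero_apply, ← norm_le_zero_iff]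
    have h1 : ∀ n, ‖coord K T (z : K ⊗[ℚ] QT T) i q‖ ≤ ((((q : Nat.Primes) : ℕ) : ℝ)⁻¹) ^ n :=
      fun n => (piLam_pow_dvd_iff K T z n).mp (hz n) i q
    exact ge_of_tendsto' (tendsto_pow_atTop_nhds_zero_of_lt_one (inv_q_nonneg T q)
      (inv_q_lt_one T q)) h1

end Complete

/-! ### Hensel: elements `≡ 1 mod π³` are `p`-th powers -/

section Hensel

variable (K : Type) [Field K] [NumberField K] (T : Finset Nat.Primes)

/-- **(HR)** If `p ∈ T`, every `u ∈ 1 + π³ Λ` is a `p`-th power in `K ⊗[ℚ] ℚ_T`; the root lies in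
`1 + π² Λ`. -/
theorem exists_pow_eq_of_mem {p : ℕ} (hp : ∃ q ∈ T, ((q : Nat.Primes) : ℕ) = p)
    {l : K ⊗[ℚ] QT T} (hl : l ∈ Lam K T) :
    ∃ z ∈ Lam K T, (1 + ((piT T : ℕ) : K ⊗[ℚ] QT T) ^ 2 * z) ^ p =
      1 + ((piT T : ℕ) : K ⊗[ℚ] QT T) ^ 3 * l := by
  obtain ⟨q, hq, rfl⟩ := hp
  let w : ℕ := ∏ x ∈ T.erase q, ((x : Nat.Primes) : ℕ)
  have hw : ((q : Nat.Primes) : ℕ) * w = piT T := Finset.mul_prod_erase T _ hq
  have hpw : ((((q : Nat.Primes) : ℕ) : ℕ) : Lam K T) * ((w : ℕ) : Lam K T) = piLam K T := by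
    rw [piLam, ← hw, Nat.cast_mul]
  obtain ⟨z, hz⟩ := PowAbstract.exists_pow_eq (isPiComplete K T) ((q : Nat.Primes) : ℕ)
    ((w : ℕ) : Lam K T) hpw ⟨l, hl⟩ (N := 3) le_rfl
  refine ⟨z, z.2, ?_⟩
  have := congrArg (Subtype.val) hz
  push_cast at this
  rw [coe_piLam] at this
  exact this

/-- **(HR), unit form.** -/
theorem exists_unit_pow_eq {p : ℕ} (hp : ∃ q ∈ T, ((q : Nat.Primes) : ℕ) = p)
    (u : (K ⊗[ℚ] QT T)ˣ)
    (hu : ∃ l ∈ Lam K T, (u : K ⊗[ℚ] QT T) = 1 + ((piT T : ℕ) : K ⊗[ℚ] QT T) ^ 3 * l) :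
    ∃ y : (K ⊗[ℚ] QT T)ˣ, y ^ p = u := by
  obtain ⟨l, hl, hul⟩ := hu
  obtain ⟨z, -, hz⟩ := exists_pow_eq_of_mem K T hp hl
  have hp0 : p ≠ 0 := by
    obtain ⟨q, -, rfl⟩ := hp
    exact (q : Nat.Primes).2.ne_zero
  obtain ⟨k, rfl⟩ : ∃ k, p = k + 1 := ⟨p - 1, by omega⟩
  set y₀ : K ⊗[ℚ] QT T := 1 + ((piT T : ℕ) : K ⊗[ℚ] QT T) ^ 2 * z with hy₀
  have hy : y₀ ^ (k + 1) = (u : K ⊗[ℚ] QT T) := by rw [hz, hul]
  have h1 : y₀ * (y₀ ^ k * ((u⁻¹ : (K ⊗[ℚ] QT T)ˣ) : K ⊗[ℚ] QT T)) = 1 := by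
    rw [← mul_assoc, ← pow_succ', hy, Units.mul_inv]
  have h2 : (y₀ ^ k * ((u⁻¹ : (K ⊗[ℚ] QT T)ˣ) : K ⊗[ℚ] QT T)) * y₀ = 1 :=
    (mul_comm (y₀ ^ k * ((u⁻¹ : (K ⊗[ℚ] QT T)ˣ) : K ⊗[ℚ] QT T)) y₀).trans h1
  refine ⟨⟨y₀, _, h1, h2⟩, Units.ext ?_⟩
  rw [Units.val_pow_eq_pow_val]
  exact hy

/-- **(hray)** in the shape of `Bridge2AbsQ`: integers `a ≡ 1 mod π³` become `p`-th powers in
`(K ⊗[ℚ] ℚ_T)ˣ`. -/
theorem exists_pow_eq_inclUnits {p : ℕ} (hp : ∃ q ∈ T, ((q : Nat.Primes) : ℕ) = p)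
    (a : 𝓞 K) (ha : a ≠ 0) (h : a - 1 ∈ Ideal.span {((piT T ^ 3 : ℕ) : 𝓞 K)}) :
    ∃ y : (K ⊗[ℚ] QT T)ˣ,
      y ^ p = inclUnits ℚ K (QT T) (Units.mk0 (a : K) (by
        rwa [Ne, NumberField.RingOfIntegers.coe_eq_zero_iff])) := by
  obtain ⟨b, hb⟩ := Ideal.mem_span_singleton'.mp h
  apply exists_unit_pow_eq K T hp
  refine ⟨(b : K) ⊗ₜ[ℚ] (1 : QT T), tmul_mem_Lam K T b (one_mem _), ?_⟩
  rw [val_inclUnits, Units.val_mk0]
  have e : (a : K) = 1 + ((piT T ^ 3 : ℕ) : K) * (b : K) := by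
    have := congrArg (fun x : 𝓞 K => (x : K)) hb
    simp only [map_mul, map_natCast, map_sub, map_one] at this
    linear_combination -this
  rw [e, TensorProduct.add_tmul, ← Algebra.TensorProduct.one_def, ← Nat.cast_pow,
    Algebra.TensorProduct.natCast_def, Algebra.TensorProduct.tmul_mul_tmul, mul_one]

end Hensel

end Fermat.Agent.S55.Global.PowLatticeQ
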