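/-
S55 / GLOBAL block (helper56): the two product decompositions of `Jn K L T` are compatible:
`(L ⊗[ℚ] ℚ_T)ˣ → (L ⊗[ℚ] ℚ_[q])ˣ → (L ⊗[K] K_𝔪)ˣ`.

* `projLocQ K L T q 𝔪 : Jq K L q ⟶ Jloc K L q 𝔪` (units of `LocalProdInst.ρc`);
* `projLoc_eq` : `projLoc K L T ⟨q, 𝔪⟩ = projQ K L T q ≫ projLocQ K L T q 𝔪`;
* `map_projQ_eq_zero_of_cohEquivLoc` : a class of `Hⁿ(G, Jn K L T)` whose components at all places
  `𝔪` above `q` vanish has zero `q`-component (`projQ`); `cohEquivLoc_eq_zero_of_map_projQ` is the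
  converse.
(Support lemma for Middle (B1) `OffOfSuppIn`, helper54.)
-/
import Mathlib
import Fermat.Agent.S55.Global.LocalProdCoh
import Fermat.Agent.S55.Global.LocalProdT

set_option autoImplicit false
set_option linter.unusedSectionVars false
set_option linter.style.haveILetI false

open NumberField TensorProduct CategoryTheory

namespace Fermat.Agent.S55.Global.ProjQLoc

open Fermat.Agent.S55.Global.Objects Fermat.Agent.S55.Global.Objects2
open Fermat.Agent.S55.Global.Blocks3 Fermat.Agent.S55.Global.LocalProdAbs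
open Fermat.Agent.S55.Global.LocalProdRep Fermat.Agent.S55.Global.LocalProd
open Fermat.Agent.S55.Global.LocalProdInst Fermat.Agent.S55.Global.LocalProdT
open Fermat.Agent.S55.Global.LocalProdCoh

variable (K : Type) [Field K] [NumberField K]
variable (L : Type) [Field L] [NumberField L] [Algebra K L]
variable (T : Finset Nat.Primes)

section generic

variable {J : Type} (F : J → Type) [∀ j, CommRing (F j)] [∀ j, Algebra ℚ (F j)]

/-- Equivariance of `ρc` under `Gal(L/K)` (generic form). -/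
theorem ρc_tensorAct_generic (j : J) (𝔪 : MaximalSpectrum (K ⊗[ℚ] F j)) (σ : L ≃ₐ[K] L)
    (z : L ⊗[ℚ] F j) :
    ρc K L F j 𝔪 (tensorAct (F j) (resHom K L σ) z) =
      tensorAct ((K ⊗[ℚ] F j) ⧸ 𝔪.asIdeal) σ (ρc K L F j 𝔪 z) := by
  induction z using TensorProduct.induction_on with
  | zero => simp
  | tmul l a =>
    rw [tensorAct_tmul, ρc_tmul, ρc_tmul, tensorAct_tmul]
    rfl
  | add y z hy hz =>
    have h1 : tensorAct (F j) (resHom K L σ) (y + z) =
        tensorAct (F j) (resHom K L σ) y + tensorAct (F j) (resHom K L σ) z :=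
      (tensorAct (F j) (resHom K L σ)).toRingEquiv.map_add y z
    have h2 : tensorAct ((K ⊗[ℚ] F j) ⧸ 𝔪.asIdeal) σ (ρc K L F j 𝔪 y + ρc K L F j 𝔪 z) =
        tensorAct ((K ⊗[ℚ] F j) ⧸ 𝔪.asIdeal) σ (ρc K L F j 𝔪 y) +
          tensorAct ((K ⊗[ℚ] F j) ⧸ 𝔪.asIdeal) σ (ρc K L F j 𝔪 z) :=
      (tensorAct ((K ⊗[ℚ] F j) ⧸ 𝔪.asIdeal) σ).toRingEquiv.map_add _ _
    rw [h1, RingHom.map_add, hy, hz, RingHom.map_add, h2]

end generic

/-- Equivariance of `ρc` under `Gal(L/K)`. -/
theorem ρc_tensorAct (q : T) (𝔪 : MaximalSpectrum (Ksemi K (q : Nat.Primes))) (σ : L ≃ₐ[K] L)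
    (z : L ⊗[ℚ] ℚ_[((q : Nat.Primes) : ℕ)]) :
    ρc K L (QF T) q 𝔪 (tensorAct ℚ_[((q : Nat.Primes) : ℕ)] (resHom K L σ) z) =
      tensorAct (Kloc K (q : Nat.Primes) 𝔪.asIdeal) σ (ρc K L (QF T) q 𝔪 z) :=
  ρc_tensorAct_generic K L (QF T) q 𝔪 σ z

/-- `πT ⟨q, 𝔪⟩` factors through the `q`-th projection. -/
theorem πT_eq (q : T) (𝔪 : MaximalSpectrum (Ksemi K (q : Nat.Primes))) (z : L ⊗[ℚ] QT T) :
    πT K L T ⟨q, 𝔪⟩ z = ρc K L (QF T) q 𝔪 (evalQ L T q z) := rfl

/-- The projection `Jq K L q ⟶ Jloc K L q 𝔪`. -/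
noncomputable def projLocQ (q : T) (𝔪 : MaximalSpectrum (Ksemi K (q : Nat.Primes))) :
    Jq K L (q : Nat.Primes) ⟶ Jloc K L (q : Nat.Primes) 𝔪.asIdeal :=
  Rep.ofHom
    { toLinearMap := (MonoidHom.toAdditive (Units.map
        (ρc K L (QF T) q 𝔪 : L ⊗[ℚ] ℚ_[((q : Nat.Primes) : ℕ)] →*
          L ⊗[K] Kloc K (q : Nat.Primes) 𝔪.asIdeal))).toIntLinearMap
      isIntertwining' := fun σ => by
        refine LinearMap.ext fun a => ?_
        refine congrArg Additive.ofMul (Units.ext ?_)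
        exact ρc_tensorAct K L T q 𝔪 σ ((Additive.toMul a :
          (L ⊗[ℚ] ℚ_[((q : Nat.Primes) : ℕ)])ˣ) : L ⊗[ℚ] ℚ_[((q : Nat.Primes) : ℕ)]) }

theorem projLocQ_apply (q : T) (𝔪 : MaximalSpectrum (Ksemi K (q : Nat.Primes)))
    (a : Jq K L (q : Nat.Primes)) :
    (projLocQ K L T q 𝔪).hom a = Additive.ofMul (Units.map
      (ρc K L (QF T) q 𝔪 : L ⊗[ℚ] ℚ_[((q : Nat.Primes) : ℕ)] →*
        L ⊗[K] Kloc K (q : Nat.Primes) 𝔪.asIdeal) (Additive.toMul a)) := rfl

/-- **Compatibility of the two decompositions.** -/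
theorem projLoc_eq (q : T) (𝔪 : MaximalSpectrum (Ksemi K (q : Nat.Primes))) :
    projLoc K L T ⟨q, 𝔪⟩ = projQ K L T q ≫ projLocQ K L T q 𝔪 := by
  apply Rep.hom_ext
  apply Representation.IntertwiningMap.ext
  refine LinearMap.ext fun a => ?_
  refine congrArg Additive.ofMul (Units.ext ?_)
  rfl

theorem secQ_projQ_self (q : T) : secQ K L T q ≫ projQ K L T q = 𝟙 _ := by
  have h := LocalProdAbs.sec_proj_self (G := L ≃ₐ[ℚ] L) (R := L ⊗[ℚ] QT T) (B := Bq L T)
    (π := evalQ L T) (isProdDecomp_evalQ L T) (units_evalQ_smul L T) q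
  have h2 := (Rep.resFunctor (resHom K L)).congr_map h
  rw [(Rep.resFunctor (resHom K L)).map_comp, (Rep.resFunctor (resHom K L)).map_id] at h2
  exact h2

theorem secQ_projQ_of_ne {q q' : T} (hqq' : q ≠ q') : secQ K L T q ≫ projQ K L T q' = 0 := by
  have h := LocalProdAbs.sec_proj_of_ne (G := L ≃ₐ[ℚ] L) (R := L ⊗[ℚ] QT T) (B := Bq L T)
    (π := evalQ L T) (isProdDecomp_evalQ L T) (units_evalQ_smul L T) hqq'
  have h2 := (Rep.resFunctor (resHom K L)).congr_map h
  rw [(Rep.resFunctor (resHom K L)).map_comp, (Rep.resFunctor (resHom K L)).map_zero] at h2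
  exact h2

/-- **A class of `Hⁿ(G, Jn K L T)` whose components at all places above `q` vanish has zero
`q`-component.** -/
theorem map_projQ_eq_zero_of_cohEquivLoc (n : ℕ) (a : groupCohomology (Jn K L T) n) (q : T)
    (h : ∀ 𝔪 : MaximalSpectrum (Ksemi K (q : Nat.Primes)), cohEquivLoc K L T n a ⟨q, 𝔪⟩ = 0) :
    (groupCohomology.map (MonoidHom.id (L ≃ₐ[K] L)) (projQ K L T q) n).hom a = 0 := by
  set b := (groupCohomology.map (MonoidHom.id (L ≃ₐ[K] L)) (projQ K L T q) n).hom a with hb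
  set a' := (groupCohomology.map (MonoidHom.id (L ≃ₐ[K] L)) (secQ K L T q) n).hom b with ha'
  -- `b` is the `q`-component of `a'`
  have hb' : (groupCohomology.map (MonoidHom.id (L ≃ₐ[K] L)) (projQ K L T q) n).hom a' = b := by
    have h1 := congrArg (fun f => f.hom b)
      (groupCohomology.map_id_comp (secQ K L T q) (projQ K L T q) n)
    simp only [ModuleCat.hom_comp, LinearMap.comp_apply] at h1
    rw [ha', ← h1, secQ_projQ_self, groupCohomology.map_id]
    rfl
  -- all local components of `a'` vanish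
  have hzero : a' = 0 := by
    refine eq_zero_of_projLoc K L T n a' ?_
    rintro ⟨q', 𝔪⟩
    by_cases hqq' : q = q'
    · subst hqq'
      have h1 := congrArg (fun f => f.hom a')
        (groupCohomology.map_id_comp (projQ K L T q) (projLocQ K L T q 𝔪) n)
      simp only [ModuleCat.hom_comp, LinearMap.comp_apply] at h1
      rw [projLoc_eq]
      refine h1.trans ?_
      rw [hb', hb]
      have h2 := congrArg (fun f => f.hom a)
        (groupCohomology.map_id_comp (projQ K L T q) (projLocQ K L T q 𝔪) n)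
      simp only [ModuleCat.hom_comp, LinearMap.comp_apply] at h2
      rw [← h2, ← projLoc_eq]
      exact h 𝔪
    · have h1 := congrArg (fun f => f.hom b)
        (groupCohomology.map_id_comp (secQ K L T q) (projLoc K L T ⟨q', 𝔪⟩) n)
      simp only [ModuleCat.hom_comp, LinearMap.comp_apply] at h1
      rw [ha']
      refine h1.symm.trans ?_
      have h3 : secQ K L T q ≫ projLoc K L T ⟨q', 𝔪⟩ = 0 := by
        rw [projLoc_eq, ← Category.assoc, secQ_projQ_of_ne K L T hqq', Limits.zero_comp]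
      rw [h3, LocalProdAbs.map_zero']
      rfl
  rw [← hb', hzero, map_zero]

/-- Converse: the components at the places above `q` only depend on the `q`-component. -/
theorem cohEquivLoc_eq_zero_of_map_projQ (n : ℕ) (a : groupCohomology (Jn K L T) n) (q : T)
    (h : (groupCohomology.map (MonoidHom.id (L ≃ₐ[K] L)) (projQ K L T q) n).hom a = 0)
    (𝔪 : MaximalSpectrum (Ksemi K (q : Nat.Primes))) :
    cohEquivLoc K L T n a ⟨q, 𝔪⟩ = 0 := by
  rw [cohEquivLoc_apply, projLoc_eq]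
  have h2 := congrArg (fun f => f.hom a)
    (groupCohomology.map_id_comp (projQ K L T q) (projLocQ K L T q 𝔪) n)
  simp only [ModuleCat.hom_comp, LinearMap.comp_apply] at h2
  refine h2.trans ?_
  rw [h, map_zero]

end Fermat.Agent.S55.Global.ProjQLoc
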