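import Mathlib
import Fermat.Agent.S55.Global.Objects2
import Fermat.Agent.S55.Global.Bridge2AbsQ

/-!
# S55 / Global, leaf `G.bridge2.L1`: `ℚ` is dense in `ℚ_T = ∏_{q ∈ T} ℚ_[q]`

Quantitative form (Chinese remainder theorem + `PadicInt.appr`): every `x : ℚ_T` is approximated to
any prescribed precision `q ^ (-M)` simultaneously at all `q ∈ T` by ONE rational number.
-/

set_option autoImplicit false

namespace Fermat.Agent.S55.Global.QDense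

open Fermat.Agent.S55.Global.Objects2 Fermat.Agent.S55.Global.Bridge2AbsQ

/-- A prime `q' ≠ q` is a unit in `ℚ_[q]` of norm one. -/
theorem norm_prime_ne (q q' : Nat.Primes) (h : q' ≠ q) :
    ‖(((q' : Nat.Primes) : ℕ) : ℚ_[((q : Nat.Primes) : ℕ)])‖ = 1 := by
  rw [Padic.norm_natCast_eq_one_iff]
  exact (Nat.coprime_primes q.2 q'.2).mpr (fun hh => h (Subtype.ext hh.symm))

/-- `‖prodT T‖_q = q⁻¹` for `q ∈ T`. -/
theorem norm_prodT (T : Finset Nat.Primes) (q : Nat.Primes) (hq : q ∈ T) :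
    ‖((prodT T : ℕ) : ℚ_[((q : Nat.Primes) : ℕ)])‖ = (((q : Nat.Primes) : ℕ) : ℝ)⁻¹ := by
  rw [prodT, ← Finset.mul_prod_erase T _ hq]
  push_cast
  rw [norm_mul, Padic.norm_p, norm_prod]
  rw [Finset.prod_eq_one, mul_one]
  intro q' hq'
  exact norm_prime_ne q q' (Finset.ne_of_mem_erase hq')

/-- `‖prodT T ^ e‖_q = q ^ (-e)` for `q ∈ T`. -/
theorem norm_prodT_pow (T : Finset Nat.Primes) (q : Nat.Primes) (hq : q ∈ T) (e : ℕ) :
    ‖(((prodT T : ℕ) : ℚ_[((q : Nat.Primes) : ℕ)])) ^ e‖ =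
      (((q : Nat.Primes) : ℕ) : ℝ) ^ (-(e : ℤ)) := by
  rw [norm_pow, norm_prodT T q hq, zpow_neg, zpow_natCast, inv_pow]

/-- A natural number approximating a `q`-adic integer modulo `q ^ N`. -/
theorem exists_nat_close (q : ℕ) [Fact q.Prime] (y : ℚ_[q]) (hy : ‖y‖ ≤ 1) (N : ℕ) :
    ∃ a : ℕ, ‖y - (a : ℚ_[q])‖ ≤ (q : ℝ) ^ (-(N : ℤ)) := by
  set z : ℤ_[q] := ⟨y, hy⟩ with hz
  refine ⟨PadicInt.appr z N, ?_⟩
  have h := PadicInt.appr_spec N z
  rw [← PadicInt.norm_le_pow_iff_mem_span_pow] at h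
  have e : ((z - (PadicInt.appr z N : ℤ_[q]) : ℤ_[q]) : ℚ_[q]) =
      y - ((PadicInt.appr z N : ℕ) : ℚ_[q]) := by
    push_cast
    rfl
  rw [← e, ← PadicInt.norm_def]
  exact h

/-- Every `q`-adic number has norm at most some power of `q`. -/
theorem exists_pow_bound (q : ℕ) [hq : Fact q.Prime] (x : ℚ_[q]) :
    ∃ e : ℕ, ‖x‖ ≤ (q : ℝ) ^ e := by
  have h1 : (1 : ℝ) < q := by exact_mod_cast hq.out.one_lt
  obtain ⟨n, hn⟩ := pow_unbounded_of_one_lt ‖x‖ h1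
  exact ⟨n, hn.le⟩

/-- **`ℚ` is dense in `ℚ_T`**, quantitative form: simultaneous approximation at all `q ∈ T`. -/
theorem exists_rat_close (T : Finset Nat.Primes) (x : QT T) (M : ℕ) :
    ∃ r : ℚ, ∀ q : T, ‖x q - ((r : ℚ) : ℚ_[((q : Nat.Primes) : ℕ)])‖ ≤
      (((q : Nat.Primes) : ℕ) : ℝ) ^ (-(M : ℤ)) := by
  classical
  choose f hf using fun q : T => exists_pow_bound (((q : T) : Nat.Primes) : ℕ) (x q)
  set e : ℕ := Finset.univ.sup f with he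
  have hfe : ∀ q : T, f q ≤ e := fun q => Finset.le_sup (Finset.mem_univ q)
  set D : ℕ := prodT T ^ e with hD
  have hq1 : ∀ q : T, (1 : ℝ) ≤ ((((q : T) : Nat.Primes) : ℕ) : ℝ) := fun q => by
    exact_mod_cast (q : Nat.Primes).2.one_lt.le
  have hq0 : ∀ q : T, (0 : ℝ) < ((((q : T) : Nat.Primes) : ℕ) : ℝ) := fun q =>
    lt_of_lt_of_le one_pos (hq1 q)
  have hDn : ∀ q : T, ‖((D : ℕ) : ℚ_[(((q : T) : Nat.Primes) : ℕ)])‖ =
      ((((q : T) : Nat.Primes) : ℕ) : ℝ) ^ (-(e : ℤ)) := by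
    intro q
    rw [hD]
    push_cast
    exact norm_prodT_pow T q q.2 e
  have hy : ∀ q : T, ‖((D : ℕ) : ℚ_[(((q : T) : Nat.Primes) : ℕ)]) * x q‖ ≤ 1 := by
    intro q
    rw [norm_mul, hDn q]
    calc ((((q : T) : Nat.Primes) : ℕ) : ℝ) ^ (-(e : ℤ)) * ‖x q‖
        ≤ ((((q : T) : Nat.Primes) : ℕ) : ℝ) ^ (-(e : ℤ)) *
            ((((q : T) : Nat.Primes) : ℕ) : ℝ) ^ e := by
          refine mul_le_mul_of_nonneg_left ((hf q).trans ?_) (zpow_nonneg (hq0 q).le _)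
          exact pow_le_pow_right₀ (hq1 q) (hfe q)
      _ = 1 := by
          rw [zpow_neg, zpow_natCast]
          exact inv_mul_cancel₀ (pow_ne_zero _ (hq0 q).ne')
  choose a ha using fun q : T =>
    exists_nat_close (((q : T) : Nat.Primes) : ℕ) (((D : ℕ) : ℚ_[(((q : T) : Nat.Primes) : ℕ)]) * x q)
      (hy q) (M + e)
  obtain ⟨n, hn⟩ := Nat.chineseRemainderOfFinset a
    (fun q : T => (((q : T) : Nat.Primes) : ℕ) ^ (M + e)) Finset.univ
    (fun q _ => pow_ne_zero _ (q : Nat.Primes).2.ne_zero)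
    (by
      intro q _ q' _ hne
      refine Nat.Coprime.pow _ _ ?_
      refine (Nat.coprime_primes (q : Nat.Primes).2 (q' : Nat.Primes).2).mpr (fun hh => hne ?_)
      exact Subtype.ext (Subtype.ext hh))
  refine ⟨(n : ℚ) / (D : ℚ), fun q => ?_⟩
  have hD0 : ((D : ℕ) : ℚ_[(((q : T) : Nat.Primes) : ℕ)]) ≠ 0 := by
    intro h0
    have := hDn q
    rw [h0, norm_zero] at this
    exact (zpow_pos (hq0 q) _).ne this
  -- `n` is close to `a q`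
  have h1 : ‖((a q : ℕ) : ℚ_[(((q : T) : Nat.Primes) : ℕ)]) - (n : ℚ_[(((q : T) : Nat.Primes) : ℕ)])‖ ≤
      ((((q : T) : Nat.Primes) : ℕ) : ℝ) ^ (-((M + e : ℕ) : ℤ)) := by
    have hmod := hn q (Finset.mem_univ q)
    have hdvd : (((((q : T) : Nat.Primes) : ℕ) ^ (M + e) : ℕ) : ℤ) ∣ (a q : ℤ) - (n : ℤ) :=
      (Nat.modEq_iff_dvd.mp hmod)
    have := (Padic.norm_int_le_pow_iff_dvd (p := (((q : T) : Nat.Primes) : ℕ))
      ((a q : ℤ) - (n : ℤ)) (M + e)).mpr (by exact_mod_cast hdvd)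
    have e1 : (((a q : ℤ) - (n : ℤ) : ℤ) : ℚ_[(((q : T) : Nat.Primes) : ℕ)]) =
        ((a q : ℕ) : ℚ_[(((q : T) : Nat.Primes) : ℕ)]) - (n : ℚ_[(((q : T) : Nat.Primes) : ℕ)]) := by
      push_cast
      rfl
    rw [e1] at this
    exact this
  have h2 : ‖((D : ℕ) : ℚ_[(((q : T) : Nat.Primes) : ℕ)]) * x q - (n : ℚ_[(((q : T) : Nat.Primes) : ℕ)])‖ ≤
      ((((q : T) : Nat.Primes) : ℕ) : ℝ) ^ (-((M + e : ℕ) : ℤ)) := by
    have e2 : ((D : ℕ) : ℚ_[(((q : T) : Nat.Primes) : ℕ)]) * x q - (n : ℚ_[(((q : T) : Nat.Primes) : ℕ)]) =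
        (((D : ℕ) : ℚ_[(((q : T) : Nat.Primes) : ℕ)]) * x q - (a q : ℚ_[(((q : T) : Nat.Primes) : ℕ)])) +
          (((a q : ℕ) : ℚ_[(((q : T) : Nat.Primes) : ℕ)]) - (n : ℚ_[(((q : T) : Nat.Primes) : ℕ)])) := by
      ring
    rw [e2]
    exact (Padic.nonarchimedean _ _).trans (max_le (ha q) h1)
  have e3 : x q - (((n : ℚ) / (D : ℚ) : ℚ) : ℚ_[(((q : T) : Nat.Primes) : ℕ)]) =
      (((D : ℕ) : ℚ_[(((q : T) : Nat.Primes) : ℕ)]) * x q - (n : ℚ_[(((q : T) : Nat.Primes) : ℕ)])) /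
        ((D : ℕ) : ℚ_[(((q : T) : Nat.Primes) : ℕ)]) := by
    push_cast
    field_simp
  rw [e3, norm_div, hDn q, div_le_iff₀ (zpow_pos (hq0 q) _)]
  refine h2.trans (le_of_eq ?_)
  rw [← zpow_add₀ (hq0 q).ne']
  congr 1
  push_cast
  ring

/-- Integral version: if all components are `q`-adic integers, the approximating rational can be
taken to be a natural number. -/
theorem exists_nat_close_of_integral (T : Finset Nat.Primes) (x : QT T) (hx : ∀ q : T, ‖x q‖ ≤ 1)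
    (M : ℕ) :
    ∃ n : ℕ, ∀ q : T, ‖x q - ((n : ℕ) : ℚ_[((q : Nat.Primes) : ℕ)])‖ ≤
      (((q : Nat.Primes) : ℕ) : ℝ) ^ (-(M : ℤ)) := by
  classical
  choose a ha using fun q : T =>
    exists_nat_close (((q : T) : Nat.Primes) : ℕ) (x q) (hx q) M
  obtain ⟨n, hn⟩ := Nat.chineseRemainderOfFinset a
    (fun q : T => (((q : T) : Nat.Primes) : ℕ) ^ M) Finset.univ
    (fun q _ => pow_ne_zero _ (q : Nat.Primes).2.ne_zero)
    (by
      intro q _ q' _ hne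
      refine Nat.Coprime.pow _ _ ?_
      refine (Nat.coprime_primes (q : Nat.Primes).2 (q' : Nat.Primes).2).mpr (fun hh => hne ?_)
      exact Subtype.ext (Subtype.ext hh))
  refine ⟨n, fun q => ?_⟩
  have h1 : ‖((a q : ℕ) : ℚ_[(((q : T) : Nat.Primes) : ℕ)]) - (n : ℚ_[(((q : T) : Nat.Primes) : ℕ)])‖ ≤
      ((((q : T) : Nat.Primes) : ℕ) : ℝ) ^ (-(M : ℤ)) := by
    have hmod := hn q (Finset.mem_univ q)
    have hdvd : (((((q : T) : Nat.Primes) : ℕ) ^ M : ℕ) : ℤ) ∣ (a q : ℤ) - (n : ℤ) :=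
      (Nat.modEq_iff_dvd.mp hmod)
    have := (Padic.norm_int_le_pow_iff_dvd (p := (((q : T) : Nat.Primes) : ℕ))
      ((a q : ℤ) - (n : ℤ)) M).mpr (by exact_mod_cast hdvd)
    have e1 : (((a q : ℤ) - (n : ℤ) : ℤ) : ℚ_[(((q : T) : Nat.Primes) : ℕ)]) =
        ((a q : ℕ) : ℚ_[(((q : T) : Nat.Primes) : ℕ)]) - (n : ℚ_[(((q : T) : Nat.Primes) : ℕ)]) := by
      push_cast
      rfl
    rw [e1] at this
    exact this
  have e2 : x q - (n : ℚ_[(((q : T) : Nat.Primes) : ℕ)]) =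
      (x q - (a q : ℚ_[(((q : T) : Nat.Primes) : ℕ)])) +
        (((a q : ℕ) : ℚ_[(((q : T) : Nat.Primes) : ℕ)]) - (n : ℚ_[(((q : T) : Nat.Primes) : ℕ)])) := by
    ring
  rw [e2]
  exact (Padic.nonarchimedean _ _).trans (max_le (ha q) h1)

end Fermat.Agent.S55.Global.QDense
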