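import Mathlib
import Fermat.Agent.S14.LatticeCountError

/-!
# Counting points of a shifted lattice in a homogeneous region, with a power-saving error term

Translation-invariant version of `Fermat.Agent.S14.LatticeCountError`: the number of points of a
coset `x₀ + L` of a lattice in the region `{x ∈ X | F x ≤ c}` is
`c * vol {F ≤ 1} / covol L + O(c ^ (1 - 1 / n))`, uniformly in the shift `x₀`.
-/

set_option autoImplicit false

open MeasureTheory Set Bornology Pointwise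

namespace Fermat.Agent.S55.Global.ShiftedLatticeCount

open Fermat.Agent.S14.LatticeCountError

variable {ι : Type*} [Fintype ι]

omit [Fintype ι] in
theorem frontier_vadd_set (a : ι → ℝ) (s : Set (ι → ℝ)) :
    frontier (a +ᵥ s) = a +ᵥ frontier s := by
  have h := (Homeomorph.addLeft a : (ι → ℝ) ≃ₜ (ι → ℝ)).image_frontier s
  have e : ∀ t : Set (ι → ℝ), (Homeomorph.addLeft a : (ι → ℝ) ≃ₜ (ι → ℝ)) '' t = a +ᵥ t := by
    intro t
    ext x
    simp only [Set.mem_image, Homeomorph.coe_addLeft, Set.mem_vadd_set, vadd_eq_add]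
  rw [e, e] at h
  exact h.symm

/-- **Lattice point counting with error term, uniform in translations** (standard lattice). -/
theorem exists_bound_card_vadd_smul_sub {s : Set (ι → ℝ)} (hs : IsBounded s)
    (hsm : MeasurableSet s)
    {κ J : Type*} [Fintype κ] [Fintype J] (φ : J → (κ → ℝ) → (ι → ℝ)) (Λ : ℝ) (hΛ : 0 ≤ Λ)
    (hφ : ∀ j, ∀ u ∈ Set.Icc (0 : κ → ℝ) 1, ∀ u' ∈ Set.Icc (0 : κ → ℝ) 1,
      dist (φ j u) (φ j u') ≤ Λ * dist u u')
    (hfr : frontier s ⊆ ⋃ j, φ j '' Set.Icc (0 : κ → ℝ) 1) :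
    ∃ C : ℝ, 0 ≤ C ∧ ∀ t : ℝ, 1 ≤ t → ∀ a : ι → ℝ,
      |(Nat.card (intPts (a +ᵥ t • s)) : ℝ) - t ^ Fintype.card ι * volume.real s| ≤
        C * t ^ Fintype.card κ := by
  set m := Fintype.card κ with hm
  set k := Fintype.card J with hk
  refine ⟨k * 3 ^ m * ((⌊2 * (Λ + 1)⌋₊ + 1 : ℕ) : ℝ) ^ Fintype.card ι, by positivity, ?_⟩
  intro t ht a
  have ht0 : 0 < t := lt_of_lt_of_le one_pos ht
  have hA : IsBounded (a +ᵥ t • s) := (hs.smul₀ t).vadd a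
  have hAm : MeasurableSet (a +ᵥ t • s) := (hsm.const_smul₀ t).const_vadd a
  have h1 := abs_card_sub_volume_le_card_bd hA hAm
  have hvol : volume.real (a +ᵥ t • s) = t ^ Fintype.card ι * volume.real s := by
    rw [measureReal_def, measure_vadd, ← measureReal_def, volume_real_smul_set ht0.le]
  rw [hvol] at h1
  refine h1.trans ?_
  set N : ℕ := ⌈t⌉₊ with hNdef
  have hN : 0 < N := Nat.ceil_pos.2 ht0
  have htN : t ≤ N := Nat.le_ceil t
  have hN' : (0 : ℝ) < N := Nat.cast_pos.2 hN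
  have hψ : ∀ j, ∀ u ∈ Set.Icc (0 : κ → ℝ) 1, ∀ u' ∈ Set.Icc (0 : κ → ℝ) 1,
      dist ((fun j u => a + t • φ j u) j u) ((fun j u => a + t • φ j u) j u') ≤
        (t * Λ) * dist u u' := by
    intro j u hu u' hu'
    simp only
    rw [dist_add_left, dist_smul₀, Real.norm_eq_abs, abs_of_pos ht0, mul_assoc]
    exact mul_le_mul_of_nonneg_left (hφ j u hu u' hu') ht0.le
  have hfr' : frontier (a +ᵥ t • s) ⊆
      ⋃ j, (fun j u => a + t • φ j u) j '' Set.Icc (0 : κ → ℝ) 1 := by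
    rw [frontier_vadd_set, frontier_smul_set ht0.ne']
    rintro _ ⟨_, ⟨y, hy, rfl⟩, rfl⟩
    obtain ⟨j, hj⟩ := Set.mem_iUnion.1 (hfr hy)
    obtain ⟨u, hu, rfl⟩ := hj
    exact Set.mem_iUnion.2 ⟨j, u, hu, rfl⟩
  have hR : t * Λ / N + 1 ≤ Λ + 1 := by
    have : t * Λ / N ≤ Λ := by
      rw [div_le_iff₀ hN']
      calc t * Λ ≤ N * Λ := mul_le_mul_of_nonneg_right htN hΛ
        _ = Λ * N := mul_comm _ _
    linarith
  have h2 := card_bd_le hA hN hψ (mul_nonneg ht0.le hΛ) hfr' hR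
  have h3 : (Nat.card (bd (a +ᵥ t • s)) : ℝ) ≤
      ((k * (N + 1) ^ m *
        (⌊2 * (Λ + 1)⌋₊ + 1) ^ Fintype.card ι : ℕ) : ℝ) := by exact_mod_cast h2
  refine h3.trans ?_
  push_cast
  have h4 : ((N : ℝ) + 1) ^ m ≤ 3 ^ m * t ^ m := by
    rw [← mul_pow]
    refine pow_le_pow_left₀ (by positivity) ?_ m
    have : (N : ℝ) < t + 1 := Nat.ceil_lt_add_one ht0.le
    linarith
  have h5 : (0 : ℝ) ≤ ((⌊2 * (Λ + 1)⌋₊ : ℝ) + 1) ^ Fintype.card ι := by positivity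
  calc (k : ℝ) * ((N : ℝ) + 1) ^ m * ((⌊2 * (Λ + 1)⌋₊ : ℝ) + 1) ^ Fintype.card ι
      ≤ (k : ℝ) * (3 ^ m * t ^ m) * ((⌊2 * (Λ + 1)⌋₊ : ℝ) + 1) ^ Fintype.card ι := by
        gcongr
    _ = (k : ℝ) * 3 ^ m * ((⌊2 * (Λ + 1)⌋₊ : ℝ) + 1) ^ Fintype.card ι * t ^ m := by ring

section General

open Module Submodule

variable {E : Type*} [NormedAddCommGroup E] [NormedSpace ℝ E]
variable {L : Submodule ℤ E} [DiscreteTopology L] [IsZLattice ℝ L]

omit [NormedSpace ℝ E] [DiscreteTopology L] [IsZLattice ℝ L] in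
/-- points of the coset `x₀ + L` in `D` correspond to points of `L` in `-x₀ + D`. -/
theorem card_inter_vadd_eq (D : Set E) (x₀ : E) :
    Nat.card (D ∩ (x₀ +ᵥ (L : Set E)) : Set E) = Nat.card ((-x₀ +ᵥ D) ∩ (L : Set E) : Set E) := by
  refine Nat.card_congr ((Equiv.addLeft (-x₀)).subtypeEquiv fun x => ?_)
  simp only [Set.mem_inter_iff, Equiv.coe_addLeft, Set.mem_vadd_set, vadd_eq_add, SetLike.mem_coe]
  constructor
  · rintro ⟨hxD, y, hy, rfl⟩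
    exact ⟨⟨x₀ + y, hxD, rfl⟩, by simpa using hy⟩
  · rintro ⟨⟨y, hyD, hy⟩, hL⟩
    have hxy : x = y := by
      have := congrArg (fun z => x₀ + z) hy
      simpa using this.symm
    subst hxy
    exact ⟨hyD, -x₀ + x, hL, by simp⟩

/-- **Counting points of a shifted lattice in a homogeneous region with error term**
(general version, uniform in the shift). -/
theorem exists_bound_card_le_sub_shift'' [FiniteDimensional ℝ E] [MeasurableSpace E]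
    [BorelSpace E] [Nonempty ι] (b : Basis ι ℤ L) {X : Set E}
    (hX : ∀ ⦃x⦄ ⦃r : ℝ⦄, x ∈ X → 0 < r → r • x ∈ X)
    {F : E → ℝ} (h₁ : ∀ x ⦃r : ℝ⦄, 0 ≤ r → F (r • x) = r ^ Fintype.card ι * (F x))
    (h₂ : IsBounded {x ∈ X | F x ≤ 1}) (h₃ : MeasurableSet {x ∈ X | F x ≤ 1})
    {κ J : Type*} [Fintype κ] [Fintype J] (φ : J → (κ → ℝ) → E) (Λ : ℝ) (hΛ : 0 ≤ Λ)
    (hφ : ∀ j, ∀ u ∈ Set.Icc (0 : κ → ℝ) 1, ∀ u' ∈ Set.Icc (0 : κ → ℝ) 1,
      dist (φ j u) (φ j u') ≤ Λ * dist u u')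
    (hfr : frontier {x ∈ X | F x ≤ 1} ⊆ ⋃ j, φ j '' Set.Icc (0 : κ → ℝ) 1) :
    ∃ C : ℝ, 0 ≤ C ∧ ∀ c : ℝ, 1 ≤ c → ∀ x₀ : E,
      |(Nat.card ({x ∈ X | F x ≤ c} ∩ (x₀ +ᵥ (L : Set E)) : Set E) : ℝ) -
        c * volume.real ((b.ofZLatticeBasis ℝ L).equivFun '' {x ∈ X | F x ≤ 1})| ≤
        C * (c ^ ((Fintype.card ι : ℝ)⁻¹)) ^ Fintype.card κ := by
  classical
  set e := (b.ofZLatticeBasis ℝ L).equivFun with he
  set eL : E ≃L[ℝ] (ι → ℝ) := e.toContinuousLinearEquiv with heL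
  set D : Set E := {x ∈ X | F x ≤ 1} with hD
  have hes : IsBounded (e '' D) := by
    rw [← NormedSpace.isVonNBounded_iff ℝ] at h₂ ⊢
    exact Bornology.IsVonNBounded.image h₂ (eL : E →L[ℝ] ι → ℝ)
  have hem : MeasurableSet (e '' D) :=
    eL.toHomeomorph.toMeasurableEquiv.measurableSet_image.mpr h₃
  have hfr' : frontier (e '' D) ⊆ ⋃ j, (fun j u => e (φ j u)) j '' Set.Icc (0 : κ → ℝ) 1 := by
    have : frontier (e '' D) = e '' frontier D := (eL.toHomeomorph.image_frontier D).symm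
    rw [this]
    rintro _ ⟨y, hy, rfl⟩
    obtain ⟨j, hj⟩ := Set.mem_iUnion.1 (hfr hy)
    obtain ⟨u, hu, rfl⟩ := hj
    exact Set.mem_iUnion.2 ⟨j, u, hu, rfl⟩
  have hφ' : ∀ j, ∀ u ∈ Set.Icc (0 : κ → ℝ) 1, ∀ u' ∈ Set.Icc (0 : κ → ℝ) 1,
      dist ((fun j u => e (φ j u)) j u) ((fun j u => e (φ j u)) j u') ≤
        (‖(eL : E →L[ℝ] ι → ℝ)‖ * Λ) * dist u u' := by
    intro j u hu u' hu'
    simp only
    have h1 : dist (e (φ j u)) (e (φ j u')) ≤ ‖(eL : E →L[ℝ] ι → ℝ)‖ * dist (φ j u) (φ j u') := by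
      have := (eL : E →L[ℝ] ι → ℝ).lipschitz.dist_le_mul (φ j u) (φ j u')
      exact this
    refine h1.trans ?_
    rw [mul_assoc]
    exact mul_le_mul_of_nonneg_left (hφ j u hu u' hu') (norm_nonneg _)
  obtain ⟨C, hC0, hC⟩ := exists_bound_card_vadd_smul_sub hes hem (fun j u => e (φ j u))
    (‖(eL : E →L[ℝ] ι → ℝ)‖ * Λ) (mul_nonneg (norm_nonneg _) hΛ) hφ' hfr'
  refine ⟨C, hC0, fun c hc x₀ => ?_⟩
  have hc0 : 0 < c := lt_of_lt_of_le one_pos hc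
  have hn : (Fintype.card ι : ℝ) ≠ 0 := Nat.cast_ne_zero.2 Fintype.card_ne_zero
  set t : ℝ := c ^ ((Fintype.card ι : ℝ)⁻¹) with ht
  have ht0 : 0 < t := Real.rpow_pos_of_pos hc0 _
  have ht1 : 1 ≤ t := Real.one_le_rpow hc (inv_nonneg.2 (Nat.cast_nonneg _))
  have htn : t ^ Fintype.card ι = c := by
    rw [ht, ← Real.rpow_natCast, ← Real.rpow_mul hc0.le, inv_mul_cancel₀ hn, Real.rpow_one]
  have hset : {x ∈ X | F x ≤ c} = t • D := by
    rw [hD, smul_setOf_le_one hX h₁ ht0, htn]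
  have himg : e '' (-x₀ +ᵥ t • D) = (e (-x₀)) +ᵥ t • (e '' D) := by
    ext y
    simp only [Set.mem_image, Set.mem_vadd_set, Set.mem_smul_set, vadd_eq_add]
    constructor
    · rintro ⟨_, ⟨_, ⟨d, hd, rfl⟩, rfl⟩, rfl⟩
      exact ⟨t • e d, ⟨e d, ⟨d, hd, rfl⟩, rfl⟩, by rw [map_add, map_smul]⟩
    · rintro ⟨_, ⟨_, ⟨d, hd, rfl⟩, rfl⟩, rfl⟩
      exact ⟨-x₀ + t • d, ⟨t • d, ⟨d, hd, rfl⟩, rfl⟩, by rw [map_add, map_smul]⟩
  have := hC t ht1 (e (-x₀))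
  rw [htn] at this
  rw [hset, card_inter_vadd_eq, card_inter_lattice_eq b, himg]
  exact this

/-- **Counting points of a shifted lattice in a homogeneous region with error term**,
inner product space version. -/
theorem exists_bound_card_le_sub_shift' {E : Type*} [NormedAddCommGroup E]
    [InnerProductSpace ℝ E]
    [FiniteDimensional ℝ E] [MeasurableSpace E] [BorelSpace E] [Nontrivial E]
    (L : Submodule ℤ E) [DiscreteTopology L] [IsZLattice ℝ L] {X : Set E} {F : E → ℝ}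
    (hX : ∀ ⦃x⦄ ⦃r : ℝ⦄, x ∈ X → 0 < r → r • x ∈ X)
    (h₁ : ∀ x ⦃r : ℝ⦄, 0 ≤ r → F (r • x) = r ^ finrank ℝ E * (F x))
    (h₂ : IsBounded {x ∈ X | F x ≤ 1}) (h₃ : MeasurableSet {x ∈ X | F x ≤ 1})
    {κ J : Type*} [Fintype κ] [Fintype J] (φ : J → (κ → ℝ) → E) (Λ : ℝ) (hΛ : 0 ≤ Λ)
    (hφ : ∀ j, ∀ u ∈ Set.Icc (0 : κ → ℝ) 1, ∀ u' ∈ Set.Icc (0 : κ → ℝ) 1,
      dist (φ j u) (φ j u') ≤ Λ * dist u u')
    (hfr : frontier {x ∈ X | F x ≤ 1} ⊆ ⋃ j, φ j '' Set.Icc (0 : κ → ℝ) 1) :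
    ∃ C : ℝ, 0 ≤ C ∧ ∀ c : ℝ, 1 ≤ c → ∀ x₀ : E,
      |(Nat.card ({x ∈ X | F x ≤ c} ∩ (x₀ +ᵥ (L : Set E)) : Set E) : ℝ) -
        c * (volume.real {x ∈ X | F x ≤ 1} / ZLattice.covolume L)| ≤
        C * (c ^ ((finrank ℝ E : ℝ)⁻¹)) ^ Fintype.card κ := by
  let b := Module.Free.chooseBasis ℤ L
  have hcard : Fintype.card (Module.Free.ChooseBasisIndex ℤ L) = finrank ℝ E := by
    rw [← finrank_eq_card_chooseBasisIndex, ZLattice.rank ℝ L]
  have : Nontrivial L := nontrivial_of_finrank_pos <| (ZLattice.rank ℝ L).symm ▸ finrank_pos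
  have hne : Nonempty (Module.Free.ChooseBasisIndex ℤ L) := inferInstance
  have h₁' : ∀ x ⦃r : ℝ⦄, 0 ≤ r →
      F (r • x) = r ^ Fintype.card (Module.Free.ChooseBasisIndex ℤ L) * (F x) := by
    rw [hcard]; exact h₁
  obtain ⟨C, hC0, hC⟩ := exists_bound_card_le_sub_shift'' b hX h₁' h₂ h₃ φ Λ hΛ hφ hfr
  refine ⟨C, hC0, fun c hc x₀ => ?_⟩
  have := hC c hc x₀
  rw [hcard] at this
  have hvol : volume.real ((b.ofZLatticeBasis ℝ L).equivFun '' {x ∈ X | F x ≤ 1}) =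
      volume.real {x ∈ X | F x ≤ 1} / ZLattice.covolume L := by
    simp only [measureReal_def]
    rw [ZLattice.volume_image_eq_volume_div_covolume' L b h₃.nullMeasurableSet, ENNReal.toReal_div,
      ENNReal.toReal_ofReal (ZLattice.covolume_pos L volume).le]
  rwa [hvol] at this

end General

end Fermat.Agent.S55.Global.ShiftedLatticeCount
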