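import Mathlib
import Fermat.Agent.S14.IdealCountError
import Fermat.Agent.S55.Global.ShiftedLatticeCount

/-!
# Counting integral ideals in a ray class, with a power-saving error term

`K` a number field, `m` a nonzero integral ideal.

* `exists_bound_card_coset` : the number of `a ∈ x₀ + J` in the fundamental cone with
  `|N a| ≤ c` is `c * (κ w / N J) + O(c ^ (1 - 1/n))`, uniformly in `x₀`.
-/

set_option autoImplicit false
set_option linter.unusedSectionVars false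

noncomputable section

open Ideal NumberField NumberField.InfinitePlace NumberField.mixedEmbedding
  NumberField.mixedEmbedding.fundamentalCone NumberField.mixedEmbedding.euclidean
  NumberField.Units Submodule Module MeasureTheory

open scoped nonZeroDivisors Real Pointwise

namespace Fermat.Agent.S55.Global.RayIdealCount

open scoped Classical

open Fermat.Agent.S14.IdealCountError Fermat.Agent.S14.NormLeOneLipschitz
  Fermat.Agent.S14.LatticeCountError Fermat.Agent.S55.Global.ShiftedLatticeCount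

variable (K : Type*) [Field K] [NumberField K]

/-- The elements of the coset `x₀ + J` in the fundamental cone, of norm `≤ c`. -/
def CosetSet (J : (Ideal (𝓞 K))⁰) (x₀ : 𝓞 K) (c : ℝ) : Type _ :=
  {a : 𝓞 K // a - x₀ ∈ (J : Ideal (𝓞 K)) ∧ mixedEmbedding K (a : K) ∈ fundamentalCone K ∧
    mixedEmbedding.norm (mixedEmbedding K (a : K)) ≤ c}

/-- identification of `CosetSet` with the points of a shifted lattice -/
def cosetSetEquiv (J : (Ideal (𝓞 K))⁰) (x₀ : 𝓞 K) (c : ℝ) :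
    ↑({x | x ∈ (toMixed K) ⁻¹' fundamentalCone K ∧ mixedEmbedding.norm ((toMixed K) x) ≤ c} ∩
      (((toMixed K).symm (mixedEmbedding K (x₀ : K))) +ᵥ
        ((ZLattice.comap ℝ (idealLattice K ((FractionalIdeal.mk0 K) J))
          (toMixed K).toLinearMap : Submodule ℤ (euclidean.mixedSpace K)) :
            Set (euclidean.mixedSpace K))))
      ≃ CosetSet K J x₀ c := by
  refine Equiv.symm (Equiv.ofBijective (fun a => ⟨(toMixed K).symm (mixedEmbedding K (a.1 : K)),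
    ⟨?_, ?_⟩, ?_⟩) ⟨?_, ?_⟩)
  · show (toMixed K) ((toMixed K).symm (mixedEmbedding K (a.1 : K))) ∈ fundamentalCone K
    rw [ContinuousLinearEquiv.apply_symm_apply]
    exact a.2.2.1
  · show mixedEmbedding.norm ((toMixed K) ((toMixed K).symm (mixedEmbedding K (a.1 : K)))) ≤ c
    rw [ContinuousLinearEquiv.apply_symm_apply]
    exact a.2.2.2
  · rw [Set.mem_vadd_set]
    refine ⟨(toMixed K).symm (mixedEmbedding K ((a.1 - x₀ : 𝓞 K) : K)), ?_, ?_⟩
    · rw [ZLattice.coe_comap, Set.mem_preimage]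
      show (toMixed K) ((toMixed K).symm (mixedEmbedding K ((a.1 - x₀ : 𝓞 K) : K))) ∈ _
      rw [ContinuousLinearEquiv.apply_symm_apply, SetLike.mem_coe, mem_idealLattice]
      refine ⟨((a.1 - x₀ : 𝓞 K) : K), ?_, rfl⟩
      rw [FractionalIdeal.coe_mk0]
      exact (FractionalIdeal.mem_coeIdeal _).mpr ⟨a.1 - x₀, a.2.1, rfl⟩
    · rw [vadd_eq_add, ← map_add, ← map_add]
      congr 2
      push_cast
      ring
  · intro a b hab
    have h1 := congrArg Subtype.val hab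
    simp only at h1
    have h2 := (toMixed K).symm.injective h1
    have h3 := mixedEmbedding_injective K h2
    exact Subtype.ext (RingOfIntegers.coe_injective h3)
  · rintro ⟨y, ⟨hy1, hy2⟩, hy3⟩
    rw [Set.mem_vadd_set] at hy3
    obtain ⟨z, hz, hzy⟩ := hy3
    rw [ZLattice.coe_comap, Set.mem_preimage] at hz
    have hz' : (toMixed K) z ∈ idealLattice K ((FractionalIdeal.mk0 K) J) := hz
    rw [mem_idealLattice] at hz'
    obtain ⟨b, hb, hbz⟩ := hz'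
    rw [FractionalIdeal.coe_mk0] at hb
    obtain ⟨b', hb', rfl⟩ := (FractionalIdeal.mem_coeIdeal _).mp hb
    have hy : (toMixed K) y = mixedEmbedding K ((x₀ + b' : 𝓞 K) : K) := by
      rw [← hzy, vadd_eq_add, map_add, ContinuousLinearEquiv.apply_symm_apply, ← hbz]
      push_cast
      rw [map_add]
    refine ⟨⟨x₀ + b', by simpa using hb', ?_, ?_⟩, ?_⟩
    · rw [← hy]; exact hy1
    · rw [← hy]; exact hy2
    · apply Subtype.ext
      show (toMixed K).symm (mixedEmbedding K ((x₀ + b' : 𝓞 K) : K)) = y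
      rw [← hy, ContinuousLinearEquiv.symm_apply_apply]

/-- **Counting the points of a coset `x₀ + J` in the fundamental cone**, of norm `≤ c`, with
error term uniform in `x₀`. -/
theorem exists_bound_card_coset (J : (Ideal (𝓞 K))⁰) :
    ∃ B : ℝ, 0 ≤ B ∧ ∀ c : ℝ, 1 ≤ c → ∀ x₀ : 𝓞 K,
      |(Nat.card (CosetSet K J x₀ c) : ℝ) -
        c * (kappa K * torsionOrder K / absNorm (J : Ideal (𝓞 K)))| ≤
        B * c ^ (1 - (finrank ℚ K : ℝ)⁻¹) := by
  classical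
  obtain ⟨Λ, hΛ, hlip, hcov⟩ := exists_lipschitz_cover K
  have h₁ : ∀ s : ℝ,
    {x | x ∈ toMixed K ⁻¹' fundamentalCone K ∧ mixedEmbedding.norm (toMixed K x) ≤ s} =
      toMixed K ⁻¹' {x | x ∈ fundamentalCone K ∧ mixedEmbedding.norm x ≤ s} := fun _ ↦ rfl
  have h₂ : {x | x ∈ fundamentalCone K ∧ mixedEmbedding.norm x ≤ 1} = normLeOne K := by ext; simp
  have hlip' : ∀ j : Idx K, ∀ u ∈ Set.Icc (0 : Param K → ℝ) 1, ∀ u' ∈ Set.Icc (0 : Param K → ℝ) 1,
      dist ((fun j u => (toMixed K).symm (Psi K j u)) j u)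
        ((fun j u => (toMixed K).symm (Psi K j u)) j u') ≤
        (‖((toMixed K).symm : mixedSpace K →L[ℝ] euclidean.mixedSpace K)‖ * Λ) * dist u u' := by
    intro j u hu u' hu'
    simp only
    have h1 := ((toMixed K).symm : mixedSpace K →L[ℝ] euclidean.mixedSpace K).lipschitz.dist_le_mul
      (Psi K j u) (Psi K j u')
    refine h1.trans ?_
    rw [mul_assoc]
    exact mul_le_mul_of_nonneg_left (hlip j u hu u' hu') (NNReal.coe_nonneg _)
  have hfr : frontier {x | x ∈ toMixed K ⁻¹' fundamentalCone K ∧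
      mixedEmbedding.norm (toMixed K x) ≤ 1} ⊆
      ⋃ j : Idx K, (fun j u => (toMixed K).symm (Psi K j u)) j '' Set.Icc (0 : Param K → ℝ) 1 := by
    rw [h₁, h₂, ← (toMixed K).coe_toHomeomorph, ← Homeomorph.preimage_frontier,
      (toMixed K).coe_toHomeomorph]
    intro x hx
    obtain ⟨j, hj⟩ := Set.mem_iUnion.1 (hcov hx)
    obtain ⟨u, hu, hux⟩ := hj
    refine Set.mem_iUnion.2 ⟨j, u, hu, ?_⟩
    simp only [hux, ContinuousLinearEquiv.symm_apply_apply]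
  obtain ⟨B, hB0, hB⟩ := exists_bound_card_le_sub_shift'
    (ZLattice.comap ℝ (mixedEmbedding.idealLattice K (FractionalIdeal.mk0 K J))
      (toMixed K).toLinearMap)
    (F := fun x ↦ mixedEmbedding.norm (toMixed K x)) (X := (toMixed K) ⁻¹' (fundamentalCone K))
    (fun _ _ _ h ↦ by rwa [Set.mem_preimage, map_smul, smul_mem_iff_mem h.ne'])
    (fun _ _ h ↦ by rw [map_smul, mixedEmbedding.norm_smul, euclidean.finrank, abs_of_nonneg h])
    (by rw [h₁, h₂]; exact (toMixed K).antilipschitz.isBounded_preimage (isBounded_normLeOne K))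
    (by rw [h₁, h₂]; exact (toMixed K).continuous.measurable (measurableSet_normLeOne K))
    (fun j u => (toMixed K).symm (Psi K j u))
    (‖((toMixed K).symm : mixedSpace K →L[ℝ] euclidean.mixedSpace K)‖ * Λ)
    (mul_nonneg (norm_nonneg _) hΛ) hlip' hfr
  have hn0 : (0 : ℝ) < (finrank ℚ K : ℝ) := Nat.cast_pos.2 finrank_pos
  have hm : (Fintype.card (Param K) : ℝ) + 1 = (finrank ℚ K : ℝ) := by
    exact_mod_cast card_param_add_one K
  have hexp : (finrank ℚ K : ℝ)⁻¹ * (Fintype.card (Param K) : ℝ) =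
      1 - (finrank ℚ K : ℝ)⁻¹ := by
    rw [← hm]
    have : (Fintype.card (Param K) : ℝ) + 1 ≠ 0 := by rw [hm]; exact hn0.ne'
    field_simp
    ring
  refine ⟨B, hB0, fun c hc x₀ => ?_⟩
  have hc0 : 0 < c := lt_of_lt_of_le one_pos hc
  have := hB c hc ((toMixed K).symm (mixedEmbedding K (x₀ : K)))
  rw [Nat.card_congr (cosetSetEquiv K J x₀ c), euclidean.finrank, h₁ 1, h₂,
    volume_div_covolume_eq, ← Real.rpow_natCast, ← Real.rpow_mul hc0.le, hexp] at this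
  exact this

/-! ### Principal ideals and their generators in the fundamental cone -/

/-- `integerSet K` as a set of algebraic integers. -/
def integerSetEquivCone :
    integerSet K ≃ {a : 𝓞 K // mixedEmbedding K (a : K) ∈ fundamentalCone K} where
  toFun x := ⟨(preimageOfMemIntegerSet x : 𝓞 K), by
    rw [mixedEmbedding_preimageOfMemIntegerSet]; exact x.2.1⟩
  invFun a := ⟨mixedEmbedding K (a.1 : K), mem_integerSet.mpr ⟨a.2, a.1, rfl⟩⟩
  left_inv x := Subtype.ext (mixedEmbedding_preimageOfMemIntegerSet x)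
  right_inv a := Subtype.ext (preimageOfMemIntegerSet_mixedEmbedding (K := K) (x := a.1)
      (mem_integerSet.mpr ⟨a.2, a.1, rfl⟩))

/-- For a predicate `Q` on ideals: the generators in the fundamental cone of the
principal ideals satisfying `Q` correspond to pairs (ideal, root of unity). -/
def coneEquivPrincipal (Q : Ideal (𝓞 K) → Prop) :
    {a : 𝓞 K // mixedEmbedding K (a : K) ∈ fundamentalCone K ∧ Q (span {a})} ≃
      {I : (Ideal (𝓞 K))⁰ // IsPrincipal (I : Ideal (𝓞 K)) ∧ Q (I : Ideal (𝓞 K))} × torsion K :=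
  calc {a : 𝓞 K // mixedEmbedding K (a : K) ∈ fundamentalCone K ∧ Q (span {a})}
      ≃ {a : {a : 𝓞 K // mixedEmbedding K (a : K) ∈ fundamentalCone K} // Q (span {a.1})} :=
        (Equiv.subtypeSubtypeEquivSubtypeInter _ _).symm
    _ ≃ {x : integerSet K // Q (span {(preimageOfMemIntegerSet x : 𝓞 K)})} :=
        ((integerSetEquivCone K).subtypeEquiv fun x => by
          simp only [integerSetEquivCone, Equiv.coe_fn_mk]).symm
    _ ≃ {p : {I : (Ideal (𝓞 K))⁰ // IsPrincipal I.1} × torsion K // Q (p.1.1 : Ideal (𝓞 K))} :=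
        (integerSetEquiv K).subtypeEquiv fun x => by rw [integerSetEquiv_apply_fst]
    _ ≃ {I : {I : (Ideal (𝓞 K))⁰ // IsPrincipal I.1} // Q (I.1 : Ideal (𝓞 K))} × torsion K :=
        Equiv.prodSubtypeFstEquivSubtypeProd
          (p := fun I : {I : (Ideal (𝓞 K))⁰ // IsPrincipal I.1} => Q (I.1 : Ideal (𝓞 K)))
    _ ≃ {I : (Ideal (𝓞 K))⁰ // IsPrincipal (I : Ideal (𝓞 K)) ∧ Q (I : Ideal (𝓞 K))} × torsion K :=
        Equiv.prodCongrLeft fun _ =>
          Equiv.subtypeSubtypeEquivSubtypeInter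
            (fun I : (Ideal (𝓞 K))⁰ => IsPrincipal I.1) (fun I => Q I.1)

theorem card_cone_eq_card_principal_mul (Q : Ideal (𝓞 K) → Prop) :
    Nat.card {a : 𝓞 K // mixedEmbedding K (a : K) ∈ fundamentalCone K ∧ Q (span {a})} =
      Nat.card {I : (Ideal (𝓞 K))⁰ // IsPrincipal (I : Ideal (𝓞 K)) ∧ Q (I : Ideal (𝓞 K))} *
        torsionOrder K := by
  rw [torsionOrder, ← Nat.card_prod]
  exact Nat.card_congr (coneEquivPrincipal K Q)

/-- finiteness when `Q` bounds the norm -/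
theorem finite_cone_of_norm_le (Q : Ideal (𝓞 K) → Prop) (c : ℝ)
    (hQ : ∀ I, Q I → (absNorm I : ℝ) ≤ c) :
    Finite {a : 𝓞 K // mixedEmbedding K (a : K) ∈ fundamentalCone K ∧ Q (span {a})} := by
  have h1 : Finite {I : (Ideal (𝓞 K))⁰ // IsPrincipal (I : Ideal (𝓞 K)) ∧ Q (I : Ideal (𝓞 K))} := by
    have hfin : Finite {I : Ideal (𝓞 K) // absNorm I ≤ ⌊c⌋₊} :=
      Set.finite_coe_iff.mpr (Ideal.finite_setOfPred_absNorm_le ⌊c⌋₊)
    refine Finite.of_injective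
      (fun I => (⟨(I.1 : Ideal (𝓞 K)), Nat.le_floor (hQ _ I.2.2)⟩ :
        {I : Ideal (𝓞 K) // absNorm I ≤ ⌊c⌋₊})) ?_
    intro I I' h
    have h' : ((I.1 : (Ideal (𝓞 K))⁰) : Ideal (𝓞 K)) = (I'.1 : Ideal (𝓞 K)) :=
      congrArg (fun x : {I : Ideal (𝓞 K) // absNorm I ≤ ⌊c⌋₊} => x.1) h
    exact Subtype.ext (Subtype.ext h')
  exact Finite.of_equiv _ (coneEquivPrincipal K Q).symm

/-! ### Ray classes -/

section Ray

variable {K}
variable (m : Ideal (𝓞 K))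

/-- `a` has an associate which is `≡ 1 mod m`. -/
def UnitOne (a : 𝓞 K) : Prop := ∃ u : (𝓞 K)ˣ, (u : 𝓞 K) * a - 1 ∈ m

/-- The predicate on ideals: contained in `J`, norm `≤ c`, having a generator `≡ 1 mod m`. -/
def RayQ (J : Ideal (𝓞 K)) (c : ℝ) (I : Ideal (𝓞 K)) : Prop :=
  I ≤ J ∧ (absNorm I : ℝ) ≤ c ∧ ∃ a : 𝓞 K, I = span {a} ∧ a - 1 ∈ m

lemma absNorm_span_eq_norm (a : 𝓞 K) :
    (absNorm (span {a} : Ideal (𝓞 K)) : ℝ) = mixedEmbedding.norm (mixedEmbedding K (a : K)) := by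
  rw [Ideal.absNorm_span_singleton, mixedEmbedding.norm_eq_norm, ← Algebra.coe_norm_int,
    Nat.cast_natAbs, Int.cast_abs]
  simp

lemma rayQ_span_iff (J : Ideal (𝓞 K)) (c : ℝ) (a : 𝓞 K) :
    RayQ m J c (span {a}) ↔
      a ∈ J ∧ mixedEmbedding.norm (mixedEmbedding K (a : K)) ≤ c ∧ UnitOne m a := by
  unfold RayQ UnitOne
  rw [Ideal.span_singleton_le_iff_mem, absNorm_span_eq_norm]
  refine and_congr_right fun _ => and_congr_right fun _ => ?_
  constructor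
  · rintro ⟨a', ha', hm⟩
    rw [Ideal.span_singleton_eq_span_singleton] at ha'
    obtain ⟨u, hu⟩ := ha'
    exact ⟨u, by rw [mul_comm, hu]; exact hm⟩
  · rintro ⟨u, hu⟩
    refine ⟨(u : 𝓞 K) * a, ?_, hu⟩
    rw [Ideal.span_singleton_eq_span_singleton]
    exact ⟨u, mul_comm _ _⟩

lemma unitOne_add {a b : 𝓞 K} (ha : UnitOne m a) (hb : b ∈ m) : UnitOne m (a + b) := by
  obtain ⟨u, hu⟩ := ha
  refine ⟨u, ?_⟩
  have : (u : 𝓞 K) * (a + b) - 1 = ((u : 𝓞 K) * a - 1) + (u : 𝓞 K) * b := by ring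
  rw [this]
  exact m.add_mem hu (m.mul_mem_left _ hb)

end Ray

/-! ### Partition of the generators by residues modulo `J * M` -/

section Count

variable {K}
variable (M J : (Ideal (𝓞 K))⁰)

instance finite_quot_mul : Finite (𝓞 K ⧸ ((J * M : (Ideal (𝓞 K))⁰) : Ideal (𝓞 K))) :=
  Ideal.finiteQuotientOfFreeOfNeBot _ (nonZeroDivisors.coe_ne_zero _)

/-- The generators in the fundamental cone, of norm `≤ c`, of the ideals `⊆ J` having a generator
`≡ 1 mod M`. -/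
abbrev GenSet (c : ℝ) : Type _ :=
  {a : 𝓞 K // mixedEmbedding K (a : K) ∈ fundamentalCone K ∧
    RayQ (M : Ideal (𝓞 K)) (J : Ideal (𝓞 K)) c (span {a})}

instance finite_genSet (c : ℝ) : Finite (GenSet M J c) :=
  finite_cone_of_norm_le K _ c (fun _ h => h.2.1)

/-- A residue class mod `J * M` is good if it consists of elements of `J` which are associated to
an element `≡ 1 mod M`. -/
def Good (q : 𝓞 K ⧸ ((J * M : (Ideal (𝓞 K))⁰) : Ideal (𝓞 K))) : Prop :=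
  ∃ r : 𝓞 K, Ideal.Quotient.mk _ r = q ∧ r ∈ (J : Ideal (𝓞 K)) ∧ UnitOne (M : Ideal (𝓞 K)) r

lemma mul_le_J : ((J * M : (Ideal (𝓞 K))⁰) : Ideal (𝓞 K)) ≤ (J : Ideal (𝓞 K)) := by
  rw [Submonoid.coe_mul]
  exact Ideal.mul_le_left (I := (J : Ideal (𝓞 K))) (J := (M : Ideal (𝓞 K)))

lemma mul_le_M : ((J * M : (Ideal (𝓞 K))⁰) : Ideal (𝓞 K)) ≤ (M : Ideal (𝓞 K)) := by
  rw [Submonoid.coe_mul]
  exact Ideal.mul_le_right (I := (J : Ideal (𝓞 K))) (J := (M : Ideal (𝓞 K)))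

/-- The fibre of the residue map over a good class is a `CosetSet`. -/
def fiberEquiv (c : ℝ) (q : 𝓞 K ⧸ ((J * M : (Ideal (𝓞 K))⁰) : Ideal (𝓞 K))) (r : 𝓞 K)
    (hr : Ideal.Quotient.mk _ r = q) (hrJ : r ∈ (J : Ideal (𝓞 K)))
    (hrU : UnitOne (M : Ideal (𝓞 K)) r) :
    {a : GenSet M J c // Ideal.Quotient.mk ((J * M : (Ideal (𝓞 K))⁰) : Ideal (𝓞 K)) a.1 = q} ≃
      CosetSet K (J * M) r c where
  toFun a := ⟨a.1.1, Ideal.Quotient.eq.mp (a.2.trans hr.symm), a.1.2.1,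
    ((rayQ_span_iff _ _ _ _).mp a.1.2.2).2.1⟩
  invFun b := ⟨⟨b.1, b.2.2.1, by
    rw [rayQ_span_iff]
    have hb : b.1 = r + (b.1 - r) := by ring
    refine ⟨?_, b.2.2.2, ?_⟩
    · rw [hb]; exact Ideal.add_mem _ hrJ (mul_le_J M J b.2.1)
    · rw [hb]; exact unitOne_add _ hrU (mul_le_M M J b.2.1)⟩,
    (Ideal.Quotient.eq.mpr b.2.1).trans hr⟩
  left_inv a := Subtype.ext (Subtype.ext rfl)
  right_inv b := Subtype.ext rfl

lemma isEmpty_fiber_of_not_good (c : ℝ) (q : 𝓞 K ⧸ ((J * M : (Ideal (𝓞 K))⁰) : Ideal (𝓞 K)))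
    (hq : ¬ Good M J q) :
    IsEmpty {a : GenSet M J c //
      Ideal.Quotient.mk ((J * M : (Ideal (𝓞 K))⁰) : Ideal (𝓞 K)) a.1 = q} := by
  refine ⟨fun a => hq ?_⟩
  obtain ⟨hJ, -, hU⟩ := (rayQ_span_iff _ _ _ _).mp a.1.2.2
  exact ⟨a.1.1, a.2, hJ, hU⟩

/-- **Counting the generators**: `#GenSet c = #Good * c * (κ w / N(J M)) + O(c ^ (1 - 1/n))`. -/
theorem exists_bound_card_genSet :
    ∃ B : ℝ, 0 ≤ B ∧ ∀ c : ℝ, 1 ≤ c →
      |(Nat.card (GenSet M J c) : ℝ) -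
        (Nat.card {q // Good M J q} : ℝ) *
          (c * (kappa K * torsionOrder K /
            absNorm ((J * M : (Ideal (𝓞 K))⁰) : Ideal (𝓞 K))))| ≤
        B * c ^ (1 - (finrank ℚ K : ℝ)⁻¹) := by
  classical
  obtain ⟨B, hB0, hB⟩ := exists_bound_card_coset K (J * M)
  let _ : Fintype (𝓞 K ⧸ ((J * M : (Ideal (𝓞 K))⁰) : Ideal (𝓞 K))) := Fintype.ofFinite _
  refine ⟨(Nat.card {q // Good M J q} : ℝ) * B, by positivity, fun c hc => ?_⟩
  set ρ : ℝ := c * (kappa K * torsionOrder K /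
    absNorm ((J * M : (Ideal (𝓞 K))⁰) : Ideal (𝓞 K))) with hρ
  -- fibrewise count
  have hfib : (Nat.card (GenSet M J c) : ℝ) =
      ∑ q : 𝓞 K ⧸ ((J * M : (Ideal (𝓞 K))⁰) : Ideal (𝓞 K)),
        (Nat.card {a : GenSet M J c //
          Ideal.Quotient.mk ((J * M : (Ideal (𝓞 K))⁰) : Ideal (𝓞 K)) a.1 = q} : ℝ) := by
    rw [← Nat.cast_sum, ← Nat.card_sigma]
    congr 1
    exact Nat.card_congr (Equiv.sigmaFiberEquiv
      (fun a : GenSet M J c =>
        Ideal.Quotient.mk ((J * M : (Ideal (𝓞 K))⁰) : Ideal (𝓞 K)) a.1)).symm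
  have hgood : (Nat.card {q // Good M J q} : ℝ) =
      ∑ q : 𝓞 K ⧸ ((J * M : (Ideal (𝓞 K))⁰) : Ideal (𝓞 K)), (if Good M J q then (1 : ℝ) else 0) := by
    rw [Finset.sum_boole, Nat.card_eq_fintype_card, Fintype.card_subtype]
  have hterm : ∀ q : 𝓞 K ⧸ ((J * M : (Ideal (𝓞 K))⁰) : Ideal (𝓞 K)),
      |(Nat.card {a : GenSet M J c //
          Ideal.Quotient.mk ((J * M : (Ideal (𝓞 K))⁰) : Ideal (𝓞 K)) a.1 = q} : ℝ) -
        (if Good M J q then (1 : ℝ) else 0) * ρ| ≤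
      (if Good M J q then (1 : ℝ) else 0) * (B * c ^ (1 - (finrank ℚ K : ℝ)⁻¹)) := by
    intro q
    by_cases hq : Good M J q
    · rw [if_pos hq, one_mul, one_mul]
      obtain ⟨r, hr, hrJ, hrU⟩ := hq
      rw [Nat.card_congr (fiberEquiv M J c q r hr hrJ hrU)]
      exact hB c hc r
    · rw [if_neg hq, zero_mul, zero_mul]
      have := isEmpty_fiber_of_not_good M J c q hq
      rw [Nat.card_of_isEmpty]
      simp
  rw [hfib, mul_assoc, hgood, Finset.sum_mul, Finset.sum_mul, ← Finset.sum_sub_distrib]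
  exact (Finset.abs_sum_le_sum_abs _ _).trans (Finset.sum_le_sum fun q _ => hterm q)

end Count

/-! ### The number of good residues -/

section GoodCount

variable {K}
variable (M J : (Ideal (𝓞 K))⁰)

/-- The image of the units in `𝓞 K ⧸ M`, as the set of inverses of units. -/
def unitRes : Type _ :=
  {t : 𝓞 K ⧸ (M : Ideal (𝓞 K)) // ∃ u : (𝓞 K)ˣ, Ideal.Quotient.mk _ (u : 𝓞 K) * t = 1}

/-- the map from good residues to `unitRes` -/
def goodToUnitRes (q : {q // Good M J q}) : unitRes M :=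
  ⟨Ideal.Quotient.factor (mul_le_M M J) q.1, by
    obtain ⟨r, hr, -, u, hu⟩ := q.2
    refine ⟨u, ?_⟩
    rw [← hr, Ideal.Quotient.factor_mk, ← map_mul, ← map_one (Ideal.Quotient.mk _),
      Ideal.Quotient.eq]
    exact hu⟩

theorem goodToUnitRes_bijective (hJM : (J : Ideal (𝓞 K)) ⊔ (M : Ideal (𝓞 K)) = ⊤) :
    Function.Bijective (goodToUnitRes M J) := by
  constructor
  · rintro ⟨q, r, hr, hrJ, hrU⟩ ⟨q', r', hr', hrJ', hrU'⟩ h
    have h1 : Ideal.Quotient.factor (mul_le_M M J) q = Ideal.Quotient.factor (mul_le_M M J) q' :=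
      congrArg Subtype.val h
    rw [← hr, ← hr', Ideal.Quotient.factor_mk, Ideal.Quotient.factor_mk, Ideal.Quotient.eq] at h1
    apply Subtype.ext
    show q = q'
    rw [← hr, ← hr', Ideal.Quotient.eq, Submonoid.coe_mul, Ideal.mul_eq_inf_of_coprime hJM]
    exact ⟨Ideal.sub_mem _ hrJ hrJ', h1⟩
  · rintro ⟨t, u, hu⟩
    obtain ⟨b, rfl⟩ := Ideal.Quotient.mk_surjective t
    rw [← map_mul, ← map_one (Ideal.Quotient.mk _), Ideal.Quotient.eq] at hu
    have h1 : (1 : 𝓞 K) ∈ (J : Ideal (𝓞 K)) ⊔ (M : Ideal (𝓞 K)) := by rw [hJM]; trivial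
    obtain ⟨j, hj, μ, hμ, hjμ⟩ := Submodule.mem_sup.mp h1
    have hab : j * b - b ∈ (M : Ideal (𝓞 K)) := by
      have : j * b - b = -(μ * b) := by
        have : j = 1 - μ := by rw [← hjμ]; ring
        rw [this]; ring
      rw [this]
      exact Ideal.neg_mem_iff _ |>.mpr (Ideal.mul_mem_right _ _ hμ)
    have hU : UnitOne (M : Ideal (𝓞 K)) (j * b) := by
      have := unitOne_add (M : Ideal (𝓞 K)) (a := b) ⟨u, hu⟩ hab
      rwa [add_sub_cancel] at this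
    refine ⟨⟨Ideal.Quotient.mk _ (j * b), j * b, rfl, Ideal.mul_mem_right _ _ hj, hU⟩, ?_⟩
    apply Subtype.ext
    show Ideal.Quotient.factor (mul_le_M M J) (Ideal.Quotient.mk _ (j * b)) = _
    rw [Ideal.Quotient.factor_mk, Ideal.Quotient.eq]
    exact hab

theorem card_good_eq (hJM : (J : Ideal (𝓞 K)) ⊔ (M : Ideal (𝓞 K)) = ⊤) :
    Nat.card {q // Good M J q} = Nat.card (unitRes M) :=
  Nat.card_congr (Equiv.ofBijective _ (goodToUnitRes_bijective M J hJM))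

instance finite_unitRes : Finite (unitRes M) := by
  have : Finite (𝓞 K ⧸ (M : Ideal (𝓞 K))) :=
    Ideal.finiteQuotientOfFreeOfNeBot _ (nonZeroDivisors.coe_ne_zero _)
  exact Subtype.finite

theorem card_unitRes_pos : 0 < Nat.card (unitRes M) := by
  have : Nonempty (unitRes M) := ⟨⟨1, 1, by simp⟩⟩
  exact Nat.card_pos

end GoodCount

/-! ### Ray class maps and the counting theorem -/

section Main

variable {K}
variable (M : (Ideal (𝓞 K))⁰) {G : Type*} [CommGroup G] (cl : (Ideal (𝓞 K))⁰ →* G)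

/-- The nonzero principal ideal generated by `a ≠ 0`. -/
def spanNZ (a : 𝓞 K) (ha : a ≠ 0) : (Ideal (𝓞 K))⁰ :=
  ⟨span {a}, mem_nonZeroDivisors_of_ne_zero (by
    rw [Ne, Ideal.zero_eq_bot, Ideal.span_singleton_eq_bot]; exact ha)⟩

@[simp] lemma coe_spanNZ (a : 𝓞 K) (ha : a ≠ 0) :
    ((spanNZ a ha : (Ideal (𝓞 K))⁰) : Ideal (𝓞 K)) = span {a} := rfl

/-- `cl` is (on the ideals prime to `M`) exactly the ray class map modulo `M`. -/
structure IsRayMap : Prop where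
  one_of_congr : ∀ (a : 𝓞 K) (ha : a ≠ 0), a - 1 ∈ (M : Ideal (𝓞 K)) → cl (spanNZ a ha) = 1
  congr_of_eq : ∀ I I' : (Ideal (𝓞 K))⁰, (I : Ideal (𝓞 K)) ⊔ (M : Ideal (𝓞 K)) = ⊤ →
    (I' : Ideal (𝓞 K)) ⊔ (M : Ideal (𝓞 K)) = ⊤ → cl I = cl I' →
    ∃ a b : 𝓞 K, a - 1 ∈ (M : Ideal (𝓞 K)) ∧ b - 1 ∈ (M : Ideal (𝓞 K)) ∧ a ≠ 0 ∧ b ≠ 0 ∧
      span {a} * (I : Ideal (𝓞 K)) = span {b} * (I' : Ideal (𝓞 K))

variable {M cl}

lemma sup_eq_top_of_sub_one_mem {a : 𝓞 K} (ha : a - 1 ∈ (M : Ideal (𝓞 K))) :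
    span {a} ⊔ (M : Ideal (𝓞 K)) = ⊤ := by
  rw [Ideal.eq_top_iff_one]
  have : (1 : 𝓞 K) = a + -(a - 1) := by ring
  rw [this]
  exact Submodule.add_mem_sup (Ideal.mem_span_singleton_self a) (Ideal.neg_mem_iff _ |>.mpr ha)

/-- The key equivalence: `I` is prime to `M` in the class `g` of norm `≤ s` iff `J * I` is
principal with a generator `≡ 1 mod M`. -/
theorem ray_iff (hray : IsRayMap M cl) {J : (Ideal (𝓞 K))⁰} {g : G}
    (hJM : (J : Ideal (𝓞 K)) ⊔ (M : Ideal (𝓞 K)) = ⊤) (hJ : cl J = g⁻¹) (s : ℝ)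
    (I : (Ideal (𝓞 K))⁰) :
    ((absNorm (I : Ideal (𝓞 K)) : ℝ) ≤ s ∧ (I : Ideal (𝓞 K)) ⊔ (M : Ideal (𝓞 K)) = ⊤ ∧ cl I = g) ↔
      (IsPrincipal ((J * I : (Ideal (𝓞 K))⁰) : Ideal (𝓞 K)) ∧
        RayQ (M : Ideal (𝓞 K)) (J : Ideal (𝓞 K)) (s * absNorm (J : Ideal (𝓞 K)))
          ((J * I : (Ideal (𝓞 K))⁰) : Ideal (𝓞 K))) := by
  have hNJ : (0 : ℝ) < absNorm (J : Ideal (𝓞 K)) :=
    Nat.cast_pos.mpr (absNorm_pos_of_nonZeroDivisors J)
  have hnorm : (absNorm ((J * I : (Ideal (𝓞 K))⁰) : Ideal (𝓞 K)) : ℝ) =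
      absNorm (J : Ideal (𝓞 K)) * absNorm (I : Ideal (𝓞 K)) := by
    rw [Submonoid.coe_mul, map_mul, Nat.cast_mul]
  constructor
  · rintro ⟨hs, hIM, hI⟩
    have hJIM : ((J * I : (Ideal (𝓞 K))⁰) : Ideal (𝓞 K)) ⊔ (M : Ideal (𝓞 K)) = ⊤ := by
      rw [Submonoid.coe_mul, ← Ideal.isCoprime_iff_sup_eq]
      exact IsCoprime.mul_left (Ideal.isCoprime_iff_sup_eq.mpr hJM)
        (Ideal.isCoprime_iff_sup_eq.mpr hIM)
    have h1M : ((1 : (Ideal (𝓞 K))⁰) : Ideal (𝓞 K)) ⊔ (M : Ideal (𝓞 K)) = ⊤ := by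
      rw [Submonoid.coe_one, Ideal.one_eq_top, top_sup_eq]
    have hcl : cl (J * I) = cl 1 := by rw [map_mul, hJ, hI, inv_mul_cancel, map_one]
    obtain ⟨a, b, ha, hb, ha0, hb0, hab⟩ := hray.congr_of_eq _ _ hJIM h1M hcl
    rw [Submonoid.coe_one, Ideal.one_eq_top, Ideal.mul_top] at hab
    have hba : b ∈ (span {a} : Ideal (𝓞 K)) := by
      have h1 : b ∈ (span {b} : Ideal (𝓞 K)) := Ideal.mem_span_singleton_self b
      rw [← hab] at h1
      exact (Ideal.mul_le_left (I := (span {a} : Ideal (𝓞 K)))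
        (J := ((J * I : (Ideal (𝓞 K))⁰) : Ideal (𝓞 K)))) h1
    obtain ⟨x, hxb⟩ := Ideal.mem_span_singleton'.mp hba
    have hJI : ((J * I : (Ideal (𝓞 K))⁰) : Ideal (𝓞 K)) = span {x} := by
      have ha' : (span {a} : Ideal (𝓞 K)) ≠ 0 := by
        rw [Ne, Ideal.zero_eq_bot, Ideal.span_singleton_eq_bot]; exact ha0
      apply mul_left_cancel₀ ha'
      rw [hab, Ideal.span_singleton_mul_span_singleton, ← hxb, mul_comm]
    have hx : x - 1 ∈ (M : Ideal (𝓞 K)) := by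
      have h2 : x - 1 = (b - 1) + -(x * (a - 1)) := by rw [← hxb]; ring
      rw [h2]
      exact Ideal.add_mem _ hb (Ideal.neg_mem_iff _ |>.mpr (Ideal.mul_mem_left _ _ ha))
    refine ⟨⟨⟨x, hJI⟩⟩, ?_, ?_, x, hJI, hx⟩
    · rw [Submonoid.coe_mul]
      exact Ideal.mul_le_left (I := (J : Ideal (𝓞 K))) (J := (I : Ideal (𝓞 K)))
    · rw [hnorm, mul_comm]
      exact mul_le_mul_of_nonneg_right hs hNJ.le
  · rintro ⟨-, -, hs, a, hJI, ha⟩
    have ha0 : a ≠ 0 := by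
      rintro rfl
      have h0 : ((J * I : (Ideal (𝓞 K))⁰) : Ideal (𝓞 K)) = ⊥ := by
        rw [hJI]; exact Ideal.span_singleton_eq_bot.mpr rfl
      exact nonZeroDivisors.coe_ne_zero _ h0
    have heq : J * I = spanNZ a ha0 := Subtype.ext hJI
    have hcl : cl (J * I) = 1 := by rw [heq]; exact hray.one_of_congr a ha0 ha
    refine ⟨?_, ?_, ?_⟩
    · rw [hnorm, mul_comm] at hs
      exact le_of_mul_le_mul_right hs hNJ
    · have h1 := sup_eq_top_of_sub_one_mem (M := M) ha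
      rw [← hJI, Submonoid.coe_mul] at h1
      rw [eq_top_iff, ← h1]
      exact sup_le_sup_right
        (Ideal.mul_le_right (I := (J : Ideal (𝓞 K))) (J := (I : Ideal (𝓞 K)))) _
    · rw [map_mul, hJ] at hcl
      rw [← one_mul (cl I), ← mul_inv_cancel g, mul_assoc, hcl, mul_one]

variable (M cl)

/-- The density of each ray class. -/
def rayDensity : ℝ :=
  (Nat.card (unitRes M) : ℝ) * kappa K / absNorm (M : Ideal (𝓞 K))

variable {M cl} in
/-- The ideals prime to `M` in the class `g` of norm `≤ s` correspond to the principal ideals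
`⊆ J` of norm `≤ s N(J)` having a generator `≡ 1 mod M`. -/
theorem card_ray_eq (hray : IsRayMap M cl) {J : (Ideal (𝓞 K))⁰} {g : G}
    (hJM : (J : Ideal (𝓞 K)) ⊔ (M : Ideal (𝓞 K)) = ⊤) (hJ : cl J = g⁻¹) (s : ℝ) :
    Nat.card {I : (Ideal (𝓞 K))⁰ // (absNorm (I : Ideal (𝓞 K)) : ℝ) ≤ s ∧
        (I : Ideal (𝓞 K)) ⊔ (M : Ideal (𝓞 K)) = ⊤ ∧ cl I = g} =
      Nat.card {I : (Ideal (𝓞 K))⁰ // IsPrincipal (I : Ideal (𝓞 K)) ∧
        RayQ (M : Ideal (𝓞 K)) (J : Ideal (𝓞 K)) (s * absNorm (J : Ideal (𝓞 K)))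
          (I : Ideal (𝓞 K))} := by
  refine Nat.card_congr ?_
  refine (((Equiv.dvd J).subtypeEquiv
    (q := fun I' : {I' : (Ideal (𝓞 K))⁰ // J ∣ I'} => IsPrincipal ((I'.1 : (Ideal (𝓞 K))⁰) :
      Ideal (𝓞 K)) ∧ RayQ (M : Ideal (𝓞 K)) (J : Ideal (𝓞 K))
        (s * absNorm (J : Ideal (𝓞 K))) ((I'.1 : (Ideal (𝓞 K))⁰) : Ideal (𝓞 K)))
    fun I => ?_).trans
    (Equiv.subtypeSubtypeEquivSubtypeInter (fun I' : (Ideal (𝓞 K))⁰ => J ∣ I')
      (fun I' : (Ideal (𝓞 K))⁰ => IsPrincipal (I' : Ideal (𝓞 K)) ∧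
        RayQ (M : Ideal (𝓞 K)) (J : Ideal (𝓞 K)) (s * absNorm (J : Ideal (𝓞 K)))
          (I' : Ideal (𝓞 K))))).trans
    (Equiv.subtypeEquivRight fun I' => ?_)
  · exact ray_iff hray hJM hJ s I
  · constructor
    · exact fun h => h.2
    · intro h
      refine ⟨?_, h⟩
      rw [nonZeroDivisors_dvd_iff_dvd_coe, Ideal.dvd_iff_le]
      exact h.2.1

/-- **Counting the ideals in a ray class**, with a power-saving error term. -/
theorem exists_bound_card_ray (hray : IsRayMap M cl) {J : (Ideal (𝓞 K))⁰} {g : G}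
    (hJM : (J : Ideal (𝓞 K)) ⊔ (M : Ideal (𝓞 K)) = ⊤) (hJ : cl J = g⁻¹) :
    ∃ B : ℝ, 0 ≤ B ∧ ∀ s : ℝ, 1 ≤ s →
      |(Nat.card {I : (Ideal (𝓞 K))⁰ // (absNorm (I : Ideal (𝓞 K)) : ℝ) ≤ s ∧
        (I : Ideal (𝓞 K)) ⊔ (M : Ideal (𝓞 K)) = ⊤ ∧ cl I = g} : ℝ) - rayDensity M * s| ≤
        B * s ^ (1 - (finrank ℚ K : ℝ)⁻¹) := by
  obtain ⟨B, hB0, hB⟩ := exists_bound_card_genSet M J
  set NJ : ℝ := (absNorm (J : Ideal (𝓞 K)) : ℝ) with hNJ
  have hNJ1 : 1 ≤ NJ := by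
    rw [hNJ]
    exact_mod_cast Nat.one_le_iff_ne_zero.2 (absNorm_ne_zero_of_nonZeroDivisors J)
  have hNJ0 : 0 < NJ := lt_of_lt_of_le one_pos hNJ1
  set NM : ℝ := (absNorm (M : Ideal (𝓞 K)) : ℝ) with hNM
  have hNM0 : 0 < NM := by
    rw [hNM]
    exact_mod_cast absNorm_pos_of_nonZeroDivisors M
  set w : ℝ := (torsionOrder K : ℝ) with hw
  have hw0 : 0 < w := by rw [hw]; exact_mod_cast torsionOrder_pos K
  have hn0 : (0 : ℝ) < (finrank ℚ K : ℝ) := Nat.cast_pos.2 finrank_pos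
  have hexp0 : 0 ≤ 1 - (finrank ℚ K : ℝ)⁻¹ := by
    have : (finrank ℚ K : ℝ)⁻¹ ≤ 1 :=
      inv_le_one_of_one_le₀ (Nat.one_le_cast.mpr finrank_pos)
    linarith
  refine ⟨B / w * NJ ^ (1 - (finrank ℚ K : ℝ)⁻¹), by positivity, fun s hs => ?_⟩
  have hs0 : 0 < s := lt_of_lt_of_le one_pos hs
  have hc : 1 ≤ s * NJ := one_le_mul_of_one_le_of_one_le hs hNJ1
  have h1 := hB (s * NJ) hc
  have hcard : (Nat.card (GenSet M J (s * NJ)) : ℝ) =
      (Nat.card {I : (Ideal (𝓞 K))⁰ // (absNorm (I : Ideal (𝓞 K)) : ℝ) ≤ s ∧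
        (I : Ideal (𝓞 K)) ⊔ (M : Ideal (𝓞 K)) = ⊤ ∧ cl I = g} : ℝ) * w := by
    rw [card_ray_eq hray hJM hJ s, hw, ← Nat.cast_mul]
    congr 1
    exact card_cone_eq_card_principal_mul K _
  rw [hcard, card_good_eq M J hJM, Submonoid.coe_mul, map_mul, Nat.cast_mul, ← hNJ, ← hNM,
    Real.mul_rpow hs0.le hNJ0.le] at h1
  set N : ℝ := (Nat.card {I : (Ideal (𝓞 K))⁰ // (absNorm (I : Ideal (𝓞 K)) : ℝ) ≤ s ∧
        (I : Ideal (𝓞 K)) ⊔ (M : Ideal (𝓞 K)) = ⊤ ∧ cl I = g} : ℝ) with hN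
  have h2 : N * w - (Nat.card (unitRes M) : ℝ) * (s * NJ * (kappa K * w / (NJ * NM))) =
      w * (N - rayDensity M * s) := by
    unfold rayDensity
    rw [← hNM]
    field_simp
  rw [h2, abs_mul, abs_of_pos hw0] at h1
  have h3 : |N - rayDensity M * s| ≤
      B * (s ^ (1 - (finrank ℚ K : ℝ)⁻¹) * NJ ^ (1 - (finrank ℚ K : ℝ)⁻¹)) / w := by
    rw [le_div_iff₀ hw0, mul_comm]
    exact h1
  refine h3.trans (le_of_eq ?_)
  ring

/-- The version for a surjective ray class map: the same main term `rayDensity M * s` for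
every class. -/
theorem exists_bound_card_ray' (hray : IsRayMap M cl)
    (hsurj : ∀ g : G, ∃ J : (Ideal (𝓞 K))⁰,
      (J : Ideal (𝓞 K)) ⊔ (M : Ideal (𝓞 K)) = ⊤ ∧ cl J = g) (g : G) :
    ∃ B : ℝ, 0 ≤ B ∧ ∀ s : ℝ, 1 ≤ s →
      |(Nat.card {I : (Ideal (𝓞 K))⁰ // (absNorm (I : Ideal (𝓞 K)) : ℝ) ≤ s ∧
        (I : Ideal (𝓞 K)) ⊔ (M : Ideal (𝓞 K)) = ⊤ ∧ cl I = g} : ℝ) - rayDensity M * s| ≤
        B * s ^ (1 - (finrank ℚ K : ℝ)⁻¹) := by
  obtain ⟨J, hJM, hJ⟩ := hsurj g⁻¹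
  exact exists_bound_card_ray M cl hray hJM hJ

end Main

end Fermat.Agent.S55.Global.RayIdealCount
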