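/-
S55 / GLOBAL / R.aux, THIRD CONJUNCT of `AuxPackage` (helper46 #1976/#1999) — helper44.

(i) `isLocalNormAt_of_off` : `K` totally complex, `M/K` Galois inside the `l`-cyclotomic extension
    `C/K`, unramified outside `l` (inertia form), `(q₀, 𝔪₀)` a place of `K` whose prime
    `v₀ = placeOfMax 𝔪₀` does not contain `l`.  If `b ∈ Kˣ` is a local norm from `M`
    (`Objects4.IsLocalNormAt`) at every place `(q, 𝔪) ≠ (q₀, 𝔪₀)`, then it is a local norm at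
    `(q₀, 𝔪₀)`.  UNCONDITIONAL (= `RecipCyclicNorm.isLocalNormAt_of_off` + helper15's
    `RecipUnramBwd.isLocalNormAt_of_dvd` + helper71's `PlaceKloc.exists_place_algEquiv`).
(ii) `isLocalNormAt_auxM_of_off` : the instance `M = auxM K l C hcop p`.
(`IsTotallyComplex K` follows from `ζ_p ∈ K`, `p > 2`:
`S14.NormSurjGlue.isTotallyComplex_of_isPrimitiveRoot`.)
-/
import Mathlib
import Fermat.Agent.S55.Global.RecipCyclicNorm
import Fermat.Agent.S55.Global.RecipUnramBwd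
import Fermat.Agent.S55.Global.AuxDeg

set_option autoImplicit false
set_option linter.unusedVariables false
set_option linter.unusedSectionVars false
set_option linter.style.haveILetI false

open NumberField IsDedekindDomain TensorProduct UniqueFactorizationMonoid

namespace Fermat.Agent.S55.Global.RecipAuxThird

open Fermat.Agent.S55.Global.Objects Fermat.Agent.S55.Global.Blocks3
  Fermat.Agent.S55.Global.Objects4 Fermat.Agent.S55.Global.PlaceBij
  Fermat.Agent.S55.Global.PlaceKloc Fermat.Agent.S55.Global.RecipCyclicNorm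
  Fermat.Agent.S55.Global.AuxField Fermat.Agent.S55.Global.AuxDeg

section general

variable {K M C : Type} [Field K] [NumberField K] [Field M] [NumberField M] [Field C]
  [NumberField C] [Algebra K M] [Algebra K C] [Algebra M C] [IsScalarTower K M C]
  [IsGalois K M] [IsGalois K C]

/-- The backward half of R.unramLocal at `(q₀, 𝔪₀)` in the shape `hbwd` of
`RecipCyclicNorm.isLocalNormAt_of_off`. -/
theorem hbwd_of_unram {l : ℕ}
    (hunr : ∀ (P : Ideal (𝓞 M)), P.IsPrime → P ≠ ⊥ → (l : 𝓞 M) ∉ P →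
      ∀ σ : M ≃ₐ[K] M, σ ∈ P.inertia (M ≃ₐ[K] M) → σ = 1)
    (q₀ : Nat.Primes) (𝔪₀ : Ideal (Ksemi K q₀)) [h𝔪₀ : 𝔪₀.IsMaximal]
    (hl₀ : (l : 𝓞 K) ∉ (placeOfMax 𝔪₀).asIdeal) (b : Kˣ)
    (hdvd : ∀ P₀ : Ideal (𝓞 M), P₀.IsPrime → P₀.under (𝓞 K) = (placeOfMax 𝔪₀).asIdeal →
      ((P₀.inertiaDeg (𝓞 K) : ℕ) : ℤ) ∣ WithZero.log ((placeOfMax 𝔪₀).valuation K (b : K))) :
    IsLocalNormAt K M q₀ 𝔪₀ b := by
  classical
  set v₀ : Place K := placeOfMax 𝔪₀ with hv₀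
  obtain ⟨-, ⟨f⟩⟩ := exists_place_algEquiv K q₀ 𝔪₀
  have hval0 : v₀.valuation K (b : K) ≠ 0 := by
    rw [Ne, map_eq_zero]; exact b.ne_zero
  have key := RecipUnramBwd.isLocalNormAt_of_dvd K M v₀ q₀ 𝔪₀ f.symm.toAlgHom
    (fun P hP hPv σ hσ => by
      have hPv' : P.under (𝓞 K) = v₀.asIdeal := hPv.over.symm
      have hP0 : P ≠ ⊥ := by
        rintro rfl
        apply v₀.ne_bot
        rw [← hPv']
        exact Ideal.under_bot (𝓞 K) (𝓞 M)
      have hlP : (l : 𝓞 M) ∉ P := by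
        intro h
        apply hl₀
        rw [← hPv', Ideal.under_def, Ideal.mem_comap, map_natCast]
        exact h
      exact hunr P hP hP0 hlP σ hσ)
    b
    (fun P hP hPv => by
      obtain ⟨k, hk⟩ := hdvd P hP hPv.over.symm
      refine ⟨-k, ?_⟩
      rw [mul_neg, neg_neg, ← hk, WithZero.exp_log hval0])
  convert key

/-- **Third conjunct of `AuxPackage`, general form** (unconditional). -/
theorem isLocalNormAt_of_off {l : ℕ} (hl : l ≠ 0) [IsTotallyComplex K]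
    [IsCyclotomicExtension {l} K C]
    (hunr : ∀ (P : Ideal (𝓞 M)), P.IsPrime → P ≠ ⊥ → (l : 𝓞 M) ∉ P →
      ∀ σ : M ≃ₐ[K] M, σ ∈ P.inertia (M ≃ₐ[K] M) → σ = 1)
    (q₀ : Nat.Primes) (𝔪₀ : Ideal (Ksemi K q₀)) [h𝔪₀ : 𝔪₀.IsMaximal]
    (hl₀ : (l : 𝓞 K) ∉ (placeOfMax 𝔪₀).asIdeal) (b : Kˣ)
    (hloc : ∀ (q : Nat.Primes) (𝔪 : Ideal (Ksemi K q)), 𝔪.IsMaximal →
      ¬ (∃ h : q = q₀, h ▸ 𝔪 = 𝔪₀) → IsLocalNormAt K M q 𝔪 b) :
    IsLocalNormAt K M q₀ 𝔪₀ b :=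
  RecipCyclicNorm.isLocalNormAt_of_off (C := C) hl hunr q₀ 𝔪₀ hl₀ b
    (hbwd_of_unram hunr q₀ 𝔪₀ hl₀ b) hloc

end general

section aux

variable (K : Type) [Field K] [NumberField K] (l : ℕ) [hl : Fact l.Prime]
variable (hcop : Nat.Coprime l (discr K).natAbs) (p : ℕ) [hp : Fact p.Prime]

/-- **Third conjunct of `AuxPackage` for the auxiliary field** `M = auxM K l K(ζ_l) hcop p`. -/
theorem isLocalNormAt_auxM_of_off [IsTotallyComplex K]
    (q₀ : Nat.Primes) (𝔪₀ : Ideal (Ksemi K q₀)) [h𝔪₀ : 𝔪₀.IsMaximal]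
    (hl₀ : (l : 𝓞 K) ∉ (placeOfMax 𝔪₀).asIdeal) (b : Kˣ)
    (hloc : ∀ (q : Nat.Primes) (𝔪 : Ideal (Ksemi K q)), 𝔪.IsMaximal →
      ¬ (∃ h : q = q₀, h ▸ 𝔪 = 𝔪₀) →
        IsLocalNormAt K (auxM K l (CyclotomicField l K) hcop p) q 𝔪 b) :
    IsLocalNormAt K (auxM K l (CyclotomicField l K) hcop p) q₀ 𝔪₀ b := by
  haveI : NeZero l := ⟨hl.out.ne_zero⟩
  haveI : IsGalois K (CyclotomicField l K) := IsCyclotomicExtension.isGalois {l} K _
  exact isLocalNormAt_of_off (C := CyclotomicField l K) hl.out.ne_zero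
    (hunr_auxM K l (CyclotomicField l K) hcop p) q₀ 𝔪₀ hl₀ b hloc

end aux

end Fermat.Agent.S55.Global.RecipAuxThird
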