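/-
S55 / GLOBAL / G.recip.cycDict (helper44): the CYCLIC `H²` dictionary for `G = Gal(M/K)` cyclic and
the cohomological form of the cyclotomic single support (= "(d) cyclic case" of helper46's route to
`Blocks3.NoSingleSupport`).

* `baseInv K M b` : `b ∈ Kˣ` as an invariant of `Mˣ`; `exists_baseInv_eq` : all invariants;
* `exists_cycClass_eq` : every `x ∈ H²(G, Mˣ)` is `cycClass (baseInv b)` (helper53 `cycClass`);
* `locH_cycClass` : `locH K M A 2 (cycClass b) = cycClass (b ⊗ 1)` (any `K`-algebra `A`);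
* `locH_eq_zero_iff` : `locH K M A 2 (cycClass b) = 0 ↔ ∃ y, galNormK K M A y = inclUnits b`;
  `locH_eq_zero_iff_isLocalNormAt` for `A = Kloc K q 𝔪`;
* `locH_eq_zero_of_off` : `M/K` cyclic inside the `l`-cyclotomic extension, unramified outside `l`,
  `l ∉ v₀ = placeOfMax 𝔪₀`: a class `x ∈ H²(G, Mˣ)` locally trivial at all places
  `(q, 𝔪) ≠ (q₀, 𝔪₀)` is locally trivial at `(q₀, 𝔪₀)` — modulo the backward half of R.unramLocal
  (`hbwd`, helper15).
-/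
import Mathlib
import Fermat.Agent.S55.Local.CyclicCocycle
import Fermat.Agent.S55.Global.RecipCyclicNorm

set_option autoImplicit false
set_option linter.unusedSectionVars false
open NumberField IsDedekindDomain TensorProduct
open Fermat.Agent.S55.Local.CyclicCocycle Fermat.Agent.S55.Global.Objects Fermat.Agent.S55.Global.Blocks3 Fermat.Agent.S55.Global.Objects4

namespace Fermat.Agent.S55.Global.RecipCycDict

section dict

variable (K M : Type) [Field K] [NumberField K] [Field M] [NumberField M] [Algebra K M]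
  [IsGalois K M]

/-- `b ∈ Kˣ` as a unit of `M`. -/
noncomputable abbrev baseUnit (b : Kˣ) : Mˣ := Units.map (algebraMap K M).toMonoidHom b

theorem smul_baseUnit (g : M ≃ₐ[K] M) (b : Kˣ) : g • baseUnit K M b = baseUnit K M b := by
  apply Units.ext
  change g (algebraMap K M (b : K)) = algebraMap K M (b : K)
  exact g.commutes _

/-- The class of `b ∈ Kˣ` in the invariants of `Mˣ`. -/
noncomputable def baseInv (b : Kˣ) : (Rep.ofAlgebraAutOnUnits K M).ρ.invariants :=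
  ⟨(Additive.ofMul (baseUnit K M b) : Additive Mˣ), fun g => by
    change Additive.ofMul (g • baseUnit K M b) = Additive.ofMul (baseUnit K M b)
    rw [smul_baseUnit]⟩

/-- Every invariant of `Mˣ` comes from `Kˣ`. -/
theorem exists_baseInv_eq (a : (Rep.ofAlgebraAutOnUnits K M).ρ.invariants) :
    ∃ b : Kˣ, a = baseInv K M b := by
  obtain ⟨a, ha⟩ := a
  set u : Mˣ := Additive.toMul (a : Additive Mˣ) with hu
  have hfix : ∀ g : M ≃ₐ[K] M, g (u : M) = (u : M) := fun g => by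
    have h1 := ha g
    have h2 : (Additive.ofMul (g • u) : Additive Mˣ) = Additive.ofMul u := h1
    have h3 : g • u = u := Additive.ofMul.injective h2
    exact congrArg (fun w : Mˣ => (w : M)) h3
  obtain ⟨b, hb⟩ := (IsGalois.mem_range_algebraMap_iff_fixed (F := K) (E := M) (u : M)).mpr hfix
  have hb0 : b ≠ 0 := by
    rintro rfl
    rw [map_zero] at hb
    exact u.ne_zero hb.symm
  refine ⟨Units.mk0 b hb0, ?_⟩
  apply Subtype.ext
  change a = Additive.ofMul (baseUnit K M (Units.mk0 b hb0))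
  have : u = baseUnit K M (Units.mk0 b hb0) := Units.ext hb.symm
  rw [← this]
  rfl

variable (A : Type) [CommRing A] [Algebra K A]

/-- The class of `b ⊗ 1` in the invariants of `(M ⊗[K] A)ˣ`. -/
noncomputable def locInv (b : Kˣ) : (JRep K M A).ρ.invariants :=
  ⟨(Additive.ofMul (inclUnits K M A (baseUnit K M b)) : Additive (M ⊗[K] A)ˣ), fun g => by
    change Additive.ofMul (g • inclUnits K M A (baseUnit K M b)) = _
    rw [smul_inclUnits, smul_baseUnit]⟩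

variable {σ : M ≃ₐ[K] M} (hn : 0 < orderOf σ) (hgen : ∀ g : M ≃ₐ[K] M, ∃ i : ℕ, σ ^ i = g)

/-- Localisation of a cyclic class. -/
theorem locH_cycClass (b : Kˣ) :
    (locH K M A 2).hom (cycClass hn hgen (baseInv K M b)) = cycClass hn hgen (locInv K M A b) := by
  have h := map_cycClass_of_mul_eq (A := Rep.ofAlgebraAutOnUnits K M) (B := JRep K M A)
    hn hgen hn hgen (MonoidHom.id (M ≃ₐ[K] M)) (LxToJ K M A) (d := 1)
    (by rw [pow_one]; rfl) (one_mul _) (baseInv K M b)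
  exact h

theorem cycClass_locInv_eq_zero_iff (b : Kˣ) :
    cycClass hn hgen (locInv K M A b) = 0 ↔
      ∃ y : (M ⊗[K] A)ˣ, galNormK K M A y = inclUnits K M A (baseUnit K M b) := by
  classical
  rw [cycClass_eq_zero_iff_sum hn hgen]
  constructor
  · rintro ⟨y, hy⟩
    set y' : (M ⊗[K] A)ˣ := Additive.toMul (α := (M ⊗[K] A)ˣ) y with hy'
    refine ⟨y', ?_⟩
    have h1 : (Additive.ofMul (inclUnits K M A (baseUnit K M b)) : Additive (M ⊗[K] A)ˣ) =
        ∑ g : M ≃ₐ[K] M, Additive.ofMul (g • y') := hy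
    rw [← ofMul_prod] at h1
    exact (Additive.ofMul.injective h1).symm
  · rintro ⟨y, hy⟩
    refine ⟨(Additive.ofMul y : Additive (M ⊗[K] A)ˣ), ?_⟩
    change (Additive.ofMul (inclUnits K M A (baseUnit K M b)) : Additive (M ⊗[K] A)ˣ) =
        ∑ g : M ≃ₐ[K] M, Additive.ofMul (g • y)
    rw [← ofMul_prod, ← hy]
    rfl

theorem locH_apply (x : groupCohomology (Rep.ofAlgebraAutOnUnits K M) 2) :
    locH K M A 2 x = (locH K M A 2).hom x := rfl

/-- **Cyclic dictionary**: the localisation of `cycClass b` vanishes iff `b ⊗ 1` is a Galois norm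
from `(M ⊗[K] A)ˣ`. -/
theorem locH_eq_zero_iff (b : Kˣ) :
    locH K M A 2 (cycClass hn hgen (baseInv K M b)) = 0 ↔
      ∃ y : (M ⊗[K] A)ˣ, galNormK K M A y = inclUnits K M A (baseUnit K M b) := by
  rw [locH_apply, locH_cycClass, cycClass_locInv_eq_zero_iff]

theorem locH_eq_zero_iff_isLocalNormAt (q : Nat.Primes) (𝔪 : Ideal (Ksemi K q)) (b : Kˣ) :
    locH K M (Kloc K q 𝔪) 2 (cycClass hn hgen (baseInv K M b)) = 0 ↔ IsLocalNormAt K M q 𝔪 b :=
  locH_eq_zero_iff K M (Kloc K q 𝔪) hn hgen b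

/-- Every class in `H²(Gal(M/K), Mˣ)`, `Gal(M/K)` cyclic, is the cyclic class of some `b ∈ Kˣ`. -/
theorem exists_cycClass_eq (x : groupCohomology (Rep.ofAlgebraAutOnUnits K M) 2) :
    ∃ b : Kˣ, x = cycClass hn hgen (baseInv K M b) := by
  obtain ⟨a, rfl⟩ := cycClass_surjective (A := Rep.ofAlgebraAutOnUnits K M) hn hgen x
  obtain ⟨b, rfl⟩ := exists_baseInv_eq K M a
  exact ⟨b, rfl⟩

end dict

section main

open Fermat.Agent.S55.Global.PlaceBij Fermat.Agent.S55.Global.RecipCyclicNorm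

variable {K M C : Type} [Field K] [NumberField K] [Field M] [NumberField M] [Field C]
  [NumberField C] [Algebra K M] [Algebra K C] [Algebra M C] [IsScalarTower K M C]
  [IsGalois K M] [IsGalois K C]

/-- **Cyclotomic single support, cohomological form, cyclic case** (generator form). -/
theorem locH_eq_zero_of_off {l : ℕ} (hl : l ≠ 0) [IsTotallyComplex K]
    [IsCyclotomicExtension {l} K C]
    (hunr : ∀ (P : Ideal (𝓞 M)), P.IsPrime → P ≠ ⊥ → (l : 𝓞 M) ∉ P →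
      ∀ τ : M ≃ₐ[K] M, τ ∈ P.inertia (M ≃ₐ[K] M) → τ = 1)
    {σ : M ≃ₐ[K] M} (hgen : ∀ g : M ≃ₐ[K] M, ∃ i : ℕ, σ ^ i = g)
    (q₀ : Nat.Primes) (𝔪₀ : Ideal (Ksemi K q₀)) [h𝔪₀ : 𝔪₀.IsMaximal]
    (hl₀ : (l : 𝓞 K) ∉ (placeOfMax 𝔪₀).asIdeal)
    (hbwd : ∀ b : Kˣ,
      (∀ P₀ : Ideal (𝓞 M), P₀.IsPrime → P₀.under (𝓞 K) = (placeOfMax 𝔪₀).asIdeal →
        ((P₀.inertiaDeg (𝓞 K) : ℕ) : ℤ) ∣ WithZero.log ((placeOfMax 𝔪₀).valuation K (b : K))) →
      IsLocalNormAt K M q₀ 𝔪₀ b)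
    (x : groupCohomology (Rep.ofAlgebraAutOnUnits K M) 2)
    (hloc : ∀ (q : Nat.Primes) (𝔪 : Ideal (Ksemi K q)), 𝔪.IsMaximal →
      ¬ (∃ h : q = q₀, h ▸ 𝔪 = 𝔪₀) → locH K M (Kloc K q 𝔪) 2 x = 0) :
    locH K M (Kloc K q₀ 𝔪₀) 2 x = 0 := by
  have hn : 0 < orderOf σ := orderOf_pos σ
  obtain ⟨b, rfl⟩ := exists_cycClass_eq K M hn hgen x
  rw [locH_eq_zero_iff_isLocalNormAt]
  refine isLocalNormAt_of_off (C := C) hl hunr q₀ 𝔪₀ hl₀ b (hbwd b) fun q 𝔪 h𝔪 hne => ?_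
  rw [← locH_eq_zero_iff_isLocalNormAt K M hn hgen]
  exact hloc q 𝔪 h𝔪 hne

/-- Same with `[IsCyclic (M ≃ₐ[K] M)]`. -/
theorem locH_eq_zero_of_off_isCyclic {l : ℕ} (hl : l ≠ 0) [IsTotallyComplex K]
    [IsCyclotomicExtension {l} K C] [IsCyclic (M ≃ₐ[K] M)]
    (hunr : ∀ (P : Ideal (𝓞 M)), P.IsPrime → P ≠ ⊥ → (l : 𝓞 M) ∉ P →
      ∀ τ : M ≃ₐ[K] M, τ ∈ P.inertia (M ≃ₐ[K] M) → τ = 1)
    (q₀ : Nat.Primes) (𝔪₀ : Ideal (Ksemi K q₀)) [h𝔪₀ : 𝔪₀.IsMaximal]
    (hl₀ : (l : 𝓞 K) ∉ (placeOfMax 𝔪₀).asIdeal)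
    (hbwd : ∀ b : Kˣ,
      (∀ P₀ : Ideal (𝓞 M), P₀.IsPrime → P₀.under (𝓞 K) = (placeOfMax 𝔪₀).asIdeal →
        ((P₀.inertiaDeg (𝓞 K) : ℕ) : ℤ) ∣ WithZero.log ((placeOfMax 𝔪₀).valuation K (b : K))) →
      IsLocalNormAt K M q₀ 𝔪₀ b)
    (x : groupCohomology (Rep.ofAlgebraAutOnUnits K M) 2)
    (hloc : ∀ (q : Nat.Primes) (𝔪 : Ideal (Ksemi K q)), 𝔪.IsMaximal →
      ¬ (∃ h : q = q₀, h ▸ 𝔪 = 𝔪₀) → locH K M (Kloc K q 𝔪) 2 x = 0) :
    locH K M (Kloc K q₀ 𝔪₀) 2 x = 0 := by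
  obtain ⟨σ, hσ⟩ := IsCyclic.exists_generator (α := M ≃ₐ[K] M)
  exact locH_eq_zero_of_off (C := C) hl hunr (σ := σ)
    (fun g => exists_pow_eq_of_zpowers hσ g) q₀ 𝔪₀ hl₀ hbwd x hloc

end main

end Fermat.Agent.S55.Global.RecipCycDict
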