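/-
S55 / Global / G.recip — FINAL, part 3 (helper46): **(G-iv) `Blocks3.NoSingleSupport p`,
UNCONDITIONAL.**

  `noSingleSupport (p : ℕ) : Blocks3.NoSingleSupport p`
  `hasseH2 (p : ℕ) : Blocks3.HasseH2 p`

Chain: `RecipFinal2.noSingleSupport_of_hasse` (G.recip) ⇐ `SemilocalLoc.hasseH2_of_H1Vanish`
(helper49/helper93) ⇐ `GlobalH1Final.h1Vanish` (helper31: first + second inequality + descent).
-/
import Fermat.Agent.S55.Global.RecipFinal2
import Fermat.Agent.S55.Global.SemilocalLoc
import Fermat.Agent.S55.Global.GlobalH1Final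

set_option autoImplicit false

namespace Fermat.Agent.S55.Global.RecipFinal3

open Fermat.Agent.S55.Global

/-- **Hasse principle for `H²(Gal(L/K), Lˣ)`**, unconditional. -/
theorem hasseH2 (p : ℕ) : Blocks3.HasseH2 p :=
  SemilocalLoc.hasseH2_of_H1Vanish (GlobalH1Final.h1Vanish p)

/-- **(G-iv) No single support**, unconditional. -/
theorem noSingleSupport (p : ℕ) : Blocks3.NoSingleSupport p :=
  RecipFinal2.noSingleSupport_of_hasse p (hasseH2 p)

end Fermat.Agent.S55.Global.RecipFinal3
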