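/-
S55 / Global / G.recip — ROW R.infresGal, UNCONDITIONAL form (helper29; lemma row 163).

Composition of helper46's `RecipInfResGal` (conditional on `InfResStmt`) with helper35's
`RecipInfRes.infRes_of_surjective` (row R.infres): the literal statements of helper46 #1976,

* `infResStmt`         : `RecipInfResGal.InfResStmt`;
* `gInf_injective`, `gInf_exact` : `0 → H²(Gal(E/K), Eˣ) → H²(Gal(N/K), Nˣ) → H²(Gal(N/E), Nˣ)`;
* `inflJRep_injective` : local inflation is injective, `F` any field over `K`.
-/
import Fermat.Agent.S55.Global.RecipInfRes
import Fermat.Agent.S55.Global.RecipInfResGal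

set_option autoImplicit false
set_option linter.unusedSectionVars false

open NumberField IsDedekindDomain TensorProduct CategoryTheory

namespace Fermat.Agent.S55.Global.RecipInfResGalFinal

open Fermat.Agent.S55.Global.Objects Fermat.Agent.S55.Global.Objects2
  Fermat.Agent.S55.Global.Objects3 Fermat.Agent.S55.Global.Blocks3
  Fermat.Agent.S55.Global.Transition Fermat.Agent.S55.Global.RecipDefs

/-- Row R.infres discharges the hypothesis of `RecipInfResGal`. -/
theorem infResStmt : RecipInfResGal.InfResStmt :=
  fun π hπ A B f hf hrange h1 => RecipInfRes.infRes_of_surjective π hπ A B f hf hrange h1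

variable (K : Type) [Field K] [NumberField K]
variable (E : Type) [Field E] [NumberField E] [Algebra K E] [IsGalois K E]
variable (N : Type) [Field N] [NumberField N] [Algebra K N] [Algebra E N] [IsScalarTower K E N]
  [IsGalois K N]

/-- Global inflation `H²(Gal(E/K), Eˣ) → H²(Gal(N/K), Nˣ)` is injective. -/
theorem gInf_injective : Function.Injective (gInf K E N 2) :=
  RecipInfResGal.gInf_injective infResStmt

/-- **Global inflation-restriction exactness in degree 2** for a Galois tower `K ⊆ E ⊆ N`. -/
theorem gInf_exact (z : groupCohomology (Rep.ofAlgebraAutOnUnits K N) 2)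
    (hz : gRes K E N 2 z = 0) : ∃ y, gInf K E N 2 y = z :=
  RecipInfResGal.gInf_exact infResStmt z hz

/-- **Local inflation is injective in degree 2**, `F` any field over `K`. -/
theorem inflJRep_injective (F : Type) [Field F] [Algebra K F] :
    Function.Injective (inflJRep K E N F 2) :=
  RecipInfResGal.inflJRep_injective infResStmt F (Field.toIsField F)

end Fermat.Agent.S55.Global.RecipInfResGalFinal
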