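/-
S55 / GLOBAL / R.aux.val (helper44): the valuation of a local norm, in the v3 language, and the
FOURTH conjunct of `AuxPackage` (helper46 #1976).

* `inertiaDeg_dvd_log_of_isLocalNormAt` : `M/K` Galois (nothing else), `(q, 𝔪)` a place of `K`,
  `v = placeOfMax 𝔪`: `IsLocalNormAt K M q 𝔪 b → f(P/v) ∣ log v(b)` for every prime `P ∣ v` of `M`;
* `inertiaDeg_dvd_of_isLocalNormAt_pow` : `IsLocalNormAt K M q 𝔪 (b₀ ^ k) → f(P/v) ∣ k` for a
  uniformiser `b₀` (`v(b₀) = exp (-1)`);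
* `exists_unit_forall_pow` : `∃ b₀ : Kˣ, ∀ k, IsLocalNormAt K M q 𝔪 (b₀ ^ k) → f ∣ k` whenever `f`
  divides the residue degree of some prime over `v`;
* `exists_unit_forall_pow_auxM` : the fourth conjunct for `M = auxM K l K(ζ_l) hcop p`.
-/
import Mathlib
import Fermat.Agent.S55.Global.RecipCyclicNorm
import Fermat.Agent.S55.Global.AuxDeg

set_option autoImplicit false
set_option linter.unusedVariables false
set_option linter.unusedSectionVars false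
set_option linter.style.haveILetI false

open NumberField IsDedekindDomain TensorProduct UniqueFactorizationMonoid

namespace Fermat.Agent.S55.Global.RecipLocalNormVal

open Fermat.Agent.S55.Global.Objects Fermat.Agent.S55.Global.Blocks3
  Fermat.Agent.S55.Global.Objects4 Fermat.Agent.S55.Global.PlaceBij
  Fermat.Agent.S55.Global.PlaceKloc Fermat.Agent.S55.Global.RecipCyclicNorm
  Fermat.Agent.S55.Global.RecipUnramFwd
  Fermat.Agent.S55.Global.AuxField Fermat.Agent.S55.Global.AuxDeg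

section general

variable (K M : Type) [Field K] [NumberField K] [Field M] [NumberField M] [Algebra K M]
  [IsGalois K M]

/-- **Valuation of a local norm**: `f(P/v) ∣ v(b)` for `v = placeOfMax 𝔪`. -/
theorem inertiaDeg_dvd_log_of_isLocalNormAt (q : Nat.Primes) (𝔪 : Ideal (Ksemi K q))
    [h𝔪 : 𝔪.IsMaximal] (b : Kˣ) (h : IsLocalNormAt K M q 𝔪 b)
    (P : Ideal (𝓞 M)) (hP : P.IsPrime) (hPv : P.under (𝓞 K) = (placeOfMax 𝔪).asIdeal) :
    ((P.inertiaDeg (𝓞 K) : ℕ) : ℤ) ∣ WithZero.log ((placeOfMax 𝔪).valuation K (b : K)) := by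
  set v : Place K := placeOfMax 𝔪 with hv
  obtain ⟨-, ⟨f⟩⟩ := exists_place_algEquiv K q 𝔪
  obtain ⟨c, d, hd, hcd⟩ := IsFractionRing.div_surjective (A := 𝓞 K) (b : K)
  have hd' : d ≠ 0 := nonZeroDivisors.ne_zero hd
  have hc' : c ≠ 0 := by
    rintro rfl
    rw [map_zero, zero_div] at hcd
    exact b.ne_zero hcd.symm
  have hx := exists_of_isLocalNormAt K M q 𝔪 b h
  rw [← hcd] at hx
  have h1 := inertiaDeg_dvd_of_localNorm_algHom K M v.asIdeal v.isPrime v.ne_bot c d hc' hd'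
    f.toAlgHom hx P hP hPv
  rw [← log_valuation_div (F := K) v hc' hd', hcd] at h1
  exact dvd_neg.mp h1

/-- Powers of a uniformiser: `IsLocalNormAt (b₀ ^ k) → f(P/v) ∣ k`. -/
theorem inertiaDeg_dvd_of_isLocalNormAt_pow (q : Nat.Primes) (𝔪 : Ideal (Ksemi K q))
    [h𝔪 : 𝔪.IsMaximal] (b₀ : Kˣ)
    (hb₀ : (placeOfMax 𝔪).valuation K (b₀ : K) = WithZero.exp (-1 : ℤ)) (k : ℕ)
    (h : IsLocalNormAt K M q 𝔪 (b₀ ^ k))
    (P : Ideal (𝓞 M)) (hP : P.IsPrime) (hPv : P.under (𝓞 K) = (placeOfMax 𝔪).asIdeal) :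
    P.inertiaDeg (𝓞 K) ∣ k := by
  have h1 := inertiaDeg_dvd_log_of_isLocalNormAt K M q 𝔪 (b₀ ^ k) h P hP hPv
  rw [Units.val_pow_eq_pow_val, map_pow, hb₀, WithZero.log_pow, WithZero.log_exp] at h1
  have h2 : ((P.inertiaDeg (𝓞 K) : ℕ) : ℤ) ∣ (k : ℤ) := by
    have : (k • (-1 : ℤ)) = -(k : ℤ) := by simp
    rw [this] at h1
    exact dvd_neg.mp h1
  exact Int.natCast_dvd_natCast.mp h2

/-- **Fourth conjunct of `AuxPackage`, general form.** -/
theorem exists_unit_forall_pow (q : Nat.Primes) (𝔪 : Ideal (Ksemi K q)) [h𝔪 : 𝔪.IsMaximal]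
    (f : ℕ)
    (hf : ∃ P : Ideal (𝓞 M), P.IsPrime ∧ P.under (𝓞 K) = (placeOfMax 𝔪).asIdeal ∧
      f ∣ P.inertiaDeg (𝓞 K)) :
    ∃ b₀ : Kˣ, ∀ k : ℕ, IsLocalNormAt K M q 𝔪 (b₀ ^ k) → f ∣ k := by
  obtain ⟨P, hP, hPv, hfP⟩ := hf
  obtain ⟨π, hπ⟩ := (placeOfMax 𝔪).valuation_exists_uniformizer K
  have hπ0 : π ≠ 0 := by
    rintro rfl
    rw [map_zero] at hπ
    exact WithZero.exp_ne_zero hπ.symm
  refine ⟨Units.mk0 π hπ0, fun k hk => ?_⟩
  exact hfP.trans (inertiaDeg_dvd_of_isLocalNormAt_pow K M q 𝔪 (Units.mk0 π hπ0) hπ k hk P hP hPv)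

end general

section aux

variable (K : Type) [Field K] [NumberField K] (l : ℕ) [hl : Fact l.Prime]
variable (hcop : Nat.Coprime l (discr K).natAbs) (p : ℕ) [hp : Fact p.Prime]

/-- **Fourth conjunct of `AuxPackage` for the auxiliary field**: if `N(v₀)` has order `p ^ s`
modulo `l` (`l ∉ v₀`) and `n ≤ s`, some `b₀ ∈ Kˣ` has `IsLocalNormAt (b₀ ^ k) → p ^ n ∣ k`. -/
theorem exists_unit_forall_pow_auxM (q₀ : Nat.Primes) (𝔪₀ : Ideal (Ksemi K q₀))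
    [h𝔪₀ : 𝔪₀.IsMaximal] (hl₀ : (l : 𝓞 K) ∉ (placeOfMax 𝔪₀).asIdeal) (s n : ℕ) (hns : n ≤ s)
    (hord : orderOf ((Ideal.absNorm (placeOfMax 𝔪₀).asIdeal : ℕ) : ZMod l) = p ^ s) :
    ∃ b₀ : Kˣ, ∀ k : ℕ,
      IsLocalNormAt K (auxM K l (CyclotomicField l K) hcop p) q₀ 𝔪₀ (b₀ ^ k) → p ^ n ∣ k := by
  set v₀ : Place K := placeOfMax 𝔪₀ with hv₀
  haveI : v₀.asIdeal.IsMaximal := v₀.isPrime.isMaximal v₀.ne_bot
  obtain ⟨P, hPmax, hPv⟩ := Ideal.exists_maximal_ideal_liesOver_of_isIntegral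
    (S := 𝓞 (auxM K l (CyclotomicField l K) hcop p)) v₀.asIdeal
  refine exists_unit_forall_pow K _ q₀ 𝔪₀ (p ^ n) ⟨P, hPmax.isPrime, hPv.over.symm, ?_⟩
  rw [inertiaDeg_auxM K l (CyclotomicField l K) hcop p v₀.asIdeal v₀.isPrime v₀.ne_bot hl₀ s hord
    P hPmax.isPrime hPv.over.symm]
  exact pow_dvd_pow p hns

end aux

end Fermat.Agent.S55.Global.RecipLocalNormVal
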