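/-
S55 / Global / G.semilocal.h3, part 3 (helper49) — UNCONDITIONAL forms (Local block closed:
`Local/BrauerUnramFinal.lean`).

* `isZero_H3_Jn K L T : IsZero (groupCohomology (Jn K L T) 3)`            (input `hJ3` of `M.hbnH3`);
* `isZero_H3_Jloc K L q 𝔪`, `card_H2_Jloc K L q 𝔪 m`, `isAddCyclic_H2_Jloc K L q 𝔪`;
* `isZero_H3_JRep K L F`, `card_H2_JRep K L F m`, `isAddCyclic_H2_JRep K L F` for a local field `F`.
-/
import Fermat.Agent.S55.Global.SemilocalH3Jn
import Fermat.Agent.S55.Local.BrauerUnramFinal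

set_option autoImplicit false
set_option linter.unusedSectionVars false

open TensorProduct CategoryTheory CategoryTheory.Limits
open scoped Pointwise

namespace Fermat.Agent.S55.Global.SemilocalFinal

open Fermat.Agent.S55.Global.Objects Fermat.Agent.S55.Global.Objects2
open Fermat.Agent.S55.Global.Blocks3
open Fermat.Agent.S55.Local

variable (K L : Type) [Field K] [NumberField K] [Field L] [NumberField L] [Algebra K L]
  [IsGalois K L]

/-- **`H³(Gal(L/K), J_{L,T}) = 0`**, unconditional. -/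
theorem isZero_H3_Jn (T : Finset Nat.Primes) : IsZero (groupCohomology (Jn K L T) 3) :=
  SemilocalH3Jn.isZero_H3_Jn K L T BrauerUnramFinal.h3Vanish

section places

variable (q : Nat.Primes) (𝔪 : Ideal (Ksemi K q)) [h𝔪 : 𝔪.IsMaximal]

theorem isZero_H3_Jloc : IsZero (groupCohomology (Jloc K L q 𝔪) 3) :=
  SemilocalH3.isZero_H3_Jloc K L q 𝔪 BrauerUnramFinal.h3Vanish

theorem card_H2_Jloc (m : Ideal (L ⊗[K] Kloc K q 𝔪)) [hm : m.IsMaximal] :
    Nat.card (groupCohomology (Jloc K L q 𝔪) 2) =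
      Nat.card (MulAction.stabilizer (L ≃ₐ[K] L) m) :=
  SemilocalH3.card_H2_Jloc K L q 𝔪 BrauerUnramFinal.h2Card m

theorem isAddCyclic_H2_Jloc : IsAddCyclic (groupCohomology (Jloc K L q 𝔪) 2) :=
  SemilocalH3.isAddCyclic_H2_Jloc K L q 𝔪 BrauerUnramFinal.h2Cyclic

end places

section LF

variable (F : Type) [NontriviallyNormedField F] [IsUltrametricDist F] [ProperSpace F]
  [Algebra K F]

theorem isZero_H3_JRep : IsZero (groupCohomology (JRep K L F) 3) :=
  SemilocalH3.isZero_H3_JRep K L F BrauerUnramFinal.h3Vanish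

theorem card_H2_JRep (m : Ideal (L ⊗[K] F)) [hm : m.IsMaximal] :
    Nat.card (groupCohomology (JRep K L F) 2) =
      Nat.card (MulAction.stabilizer (L ≃ₐ[K] L) m) :=
  SemilocalH3.card_H2_JRep K L F BrauerUnramFinal.h2Card m

theorem isAddCyclic_H2_JRep : IsAddCyclic (groupCohomology (JRep K L F) 2) :=
  SemilocalH3.isAddCyclic_H2_JRep K L F BrauerUnramFinal.h2Cyclic

end LF

end Fermat.Agent.S55.Global.SemilocalFinal
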