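/-
S55 / Global / G.first — the semilocal Hilbert 90 input of the first inequality, v3 interface
(helper23):  `semilocalH90Q p : FirstIneq2.SemilocalH90Q p`, `semilocalH90QT p : FirstIneq2.SemilocalH90QT p`
(unconditional, any `p`).
-/
import Fermat.Agent.S55.Global.FirstIneq2
import Fermat.Agent.S55.Global.SemilocalH90Q
import Fermat.Agent.S55.Global.SemilocalTensor

set_option linter.unusedSectionVars false
set_option linter.style.haveILetI false

namespace Fermat.Agent.S55.Global.SemilocalH90Final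

open scoped TensorProduct
open NumberField
open Fermat.Agent.S55.Global.Objects Fermat.Agent.S55.Global.Objects2
open Fermat.Agent.S55.Global.FirstIneqDefs Fermat.Agent.S55.Global.FirstIneq2

/-- **(SL-1)** per rational prime, literal shape of `FirstIneq2.SemilocalH90Q`. -/
theorem semilocalH90Q (p : ℕ) : SemilocalH90Q p := by
  intro K L _ _ _ _ _ _ σ hdeg hgen q u hu
  haveI : FiniteDimensional ℚ L := inferInstance
  haveI : IsArtinianRing (L ⊗[ℚ] ℚ_[((q : Nat.Primes) : ℕ)]) :=
    SemilocalTensor.isArtinianRing_tensor ℚ L ℚ_[((q : Nat.Primes) : ℕ)]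
  haveI : IsReduced (L ⊗[ℚ] ℚ_[((q : Nat.Primes) : ℕ)]) :=
    SemilocalH90.isReduced_tensor_field ℚ L ℚ_[((q : Nat.Primes) : ℕ)]
  exact SemilocalH90Q.h90_cyclic_p K L ℚ_[((q : Nat.Primes) : ℕ)] p hdeg σ hgen u hu

/-- **(SL-1)**, `T`-level, literal shape of `FirstIneq2.SemilocalH90QT`. -/
theorem semilocalH90QT (p : ℕ) : SemilocalH90QT p := h90QT_of_q p (semilocalH90Q p)

end Fermat.Agent.S55.Global.SemilocalH90Final
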