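/-
S55 / Global / G.first — piece (B) of helper31's split (#1844): the hypothesis `(hloc)` of
`SemilocalNormIndex.normIndex_eq` for `B = L ⊗[ℚ] ℚ_[q]` and `G = Gal(L/K)` of prime order `p`
(acting through `resHom` and the left factor, `SemilocalH90Q.actK`).  (helper34)

* `normIndexCyclic_alg` : the Local norm index `[Fˣ : N Eˣ] = [E : F]` for a cyclic extension `E/F`
  of finite extensions of `ℚ_[q]`, in purely algebraic form (spectral norms installed inside);
* `relIndex_normD`      : a group `D` of prime order `p` acting faithfully by `ℚ_[q]`-algebra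
  automorphisms on a finite field extension `E` of `ℚ_[q]`: `[(Eˣ)^D : N_D Eˣ] = p`;
* `hloc`                : LITERALLY the `hloc` hypothesis of `SemilocalNormIndex.normIndex_eq`;
* `normIndex_fixedMax`  : `[(Bˣ)^G : N_G Bˣ] = p ^ #{G-fixed maximal ideals of B}`.
-/
import Mathlib
import Fermat.Agent.S55.Global.FiniteExtLF
import Fermat.Agent.S55.Local.UnitDataLFProof
import Fermat.Agent.S55.Global.SemilocalNormIndex
import Fermat.Agent.S55.Global.SemilocalH90Q
import Fermat.Agent.S55.Global.PlaceBij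

set_option autoImplicit false
set_option linter.style.haveILetI false
set_option linter.unusedSectionVars false

open scoped TensorProduct Pointwise
open NumberField

namespace Fermat.Agent.S55.Global.SemilocalHloc

open Fermat.Agent.S55.Local Fermat.Agent.S55.Global.FiniteExtLF

attribute [local instance] Units.mulDistribMulActionRight

/-- Local norm index for cyclic extensions of finite extensions of `ℚ_[q]`, algebraic form. -/
theorem normIndexCyclic_alg (q : ℕ) [Fact q.Prime] (F E : Type) [Field F] [Algebra ℚ_[q] F]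
    [FiniteDimensional ℚ_[q] F] [Field E] [Algebra F E] [FiniteDimensional F E] [IsGalois F E]
    [IsCyclic (E ≃ₐ[F] E)] :
    (Blocks.unitsNorm F E).range.index = Module.finrank F E := by
  letI := nontriviallyNormedFieldExt ℚ_[q] F
  letI := normedAlgebraExt ℚ_[q] F
  haveI := isUltrametricDistExt ℚ_[q] F
  haveI := properSpaceExt ℚ_[q] F
  letI := nontriviallyNormedFieldExt F E
  letI := normedAlgebraExt F E
  haveI := isUltrametricDistExt F E
  haveI := properSpaceExt F E
  exact UnitDataLFProof.normIndexCyclic F E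

section core

variable {E : Type} [Field E] {D : Type} [Group D] [Fintype D] [MulSemiringAction D E]

/-- The `D`-norm on `Eˣ`. -/
noncomputable def normD (D : Type) {E : Type} [Field E] [Group D] [Fintype D]
    [MulSemiringAction D E] : Eˣ →* Eˣ where
  toFun e := ∏ d : D, d • e
  map_one' := by simp
  map_mul' e e' := by simp only [smul_mul']; exact Finset.prod_mul_distrib

/-- The `D`-fixed units. -/
def fixedD (D : Type) {E : Type} [Field E] [Group D] [MulSemiringAction D E] : Subgroup Eˣ where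
  carrier := {e | ∀ d : D, d • e = e}
  one_mem' d := smul_one d
  mul_mem' {a b} ha hb d := by rw [smul_mul', ha d, hb d]
  inv_mem' {a} ha d := by rw [smul_inv', ha d]

theorem val_normD (e : Eˣ) : ((normD D e : Eˣ) : E) = ∏ d : D, d • (e : E) := by
  change ((∏ d : D, d • e : Eˣ) : E) = _
  rw [Units.coe_prod]
  rfl

/-- The inclusion of the units of the fixed field. -/
noncomputable def jU (D : Type) (E : Type) [Field E] [Group D] [MulSemiringAction D E] :
    (FixedPoints.subfield D E)ˣ →* Eˣ :=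
  Units.map ((algebraMap (FixedPoints.subfield D E) E).toMonoidHom)

theorem val_jU (u : (FixedPoints.subfield D E)ˣ) : ((jU D E u : Eˣ) : E) = ((u : FixedPoints.subfield D E) : E) :=
  rfl

theorem jU_injective : Function.Injective (jU D E) :=
  Units.map_injective (algebraMap (FixedPoints.subfield D E) E).injective

variable [FaithfulSMul D E]

theorem algebraMap_norm_eq (x : E) :
    algebraMap (FixedPoints.subfield D E) E (Algebra.norm (FixedPoints.subfield D E) x) =
      ∏ d : D, d • x := by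
  rw [Algebra.norm_eq_prod_automorphisms]
  exact (Fintype.prod_equiv (FixedPoints.toAlgAutMulEquiv D E).toEquiv _ _ (fun d => rfl)).symm

theorem normD_eq (e : Eˣ) :
    normD D e = jU D E (Blocks.unitsNorm (FixedPoints.subfield D E) E e) := by
  apply Units.ext
  rw [val_normD]
  exact (algebraMap_norm_eq (D := D) (e : E)).symm

theorem fixedD_eq :
    fixedD D (E := E) = (⊤ : Subgroup (FixedPoints.subfield D E)ˣ).map (jU D E) := by
  ext e
  simp only [Subgroup.mem_map, Subgroup.mem_top, true_and]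
  constructor
  · intro he
    have hmem : (e : E) ∈ FixedPoints.subfield D E := fun d => congrArg Units.val (he d)
    have hmem' : ((e⁻¹ : Eˣ) : E) ∈ FixedPoints.subfield D E := by
      rw [Units.val_inv_eq_inv_val]; exact inv_mem hmem
    refine ⟨⟨⟨e, hmem⟩, ⟨(e⁻¹ : Eˣ), hmem'⟩, ?_, ?_⟩, ?_⟩
    · apply Subtype.ext; simp
    · apply Subtype.ext; simp
    · apply Units.ext; rfl
  · rintro ⟨u, rfl⟩ d
    apply Units.ext
    exact (u : FixedPoints.subfield D E).2 d

theorem normD_eq_comp :
    normD D (E := E) = (jU D E).comp (Blocks.unitsNorm (FixedPoints.subfield D E) E) :=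
  MonoidHom.ext normD_eq

/-- **Local norm index, group-action form**: a group `D` of prime order `p` acting faithfully by
`ℚ_[q]`-algebra automorphisms on a finite field extension `E` of `ℚ_[q]` has
`[(Eˣ)^D : N_D Eˣ] = p`. -/
theorem relIndex_normD (q : ℕ) [Fact q.Prime] [Algebra ℚ_[q] E] [FiniteDimensional ℚ_[q] E]
    (hfix : ∀ (d : D) (a : ℚ_[q]), d • algebraMap ℚ_[q] E a = algebraMap ℚ_[q] E a)
    {p : ℕ} (hp : p.Prime) (hcard : Nat.card D = p) :
    (normD D (E := E)).range.relIndex (fixedD D) = p := by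
  letI algF : Algebra ℚ_[q] (FixedPoints.subfield D E) :=
    ((algebraMap ℚ_[q] E).codRestrict (FixedPoints.subfield D E) (fun a d => hfix d a)).toAlgebra
  haveI : IsScalarTower ℚ_[q] (FixedPoints.subfield D E) E :=
    IsScalarTower.of_algebraMap_eq (fun _ => rfl)
  haveI : FiniteDimensional ℚ_[q] (FixedPoints.subfield D E) :=
    FiniteDimensional.left ℚ_[q] (FixedPoints.subfield D E) E
  have hcardG : Nat.card (E ≃ₐ[FixedPoints.subfield D E] E) = p := by
    rw [← hcard]; exact (Nat.card_congr (FixedPoints.toAlgAutMulEquiv D E).toEquiv).symm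
  haveI : Fact (Nat.card (E ≃ₐ[FixedPoints.subfield D E] E)).Prime := ⟨hcardG ▸ hp⟩
  haveI : IsCyclic (E ≃ₐ[FixedPoints.subfield D E] E) := isCyclic_of_prime_card rfl
  have hrank : Module.finrank (FixedPoints.subfield D E) E = p := by
    rw [FixedPoints.finrank_eq_card, ← Nat.card_eq_fintype_card, hcard]
  have hinj : Function.Injective (jU D E) := jU_injective
  rw [normD_eq_comp, ← MonoidHom.map_range, fixedD_eq,
    Subgroup.relIndex_map_map_of_injective _ _ hinj, Subgroup.relIndex_top_right,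
    normIndexCyclic_alg q, hrank]

end core

open Fermat.Agent.S55.Global.Objects Fermat.Agent.S55.Global.Objects2
open Fermat.Agent.S55.Global.SemilocalDecomp Fermat.Agent.S55.Global.SemilocalNormIndex

attribute [local instance] stabQuotAction
attribute [local instance] Algebra.TensorProduct.rightAlgebra

section inst

variable (K L : Type) [Field K] [NumberField K] [Field L] [NumberField L] [Algebra K L]
  [IsGalois K L] (q : ℕ) [Fact q.Prime] [Fintype (L ≃ₐ[K] L)]

attribute [local instance] SemilocalH90Q.actK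

/-- **(hloc)** for `B = L ⊗[ℚ] ℚ_[q]`, `G = Gal(L/K)` of prime order `p`: the local norm index at every
`G`-fixed maximal ideal is `p`. -/
theorem hloc {p : ℕ} (hp : p.Prime) (hdeg : Module.finrank K L = p)
    (i : FixedMax (L ≃ₐ[K] L) (L ⊗[ℚ] ℚ_[q])) :
    (localNorm i.2.2).range.relIndex (localFixed i.2.2) = p := by
  obtain ⟨m, hmax, hm⟩ := i
  change (localNorm hm).range.relIndex (localFixed hm) = p
  letI : Field ((L ⊗[ℚ] ℚ_[q]) ⧸ m) := Ideal.Quotient.field m
  letI : Fintype (MulAction.stabilizer (L ≃ₐ[K] L) m) := Fintype.ofFinite _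
  haveI : IsArtinianRing (L ⊗[ℚ] ℚ_[q]) := PlaceBij.isArtinianRing_semi L q
  haveI : IsReduced (L ⊗[ℚ] ℚ_[q]) := SemilocalH90.isReduced_tensor_field ℚ L ℚ_[q]
  -- finite-dimensionality
  haveI : Module.Finite ℚ_[q] (L ⊗[ℚ] ℚ_[q]) := PlaceBij.finite_semi L q
  haveI : FiniteDimensional ℚ_[q] ((L ⊗[ℚ] ℚ_[q]) ⧸ m) :=
    Module.Finite.of_surjective (Ideal.Quotient.mkₐ ℚ_[q] m).toLinearMap
      (Ideal.Quotient.mkₐ_surjective ℚ_[q] m)
  -- faithfulness
  have hact : ∀ (g : L ≃ₐ[K] L) (l : L) (a : ℚ_[q]),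
      g • (l ⊗ₜ[ℚ] a : L ⊗[ℚ] ℚ_[q]) = (g • l) ⊗ₜ[ℚ] a := fun _ _ _ => rfl
  haveI : FaithfulSMul (MulAction.stabilizer (L ≃ₐ[K] L) m) ((L ⊗[ℚ] ℚ_[q]) ⧸ m) :=
    SemilocalH90.faithful_stab (k := ℚ) hact m hmax
  -- the base field is fixed
  have hfix : ∀ (d : MulAction.stabilizer (L ≃ₐ[K] L) m) (a : ℚ_[q]),
      d • algebraMap ℚ_[q] ((L ⊗[ℚ] ℚ_[q]) ⧸ m) a = algebraMap ℚ_[q] ((L ⊗[ℚ] ℚ_[q]) ⧸ m) a := by
    intro d a
    have h1 : algebraMap ℚ_[q] ((L ⊗[ℚ] ℚ_[q]) ⧸ m) a =
        Ideal.Quotient.mk m ((1 : L) ⊗ₜ[ℚ] a) := rfl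
    rw [h1, stabQuotAction_mk]
    exact congrArg _ ((hact d.1 1 a).trans (by rw [smul_one]))
  -- the order of the stabiliser
  have hcard : Nat.card (MulAction.stabilizer (L ≃ₐ[K] L) m) = p := by
    have htop : MulAction.stabilizer (L ≃ₐ[K] L) m = ⊤ := by
      rw [eq_top_iff]; intro g _; exact MulAction.mem_stabilizer_iff.mpr (hm g)
    haveI : FiniteDimensional K L := Module.Finite.of_restrictScalars_finite ℚ K L
    rw [htop, Subgroup.card_top, IsGalois.card_aut_eq_finrank, hdeg]
  have hcore := relIndex_normD (E := (L ⊗[ℚ] ℚ_[q]) ⧸ m)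
    (D := MulAction.stabilizer (L ≃ₐ[K] L) m) q hfix hp hcard
  -- bridge to `localNorm` / `localFixed`
  have hN : localNorm hm = normD (MulAction.stabilizer (L ≃ₐ[K] L) m)
      (E := (L ⊗[ℚ] ℚ_[q]) ⧸ m) := by
    apply MonoidHom.ext
    intro e
    apply Units.ext
    rw [val_localNorm, val_normD]
    exact Fintype.prod_equiv
      ⟨toStab hm, fun d => d.1, fun _ => rfl, fun _ => Subtype.ext rfl⟩ _ _ (fun _ => rfl)
  have hF : localFixed hm = fixedD (MulAction.stabilizer (L ≃ₐ[K] L) m)
      (E := (L ⊗[ℚ] ℚ_[q]) ⧸ m) := by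
    ext e
    constructor
    · intro he d
      exact he d.1
    · intro he g
      exact he (toStab hm g)
  rw [hN, hF]
  exact hcore


/-- **The semilocal norm index** for `B = L ⊗[ℚ] ℚ_[q]`, `G = Gal(L/K)` of prime order `p`:
`[(Bˣ)^G : N_G Bˣ] = p ^ #{G-fixed maximal ideals of B}`. -/
theorem normIndex_fixedMax {p : ℕ} (hp : p.Prime) (hdeg : Module.finrank K L = p) :
    (normG (L ≃ₐ[K] L) (B := L ⊗[ℚ] ℚ_[q])).range.relIndex (fixedG (L ≃ₐ[K] L)) =
      p ^ Nat.card (FixedMax (L ≃ₐ[K] L) (L ⊗[ℚ] ℚ_[q])) := by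
  haveI : IsArtinianRing (L ⊗[ℚ] ℚ_[q]) := PlaceBij.isArtinianRing_semi L q
  haveI : IsReduced (L ⊗[ℚ] ℚ_[q]) := SemilocalH90.isReduced_tensor_field ℚ L ℚ_[q]
  haveI : FiniteDimensional K L := Module.Finite.of_restrictScalars_finite ℚ K L
  refine normIndex_eq hp ?_ (fun i => hloc K L q hp hdeg i)
  rw [IsGalois.card_aut_eq_finrank, hdeg]

end inst

end Fermat.Agent.S55.Global.SemilocalHloc
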