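/-
S55 / Global / G.first — bridges from `SemilocalHloc.normIndex_fixedMax` to the literal vocabulary of
`FirstIneq2.SemilocalNormIndexQ p` (helper34).

`K ⊆ L` number fields, `L/K` Galois of prime degree `p` with generator `σ`, `σ' := resHom K L σ`,
`B := L ⊗[ℚ] ℚ_[q]`:

* `normU_eq_normG`   : `FirstIneqDefs.normU ℚ_[q] p σ' = SemilocalNormIndex.normG Gal(L/K)`;
* `fixedU_eq_fixedG` : `FirstIneqDefs.fixedU ℚ_[q] σ' = SemilocalNormIndex.fixedG Gal(L/K)`;
* `fixedMaxEquiv`    : `FixedMax Gal(L/K) B ≃ {m // m.IsMaximal ∧ σ' • m = m}`;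
* `normIndexAt_eq`   : `normIndexAt ℚ_[q] p σ' = p ^ Nat.card {m // m.IsMaximal ∧ σ' • m = m}`;
* `semilocalNormIndexQ_of_count` : `SemilocalNormIndexQ p` for `p` prime from the count (C)
  `Nat.card {m // m.IsMaximal ∧ σ' • m = m} = nonsplit K L (placesOverQ K {q})`.
-/
import Mathlib
import Fermat.Agent.S55.Global.SemilocalHloc
import Fermat.Agent.S55.Global.FirstIneq2

set_option autoImplicit false
set_option linter.style.haveILetI false
set_option linter.unusedSectionVars false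

open scoped TensorProduct Pointwise
open NumberField

namespace Fermat.Agent.S55.Global.SemilocalHlocBridge

open Fermat.Agent.S55.Global.Objects Fermat.Agent.S55.Global.Objects2
open Fermat.Agent.S55.Global.SemilocalNormIndex Fermat.Agent.S55.Global.FirstIneqDefs

attribute [local instance] Units.mulDistribMulActionRight
attribute [local instance] SemilocalH90Q.actK

section bridge

variable (K L : Type) [Field K] [NumberField K] [Field L] [NumberField L] [Algebra K L]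
  [IsGalois K L] (q : ℕ) [Fact q.Prime] [Fintype (L ≃ₐ[K] L)]

theorem orderOf_eq_of_gen (σ : L ≃ₐ[K] L) (hσ : ∀ τ : L ≃ₐ[K] L, τ ∈ Subgroup.zpowers σ)
    {p : ℕ} (hdeg : Module.finrank K L = p) : orderOf σ = p := by
  haveI : FiniteDimensional K L := Module.Finite.of_restrictScalars_finite ℚ K L
  rw [← hdeg, ← IsGalois.card_aut_eq_finrank K L, ← Nat.card_zpowers]
  have : Subgroup.zpowers σ = ⊤ := by
    rw [eq_top_iff]; intro τ _; exact hσ τ
  rw [this, Subgroup.card_top]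

/-- The cyclic norm of `FirstIneqDefs` is the group norm of `SemilocalNormIndex`. -/
theorem normU_eq_normG (σ : L ≃ₐ[K] L) (hσ : ∀ τ : L ≃ₐ[K] L, τ ∈ Subgroup.zpowers σ)
    {p : ℕ} (hdeg : Module.finrank K L = p) :
    normU (K := ℚ) ℚ_[q] p (resHom K L σ) = normG (L ≃ₐ[K] L) (B := L ⊗[ℚ] ℚ_[q]) := by
  classical
  apply MonoidHom.ext
  intro u
  have hord := orderOf_eq_of_gen K L σ hσ hdeg
  change ∏ i ∈ Finset.range p, (resHom K L σ ^ i) • u = ∏ g : L ≃ₐ[K] L, g • u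
  rw [← IsCyclic.image_range_orderOf hσ, hord, Finset.prod_image]
  · refine Finset.prod_congr rfl (fun i _ => ?_)
    apply Units.ext
    change (resHom K L σ ^ i) • (u : L ⊗[ℚ] ℚ_[q]) = resHom K L (σ ^ i) • (u : L ⊗[ℚ] ℚ_[q])
    rw [map_pow]
  · intro i hi j hj hij
    rw [← hord] at hi hj
    exact pow_injOn_Iio_orderOf (Finset.mem_range.mp hi) (Finset.mem_range.mp hj) hij

/-- The `σ`-fixed units are the `Gal(L/K)`-fixed units. -/
theorem fixedU_eq_fixedG (σ : L ≃ₐ[K] L) (hσ : ∀ τ : L ≃ₐ[K] L, τ ∈ Subgroup.zpowers σ) :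
    fixedU (K := ℚ) ℚ_[q] (resHom K L σ) = fixedG (L ≃ₐ[K] L) (B := L ⊗[ℚ] ℚ_[q]) := by
  ext u
  constructor
  · intro hu g
    have hu' : σ • u = u := hu
    obtain ⟨k, rfl⟩ := Subgroup.mem_zpowers_iff.mp (hσ g)
    have hmem : σ ∈ MulAction.stabilizer (L ≃ₐ[K] L) u := MulAction.mem_stabilizer_iff.mpr hu'
    exact MulAction.mem_stabilizer_iff.mp (zpow_mem hmem k)
  · intro hu
    exact hu σ

/-- `G`-fixed maximal ideals are the `σ`-fixed maximal ideals. -/
noncomputable def fixedMaxEquiv (σ : L ≃ₐ[K] L) (hσ : ∀ τ : L ≃ₐ[K] L, τ ∈ Subgroup.zpowers σ) :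
    FixedMax (L ≃ₐ[K] L) (L ⊗[ℚ] ℚ_[q]) ≃
      {m : Ideal (L ⊗[ℚ] ℚ_[q]) // m.IsMaximal ∧ resHom K L σ • m = m} where
  toFun i := ⟨i.1, i.2.1, i.2.2 σ⟩
  invFun j := ⟨j.1, j.2.1, fun g => by
    obtain ⟨k, rfl⟩ := Subgroup.mem_zpowers_iff.mp (hσ g)
    have hmem : σ ∈ MulAction.stabilizer (L ≃ₐ[K] L) j.1 :=
      MulAction.mem_stabilizer_iff.mpr j.2.2
    exact MulAction.mem_stabilizer_iff.mp (zpow_mem hmem k)⟩
  left_inv _ := rfl
  right_inv _ := rfl

/-- **The semilocal norm index in the `FirstIneqDefs` vocabulary**, with the count of `σ`-fixed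
maximal ideals of `L ⊗[ℚ] ℚ_[q]`. -/
theorem normIndexAt_eq (σ : L ≃ₐ[K] L) (hσ : ∀ τ : L ≃ₐ[K] L, τ ∈ Subgroup.zpowers σ)
    {p : ℕ} (hp : p.Prime) (hdeg : Module.finrank K L = p) :
    normIndexAt (K := ℚ) ℚ_[q] p (resHom K L σ) =
      p ^ Nat.card {m : Ideal (L ⊗[ℚ] ℚ_[q]) // m.IsMaximal ∧ resHom K L σ • m = m} := by
  unfold normIndexAt
  rw [normU_eq_normG K L q σ hσ hdeg, fixedU_eq_fixedG K L q σ hσ,
    SemilocalHloc.normIndex_fixedMax K L q hp hdeg,
    Nat.card_congr (fixedMaxEquiv K L q σ hσ)]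

end bridge

/-- **(SL-0) per rational prime** for `p` prime, from the count (C) of `σ`-fixed maximal ideals. -/
theorem semilocalNormIndexQ_of_count {p : ℕ} (hp : p.Prime)
    (hcount : ∀ (K L : Type) [Field K] [NumberField K] [Field L] [NumberField L] [Algebra K L]
      [IsGalois K L] (σ : L ≃ₐ[K] L), Module.finrank K L = p →
      (∀ τ : L ≃ₐ[K] L, τ ∈ Subgroup.zpowers σ) → ∀ q : Nat.Primes,
      Nat.card {m : Ideal (L ⊗[ℚ] ℚ_[((q : Nat.Primes) : ℕ)]) //
          m.IsMaximal ∧ resHom K L σ • m = m} =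
        SUnitHerbrand.nonsplit K L (FirstIneq2.placesOverQ K {q})) :
    FirstIneq2.SemilocalNormIndexQ p := by
  intro K L _ _ _ _ _ _ σ hdeg hσ q
  haveI : FiniteDimensional K L := Module.Finite.of_restrictScalars_finite ℚ K L
  letI : Fintype (L ≃ₐ[K] L) := Fintype.ofFinite _
  rw [normIndexAt_eq K L (q : ℕ) σ hσ hp hdeg, hcount K L σ hdeg hσ q]

end Fermat.Agent.S55.Global.SemilocalHlocBridge
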