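import Mathlib
import Fermat.Agent.S55.Global.SemilocalValued
import Fermat.Agent.S55.Global.UnramDict

/-!
# S55 / Global / G.semilocal.primes — abstract core

Setting of `UnramDict`: `K ⊆ L` number fields, `v` a finite place of `K`, `E` a normed field which
is a normed `K_v`-algebra and an `L`-algebra compatibly.  `primeIdeal K v L E` is the prime of
`𝓞 L` cut out by `E`.

* (a) the norm class of `l : L` in `E` is read off the `w`-adic valuation, `w = placeOf K v L E`;
* (b) `K_v`-algebra isomorphisms are isometries; equivariance of `primeIdeal`;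
* (c) injectivity: two quotient fields of `L ⊗[K] K_v` separated by an idempotent cut out
  different primes of `𝓞 L`.
-/

set_option autoImplicit false
set_option linter.unusedSectionVars false

namespace Fermat.Agent.S55.Global.SemilocalPrimes

open IsDedekindDomain NumberField IsDedekindDomain.HeightOneSpectrum
open Fermat.Agent.S55.Global.UnramDict

open scoped Valued WithZero NNReal TensorProduct

section NormClass

variable (K : Type*) [Field K] [NumberField K] (v : HeightOneSpectrum (𝓞 K))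
variable (L : Type*) [Field L] [NumberField L] [Algebra K L]
variable (E : Type*) [NormedField E] [NormedAlgebra (v.adicCompletion K) E]
  [Algebra L E] [Algebra K E] [IsScalarTower K L E] [IsScalarTower K (v.adicCompletion K) E]

include K v

theorem norm_le_one_of_valuation_le_one {l : L}
    (h : (placeOf K v L E).valuation L l ≤ 1) : ‖algebraMap L E l‖ ≤ 1 := by
  obtain ⟨n, d, hnd⟩ := exists_primeCompl_mul_eq_of_integer (placeOf K v L E) l h
  have hd : (d : 𝓞 L) ∉ primeIdeal K v L E := d.2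
  have h1 := congrArg (fun z => ‖algebraMap L E z‖) hnd
  simp only [map_mul, norm_mul] at h1
  have hd1 : ‖algebraMap L E (algebraMap (𝓞 L) L (d : 𝓞 L))‖ = 1 :=
    norm_eq_one_of_notMem K v L E hd
  rw [hd1, mul_one] at h1
  rw [h1]
  exact norm_int_le_one K v L E n

theorem norm_lt_one_of_valuation_lt_one {l : L}
    (h : (placeOf K v L E).valuation L l < 1) : ‖algebraMap L E l‖ < 1 := by
  obtain ⟨n, d, hnd⟩ := exists_primeCompl_mul_eq_of_integer (placeOf K v L E) l h.le
  have hd : (d : 𝓞 L) ∉ primeIdeal K v L E := d.2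
  have hdv : (placeOf K v L E).valuation L (algebraMap (𝓞 L) L d) = 1 :=
    (valuation_eq_one_iff_notMem _).2 hd
  have hnv : (placeOf K v L E).valuation L (algebraMap (𝓞 L) L n) < 1 := by
    rw [← hnd, map_mul, hdv, mul_one]; exact h
  have hn : n ∈ primeIdeal K v L E :=
    (valuation_lt_one_iff_mem (placeOf K v L E) n).1 hnv
  have h1 := congrArg (fun z => ‖algebraMap L E z‖) hnd
  simp only [map_mul, norm_mul] at h1
  have hd1 : ‖algebraMap L E (algebraMap (𝓞 L) L (d : 𝓞 L))‖ = 1 :=
    norm_eq_one_of_notMem K v L E hd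
  rw [hd1, mul_one] at h1
  rw [h1]
  exact hn

theorem valuation_eq_one_of_norm_eq_one {l : L} (h : ‖algebraMap L E l‖ = 1) :
    (placeOf K v L E).valuation L l = 1 := by
  have hl0 : l ≠ 0 := by
    rintro rfl
    rw [map_zero, norm_zero] at h
    exact zero_ne_one h
  rcases lt_trichotomy ((placeOf K v L E).valuation L l) 1 with hlt | heq | hgt
  · have := norm_lt_one_of_valuation_lt_one K v L E hlt
    rw [h] at this
    exact absurd this (lt_irrefl _)
  · exact heq
  · have hinv : (placeOf K v L E).valuation L l⁻¹ < 1 := by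
      rw [map_inv₀]
      exact inv_lt_one_of_one_lt₀ hgt
    have := norm_lt_one_of_valuation_lt_one K v L E hinv
    rw [map_inv₀, norm_inv, h, inv_one] at this
    exact absurd this (lt_irrefl _)

theorem norm_eq_one_iff_valuation_eq_one {l : L} :
    ‖algebraMap L E l‖ = 1 ↔ (placeOf K v L E).valuation L l = 1 :=
  ⟨valuation_eq_one_of_norm_eq_one K v L E, norm_eq_one_of_valuation_eq_one K v L E⟩

end NormClass

section Isometry

/-- Algebra isomorphisms over a complete nonarchimedean base field are isometries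
(both norms are the spectral norm). -/
theorem norm_algEquiv_eq {F E₁ E₂ : Type*} [NontriviallyNormedField F] [IsUltrametricDist F]
    [CompleteSpace F] [NormedField E₁] [NormedAlgebra F E₁] [NormedField E₂] [NormedAlgebra F E₂]
    [Algebra.IsAlgebraic F E₁] [Algebra.IsAlgebraic F E₂] (φ : E₁ ≃ₐ[F] E₂) (y : E₁) :
    ‖φ y‖ = ‖y‖ := by
  rw [NormedAlgebra.norm_eq_spectralNorm F, NormedAlgebra.norm_eq_spectralNorm F]
  unfold spectralNorm
  rw [minpoly.algEquiv_eq]

variable (K : Type*) [Field K] [NumberField K] (v : HeightOneSpectrum (𝓞 K))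
variable (L : Type*) [Field L] [NumberField L] [Algebra K L]
variable (E₁ : Type*) [NormedField E₁] [NormedAlgebra (v.adicCompletion K) E₁]
  [Algebra L E₁] [Algebra K E₁] [IsScalarTower K L E₁] [IsScalarTower K (v.adicCompletion K) E₁]
  [FiniteDimensional (v.adicCompletion K) E₁]
variable (E₂ : Type*) [NormedField E₂] [NormedAlgebra (v.adicCompletion K) E₂]
  [Algebra L E₂] [Algebra K E₂] [IsScalarTower K L E₂] [IsScalarTower K (v.adicCompletion K) E₂]
  [FiniteDimensional (v.adicCompletion K) E₂]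

/-- `K_v`-isomorphisms between finite extensions of `K_v` are isometries. -/
theorem norm_algEquiv_Kv (φ : E₁ ≃ₐ[v.adicCompletion K] E₂) (y : E₁) : ‖φ y‖ = ‖y‖ := by
  let _ := SemilocalValued.nontriviallyNormedField K v
  exact norm_algEquiv_eq (F := v.adicCompletion K) φ y

/-- **Equivariance**: if `φ : E₁ ≃ E₂` over `K_v` intertwines the embeddings of `L` up to
`σ : L ≃ₐ[K] L`, then `x ∈ primeIdeal E₂ ↔ σ⁻¹ x ∈ primeIdeal E₁`. -/
theorem mem_primeIdeal_of_equiv (φ : E₁ ≃ₐ[v.adicCompletion K] E₂) (σ : L ≃ₐ[K] L)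
    (hφ : ∀ l : L, φ (algebraMap L E₁ l) = algebraMap L E₂ (σ l)) (x : 𝓞 L) :
    x ∈ primeIdeal K v L E₂ ↔ ‖algebraMap L E₁ (σ.symm (x : L))‖ < 1 := by
  rw [mem_primeIdeal, ← norm_algEquiv_Kv K v E₁ E₂ φ, hφ, AlgEquiv.apply_symm_apply]

end Isometry

section Injective

variable (K : Type*) [Field K] [NumberField K] (v : HeightOneSpectrum (𝓞 K))
variable (L : Type*) [Field L] [NumberField L] [Algebra K L]
variable (E₁ : Type*) [NormedField E₁] [NormedAlgebra (v.adicCompletion K) E₁]
  [Algebra L E₁] [Algebra K E₁] [IsScalarTower K L E₁] [IsScalarTower K (v.adicCompletion K) E₁]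
variable (E₂ : Type*) [NormedField E₂] [NormedAlgebra (v.adicCompletion K) E₂]
  [Algebra L E₂] [Algebra K E₂] [IsScalarTower K L E₂] [IsScalarTower K (v.adicCompletion K) E₂]

/-- Simultaneous approximation of the images of `z : L ⊗[K] K_v` in two quotient fields by an
element of `L`. -/
theorem exists_approx (π₁ : L ⊗[K] v.adicCompletion K →+* E₁) (π₂ : L ⊗[K] v.adicCompletion K →+* E₂)
    (h₁ : ∀ l c, π₁ (l ⊗ₜ[K] c) = algebraMap L E₁ l * algebraMap (v.adicCompletion K) E₁ c)
    (h₂ : ∀ l c, π₂ (l ⊗ₜ[K] c) = algebraMap L E₂ l * algebraMap (v.adicCompletion K) E₂ c)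
    (z : L ⊗[K] v.adicCompletion K) (δ : ℝ) (hδ : 0 < δ) :
    ∃ l : L, ‖π₁ z - algebraMap L E₁ l‖ < δ ∧ ‖π₂ z - algebraMap L E₂ l‖ < δ := by
  have hu1 := isUltrametricDist K v E₁
  have hu2 := isUltrametricDist K v E₂
  induction z using TensorProduct.induction_on with
  | zero => exact ⟨0, by simpa using hδ, by simpa using hδ⟩
  | tmul l₀ c =>
    -- approximate `c` by `k : K`
    set M : ℝ := max ‖algebraMap L E₁ l₀‖ ‖algebraMap L E₂ l₀‖ + 1 with hM
    have hMpos : 0 < M := by positivity
    have hopen : Metric.ball c (δ / M) ∈ nhds c := Metric.ball_mem_nhds c (div_pos hδ hMpos)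
    obtain ⟨k, hk⟩ := (denseRange_algebraMap (R := 𝓞 K) K v).mem_nhds hopen
    rw [Metric.mem_ball, dist_eq_norm, norm_sub_rev] at hk
    refine ⟨k • l₀, ?_, ?_⟩
    · have e1 : π₁ (l₀ ⊗ₜ[K] c) - algebraMap L E₁ (k • l₀) =
          algebraMap L E₁ l₀ * algebraMap (v.adicCompletion K) E₁
            (c - algebraMap K (v.adicCompletion K) k) := by
        rw [h₁, Algebra.smul_def, map_mul, map_sub, ← IsScalarTower.algebraMap_apply K L E₁,
          ← IsScalarTower.algebraMap_apply K (v.adicCompletion K) E₁]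
        ring
      rw [e1, norm_mul, norm_algebraMap']
      calc ‖algebraMap L E₁ l₀‖ * ‖c - algebraMap K (v.adicCompletion K) k‖
          ≤ M * ‖c - algebraMap K (v.adicCompletion K) k‖ := by
            apply mul_le_mul_of_nonneg_right _ (norm_nonneg _)
            rw [hM]; linarith [le_max_left ‖algebraMap L E₁ l₀‖ ‖algebraMap L E₂ l₀‖]
        _ < M * (δ / M) := mul_lt_mul_of_pos_left hk hMpos
        _ = δ := by field_simp
    · have e2 : π₂ (l₀ ⊗ₜ[K] c) - algebraMap L E₂ (k • l₀) =
          algebraMap L E₂ l₀ * algebraMap (v.adicCompletion K) E₂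
            (c - algebraMap K (v.adicCompletion K) k) := by
        rw [h₂, Algebra.smul_def, map_mul, map_sub, ← IsScalarTower.algebraMap_apply K L E₂,
          ← IsScalarTower.algebraMap_apply K (v.adicCompletion K) E₂]
        ring
      rw [e2, norm_mul, norm_algebraMap']
      calc ‖algebraMap L E₂ l₀‖ * ‖c - algebraMap K (v.adicCompletion K) k‖
          ≤ M * ‖c - algebraMap K (v.adicCompletion K) k‖ := by
            apply mul_le_mul_of_nonneg_right _ (norm_nonneg _)
            rw [hM]; linarith [le_max_right ‖algebraMap L E₁ l₀‖ ‖algebraMap L E₂ l₀‖]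
        _ < M * (δ / M) := mul_lt_mul_of_pos_left hk hMpos
        _ = δ := by field_simp
  | add x y hx hy =>
    obtain ⟨lx, hx1, hx2⟩ := hx
    obtain ⟨ly, hy1, hy2⟩ := hy
    refine ⟨lx + ly, ?_, ?_⟩
    · have : π₁ (x + y) - algebraMap L E₁ (lx + ly) =
          (π₁ x - algebraMap L E₁ lx) + (π₁ y - algebraMap L E₁ ly) := by
        rw [map_add, map_add]; ring
      rw [this]
      exact (IsUltrametricDist.norm_add_le_max _ _).trans_lt (max_lt hx1 hy1)
    · have : π₂ (x + y) - algebraMap L E₂ (lx + ly) =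
          (π₂ x - algebraMap L E₂ lx) + (π₂ y - algebraMap L E₂ ly) := by
        rw [map_add, map_add]; ring
      rw [this]
      exact (IsUltrametricDist.norm_add_le_max _ _).trans_lt (max_lt hx2 hy2)

/-- **Injectivity**: two quotient fields of `L ⊗[K] K_v` separated by an element `ε`
(`π₁ ε = 1`, `π₂ ε = 0`) cut out different primes of `𝓞 L`. -/
theorem primeIdeal_ne_of_separated
    (π₁ : L ⊗[K] v.adicCompletion K →+* E₁) (π₂ : L ⊗[K] v.adicCompletion K →+* E₂)
    (h₁ : ∀ l c, π₁ (l ⊗ₜ[K] c) = algebraMap L E₁ l * algebraMap (v.adicCompletion K) E₁ c)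
    (h₂ : ∀ l c, π₂ (l ⊗ₜ[K] c) = algebraMap L E₂ l * algebraMap (v.adicCompletion K) E₂ c)
    (ε : L ⊗[K] v.adicCompletion K) (hε₁ : π₁ ε = 1) (hε₂ : π₂ ε = 0) :
    primeIdeal K v L E₁ ≠ primeIdeal K v L E₂ := by
  have hu1 := isUltrametricDist K v E₁
  intro heq
  obtain ⟨l, hl1, hl2⟩ := exists_approx K v L E₁ E₂ π₁ π₂ h₁ h₂ ε 1 one_pos
  rw [hε₁] at hl1
  rw [hε₂, zero_sub, norm_neg] at hl2
  -- `‖l‖₁ = 1`
  have hn1 : ‖algebraMap L E₁ l‖ = 1 := by
    -- `l = 1 - (1 - l)`
    have h' : ‖algebraMap L E₁ l‖ = ‖(1 : E₁) - ((1 : E₁) - algebraMap L E₁ l)‖ := by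
      congr 1; ring
    rw [h']
    have hne' : ‖(1 : E₁)‖ ≠ ‖-((1 : E₁) - algebraMap L E₁ l)‖ := by
      rw [norm_neg, norm_one]; exact hl1.ne'
    have h2 := IsUltrametricDist.norm_add_eq_max_of_norm_ne_norm hne'
    rw [← sub_eq_add_neg, norm_neg, norm_one, max_eq_left hl1.le] at h2
    exact h2
  have hv1 : (placeOf K v L E₁).valuation L l = 1 :=
    valuation_eq_one_of_norm_eq_one K v L E₁ hn1
  have hplace : placeOf K v L E₁ = placeOf K v L E₂ := by
    apply HeightOneSpectrum.ext
    exact heq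
  rw [hplace] at hv1
  have hn2 := norm_eq_one_of_valuation_eq_one K v L E₂ hv1
  rw [hn2] at hl2
  exact lt_irrefl _ hl2

end Injective

end Fermat.Agent.S55.Global.SemilocalPrimes
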