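import Mathlib
import Fermat.Agent.S55.Global.SemilocalValued
import Fermat.Agent.S55.Global.FiniteExtLF
import Fermat.Agent.S55.Global.UnramDict
import Fermat.Agent.S55.Global.SemilocalPrimes
import Fermat.Agent.S55.Global.SemilocalTensor

/-!
# S55 / Global / G.semilocal.primes — the tensor layer

`B := L ⊗[K] K_v` (`K_v`-algebra through `Algebra.TensorProduct.rightAlgebra`), `m` a maximal ideal,
`E_m := B ⧸ m` with the spectral norm over `K_v`.  `placeOfMax K v L m` is the prime of `𝓞 L` cut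
out by `E_m`.
-/

set_option autoImplicit false
set_option linter.unusedSectionVars false
set_option linter.style.haveILetI false

namespace Fermat.Agent.S55.Global.SemilocalPrimes

open IsDedekindDomain NumberField IsDedekindDomain.HeightOneSpectrum
open Fermat.Agent.S55.Global.UnramDict Fermat.Agent.S55.Global.FiniteExtLF

open scoped TensorProduct

attribute [local instance] Algebra.TensorProduct.rightAlgebra

section Finite

variable (K : Type*) [Field K] (F : Type*) [Field F] [Algebra K F]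
variable (L : Type*) [Field L] [Algebra K L] [FiniteDimensional K L]

theorem smul_tmul_right (c : F) (l : L) (a : F) :
    c • (l ⊗ₜ[K] a : L ⊗[K] F) = l ⊗ₜ[K] (c * a) := by
  rw [Algebra.smul_def]
  change (Algebra.TensorProduct.includeRight c : L ⊗[K] F) * _ = _
  rw [Algebra.TensorProduct.includeRight_apply, Algebra.TensorProduct.tmul_mul_tmul, one_mul]

/-- `L ⊗[K] F` is finite over `F` (right structure). -/
theorem finite_tensor_right : Module.Finite F (L ⊗[K] F) := by
  let e : F ⊗[K] L ≃ₐ[K] L ⊗[K] F := Algebra.TensorProduct.comm K F L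
  let f : F ⊗[K] L →ₗ[F] L ⊗[K] F :=
    { toFun := e
      map_add' := map_add e
      map_smul' := by
        intro c z
        simp only [RingHom.id_apply]
        induction z using TensorProduct.induction_on with
        | zero => simp
        | tmul a l =>
          rw [TensorProduct.smul_tmul', smul_eq_mul]
          change (Algebra.TensorProduct.comm K F L) ((c * a) ⊗ₜ[K] l) =
            c • (Algebra.TensorProduct.comm K F L) (a ⊗ₜ[K] l)
          rw [Algebra.TensorProduct.comm_tmul, Algebra.TensorProduct.comm_tmul, smul_tmul_right]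
        | add x y hx hy => rw [smul_add, map_add, map_add, smul_add, hx, hy] }
  exact Module.Finite.of_surjective f e.surjective

end Finite

section Max

variable (K : Type*) [Field K] [NumberField K] (v : HeightOneSpectrum (𝓞 K))
variable (L : Type*) [Field L] [NumberField L] [Algebra K L]
variable (m : Ideal (L ⊗[K] v.adicCompletion K)) [hm : m.IsMaximal]

/-- The quotient field `E_m = (L ⊗[K] K_v) ⧸ m` as a type synonym carrying its own instances. -/
def Em : Type _ := (L ⊗[K] v.adicCompletion K) ⧸ m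

noncomputable instance : Field (Em K v L m) :=
  letI := Ideal.Quotient.field m
  inferInstanceAs (Field ((L ⊗[K] v.adicCompletion K) ⧸ m))

noncomputable instance : Algebra (v.adicCompletion K) (Em K v L m) :=
  inferInstanceAs (Algebra (v.adicCompletion K) ((L ⊗[K] v.adicCompletion K) ⧸ m))

noncomputable instance : Algebra L (Em K v L m) :=
  inferInstanceAs (Algebra L ((L ⊗[K] v.adicCompletion K) ⧸ m))

noncomputable instance : Algebra K (Em K v L m) :=
  inferInstanceAs (Algebra K ((L ⊗[K] v.adicCompletion K) ⧸ m))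

instance : IsScalarTower K L (Em K v L m) :=
  inferInstanceAs (IsScalarTower K L ((L ⊗[K] v.adicCompletion K) ⧸ m))

instance : IsScalarTower K (v.adicCompletion K) (Em K v L m) :=
  inferInstanceAs (IsScalarTower K (v.adicCompletion K) ((L ⊗[K] v.adicCompletion K) ⧸ m))

/-- The projection `L ⊗[K] K_v → E_m`. -/
noncomputable def proj : L ⊗[K] v.adicCompletion K →+* Em K v L m := Ideal.Quotient.mk m

theorem proj_surjective : Function.Surjective (proj K v L m) := Ideal.Quotient.mk_surjective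

theorem proj_eq_zero_iff (z : L ⊗[K] v.adicCompletion K) : proj K v L m z = 0 ↔ z ∈ m :=
  Ideal.Quotient.eq_zero_iff_mem

theorem algebraMap_L_eq (l : L) : algebraMap L (Em K v L m) l = proj K v L m (l ⊗ₜ[K] 1) := rfl

theorem algebraMap_Kv_eq (c : v.adicCompletion K) :
    algebraMap (v.adicCompletion K) (Em K v L m) c = proj K v L m (1 ⊗ₜ[K] c) := rfl

theorem proj_tmul (l : L) (c : v.adicCompletion K) :
    proj K v L m (l ⊗ₜ[K] c) =
      algebraMap L (Em K v L m) l * algebraMap (v.adicCompletion K) (Em K v L m) c := by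
  rw [algebraMap_L_eq, algebraMap_Kv_eq, ← map_mul, Algebra.TensorProduct.tmul_mul_tmul, mul_one,
    one_mul]

instance : FiniteDimensional (v.adicCompletion K) (Em K v L m) := by
  haveI := finite_tensor_right K (v.adicCompletion K) L
  exact Module.Finite.of_surjective
    (Ideal.Quotient.mkₐ (v.adicCompletion K) m).toLinearMap
    (Ideal.Quotient.mkₐ_surjective (v.adicCompletion K) m)

/-- `E_m` with the spectral norm over `K_v`. -/
noncomputable instance : NormedField (Em K v L m) :=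
  letI := SemilocalValued.nontriviallyNormedField K v
  haveI := SemilocalValued.properSpace K v
  (nontriviallyNormedFieldExt (v.adicCompletion K) (Em K v L m)).toNormedField

noncomputable instance : NormedAlgebra (v.adicCompletion K) (Em K v L m) :=
  letI := SemilocalValued.nontriviallyNormedField K v
  haveI := SemilocalValued.properSpace K v
  normedAlgebraExt (v.adicCompletion K) (Em K v L m)

/-- The prime of `𝓞 L` attached to the maximal ideal `m` of `L ⊗[K] K_v`. -/
noncomputable def placeOfMax : HeightOneSpectrum (𝓞 L) := placeOf K v L (Em K v L m)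

theorem placeOfMax_asIdeal : (placeOfMax K v L m).asIdeal = primeIdeal K v L (Em K v L m) := rfl

theorem mem_placeOfMax {x : 𝓞 L} :
    x ∈ (placeOfMax K v L m).asIdeal ↔ ‖proj K v L m ((x : L) ⊗ₜ[K] 1)‖ < 1 := Iff.rfl

/-- The prime attached to `m` lies over `v`. -/
theorem placeOfMax_under :
    (placeOfMax K v L m).asIdeal.comap (algebraMap (𝓞 K) (𝓞 L)) = v.asIdeal :=
  comap_primeIdeal K v L (Em K v L m)

end Max

section Bijection

variable (K : Type*) [Field K] [NumberField K] (v : HeightOneSpectrum (𝓞 K))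
variable (L : Type*) [Field L] [NumberField L] [Algebra K L]

/-- **Injectivity** of `m ↦ placeOfMax m`. -/
theorem placeOfMax_injective (m₁ m₂ : Ideal (L ⊗[K] v.adicCompletion K)) [h₁ : m₁.IsMaximal]
    [h₂ : m₂.IsMaximal] (h : placeOfMax K v L m₁ = placeOfMax K v L m₂) : m₁ = m₂ := by
  by_contra hne
  have hcop : m₁ ⊔ m₂ = ⊤ := Ideal.IsMaximal.coprime_of_ne h₁ h₂ hne
  obtain ⟨a, ha, b, hb, hab⟩ := Submodule.mem_sup.1 ((Ideal.eq_top_iff_one _).1 hcop)
  refine primeIdeal_ne_of_separated K v L (Em K v L m₁) (Em K v L m₂) (proj K v L m₁)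
    (proj K v L m₂) (proj_tmul K v L m₁) (proj_tmul K v L m₂) b ?_ ?_
    (congrArg HeightOneSpectrum.asIdeal h)
  · have hb' : b = 1 - a := by rw [← hab]; ring
    rw [hb', map_sub, map_one, (proj_eq_zero_iff K v L m₁ a).2 ha, sub_zero]
  · exact (proj_eq_zero_iff K v L m₂ b).2 hb

/-- The `K_v`-isomorphism `E_m ≃ E_{τ m}` induced by a ring automorphism `τ` of `L ⊗[K] K_v`
which is the identity on `1 ⊗ K_v`. -/
noncomputable def emEquiv (τ : (L ⊗[K] v.adicCompletion K) ≃+* (L ⊗[K] v.adicCompletion K))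
    (hτ : ∀ c : v.adicCompletion K, τ (1 ⊗ₜ[K] c) = 1 ⊗ₜ[K] c)
    (m m' : Ideal (L ⊗[K] v.adicCompletion K)) [m.IsMaximal] [m'.IsMaximal]
    (hm : m' = m.map (τ : (L ⊗[K] v.adicCompletion K) →+* (L ⊗[K] v.adicCompletion K))) :
    Em K v L m ≃ₐ[v.adicCompletion K] Em K v L m' :=
  AlgEquiv.ofRingEquiv (f := (Ideal.quotientEquiv m m' τ hm : Em K v L m ≃+* Em K v L m'))
    (fun c => by
      rw [algebraMap_Kv_eq, algebraMap_Kv_eq]
      change Ideal.quotientEquiv m m' τ hm (Ideal.Quotient.mk m (1 ⊗ₜ[K] c)) = _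
      rw [Ideal.quotientEquiv_mk, hτ]
      rfl)

theorem emEquiv_proj (τ : (L ⊗[K] v.adicCompletion K) ≃+* (L ⊗[K] v.adicCompletion K))
    (hτ : ∀ c : v.adicCompletion K, τ (1 ⊗ₜ[K] c) = 1 ⊗ₜ[K] c)
    (m m' : Ideal (L ⊗[K] v.adicCompletion K)) [m.IsMaximal] [m'.IsMaximal]
    (hm : m' = m.map (τ : (L ⊗[K] v.adicCompletion K) →+* (L ⊗[K] v.adicCompletion K)))
    (z : L ⊗[K] v.adicCompletion K) :
    emEquiv K v L τ hτ m m' hm (proj K v L m z) = proj K v L m' (τ z) := by
  change Ideal.quotientEquiv m m' τ hm (Ideal.Quotient.mk m z) = _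
  rw [Ideal.quotientEquiv_mk]
  rfl

/-- **Equivariance**, elementary form: if `τ` acts as `σ` on the left factor and `m' = τ m`,
then `x ∈ w(m') ↔ σ⁻¹ x ∈ w(m)`. -/
theorem mem_placeOfMax_map (σ : L ≃ₐ[K] L)
    (τ : (L ⊗[K] v.adicCompletion K) ≃+* (L ⊗[K] v.adicCompletion K))
    (hτ : ∀ (l : L) (c : v.adicCompletion K), τ (l ⊗ₜ[K] c) = σ l ⊗ₜ[K] c)
    (m m' : Ideal (L ⊗[K] v.adicCompletion K)) [m.IsMaximal] [m'.IsMaximal]
    (hm : m' = m.map (τ : (L ⊗[K] v.adicCompletion K) →+* (L ⊗[K] v.adicCompletion K)))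
    (x : 𝓞 L) :
    x ∈ (placeOfMax K v L m').asIdeal ↔ σ⁻¹ • x ∈ (placeOfMax K v L m).asIdeal := by
  have hτ1 : ∀ c : v.adicCompletion K, τ (1 ⊗ₜ[K] c) = 1 ⊗ₜ[K] c := fun c => by
    rw [hτ, map_one]
  have hφ : ∀ l : L, emEquiv K v L τ hτ1 m m' hm (algebraMap L (Em K v L m) l) =
      algebraMap L (Em K v L m') (σ l) := fun l => by
    rw [algebraMap_L_eq, algebraMap_L_eq, emEquiv_proj, hτ]
  rw [placeOfMax_asIdeal, placeOfMax_asIdeal,
    mem_primeIdeal_of_equiv K v L (Em K v L m) (Em K v L m') (emEquiv K v L τ hτ1 m m' hm) σ hφ x,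
    mem_primeIdeal]
  rfl

/-- The automorphism `σ ⊗ id` of `L ⊗[K] K_v` (the `tensorAct` of `Global/Objects.lean`). -/
noncomputable def tauOf (σ : L ≃ₐ[K] L) :
    (L ⊗[K] v.adicCompletion K) ≃+* (L ⊗[K] v.adicCompletion K) :=
  (Algebra.TensorProduct.congr σ
    (AlgEquiv.refl : v.adicCompletion K ≃ₐ[K] v.adicCompletion K)).toRingEquiv

theorem tauOf_tmul (σ : L ≃ₐ[K] L) (l : L) (c : v.adicCompletion K) :
    tauOf K v L σ (l ⊗ₜ[K] c) = σ l ⊗ₜ[K] c := rfl

/-- The image `σ m` of a maximal ideal. -/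
noncomputable def mapMax (σ : L ≃ₐ[K] L) (m : Ideal (L ⊗[K] v.adicCompletion K)) :
    Ideal (L ⊗[K] v.adicCompletion K) :=
  m.map (tauOf K v L σ : (L ⊗[K] v.adicCompletion K) →+* (L ⊗[K] v.adicCompletion K))

instance mapMax_isMaximal (σ : L ≃ₐ[K] L) (m : Ideal (L ⊗[K] v.adicCompletion K))
    [hm : m.IsMaximal] : (mapMax K v L σ m).IsMaximal :=
  Ideal.map_isMaximal_of_equiv (tauOf K v L σ)

/-- **Equivariance**: `w(σ m) = σ w(m)`, elementary form. -/
theorem mem_placeOfMax_mapMax (σ : L ≃ₐ[K] L) (m : Ideal (L ⊗[K] v.adicCompletion K))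
    [m.IsMaximal] (x : 𝓞 L) :
    x ∈ (placeOfMax K v L (mapMax K v L σ m)).asIdeal ↔
      σ⁻¹ • x ∈ (placeOfMax K v L m).asIdeal :=
  mem_placeOfMax_map K v L σ (tauOf K v L σ) (tauOf_tmul K v L σ) m (mapMax K v L σ m) rfl x

open scoped Pointwise in
/-- **Equivariance**: `w(σ m) = σ • w(m)` for the pointwise action of `Gal(L/K)` on ideals of
`𝓞 L`. -/
theorem placeOfMax_mapMax_asIdeal (σ : L ≃ₐ[K] L) (m : Ideal (L ⊗[K] v.adicCompletion K))
    [m.IsMaximal] :
    (placeOfMax K v L (mapMax K v L σ m)).asIdeal = σ • (placeOfMax K v L m).asIdeal := by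
  ext x
  rw [mem_placeOfMax_mapMax, Ideal.mem_pointwise_smul_iff_inv_smul_mem]

open scoped Pointwise in
/-- **Stabilisers**: `σ` fixes the maximal ideal `m` iff it fixes the prime `w(m)`, i.e. the
stabiliser of `m` is the decomposition group of `w(m)`. -/
theorem mapMax_eq_iff (σ : L ≃ₐ[K] L) (m : Ideal (L ⊗[K] v.adicCompletion K)) [m.IsMaximal] :
    mapMax K v L σ m = m ↔ σ • (placeOfMax K v L m).asIdeal = (placeOfMax K v L m).asIdeal := by
  rw [← placeOfMax_mapMax_asIdeal]
  constructor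
  · intro h
    have : placeOfMax K v L (mapMax K v L σ m) = placeOfMax K v L m := by
      congr 1
    rw [this]
  · intro h
    exact placeOfMax_injective K v L _ _ (HeightOneSpectrum.ext h)

open scoped Pointwise in
/-- **Surjectivity** for Galois `L/K`: every prime of `𝓞 L` above `v` is `w(m)`. -/
theorem exists_placeOfMax_eq [IsGalois K L] (w : HeightOneSpectrum (𝓞 L))
    (hw : w.asIdeal.under (𝓞 K) = v.asIdeal) :
    ∃ (m : Ideal (L ⊗[K] v.adicCompletion K)) (_ : m.IsMaximal), placeOfMax K v L m = w := by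
  obtain ⟨m₀, hm₀⟩ := Ideal.exists_maximal (L ⊗[K] v.adicCompletion K)
  have h0 : (placeOfMax K v L m₀).asIdeal.LiesOver v.asIdeal :=
    ⟨(placeOfMax_under K v L m₀).symm⟩
  have h1 : w.asIdeal.LiesOver v.asIdeal := ⟨hw.symm⟩
  obtain ⟨σ, hσ⟩ := Ideal.exists_smul_eq_of_isGaloisGroup v.asIdeal
    (placeOfMax K v L m₀).asIdeal w.asIdeal (L ≃ₐ[K] L)
  refine ⟨mapMax K v L σ m₀, inferInstance, ?_⟩
  apply HeightOneSpectrum.ext
  rw [placeOfMax_mapMax_asIdeal, hσ]

/-- **The bijection** `MaxSpec (L ⊗[K] K_v) ≃ {primes of 𝓞 L above v}` for Galois `L/K`. -/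
noncomputable def maxEquiv [IsGalois K L] :
    {m : Ideal (L ⊗[K] v.adicCompletion K) // m.IsMaximal} ≃
      {w : HeightOneSpectrum (𝓞 L) // w.asIdeal.under (𝓞 K) = v.asIdeal} :=
  Equiv.ofBijective
    (fun m => ⟨@placeOfMax K _ _ v L _ _ _ m.1 m.2, @placeOfMax_under K _ _ v L _ _ _ m.1 m.2⟩)
    ⟨fun m₁ m₂ h => Subtype.ext
        (@placeOfMax_injective K _ _ v L _ _ _ m₁.1 m₂.1 m₁.2 m₂.2 (congrArg Subtype.val h)),
      fun w => by
        obtain ⟨m, hm, hmw⟩ := exists_placeOfMax_eq K v L w.1 w.2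
        exact ⟨⟨m, hm⟩, Subtype.ext hmw⟩⟩

theorem maxEquiv_apply [IsGalois K L] (m : Ideal (L ⊗[K] v.adicCompletion K)) [hm : m.IsMaximal] :
    (maxEquiv K v L ⟨m, hm⟩).1 = placeOfMax K v L m := rfl

theorem card_maximal [IsGalois K L] :
    Nat.card {m : Ideal (L ⊗[K] v.adicCompletion K) // m.IsMaximal} =
      {w : HeightOneSpectrum (𝓞 L) | w.asIdeal.under (𝓞 K) = v.asIdeal}.ncard := by
  rw [Nat.card_congr (maxEquiv K v L)]
  exact Nat.card_coe_set_eq _

/-- One prime above `v` ⇒ `L ⊗[K] K_v` is a field (no Galois hypothesis). -/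
theorem isField_of_subsingleton
    (h : ∀ w w' : HeightOneSpectrum (𝓞 L), w.asIdeal.under (𝓞 K) = v.asIdeal →
      w'.asIdeal.under (𝓞 K) = v.asIdeal → w = w') :
    IsField (L ⊗[K] v.adicCompletion K) := by
  haveI := SemilocalTensor.isArtinianRing_tensor K L (v.adicCompletion K)
  haveI := SemilocalTensor.isReduced_tensor K L (v.adicCompletion K)
  haveI : IsLocalRing (L ⊗[K] v.adicCompletion K) := by
    obtain ⟨m₀, hm₀⟩ := Ideal.exists_maximal (L ⊗[K] v.adicCompletion K)
    refine IsLocalRing.of_unique_max_ideal ⟨m₀, hm₀, fun m hm => ?_⟩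
    exact placeOfMax_injective K v L m m₀
      (h _ _ (placeOfMax_under K v L m) (placeOfMax_under K v L m₀))
  exact IsArtinianRing.isField_of_isReduced_of_isLocalRing _

/-- **`L ⊗[K] K_v` is a field iff there is exactly one prime of `L` above `v`** (`L/K` Galois). -/
theorem isField_iff [IsGalois K L] :
    IsField (L ⊗[K] v.adicCompletion K) ↔
      ∃! w : HeightOneSpectrum (𝓞 L), w.asIdeal.under (𝓞 K) = v.asIdeal := by
  constructor
  · intro hF
    letI := hF.toField
    have hbot : ∀ m : Ideal (L ⊗[K] v.adicCompletion K), m.IsMaximal → m = ⊥ := fun m hm =>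
      (Ideal.eq_bot_or_top m).resolve_right hm.ne_top
    obtain ⟨m₀, hm₀⟩ := Ideal.exists_maximal (L ⊗[K] v.adicCompletion K)
    refine ⟨placeOfMax K v L m₀, placeOfMax_under K v L m₀, fun w hw => ?_⟩
    obtain ⟨m, hm, rfl⟩ := exists_placeOfMax_eq K v L w hw
    have : m = m₀ := (hbot m hm).trans (hbot m₀ hm₀).symm
    subst this
    rfl
  · rintro ⟨w₀, -, huniq⟩
    exact isField_of_subsingleton K v L fun w w' hw hw' => (huniq w hw).trans (huniq w' hw').symm

end Bijection

end Fermat.Agent.S55.Global.SemilocalPrimes
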