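import Mathlib
import Fermat.Agent.S55.Global.Objects
import Fermat.Agent.S55.Global.SemilocalPrimesTensor

/-!
# S55 / Global / G.semilocal.primes — Galois layer

`L/K` Galois number fields, `v` a finite place of `K`, `B = L ⊗[K] K_v` with the action of
`Gal(L/K)` of `Global/Objects.lean` (left factor).  For a maximal ideal `m` of `B` and
`w(m) = SemilocalPrimes.placeOfMax K v L m`:

* `placeOfMax_smul` : `w(σ • m) = σ • w(m)`;
* `stabilizer_eq` : the stabiliser of `m` is the decomposition group of `w(m)`;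
* `finrank_quotient` : `[B ⧸ m : K_v] = e · f`.
-/

set_option autoImplicit false
set_option linter.unusedSectionVars false
set_option linter.style.haveILetI false

namespace Fermat.Agent.S55.Global.SemilocalPrimesGal

open IsDedekindDomain NumberField IsDedekindDomain.HeightOneSpectrum
open Fermat.Agent.S55.Global.SemilocalPrimes Fermat.Agent.S55.Global.Objects

open scoped TensorProduct Pointwise

attribute [local instance] Algebra.TensorProduct.rightAlgebra

variable (K : Type) [Field K] [NumberField K] (v : HeightOneSpectrum (𝓞 K))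
variable (L : Type) [Field L] [NumberField L] [Algebra K L]

theorem smul_eq_mapMax (σ : L ≃ₐ[K] L) (m : Ideal (L ⊗[K] v.adicCompletion K)) :
    σ • m = mapMax K v L σ m := by
  rw [Ideal.pointwise_smul_def]
  rfl

instance smul_isMaximal (σ : L ≃ₐ[K] L) (m : Ideal (L ⊗[K] v.adicCompletion K))
    [hm : m.IsMaximal] : (σ • m).IsMaximal := by
  rw [smul_eq_mapMax]
  infer_instance

/-- `w(σ • m) = σ • w(m)`. -/
theorem placeOfMax_smul (σ : L ≃ₐ[K] L) (m : Ideal (L ⊗[K] v.adicCompletion K)) [m.IsMaximal] :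
    (placeOfMax K v L (σ • m)).asIdeal = σ • (placeOfMax K v L m).asIdeal := by
  have h : placeOfMax K v L (σ • m) = placeOfMax K v L (mapMax K v L σ m) := by
    congr 1
  rw [h, placeOfMax_mapMax_asIdeal]

/-- **The stabiliser of `m` is the decomposition group of `w(m)`.** -/
theorem stabilizer_eq (m : Ideal (L ⊗[K] v.adicCompletion K)) [m.IsMaximal] :
    MulAction.stabilizer (L ≃ₐ[K] L) m =
      MulAction.stabilizer (L ≃ₐ[K] L) (placeOfMax K v L m).asIdeal := by
  ext σ
  rw [MulAction.mem_stabilizer_iff, MulAction.mem_stabilizer_iff, smul_eq_mapMax, mapMax_eq_iff]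

/-- **Local degree**: `[ (L ⊗[K] K_v) ⧸ m : K_v ] = e · f`. -/
theorem finrank_quotient [IsGalois K L] (m : Ideal (L ⊗[K] v.adicCompletion K)) [m.IsMaximal] :
    Module.finrank (v.adicCompletion K) ((L ⊗[K] v.adicCompletion K) ⧸ m) =
      v.asIdeal.ramificationIdxIn (𝓞 L) * v.asIdeal.inertiaDegIn (𝓞 L) := by
  have hact : ∀ (g : L ≃ₐ[K] L) (l : L) (f : v.adicCompletion K),
      g • (l ⊗ₜ[K] f : L ⊗[K] v.adicCompletion K) = (g • l) ⊗ₜ[K] f := fun g l f => rfl
  rw [← SemilocalTensor.card_stab hact m, stabilizer_eq]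
  haveI : (placeOfMax K v L m).asIdeal.LiesOver v.asIdeal :=
    ⟨(placeOfMax_under K v L m).symm⟩
  exact Ideal.card_stabilizer_eq (G := L ≃ₐ[K] L) v.asIdeal (placeOfMax K v L m).asIdeal

end Fermat.Agent.S55.Global.SemilocalPrimesGal
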