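/-
S55 / GLOBAL block — row `G.semilocal.subCoind` (helper56).  Abstract, on top of helper1's
`Global/SemilocalCoh.lean`.

* `mem_coboundaries₂_of_range` / `mem_coboundaries₁_of_range` : if `Ψ : A ⟶ B` is an injective
  morphism of `G`-representations and `H²(G, A) = 0` (resp. `H¹`), then every 2-cocycle
  (resp. 1-cocycle) of `B` with values in the range of `Ψ` is a coboundary.
* Semilocal setting `IsSemilocal D π` (`Bˣ = Coind_D^G Eˣ`), `V : Rep ℤ D` with an injective
  `ι : V ⟶ Eˣ` (think: the unit group of a local field) and `H²(D, V) = 0`: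
  `mem_coboundaries₂_of_components` : a 2-cocycle `f : G × G → Bˣ` all of whose components
  `π (x • f (g, h))` lie in the range of `ι` is a coboundary; `H2π_eq_zero_of_components` is the
  class form.  (Route: `Coind_D^G V ⟶ Coind_D^G Eˣ ≅ Bˣ` is injective and Shapiro gives
  `H²(G, Coind V) ≅ H²(D, V) = 0`.)

Consumer: "unit-valued classes are locally trivial at unramified places" (glue file
`Global/UnitClassUnram.lean`).
-/
import Fermat.Agent.S55.Global.SemilocalCoh

set_option autoImplicit false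
set_option linter.unusedSectionVars false

namespace Fermat.Agent.S55.Global.SemilocalSub

open CategoryTheory CategoryTheory.Limits groupCohomology
open Fermat.Agent.S55.Global.SemilocalCoh

section General

variable {k G : Type} [CommRing k] [Group G] {A B : Rep k G}

theorem rep_inv_hom_apply (e : A ≅ B) (a : A) : e.inv.hom (e.hom.hom a) = a := by
  have := congrArg (fun φ => φ.hom a) e.hom_inv_id
  exact this

theorem rep_hom_inv_apply (e : A ≅ B) (b : B) : e.hom.hom (e.inv.hom b) = b := by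
  have := congrArg (fun φ => φ.hom b) e.inv_hom_id
  exact this

/-- If `Ψ : A ⟶ B` is injective and `H²(G, A) = 0`, every 2-cocycle of `B` with values in the
range of `Ψ` is a coboundary. -/
theorem mem_coboundaries₂_of_range (Ψ : A ⟶ B) (hinj : Function.Injective Ψ.hom)
    (hA : IsZero (groupCohomology A 2)) (f : G × G → B) (hf : f ∈ cocycles₂ B)
    (hval : ∀ g h : G, f (g, h) ∈ Set.range Ψ.hom) : f ∈ coboundaries₂ B := by
  choose f' hf' using hval
  set F : G × G → A := fun p => f' p.1 p.2 with hF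
  have hFf : ∀ g h, Ψ.hom (F (g, h)) = f (g, h) := fun g h => hf' g h
  have hc := (mem_cocycles₂_iff f).1 hf
  have hFc : F ∈ cocycles₂ A := by
    rw [mem_cocycles₂_iff]
    intro g h j
    apply hinj
    rw [map_add, map_add, hFf, hFf, hFf, Rep.hom_comm_apply, hFf]
    exact hc g h j
  have hsub := ModuleCat.subsingleton_of_isZero hA
  have h0 : H2π A ⟨F, hFc⟩ = 0 := Subsingleton.elim _ _
  rw [H2π_eq_zero_iff] at h0
  obtain ⟨x, hx⟩ := h0
  refine ⟨fun g => Ψ.hom (x g), ?_⟩
  funext ⟨g, h⟩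
  rw [d₁₂_hom_apply]
  have := congr_fun hx (g, h)
  rw [d₁₂_hom_apply] at this
  dsimp only at this ⊢
  have this' : (A.ρ g) (x h) - x (g * h) + x g = F (g, h) := this
  rw [← hFf, ← this', map_add, map_sub, Rep.hom_comm_apply]

/-- If `Ψ : A ⟶ B` is injective and `H¹(G, A) = 0`, every 1-cocycle of `B` with values in the
range of `Ψ` is a coboundary. -/
theorem mem_coboundaries₁_of_range (Ψ : A ⟶ B) (hinj : Function.Injective Ψ.hom)
    (hA : IsZero (groupCohomology A 1)) (f : G → B) (hf : f ∈ cocycles₁ B)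
    (hval : ∀ g : G, f g ∈ Set.range Ψ.hom) : f ∈ coboundaries₁ B := by
  choose F hFf using hval
  have hc := (mem_cocycles₁_iff f).1 hf
  have hFc : F ∈ cocycles₁ A := by
    rw [mem_cocycles₁_iff]
    intro g h
    apply hinj
    rw [map_add, hFf, hFf, Rep.hom_comm_apply, hFf]
    exact hc g h
  have hsub := ModuleCat.subsingleton_of_isZero hA
  have h0 : H1π A ⟨F, hFc⟩ = 0 := Subsingleton.elim _ _
  rw [H1π_eq_zero_iff] at h0
  obtain ⟨x, hx⟩ := h0
  refine ⟨Ψ.hom x, ?_⟩
  funext g
  rw [d₀₁_hom_apply]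
  have := congr_fun hx g
  rw [d₀₁_hom_apply] at this
  have this' : (A.ρ g) x - x = F g := this
  rw [← hFf, ← this', map_sub, Rep.hom_comm_apply]

end General

section Semilocal

variable {G : Type} [Group G] {B : Type} [CommRing B] [MulSemiringAction G B]
  {D : Subgroup G} {E : Type} [CommRing E] [MulSemiringAction D E] {π : B →+* E}
  [MulDistribMulAction G Bˣ] [MulDistribMulAction D Eˣ]

/-- The composite `Coind_D^G V ⟶ Coind_D^G Eˣ ≅ Bˣ`. -/
noncomputable def coindToUnits (h : IsSemilocal D π)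
    (hB : ∀ (g : G) (u : Bˣ), ((g • u : Bˣ) : B) = g • (u : B))
    (hE : ∀ (d : D) (e : Eˣ), ((d • e : Eˣ) : E) = d • (e : E))
    {V : Rep ℤ D} (ι : V ⟶ Rep.ofMulDistribMulAction D Eˣ) :
    Rep.coind D.subtype V ⟶ Rep.ofMulDistribMulAction G Bˣ :=
  Rep.coindMap D.subtype ι ≫ (unitsIso h hB hE).inv

theorem unitsIso_hom_apply (h : IsSemilocal D π)
    (hB : ∀ (g : G) (u : Bˣ), ((g • u : Bˣ) : B) = g • (u : B))
    (hE : ∀ (d : D) (e : Eˣ), ((d • e : Eˣ) : E) = d • (e : E))
    (a : Additive Bˣ) (g : G) :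
    ((unitsIso h hB hE).hom.hom a).1 g =
      Additive.ofMul (Units.map (π : B →* E) (g • Additive.toMul a)) := rfl

theorem coindToUnits_injective (h : IsSemilocal D π)
    (hB : ∀ (g : G) (u : Bˣ), ((g • u : Bˣ) : B) = g • (u : B))
    (hE : ∀ (d : D) (e : Eˣ), ((d • e : Eˣ) : E) = d • (e : E))
    {V : Rep ℤ D} (ι : V ⟶ Rep.ofMulDistribMulAction D Eˣ) (hι : Function.Injective ι.hom) :
    Function.Injective (coindToUnits h hB hE ι).hom := by
  intro c c' hcc
  have h1 : (Rep.coindMap D.subtype ι).hom c = (Rep.coindMap D.subtype ι).hom c' := by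
    have := congrArg (unitsIso h hB hE).hom.hom hcc
    have e1 : ∀ y, (coindToUnits h hB hE ι).hom y =
        (unitsIso h hB hE).inv.hom ((Rep.coindMap D.subtype ι).hom y) := fun y => rfl
    rwa [e1, e1, rep_hom_inv_apply, rep_hom_inv_apply] at this
  apply Subtype.ext
  funext x
  apply hι
  exact congrArg (fun t => t.1 x) h1

/-- An element of `Bˣ` all of whose components lie in the range of `ι` comes from
`Coind_D^G V`. -/
theorem mem_range_coindToUnits (h : IsSemilocal D π)
    (hB : ∀ (g : G) (u : Bˣ), ((g • u : Bˣ) : B) = g • (u : B))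
    (hE : ∀ (d : D) (e : Eˣ), ((d • e : Eˣ) : E) = d • (e : E))
    {V : Rep ℤ D} (ι : V ⟶ Rep.ofMulDistribMulAction D Eˣ) (hι : Function.Injective ι.hom)
    (a : Additive Bˣ)
    (ha : ∀ x : G, Additive.ofMul (Units.map (π : B →* E) (x • Additive.toMul a)) ∈
      Set.range ι.hom) :
    a ∈ Set.range (coindToUnits h hB hE ι).hom := by
  choose c hc using ha
  have hcoind : ∀ (d : D) (x : G), c (D.subtype d * x) = V.ρ d (c x) := by
    intro d x
    apply hι
    rw [hc, Rep.hom_comm_apply, hc]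
    have := ((unitsIso h hB hE).hom.hom a).2 d x
    exact this
  let C : Rep.coind D.subtype V := ⟨c, hcoind⟩
  refine ⟨C, ?_⟩
  have h2 : (Rep.coindMap D.subtype ι).hom C = (unitsIso h hB hE).hom.hom a := by
    apply Subtype.ext
    funext x
    exact hc x
  show (unitsIso h hB hE).inv.hom ((Rep.coindMap D.subtype ι).hom C) = a
  rw [h2]
  exact rep_inv_hom_apply (unitsIso h hB hE) a

/-- **Unit-valued 2-cocycles of a semilocal algebra.**  If `H²(D, V) = 0`, a 2-cocycle of `Bˣ` all
of whose components lie in (the image of) `V` is a coboundary. -/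
theorem mem_coboundaries₂_of_components (h : IsSemilocal D π)
    (hB : ∀ (g : G) (u : Bˣ), ((g • u : Bˣ) : B) = g • (u : B))
    (hE : ∀ (d : D) (e : Eˣ), ((d • e : Eˣ) : E) = d • (e : E))
    {V : Rep ℤ D} (ι : V ⟶ Rep.ofMulDistribMulAction D Eˣ) (hι : Function.Injective ι.hom)
    (hV : IsZero (groupCohomology V 2))
    (f : G × G → Additive Bˣ) (hf : f ∈ cocycles₂ (Rep.ofMulDistribMulAction G Bˣ))
    (hval : ∀ g h x : G,
      Additive.ofMul (Units.map (π : B →* E) (x • Additive.toMul (f (g, h)))) ∈ Set.range ι.hom) :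
    f ∈ coboundaries₂ (Rep.ofMulDistribMulAction G Bˣ) :=
  mem_coboundaries₂_of_range (coindToUnits h hB hE ι) (coindToUnits_injective h hB hE ι hι)
    (hV.of_iso (groupCohomology.coindIso V 2)) f hf
    (fun g h' => mem_range_coindToUnits h hB hE ι hι (f (g, h')) (hval g h'))

/-- Class form of `mem_coboundaries₂_of_components`. -/
theorem H2π_eq_zero_of_components (h : IsSemilocal D π)
    (hB : ∀ (g : G) (u : Bˣ), ((g • u : Bˣ) : B) = g • (u : B))
    (hE : ∀ (d : D) (e : Eˣ), ((d • e : Eˣ) : E) = d • (e : E))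
    {V : Rep ℤ D} (ι : V ⟶ Rep.ofMulDistribMulAction D Eˣ) (hι : Function.Injective ι.hom)
    (hV : IsZero (groupCohomology V 2))
    (f : cocycles₂ (Rep.ofMulDistribMulAction G Bˣ))
    (hval : ∀ g h x : G,
      Additive.ofMul (Units.map (π : B →* E) (x • (Additive.toMul (f (g, h)) : Bˣ))) ∈
        Set.range ι.hom) :
    H2π (Rep.ofMulDistribMulAction G Bˣ) f = 0 := by
  rw [H2π_eq_zero_iff]
  exact mem_coboundaries₂_of_components h hB hE ι hι hV f f.2 hval

/-- Degree-one analogue. -/
theorem mem_coboundaries₁_of_components (h : IsSemilocal D π)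
    (hB : ∀ (g : G) (u : Bˣ), ((g • u : Bˣ) : B) = g • (u : B))
    (hE : ∀ (d : D) (e : Eˣ), ((d • e : Eˣ) : E) = d • (e : E))
    {V : Rep ℤ D} (ι : V ⟶ Rep.ofMulDistribMulAction D Eˣ) (hι : Function.Injective ι.hom)
    (hV : IsZero (groupCohomology V 1))
    (f : G → Additive Bˣ) (hf : f ∈ cocycles₁ (Rep.ofMulDistribMulAction G Bˣ))
    (hval : ∀ g x : G,
      Additive.ofMul (Units.map (π : B →* E) (x • Additive.toMul (f g))) ∈ Set.range ι.hom) :
    f ∈ coboundaries₁ (Rep.ofMulDistribMulAction G Bˣ) :=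
  mem_coboundaries₁_of_range (coindToUnits h hB hE ι) (coindToUnits_injective h hB hE ι hι)
    (hV.of_iso (groupCohomology.coindIso V 1)) f hf
    (fun g => mem_range_coindToUnits h hB hE ι hι (f g) (hval g))

end Semilocal

end Fermat.Agent.S55.Global.SemilocalSub
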