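/-
S55 / GLOBAL block — abstract semilocal form of row (U3) (helper26), on top of helper1's
`Global/SemilocalCoh.lean`, helper56's `Global/SemilocalSub.lean` and helper25's abstract
`bijective_map_g_of_isZero` (`Local/UnramOrdCoh.lean`).

Setting `IsSemilocal D π` (`Bˣ ≅ Coind_D^G Eˣ`).  Given a short exact sequence of `D`-modules
`0 → V --ι--> Eˣ --o--> W → 0` (think: `V` = local units, `o` = valuation, `W = ℤ`):

* `valB h hB hE o : Bˣ ⟶ Coind_D^G W`, `(valB a) g = o (π (g • a))`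
  ("the valuation of `a` at the place `g⁻¹ 𝔐`");
* `valSC`, `valSC_shortExact` : `0 → Coind_D^G V → Bˣ → Coind_D^G W → 0` is short exact;
* `bijective_valB_map` : if `Hⁿ(D, V) = 0 = Hⁿ⁺¹(D, V)` then
  `Hⁿ(G, Bˣ) → Hⁿ(G, Coind_D^G W)` is bijective; `injective_valB_map`, `surjective_valB_map`;
* `eq_zero_of_valB_map_eq_zero` : class form of the injectivity in degree `2`.
-/
import Fermat.Agent.S55.Global.SemilocalSub
import Fermat.Agent.S55.Local.UnramOrdCoh

set_option autoImplicit false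
set_option linter.unusedSectionVars false

namespace Fermat.Agent.S55.Global.SemilocalVal

open CategoryTheory CategoryTheory.Limits groupCohomology
open Fermat.Agent.S55.Global.SemilocalCoh Fermat.Agent.S55.Global.SemilocalSub

variable {G : Type} [Group G] {B : Type} [CommRing B] [MulSemiringAction G B]
  {D : Subgroup G} {E : Type} [CommRing E] [MulSemiringAction D E] {π : B →+* E}
  [MulDistribMulAction G Bˣ] [MulDistribMulAction D Eˣ]

/-- The semilocal "valuation" `Bˣ ⟶ Coind_D^G W` induced by `o : Eˣ ⟶ W`. -/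
noncomputable def valB (h : IsSemilocal D π)
    (hB : ∀ (g : G) (u : Bˣ), ((g • u : Bˣ) : B) = g • (u : B))
    (hE : ∀ (d : D) (e : Eˣ), ((d • e : Eˣ) : E) = d • (e : E))
    {W : Rep ℤ D} (o : Rep.ofMulDistribMulAction D Eˣ ⟶ W) :
    Rep.ofMulDistribMulAction G Bˣ ⟶ Rep.coind D.subtype W :=
  (unitsIso h hB hE).hom ≫ Rep.coindMap D.subtype o

theorem valB_apply (h : IsSemilocal D π)
    (hB : ∀ (g : G) (u : Bˣ), ((g • u : Bˣ) : B) = g • (u : B))
    (hE : ∀ (d : D) (e : Eˣ), ((d • e : Eˣ) : E) = d • (e : E))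
    {W : Rep ℤ D} (o : Rep.ofMulDistribMulAction D Eˣ ⟶ W) (a : Additive Bˣ) (g : G) :
    ((valB h hB hE o).hom a).1 g =
      o.hom (Additive.ofMul (Units.map (π : B →* E) (g • Additive.toMul a)) : Additive Eˣ) :=
  rfl

theorem valB_surjective (h : IsSemilocal D π)
    (hB : ∀ (g : G) (u : Bˣ), ((g • u : Bˣ) : B) = g • (u : B))
    (hE : ∀ (d : D) (e : Eˣ), ((d • e : Eˣ) : E) = d • (e : E))
    {W : Rep ℤ D} (o : Rep.ofMulDistribMulAction D Eˣ ⟶ W) (ho : Function.Surjective o.hom) :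
    Function.Surjective (valB h hB hE o).hom := by
  have hepi : Epi o := (Rep.epi_iff_surjective o).2 ho
  have hepi' : Epi ((Rep.coindFunctor ℤ D.subtype).map o) := inferInstance
  have hs : Function.Surjective (Rep.coindMap D.subtype o).hom :=
    (Rep.epi_iff_surjective _).1 hepi'
  intro y
  obtain ⟨x, hx⟩ := hs y
  refine ⟨(unitsIso h hB hE).inv.hom x, ?_⟩
  change (Rep.coindMap D.subtype o).hom ((unitsIso h hB hE).hom.hom ((unitsIso h hB hE).inv.hom x))
    = y
  rw [rep_hom_inv_apply]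
  exact hx

/-- The semilocal short complex `Coind_D^G V → Bˣ → Coind_D^G W`. -/
noncomputable def valSC (h : IsSemilocal D π)
    (hB : ∀ (g : G) (u : Bˣ), ((g • u : Bˣ) : B) = g • (u : B))
    (hE : ∀ (d : D) (e : Eˣ), ((d • e : Eˣ) : E) = d • (e : E))
    {V W : Rep ℤ D} (ι : V ⟶ Rep.ofMulDistribMulAction D Eˣ)
    (o : Rep.ofMulDistribMulAction D Eˣ ⟶ W) (w : ∀ v : V, o.hom (ι.hom v) = 0) :
    ShortComplex (Rep ℤ G) :=
  ShortComplex.mk (coindToUnits h hB hE ι) (valB h hB hE o) (by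
    apply Rep.hom_ext
    refine DFunLike.ext _ _ fun c => ?_
    apply Subtype.ext
    funext g
    change (((Rep.coindMap D.subtype o).hom ((unitsIso h hB hE).hom.hom
      ((unitsIso h hB hE).inv.hom ((Rep.coindMap D.subtype ι).hom c)))).1 g) = 0
    rw [rep_hom_inv_apply]
    exact w (c.1 g))

/-- `0 → Coind_D^G V → Bˣ → Coind_D^G W → 0` is short exact as soon as `0 → V → Eˣ → W → 0` is
(elementwise form). -/
theorem valSC_shortExact (h : IsSemilocal D π)
    (hB : ∀ (g : G) (u : Bˣ), ((g • u : Bˣ) : B) = g • (u : B))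
    (hE : ∀ (d : D) (e : Eˣ), ((d • e : Eˣ) : E) = d • (e : E))
    {V W : Rep ℤ D} (ι : V ⟶ Rep.ofMulDistribMulAction D Eˣ)
    (o : Rep.ofMulDistribMulAction D Eˣ ⟶ W) (w : ∀ v : V, o.hom (ι.hom v) = 0)
    (hι : Function.Injective ι.hom) (ho : Function.Surjective o.hom)
    (hex : ∀ x : Additive Eˣ, o.hom x = 0 → ∃ v : V, ι.hom v = x) :
    (valSC h hB hE ι o w).ShortExact := by
  refine Fermat.Agent.S55.Tate.SplittingAug.shortExact_of_elementwise (valSC h hB hE ι o w)
    (coindToUnits_injective h hB hE ι hι) (valB_surjective h hB hE o ho) ?_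
  intro a ha
  refine mem_range_coindToUnits h hB hE ι hι a ?_
  intro x
  have hx : ((valB h hB hE o).hom a).1 x = 0 := by
    have := congrArg (fun t : Rep.coind D.subtype W => t.1 x) ha
    exact this
  rw [valB_apply] at hx
  obtain ⟨v, hv⟩ := hex _ hx
  exact ⟨v, hv⟩

section Coh

variable (h : IsSemilocal D π)
  (hB : ∀ (g : G) (u : Bˣ), ((g • u : Bˣ) : B) = g • (u : B))
  (hE : ∀ (d : D) (e : Eˣ), ((d • e : Eˣ) : E) = d • (e : E))
  {V W : Rep ℤ D} (ι : V ⟶ Rep.ofMulDistribMulAction D Eˣ)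
  (o : Rep.ofMulDistribMulAction D Eˣ ⟶ W) (w : ∀ v : V, o.hom (ι.hom v) = 0)
  (hι : Function.Injective ι.hom) (ho : Function.Surjective o.hom)
  (hex : ∀ x : Additive Eˣ, o.hom x = 0 → ∃ v : V, ι.hom v = x)

include w hι ho hex

/-- If `Hⁿ(D, V) = 0` then `Hⁿ(G, Bˣ) → Hⁿ(G, Coind_D^G W)` is injective. -/
theorem injective_valB_map (n : ℕ) (h1 : IsZero (groupCohomology V n)) :
    Function.Injective (groupCohomology.map (A := Rep.ofMulDistribMulAction G Bˣ)
      (B := Rep.coind D.subtype W) (MonoidHom.id G) (valB h hB hE o) n) :=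
  Fermat.Agent.S55.Local.UnramOrdCoh.injective_map_g_of_isZero
    (valSC_shortExact h hB hE ι o w hι ho hex) n (h1.of_iso (groupCohomology.coindIso V n))

/-- If `Hⁿ⁺¹(D, V) = 0` then `Hⁿ(G, Bˣ) → Hⁿ(G, Coind_D^G W)` is surjective. -/
theorem surjective_valB_map (n : ℕ) (h2 : IsZero (groupCohomology V (n + 1))) :
    Function.Surjective (groupCohomology.map (A := Rep.ofMulDistribMulAction G Bˣ)
      (B := Rep.coind D.subtype W) (MonoidHom.id G) (valB h hB hE o) n) :=
  Fermat.Agent.S55.Local.UnramOrdCoh.surjective_map_g_of_isZero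
    (valSC_shortExact h hB hE ι o w hι ho hex) n
    (h2.of_iso (groupCohomology.coindIso V (n + 1)))

/-- **Abstract semilocal (U3)**: if `Hⁿ(D, V) = 0 = Hⁿ⁺¹(D, V)` then
`Hⁿ(G, Bˣ) → Hⁿ(G, Coind_D^G W)` is bijective. -/
theorem bijective_valB_map (n : ℕ) (h1 : IsZero (groupCohomology V n))
    (h2 : IsZero (groupCohomology V (n + 1))) :
    Function.Bijective (groupCohomology.map (A := Rep.ofMulDistribMulAction G Bˣ)
      (B := Rep.coind D.subtype W) (MonoidHom.id G) (valB h hB hE o) n) :=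
  ⟨injective_valB_map h hB hE ι o w hι ho hex n h1,
    surjective_valB_map h hB hE ι o w hι ho hex n h2⟩

/-- Class form (degree `2`): a class of `H²(G, Bˣ)` whose semilocal valuation vanishes is zero. -/
theorem eq_zero_of_valB_map_eq_zero (h1 : IsZero (groupCohomology V 2))
    (z : groupCohomology (Rep.ofMulDistribMulAction G Bˣ) 2)
    (hz : groupCohomology.map (A := Rep.ofMulDistribMulAction G Bˣ)
      (B := Rep.coind D.subtype W) (MonoidHom.id G) (valB h hB hE o) 2 z = 0) : z = 0 := by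
  apply injective_valB_map h hB hE ι o w hι ho hex 2 h1
  rw [hz, map_zero]

end Coh

end Fermat.Agent.S55.Global.SemilocalVal
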