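/-
S55 / GLOBAL block — DESCENT IN TOWER FORM, with explicit maps (owner: helper78; built on helper38's
`DescentUnits` / `DescentTensorQ` / `Descent`).

Tower `K ⊆ L ⊆ M` of number fields, `L/K` and `M/K` Galois, `T` admissible for `M/K`,
`N := ker (Gal(M/K) → Gal(L/K)) = Gal(M/L)`.  Then the transition map
`transCn K L M T : C_{L,T} → C_{M,T}` is injective with image the `N`-invariants, i.e.

  `(Gal(M/K) ⧸ N, (C_{M,T})^N) ≅ (Gal(L/K), C_{L,T})`   (`towerPair`, a `PairEquiv`)

and the inverse of its linear part is `transCn` (`towerPair_symm_apply`).  Consequently the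
inflation `inflCn K L M T n` IS Mathlib's inflation `Hⁿ(G ⧸ N, A^N) → Hⁿ(G, A)` (`A = Cn K M T`)
composed with the isomorphism induced by `towerPair` (`inflCn_eq`), and it is injective in
degree 2 as soon as `H¹(N, C_{M,T}) = 0` (`inflCn_injective`).
-/
import Fermat.Agent.S55.Global.TransitionQ
import Fermat.Agent.S55.Global.DescentUnits
import Fermat.Agent.S55.Global.DescentTensorQ
import Fermat.Agent.S55.Coh.PairEquiv
import Fermat.Agent.S55.Coh.InfRes2
import Fermat.Agent.S55.Global.LayerVanish
import Fermat.Agent.S55.Global.DevissageFinal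

set_option autoImplicit false
set_option linter.unusedSectionVars false
set_option linter.unusedVariables false

open NumberField IsDedekindDomain TensorProduct CategoryTheory

namespace Fermat.Agent.S55.Global.TowerDescent

open Fermat.Agent.S55.Global.Objects Fermat.Agent.S55.Global.Objects2
  Fermat.Agent.S55.Global.Objects5 Fermat.Agent.S55.Global.TransitionQ
  Fermat.Agent.S55.Global.Blocks2
open Fermat.Agent.S55.Coh.PairEquiv

variable (K : Type) [Field K] [NumberField K]
variable (L : Type) [Field L] [NumberField L] [Algebra K L]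
variable (M : Type) [Field M] [NumberField M] [Algebra K M] [Algebra L M] [IsScalarTower K L M]
variable [IsGalois K L] [IsGalois K M]

/-- `N = Gal(M/L)` as the kernel of the restriction `Gal(M/K) → Gal(L/K)`. -/
noncomputable abbrev kerRn : Subgroup (M ≃ₐ[K] M) := (rnHom K L M).ker

theorem rnHom_surjective : Function.Surjective (rnHom K L M) :=
  AlgEquiv.restrictNormalHom_surjective M

/-- `Gal(M/K) ⧸ Gal(M/L) ≃* Gal(L/K)`. -/
noncomputable def quotEquiv : (M ≃ₐ[K] M) ⧸ kerRn K L M ≃* (L ≃ₐ[K] L) :=
  QuotientGroup.quotientKerEquivOfSurjective (rnHom K L M) (rnHom_surjective K L M)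

theorem quotEquiv_mk (g : M ≃ₐ[K] M) :
    quotEquiv K L M (QuotientGroup.mk g) = rnHom K L M g := rfl

/-- Galois theory: an element of `M` fixed by `N = Gal(M/L)` comes from `L`. -/
theorem mem_range_of_fixed (x : M) (hx : ∀ n ∈ kerRn K L M, n x = x) :
    x ∈ Set.range (algebraMap L M) := by
  have : IsGalois L M := IsGalois.tower_top_of_isGalois K L M
  rw [← IntermediateField.mem_bot, IsGalois.mem_bot_iff_fixed]
  intro σ
  have hmem : σ.restrictScalars K ∈ kerRn K L M := by
    rw [MonoidHom.mem_ker]
    apply AlgEquiv.ext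
    intro y
    apply (algebraMap L M).injective
    rw [rnHom_commutes]
    exact σ.commutes y
  exact hx _ hmem

section modules

variable (T : Finset Nat.Primes)

/-- (T1) The image of `J_{L,T}` in `J_{M,T}` is `N`-invariant. -/
theorem transLinQ_invariant (n : M ≃ₐ[K] M) (hn : n ∈ kerRn K L M) (a : JQ L T) :
    (JQ M T).ρ (resHom K M n) (transLinQ L M T a) = transLinQ L M T a := by
  rw [← transLinQ_comm K L M T n a]
  have h1 : rnHom K L M n = 1 := hn
  rw [h1, map_one, map_one]
  rfl

/-- Bridge between helper38's `inclQ` and `transQ`. -/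
theorem inclQ_eq_transQ (A : Type) [CommRing A] [Algebra ℚ A] (z : L ⊗[ℚ] A) :
    DescentTensorQ.inclQ (F := L) (M := M) A z = transQ L M A z := by
  induction z using TensorProduct.induction_on with
  | zero => simp
  | tmul x a => rfl
  | add x y hx hy => rw [map_add, map_add, hx, hy]

/-- (T2) Every `N`-invariant element of `J_{M,T}` comes from `J_{L,T}`. -/
theorem exists_transLinQ_eq (j : JQ M T)
    (hj : ∀ n ∈ kerRn K L M, (JQ M T).ρ (resHom K M n) j = j) :
    ∃ j' : JQ L T, transLinQ L M T j' = j := by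
  let H : Set (M ≃ₐ[ℚ] M) := {σ | ∃ n ∈ kerRn K L M, resHom K M n = σ}
  have hH : ∀ x : M, (∀ σ ∈ H, σ x = x) → x ∈ Set.range (algebraMap L M) := by
    intro x hx
    apply mem_range_of_fixed K L M x
    intro n hn
    exact hx (resHom K M n) ⟨n, hn, rfl⟩
  have hu : ∀ σ ∈ H, tensorAct (QT T) σ (Units.val (Additive.toMul (Rep.toAdditive j))) =
      Units.val (Additive.toMul (Rep.toAdditive j)) := by
    rintro σ ⟨n, hn, rfl⟩
    have h1 := hj n hn
    exact congrArg (fun a : JQ M T => Units.val (Additive.toMul (Rep.toAdditive a))) h1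
  obtain ⟨x, hx⟩ := DescentTensorQ.exists_unit_of_invariantQ (F := L) (M := M) (QT T) H hH
    (Additive.toMul (Rep.toAdditive j)) hu
  refine ⟨Rep.toAdditive.symm (Additive.ofMul x), ?_⟩
  have h2 : transUnitsQ L M (QT T) x = Additive.toMul (Rep.toAdditive j) := by
    rw [← hx]
    apply Units.ext
    exact (inclQ_eq_transQ L M (QT T) (x : L ⊗[ℚ] QT T)).symm
  exact congrArg Additive.ofMul h2

/-- (T3) An element of `J_{L,T}` whose image in `J_{M,T}` is a `T_M`-unit is a `T_L`-unit. -/
theorem transLinQ_mem_ESubQ_iff (hT : T.Nonempty) (a₀ : Jn K L T) :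
    transLinQ L M T a₀ ∈ ESubQ M T ↔ a₀ ∈ ESubQ L T := by
  refine ⟨?_, fun ha => transLinQ_mem_ESubQ L M T ha⟩
  let a : JQ L T := a₀
  change transLinQ L M T a ∈ ESubQ M T → a ∈ ESubQ L T
  rintro ⟨u, hu, hua⟩
  -- `u` is fixed by `N`
  have hfix : ∀ n ∈ kerRn K L M, n (u : M) = (u : M) := by
    intro n hn
    have h1 := transLinQ_invariant K L M T n hn a
    have h2 : resHom K M n • transUnitsQ L M (QT T) (Additive.toMul (Rep.toAdditive a)) =
        transUnitsQ L M (QT T) (Additive.toMul (Rep.toAdditive a)) := congrArg Additive.toMul h1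
    have h3 : transUnitsQ L M (QT T) (Additive.toMul (Rep.toAdditive a)) =
        inclUnits ℚ M (QT T) u := hua.symm
    rw [h3, smul_inclUnits] at h2
    have h4 := inclUnitsQ_injective M hT h2
    exact congrArg Units.val h4
  obtain ⟨v₀, hv₀⟩ := mem_range_of_fixed K L M (u : M) hfix
  have hv₀ne : v₀ ≠ 0 := by
    rintro rfl
    rw [map_zero] at hv₀
    exact u.ne_zero hv₀.symm
  let v : Lˣ := Units.mk0 v₀ hv₀ne
  have hvu : Transition.baseUnits L M v = u := Units.ext hv₀
  have hv : v ∈ EUnitsQ L T := by
    rw [← DescentUnits.map_mem_EUnitsQ_iff L M T v]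
    have : Units.map (algebraMap L M : L →* M) v = u := hvu
    rw [this]
    exact hu
  refine ⟨v, hv, ?_⟩
  apply transUnitsQ_injective L M (QT T)
  rw [transUnitsQ_inclUnits, hvu]
  exact hua

end modules

/-! ### The isomorphism of pairs -/

section pair

variable (T : Finset Nat.Primes)

/-- `transCn`, as a plain `ℤ`-linear map `C_{L,T} → C_{M,T}`. -/
noncomputable def transCnLin : (Cn K L T) →ₗ[ℤ] (Cn K M T) := (transCn K L M T).hom.toLinearMap

theorem transCnLin_mk (a : Jn K L T) :
    transCnLin K L M T ((JnToCn K L T).hom a) = (JnToCn K M T).hom (transLinQ L M T a) := rfl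

theorem transCnLin_comm (g : M ≃ₐ[K] M) (x : Cn K L T) :
    transCnLin K L M T ((Cn K L T).ρ (rnHom K L M g) x) =
      (Cn K M T).ρ g (transCnLin K L M T x) :=
  Rep.hom_comm_apply (transCn K L M T) g x

theorem transCnLin_mem_invariants (x : Cn K L T) :
    transCnLin K L M T x ∈
      Representation.invariants ((Cn K M T).ρ.comp (kerRn K L M).subtype) := by
  intro n
  have h1 := transCnLin_comm K L M T (n : M ≃ₐ[K] M) x
  have h2 : rnHom K L M (n : M ≃ₐ[K] M) = 1 := n.2
  rw [h2, map_one] at h1
  exact h1.symm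

/-- `transCn` corestricted to the `N`-invariants. -/
noncomputable def toInv :
    (Cn K L T) →ₗ[ℤ] ((Cn K M T).quotientToInvariants (kerRn K L M)) :=
  (transCnLin K L M T).codRestrict _ (transCnLin_mem_invariants K L M T)

theorem toInv_coe (x : Cn K L T) :
    ((toInv K L M T x : (Cn K M T).quotientToInvariants (kerRn K L M)) : Cn K M T) =
      transCnLin K L M T x := rfl

theorem JnToCn_surjective (a : Cn K L T) : ∃ j : Jn K L T, (JnToCn K L T).hom j = a :=
  Descent.surjective_of_shortExact (sesn_shortExact K L T) a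

theorem JnToCn_eq_zero_iff (j : Jn K L T) : (JnToCn K L T).hom j = 0 ↔ j ∈ ESubQ L T :=
  @Submodule.Quotient.mk_eq_zero ℤ (JQ L T) _ _ _ (JQ L T).hV2 (ESubQ L T)

theorem toInv_injective (hT : T.Nonempty) : Function.Injective (toInv K L M T) := by
  rw [injective_iff_map_eq_zero]
  intro x hx
  obtain ⟨a, rfl⟩ := JnToCn_surjective K L T x
  have h1 : transCnLin K L M T ((JnToCn K L T).hom a) = 0 := congrArg Subtype.val hx
  rw [transCnLin_mk, JnToCn_eq_zero_iff, transLinQ_mem_ESubQ_iff K L M T hT] at h1
  exact (JnToCn_eq_zero_iff K L T a).2 h1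

theorem toInv_surjective {p : ℕ} (hadm : AdmissibleQ K M p T) :
    Function.Surjective (toInv K L M T) := by
  intro c
  obtain ⟨y, hy⟩ := Descent.surjective_map_invariants (kerRn K L M) (sesn_shortExact K M T)
    (DescentUnits.h1Vanishes_En K M hadm (kerRn K L M)) c
  obtain ⟨j', hj'⟩ := exists_transLinQ_eq K L M T y.1 (fun n hn => y.2 ⟨n, hn⟩)
  refine ⟨(JnToCn K L T).hom j', Subtype.ext ?_⟩
  rw [toInv_coe, transCnLin_mk, hj']
  exact congrArg Subtype.val hy

/-- **Descent in tower form**: `(Gal(M/K) ⧸ Gal(M/L), (C_{M,T})^{Gal(M/L)}) ≅ (Gal(L/K), C_{L,T})`,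
the inverse of the linear part being `transCn`. -/
noncomputable def towerPair {p : ℕ} (hadm : AdmissibleQ K M p T) :
    PairEquiv ((Cn K M T).quotientToInvariants (kerRn K L M)) (Cn K L T) where
  e := quotEquiv K L M
  φ := (LinearEquiv.ofBijective (toInv K L M T)
    ⟨toInv_injective K L M T (DescentUnits.nonempty_of_admissibleQ K M hadm),
      toInv_surjective K L M T hadm⟩).symm
  comm := by
    intro g x
    obtain ⟨y, rfl⟩ := toInv_surjective K L M T hadm x
    induction g using QuotientGroup.induction_on with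
    | H g =>
      have h1 : ((Cn K M T).quotientToInvariants (kerRn K L M)).ρ (QuotientGroup.mk g)
          (toInv K L M T y) = toInv K L M T ((Cn K L T).ρ (rnHom K L M g) y) := by
        apply Subtype.ext
        exact (transCnLin_comm K L M T g y).symm
      rw [h1, quotEquiv_mk]
      have hb : Function.Bijective (toInv K L M T) :=
        ⟨toInv_injective K L M T (DescentUnits.nonempty_of_admissibleQ K M hadm),
          toInv_surjective K L M T hadm⟩
      have h2 : ∀ z : Cn K L T, (LinearEquiv.ofBijective (toInv K L M T) hb).symm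
          (toInv K L M T z) = z := fun z =>
        (LinearEquiv.ofBijective (toInv K L M T) hb).symm_apply_apply z
      exact (h2 _).trans (congrArg _ (h2 y).symm)

theorem towerPair_symm_apply {p : ℕ} (hadm : AdmissibleQ K M p T) (x : Cn K L T) :
    (((towerPair K L M T hadm).φ.symm x :
      (Cn K M T).quotientToInvariants (kerRn K L M)) : Cn K M T) =
      (transCn K L M T).hom x := rfl

end pair

/-! ### Inflation -/

section inflation

variable (T : Finset Nat.Primes)

/-- `toInv` as a morphism of `Gal(M/K) ⧸ N`-modules. -/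
noncomputable def toInvHom :
    Rep.res ((quotEquiv K L M : (M ≃ₐ[K] M) ⧸ kerRn K L M ≃* (L ≃ₐ[K] L)) :
      (M ≃ₐ[K] M) ⧸ kerRn K L M →* (L ≃ₐ[K] L)) (Cn K L T) ⟶
      (Cn K M T).quotientToInvariants (kerRn K L M) :=
  Rep.ofHom ⟨toInv K L M T, fun g => by
    induction g using QuotientGroup.induction_on with
    | H g =>
      apply LinearMap.ext
      intro y
      apply Subtype.ext
      exact transCnLin_comm K L M T g y⟩

/-- Mathlib's inflation `Hⁿ(G ⧸ N, A^N) ⟶ Hⁿ(G, A)` for `A = Cn K M T`, `N = Gal(M/L)`. -/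
noncomputable abbrev inflM (n : ℕ) :
    groupCohomology ((Cn K M T).quotientToInvariants (kerRn K L M)) n ⟶
      groupCohomology (Cn K M T) n :=
  groupCohomology.map (QuotientGroup.mk' (kerRn K L M))
    (Rep.ofHom <| (Cn K M T).ρ.quotientToInvariants_lift (kerRn K L M)) n

/-- **`inflCn` is Mathlib's inflation** composed with the map induced by `toInvHom`
(= the inverse of the cohomology isomorphism of `towerPair`). -/
theorem inflCn_eq (n : ℕ) :
    inflCn K L M T n =
      groupCohomology.map ((quotEquiv K L M : (M ≃ₐ[K] M) ⧸ kerRn K L M ≃* (L ≃ₐ[K] L)) :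
        (M ≃ₐ[K] M) ⧸ kerRn K L M →* (L ≃ₐ[K] L)) (toInvHom K L M T) n ≫ inflM K L M T n := by
  unfold inflCn inflM
  rw [← groupCohomology.map_comp]
  exact groupCohomology.map_congr rfl (by rfl) n

theorem map_toInvHom_eq {p : ℕ} (hadm : AdmissibleQ K M p T) (n : ℕ) :
    groupCohomology.map ((quotEquiv K L M : (M ≃ₐ[K] M) ⧸ kerRn K L M ≃* (L ≃ₐ[K] L)) :
        (M ≃ₐ[K] M) ⧸ kerRn K L M →* (L ≃ₐ[K] L)) (toInvHom K L M T) n =
      ((towerPair K L M T hadm).cohomologyIso n).inv :=
  groupCohomology.map_congr rfl (by rfl) n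

/-- Element form: `inflCn c = infl (iso⁻¹ c)`. -/
theorem inflCn_apply {p : ℕ} (hadm : AdmissibleQ K M p T) (n : ℕ)
    (c : groupCohomology (Cn K L T) n) :
    (inflCn K L M T n).hom c =
      (inflM K L M T n).hom (((towerPair K L M T hadm).cohomologyIso n).inv.hom c) := by
  rw [inflCn_eq, map_toInvHom_eq K L M T hadm]
  rfl

/-- **Injectivity of inflation in degree 2** (`H¹(Gal(M/L), C_{M,T}) = 0` by (G-i)). -/
theorem inflCn_injective {p : ℕ} (hV : H1Vanish p) (hs : Setting p K M T) :
    Function.Injective (inflCn K L M T 2).hom := by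
  have h1 : Coh.InfRes2.H1Vanishes (Cn K M T) (kerRn K L M) :=
    Coh.InfRes2.h1Vanishes_of_isZero (Cn K M T) (kerRn K L M)
      (LayerVanish.isZero_H1_res_Cn hV hs (kerRn K L M))
  have h2 := Coh.InfRes2.infl_injective (Cn K M T) (kerRn K L M) h1
  intro c c' hcc
  rw [inflCn_apply K L M T hs.adm, inflCn_apply K L M T hs.adm] at hcc
  have h3 := h2 hcc
  have hiso : Function.Injective (((towerPair K L M T hs.adm).cohomologyIso 2).inv.hom) := by
    intro a b hab
    have := congrArg (((towerPair K L M T hs.adm).cohomologyIso 2).hom.hom) hab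
    simpa using this
  exact hiso h3

end inflation

/-! ### The fixed-field form (row `G.descent`, consumer shape of `DevissageFinal`) -/

section fixedField

variable (K L : Type) [Field K] [NumberField K] [Field L] [NumberField L] [Algebra K L]
  [IsGalois K L]

theorem nonempty_pairEquiv_congr {G G' : Type} [Group G] [Group G'] (A : Rep ℤ G) (B : Rep ℤ G')
    (S S' : Subgroup G) [S.Normal] [S'.Normal] (h : S = S')
    (hP : Nonempty (PairEquiv (A.quotientToInvariants S) B)) :
    Nonempty (PairEquiv (A.quotientToInvariants S') B) := by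
  subst h
  exact hP

theorem kerRn_fixedField (N : Subgroup (L ≃ₐ[K] L)) [N.Normal] :
    haveI : IsGalois K (IntermediateField.fixedField N) :=
      IsGalois.of_fixedField_normal_subgroup N
    kerRn K (IntermediateField.fixedField N) L = N := by
  have : IsGalois K (IntermediateField.fixedField N) :=
    IsGalois.of_fixedField_normal_subgroup N
  ext σ
  rw [MonoidHom.mem_ker]
  constructor
  · intro h
    rw [← IntermediateField.fixingSubgroup_fixedField N, IntermediateField.mem_fixingSubgroup_iff]
    intro x hx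
    have h1 := rnHom_commutes K (IntermediateField.fixedField N) L σ ⟨x, hx⟩
    rw [h] at h1
    exact h1.symm
  · intro h
    apply AlgEquiv.ext
    intro x
    apply (algebraMap (IntermediateField.fixedField N) L).injective
    rw [rnHom_commutes]
    exact x.2 ⟨σ, h⟩

/-- **Row `G.descent`** in the shape consumed by `DevissageFinal.DescentFixedQ`. -/
theorem nonempty_pairEquiv_fixedField {p : ℕ} (T : Finset Nat.Primes)
    (hadm : AdmissibleQ K L p T) (N : Subgroup (L ≃ₐ[K] L)) [N.Normal] :
    Nonempty (PairEquiv ((Cn K L T).quotientToInvariants N)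
      (Cn K (IntermediateField.fixedField N) T)) := by
  have : IsGalois K (IntermediateField.fixedField N) :=
    IsGalois.of_fixedField_normal_subgroup N
  exact nonempty_pairEquiv_congr (Cn K L T) (Cn K (IntermediateField.fixedField N) T) _ N
    (kerRn_fixedField K L N) ⟨towerPair K (IntermediateField.fixedField N) L T hadm⟩

end fixedField

/-! ### Closed Props -/

/-- **Row `G.descent` is closed**: `DevissageFinal.DescentFixedQ p` holds for every `p`. -/
theorem descentFixedQ (p : ℕ) : DevissageFinal.DescentFixedQ p :=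
  fun K L _ _ _ _ _ _ T hadm N _ => nonempty_pairEquiv_fixedField K L T hadm N

/-- **(G-i)** from the two inequalities alone. -/
theorem h1Vanish_of_ineqs {p : ℕ} (h1 : FirstIneq p) (h2 : SecondIneq p) : H1Vanish p :=
  DevissageFinal.h1Vanish_of_ineqs h1 h2 (descentFixedQ p)

/-- **(G-ii, weak form)** from the two inequalities alone. -/
theorem h2CardDvd_of_ineqs {p : ℕ} (h1 : FirstIneq p) (h2 : SecondIneq p) : H2CardDvd p :=
  DevissageFinal.h2CardDvd_of_ineqs h1 h2 (descentFixedQ p)

/-- **Row `G.inflInj`**: inflation `H²(Gal(F/K), C_{F,T}) → H²(Gal(M/K), C_{M,T})` is injective. -/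
def InflInj (p : ℕ) : Prop :=
  ∀ (K F M : Type) [Field K] [NumberField K] [Field F] [NumberField F] [Field M] [NumberField M]
    [Algebra K F] [Algebra K M] [Algebra F M] [IsScalarTower K F M] [IsGalois K F]
    (T : Finset Nat.Primes), Setting p K M T →
    Function.Injective (inflCn K F M T 2).hom

theorem inflInj {p : ℕ} (hV : H1Vanish p) : InflInj p := by
  intro K F M _ _ _ _ _ _ _ _ _ _ _ T hs
  have := hs.galois
  exact inflCn_injective K F M T hV hs

end Fermat.Agent.S55.Global.TowerDescent
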