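/-
S55 / GLOBAL block (helper56) — the unramified dictionary for a ring hom `j : L →+* E` from a
number field into an ultrametric normed field (interface v3: `E` is a residue field of
`L ⊗[K] Kloc K q 𝔪`, a finite extension of `ℚ_[q]`; no `adicCompletion`).
Adapted from helper36's `Global/UnramDict.lean` (which is stated for `v.adicCompletion K`-algebras).

* `primeIdeal j = {x ∈ 𝓞 L | ‖j x‖ < 1}` : the prime of `𝓞 L` cut out by `j`; `placeOf j hne`;
* `norm_eq_one_of_valuation_eq_one` : `w(u) = 1 ⟹ ‖j u‖ = 1`  (`w = placeOf j`);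
* `norm_eq_one_of_mem_unit` : a `T`-unit `u` has `‖j u‖ = 1` as soon as `placeOf j ∉ T`;
* `exists_norm_eq_zpow_of_uniformizer` : `ϖ ∈ w ∖ w²  ⟹  ‖j l‖ ∈ ‖j ϖ‖ ^ ℤ` for `l ≠ 0`;
* `exists_norm_eq_of_unramified` : `K ⊆ L`, `v = w ∩ 𝓞 K`, `v 𝓞_L ⊄ w²`, `j` with dense range
  ⟹ every norm of `E` is `‖j ϖ‖ ^ a` with `ϖ ∈ 𝓞 K`;
* `not_map_le_sq_of_inertia_trivial` : trivial inertia group in `Gal(L/K)` ⟹ `v 𝓞_L ⊄ w²`.
-/
import Mathlib
import Fermat.Agent.S55.Global.UnramDict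
import Fermat.Agent.S55.Global.AdmissibleInherit

set_option autoImplicit false
set_option linter.unusedSectionVars false

namespace Fermat.Agent.S55.Global.UnramDictQ

open IsDedekindDomain NumberField IsDedekindDomain.HeightOneSpectrum
open Fermat.Agent.S55.Global.UnramDict

section Setting

variable {L : Type} [Field L] [NumberField L]
variable {E : Type} [NormedField E] [IsUltrametricDist E] (j : L →+* E)

/-- The norm of a global integer of `L` in `E` is `≤ 1`. -/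
theorem norm_int_le_one (x : 𝓞 L) : ‖j (x : L)‖ ≤ 1 := by
  have hx : IsIntegral ℤ (x : L) := RingOfIntegers.isIntegral_coe x
  exact norm_le_one_of_isIntegral (hx.map j.toIntAlgHom)

/-- The prime ideal of `𝓞 L` cut out by `j`. -/
def primeIdeal : Ideal (𝓞 L) where
  carrier := {x | ‖j (x : L)‖ < 1}
  add_mem' := by
    intro x y hx hy
    simp only [Set.mem_ofPred_eq, map_add] at hx hy ⊢
    exact (IsUltrametricDist.norm_add_le_max _ _).trans_lt (max_lt hx hy)
  zero_mem' := by simp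
  smul_mem' := by
    intro c x hx
    simp only [Set.mem_ofPred_eq, smul_eq_mul, map_mul, norm_mul] at hx ⊢
    calc ‖j (c : L)‖ * ‖j (x : L)‖
        ≤ 1 * ‖j (x : L)‖ :=
          mul_le_mul_of_nonneg_right (norm_int_le_one j c) (norm_nonneg _)
      _ < 1 := by rwa [one_mul]

theorem mem_primeIdeal {x : 𝓞 L} : x ∈ primeIdeal j ↔ ‖j (x : L)‖ < 1 := Iff.rfl

theorem norm_eq_one_of_notMem {x : 𝓞 L} (hx : x ∉ primeIdeal j) : ‖j (x : L)‖ = 1 :=
  le_antisymm (norm_int_le_one j x) (not_lt.1 hx)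

instance primeIdeal_isPrime : (primeIdeal j).IsPrime := by
  rw [Ideal.isPrime_iff]
  refine ⟨?_, fun {x y} hxy => ?_⟩
  · rw [Ideal.ne_top_iff_one]
    intro h
    rw [mem_primeIdeal] at h
    simp at h
  · by_contra hcon
    have hcon' : x ∉ primeIdeal j ∧ y ∉ primeIdeal j := not_or.1 hcon
    obtain ⟨hx, hy⟩ := hcon'
    rw [mem_primeIdeal] at hxy
    simp only [map_mul, norm_mul] at hxy
    rw [norm_eq_one_of_notMem j hx, norm_eq_one_of_notMem j hy] at hxy
    norm_num at hxy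

/-- The place of `L` cut out by `j` (when some nonzero integer has norm `< 1`). -/
def placeOf (hne : primeIdeal j ≠ ⊥) : HeightOneSpectrum (𝓞 L) :=
  ⟨primeIdeal j, inferInstance, hne⟩

theorem primeIdeal_ne_bot_of_natCast {q : ℕ} (hq0 : q ≠ 0) (hq : ‖j (q : L)‖ < 1) :
    primeIdeal j ≠ ⊥ := by
  intro h
  have hmem : ((q : ℕ) : 𝓞 L) ∈ primeIdeal j := by
    rw [mem_primeIdeal]
    simpa using hq
  rw [h, Ideal.mem_bot] at hmem
  exact hq0 (Nat.cast_eq_zero.mp hmem)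

/-- Elements of `L` of `w`-adic valuation `1` have norm `1` in `E`. -/
theorem norm_eq_one_of_valuation_eq_one (hne : primeIdeal j ≠ ⊥) {u : L}
    (hu : (placeOf j hne).valuation L u = 1) : ‖j u‖ = 1 := by
  obtain ⟨n, d, hnd⟩ := exists_primeCompl_mul_eq_of_integer (placeOf j hne) u hu.le
  have hd : (d : 𝓞 L) ∉ primeIdeal j := d.2
  have hdv : (placeOf j hne).valuation L (algebraMap (𝓞 L) L d) = 1 :=
    (valuation_eq_one_iff_notMem _).2 hd
  have hnv : (placeOf j hne).valuation L (algebraMap (𝓞 L) L n) = 1 := by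
    rw [← hnd, map_mul, hu, hdv, one_mul]
  have hn : n ∉ primeIdeal j := (valuation_eq_one_iff_notMem (placeOf j hne)).1 hnv
  have h1 := congrArg (fun z => ‖j z‖) hnd
  simp only [map_mul, norm_mul] at h1
  have hd1 : ‖j (algebraMap (𝓞 L) L (d : 𝓞 L))‖ = 1 := norm_eq_one_of_notMem j hd
  have hn1 : ‖j (algebraMap (𝓞 L) L n)‖ = 1 := norm_eq_one_of_notMem j hn
  rw [hd1, hn1, mul_one] at h1
  exact h1

/-- A `T`-unit has norm one in `E` as soon as the place cut out by `j` is not in `T`. -/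
theorem norm_eq_one_of_mem_unit (hne : primeIdeal j ≠ ⊥)
    {T : Set (HeightOneSpectrum (𝓞 L))} (hT : placeOf j hne ∉ T)
    {u : Lˣ} (hu : u ∈ T.unit L) : ‖j (u : L)‖ = 1 :=
  norm_eq_one_of_valuation_eq_one j hne (hu (placeOf j hne) hT)

/-- If `ϖ ∈ w ∖ w²` then the norm of every nonzero element of `L` is an integral power of
`‖ϖ‖`. -/
theorem exists_norm_eq_zpow_of_uniformizer (hne : primeIdeal j ≠ ⊥) {ϖ : 𝓞 L} (h1 : ϖ ∈ primeIdeal j)
    (h2 : ϖ ∉ (primeIdeal j) ^ 2) {l : L} (hl : l ≠ 0) :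
    ∃ a : ℤ, ‖j l‖ = ‖j (ϖ : L)‖ ^ a := by
  set W := placeOf j hne with hW
  have hWid : W.asIdeal = primeIdeal j := rfl
  have hϖ0 : ϖ ≠ 0 := by
    rintro rfl
    exact h2 (Ideal.zero_mem _)
  have hvϖ : W.valuation L (algebraMap (𝓞 L) L ϖ) = WithZero.exp (-1 : ℤ) := by
    rw [valuation_of_algebraMap]
    have hne' : W.intValuation ϖ ≠ 0 := W.intValuation_ne_zero ϖ hϖ0
    rw [← WithZero.exp_log hne']
    have hlt : W.intValuation ϖ < 1 := (W.intValuation_lt_one_iff_mem ϖ).2 (hWid ▸ h1)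
    have hnle : ¬ W.intValuation ϖ ≤ WithZero.exp (-((2 : ℕ) : ℤ)) := fun h =>
      h2 (hWid ▸ (W.intValuation_le_pow_iff_mem ϖ 2).1 h)
    rw [← WithZero.exp_log hne', ← WithZero.exp_zero, WithZero.exp_lt_exp] at hlt
    rw [← WithZero.exp_log hne', WithZero.exp_le_exp] at hnle
    congr 1
    push_cast at hnle
    omega
  have hvl : W.valuation L l ≠ 0 := (Valuation.ne_zero_iff _).2 hl
  set b : ℤ := (W.valuation L l).log with hb
  have hvl' : W.valuation L l = WithZero.exp b := (WithZero.exp_log hvl).symm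
  have hϖL : algebraMap (𝓞 L) L ϖ ≠ 0 := by
    intro h
    exact hϖ0 ((FaithfulSMul.algebraMap_injective (𝓞 L) L) (by rw [h, map_zero]))
  set u : L := l * (algebraMap (𝓞 L) L ϖ) ^ b with hu
  have huv : W.valuation L u = 1 := by
    rw [hu, map_mul, map_zpow₀, hvl', hvϖ, ← WithZero.exp_zsmul, ← WithZero.exp_add,
      ← WithZero.exp_zero]
    congr 1
    simp
  have hu1 := norm_eq_one_of_valuation_eq_one j hne huv
  refine ⟨-b, ?_⟩
  have hl' : l = u * (algebraMap (𝓞 L) L ϖ) ^ (-b) := by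
    rw [hu, mul_assoc, ← zpow_add₀ hϖL, add_neg_cancel, zpow_zero, mul_one]
  have : ‖j l‖ = ‖j u‖ * ‖j (algebraMap (𝓞 L) L ϖ)‖ ^ (-b) := by
    conv_lhs => rw [hl']
    rw [map_mul, norm_mul, map_zpow₀, norm_zpow]
  rw [this, hu1, one_mul]

/-- Every nonzero element of `E` has the norm of an element of `L` when `j` has dense range. -/
theorem exists_norm_eq_of_ne_zero (hdense : DenseRange j) {x : E} (hx : x ≠ 0) :
    ∃ l : L, l ≠ 0 ∧ ‖j l‖ = ‖x‖ := by
  have hopen : Metric.ball x ‖x‖ ∈ nhds x := Metric.ball_mem_nhds x (norm_pos_iff.2 hx)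
  obtain ⟨l, hl⟩ := hdense.mem_nhds hopen
  rw [Metric.mem_ball, dist_eq_norm] at hl
  have hne' : ‖j l - x‖ ≠ ‖x‖ := hl.ne
  have h2 := IsUltrametricDist.norm_add_eq_max_of_norm_ne_norm hne'
  rw [sub_add_cancel, max_eq_right hl.le] at h2
  refine ⟨l, ?_, h2⟩
  rintro rfl
  rw [map_zero, norm_zero] at h2
  exact hx (norm_eq_zero.1 h2.symm)

end Setting

section Unram

variable (K : Type) [Field K] [NumberField K]
variable {L : Type} [Field L] [NumberField L] [Algebra K L]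
variable {E : Type} [NormedField E] [IsUltrametricDist E] (j : L →+* E)
/-- **Unramified dictionary (v3).**  Let `w` be the prime of `L` cut out by `j` and `v = w ∩ 𝓞 K`.
If `v 𝓞_L ⊄ w²` and `j` has dense range, then every norm of `E` is an integral power of the norm
of (the image of) an element of `𝓞 K`. -/
theorem exists_norm_eq_of_unramified (hne : primeIdeal j ≠ ⊥) (hdense : DenseRange j)
    (hunr : ¬ (((primeIdeal j).under (𝓞 K)).map (algebraMap (𝓞 K) (𝓞 L)) ≤ (primeIdeal j) ^ 2))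
    {x : E} (hx : x ≠ 0) :
    ∃ (ϖ : 𝓞 K) (a : ℤ), ‖x‖ = ‖j (algebraMap K L (ϖ : K))‖ ^ a := by
  obtain ⟨ϖ, hϖv, hϖ2⟩ : ∃ ϖ ∈ (primeIdeal j).under (𝓞 K),
      algebraMap (𝓞 K) (𝓞 L) ϖ ∉ (primeIdeal j) ^ 2 := by
    by_contra hcon
    apply hunr
    rw [Ideal.map_le_iff_le_comap]
    intro a ha
    by_contra h
    exact hcon ⟨a, ha, h⟩
  have hϖ1 : algebraMap (𝓞 K) (𝓞 L) ϖ ∈ primeIdeal j := hϖv
  obtain ⟨l, hl0, hl⟩ := exists_norm_eq_of_ne_zero j hdense hx
  obtain ⟨a, ha⟩ := exists_norm_eq_zpow_of_uniformizer j hne hϖ1 hϖ2 hl0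
  exact ⟨ϖ, a, by rw [← hl, ha]; rfl⟩

/-- Trivial inertia group in `Gal(L/K)` implies `e(w | v) = 1` in the form `v 𝓞_L ⊄ w²`. -/
theorem not_map_le_sq_of_inertia_trivial [IsGalois K L] (hne : primeIdeal j ≠ ⊥)
    (htriv : ∀ σ : L ≃ₐ[K] L, σ ∈ (primeIdeal j).inertia (L ≃ₐ[K] L) → σ = 1) :
    ¬ (((primeIdeal j).under (𝓞 K)).map (algebraMap (𝓞 K) (𝓞 L)) ≤ (primeIdeal j) ^ 2) := by
  set w : HeightOneSpectrum (𝓞 L) := placeOf j hne with hw
  set v : HeightOneSpectrum (𝓞 K) := w.under (𝓞 K) with hv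
  have hlo : (primeIdeal j).LiesOver v.asIdeal := ⟨rfl⟩
  have hI : Nat.card ((primeIdeal j).inertia (L ≃ₐ[K] L)) = 1 := by
    rw [Nat.card_eq_one_iff_unique]
    refine ⟨⟨fun x y => ?_⟩, ⟨1⟩⟩
    ext1
    rw [htriv x.1 x.2, htriv y.1 y.2]
  rw [AdmissibleInherit.card_inertia_eq_ramificationIdx' K L v (primeIdeal j)] at hI
  intro hle
  have hp : v.asIdeal.map (algebraMap (𝓞 K) (𝓞 L)) ≤ primeIdeal j := by
    rw [Ideal.map_le_iff_le_comap]
    exact le_rfl
  exact (Ideal.ramificationIdx'_ne_one_iff hp).2 hle hI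

end Unram

end Fermat.Agent.S55.Global.UnramDictQ
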