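/-
S55 / GLOBAL block (helper56), row (U2) of Middle's list: **`T`-unit classes are locally trivial at
the places outside `T`** (interface v3).

`K ⊆ L` number fields, `L/K` Galois, unramified outside the places above the finite set `T` of
rational primes (field `ram` of `Blocks2.AdmissibleQ`).  Let `q ∉ T` and let `𝔪` be a place of `K`
above `q` (maximal ideal of `K ⊗[ℚ] ℚ_[q]`).  Then every class of `H²(Gal(L/K), Lˣ)` represented
by a cocycle with values in the `T`-units `EUnitsQ L T` dies in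
`H²(Gal(L/K), (L ⊗[K] K_𝔪)ˣ)`:

* `locH_H2π_eq_zero` : `locH K L (Kloc K q 𝔪) 2 (H2π _ f) = 0`.

Proof.  `B = L ⊗[K] K_𝔪`, `m` a maximal ideal of `B`, `E = B ⧸ m`, `D = Stab(m) ≃ Gal(E/K_𝔪)`
(helper49's `SemilocalH3`), `Bˣ = Coind_D^G Eˣ` (helper1's `SemilocalCoh`).  `L` is dense in `E`
and the prime of `L` cut out by `‖·‖_E` is not above `T`, so `E/K_𝔪` is unramified
(`UnramDictQ`) and the components of a `T`-unit cocycle are norm-one units of `E`; the norm-one
units `U_E` have `H²(Gal(E/K_𝔪), U_E) = 0` (helper26's `Local/UnramUnitsCoh`); conclude with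
`SemilocalSub.H2π_eq_zero_of_components`.

Generic form (any local field `F ⊇ K` generated by `K` and an isometric copy of `ℚ_[q]`):
`locH_H2π_eq_zero_generic`.
-/
import Mathlib
import Fermat.Agent.S55.Global.SemilocalH3
import Fermat.Agent.S55.Global.SemilocalSub
import Fermat.Agent.S55.Global.UnramDictQ
import Fermat.Agent.S55.Local.UnramUnitsCoh2

set_option autoImplicit false
set_option linter.unusedSectionVars false
set_option linter.style.haveILetI false

open scoped Pointwise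

namespace Fermat.Agent.S55.Global.UnitClassUnram

open CategoryTheory CategoryTheory.Limits groupCohomology NumberField IsDedekindDomain
  TensorProduct
open Fermat.Agent.S55.Global.Objects Fermat.Agent.S55.Global.Objects2
open Fermat.Agent.S55.Global.Blocks3
open Fermat.Agent.S55.Global.SemilocalDecomp Fermat.Agent.S55.Global.SemilocalCoh
open Fermat.Agent.S55.Local.UnramUnitsCoh Fermat.Agent.S55.Local.UnramUnitsCoh2
open Fermat.Agent.S55.Local.Blocks (IsUnram)

/-! ### (Z) the norm-one units as a module over a group `D ≃* Gal(E/F)` -/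

section AbstractZ

variable {F E : Type} [NontriviallyNormedField F] [IsUltrametricDist F] [ProperSpace F]
  [NontriviallyNormedField E] [IsUltrametricDist E] [ProperSpace E]
  [NormedAlgebra F E] [FiniteDimensional F E]
variable {D : Type} [Group D] [MulDistribMulAction D Eˣ] (e : D ≃* (E ≃ₐ[F] E))

/-- The norm-one units of `E` as a `D`-module through `e : D ≃* Gal(E/F)`. -/
noncomputable def unitsRepD : Rep ℤ D := Rep.res (e : D →* (E ≃ₐ[F] E)) (unitsRep F E)

variable (he : ∀ (d : D) (x : Eˣ), ((d • x : Eˣ) : E) = e d (x : E))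

/-- The inclusion of the norm-one units into `Eˣ`, as a morphism of `D`-modules. -/
noncomputable def unitsInclD : unitsRepD e ⟶ Rep.ofMulDistribMulAction D Eˣ :=
  Rep.ofHom
    { toLinearMap := (unitsIncl F E).hom.toLinearMap
      isIntertwining' := fun d => by
        refine LinearMap.ext fun a => ?_
        have h1 : ∀ y : Eˣ, d • y = Units.map ((e d : E ≃ₐ[F] E) : E →* E) y := fun y =>
          Units.ext (he d y)
        have h2 := Rep.hom_comm_apply (unitsIncl F E) (e d) a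
        refine h2.trans ?_
        exact (congrArg Additive.ofMul (h1 (Additive.toMul ((unitsIncl F E).hom a)))).symm }

theorem unitsInclD_hom_apply (a : unitsRepD e) :
    (unitsInclD e he).hom a = (unitsIncl F E).hom a := rfl

theorem unitsInclD_injective : Function.Injective (unitsInclD e he).hom :=
  unitsIncl_injective (K := F) (E := E)

theorem ofMul_mem_range_unitsInclD {u : Eˣ} (hu : ‖(u : E)‖ = 1) :
    (Additive.ofMul u : Additive Eˣ) ∈ Set.range (unitsInclD e he).hom :=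
  (ofMul_mem_range_unitsIncl_iff (K := F) (E := E) u).2 hu

theorem isZero_unitsRepD [IsGalois F E] (hunr : IsUnram F E) (i : ℕ) (hi : 0 < i) :
    IsZero (groupCohomology (unitsRepD e) i) :=
  (isZero_unitsRep hunr i hi).of_iso
    (groupCohomology.mapIso (A := unitsRep F E) (B := unitsRepD e) e
      (LinearEquiv.refl ℤ _) (fun _ => rfl) i)

end AbstractZ

/-! ### (Y) density of `L` in a ring generated by `L` and `ℚ_q` -/

section AbstractY

variable {L : Type} [Field L] [CharZero L]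
variable {E : Type} [NormedField E]
variable {q : ℕ} [Fact q.Prime]

theorem denseRange_of_closure_eq_top (j : L →+* E) (ι : ℚ_[q] →+* E)
    (hι : ∀ a : ℚ_[q], ‖ι a‖ = ‖a‖)
    (hgen : Subring.closure (Set.range j ∪ Set.range ι) = ⊤) : DenseRange j := by
  have hcont : Continuous ι :=
    (AddMonoidHomClass.isometry_of_norm ι hι).continuous
  have hS : ∀ x : E, x ∈ (j.range).topologicalClosure := by
    intro x
    have hx : x ∈ Subring.closure (Set.range j ∪ Set.range ι) := by rw [hgen]; trivial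
    refine Subring.closure_le.2 ?_ hx
    rintro y (⟨l, rfl⟩ | ⟨a, rfl⟩)
    · exact subset_closure ⟨l, rfl⟩
    · have ha : a ∈ closure (Set.range ((↑) : ℚ → ℚ_[q])) :=
        Padic.denseRange_ratCast (p := q) a
      refine map_mem_closure hcont ha ?_
      rintro _ ⟨r, rfl⟩
      refine ⟨(r : L), ?_⟩
      rw [map_ratCast, map_ratCast]
  intro x
  exact hS x

theorem norm_natCast_lt_one (ι : ℚ_[q] →+* E) (hι : ∀ a : ℚ_[q], ‖ι a‖ = ‖a‖) :
    ‖((q : ℕ) : E)‖ < 1 := by
  have h1 : ((q : ℕ) : E) = ι ((q : ℕ) : ℚ_[q]) := (map_natCast ι q).symm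
  rw [h1, hι, Padic.norm_p]
  have hq : (1 : ℝ) < q := by exact_mod_cast (Fact.out : q.Prime).one_lt
  exact inv_lt_one_of_one_lt₀ hq

end AbstractY

/-! ### (X) the unramified dictionary in our setting -/

section AbstractX

variable (K : Type) {L : Type} [Field K] [NumberField K] [Field L] [NumberField L] [Algebra K L]
  [IsGalois K L]
variable {F E : Type} [NontriviallyNormedField F] [Algebra K F]
  [NormedField E] [IsUltrametricDist E] [NormedAlgebra F E]
variable (j : L →+* E)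
variable (T : Finset Nat.Primes) (q : Nat.Primes)

/-- The place of `L` cut out by `j` is not above `T` when `‖j q‖ < 1` for a prime `q ∉ T`. -/
theorem placeOf_notMem (hq : ‖j (((q : Nat.Primes) : ℕ) : L)‖ < 1) (hqT : q ∉ T)
    (hne : UnramDictQ.primeIdeal j ≠ ⊥) :
    UnramDictQ.placeOf j hne ∉ placesAboveQ L T := by
  rintro ⟨q', hq'T, hq'⟩
  have hq' : (((q' : Nat.Primes) : ℕ) : 𝓞 L) ∈ UnramDictQ.primeIdeal j := hq'
  have hqmem : (((q : Nat.Primes) : ℕ) : 𝓞 L) ∈ UnramDictQ.primeIdeal j := by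
    rw [UnramDictQ.mem_primeIdeal]
    simpa using hq
  have hne' : q' ≠ q := fun h => hqT (h ▸ hq'T)
  have hcop : Nat.Coprime (q' : ℕ) (q : ℕ) :=
    (Nat.coprime_primes q'.2 q.2).2 (fun h => hne' (Subtype.ext h))
  have h1 : (1 : 𝓞 L) ∈ UnramDictQ.primeIdeal j := by
    have hb := Nat.Coprime.gcd_eq_one hcop
    have hbez := Nat.gcd_eq_gcd_ab (q' : ℕ) (q : ℕ)
    rw [hb] at hbez
    have h2 : ((1 : ℤ) : 𝓞 L) = (((q' : ℕ) : ℤ) : 𝓞 L) * ((Nat.gcdA q' q : ℤ) : 𝓞 L) +
        (((q : ℕ) : ℤ) : 𝓞 L) * ((Nat.gcdB q' q : ℤ) : 𝓞 L) := by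
      rw [← Int.cast_mul, ← Int.cast_mul, ← Int.cast_add]
      congr 1
    rw [Int.cast_one] at h2
    rw [h2]
    refine Ideal.add_mem _ (Ideal.mul_mem_right _ _ ?_) (Ideal.mul_mem_right _ _ ?_)
    · simpa using hq'
    · simpa using hqmem
  exact (UnramDictQ.primeIdeal_isPrime j).ne_top ((Ideal.eq_top_iff_one _).2 h1)

end AbstractX

section AbstractX2

variable (K : Type) {L : Type} [Field K] [NumberField K] [Field L] [NumberField L] [Algebra K L]
  [IsGalois K L]
variable {F E : Type} [NontriviallyNormedField F] [Algebra K F]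
  [NormedField E] [IsUltrametricDist E] [NormedAlgebra F E]
variable (j : L →+* E)
variable (T : Finset Nat.Primes) (q : Nat.Primes)

/-- `E/F` is unramified when `L/K` is unramified outside `T` and `q ∉ T`. -/
theorem isUnram_of_ram
    (hcompat : ∀ k : K, j (algebraMap K L k) = algebraMap F E (algebraMap K F k))
    (hdense : DenseRange j) (hq : ‖j (((q : Nat.Primes) : ℕ) : L)‖ < 1) (hqT : q ∉ T)
    (hram : ∀ w : Place L, (∃ σ : L ≃ₐ[K] L, σ ∈ w.asIdeal.inertia (L ≃ₐ[K] L) ∧ σ ≠ 1) →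
      w ∈ placesAboveQ L T) :
    IsUnram F E := by
  have hne := UnramDictQ.primeIdeal_ne_bot_of_natCast j q.2.ne_zero hq
  have hw := placeOf_notMem j T q hq hqT hne
  have htriv : ∀ σ : L ≃ₐ[K] L, σ ∈ (UnramDictQ.primeIdeal j).inertia (L ≃ₐ[K] L) → σ = 1 := by
    intro σ hσ
    by_contra h1
    exact hw (hram (UnramDictQ.placeOf j hne) ⟨σ, hσ, h1⟩)
  have hunr := UnramDictQ.not_map_le_sq_of_inertia_trivial K j hne htriv
  intro x
  by_cases hx : x = 0
  · exact ⟨0, by rw [hx, norm_zero, norm_zero]⟩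
  · obtain ⟨ϖ, a, ha⟩ := UnramDictQ.exists_norm_eq_of_unramified K j hne hdense hunr hx
    refine ⟨(algebraMap K F (ϖ : K)) ^ a, ?_⟩
    rw [ha, hcompat, norm_algebraMap', norm_zpow]

/-- Conjugates of `T`-units have norm one at a place not above `T`. -/
theorem norm_smul_eq_one (hq : ‖j (((q : Nat.Primes) : ℕ) : L)‖ < 1) (hqT : q ∉ T)
    {u : Lˣ} (hu : u ∈ EUnitsQ L T) (x : L ≃ₐ[K] L) :
    ‖j ((x • u : Lˣ) : L)‖ = 1 := by
  have hne := UnramDictQ.primeIdeal_ne_bot_of_natCast j q.2.ne_zero hq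
  have hw := placeOf_notMem j T q hq hqT hne
  have h1 : resHom K L x • u ∈ EUnitsQ L T := smul_mem_EUnitsQ (resHom K L x) u hu
  have h2 : (resHom K L x • u : Lˣ) = x • u := Units.ext rfl
  rw [h2] at h1
  exact UnramDictQ.norm_eq_one_of_mem_unit j hne hw (EUnitsQ_le T h1)

end AbstractX2

section Algebraic

attribute [local instance] Algebra.TensorProduct.rightAlgebra

variable (K L : Type) [Field K] [NumberField K] [Field L] [NumberField L] [Algebra K L]
variable (F : Type) [CommRing F] [Algebra K F]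
variable (m : Ideal (L ⊗[K] F))

/-- `L → E = (L ⊗[K] F) ⧸ m`, `l ↦ [l ⊗ 1]`. -/
noncomputable def jHom : L →+* (L ⊗[K] F) ⧸ m :=
  (Ideal.Quotient.mk m).comp
    (Algebra.TensorProduct.includeLeftRingHom : L →+* L ⊗[K] F)

theorem jHom_apply (l : L) : jHom K L F m l = Ideal.Quotient.mk m (l ⊗ₜ[K] (1 : F)) := rfl

theorem algebraMap_quot_apply (f : F) :
    algebraMap F ((L ⊗[K] F) ⧸ m) f = Ideal.Quotient.mk m ((1 : L) ⊗ₜ[K] f) := rfl

theorem jHom_algebraMap (k : K) :
    jHom K L F m (algebraMap K L k) = algebraMap F ((L ⊗[K] F) ⧸ m) (algebraMap K F k) := by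
  rw [jHom_apply, algebraMap_quot_apply, Algebra.algebraMap_eq_smul_one,
    Algebra.algebraMap_eq_smul_one (R := K) (A := F), TensorProduct.smul_tmul]

theorem mk_tmul (l : L) (f : F) :
    Ideal.Quotient.mk m (l ⊗ₜ[K] f) = jHom K L F m l * algebraMap F ((L ⊗[K] F) ⧸ m) f := by
  rw [jHom_apply, algebraMap_quot_apply, ← map_mul, Algebra.TensorProduct.tmul_mul_tmul,
    mul_one, one_mul]

end Algebraic

section Generation

attribute [local instance] Algebra.TensorProduct.rightAlgebra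

variable (K L : Type) [Field K] [NumberField K] [Field L] [NumberField L] [Algebra K L]
variable (F : Type) [CommRing F] [Algebra K F]
variable (m : Ideal (L ⊗[K] F))
variable {R : Type} [Ring R] (ρ : R →+* F)

/-- `R → F → E`. -/
noncomputable def iotaR : R →+* (L ⊗[K] F) ⧸ m :=
  (algebraMap F ((L ⊗[K] F) ⧸ m)).comp ρ

theorem iotaR_apply (a : R) :
    iotaR K L F m ρ a = algebraMap F ((L ⊗[K] F) ⧸ m) (ρ a) := rfl

/-- If `F` is generated by `K` and `R`, then `E` is generated by (the images of) `L` and `R`. -/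
theorem closure_eq_top
    (hgen : Subring.closure (Set.range (algebraMap K F) ∪ Set.range ρ) = ⊤) :
    Subring.closure (Set.range (jHom K L F m) ∪ Set.range (iotaR K L F m ρ)) = ⊤ := by
  set S := Subring.closure (Set.range (jHom K L F m) ∪ Set.range (iotaR K L F m ρ)) with hS
  have hj : ∀ l : L, jHom K L F m l ∈ S := fun l =>
    Subring.subset_closure (Or.inl ⟨l, rfl⟩)
  have hι : ∀ a, iotaR K L F m ρ a ∈ S := fun a =>
    Subring.subset_closure (Or.inr ⟨a, rfl⟩)
  have hF : ∀ f : F, algebraMap F ((L ⊗[K] F) ⧸ m) f ∈ S := by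
    intro f
    have hf : f ∈ Subring.closure (Set.range (algebraMap K F) ∪ Set.range ρ) := by
      rw [hgen]; trivial
    have hle : Subring.closure (Set.range (algebraMap K F) ∪ Set.range ρ) ≤
        S.comap (algebraMap F ((L ⊗[K] F) ⧸ m)) := by
      rw [Subring.closure_le]
      rintro y (⟨k, rfl⟩ | ⟨a, rfl⟩)
      · show algebraMap F ((L ⊗[K] F) ⧸ m) (algebraMap K F k) ∈ S
        rw [← jHom_algebraMap]
        exact hj _
      · exact hι a
    exact hle hf
  rw [eq_top_iff]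
  intro x _
  obtain ⟨b, rfl⟩ := Ideal.Quotient.mk_surjective x
  induction b using TensorProduct.induction_on with
  | zero => rw [map_zero]; exact S.zero_mem
  | tmul l f =>
    rw [mk_tmul]
    exact S.mul_mem (hj l) (hF f)
  | add x y hx hy =>
    rw [map_add]
    exact S.add_mem (hx trivial) (hy trivial)

end Generation

section GenKloc

attribute [local instance] Algebra.TensorProduct.rightAlgebra

variable (K : Type) [Field K] [NumberField K]
variable (q : Nat.Primes) (𝔪 : Ideal (Ksemi K q))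

theorem mk_tmul_Kloc (k : K) (a : ℚ_[((q : Nat.Primes) : ℕ)]) :
    (Ideal.Quotient.mk 𝔪 (k ⊗ₜ[ℚ] a) : Kloc K q 𝔪) =
      algebraMap K (Kloc K q 𝔪) k * algebraMap ℚ_[((q : Nat.Primes) : ℕ)] (Kloc K q 𝔪) a := by
  have h1 : algebraMap K (Kloc K q 𝔪) k =
      Ideal.Quotient.mk 𝔪 (k ⊗ₜ[ℚ] (1 : ℚ_[((q : Nat.Primes) : ℕ)])) := rfl
  have h2 : algebraMap ℚ_[((q : Nat.Primes) : ℕ)] (Kloc K q 𝔪) a =
      Ideal.Quotient.mk 𝔪 ((1 : K) ⊗ₜ[ℚ] a) := rfl
  rw [h1, h2, ← map_mul, Algebra.TensorProduct.tmul_mul_tmul, mul_one, one_mul]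

/-- `K_𝔪` is generated by `K` and `ℚ_q`. -/
theorem closure_Kloc_eq_top :
    Subring.closure (Set.range (algebraMap K (Kloc K q 𝔪)) ∪
      Set.range (algebraMap ℚ_[((q : Nat.Primes) : ℕ)] (Kloc K q 𝔪))) = ⊤ := by
  set S := Subring.closure (Set.range (algebraMap K (Kloc K q 𝔪)) ∪
      Set.range (algebraMap ℚ_[((q : Nat.Primes) : ℕ)] (Kloc K q 𝔪))) with hS
  rw [eq_top_iff]
  intro x _
  obtain ⟨t, rfl⟩ := Ideal.Quotient.mk_surjective x
  induction t using TensorProduct.induction_on with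
  | zero => rw [map_zero]; exact S.zero_mem
  | tmul k a =>
    rw [mk_tmul_Kloc]
    exact S.mul_mem (Subring.subset_closure (Or.inl ⟨k, rfl⟩))
      (Subring.subset_closure (Or.inr ⟨a, rfl⟩))
  | add x y hx hy =>
    rw [map_add]
    exact S.add_mem (hx trivial) (hy trivial)

end GenKloc

section Loc

variable (K L : Type) [Field K] [NumberField K] [Field L] [NumberField L] [Algebra K L]
variable (A : Type) [CommRing A] [Algebra K A]

theorem locH_H2π (f : cocycles₂ (Rep.ofAlgebraAutOnUnits K L)) :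
    locH K L A 2 (H2π (Rep.ofAlgebraAutOnUnits K L) f) =
      H2π (JRep K L A) (mapCocycles₂ (MonoidHom.id (L ≃ₐ[K] L)) (LxToJ K L A) f) := by
  have h := congrArg (fun t => t.hom f)
    (H2π_comp_map (MonoidHom.id (L ≃ₐ[K] L)) (LxToJ K L A))
  simp only [ModuleCat.hom_comp, LinearMap.comp_apply] at h
  exact h

theorem toMul_mapCocycles₂ (f : cocycles₂ (Rep.ofAlgebraAutOnUnits K L)) (g h : L ≃ₐ[K] L) :
    (Additive.toMul ((mapCocycles₂ (MonoidHom.id (L ≃ₐ[K] L)) (LxToJ K L A) f) (g, h)) :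
      (L ⊗[K] A)ˣ) = inclUnits K L A (Additive.toMul (f (g, h))) := rfl

end Loc

section Main

attribute [local instance] Algebra.TensorProduct.rightAlgebra
attribute [local instance] stabQuotAction
attribute [local instance] SemilocalH3.finiteDimensional_nf

variable (K L : Type) [Field K] [NumberField K] [Field L] [NumberField L] [Algebra K L]
  [IsGalois K L]
variable (F : Type) [NontriviallyNormedField F] [IsUltrametricDist F] [ProperSpace F]
  [Algebra K F]
variable (T : Finset Nat.Primes) (q : Nat.Primes)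

theorem locH_H2π_eq_zero_generic
    (ρ : ℚ_[((q : Nat.Primes) : ℕ)] →+* F) (hρ : ∀ a, ‖ρ a‖ = ‖a‖)
    (hgen : Subring.closure (Set.range (algebraMap K F) ∪ Set.range ρ) = ⊤)
    (hqT : q ∉ T)
    (hram : ∀ w : Place L, (∃ σ : L ≃ₐ[K] L, σ ∈ w.asIdeal.inertia (L ≃ₐ[K] L) ∧ σ ≠ 1) →
      w ∈ placesAboveQ L T)
    (f : cocycles₂ (Rep.ofAlgebraAutOnUnits K L))
    (hf : ∀ g h : L ≃ₐ[K] L, (Additive.toMul (f (g, h)) : Lˣ) ∈ EUnitsQ L T) :
    locH K L F 2 (H2π (Rep.ofAlgebraAutOnUnits K L) f) = 0 := by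
  obtain ⟨m, hm⟩ := Ideal.exists_maximal (L ⊗[K] F)
  letI := Ideal.Quotient.field m
  haveI := SemilocalH3.finiteDimensional_quot K L F m
  haveI := SemilocalH3.isGalois_quot K L F m
  letI := FiniteExtLF.nontriviallyNormedFieldExt F ((L ⊗[K] F) ⧸ m)
  letI := FiniteExtLF.normedAlgebraExt F ((L ⊗[K] F) ⧸ m)
  haveI := FiniteExtLF.isUltrametricDistExt F ((L ⊗[K] F) ⧸ m)
  haveI := FiniteExtLF.properSpaceExt F ((L ⊗[K] F) ⧸ m)
  letI : MulDistribMulAction (MulAction.stabilizer (L ≃ₐ[K] L) m) ((L ⊗[K] F) ⧸ m)ˣ :=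
    Units.mulDistribMulActionRight
  have hι : ∀ a, ‖iotaR K L F m ρ a‖ = ‖a‖ := fun a => by
    rw [iotaR_apply, FiniteExtLF.norm_algebraMap, hρ]
  have hdense : DenseRange (jHom K L F m) :=
    denseRange_of_closure_eq_top (jHom K L F m) (iotaR K L F m ρ) hι
      (closure_eq_top K L F m ρ hgen)
  have hq : ‖jHom K L F m (((q : Nat.Primes) : ℕ) : L)‖ < 1 := by
    rw [map_natCast]
    exact norm_natCast_lt_one (iotaR K L F m ρ) hι
  have hunr : IsUnram F ((L ⊗[K] F) ⧸ m) :=
    isUnram_of_ram K (jHom K L F m) T q (jHom_algebraMap K L F m) hdense hq hqT hram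
  rw [locH_H2π]
  refine SemilocalSub.H2π_eq_zero_of_components (SemilocalH3.isSemilocal K L F m)
    (fun _ _ => rfl) (fun _ _ => rfl)
    (unitsInclD (SemilocalH3.stabEquiv K L F m) (fun _ _ => rfl))
    (unitsInclD_injective _ _) (isZero_unitsRepD _ hunr 2 (by norm_num)) _ ?_
  intro g h x
  apply ofMul_mem_range_unitsInclD
  rw [toMul_mapCocycles₂, smul_inclUnits]
  exact norm_smul_eq_one K (jHom K L F m) T q hq hqT (hf g h) x

end Main

section KlocMain

variable (K L : Type) [Field K] [NumberField K] [Field L] [NumberField L] [Algebra K L]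
  [IsGalois K L]
variable (T : Finset Nat.Primes) (q : Nat.Primes) (𝔪 : Ideal (Ksemi K q)) [h𝔪 : 𝔪.IsMaximal]

attribute [local instance] Algebra.TensorProduct.rightAlgebra

/-- **(U2)**  A class of `H²(Gal(L/K), Lˣ)` represented by a cocycle with values in the `T`-units
is trivial in `H²(Gal(L/K), (L ⊗[K] K_𝔪)ˣ)` at every place `𝔪` of `K` above a rational prime
`q ∉ T`, provided `L/K` is unramified outside `T`. -/
theorem locH_H2π_eq_zero (hqT : q ∉ T)
    (hram : ∀ w : Place L, (∃ σ : L ≃ₐ[K] L, σ ∈ w.asIdeal.inertia (L ≃ₐ[K] L) ∧ σ ≠ 1) →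
      w ∈ placesAboveQ L T)
    (f : cocycles₂ (Rep.ofAlgebraAutOnUnits K L))
    (hf : ∀ g h : L ≃ₐ[K] L, (Additive.toMul (f (g, h)) : Lˣ) ∈ EUnitsQ L T) :
    locH K L (Kloc K q 𝔪) 2 (H2π (Rep.ofAlgebraAutOnUnits K L) f) = 0 := by
  letI := Ideal.Quotient.field 𝔪
  haveI := SemilocalH3.finiteDimensional_Kloc K q 𝔪
  letI := FiniteExtLF.nontriviallyNormedFieldExt ℚ_[((q : Nat.Primes) : ℕ)] (Kloc K q 𝔪)
  haveI := FiniteExtLF.isUltrametricDistExt ℚ_[((q : Nat.Primes) : ℕ)] (Kloc K q 𝔪)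
  haveI := FiniteExtLF.properSpaceExt ℚ_[((q : Nat.Primes) : ℕ)] (Kloc K q 𝔪)
  exact locH_H2π_eq_zero_generic K L (Kloc K q 𝔪) T q
    (algebraMap ℚ_[((q : Nat.Primes) : ℕ)] (Kloc K q 𝔪))
    (fun a => FiniteExtLF.norm_algebraMap ℚ_[((q : Nat.Primes) : ℕ)] (Kloc K q 𝔪) a)
    (closure_Kloc_eq_top K q 𝔪) hqT hram f hf

/-- Same, from `Blocks2.AdmissibleQ`. -/
theorem locH_H2π_eq_zero_of_admissibleQ {p : ℕ} (hadm : Blocks2.AdmissibleQ K L p T)
    (hqT : q ∉ T) (f : cocycles₂ (Rep.ofAlgebraAutOnUnits K L))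
    (hf : ∀ g h : L ≃ₐ[K] L, (Additive.toMul (f (g, h)) : Lˣ) ∈ EUnitsQ L T) :
    locH K L (Kloc K q 𝔪) 2 (H2π (Rep.ofAlgebraAutOnUnits K L) f) = 0 :=
  locH_H2π_eq_zero K L T q 𝔪 hqT hadm.ram f hf

end KlocMain

end Fermat.Agent.S55.Global.UnitClassUnram
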