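/-
S55 / Global / G.dec — `UnramDictKloc` (helper71): the UNRAMIFIED DICTIONARY in the v3 (`ℚ`-based)
language, wanted by row (U) (helper25 / helper26 / helper56) and `G.recip.unramBwd`.

SETTING.  `K ⊆ L` number fields (`Type`), `q` a rational prime, `F` a field with `[Algebra K F]`
`[Algebra ℚ_[q] F] [FiniteDimensional ℚ_[q] F]` and a surjective factor
`ψ : K ⊗[ℚ] ℚ_[q] →+* F`, `ψ (k ⊗ c) = k · c`  (for `F = Blocks3.Kloc K q 𝔪` take
`ψ = Ideal.Quotient.mk 𝔪`: section `Kloc`).  `M` maximal in `L ⊗[K] F` (with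
`Algebra.TensorProduct.rightAlgebra`), `E = (L ⊗[K] F) ⧸ M`.
Norms: `F` by `FiniteExtLF.nontriviallyNormedFieldExt ℚ_[q] F` (spectral norm over `ℚ_[q]`),
`E` by `FiniteExtLF.nontriviallyNormedFieldExt F E` (spectral norm over `F`) — the conventions of
`Global/SemilocalH3.lean`.

EXPORTS (general `F`; the `Kloc` section restates the main ones for `F = Kloc K q 𝔪`,
`placeOf ψ = PlaceBij.placeOfMax 𝔪`):
* `finite_quot`, `finite_QE`, `isAlgebraic_QE`, `algQE` (the `ℚ_[q]`-algebra structure of `E`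
  through `F`), `isScalarTower_QE`;
* `factorAt K L q F M : L ⊗[ℚ] ℚ_[q] →+* E` (a surjective factor in the sense of `PlaceBij`),
  `placeAbove K L q F M : HeightOneSpectrum (𝓞 L)` the place of `L` cut out by `M`,
  `placeAbove_comap / placeAbove_liesOver` (it lies over `placeOf ψ`), `natCast_mem_placeAbove`;
* `spectralNorm_tower` : `spectralNorm F E x = spectralNorm ℚ_[q] E x`;
  `norm_eq_spectralNorm`, `norm_mk_tmul`, and the DICTIONARY
  `norm_mk_tmul_le_one_iff / _lt_one_iff / _eq_one_iff : ‖[l ⊗ 1]‖ (≤,<,=) 1 ↔ w(l) (≤,<,=) 1`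
  for `w = placeAbove`, `norm_mk_tmul_int_le_one`;
* VALUE GROUP: `exists_nuAbove_eq` (every nonzero `x : E` has the norm of some `[l ⊗ 1]`),
  `nuAbove_eq_zpow` (`‖[l ⊗ 1]‖ = ‖[π ⊗ 1]‖ ^ (-log w(l))` for a uniformizer `π` at `w`);
* UNRAMIFIED: `exists_spectralNorm_eq`, `isUnram_of_uniformizer` (some `π ∈ K` is a uniformizer at
  `w`), `isUnram_of_ramificationIdx` (`e(w|v) = 1`), `isUnram_of_forall_ramificationIdx`,
  `isUnram_of_inertia` (`L/K` Galois, trivial inertia over `v`: the `hunr` of `RecipUnramBwd`):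
  each concludes `Local.Blocks.IsUnram F E` for the `FiniteExtLF` norms;
* `Kloc` forms: `placeAt K L q 𝔪 M`, `placeAt_comap`, `placeAt_liesOver`, `natCast_mem_placeAt`,
  `isUnram_Kloc_of_uniformizer / _of_ramificationIdx / _of_inertia`,
  `norm_mk_tmul_eq_one_iff_Kloc`, `norm_mk_tmul_eq_one_of_forall` (elements of `L` which are units
  at all primes above `q` have norm one in every residue field of `L ⊗[K] Kloc K q 𝔪`).
-/
import Mathlib
import Fermat.Agent.S55.Global.PlaceBij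
import Fermat.Agent.S55.Global.CenterValuation
import Fermat.Agent.S55.Global.Blocks3
import Fermat.Agent.S55.Global.FiniteExtLF
import Fermat.Agent.S55.Local.Blocks

set_option autoImplicit false
set_option linter.unusedSectionVars false
set_option linter.style.haveILetI false

namespace Fermat.Agent.S55.Global.UnramDictKloc

open NumberField IsDedekindDomain
open scoped TensorProduct NumberField
open Fermat.Agent.S55.Global.PlaceBij Fermat.Agent.S55.Global.Blocks3
open Fermat.Agent.S55.Middle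

section Generic

variable {q : ℕ} [Fact q.Prime] {L : Type*} [Field L] [NumberField L]
variable {Ω : Type*} [CommRing Ω] [Algebra ℚ_[q] Ω]

/-- The ring hom `L ⊗[ℚ] ℚ_[q] → Ω`, `x ⊗ c ↦ e x * c`, attached to an embedding `e : L →+* Ω`
into a `ℚ_[q]`-field. -/
noncomputable def factorOf (e : L →+* Ω) : L ⊗[ℚ] ℚ_[q] →+* Ω :=
  letI : Algebra ℚ Ω := (e.comp (algebraMap ℚ L)).toAlgebra
  (Algebra.TensorProduct.productMap (⟨e, fun _ => rfl⟩ : L →ₐ[ℚ] Ω)
    (⟨algebraMap ℚ_[q] Ω, fun r =>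
      RingHom.congr_fun (Subsingleton.elim ((algebraMap ℚ_[q] Ω).comp (algebraMap ℚ ℚ_[q]))
        (e.comp (algebraMap ℚ L))) r⟩ : ℚ_[q] →ₐ[ℚ] Ω)).toRingHom

theorem factorOf_tmul (e : L →+* Ω) (x : L) (c : ℚ_[q]) :
    factorOf e (x ⊗ₜ[ℚ] c) = e x * algebraMap ℚ_[q] Ω c := by
  unfold factorOf
  simp only [AlgHom.toRingHom_eq_coe, RingHom.coe_coe,
    Algebra.TensorProduct.productMap_apply_tmul]
  rfl

theorem factorOf_one_tmul (e : L →+* Ω) (c : ℚ_[q]) :
    factorOf e ((1 : L) ⊗ₜ[ℚ] c) = algebraMap ℚ_[q] Ω c := by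
  rw [factorOf_tmul, map_one, one_mul]

theorem factorOf_tmul_one (e : L →+* Ω) (x : L) :
    factorOf e (x ⊗ₜ[ℚ] (1 : ℚ_[q])) = e x := by
  rw [factorOf_tmul, map_one, mul_one]

end Generic

theorem norm_eq_of_norm_sub_lt {S : Type*} [SeminormedAddCommGroup S] [IsUltrametricDist S]
    {a b : S} (h : ‖a - b‖ < ‖a‖) : ‖a‖ = ‖b‖ := by
  apply le_antisymm
  · have h1 : ‖a‖ ≤ max ‖a - b‖ ‖b‖ := by
      have := IsUltrametricDist.norm_add_le_max (a - b) b
      rwa [sub_add_cancel] at this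
    rcases le_max_iff.mp h1 with h2 | h2
    · exact absurd h2 (not_le.mpr h)
    · exact h2
  · have h1 : ‖b‖ ≤ max ‖a‖ ‖a - b‖ := by
      have := IsUltrametricDist.norm_add_le_max a (-(a - b))
      rwa [norm_neg, ← sub_eq_add_neg, sub_sub_cancel] at this
    exact h1.trans (max_le le_rfl h.le)

section Value

variable {q : ℕ} [Fact q.Prime] {L : Type*} [Field L] [NumberField L]
variable {Ω : Type*} [Field Ω] [Algebra ℚ_[q] Ω] [Algebra.IsAlgebraic ℚ_[q] Ω]
  (φ : L ⊗[ℚ] ℚ_[q] →+* Ω) (hφ : ∀ c : ℚ_[q], φ ((1 : L) ⊗ₜ[ℚ] c) = algebraMap ℚ_[q] Ω c)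
  (hsurj : Function.Surjective φ)

include hφ hsurj in
/-- Every nonzero element of a (surjective) factor has the spectral norm of a global element. -/
theorem exists_nu_eq {y : Ω} (hy : y ≠ 0) :
    ∃ l : L, l ≠ 0 ∧ spectralNorm ℚ_[q] Ω y = nu φ l := by
  have hpos : 0 < spectralNorm ℚ_[q] Ω y := by
    rw [← norm_iota]
    exact norm_pos_iff.mpr ((map_ne_zero (iota Ω)).mpr hy)
  obtain ⟨l, hl⟩ := dense_of_surjective φ hφ hsurj y hpos
  rw [← norm_iota, ← norm_iota (q := q) y, map_sub] at hl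
  have heq : ‖iota (q := q) Ω y‖ = ‖iota (q := q) Ω (φ (l ⊗ₜ[ℚ] (1 : ℚ_[q])))‖ :=
    norm_eq_of_norm_sub_lt hl
  refine ⟨l, ?_, ?_⟩
  · rintro rfl
    rw [TensorProduct.zero_tmul, map_zero, map_zero, norm_zero] at heq
    rw [← norm_iota] at hpos
    exact hpos.ne' heq
  · rw [← norm_iota, heq, norm_iota]
    rfl

include hφ hsurj in
/-- The value group of a surjective factor is generated by the norm of a global uniformizer
at its place: explicit formula. -/
theorem exists_spectralNorm_eq_zpow {π : L}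
    (hπ : (placeOf φ).valuation L π = WithZero.exp (-1 : ℤ)) {y : Ω} (hy : y ≠ 0) :
    ∃ n : ℤ, spectralNorm ℚ_[q] Ω y = (nu φ π) ^ n := by
  obtain ⟨l, hl0, hl⟩ := exists_nu_eq φ hφ hsurj hy
  refine ⟨-(WithZero.log ((placeOf φ).valuation L l)), ?_⟩
  rw [hl, ← norm_emb, ← norm_emb]
  exact CenterValuation.norm_eq_zpow (placeOf φ) (emb φ)
    (fun r => by rw [norm_emb]; exact nu_int_le_one φ r)
    (fun r => by rw [norm_emb]; exact (mem_placeOf φ r).symm) hπ hl0

/-- Explicit formula on global elements. -/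
theorem nu_eq_zpow {π : L}
    (hπ : (placeOf φ).valuation L π = WithZero.exp (-1 : ℤ)) {l : L} (hl : l ≠ 0) :
    nu φ l = (nu φ π) ^ (-(WithZero.log ((placeOf φ).valuation L l))) := by
  rw [← norm_emb, ← norm_emb]
  exact CenterValuation.norm_eq_zpow (placeOf φ) (emb φ)
    (fun r => by rw [norm_emb]; exact nu_int_le_one φ r)
    (fun r => by rw [norm_emb]; exact (mem_placeOf φ r).symm) hπ hl

end Value

section Tower

variable {q : ℕ} [Fact q.Prime]

/-- **Tower**: if `F` is a finite extension of `ℚ_[q]`, normed by the spectral norm, and `E/F` is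
algebraic, then the spectral norm of `E` over `F` is the spectral norm of `E` over `ℚ_[q]`. -/
theorem spectralNorm_tower (F E : Type*) [Field F] [Algebra ℚ_[q] F] [FiniteDimensional ℚ_[q] F]
    [Field E] [Algebra F E] [Algebra ℚ_[q] E] [IsScalarTower ℚ_[q] F E]
    [Algebra.IsAlgebraic F E] (x : E) :
    letI := FiniteExtLF.nontriviallyNormedFieldExt ℚ_[q] F
    spectralNorm F E x = spectralNorm ℚ_[q] E x := by
  letI := FiniteExtLF.nontriviallyNormedFieldExt ℚ_[q] F
  haveI := FiniteExtLF.isUltrametricDistExt ℚ_[q] F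
  haveI := FiniteExtLF.properSpaceExt ℚ_[q] F
  haveI : Algebra.IsAlgebraic ℚ_[q] E := Algebra.IsAlgebraic.trans ℚ_[q] F E
  letI nE : NormedField E := spectralNorm.normedField ℚ_[q] E
  have h := spectralNorm_unique_field_norm_ext (K := F) (L := E)
    (f := NormedField.toAbsoluteValue E) (fun y => by
      change spectralNorm ℚ_[q] E (algebraMap F E y) = spectralNorm ℚ_[q] F y
      exact (spectralNorm.eq_of_tower (K := ℚ_[q]) (L := E) y).symm) x
  exact h.symm

end Tower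

section General

attribute [local instance] Algebra.TensorProduct.rightAlgebra

variable (K L : Type) [Field K] [NumberField K] [Field L] [NumberField L] [Algebra K L]
variable (q : ℕ) [Fact q.Prime]
variable (F : Type) [Field F] [Algebra K F] [Algebra ℚ_[q] F]
variable (M : Ideal (L ⊗[K] F)) [hM : M.IsMaximal]

/-- The residue field `(L ⊗[K] F) ⧸ M` is finite over `F`. -/
theorem finite_quot :
    letI := Ideal.Quotient.field M
    FiniteDimensional F ((L ⊗[K] F) ⧸ M) := by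
  letI := Ideal.Quotient.field M
  haveI : Module.Finite K L := Module.Finite.of_restrictScalars_finite ℚ K L
  haveI : Module.Finite F (L ⊗[K] F) :=
    Module.Finite.of_surjective
      (Algebra.TensorProduct.commRight K F L).toLinearMap
      (Algebra.TensorProduct.commRight K F L).surjective
  exact Module.Finite.of_surjective (Ideal.Quotient.mkₐ F M).toLinearMap
    (Ideal.Quotient.mkₐ_surjective F M)

/-- The `ℚ_[q]`-algebra structure of the residue field `E = (L ⊗[K] F) ⧸ M`, through `F`. -/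
@[reducible] noncomputable def algQE : Algebra ℚ_[q] ((L ⊗[K] F) ⧸ M) :=
  ((algebraMap F ((L ⊗[K] F) ⧸ M)).comp (algebraMap ℚ_[q] F)).toAlgebra

theorem isScalarTower_QE :
    letI := algQE K L q F M
    IsScalarTower ℚ_[q] F ((L ⊗[K] F) ⧸ M) :=
  letI := algQE K L q F M
  IsScalarTower.of_algebraMap_eq (R := ℚ_[q]) (S := F) (A := (L ⊗[K] F) ⧸ M) (fun _ => rfl)

/-- The embedding `L → E`, `l ↦ [l ⊗ 1]`. -/
noncomputable def embL : L →+* (L ⊗[K] F) ⧸ M :=
  (Ideal.Quotient.mk M).comp Algebra.TensorProduct.includeLeftRingHom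

theorem embL_apply (l : L) :
    embL K L F M l = Ideal.Quotient.mk M (l ⊗ₜ[K] (1 : F)) := rfl

/-- `[algebraMap K L k ⊗ 1] = [1 ⊗ k]`. -/
theorem embL_algebraMap (k : K) :
    embL K L F M (algebraMap K L k) =
      algebraMap F ((L ⊗[K] F) ⧸ M) (algebraMap K F k) := by
  rw [embL_apply]
  change _ = Ideal.Quotient.mk M ((1 : L) ⊗ₜ[K] (algebraMap K F k))
  congr 1
  rw [Algebra.algebraMap_eq_smul_one, Algebra.algebraMap_eq_smul_one, TensorProduct.smul_tmul]

/-- The factor `L ⊗[ℚ] ℚ_[q] → E` attached to `M`. -/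
noncomputable def factorAt : L ⊗[ℚ] ℚ_[q] →+* (L ⊗[K] F) ⧸ M :=
  letI := algQE K L q F M
  factorOf (embL K L F M)

theorem factorAt_tmul (l : L) (c : ℚ_[q]) :
    factorAt K L q F M (l ⊗ₜ[ℚ] c) =
      Ideal.Quotient.mk M (l ⊗ₜ[K] (algebraMap ℚ_[q] F c)) := by
  letI := algQE K L q F M
  unfold factorAt
  rw [factorOf_tmul, embL_apply]
  change Ideal.Quotient.mk M (l ⊗ₜ[K] (1 : F)) *
    Ideal.Quotient.mk M ((1 : L) ⊗ₜ[K] (algebraMap ℚ_[q] F c)) = _
  rw [← map_mul, Algebra.TensorProduct.tmul_mul_tmul, mul_one, one_mul]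

theorem factorAt_tmul_one (l : L) :
    factorAt K L q F M (l ⊗ₜ[ℚ] (1 : ℚ_[q])) = embL K L F M l := by
  letI := algQE K L q F M
  exact factorOf_tmul_one _ l

theorem factorAt_one_tmul (c : ℚ_[q]) :
    letI := algQE K L q F M
    factorAt K L q F M ((1 : L) ⊗ₜ[ℚ] c) = algebraMap ℚ_[q] ((L ⊗[K] F) ⧸ M) c :=
  letI := algQE K L q F M
  factorOf_one_tmul _ c

variable (ψ : K ⊗[ℚ] ℚ_[q] →+* F)
  (hψ : ∀ (k : K) (c : ℚ_[q]), ψ (k ⊗ₜ[ℚ] c) = algebraMap K F k * algebraMap ℚ_[q] F c)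
  (hψs : Function.Surjective ψ)

include hψ hψs in
theorem factorAt_surjective : Function.Surjective (factorAt K L q F M) := by
  intro y
  obtain ⟨z, rfl⟩ := Ideal.Quotient.mk_surjective y
  induction z using TensorProduct.induction_on with
  | zero => exact ⟨0, by simp⟩
  | add a b ha hb =>
    obtain ⟨a', ha'⟩ := ha
    obtain ⟨b', hb'⟩ := hb
    exact ⟨a' + b', by rw [map_add, ha', hb', map_add]⟩
  | tmul l y =>
    obtain ⟨a, rfl⟩ := hψs y
    induction a using TensorProduct.induction_on with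
    | zero => exact ⟨0, by simp⟩
    | add a b ha hb =>
      obtain ⟨a', ha'⟩ := ha
      obtain ⟨b', hb'⟩ := hb
      refine ⟨a' + b', ?_⟩
      rw [map_add, ha', hb', ← map_add, ← TensorProduct.tmul_add, ← map_add]
    | tmul k c =>
      refine ⟨(k • l) ⊗ₜ[ℚ] c, ?_⟩
      rw [factorAt_tmul, hψ]
      congr 1
      rw [TensorProduct.smul_tmul, Algebra.smul_def]

end General

section Place

attribute [local instance] Algebra.TensorProduct.rightAlgebra

variable (K L : Type) [Field K] [NumberField K] [Field L] [NumberField L] [Algebra K L]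
variable (q : ℕ) [Fact q.Prime]
variable (F : Type) [Field F] [Algebra K F] [Algebra ℚ_[q] F] [FiniteDimensional ℚ_[q] F]
variable (M : Ideal (L ⊗[K] F)) [hM : M.IsMaximal]

theorem finite_QE :
    letI := Ideal.Quotient.field M
    letI := algQE K L q F M
    FiniteDimensional ℚ_[q] ((L ⊗[K] F) ⧸ M) := by
  letI := Ideal.Quotient.field M
  letI := algQE K L q F M
  haveI := isScalarTower_QE K L q F M
  haveI := finite_quot K L F M
  exact Module.Finite.trans F _

theorem isAlgebraic_QE :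
    letI := Ideal.Quotient.field M
    letI := algQE K L q F M
    Algebra.IsAlgebraic ℚ_[q] ((L ⊗[K] F) ⧸ M) := by
  letI := Ideal.Quotient.field M
  letI := algQE K L q F M
  haveI := finite_QE K L q F M
  exact Algebra.IsAlgebraic.of_finite _ _

/-- The seminorm on `L` attached to `M`: the `ℚ_[q]`-spectral norm of `[l ⊗ 1]`. -/
noncomputable def nuAbove (l : L) : ℝ :=
  letI := Ideal.Quotient.field M
  letI := algQE K L q F M
  spectralNorm ℚ_[q] ((L ⊗[K] F) ⧸ M) (Ideal.Quotient.mk M (l ⊗ₜ[K] (1 : F)))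

/-- The place of `L` cut out by the maximal ideal `M` of `L ⊗[K] F`. -/
noncomputable def placeAbove : HeightOneSpectrum (𝓞 L) :=
  letI := Ideal.Quotient.field M
  letI := algQE K L q F M
  haveI := isAlgebraic_QE K L q F M
  placeOf (factorAt K L q F M)

theorem nu_factorAt (l : L) :
    letI := Ideal.Quotient.field M
    letI := algQE K L q F M
    haveI := isAlgebraic_QE K L q F M
    nu (factorAt K L q F M) l = nuAbove K L q F M l := by
  letI := Ideal.Quotient.field M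
  letI := algQE K L q F M
  haveI := isAlgebraic_QE K L q F M
  unfold nu nuAbove
  rw [factorAt_tmul_one]
  rfl

theorem mem_placeAbove (r : 𝓞 L) :
    r ∈ (placeAbove K L q F M).asIdeal ↔ nuAbove K L q F M (algebraMap (𝓞 L) L r) < 1 := by
  letI := Ideal.Quotient.field M
  letI := algQE K L q F M
  haveI := isAlgebraic_QE K L q F M
  rw [← nu_factorAt]
  exact mem_placeOf (factorAt K L q F M) r

theorem natCast_mem_placeAbove : ((q : ℕ) : 𝓞 L) ∈ (placeAbove K L q F M).asIdeal := by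
  letI := Ideal.Quotient.field M
  letI := algQE K L q F M
  haveI := isAlgebraic_QE K L q F M
  exact natCast_mem_placeOf (factorAt K L q F M)

theorem valuation_le_one_iff_above (x : L) :
    (placeAbove K L q F M).valuation L x ≤ 1 ↔ nuAbove K L q F M x ≤ 1 := by
  letI := Ideal.Quotient.field M
  letI := algQE K L q F M
  haveI := isAlgebraic_QE K L q F M
  rw [← nu_factorAt]
  exact valuation_le_one_iff (factorAt K L q F M) x

theorem valuation_lt_one_iff_above (x : L) :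
    (placeAbove K L q F M).valuation L x < 1 ↔ nuAbove K L q F M x < 1 := by
  letI := Ideal.Quotient.field M
  letI := algQE K L q F M
  haveI := isAlgebraic_QE K L q F M
  rw [← nu_factorAt]
  exact valuation_lt_one_iff (factorAt K L q F M) x

/-- **Unit criterion**: `l ∈ L` is a unit at the place of `M` iff `[l ⊗ 1]` has norm one. -/
theorem valuation_eq_one_iff_above (x : L) :
    (placeAbove K L q F M).valuation L x = 1 ↔ nuAbove K L q F M x = 1 := by
  letI := Ideal.Quotient.field M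
  letI := algQE K L q F M
  haveI := isAlgebraic_QE K L q F M
  rw [← nu_factorAt]
  exact valuation_eq_one_iff (factorAt K L q F M) x

/-- On `K`, the seminorm of `M` is the spectral norm of `F`. -/
theorem nuAbove_algebraMap (k : K) :
    nuAbove K L q F M (algebraMap K L k) = spectralNorm ℚ_[q] F (algebraMap K F k) := by
  letI := Ideal.Quotient.field M
  letI := algQE K L q F M
  haveI := isScalarTower_QE K L q F M
  unfold nuAbove
  rw [← embL_apply, embL_algebraMap]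
  exact (spectralNorm.eq_of_tower (K := ℚ_[q]) (L := (L ⊗[K] F) ⧸ M) (algebraMap K F k)).symm

variable (ψ : K ⊗[ℚ] ℚ_[q] →+* F)
  (hψ : ∀ (k : K) (c : ℚ_[q]), ψ (k ⊗ₜ[ℚ] c) = algebraMap K F k * algebraMap ℚ_[q] F c)

include hψ in
theorem nu_base (k : K) : nu ψ k = spectralNorm ℚ_[q] F (algebraMap K F k) := by
  unfold nu
  rw [hψ, map_one, mul_one]

include hψ in
/-- The place of `M` lies over the place of `F`. -/
theorem placeAbove_comap :
    (placeAbove K L q F M).asIdeal.comap (algebraMap (𝓞 K) (𝓞 L)) = (placeOf ψ).asIdeal := by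
  ext r
  rw [Ideal.mem_comap, mem_placeAbove, mem_placeOf, nu_base K q F ψ hψ]
  rw [show algebraMap (𝓞 L) L (algebraMap (𝓞 K) (𝓞 L) r) = algebraMap K L (algebraMap (𝓞 K) K r)
    from rfl, nuAbove_algebraMap]

include hψ in
theorem placeAbove_liesOver :
    (placeAbove K L q F M).asIdeal.LiesOver (placeOf ψ).asIdeal :=
  ⟨(placeAbove_comap K L q F M ψ hψ).symm⟩

end Place

section Main

attribute [local instance] Algebra.TensorProduct.rightAlgebra

variable (K L : Type) [Field K] [NumberField K] [Field L] [NumberField L] [Algebra K L]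
variable (q : ℕ) [Fact q.Prime]
variable (F : Type) [Field F] [Algebra K F] [Algebra ℚ_[q] F] [FiniteDimensional ℚ_[q] F]
variable (M : Ideal (L ⊗[K] F)) [hM : M.IsMaximal]
variable (ψ : K ⊗[ℚ] ℚ_[q] →+* F)
  (hψ : ∀ (k : K) (c : ℚ_[q]), ψ (k ⊗ₜ[ℚ] c) = algebraMap K F k * algebraMap ℚ_[q] F c)
  (hψs : Function.Surjective ψ)

include hψ hψs in
/-- **Value group**: every nonzero element of `E = (L ⊗[K] F) ⧸ M` has the norm of a global
element of `L`. -/
theorem exists_nuAbove_eq {x : (L ⊗[K] F) ⧸ M} (hx : x ≠ 0) :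
    letI := Ideal.Quotient.field M
    letI := algQE K L q F M
    ∃ l : L, l ≠ 0 ∧ spectralNorm ℚ_[q] ((L ⊗[K] F) ⧸ M) x = nuAbove K L q F M l := by
  letI := Ideal.Quotient.field M
  letI := algQE K L q F M
  haveI := isAlgebraic_QE K L q F M
  obtain ⟨l, hl0, hl⟩ := exists_nu_eq (factorAt K L q F M) (factorAt_one_tmul K L q F M)
    (factorAt_surjective K L q F M ψ hψ hψs) hx
  exact ⟨l, hl0, hl.trans (nu_factorAt K L q F M l)⟩

/-- Explicit formula for the seminorm of `M` on `L` in terms of a uniformizer. -/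
theorem nuAbove_eq_zpow {π : L}
    (hπ : (placeAbove K L q F M).valuation L π = WithZero.exp (-1 : ℤ)) {l : L} (hl : l ≠ 0) :
    nuAbove K L q F M l =
      (nuAbove K L q F M π) ^ (-(WithZero.log ((placeAbove K L q F M).valuation L l))) := by
  letI := Ideal.Quotient.field M
  letI := algQE K L q F M
  haveI := isAlgebraic_QE K L q F M
  rw [← nu_factorAt, ← nu_factorAt]
  exact nu_eq_zpow (factorAt K L q F M) hπ hl

include hψ hψs in
/-- **Unramified dictionary, spectral form.** If some `π ∈ K` is a uniformizer at the place of `L`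
cut out by `M` (i.e. `e = 1`), then every element of `E = (L ⊗[K] F) ⧸ M` has the
(`ℚ_[q]`-spectral) norm of an element of `F`. -/
theorem exists_spectralNorm_eq {π : K}
    (hπ : (placeAbove K L q F M).valuation L (algebraMap K L π) = WithZero.exp (-1 : ℤ))
    (x : (L ⊗[K] F) ⧸ M) :
    letI := Ideal.Quotient.field M
    letI := algQE K L q F M
    ∃ y : F, spectralNorm ℚ_[q] ((L ⊗[K] F) ⧸ M) x = spectralNorm ℚ_[q] F y := by
  letI := Ideal.Quotient.field M
  letI := algQE K L q F M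
  by_cases hx : x = 0
  · exact ⟨0, by rw [hx, spectralNorm_zero, spectralNorm_zero]⟩
  obtain ⟨l, hl0, hl⟩ := exists_nuAbove_eq K L q F M ψ hψ hψs hx
  refine ⟨(algebraMap K F π) ^ (-(WithZero.log ((placeAbove K L q F M).valuation L l))), ?_⟩
  rw [hl, nuAbove_eq_zpow K L q F M hπ hl0, nuAbove_algebraMap]
  letI := spectralNorm.normedField ℚ_[q] F
  exact (norm_zpow (algebraMap K F π) _).symm

include hψ hψs in
/-- **Unramified dictionary** in the `Local.Blocks.IsUnram` form, for the `FiniteExtLF` norms: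
`F` normed by the `ℚ_[q]`-spectral norm, `E = (L ⊗[K] F) ⧸ M` by the `F`-spectral norm. -/
theorem isUnram_of_uniformizer {π : K}
    (hπ : (placeAbove K L q F M).valuation L (algebraMap K L π) = WithZero.exp (-1 : ℤ)) :
    letI := Ideal.Quotient.field M
    letI := FiniteExtLF.nontriviallyNormedFieldExt ℚ_[q] F
    haveI := FiniteExtLF.isUltrametricDistExt ℚ_[q] F
    haveI := FiniteExtLF.properSpaceExt ℚ_[q] F
    haveI := finite_quot K L F M
    letI := FiniteExtLF.nontriviallyNormedFieldExt F ((L ⊗[K] F) ⧸ M)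
    letI := FiniteExtLF.normedAlgebraExt F ((L ⊗[K] F) ⧸ M)
    Local.Blocks.IsUnram F ((L ⊗[K] F) ⧸ M) := by
  letI := Ideal.Quotient.field M
  letI := FiniteExtLF.nontriviallyNormedFieldExt ℚ_[q] F
  haveI := FiniteExtLF.isUltrametricDistExt ℚ_[q] F
  haveI := FiniteExtLF.properSpaceExt ℚ_[q] F
  haveI := finite_quot K L F M
  letI := FiniteExtLF.nontriviallyNormedFieldExt F ((L ⊗[K] F) ⧸ M)
  letI := FiniteExtLF.normedAlgebraExt F ((L ⊗[K] F) ⧸ M)
  letI := algQE K L q F M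
  haveI := isScalarTower_QE K L q F M
  intro x
  obtain ⟨y, hy⟩ := exists_spectralNorm_eq K L q F M ψ hψ hψs hπ x
  refine ⟨y, ?_⟩
  change spectralNorm F ((L ⊗[K] F) ⧸ M) x = spectralNorm ℚ_[q] F y
  rw [← hy]
  exact spectralNorm_tower F ((L ⊗[K] F) ⧸ M) x

end Main

section Ram

variable {K L : Type*} [Field K] [NumberField K] [Field L] [NumberField L] [Algebra K L]

/-- `e(w | v) = 1` ⇒ a uniformizer of `v` in `K` is a uniformizer of `w`. -/
theorem exists_uniformizer_of_ramificationIdx_eq_one (v : HeightOneSpectrum (𝓞 K))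
    (w : HeightOneSpectrum (𝓞 L)) [w.asIdeal.LiesOver v.asIdeal]
    (h : w.asIdeal.ramificationIdx (𝓞 K) = 1) :
    ∃ π : K, v.valuation K π = WithZero.exp (-1 : ℤ) ∧
      w.valuation L (algebraMap K L π) = WithZero.exp (-1 : ℤ) := by
  obtain ⟨π, hπ⟩ := v.valuation_exists_uniformizer K
  refine ⟨π, hπ, ?_⟩
  have h1 := HeightOneSpectrum.valuation_liesOver L v w π
  rw [Ideal.ramificationIdx'_eq_ramificationIdx v.asIdeal w.asIdeal v.ne_bot, h, pow_one] at h1
  rw [← h1, hπ]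

/-- In a Galois extension of number fields the inertia group of a prime is trivial iff its
ramification index is one (copy of `Bridge.Unram.inertia_eq_bot_iff_ramificationIdx_eq_one`,
restated here to keep the imports light). -/
theorem inertia_eq_bot_iff [IsGalois K L] (P : Ideal (𝓞 L)) [hP : P.IsPrime] :
    Ideal.inertia (L ≃ₐ[K] L) P = ⊥ ↔ P.ramificationIdx (𝓞 K) = 1 := by
  have := IsGaloisGroup.of_isFractionRing (L ≃ₐ[K] L) (𝓞 K) (𝓞 L) K L
  have hcard := Ideal.card_inertia_eq_ramificationIdxIn (G := L ≃ₐ[K] L) (P.under (𝓞 K)) P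
  rw [Ideal.ramificationIdxIn_eq_ramificationIdx (P.under (𝓞 K)) P (L ≃ₐ[K] L)] at hcard
  rw [← hcard, Subgroup.card_eq_one]

theorem ramificationIdx_eq_one_of_inertia [IsGalois K L] (P : Ideal (𝓞 L)) [hP : P.IsPrime]
    (h : ∀ σ ∈ Ideal.inertia (L ≃ₐ[K] L) P, σ = 1) : P.ramificationIdx (𝓞 K) = 1 :=
  (inertia_eq_bot_iff P).mp ((Subgroup.eq_bot_iff_forall _).mpr h)

end Ram

section Wrappers

attribute [local instance] Algebra.TensorProduct.rightAlgebra

variable (K L : Type) [Field K] [NumberField K] [Field L] [NumberField L] [Algebra K L]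
variable (q : ℕ) [Fact q.Prime]
variable (F : Type) [Field F] [Algebra K F] [Algebra ℚ_[q] F] [FiniteDimensional ℚ_[q] F]
variable (M : Ideal (L ⊗[K] F)) [hM : M.IsMaximal]
variable (ψ : K ⊗[ℚ] ℚ_[q] →+* F)
  (hψ : ∀ (k : K) (c : ℚ_[q]), ψ (k ⊗ₜ[ℚ] c) = algebraMap K F k * algebraMap ℚ_[q] F c)
  (hψs : Function.Surjective ψ)

include hψ hψs in
/-- **Unramified dictionary**, hypothesis `e = 1` at the place cut out by `M`. -/
theorem isUnram_of_ramificationIdx
    (he : (placeAbove K L q F M).asIdeal.ramificationIdx (𝓞 K) = 1) :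
    letI := Ideal.Quotient.field M
    letI := FiniteExtLF.nontriviallyNormedFieldExt ℚ_[q] F
    haveI := FiniteExtLF.isUltrametricDistExt ℚ_[q] F
    haveI := FiniteExtLF.properSpaceExt ℚ_[q] F
    haveI := finite_quot K L F M
    letI := FiniteExtLF.nontriviallyNormedFieldExt F ((L ⊗[K] F) ⧸ M)
    letI := FiniteExtLF.normedAlgebraExt F ((L ⊗[K] F) ⧸ M)
    Local.Blocks.IsUnram F ((L ⊗[K] F) ⧸ M) := by
  haveI := placeAbove_liesOver K L q F M ψ hψ
  obtain ⟨π, -, hπ⟩ := exists_uniformizer_of_ramificationIdx_eq_one (placeOf ψ)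
    (placeAbove K L q F M) he
  exact isUnram_of_uniformizer K L q F M ψ hψ hψs hπ

include hψ hψs in
/-- **Unramified dictionary**, hypothesis: every prime of `L` over the place of `F` has `e = 1`. -/
theorem isUnram_of_forall_ramificationIdx
    (he : ∀ P : Ideal (𝓞 L), P.IsPrime → P.LiesOver (placeOf ψ).asIdeal →
      P.ramificationIdx (𝓞 K) = 1) :
    letI := Ideal.Quotient.field M
    letI := FiniteExtLF.nontriviallyNormedFieldExt ℚ_[q] F
    haveI := FiniteExtLF.isUltrametricDistExt ℚ_[q] F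
    haveI := FiniteExtLF.properSpaceExt ℚ_[q] F
    haveI := finite_quot K L F M
    letI := FiniteExtLF.nontriviallyNormedFieldExt F ((L ⊗[K] F) ⧸ M)
    letI := FiniteExtLF.normedAlgebraExt F ((L ⊗[K] F) ⧸ M)
    Local.Blocks.IsUnram F ((L ⊗[K] F) ⧸ M) :=
  isUnram_of_ramificationIdx K L q F M ψ hψ hψs
    (he _ (placeAbove K L q F M).isPrime (placeAbove_liesOver K L q F M ψ hψ))

include hψ hψs in
/-- **Unramified dictionary**, hypothesis: trivial inertia groups over the place of `F`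
(`L/K` Galois) — the `hunr` of `RecipUnramBwd`. -/
theorem isUnram_of_inertia [IsGalois K L]
    (hunr : ∀ P : Ideal (𝓞 L), P.IsPrime → P.LiesOver (placeOf ψ).asIdeal →
      ∀ σ ∈ Ideal.inertia (L ≃ₐ[K] L) P, σ = 1) :
    letI := Ideal.Quotient.field M
    letI := FiniteExtLF.nontriviallyNormedFieldExt ℚ_[q] F
    haveI := FiniteExtLF.isUltrametricDistExt ℚ_[q] F
    haveI := FiniteExtLF.properSpaceExt ℚ_[q] F
    haveI := finite_quot K L F M
    letI := FiniteExtLF.nontriviallyNormedFieldExt F ((L ⊗[K] F) ⧸ M)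
    letI := FiniteExtLF.normedAlgebraExt F ((L ⊗[K] F) ⧸ M)
    Local.Blocks.IsUnram F ((L ⊗[K] F) ⧸ M) :=
  isUnram_of_forall_ramificationIdx K L q F M ψ hψ hψs
    (fun P hP hPv => haveI := hP; ramificationIdx_eq_one_of_inertia P (hunr P hP hPv))

end Wrappers

section NormForm

attribute [local instance] Algebra.TensorProduct.rightAlgebra

variable (K L : Type) [Field K] [NumberField K] [Field L] [NumberField L] [Algebra K L]
variable (q : ℕ) [Fact q.Prime]
variable (F : Type) [Field F] [Algebra K F] [Algebra ℚ_[q] F] [FiniteDimensional ℚ_[q] F]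
variable (M : Ideal (L ⊗[K] F)) [hM : M.IsMaximal]

/-- The `FiniteExtLF` norm of `E = (L ⊗[K] F) ⧸ M` (spectral norm over `F`, itself normed by the
spectral norm over `ℚ_[q]`) is the `ℚ_[q]`-spectral norm. -/
theorem norm_eq_spectralNorm (x : (L ⊗[K] F) ⧸ M) :
    letI := Ideal.Quotient.field M
    letI := FiniteExtLF.nontriviallyNormedFieldExt ℚ_[q] F
    haveI := FiniteExtLF.isUltrametricDistExt ℚ_[q] F
    haveI := FiniteExtLF.properSpaceExt ℚ_[q] F
    haveI := finite_quot K L F M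
    letI := FiniteExtLF.nontriviallyNormedFieldExt F ((L ⊗[K] F) ⧸ M)
    letI := algQE K L q F M
    ‖x‖ = spectralNorm ℚ_[q] ((L ⊗[K] F) ⧸ M) x := by
  letI := Ideal.Quotient.field M
  letI := FiniteExtLF.nontriviallyNormedFieldExt ℚ_[q] F
  haveI := FiniteExtLF.isUltrametricDistExt ℚ_[q] F
  haveI := FiniteExtLF.properSpaceExt ℚ_[q] F
  haveI := finite_quot K L F M
  letI := FiniteExtLF.nontriviallyNormedFieldExt F ((L ⊗[K] F) ⧸ M)
  letI := algQE K L q F M
  haveI := isScalarTower_QE K L q F M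
  exact spectralNorm_tower F ((L ⊗[K] F) ⧸ M) x

/-- The `FiniteExtLF` norm of `[l ⊗ 1]`. -/
theorem norm_mk_tmul (l : L) :
    letI := Ideal.Quotient.field M
    letI := FiniteExtLF.nontriviallyNormedFieldExt ℚ_[q] F
    haveI := FiniteExtLF.isUltrametricDistExt ℚ_[q] F
    haveI := FiniteExtLF.properSpaceExt ℚ_[q] F
    haveI := finite_quot K L F M
    letI := FiniteExtLF.nontriviallyNormedFieldExt F ((L ⊗[K] F) ⧸ M)
    ‖Ideal.Quotient.mk M (l ⊗ₜ[K] (1 : F))‖ = nuAbove K L q F M l :=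
  norm_eq_spectralNorm K L q F M _

/-- `‖[l ⊗ 1]‖ ≤ 1 ↔ w(l) ≤ 1` at the place `w` of `M`. -/
theorem norm_mk_tmul_le_one_iff (l : L) :
    letI := Ideal.Quotient.field M
    letI := FiniteExtLF.nontriviallyNormedFieldExt ℚ_[q] F
    haveI := FiniteExtLF.isUltrametricDistExt ℚ_[q] F
    haveI := FiniteExtLF.properSpaceExt ℚ_[q] F
    haveI := finite_quot K L F M
    letI := FiniteExtLF.nontriviallyNormedFieldExt F ((L ⊗[K] F) ⧸ M)
    ‖Ideal.Quotient.mk M (l ⊗ₜ[K] (1 : F))‖ ≤ 1 ↔ (placeAbove K L q F M).valuation L l ≤ 1 := by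
  rw [norm_mk_tmul K L q F M l]
  exact (valuation_le_one_iff_above K L q F M l).symm

/-- `‖[l ⊗ 1]‖ < 1 ↔ w(l) < 1`. -/
theorem norm_mk_tmul_lt_one_iff (l : L) :
    letI := Ideal.Quotient.field M
    letI := FiniteExtLF.nontriviallyNormedFieldExt ℚ_[q] F
    haveI := FiniteExtLF.isUltrametricDistExt ℚ_[q] F
    haveI := FiniteExtLF.properSpaceExt ℚ_[q] F
    haveI := finite_quot K L F M
    letI := FiniteExtLF.nontriviallyNormedFieldExt F ((L ⊗[K] F) ⧸ M)
    ‖Ideal.Quotient.mk M (l ⊗ₜ[K] (1 : F))‖ < 1 ↔ (placeAbove K L q F M).valuation L l < 1 := by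
  rw [norm_mk_tmul K L q F M l]
  exact (valuation_lt_one_iff_above K L q F M l).symm

/-- **Unit criterion**: `‖[l ⊗ 1]‖ = 1 ↔ w(l) = 1`. -/
theorem norm_mk_tmul_eq_one_iff (l : L) :
    letI := Ideal.Quotient.field M
    letI := FiniteExtLF.nontriviallyNormedFieldExt ℚ_[q] F
    haveI := FiniteExtLF.isUltrametricDistExt ℚ_[q] F
    haveI := FiniteExtLF.properSpaceExt ℚ_[q] F
    haveI := finite_quot K L F M
    letI := FiniteExtLF.nontriviallyNormedFieldExt F ((L ⊗[K] F) ⧸ M)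
    ‖Ideal.Quotient.mk M (l ⊗ₜ[K] (1 : F))‖ = 1 ↔ (placeAbove K L q F M).valuation L l = 1 := by
  rw [norm_mk_tmul K L q F M l]
  exact (valuation_eq_one_iff_above K L q F M l).symm

/-- Algebraic integers of `L` have norm `≤ 1` in every `E = (L ⊗[K] F) ⧸ M`. -/
theorem norm_mk_tmul_int_le_one (r : 𝓞 L) :
    letI := Ideal.Quotient.field M
    letI := FiniteExtLF.nontriviallyNormedFieldExt ℚ_[q] F
    haveI := FiniteExtLF.isUltrametricDistExt ℚ_[q] F
    haveI := FiniteExtLF.properSpaceExt ℚ_[q] F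
    haveI := finite_quot K L F M
    letI := FiniteExtLF.nontriviallyNormedFieldExt F ((L ⊗[K] F) ⧸ M)
    ‖Ideal.Quotient.mk M ((r : L) ⊗ₜ[K] (1 : F))‖ ≤ 1 :=
  (norm_mk_tmul_le_one_iff K L q F M r).mpr
    ((placeAbove K L q F M).valuation_le_one r)

end NormForm

section Kloc

attribute [local instance] Algebra.TensorProduct.rightAlgebra

variable (K L : Type) [Field K] [NumberField K] [Field L] [NumberField L] [Algebra K L]
variable (q : Nat.Primes) (𝔪 : Ideal (Ksemi K q)) [h𝔪 : 𝔪.IsMaximal]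

/-- `Kloc K q 𝔪` is finite over `ℚ_[q]`. -/
theorem finite_Kloc :
    letI := Ideal.Quotient.field 𝔪
    FiniteDimensional ℚ_[(q : ℕ)] (Kloc K q 𝔪) := by
  letI := Ideal.Quotient.field 𝔪
  haveI := finite_semi K (q : ℕ)
  exact Module.Finite.of_surjective (Ideal.Quotient.mkₐ ℚ_[(q : ℕ)] 𝔪).toLinearMap
    (Ideal.Quotient.mkₐ_surjective ℚ_[(q : ℕ)] 𝔪)

theorem mk_tmul (k : K) (c : ℚ_[(q : ℕ)]) :
    Ideal.Quotient.mk 𝔪 (k ⊗ₜ[ℚ] c) =
      algebraMap K (Kloc K q 𝔪) k * algebraMap ℚ_[(q : ℕ)] (Kloc K q 𝔪) c := by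
  change _ = Ideal.Quotient.mk 𝔪 (k ⊗ₜ[ℚ] (1 : ℚ_[(q : ℕ)])) *
    Ideal.Quotient.mk 𝔪 ((1 : K) ⊗ₜ[ℚ] c)
  rw [← map_mul, Algebra.TensorProduct.tmul_mul_tmul, mul_one, one_mul]

theorem placeOf_mk :
    letI := Ideal.Quotient.field 𝔪
    haveI := finite_Kloc K q 𝔪
    placeOf (Ideal.Quotient.mk 𝔪) = placeOfMax 𝔪 := rfl

variable (M : Ideal (L ⊗[K] Kloc K q 𝔪)) [hM : M.IsMaximal]

/-- The place of `L` cut out by a maximal ideal `M` of `L ⊗[K] Kloc K q 𝔪`. -/
noncomputable def placeAt : HeightOneSpectrum (𝓞 L) :=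
  letI := Ideal.Quotient.field 𝔪
  haveI := finite_Kloc K q 𝔪
  placeAbove K L (q : ℕ) (Kloc K q 𝔪) M

/-- The place of `M` lies over the place of `𝔪`. -/
theorem placeAt_comap :
    (placeAt K L q 𝔪 M).asIdeal.comap (algebraMap (𝓞 K) (𝓞 L)) = (placeOfMax 𝔪).asIdeal := by
  letI := Ideal.Quotient.field 𝔪
  haveI := finite_Kloc K q 𝔪
  exact placeAbove_comap K L (q : ℕ) (Kloc K q 𝔪) M (Ideal.Quotient.mk 𝔪) (mk_tmul K q 𝔪)

theorem placeAt_liesOver :
    (placeAt K L q 𝔪 M).asIdeal.LiesOver (placeOfMax 𝔪).asIdeal :=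
  ⟨(placeAt_comap K L q 𝔪 M).symm⟩

theorem natCast_mem_placeAt : (((q : ℕ) : ℕ) : 𝓞 L) ∈ (placeAt K L q 𝔪 M).asIdeal := by
  letI := Ideal.Quotient.field 𝔪
  haveI := finite_Kloc K q 𝔪
  exact natCast_mem_placeAbove K L (q : ℕ) (Kloc K q 𝔪) M

/-- **Unramified dictionary (v3)**: a uniformizer of `K` which stays a uniformizer at the place
of `M` makes `(L ⊗[K] Kloc K q 𝔪) ⧸ M` unramified over `Kloc K q 𝔪`. -/
theorem isUnram_Kloc_of_uniformizer {π : K}
    (hπ : (placeAt K L q 𝔪 M).valuation L (algebraMap K L π) = WithZero.exp (-1 : ℤ)) :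
    letI := Ideal.Quotient.field 𝔪
    letI := Ideal.Quotient.field M
    haveI := finite_Kloc K q 𝔪
    letI := FiniteExtLF.nontriviallyNormedFieldExt ℚ_[(q : ℕ)] (Kloc K q 𝔪)
    haveI := FiniteExtLF.isUltrametricDistExt ℚ_[(q : ℕ)] (Kloc K q 𝔪)
    haveI := FiniteExtLF.properSpaceExt ℚ_[(q : ℕ)] (Kloc K q 𝔪)
    haveI := finite_quot K L (Kloc K q 𝔪) M
    letI := FiniteExtLF.nontriviallyNormedFieldExt (Kloc K q 𝔪) ((L ⊗[K] Kloc K q 𝔪) ⧸ M)
    letI := FiniteExtLF.normedAlgebraExt (Kloc K q 𝔪) ((L ⊗[K] Kloc K q 𝔪) ⧸ M)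
    Local.Blocks.IsUnram (Kloc K q 𝔪) ((L ⊗[K] Kloc K q 𝔪) ⧸ M) := by
  letI := Ideal.Quotient.field 𝔪
  haveI := finite_Kloc K q 𝔪
  exact isUnram_of_uniformizer K L (q : ℕ) (Kloc K q 𝔪) M (Ideal.Quotient.mk 𝔪) (mk_tmul K q 𝔪)
    Ideal.Quotient.mk_surjective hπ

/-- **Unramified dictionary (v3)**, hypothesis `e = 1` for every prime of `L` over the place of
`𝔪`. -/
theorem isUnram_Kloc_of_ramificationIdx
    (he : ∀ P : Ideal (𝓞 L), P.IsPrime → P.LiesOver (placeOfMax 𝔪).asIdeal →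
      P.ramificationIdx (𝓞 K) = 1) :
    letI := Ideal.Quotient.field 𝔪
    letI := Ideal.Quotient.field M
    haveI := finite_Kloc K q 𝔪
    letI := FiniteExtLF.nontriviallyNormedFieldExt ℚ_[(q : ℕ)] (Kloc K q 𝔪)
    haveI := FiniteExtLF.isUltrametricDistExt ℚ_[(q : ℕ)] (Kloc K q 𝔪)
    haveI := FiniteExtLF.properSpaceExt ℚ_[(q : ℕ)] (Kloc K q 𝔪)
    haveI := finite_quot K L (Kloc K q 𝔪) M
    letI := FiniteExtLF.nontriviallyNormedFieldExt (Kloc K q 𝔪) ((L ⊗[K] Kloc K q 𝔪) ⧸ M)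
    letI := FiniteExtLF.normedAlgebraExt (Kloc K q 𝔪) ((L ⊗[K] Kloc K q 𝔪) ⧸ M)
    Local.Blocks.IsUnram (Kloc K q 𝔪) ((L ⊗[K] Kloc K q 𝔪) ⧸ M) := by
  letI := Ideal.Quotient.field 𝔪
  haveI := finite_Kloc K q 𝔪
  exact isUnram_of_forall_ramificationIdx K L (q : ℕ) (Kloc K q 𝔪) M (Ideal.Quotient.mk 𝔪)
    (mk_tmul K q 𝔪) Ideal.Quotient.mk_surjective he

/-- **Unramified dictionary (v3)**, hypothesis: trivial inertia over the place of `𝔪`
(`L/K` Galois). -/
theorem isUnram_Kloc_of_inertia [IsGalois K L]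
    (hunr : ∀ P : Ideal (𝓞 L), P.IsPrime → P.LiesOver (placeOfMax 𝔪).asIdeal →
      ∀ σ ∈ Ideal.inertia (L ≃ₐ[K] L) P, σ = 1) :
    letI := Ideal.Quotient.field 𝔪
    letI := Ideal.Quotient.field M
    haveI := finite_Kloc K q 𝔪
    letI := FiniteExtLF.nontriviallyNormedFieldExt ℚ_[(q : ℕ)] (Kloc K q 𝔪)
    haveI := FiniteExtLF.isUltrametricDistExt ℚ_[(q : ℕ)] (Kloc K q 𝔪)
    haveI := FiniteExtLF.properSpaceExt ℚ_[(q : ℕ)] (Kloc K q 𝔪)
    haveI := finite_quot K L (Kloc K q 𝔪) M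
    letI := FiniteExtLF.nontriviallyNormedFieldExt (Kloc K q 𝔪) ((L ⊗[K] Kloc K q 𝔪) ⧸ M)
    letI := FiniteExtLF.normedAlgebraExt (Kloc K q 𝔪) ((L ⊗[K] Kloc K q 𝔪) ⧸ M)
    Local.Blocks.IsUnram (Kloc K q 𝔪) ((L ⊗[K] Kloc K q 𝔪) ⧸ M) := by
  letI := Ideal.Quotient.field 𝔪
  haveI := finite_Kloc K q 𝔪
  exact isUnram_of_inertia K L (q : ℕ) (Kloc K q 𝔪) M (Ideal.Quotient.mk 𝔪)
    (mk_tmul K q 𝔪) Ideal.Quotient.mk_surjective hunr

/-- **Unit criterion (v3)**: `‖[l ⊗ 1]‖ = 1` in `(L ⊗[K] Kloc K q 𝔪) ⧸ M` iff `l` is a unit at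
the place of `M`. -/
theorem norm_mk_tmul_eq_one_iff_Kloc (l : L) :
    letI := Ideal.Quotient.field 𝔪
    letI := Ideal.Quotient.field M
    haveI := finite_Kloc K q 𝔪
    letI := FiniteExtLF.nontriviallyNormedFieldExt ℚ_[(q : ℕ)] (Kloc K q 𝔪)
    haveI := FiniteExtLF.isUltrametricDistExt ℚ_[(q : ℕ)] (Kloc K q 𝔪)
    haveI := FiniteExtLF.properSpaceExt ℚ_[(q : ℕ)] (Kloc K q 𝔪)
    haveI := finite_quot K L (Kloc K q 𝔪) M
    letI := FiniteExtLF.nontriviallyNormedFieldExt (Kloc K q 𝔪) ((L ⊗[K] Kloc K q 𝔪) ⧸ M)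
    ‖Ideal.Quotient.mk M (l ⊗ₜ[K] (1 : Kloc K q 𝔪))‖ = 1 ↔
      (placeAt K L q 𝔪 M).valuation L l = 1 := by
  letI := Ideal.Quotient.field 𝔪
  haveI := finite_Kloc K q 𝔪
  exact norm_mk_tmul_eq_one_iff K L (q : ℕ) (Kloc K q 𝔪) M l

/-- If `l ∈ L` is a unit at every prime of `L` above the rational prime `q`, then `[l ⊗ 1]` has
norm one in every residue field of `L ⊗[K] Kloc K q 𝔪`. -/
theorem norm_mk_tmul_eq_one_of_forall (l : L)
    (hl : ∀ w : HeightOneSpectrum (𝓞 L), (((q : ℕ) : ℕ) : 𝓞 L) ∈ w.asIdeal →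
      w.valuation L l = 1) :
    letI := Ideal.Quotient.field 𝔪
    letI := Ideal.Quotient.field M
    haveI := finite_Kloc K q 𝔪
    letI := FiniteExtLF.nontriviallyNormedFieldExt ℚ_[(q : ℕ)] (Kloc K q 𝔪)
    haveI := FiniteExtLF.isUltrametricDistExt ℚ_[(q : ℕ)] (Kloc K q 𝔪)
    haveI := FiniteExtLF.properSpaceExt ℚ_[(q : ℕ)] (Kloc K q 𝔪)
    haveI := finite_quot K L (Kloc K q 𝔪) M
    letI := FiniteExtLF.nontriviallyNormedFieldExt (Kloc K q 𝔪) ((L ⊗[K] Kloc K q 𝔪) ⧸ M)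
    ‖Ideal.Quotient.mk M (l ⊗ₜ[K] (1 : Kloc K q 𝔪))‖ = 1 :=
  (norm_mk_tmul_eq_one_iff_Kloc K L q 𝔪 M l).mpr (hl _ (natCast_mem_placeAt K L q 𝔪 M))

end Kloc

end Fermat.Agent.S55.Global.UnramDictKloc
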