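/-
S55 / GLOBAL block — row (U1), abstract half (helper26).

* `subRep W hW`, `subIncl W hW` : the sub-representation of `Rep.ofMulDistribMulAction G M` carried
  by a `G`-stable subgroup `W ≤ M`; `subMap` (restriction of an equivariant monoid hom);
* `isoOfRange` : an injective `Ψ : A ⟶ M` with range `W` gives `A ≅ subRep W hW`;
  `isZero_subRep_of_range`;
* semilocal (`IsSemilocal D π`, helper1/helper56): for `ι : V ⟶ Eˣ` injective,
  `compSub ι` = the subgroup of `Bˣ` of elements all of whose components lie in the range of `ι`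
  (= the image of `Coind_D^G V`), `isZero_compSub` : `Hⁿ(D, V) = 0 ⟹ Hⁿ(G, compSub) = 0`;
* products (`IsProdDecomp π`, helper1): for `G`-stable subgroups `W i ≤ (B i)ˣ`,
  `prodSub π W = {u | ∀ i, π i u ∈ W i}` and
  `isZero_prodSub` : `(∀ i, Hⁿ(G, W i) = 0) ⟹ Hⁿ(G, prodSub π W) = 0`.
-/
import Fermat.Agent.S55.Global.SemilocalSub
import Fermat.Agent.S55.Global.LocalProdAbs

set_option autoImplicit false
set_option linter.unusedSectionVars false

namespace Fermat.Agent.S55.Global.UnramUnitsSub

open CategoryTheory CategoryTheory.Limits groupCohomology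
open Fermat.Agent.S55.Global.SemilocalCoh Fermat.Agent.S55.Global.SemilocalSub
open Fermat.Agent.S55.Global.LocalProdAbs

/-! ### Sub-representations carried by stable subgroups -/

section SubRep

variable {G : Type} [Group G] {M : Type} [CommGroup M] [MulDistribMulAction G M]

/-- `W ≤ M` is stable under `G`. -/
def IsStable (G : Type) [Group G] {M : Type} [CommGroup M] [MulDistribMulAction G M]
    (W : Subgroup M) : Prop :=
  ∀ (g : G) (u : M), u ∈ W → g • u ∈ W

/-- The action of `G` on a stable subgroup. -/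
@[reducible] def subAction (W : Subgroup M) (hW : IsStable G W) : MulDistribMulAction G W where
  smul g u := ⟨g • (u : M), hW g u u.2⟩
  one_smul u := Subtype.ext (one_smul G (u : M))
  mul_smul g h u := Subtype.ext (mul_smul g h (u : M))
  smul_mul g u v := Subtype.ext (smul_mul' g (u : M) (v : M))
  smul_one g := Subtype.ext (smul_one g)

/-- The sub-representation carried by a stable subgroup. -/
noncomputable def subRep (W : Subgroup M) (hW : IsStable G W) : Rep ℤ G :=
  @Rep.ofMulDistribMulAction G W _ _ (subAction W hW)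

/-- The inclusion of the sub-representation. -/
noncomputable def subIncl (W : Subgroup M) (hW : IsStable G W) :
    subRep W hW ⟶ Rep.ofMulDistribMulAction G M :=
  letI := subAction W hW
  repHom W.subtype (fun _ _ => rfl)

theorem subIncl_apply (W : Subgroup M) (hW : IsStable G W) (a : Additive W) :
    (subIncl W hW).hom (a : subRep W hW) = Additive.ofMul ((Additive.toMul a : W) : M) := rfl

theorem subIncl_injective (W : Subgroup M) (hW : IsStable G W) :
    Function.Injective (subIncl W hW).hom := by
  intro a b h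
  have h1 : ((Additive.toMul (show Additive W from a) : W) : M)
      = ((Additive.toMul (show Additive W from b) : W) : M) := h
  exact congrArg Additive.ofMul (Subtype.ext h1)

theorem mem_range_subIncl_iff (W : Subgroup M) (hW : IsStable G W) (a : Additive M) :
    a ∈ Set.range (subIncl W hW).hom ↔ Additive.toMul a ∈ W := by
  constructor
  · rintro ⟨w, rfl⟩
    exact (Additive.toMul (show Additive W from w) : W).2
  · intro ha
    exact ⟨(Additive.ofMul (⟨Additive.toMul a, ha⟩ : W) : Additive W), rfl⟩

variable {N : Type} [CommGroup N] [MulDistribMulAction G N]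

/-- Restriction of an equivariant monoid hom to stable subgroups. -/
noncomputable def subMap (f : M →* N) (hf : ∀ (g : G) (m : M), f (g • m) = g • f m)
    (W : Subgroup M) (hW : IsStable G W) (W' : Subgroup N) (hW' : IsStable G W')
    (hfW : ∀ u ∈ W, f u ∈ W') : subRep W hW ⟶ subRep W' hW' :=
  letI := subAction W hW
  letI := subAction W' hW'
  repHom ((f.comp W.subtype).codRestrict W' (fun u => hfW u u.2))
    (fun g m => Subtype.ext (hf g m))

theorem subMap_apply (f : M →* N) (hf : ∀ (g : G) (m : M), f (g • m) = g • f m)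
    (W : Subgroup M) (hW : IsStable G W) (W' : Subgroup N) (hW' : IsStable G W')
    (hfW : ∀ u ∈ W, f u ∈ W') (a : Additive W) :
    (((Additive.toMul (show Additive W' from (subMap f hf W hW W' hW' hfW).hom (a : subRep W hW)))
      : W') : N) = f ((Additive.toMul a : W) : M) := rfl

attribute [local instance 2000] Rep.hV2

/-- An injective morphism `Ψ : A ⟶ M` with range `W` identifies `A` with `subRep W`. -/
noncomputable def linOfRange {A : Rep ℤ G} (Ψ : A ⟶ Rep.ofMulDistribMulAction G M)
    (W : Subgroup M)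
    (hrange : ∀ a : Additive M, a ∈ Set.range Ψ.hom ↔ Additive.toMul a ∈ W) :
    A →ₗ[ℤ] Additive W where
  toFun a := Additive.ofMul (⟨Additive.toMul (show Additive M from Ψ.hom a),
    (hrange _).1 ⟨a, rfl⟩⟩ : W)
  map_add' a b := by
    apply Additive.toMul.injective
    apply Subtype.ext
    have h1 : Ψ.hom (a + b) = Ψ.hom a + Ψ.hom b := _root_.map_add Ψ.hom.toLinearMap a b
    change Additive.toMul (show Additive M from Ψ.hom (a + b)) =
      Additive.toMul (show Additive M from Ψ.hom a) * Additive.toMul (show Additive M from Ψ.hom b)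
    rw [h1]
    rfl
  map_smul' n a := by
    apply Additive.toMul.injective
    apply Subtype.ext
    have h1 := LinearMap.map_smul Ψ.hom.toLinearMap n a
    rw [RingHom.id_apply, toMul_zsmul, toMul_ofMul, toMul_ofMul, Subgroup.coe_zpow]
    exact (congrArg (fun x : Additive M => Additive.toMul x) h1).trans rfl

theorem linOfRange_bijective {A : Rep ℤ G} (Ψ : A ⟶ Rep.ofMulDistribMulAction G M)
    (hinj : Function.Injective Ψ.hom) (W : Subgroup M)
    (hrange : ∀ a : Additive M, a ∈ Set.range Ψ.hom ↔ Additive.toMul a ∈ W) :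
    Function.Bijective (linOfRange Ψ W hrange) := by
  constructor
  · intro a b hab
    apply hinj
    have := congrArg (fun w : Additive W => ((Additive.toMul w : W) : M)) hab
    exact congrArg Additive.ofMul this
  · intro w
    obtain ⟨a, ha⟩ := (hrange (Additive.ofMul ((Additive.toMul w : W) : M))).2 (Additive.toMul w).2
    refine ⟨a, ?_⟩
    apply Additive.toMul.injective
    apply Subtype.ext
    change Additive.toMul (show Additive M from Ψ.hom a) = _
    rw [ha]
    rfl

/-- `A ≅ subRep W` for an injective `Ψ : A ⟶ M` with range `W`. -/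
noncomputable def isoOfRange {A : Rep ℤ G} (Ψ : A ⟶ Rep.ofMulDistribMulAction G M)
    (hinj : Function.Injective Ψ.hom) (W : Subgroup M) (hW : IsStable G W)
    (hrange : ∀ a : Additive M, a ∈ Set.range Ψ.hom ↔ Additive.toMul a ∈ W) :
    A ≅ subRep W hW :=
  letI := subAction W hW
  Rep.mkIso (ρ := A.ρ) (σ := Representation.ofMulDistribMulAction G W)
    (Representation.Equiv.mk
      (LinearEquiv.ofBijective (linOfRange Ψ W hrange) (linOfRange_bijective Ψ hinj W hrange))
      (fun g => by
        refine LinearMap.ext fun a => ?_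
        apply Additive.toMul.injective
        apply Subtype.ext
        change Additive.toMul (show Additive M from Ψ.hom (A.ρ g a)) = _
        rw [Rep.hom_comm_apply]
        rfl))

theorem isZero_subRep_of_range {A : Rep ℤ G} (Ψ : A ⟶ Rep.ofMulDistribMulAction G M)
    (hinj : Function.Injective Ψ.hom) (W : Subgroup M) (hW : IsStable G W)
    (hrange : ∀ a : Additive M, a ∈ Set.range Ψ.hom ↔ Additive.toMul a ∈ W) (n : ℕ)
    (hA : IsZero (groupCohomology A n)) : IsZero (groupCohomology (subRep W hW) n) :=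
  hA.of_iso ((groupCohomology.functor ℤ G n).mapIso (isoOfRange Ψ hinj W hW hrange).symm)

end SubRep

/-! ### The semilocal case: the image of `Coind_D^G V` in `Bˣ` -/

section Semilocal

variable {G : Type} [Group G] {B : Type} [CommRing B] [MulSemiringAction G B]
  {D : Subgroup G} {E : Type} [CommRing E] [MulSemiringAction D E] {π : B →+* E}
  [MulDistribMulAction G Bˣ] [MulDistribMulAction D Eˣ]

/-- The subgroup of `Bˣ` of the elements all of whose components `π (x • u)` lie in the range of
`ι : V ⟶ Eˣ`. -/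
def compSub (π : B →+* E) {V : Rep ℤ D} (ι : V ⟶ Rep.ofMulDistribMulAction D Eˣ) :
    Subgroup Bˣ where
  carrier := {u | ∀ x : G, (Additive.ofMul (Units.map (π : B →* E) (x • u)) : Additive Eˣ) ∈
    Set.range ι.hom}
  one_mem' := by
    intro x
    rw [smul_one, map_one]
    exact ⟨0, map_zero ι.hom⟩
  mul_mem' := by
    intro a b ha hb x
    obtain ⟨va, hva⟩ := ha x
    obtain ⟨vb, hvb⟩ := hb x
    refine ⟨va + vb, ?_⟩
    rw [smul_mul', map_mul, _root_.map_add, hva, hvb]
    rfl
  inv_mem' := by
    intro a ha x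
    obtain ⟨va, hva⟩ := ha x
    refine ⟨-va, ?_⟩
    rw [smul_inv', map_inv, map_neg, hva]
    rfl

theorem mem_compSub_iff {V : Rep ℤ D} (ι : V ⟶ Rep.ofMulDistribMulAction D Eˣ) (u : Bˣ) :
    u ∈ compSub π ι ↔ ∀ x : G,
      (Additive.ofMul (Units.map (π : B →* E) (x • u)) : Additive Eˣ) ∈ Set.range ι.hom :=
  Iff.rfl

theorem compSub_stable {V : Rep ℤ D} (ι : V ⟶ Rep.ofMulDistribMulAction D Eˣ) :
    IsStable G (compSub π ι) := by
  intro g u hu x
  rw [← mul_smul]
  exact hu (x * g)

theorem mem_range_coindToUnits_iff (h : IsSemilocal D π)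
    (hB : ∀ (g : G) (u : Bˣ), ((g • u : Bˣ) : B) = g • (u : B))
    (hE : ∀ (d : D) (e : Eˣ), ((d • e : Eˣ) : E) = d • (e : E))
    {V : Rep ℤ D} (ι : V ⟶ Rep.ofMulDistribMulAction D Eˣ) (hι : Function.Injective ι.hom)
    (a : Additive Bˣ) :
    a ∈ Set.range (coindToUnits h hB hE ι).hom ↔ Additive.toMul a ∈ compSub π ι := by
  constructor
  · rintro ⟨c, rfl⟩ x
    refine ⟨c.1 x, ?_⟩
    have h1 : (unitsIso h hB hE).hom.hom ((coindToUnits h hB hE ι).hom c) =
        (Rep.coindMap D.subtype ι).hom c :=
      rep_hom_inv_apply (unitsIso h hB hE) ((Rep.coindMap D.subtype ι).hom c)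
    have h2 := congrArg (fun t => t.1 x) h1
    exact h2.symm
  · intro ha
    exact mem_range_coindToUnits h hB hE ι hι a (fun x => ha x)

/-- **(U1), single orbit, abstract**: if `Hⁿ(D, V) = 0` then `Hⁿ(G, ·)` of the subgroup of `Bˣ`
of elements with all components in `V` vanishes. -/
theorem isZero_compSub (h : IsSemilocal D π)
    (hB : ∀ (g : G) (u : Bˣ), ((g • u : Bˣ) : B) = g • (u : B))
    (hE : ∀ (d : D) (e : Eˣ), ((d • e : Eˣ) : E) = d • (e : E))
    {V : Rep ℤ D} (ι : V ⟶ Rep.ofMulDistribMulAction D Eˣ) (hι : Function.Injective ι.hom)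
    (n : ℕ) (hV : IsZero (groupCohomology V n)) :
    IsZero (groupCohomology (subRep (compSub π ι) (compSub_stable ι)) n) :=
  isZero_subRep_of_range (coindToUnits h hB hE ι) (coindToUnits_injective h hB hE ι hι)
    (compSub π ι) (compSub_stable ι) (mem_range_coindToUnits_iff h hB hE ι hι) n
    (hV.of_iso (groupCohomology.coindIso V n))

end Semilocal

/-! ### Products -/

section Prod

variable {G : Type} [Group G] {ι : Type} [Fintype ι] [DecidableEq ι] {R : Type} [CommRing R]
  {B : ι → Type} [∀ i, CommRing (B i)] {π : ∀ i, R →+* B i}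
  [MulDistribMulAction G Rˣ] [∀ i, MulDistribMulAction G (B i)ˣ]

/-- The subgroup of `Rˣ` cut out by subgroups `W i ≤ (B i)ˣ` of the factors. -/
def prodSub (π : ∀ i, R →+* B i) (W : ∀ i, Subgroup (B i)ˣ) : Subgroup Rˣ :=
  ⨅ i, (W i).comap (Units.map (π i : R →* B i))

theorem mem_prodSub_iff (W : ∀ i, Subgroup (B i)ˣ) (u : Rˣ) :
    u ∈ prodSub π W ↔ ∀ i, Units.map (π i : R →* B i) u ∈ W i := by
  simp only [prodSub, Subgroup.mem_iInf, Subgroup.mem_comap]

theorem prodSub_stable
    (hπ : ∀ (i : ι) (g : G) (u : Rˣ),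
      Units.map (π i : R →* B i) (g • u) = g • Units.map (π i : R →* B i) u)
    (W : ∀ i, Subgroup (B i)ˣ) (hW : ∀ i, IsStable G (W i)) : IsStable G (prodSub π W) := by
  intro g u hu
  rw [mem_prodSub_iff] at hu ⊢
  intro i
  rw [hπ]
  exact hW i g _ (hu i)

/-- The projection `prodSub π W ⟶ W i`. -/
noncomputable def projSub
    (hπ : ∀ (i : ι) (g : G) (u : Rˣ),
      Units.map (π i : R →* B i) (g • u) = g • Units.map (π i : R →* B i) u)
    (W : ∀ i, Subgroup (B i)ˣ) (hW : ∀ i, IsStable G (W i)) (i : ι) :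
    subRep (prodSub π W) (prodSub_stable hπ W hW) ⟶ subRep (W i) (hW i) :=
  subMap (Units.map (π i : R →* B i)) (hπ i) _ _ _ _
    (fun u hu => (mem_prodSub_iff W u).1 hu i)

/-- The section `W i ⟶ prodSub π W`. -/
noncomputable def secSub (h : IsProdDecomp π)
    (hπ : ∀ (i : ι) (g : G) (u : Rˣ),
      Units.map (π i : R →* B i) (g • u) = g • Units.map (π i : R →* B i) u)
    (W : ∀ i, Subgroup (B i)ˣ) (hW : ∀ i, IsStable G (W i)) (i : ι) :
    subRep (W i) (hW i) ⟶ subRep (prodSub π W) (prodSub_stable hπ W hW) :=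
  subMap (h.sec i) (fun g u => (h.smul_sec hπ i g u).symm) _ _ _ _
    (fun u hu => (mem_prodSub_iff W _).2 fun j => by
      by_cases hij : i = j
      · subst hij
        rw [h.map_sec_self]
        exact hu
      · rw [h.map_sec_of_ne hij]
        exact (W j).one_mem)

theorem sum_projSub_secSub (h : IsProdDecomp π)
    (hπ : ∀ (i : ι) (g : G) (u : Rˣ),
      Units.map (π i : R →* B i) (g • u) = g • Units.map (π i : R →* B i) u)
    (W : ∀ i, Subgroup (B i)ˣ) (hW : ∀ i, IsStable G (W i)) :
    ∑ i, projSub hπ W hW i ≫ secSub h hπ W hW i =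
      𝟙 (subRep (prodSub π W) (prodSub_stable hπ W hW)) := by
  apply Rep.hom_ext
  apply Representation.IntertwiningMap.ext
  refine LinearMap.ext fun a => ?_
  have h4 : (∑ i, projSub hπ W hW i ≫ secSub h hπ W hW i).hom a =
      ∑ i, (projSub hπ W hW i ≫ secSub h hπ W hW i).hom a := by
    rw [Rep.sum_hom, Representation.IntertwiningMap.sum_apply]
  change (∑ i, projSub hπ W hW i ≫ secSub h hπ W hW i).hom a = a
  rw [h4]
  apply subIncl_injective (prodSub π W) (prodSub_stable hπ W hW)
  rw [_root_.map_sum]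
  have h1 : ∀ i, (subIncl (prodSub π W) (prodSub_stable hπ W hW)).hom
      ((projSub hπ W hW i ≫ secSub h hπ W hW i).hom a) =
      Additive.ofMul (h.sec i (Units.map (π i : R →* B i)
        ((Additive.toMul (show Additive (prodSub π W) from a) : prodSub π W) : Rˣ))) :=
    fun i => rfl
  simp only [h1]
  have h2 := congrArg Additive.ofMul (h.prod_sec_map
    ((Additive.toMul (show Additive (prodSub π W) from a) : prodSub π W) : Rˣ))
  rw [ofMul_prod] at h2
  exact h2

/-- **Products**: if all `Hⁿ(G, W i)` vanish, so does `Hⁿ(G, prodSub π W)`. -/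
theorem isZero_prodSub (h : IsProdDecomp π)
    (hπ : ∀ (i : ι) (g : G) (u : Rˣ),
      Units.map (π i : R →* B i) (g • u) = g • Units.map (π i : R →* B i) u)
    (W : ∀ i, Subgroup (B i)ˣ) (hW : ∀ i, IsStable G (W i)) (n : ℕ)
    (hWn : ∀ i, IsZero (groupCohomology (subRep (W i) (hW i)) n)) :
    IsZero (groupCohomology (subRep (prodSub π W) (prodSub_stable hπ W hW)) n) :=
  isZero_of_components (projSub hπ W hW) (secSub h hπ W hW) (sum_projSub_secSub h hπ W hW) n hWn

/-- The full unit group as a stable subgroup: `subRep ⊤ ≅` the whole module, so vanishing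
transfers. -/
theorem isZero_subRep_top {M : Type} [CommGroup M] [MulDistribMulAction G M] (n : ℕ)
    (hM : IsZero (groupCohomology (Rep.ofMulDistribMulAction G M) n)) :
    IsZero (groupCohomology (subRep (⊤ : Subgroup M)
      (fun _ _ _ => Subgroup.mem_top _ : IsStable G (⊤ : Subgroup M))) n) :=
  isZero_subRep_of_range (𝟙 (Rep.ofMulDistribMulAction G M)) (fun _ _ h => h) ⊤
    (fun _ _ _ => Subgroup.mem_top _ : IsStable G (⊤ : Subgroup M))
    (fun a => ⟨fun _ => Subgroup.mem_top _, fun _ => ⟨a, rfl⟩⟩) n hM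

end Prod

end Fermat.Agent.S55.Global.UnramUnitsSub
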