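/-
S55 / Global — row (U2), HEDGE `.B` of helper56's `UnitClassUnram` (helper71):
**`T`-unit classes are locally trivial at the unramified places outside `T`.**

* `H2π_eq_zero_of_norm_one K L F m hunr f hval` (semilocal core, `F` any (LF) field over `K`, `m`
  maximal in `L ⊗[K] F`, `E = (L ⊗[K] F) ⧸ m` unramified over `F`): a 2-cocycle of `Gal(L/K)` in
  `(L ⊗[K] F)ˣ` all of whose components `[x • f (g, h)] ∈ E` have norm one is a coboundary.
  [helper56 `SemilocalSub.H2π_eq_zero_of_components` with `V` = the norm-one units of `E` as a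
  `Stab(m)`-module; `H²(Stab m, V) = 0` by `groupCohomology.mapIso` along `SemilocalH3.stabEquiv`
  and helper26 `UnramUnitsCoh.isZero_unitsRep`.]
* `locH_H2π_eq_zero K L q 𝔪 hunr f hf` : `L/K` with trivial inertia at all primes above the rational
  prime `q`, `f` a 2-cocycle in `Lˣ` whose values and their conjugates are units at all primes of `L`
  above `q`  ⟹  `locH K L (Kloc K q 𝔪) 2 [f] = 0`.   [`UnramDictKloc`]
* `locH_eq_zero_of_isTUnitClass K L T hram hz q hq 𝔪` : helper86's literal (U2) (#2242):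
  `hram` = the `ram` field of `Blocks2.AdmissibleQ`, `hz : HbnCoker.IsTUnitClass K L T z`, `q ∉ T`
  ⟹ `Blocks3.locH K L (Kloc K q 𝔪) 2 z = 0`.   No `p`, no `ζ`, no degree hypothesis.
-/
import Mathlib
import Fermat.Agent.S55.Middle.UnramVal
import Fermat.Agent.S55.Global.UnramUnitsSub
import Fermat.Agent.S55.Global.UnramDictKloc
import Fermat.Agent.S55.Middle.HbnCoker

set_option autoImplicit false
set_option linter.unusedSectionVars false
set_option linter.style.haveILetI false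
set_option synthInstance.maxHeartbeats 200000
set_option maxHeartbeats 1000000

open TensorProduct CategoryTheory CategoryTheory.Limits groupCohomology
open NumberField IsDedekindDomain
open scoped Pointwise

namespace Fermat.Agent.S55.Global.UnitClassUnramB

open Fermat.Agent.S55.Global.Objects Fermat.Agent.S55.Global.Objects2
open Fermat.Agent.S55.Global.SemilocalDecomp
open Fermat.Agent.S55.Global.SemilocalCoh Fermat.Agent.S55.Global.SemilocalH3
open Fermat.Agent.S55.Global.SemilocalSub Fermat.Agent.S55.Global.UnramUnitsSub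
open Fermat.Agent.S55.Global.Blocks3
open Fermat.Agent.S55.Global.PlaceBij Fermat.Agent.S55.Global.UnramDictKloc
open Fermat.Agent.S55.Local Fermat.Agent.S55.Local.Blocks Fermat.Agent.S55.Local.UnramUnitsCoh
open Fermat.Agent.S55.Middle.UnramVal Fermat.Agent.S55.Middle

attribute [local instance] Algebra.TensorProduct.rightAlgebra
attribute [local instance] stabQuotAction

section Semilocal

variable (K L : Type) [Field K] [NumberField K] [Field L] [NumberField L] [Algebra K L]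
  [IsGalois K L]
variable (F : Type) [NontriviallyNormedField F] [IsUltrametricDist F] [ProperSpace F]
  [Algebra K F]
variable (m : Ideal (L ⊗[K] F)) [hm : m.IsMaximal]

/-- **(U2), semilocal core.**  If `E = (L ⊗[K] F) ⧸ m` is unramified over the local field `F`,
every 2-cocycle of `Gal(L/K)` in `(L ⊗[K] F)ˣ` all of whose components `[x • f (g, h)] ∈ E` have
norm one is a coboundary. -/
theorem H2π_eq_zero_of_norm_one (hunr : IsUnramAt K L F m)
    (f : cocycles₂ (JRep K L F))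
    (hval : ∀ g h x : L ≃ₐ[K] L,
      letI := Ideal.Quotient.field m
      haveI := finiteDimensional_quot K L F m
      letI := FiniteExtLF.nontriviallyNormedFieldExt F ((L ⊗[K] F) ⧸ m)
      ‖Ideal.Quotient.mk m ((x • (Additive.toMul (f (g, h)) : (L ⊗[K] F)ˣ) : (L ⊗[K] F)ˣ) :
        L ⊗[K] F)‖ = 1) :
    H2π (JRep K L F) f = 0 := by
  letI := Ideal.Quotient.field m
  haveI := finiteDimensional_quot K L F m
  haveI := isGalois_quot K L F m
  letI := FiniteExtLF.nontriviallyNormedFieldExt F ((L ⊗[K] F) ⧸ m)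
  letI := FiniteExtLF.normedAlgebraExt F ((L ⊗[K] F) ⧸ m)
  haveI := FiniteExtLF.isUltrametricDistExt F ((L ⊗[K] F) ⧸ m)
  haveI := FiniteExtLF.properSpaceExt F ((L ⊗[K] F) ⧸ m)
  letI : MulDistribMulAction (MulAction.stabilizer (L ≃ₐ[K] L) m) ((L ⊗[K] F) ⧸ m)ˣ :=
    Units.mulDistribMulActionRight
  -- the norm-one units are stable under the decomposition group
  have hW : IsStable (MulAction.stabilizer (L ≃ₐ[K] L) m) (unitsSub ((L ⊗[K] F) ⧸ m)) := by
    intro d u hu
    rw [mem_unitsSub] at hu ⊢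
    have h1 : ((d • u : ((L ⊗[K] F) ⧸ m)ˣ) : (L ⊗[K] F) ⧸ m) =
        stabEquiv K L F m d (u : (L ⊗[K] F) ⧸ m) := rfl
    rw [h1, FiniteExtLF.norm_algEquiv F ((L ⊗[K] F) ⧸ m)]
    exact hu
  -- `H²(D, U) = 0`
  have hV : IsZero (groupCohomology (subRep (unitsSub ((L ⊗[K] F) ⧸ m)) hW) 2) := by
    have h0 := isZero_unitsRep (K := F) (E := (L ⊗[K] F) ⧸ m) hunr 2 (by norm_num)
    refine h0.of_iso (groupCohomology.mapIso (A := unitsRep F ((L ⊗[K] F) ⧸ m))
      (B := subRep (unitsSub ((L ⊗[K] F) ⧸ m)) hW) (stabEquiv K L F m)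
      (LinearEquiv.refl ℤ (Additive (unitsSub ((L ⊗[K] F) ⧸ m)))) ?_ 2)
    intro d
    refine LinearMap.ext fun a => ?_
    rfl
  refine H2π_eq_zero_of_components (isSemilocal K L F m) (fun _ _ => rfl) (fun _ _ => rfl)
    (subIncl (unitsSub ((L ⊗[K] F) ⧸ m)) hW) (subIncl_injective _ hW) hV f ?_
  intro g h x
  rw [mem_range_subIncl_iff]
  exact hval g h x

end Semilocal

section Kloc

variable (K L : Type) [Field K] [NumberField K] [Field L] [NumberField L] [Algebra K L]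
  [IsGalois K L]
variable (q : Nat.Primes) (𝔪 : Ideal (Ksemi K q)) [h𝔪 : 𝔪.IsMaximal]

/-- **(U2), one place.**  `L/K` unramified above the rational prime `q`; a 2-cocycle of
`Gal(L/K)` in `Lˣ` all of whose values (and their conjugates) are units at every prime of `L`
above `q` becomes a coboundary in `(L ⊗[K] Kloc K q 𝔪)ˣ`. -/
theorem locH_H2π_eq_zero
    (hunr : ∀ P : Ideal (𝓞 L), P.IsPrime → (((q : ℕ) : ℕ) : 𝓞 L) ∈ P →
      ∀ σ ∈ Ideal.inertia (L ≃ₐ[K] L) P, σ = 1)
    (f : cocycles₂ (Rep.ofAlgebraAutOnUnits K L))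
    (hf : ∀ (g h x : L ≃ₐ[K] L) (w : HeightOneSpectrum (𝓞 L)),
      (((q : ℕ) : ℕ) : 𝓞 L) ∈ w.asIdeal →
        w.valuation L (x ((Additive.toMul (f (g, h)) : Lˣ) : L)) = 1) :
    locH K L (Kloc K q 𝔪) 2 (H2π (Rep.ofAlgebraAutOnUnits K L) f) = 0 := by
  letI := Ideal.Quotient.field 𝔪
  haveI := finite_Kloc K q 𝔪
  letI := FiniteExtLF.nontriviallyNormedFieldExt ℚ_[(q : ℕ)] (Kloc K q 𝔪)
  haveI := FiniteExtLF.isUltrametricDistExt ℚ_[(q : ℕ)] (Kloc K q 𝔪)
  haveI := FiniteExtLF.properSpaceExt ℚ_[(q : ℕ)] (Kloc K q 𝔪)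
  obtain ⟨m, hm⟩ := Ideal.exists_maximal (L ⊗[K] Kloc K q 𝔪)
  -- unramifiedness at `m`
  have hunr' : IsUnramAt K L (Kloc K q 𝔪) m :=
    isUnram_of_inertia K L (q : ℕ) (Kloc K q 𝔪) m (Ideal.Quotient.mk 𝔪) (mk_tmul K q 𝔪)
      Ideal.Quotient.mk_surjective (fun P hP hPv σ hσ => by
        refine hunr P hP ?_ σ hσ
        haveI : P.LiesOver (placeOfMax 𝔪).asIdeal := hPv
        have h := (Ideal.mem_of_liesOver P (placeOfMax 𝔪).asIdeal (((q : ℕ) : ℕ) : 𝓞 K)).mp
          (natCast_mem_placeOfMax 𝔪)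
        rwa [map_natCast] at h)
  -- the class of the image cocycle
  have hmap : locH K L (Kloc K q 𝔪) 2 (H2π (Rep.ofAlgebraAutOnUnits K L) f) =
      H2π (JRep K L (Kloc K q 𝔪))
        (mapCocycles₂ (A := Rep.ofAlgebraAutOnUnits K L) (B := JRep K L (Kloc K q 𝔪))
          (MonoidHom.id (L ≃ₐ[K] L)) (LxToJ K L (Kloc K q 𝔪)) f) := by
    have := congrArg (fun φ => φ.hom f)
      (H2π_comp_map (A := Rep.ofAlgebraAutOnUnits K L) (B := JRep K L (Kloc K q 𝔪))
        (MonoidHom.id (L ≃ₐ[K] L)) (LxToJ K L (Kloc K q 𝔪)))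
    exact this
  rw [hmap]
  refine H2π_eq_zero_of_norm_one K L (Kloc K q 𝔪) m hunr' _ ?_
  intro g h x
  have hval : (placeAbove K L (q : ℕ) (Kloc K q 𝔪) m).valuation L
      (x ((Additive.toMul (f (g, h)) : Lˣ) : L)) = 1 :=
    hf g h x _ (natCast_mem_placeAbove K L (q : ℕ) (Kloc K q 𝔪) m)
  exact (norm_mk_tmul_eq_one_iff K L (q : ℕ) (Kloc K q 𝔪) m _).mpr hval

end Kloc

section TUnits

variable (K L : Type) [Field K] [NumberField K] [Field L] [NumberField L] [Algebra K L]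
  [IsGalois K L]

/-- Two distinct rational primes cannot both lie in a prime ideal of `𝓞 L`. -/
theorem notMem_placesAboveQ {T : Finset Nat.Primes} {q : Nat.Primes} (hq : q ∉ T)
    (w : HeightOneSpectrum (𝓞 L)) (hw : (((q : ℕ) : ℕ) : 𝓞 L) ∈ w.asIdeal) :
    w ∉ placesAboveQ L T := by
  rintro ⟨q', hq'T, hq'w⟩
  have hne : q' ≠ q := fun h => hq (h ▸ hq'T)
  have hcop : Nat.Coprime (q' : ℕ) (q : ℕ) :=
    (Nat.coprime_primes q'.2 q.2).mpr (fun h => hne (Subtype.ext h))
  have h1 : ((Nat.gcd (q' : ℕ) (q : ℕ) : ℤ) : 𝓞 L) ∈ w.asIdeal := by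
    rw [Nat.gcd_eq_gcd_ab]
    push_cast
    exact add_mem (Ideal.mul_mem_right _ _ hq'w) (Ideal.mul_mem_right _ _ hw)
  rw [hcop] at h1
  exact w.isPrime.ne_top ((Ideal.eq_top_iff_one _).mpr (by simpa using h1))

/-- **(U2)** (helper86's literal shape): `L/K` finite Galois, `T` containing the ramification;
a `T`-unit class of `H²(Gal(L/K), Lˣ)` is locally trivial at every place `(q, 𝔪)` of `K` with
`q ∉ T`. -/
theorem locH_eq_zero_of_isTUnitClass (T : Finset Nat.Primes)
    (hram : ∀ w : Place L, (∃ σ : L ≃ₐ[K] L, σ ∈ w.asIdeal.inertia (L ≃ₐ[K] L) ∧ σ ≠ 1) →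
      w ∈ placesAboveQ L T)
    {z : groupCohomology (Rep.ofAlgebraAutOnUnits K L) 2} (hz : HbnCoker.IsTUnitClass K L T z)
    (q : Nat.Primes) (hq : q ∉ T) (𝔪 : Ideal (Ksemi K q)) [𝔪.IsMaximal] :
    locH K L (Kloc K q 𝔪) 2 z = 0 := by
  obtain ⟨f, rfl, hf⟩ := hz
  refine locH_H2π_eq_zero K L q 𝔪 ?_ f ?_
  · -- unramified above `q`
    intro P hP hqP σ hσ
    by_contra hne
    have hP0 : P ≠ ⊥ := by
      rintro rfl
      have h0 : (((q : ℕ) : ℕ) : 𝓞 L) = 0 := hqP
      have : ((q : ℕ) : 𝓞 L) ≠ 0 := Nat.cast_ne_zero.mpr q.2.ne_zero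
      exact this h0
    let w : HeightOneSpectrum (𝓞 L) := ⟨P, hP, hP0⟩
    exact notMem_placesAboveQ L hq w hqP (hram w ⟨σ, hσ, hne⟩)
  · -- `T`-units are units above `q`
    intro g h x w hw
    have hu := mem_EUnitsQ.mp (hf g h) (x.restrictScalars ℚ)
    exact hu w (notMem_placesAboveQ L hq w hw)

end TUnits

end Fermat.Agent.S55.Global.UnitClassUnramB
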