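import Mathlib
import Fermat.Agent.S55.Global.FiniteExtLF
import Fermat.Agent.S55.Global.SemilocalDecomp

/-!
# S55 / Global: the norm bridge (step (C) of row (U1)), generic part

`q` a prime.  For a finite-dimensional commutative `ℚ_[q]`-algebra `B` (e.g. `L ⊗[ℚ] ℚ_[q]` or
`L ⊗[K] Kloc K q 𝔪`), "`‖φ b‖ = r` for every `ℚ_[q]`-algebra hom `φ : B → PadicAlgCl q`" is the
same as "`b` has spectral norm `r` in every residue field `B ⧸ M`", and, when a group `G` acts
transitively on the maximal ideals, the same as "every translate `g • b` has spectral norm `r`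
in ONE residue field `B ⧸ m`".

* `norm_algHom`  : every `ℚ_[q]`-algebra hom `E → PadicAlgCl q` from a field is an isometry for the
  spectral norm of `E`;
* `resNorm q M b` : the spectral norm (over `ℚ_[q]`) of the class of `b` in `B ⧸ M`;
* `norm_algHom_of_le_ker`, `exists_algHom_ker`, `ker_isMaximal`;
* `forall_algHom_norm_iff` : the bridge for a finite-dimensional algebra;
* `resNorm_map`, `resNorm_smul` : transport along algebra homs / a group action;
* `forall_algHom_norm_iff_orbit` : the orbit form;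
* `spectralNorm_tower` : for `ℚ_[q] ⊆ F ⊆ E` the `FiniteExtLF` norm of `E` over `F` (with `F`
  carrying its `FiniteExtLF` norm over `ℚ_[q]`) is the spectral norm of `E` over `ℚ_[q]`;
  `resNorm_eq_tower` : the same for `E = B ⧸ M`, `B` an `F`-algebra.
-/

set_option autoImplicit false
set_option linter.style.haveILetI false

open scoped Pointwise

namespace Fermat.Agent.S55.Global.UnitNormBridge

variable (q : ℕ) [Fact q.Prime]

/-- **(C1)** Every `ℚ_[q]`-algebra hom from a field `E` to `PadicAlgCl q` is an isometry for the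
spectral norm of `E`. -/
theorem norm_algHom {E : Type*} [Field E] [Algebra ℚ_[q] E]
    (ψ : E →ₐ[ℚ_[q]] PadicAlgCl q) (x : E) : ‖ψ x‖ = spectralNorm ℚ_[q] E x := by
  rw [← PadicAlgCl.spectralNorm_eq]
  unfold spectralNorm
  rw [minpoly.algHom_eq ψ ψ.injective x]

/-- The spectral norm (over `ℚ_[q]`) of the class of `b` in the residue field `B ⧸ M`. -/
noncomputable def resNorm {B : Type*} [CommRing B] [Algebra ℚ_[q] B] (M : Ideal B) [M.IsMaximal]
    (b : B) : ℝ :=
  letI := Ideal.Quotient.field M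
  spectralNorm ℚ_[q] (B ⧸ M) (Ideal.Quotient.mk M b)

theorem norm_algHom_comp_mk {B : Type*} [CommRing B] [Algebra ℚ_[q] B] (M : Ideal B) [M.IsMaximal]
    (ψ : (B ⧸ M) →ₐ[ℚ_[q]] PadicAlgCl q) (b : B) :
    ‖ψ (Ideal.Quotient.mk M b)‖ = resNorm q M b := by
  letI := Ideal.Quotient.field M
  exact norm_algHom q ψ _

/-- A hom to `PadicAlgCl q` killing the maximal ideal `M` computes the residue norm at `M`. -/
theorem norm_algHom_of_le_ker {B : Type*} [CommRing B] [Algebra ℚ_[q] B] (M : Ideal B)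
    [M.IsMaximal] (φ : B →ₐ[ℚ_[q]] PadicAlgCl q) (h : ∀ a ∈ M, φ a = 0) (b : B) :
    ‖φ b‖ = resNorm q M b := by
  rw [← norm_algHom_comp_mk q M (Ideal.Quotient.liftₐ M φ h) b]
  rfl

/-- Every residue field of a finite-dimensional algebra embeds into `PadicAlgCl q`. -/
theorem exists_algHom_ker {B : Type*} [CommRing B] [Algebra ℚ_[q] B] [Module.Finite ℚ_[q] B]
    (M : Ideal B) [M.IsMaximal] : ∃ φ : B →ₐ[ℚ_[q]] PadicAlgCl q, ∀ a ∈ M, φ a = 0 := by
  letI := Ideal.Quotient.field M
  haveI : Algebra.IsAlgebraic ℚ_[q] (B ⧸ M) := Algebra.IsAlgebraic.of_finite _ _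
  let ψ : (B ⧸ M) →ₐ[ℚ_[q]] PadicAlgCl q := IsAlgClosed.lift
  refine ⟨ψ.comp (Ideal.Quotient.mkₐ ℚ_[q] M), fun a ha => ?_⟩
  have : Ideal.Quotient.mk M a = 0 := Ideal.Quotient.eq_zero_iff_mem.mpr ha
  show ψ (Ideal.Quotient.mk M a) = 0
  rw [this, map_zero]

/-- The kernel of a hom to `PadicAlgCl q` is a maximal ideal. -/
theorem ker_isMaximal {B : Type*} [CommRing B] [Algebra ℚ_[q] B] [Module.Finite ℚ_[q] B]
    (φ : B →ₐ[ℚ_[q]] PadicAlgCl q) : (RingHom.ker φ).IsMaximal := by
  haveI : IsArtinianRing B := IsArtinianRing.of_finite ℚ_[q] B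
  haveI hp : (RingHom.ker φ).IsPrime := RingHom.ker_isPrime φ
  infer_instance

/-- **(C2)** the norm bridge for a finite-dimensional commutative `ℚ_[q]`-algebra. -/
theorem forall_algHom_norm_iff {B : Type*} [CommRing B] [Algebra ℚ_[q] B]
    [Module.Finite ℚ_[q] B] (b : B) (r : ℝ) :
    (∀ φ : B →ₐ[ℚ_[q]] PadicAlgCl q, ‖φ b‖ = r) ↔
      ∀ (M : Ideal B) [M.IsMaximal], resNorm q M b = r := by
  constructor
  · intro h M hM
    obtain ⟨φ, hφ⟩ := exists_algHom_ker q M
    rw [← norm_algHom_of_le_ker q M φ hφ b]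
    exact h φ
  · intro h φ
    haveI := ker_isMaximal q φ
    rw [norm_algHom_of_le_ker q (RingHom.ker φ) φ (fun a ha => ha) b]
    exact h _

/-- Transport of residue norms along a `ℚ_[q]`-algebra hom mapping `M` into `M'`. -/
theorem resNorm_map {B B' : Type*} [CommRing B] [Algebra ℚ_[q] B] [CommRing B'] [Algebra ℚ_[q] B']
    [Module.Finite ℚ_[q] B'] (f : B →ₐ[ℚ_[q]] B') (M : Ideal B) [M.IsMaximal]
    (M' : Ideal B') [M'.IsMaximal] (h : ∀ a ∈ M, f a ∈ M') (b : B) :
    resNorm q M' (f b) = resNorm q M b := by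
  obtain ⟨φ, hφ⟩ := exists_algHom_ker q M'
  rw [← norm_algHom_of_le_ker q M' φ hφ]
  have := norm_algHom_of_le_ker q M (φ.comp f) (fun a ha => hφ _ (h a ha)) b
  rw [← this]
  rfl

section Orbit

variable {G B : Type*} [Group G] [CommRing B] [MulSemiringAction G B] [Algebra ℚ_[q] B]
  [SMulCommClass G ℚ_[q] B]

/-- Translating by `g`. -/
theorem resNorm_smul [Module.Finite ℚ_[q] B] (g : G) (M M' : Ideal B) [M.IsMaximal]
    [M'.IsMaximal] (h : ∀ a ∈ M, g • a ∈ M') (b : B) :
    resNorm q M' (g • b) = resNorm q M b :=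
  resNorm_map q (MulSemiringAction.toAlgHom ℚ_[q] B g) M M' h b

/-- **(C3)** orbit form: if `G` is transitive on the maximal ideals, then "every hom to
`PadicAlgCl q` sends `b` to norm `r`" iff "all `G`-translates of `b` have norm `r` in the one
residue field `B ⧸ m`". -/
theorem forall_algHom_norm_iff_orbit [Module.Finite ℚ_[q] B] (m : Ideal B) [m.IsMaximal]
    (htrans : ∀ (M : Ideal B) [M.IsMaximal], ∃ g : G, M = g • m) (b : B) (r : ℝ) :
    (∀ φ : B →ₐ[ℚ_[q]] PadicAlgCl q, ‖φ b‖ = r) ↔ ∀ g : G, resNorm q m (g • b) = r := by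
  rw [forall_algHom_norm_iff]
  constructor
  · intro h g
    haveI : (g⁻¹ • m).IsMaximal := SemilocalDecomp.isMaximal_smul g⁻¹ m
    rw [resNorm_smul q g (g⁻¹ • m) m (fun a ha => Ideal.mem_inv_pointwise_smul_iff.mp ha) b]
    exact h _
  · intro h M hM
    obtain ⟨g, rfl⟩ := htrans M
    rw [← resNorm_smul q g⁻¹ (g • m) m
      (fun a ha => Ideal.mem_pointwise_smul_iff_inv_smul_mem.mp ha) b]
    exact h _

end Orbit

section Tower

/-- **tower**: for `ℚ_[q] ⊆ F ⊆ E` finite, the spectral norm of `E` over `F` (`F` itself carrying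
its spectral norm over `ℚ_[q]`) is the spectral norm of `E` over `ℚ_[q]`. -/
theorem spectralNorm_tower (F E : Type*) [Field F] [Algebra ℚ_[q] F] [FiniteDimensional ℚ_[q] F]
    [Field E] [Algebra F E] [FiniteDimensional F E] [Algebra ℚ_[q] E] [IsScalarTower ℚ_[q] F E]
    (x : E) :
    letI := FiniteExtLF.nontriviallyNormedFieldExt ℚ_[q] F
    spectralNorm F E x = spectralNorm ℚ_[q] E x := by
  letI := FiniteExtLF.nontriviallyNormedFieldExt ℚ_[q] F
  letI := FiniteExtLF.normedAlgebraExt ℚ_[q] F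
  haveI := FiniteExtLF.isUltrametricDistExt ℚ_[q] F
  haveI := FiniteExtLF.properSpaceExt ℚ_[q] F
  letI := FiniteExtLF.nontriviallyNormedFieldExt F E
  letI := FiniteExtLF.normedAlgebraExt F E
  letI : NormedAlgebra ℚ_[q] E :=
    { (inferInstance : Algebra ℚ_[q] E) with
      norm_smul_le := fun c y => by
        rw [← algebraMap_smul F c y]
        refine (norm_smul_le _ _).trans_eq ?_
        rw [FiniteExtLF.norm_algebraMap ℚ_[q] F c] }
  haveI : FiniteDimensional ℚ_[q] E := FiniteDimensional.trans ℚ_[q] F E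
  exact NormedAlgebra.norm_eq_spectralNorm ℚ_[q] x

/-- The tower statement for a residue field `E = B ⧸ M` of an `F`-algebra `B`: the `FiniteExtLF`
norm of `B ⧸ M` over `F` (the one used in `Middle/UnramVal.IsUnramAt`) is `resNorm q M`. -/
theorem resNorm_eq_tower (F B : Type*) [Field F] [Algebra ℚ_[q] F] [FiniteDimensional ℚ_[q] F]
    [CommRing B] [Algebra F B] [Algebra ℚ_[q] B] [IsScalarTower ℚ_[q] F B]
    (M : Ideal B) [M.IsMaximal]
    (hfin : letI := Ideal.Quotient.field M; FiniteDimensional F (B ⧸ M)) (b : B) :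
    letI := FiniteExtLF.nontriviallyNormedFieldExt ℚ_[q] F
    letI := Ideal.Quotient.field M
    spectralNorm F (B ⧸ M) (Ideal.Quotient.mk M b) = resNorm q M b := by
  letI := Ideal.Quotient.field M
  haveI := hfin
  exact spectralNorm_tower q F (B ⧸ M) _

end Tower

end Fermat.Agent.S55.Global.UnitNormBridge
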