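/-
S55 / Global (middle layer, helper17's memo item (c) "Ш¹(G_S, 𝔽_p) ≤ c") — helper89.

Classical language (B), on top of the frozen S14 closure.  `K ⊆ L` number fields, `L/K` Galois,
abelian, unramified at all finite primes, `art` an Artin map of `L/K`.

* `unram_intermediate`, `isArtinMap_restrict` : Galois subextensions `M/K` of `L/K` are unramified
  and `res_M ∘ art` is an Artin map of `M/K`.
* `art_surjective` : the Artin map is onto (density block `BlockZ` of S14 applied to the fixed field
  of the image).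
* `principalDie_of_exponent` : if moreover `K ∋ ζ_p` (`p ≥ 3` prime) and `Gal(L/K)` has exponent
  `p`, the Artin map kills principal ideals (general unramified reciprocity `UnramRecipGen` applied to
  the cyclic subextensions of degree `p`).
* `card_le_index` : hence `#Gal(L/K) ≤ [Cl(K) : H]` for every subgroup `H` of the class group all of
  whose ideals have trivial Artin symbol; `card_le_of_split` : in particular for
  `H = ⟨classes of the primes in T, p-th powers⟩` when the primes in `T` split completely.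
-/
import Fermat.Agent.S55.Global.UnramRecipGen
import Fermat.Agent.S14.ArtinMap
import Fermat.Agent.S14.CycloFrob

set_option autoImplicit false

open NumberField nonZeroDivisors

namespace Fermat.Agent.S55.Global.UnramAbelian

open Fermat.Agent.S14

/-! ### A group-theoretic lemma -/

/-- Additive version of `exists_index_prime_not_mem`. -/
theorem exists_addSubgroup_index_prime_not_mem {V : Type*} [AddCommGroup V] {p : ℕ}
    [hp : Fact p.Prime] (hexp : ∀ v : V, p • v = 0) {v : V} (hv : v ≠ 0) :
    ∃ N : AddSubgroup V, N.index = p ∧ v ∉ N := by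
  classical
  let _ : Module (ZMod p) V := AddCommGroup.zmodModule (n := p) hexp
  obtain ⟨φ, hφ⟩ : ∃ φ : V →ₗ[ZMod p] ZMod p, φ v ≠ 0 :=
    Module.Projective.exists_dual_ne_zero (ZMod p) hv
  let χ : V →+ ZMod p := φ.toAddMonoidHom
  have hχg : χ v ≠ 0 := hφ
  refine ⟨χ.ker, ?_, fun h => hχg (AddMonoidHom.mem_ker.mp h)⟩
  rw [AddSubgroup.index_ker]
  have hcard : Nat.card (ZMod p) = p := by
    rw [Nat.card_eq_fintype_card, ZMod.card]
  have : Fact (Nat.card (ZMod p)).Prime := ⟨by rw [hcard]; exact hp.out⟩
  rcases χ.range.eq_bot_or_eq_top_of_prime_card with h | h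
  · exfalso
    apply hχg
    have : χ v ∈ χ.range := ⟨v, rfl⟩
    rw [h] at this
    exact AddSubgroup.mem_bot.mp this
  · rw [h, AddSubgroup.card_top, hcard]

/-- In a commutative group of exponent `p` (prime), every non-identity element is missed by some
subgroup of index `p`. -/
theorem exists_index_prime_not_mem {G : Type*} [CommGroup G] {p : ℕ} [hp : Fact p.Prime]
    (hexp : ∀ g : G, g ^ p = 1) {g : G} (hg : g ≠ 1) :
    ∃ N : Subgroup G, N.index = p ∧ g ∉ N := by
  obtain ⟨N, hN, hgN⟩ := exists_addSubgroup_index_prime_not_mem (V := Additive G) (p := p)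
    (fun x => congrArg Additive.ofMul (hexp (Additive.toMul x)))
    (v := Additive.ofMul g) (fun h => hg (congrArg Additive.toMul h))
  exact ⟨AddSubgroup.toSubgroup' N, hN, hgN⟩

/-! ### Subextensions -/

section Sub

variable {K L : Type} [Field K] [NumberField K] [Field L] [NumberField L] [Algebra K L]
  [IsGalois K L]

/-- A Galois subextension of an unramified extension is unramified. -/
theorem unram_intermediate (M : IntermediateField K L) [IsGalois K M] (hU : Unram K L) :
    Unram K M := by
  refine ArtinMap.unram_of_ramificationIdx (K := K) (L := M) ?_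
  intro P hP hP0
  obtain ⟨Q, hQ, hQP⟩ := ArtinMap.exists_prime_over (K := M) L P
  have hQ0 : Q ≠ ⊥ := Ideal.ne_bot_of_liesOver_of_ne_bot hP0 Q
  have h1 : Q.ramificationIdx (𝓞 K) = 1 :=
    ArtinMap.ramificationIdx_eq_one_of_unram (K := K) (L := L) hU Q hQ0
  have h2 : P.ramificationIdx (𝓞 K) ∣ Q.ramificationIdx (𝓞 K) :=
    Ideal.ramificationIdx_below_dvd (R := 𝓞 K) (S := 𝓞 M) (T := 𝓞 L) P Q
  rw [h1] at h2
  exact Nat.dvd_one.mp h2

/-- The restriction of an Artin map of `L/K` to a Galois subextension `M/K` is an Artin map. -/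
theorem isArtinMap_restrict (M : IntermediateField K L) [IsGalois K M]
    (art : (Ideal (𝓞 K))⁰ →* (L ≃ₐ[K] L)) (hart : IsArtinMap K L art) :
    IsArtinMap K M ((AlgEquiv.restrictNormalHom M).comp art) := by
  refine ⟨fun v P hv hP hPv => ?_⟩
  obtain ⟨Q, hQ, hQP⟩ := ArtinMap.exists_prime_over (K := M) L P
  have hQv : Q.LiesOver (v : Ideal (𝓞 K)) := Ideal.LiesOver.trans Q P (v : Ideal (𝓞 K))
  have h := hart.frob v Q hv hQ hQv
  have h2 := CycloFrob.isArithFrobAt_restrict (F := K) (L := M) (C := L) (art v) Q h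
  have hPQ : Q.under (𝓞 M) = P := (hQP.over).symm
  rw [hPQ] at h2
  exact h2

end Sub

/-! ### Surjectivity of the Artin map -/

section Surj

variable {K L : Type} [Field K] [NumberField K] [Field L] [NumberField L] [Algebra K L]
  [IsGalois K L]

/-- The Artin map of an unramified abelian extension is onto. -/
theorem art_surjective [IsMulCommutative (L ≃ₐ[K] L)] (hU : Unram K L)
    (art : (Ideal (𝓞 K))⁰ →* (L ≃ₐ[K] L)) (hart : IsArtinMap K L art) :
    Function.Surjective art := by
  classical
  rw [← MonoidHom.mrange_eq_top]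
  by_contra hne
  -- the image is a subgroup `H`, since the target is a finite group
  let H : Subgroup (L ≃ₐ[K] L) := Subgroup.closure (Set.range art)
  have hHne : H ≠ ⊤ := by
    intro hH
    apply hne
    rw [eq_top_iff]
    intro g _
    have hg : g ∈ H := by rw [hH]; trivial
    -- in a finite group the closure of a submonoid is the submonoid
    have hcl : (Subgroup.closure (Set.range art) : Set (L ≃ₐ[K] L)) = (MonoidHom.mrange art : Set _) := by
      have : (Subgroup.closure ((MonoidHom.mrange art : Submonoid (L ≃ₐ[K] L)) : Set (L ≃ₐ[K] L))).toSubmonoid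
          = MonoidHom.mrange art := by
        apply le_antisymm
        · intro x hx
          rw [Subgroup.mem_toSubmonoid] at hx
          induction hx using Subgroup.closure_induction with
          | mem y hy => exact hy
          | one => exact one_mem _
          | mul y z _ _ hy hz => exact mul_mem hy hz
          | inv y _ hy =>
            have hfin : IsOfFinOrder y := isOfFinOrder_of_finite y
            obtain ⟨n, hn, hyn⟩ := hfin.exists_pow_eq_one
            have : y⁻¹ = y ^ (n - 1) := by
              rw [inv_eq_iff_mul_eq_one, ← pow_succ', Nat.sub_add_cancel hn, hyn]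
            rw [this]
            exact pow_mem hy _
        · intro x hx
          exact Subgroup.subset_closure hx
      have h2 : (Set.range art) = ((MonoidHom.mrange art : Submonoid (L ≃ₐ[K] L)) : Set _) := by
        ext x; simp [MonoidHom.mem_mrange]
      rw [h2]
      exact congrArg (fun S : Submonoid (L ≃ₐ[K] L) => (S : Set (L ≃ₐ[K] L))) this
    have : g ∈ (Subgroup.closure (Set.range art) : Set (L ≃ₐ[K] L)) := hg
    rw [hcl] at this
    exact this
  -- the fixed field of `H`
  let M : IntermediateField K L := IntermediateField.fixedField H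
  have hHnormal : H.Normal := inferInstance
  have : IsGalois K M := IsGalois.of_fixedField_normal_subgroup H
  have hfix : M.fixingSubgroup = H := IntermediateField.fixingSubgroup_fixedField H
  have hdeg : 2 ≤ Module.finrank K M := by
    rw [IntermediateField.finrank_eq_fixingSubgroup_index, hfix]
    have h1 : H.index ≠ 1 := fun h => hHne (Subgroup.index_eq_one.mp h)
    have h0 : H.index ≠ 0 := Subgroup.index_ne_zero_of_finite
    omega
  have hUM : Unram K M := unram_intermediate M hU
  have hartM := isArtinMap_restrict M art hart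
  obtain ⟨Q, -, -, -, hQ⟩ := blockZ K M hdeg hUM _ hartM 0
  apply hQ
  -- `art Q ∈ H` fixes `M`
  have hmem : art Q ∈ M.fixingSubgroup := by
    rw [hfix]
    exact Subgroup.subset_closure ⟨Q, rfl⟩
  rw [MonoidHom.comp_apply]
  apply AlgEquiv.ext
  intro x
  apply Subtype.ext
  rw [AlgEquiv.restrictNormalHom_apply]
  exact (IntermediateField.mem_fixingSubgroup_iff _ _).mp hmem x x.2

end Surj

/-! ### Reciprocity for exponent `p` -/

section Recip

variable {K L : Type} [Field K] [NumberField K] [Field L] [NumberField L] [Algebra K L]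
  [IsGalois K L]

/-- **Unramified reciprocity, exponent `p`**: `K ∋ ζ_p` (`p ≥ 3` prime), `L/K` abelian of exponent
`p`, unramified at all finite primes: every Artin map of `L/K` kills the principal ideals. -/
theorem principalDie_of_exponent {p : ℕ} (hp : p.Prime) (h3 : 3 ≤ p)
    (hζp : ∃ ζ : K, IsPrimitiveRoot ζ p) [IsMulCommutative (L ≃ₐ[K] L)]
    (hexp : ∀ σ : L ≃ₐ[K] L, σ ^ p = 1) (hU : Unram K L)
    (art : (Ideal (𝓞 K))⁰ →* (L ≃ₐ[K] L)) (hart : IsArtinMap K L art) : PrincipalDie art := by
  classical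
  intro I hI
  have : Fact p.Prime := ⟨hp⟩
  by_contra hne
  let _ : CommGroup (L ≃ₐ[K] L) := { (inferInstance : Group (L ≃ₐ[K] L)) with
    mul_comm := fun a b => mul_comm' a b }
  obtain ⟨N, hN, hgN⟩ := exists_index_prime_not_mem (G := L ≃ₐ[K] L) (p := p) hexp hne
  let M : IntermediateField K L := IntermediateField.fixedField N
  have hNnormal : N.Normal := inferInstance
  have : IsGalois K M := IsGalois.of_fixedField_normal_subgroup N
  have hfix : M.fixingSubgroup = N := IntermediateField.fixingSubgroup_fixedField N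
  have hdeg : Module.finrank K M = p := by
    rw [IntermediateField.finrank_eq_fixingSubgroup_index, hfix, hN]
  have hUM : Unram K M := unram_intermediate M hU
  have hartM := isArtinMap_restrict M art hart
  have hζM : ∃ ζ : K, IsPrimitiveRoot ζ p := hζp
  have h1 := UnramRecipGen.principalDie K M hp h3 hζM hdeg hUM _ hartM I hI
  apply hgN
  rw [← hfix, IntermediateField.mem_fixingSubgroup_iff]
  intro x hx
  have h2 := congrArg (fun τ : M ≃ₐ[K] M => ((τ ⟨x, hx⟩ : M) : L)) h1
  simp only [MonoidHom.comp_apply, AlgEquiv.restrictNormalHom_apply, AlgEquiv.one_apply] at h2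
  exact h2

end Recip

/-! ### Consequences on the class group -/

section ClassGroup

variable {K L : Type} [Field K] [NumberField K] [Field L] [NumberField L] [Algebra K L]
  [IsGalois K L]

/-- If principal ideals die, the Artin symbol depends only on the ideal class. -/
theorem art_eq_of_mk0_eq {art : (Ideal (𝓞 K))⁰ →* (L ≃ₐ[K] L)} (hPD : PrincipalDie art)
    {I J : (Ideal (𝓞 K))⁰} (h : ClassGroup.mk0 I = ClassGroup.mk0 J) : art I = art J := by
  obtain ⟨x, y, hx, hy, hxy⟩ := (ClassGroup.mk0_eq_mk0_iff).mp h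
  have hX : Ideal.span {x} ∈ (Ideal (𝓞 K))⁰ :=
    mem_nonZeroDivisors_of_ne_zero (by simpa [Ideal.zero_eq_bot, Ideal.span_singleton_eq_bot] using hx)
  have hY : Ideal.span {y} ∈ (Ideal (𝓞 K))⁰ :=
    mem_nonZeroDivisors_of_ne_zero (by simpa [Ideal.zero_eq_bot, Ideal.span_singleton_eq_bot] using hy)
  have h1 : art ⟨Ideal.span {x}, hX⟩ = 1 := hPD _ ⟨⟨x, rfl⟩⟩
  have h2 : art ⟨Ideal.span {y}, hY⟩ = 1 := hPD _ ⟨⟨y, rfl⟩⟩
  have h3 : (⟨Ideal.span {x}, hX⟩ : (Ideal (𝓞 K))⁰) * I = ⟨Ideal.span {y}, hY⟩ * J :=
    Subtype.ext hxy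
  have h4 := congrArg art h3
  rwa [map_mul, map_mul, h1, h2, one_mul, one_mul] at h4

/-- The Artin map on the class group (when principal ideals die). -/
noncomputable def artCl (art : (Ideal (𝓞 K))⁰ →* (L ≃ₐ[K] L)) (hPD : PrincipalDie art) :
    ClassGroup (𝓞 K) →* (L ≃ₐ[K] L) where
  toFun c := art (Classical.choose (ClassGroup.mk0_surjective c))
  map_one' := by
    apply hPD
    exact (ClassGroup.mk0_eq_one_iff (Classical.choose
      (ClassGroup.mk0_surjective (1 : ClassGroup (𝓞 K)))).2).mp
      (Classical.choose_spec (ClassGroup.mk0_surjective (1 : ClassGroup (𝓞 K))))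
  map_mul' a b := by
    rw [← map_mul]
    apply art_eq_of_mk0_eq hPD
    rw [map_mul, Classical.choose_spec (ClassGroup.mk0_surjective (a * b)),
      Classical.choose_spec (ClassGroup.mk0_surjective a),
      Classical.choose_spec (ClassGroup.mk0_surjective b)]

@[simp]
theorem artCl_mk0 (art : (Ideal (𝓞 K))⁰ →* (L ≃ₐ[K] L)) (hPD : PrincipalDie art)
    (I : (Ideal (𝓞 K))⁰) : artCl art hPD (ClassGroup.mk0 I) = art I :=
  art_eq_of_mk0_eq hPD (Classical.choose_spec (ClassGroup.mk0_surjective (ClassGroup.mk0 I)))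

theorem artCl_surjective [IsMulCommutative (L ≃ₐ[K] L)] (hU : Unram K L)
    (art : (Ideal (𝓞 K))⁰ →* (L ≃ₐ[K] L)) (hart : IsArtinMap K L art) (hPD : PrincipalDie art) :
    Function.Surjective (artCl art hPD) := by
  intro g
  obtain ⟨I, rfl⟩ := art_surjective hU art hart g
  exact ⟨ClassGroup.mk0 I, artCl_mk0 art hPD I⟩

/-- `#Gal(L/K) ≤ [Cl(K) : H]` for every subgroup `H` of the class group killed by the Artin map. -/
theorem card_le_index [IsMulCommutative (L ≃ₐ[K] L)] (hU : Unram K L)
    (art : (Ideal (𝓞 K))⁰ →* (L ≃ₐ[K] L)) (hart : IsArtinMap K L art) (hPD : PrincipalDie art)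
    (H : Subgroup (ClassGroup (𝓞 K))) (hH : H ≤ (artCl art hPD).ker) :
    Nat.card (L ≃ₐ[K] L) ≤ H.index := by
  have hsurj := artCl_surjective hU art hart hPD
  have h1 : Nat.card (L ≃ₐ[K] L) = (artCl art hPD).ker.index := by
    rw [Subgroup.index_ker, MonoidHom.range_eq_top.mpr hsurj, Subgroup.card_top]
  rw [h1]
  exact Nat.le_of_dvd (Nat.pos_of_ne_zero Subgroup.index_ne_zero_of_finite)
    (Subgroup.index_dvd_of_le hH)

/-- **Item (c)**: `K ∋ ζ_p`, `L/K` abelian of exponent `p`, unramified everywhere, and every prime in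
`T` has trivial Artin symbol (splits completely): then
`#Gal(L/K) ≤ #(Cl(K) / ⟨T, Cl(K)^p⟩)`. -/
theorem card_le_of_split {p : ℕ} (hp : p.Prime) (h3 : 3 ≤ p)
    (hζp : ∃ ζ : K, IsPrimitiveRoot ζ p) [IsMulCommutative (L ≃ₐ[K] L)]
    (hexp : ∀ σ : L ≃ₐ[K] L, σ ^ p = 1) (hU : Unram K L)
    (art : (Ideal (𝓞 K))⁰ →* (L ≃ₐ[K] L)) (hart : IsArtinMap K L art)
    (T : Set ((Ideal (𝓞 K))⁰)) (hT : ∀ v ∈ T, art v = 1) :
    Nat.card (L ≃ₐ[K] L) ≤
      (Subgroup.closure ((ClassGroup.mk0 '' T) ∪
        Set.range (fun c : ClassGroup (𝓞 K) => c ^ p))).index := by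
  have hPD := principalDie_of_exponent hp h3 hζp hexp hU art hart
  apply card_le_index hU art hart hPD
  rw [Subgroup.closure_le]
  rintro c (⟨v, hv, rfl⟩ | ⟨d, rfl⟩)
  · rw [SetLike.mem_coe, MonoidHom.mem_ker, artCl_mk0]
    exact hT v hv
  · rw [SetLike.mem_coe, MonoidHom.mem_ker]
    show artCl art hPD (d ^ p) = 1
    rw [map_pow]
    exact hexp _

end ClassGroup

end Fermat.Agent.S55.Global.UnramAbelian
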