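/-
S55 / Global / G.dec — `UnramDictKlocOrd` (helper71): DENSITY and `Local.ord` FORMULAS for the
residue fields of `L ⊗[K] F` / `L ⊗[K] Kloc K q 𝔪` (setting and norms of `Global/UnramDictKloc`).

* `norm_unif_eq`, `ord_eq_of_norm_eq_zpow` : in a local field whose value group is generated by
  `c = ‖x₀‖ < 1`, `‖Local.unif E‖ = c` and `‖u‖ = c ^ n ⇒ Local.ord E u = n`;
* `norm_unif_eq_nu`, `ord_factor_eq` : for a surjective factor `φ : L ⊗[ℚ] ℚ_[q] →+* Ω`, `Ω` normed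
  by the `ℚ_[q]`-spectral norm: `Local.ord Ω u = -log w(l)` if `u = φ (l ⊗ 1)`, `w = placeOf φ`;
* `denseRange_embL` : `DenseRange (l ↦ [l ⊗ 1])` in `E = (L ⊗[K] F) ⧸ M` (`FiniteExtLF` norm);
* `ord_mk_tmul` : `Local.ord E u = -log ((placeAbove K L q F M).valuation L l)` if `u = [l ⊗ 1]`;
* `ord_algebraMap` : `Local.ord F u = -log ((placeOf ψ).valuation K k)` if `u = algebraMap K F k`;
* `Kloc` forms: `denseRange_embL_Kloc`, `ord_mk_tmul_Kloc` (`placeAt K L q 𝔪 M`),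
  `ord_algebraMap_Kloc` (`PlaceBij.placeOfMax 𝔪`).
-/
import Mathlib
import Fermat.Agent.S55.Global.UnramDictKloc
import Fermat.Agent.S55.Local.Basic

set_option autoImplicit false
set_option linter.unusedSectionVars false
set_option linter.style.haveILetI false

namespace Fermat.Agent.S55.Global.UnramDictKlocOrd

open NumberField IsDedekindDomain
open scoped TensorProduct NumberField
open Fermat.Agent.S55.Global.PlaceBij Fermat.Agent.S55.Global.Blocks3
open Fermat.Agent.S55.Global.UnramDictKloc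
open Fermat.Agent.S55.Middle Fermat.Agent.S55

section Unif

variable (E : Type*) [NontriviallyNormedField E] [IsUltrametricDist E] [ProperSpace E]

/-- If the value group of a local field `E` is generated by `c = ‖x₀‖ < 1`, then the chosen
uniformizer `Local.unif E` has norm `c`. -/
theorem norm_unif_eq {c : ℝ} (h0 : 0 < c) (h1 : c < 1) (hc : ∃ x : E, ‖x‖ = c)
    (hval : ∀ x : E, x ≠ 0 → ∃ n : ℤ, ‖x‖ = c ^ n) : ‖Local.unif E‖ = c := by
  obtain ⟨a, ha⟩ := hval (Local.unif E) (Local.unif_ne_zero E)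
  obtain ⟨x₀, hx₀⟩ := hc
  have hx₀0 : x₀ ≠ 0 := by
    rintro rfl
    rw [norm_zero] at hx₀
    exact h0.ne hx₀
  obtain ⟨b, hb⟩ := Local.exists_norm_eq_zpow E hx₀0
  -- `c = c ^ (a * b)`
  have hcc : c ^ (1 : ℤ) = c ^ (a * b) := by
    rw [zpow_one, zpow_mul, ← ha, ← hb, hx₀]
  have hab : (1 : ℤ) = a * b := zpow_right_injective₀ h0 h1.ne hcc
  rcases Int.eq_one_or_neg_one_of_mul_eq_one hab.symm with h | h
  · rw [ha, h, zpow_one]
  · exfalso
    have hlt := Local.norm_unif_lt_one E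
    rw [ha, h, zpow_neg, zpow_one] at hlt
    have : 1 < c⁻¹ := (one_lt_inv₀ h0).mpr h1
    exact absurd hlt (not_lt.mpr this.le)

/-- With the value group generated by `c`: `ord x = n` as soon as `‖x‖ = c ^ n`. -/
theorem ord_eq_of_norm_eq_zpow {c : ℝ} (h0 : 0 < c) (h1 : c < 1) (hc : ∃ x : E, ‖x‖ = c)
    (hval : ∀ x : E, x ≠ 0 → ∃ n : ℤ, ‖x‖ = c ^ n) (u : Eˣ) {n : ℤ} (hu : ‖(u : E)‖ = c ^ n) :
    Local.ord E u = n :=
  Local.ord_eq_of_norm_eq (by rw [norm_unif_eq E h0 h1 hc hval]; exact hu)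

end Unif

section Factor

variable {q : ℕ} [Fact q.Prime] {L : Type*} [Field L] [NumberField L]
variable {Ω : Type} [NontriviallyNormedField Ω] [IsUltrametricDist Ω] [ProperSpace Ω]
  [Algebra ℚ_[q] Ω] [Algebra.IsAlgebraic ℚ_[q] Ω]
  (hnorm : ∀ x : Ω, ‖x‖ = spectralNorm ℚ_[q] Ω x)
  (φ : L ⊗[ℚ] ℚ_[q] →+* Ω) (hφ : ∀ c : ℚ_[q], φ ((1 : L) ⊗ₜ[ℚ] c) = algebraMap ℚ_[q] Ω c)
  (hsurj : Function.Surjective φ)

include hnorm hφ hsurj in
/-- The chosen uniformizer of a surjective factor `Ω` has the norm of any global uniformizer at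
the place of the factor. -/
theorem norm_unif_eq_nu {π : L} (hπ : (placeOf φ).valuation L π = WithZero.exp (-1 : ℤ)) :
    ‖Local.unif Ω‖ = nu φ π := by
  have hπ0 : π ≠ 0 := by
    rintro rfl
    rw [map_zero] at hπ
    exact WithZero.exp_ne_zero hπ.symm
  refine norm_unif_eq Ω ?_ ?_ ⟨φ (π ⊗ₜ[ℚ] (1 : ℚ_[q])), hnorm _⟩ ?_
  · exact lt_of_le_of_ne (nu_nonneg φ π) (Ne.symm (mt (nu_eq_zero_iff φ π).mp hπ0))
  · refine (valuation_lt_one_iff φ π).mp ?_
    rw [hπ, ← WithZero.exp_zero, WithZero.exp_lt_exp]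
    norm_num
  · intro x hx
    obtain ⟨n, hn⟩ := exists_spectralNorm_eq_zpow φ hφ hsurj hπ hx
    exact ⟨n, (hnorm x).trans hn⟩

include hnorm hφ hsurj in
/-- **`ord` of a global element** in a surjective factor `Ω` (normed by the `ℚ_[q]`-spectral
norm): `ord_Ω [l ⊗ 1] = -log w(l)` for `w = placeOf φ`. -/
theorem ord_factor_eq {l : L} (u : Ωˣ) (hu : (u : Ω) = φ (l ⊗ₜ[ℚ] (1 : ℚ_[q]))) :
    Local.ord Ω u = -(WithZero.log ((placeOf φ).valuation L l)) := by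
  obtain ⟨π, hπ⟩ := (placeOf φ).valuation_exists_uniformizer L
  have hl0 : l ≠ 0 := by
    rintro rfl
    rw [TensorProduct.zero_tmul, map_zero] at hu
    exact u.ne_zero hu
  apply Local.ord_eq_of_norm_eq
  rw [norm_unif_eq_nu hnorm φ hφ hsurj hπ, hu, hnorm]
  exact nu_eq_zpow φ hπ hl0

end Factor

section General

attribute [local instance] Algebra.TensorProduct.rightAlgebra

variable (K L : Type) [Field K] [NumberField K] [Field L] [NumberField L] [Algebra K L]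
variable (q : ℕ) [Fact q.Prime]
variable (F : Type) [Field F] [Algebra K F] [Algebra ℚ_[q] F] [FiniteDimensional ℚ_[q] F]
variable (M : Ideal (L ⊗[K] F)) [hM : M.IsMaximal]
variable (ψ : K ⊗[ℚ] ℚ_[q] →+* F)
  (hψ : ∀ (k : K) (c : ℚ_[q]), ψ (k ⊗ₜ[ℚ] c) = algebraMap K F k * algebraMap ℚ_[q] F c)
  (hψs : Function.Surjective ψ)

include hψ hψs in
/-- **Density**: `L` is dense in `E = (L ⊗[K] F) ⧸ M` for the `FiniteExtLF` norm. -/
theorem denseRange_embL :
    letI := Ideal.Quotient.field M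
    letI := FiniteExtLF.nontriviallyNormedFieldExt ℚ_[q] F
    haveI := FiniteExtLF.isUltrametricDistExt ℚ_[q] F
    haveI := FiniteExtLF.properSpaceExt ℚ_[q] F
    haveI := finite_quot K L F M
    letI := FiniteExtLF.nontriviallyNormedFieldExt F ((L ⊗[K] F) ⧸ M)
    DenseRange (embL K L F M) := by
  letI := Ideal.Quotient.field M
  letI := FiniteExtLF.nontriviallyNormedFieldExt ℚ_[q] F
  haveI := FiniteExtLF.isUltrametricDistExt ℚ_[q] F
  haveI := FiniteExtLF.properSpaceExt ℚ_[q] F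
  haveI := finite_quot K L F M
  letI := FiniteExtLF.nontriviallyNormedFieldExt F ((L ⊗[K] F) ⧸ M)
  letI := algQE K L q F M
  haveI := isAlgebraic_QE K L q F M
  rw [Metric.denseRange_iff]
  intro x r hr
  obtain ⟨l, hl⟩ := dense_of_surjective (factorAt K L q F M) (factorAt_one_tmul K L q F M)
    (factorAt_surjective K L q F M ψ hψ hψs) x hr
  refine ⟨l, ?_⟩
  rw [dist_eq_norm, norm_eq_spectralNorm K L q F M, ← factorAt_tmul_one K L q F M l]
  exact hl

include hψ hψs in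
/-- **`ord` of a global element in `E`**: `ord_E [l ⊗ 1] = -log w(l)`, `w = placeAbove`. -/
theorem ord_mk_tmul (l : L) :
    letI := Ideal.Quotient.field M
    letI := FiniteExtLF.nontriviallyNormedFieldExt ℚ_[q] F
    haveI := FiniteExtLF.isUltrametricDistExt ℚ_[q] F
    haveI := FiniteExtLF.properSpaceExt ℚ_[q] F
    haveI := finite_quot K L F M
    letI := FiniteExtLF.nontriviallyNormedFieldExt F ((L ⊗[K] F) ⧸ M)
    haveI := FiniteExtLF.isUltrametricDistExt F ((L ⊗[K] F) ⧸ M)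
    haveI := FiniteExtLF.properSpaceExt F ((L ⊗[K] F) ⧸ M)
    ∀ u : ((L ⊗[K] F) ⧸ M)ˣ, (u : (L ⊗[K] F) ⧸ M) = Ideal.Quotient.mk M (l ⊗ₜ[K] (1 : F)) →
      Local.ord ((L ⊗[K] F) ⧸ M) u = -(WithZero.log ((placeAbove K L q F M).valuation L l)) := by
  letI := Ideal.Quotient.field M
  letI := FiniteExtLF.nontriviallyNormedFieldExt ℚ_[q] F
  haveI := FiniteExtLF.isUltrametricDistExt ℚ_[q] F
  haveI := FiniteExtLF.properSpaceExt ℚ_[q] F
  haveI := finite_quot K L F M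
  letI := FiniteExtLF.nontriviallyNormedFieldExt F ((L ⊗[K] F) ⧸ M)
  haveI := FiniteExtLF.isUltrametricDistExt F ((L ⊗[K] F) ⧸ M)
  haveI := FiniteExtLF.properSpaceExt F ((L ⊗[K] F) ⧸ M)
  letI := algQE K L q F M
  haveI := isAlgebraic_QE K L q F M
  intro u hu
  exact ord_factor_eq (norm_eq_spectralNorm K L q F M) (factorAt K L q F M)
    (factorAt_one_tmul K L q F M) (factorAt_surjective K L q F M ψ hψ hψs) u
    (hu.trans ((factorAt_tmul_one K L q F M l).trans (embL_apply K L F M l)).symm)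

include hψ hψs in
/-- **`ord` of a global element in `F`**: `ord_F (k) = -log v(k)`, `v = placeOf ψ`. -/
theorem ord_algebraMap (k : K) :
    letI := FiniteExtLF.nontriviallyNormedFieldExt ℚ_[q] F
    haveI := FiniteExtLF.isUltrametricDistExt ℚ_[q] F
    haveI := FiniteExtLF.properSpaceExt ℚ_[q] F
    ∀ u : Fˣ, (u : F) = algebraMap K F k →
      Local.ord F u = -(WithZero.log ((placeOf ψ).valuation K k)) := by
  letI := FiniteExtLF.nontriviallyNormedFieldExt ℚ_[q] F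
  haveI := FiniteExtLF.isUltrametricDistExt ℚ_[q] F
  haveI := FiniteExtLF.properSpaceExt ℚ_[q] F
  intro u hu
  refine ord_factor_eq (fun _ => rfl) ψ (fun c => by rw [hψ, map_one, one_mul]) hψs u ?_
  rw [hu, hψ, map_one, mul_one]

end General

section Kloc

attribute [local instance] Algebra.TensorProduct.rightAlgebra

variable (K L : Type) [Field K] [NumberField K] [Field L] [NumberField L] [Algebra K L]
variable (q : Nat.Primes) (𝔪 : Ideal (Ksemi K q)) [h𝔪 : 𝔪.IsMaximal]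
variable (M : Ideal (L ⊗[K] Kloc K q 𝔪)) [hM : M.IsMaximal]

/-- **Density (v3)**: `L` is dense in every residue field of `L ⊗[K] Kloc K q 𝔪`. -/
theorem denseRange_embL_Kloc :
    letI := Ideal.Quotient.field 𝔪
    letI := Ideal.Quotient.field M
    haveI := finite_Kloc K q 𝔪
    letI := FiniteExtLF.nontriviallyNormedFieldExt ℚ_[(q : ℕ)] (Kloc K q 𝔪)
    haveI := FiniteExtLF.isUltrametricDistExt ℚ_[(q : ℕ)] (Kloc K q 𝔪)
    haveI := FiniteExtLF.properSpaceExt ℚ_[(q : ℕ)] (Kloc K q 𝔪)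
    haveI := finite_quot K L (Kloc K q 𝔪) M
    letI := FiniteExtLF.nontriviallyNormedFieldExt (Kloc K q 𝔪) ((L ⊗[K] Kloc K q 𝔪) ⧸ M)
    DenseRange (fun l : L => Ideal.Quotient.mk M (l ⊗ₜ[K] (1 : Kloc K q 𝔪))) := by
  letI := Ideal.Quotient.field 𝔪
  haveI := finite_Kloc K q 𝔪
  exact denseRange_embL K L (q : ℕ) (Kloc K q 𝔪) M (Ideal.Quotient.mk 𝔪) (mk_tmul K q 𝔪)
    Ideal.Quotient.mk_surjective

/-- **`ord` in the residue field at `M` (v3)**: `ord_E [l ⊗ 1] = -log w(l)`, `w = placeAt`. -/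
theorem ord_mk_tmul_Kloc (l : L) :
    letI := Ideal.Quotient.field 𝔪
    letI := Ideal.Quotient.field M
    haveI := finite_Kloc K q 𝔪
    letI := FiniteExtLF.nontriviallyNormedFieldExt ℚ_[(q : ℕ)] (Kloc K q 𝔪)
    haveI := FiniteExtLF.isUltrametricDistExt ℚ_[(q : ℕ)] (Kloc K q 𝔪)
    haveI := FiniteExtLF.properSpaceExt ℚ_[(q : ℕ)] (Kloc K q 𝔪)
    haveI := finite_quot K L (Kloc K q 𝔪) M
    letI := FiniteExtLF.nontriviallyNormedFieldExt (Kloc K q 𝔪) ((L ⊗[K] Kloc K q 𝔪) ⧸ M)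
    haveI := FiniteExtLF.isUltrametricDistExt (Kloc K q 𝔪) ((L ⊗[K] Kloc K q 𝔪) ⧸ M)
    haveI := FiniteExtLF.properSpaceExt (Kloc K q 𝔪) ((L ⊗[K] Kloc K q 𝔪) ⧸ M)
    ∀ u : ((L ⊗[K] Kloc K q 𝔪) ⧸ M)ˣ,
      (u : (L ⊗[K] Kloc K q 𝔪) ⧸ M) = Ideal.Quotient.mk M (l ⊗ₜ[K] (1 : Kloc K q 𝔪)) →
      Local.ord ((L ⊗[K] Kloc K q 𝔪) ⧸ M) u =
        -(WithZero.log ((placeAt K L q 𝔪 M).valuation L l)) := by
  letI := Ideal.Quotient.field 𝔪
  haveI := finite_Kloc K q 𝔪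
  exact ord_mk_tmul K L (q : ℕ) (Kloc K q 𝔪) M (Ideal.Quotient.mk 𝔪) (mk_tmul K q 𝔪)
    Ideal.Quotient.mk_surjective l

/-- **`ord` in `Kloc K q 𝔪` (v3)**: `ord (k) = -log v(k)`, `v = placeOfMax 𝔪`. -/
theorem ord_algebraMap_Kloc (k : K) :
    letI := Ideal.Quotient.field 𝔪
    haveI := finite_Kloc K q 𝔪
    letI := FiniteExtLF.nontriviallyNormedFieldExt ℚ_[(q : ℕ)] (Kloc K q 𝔪)
    haveI := FiniteExtLF.isUltrametricDistExt ℚ_[(q : ℕ)] (Kloc K q 𝔪)
    haveI := FiniteExtLF.properSpaceExt ℚ_[(q : ℕ)] (Kloc K q 𝔪)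
    ∀ u : (Kloc K q 𝔪)ˣ, (u : Kloc K q 𝔪) = algebraMap K (Kloc K q 𝔪) k →
      Local.ord (Kloc K q 𝔪) u = -(WithZero.log ((placeOfMax 𝔪).valuation K k)) := by
  letI := Ideal.Quotient.field 𝔪
  haveI := finite_Kloc K q 𝔪
  exact ord_algebraMap K (q : ℕ) (Kloc K q 𝔪) (Ideal.Quotient.mk 𝔪) (mk_tmul K q 𝔪)
    Ideal.Quotient.mk_surjective k

end Kloc

end Fermat.Agent.S55.Global.UnramDictKlocOrd
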