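import Mathlib
import Fermat.Agent.S55.Global.FiniteExtLF
import Fermat.Agent.S55.Global.UnitNormBridge
import Fermat.Agent.S55.Global.SemilocalH3Jn

/-!
# S55 / Global: the norm bridge for the unit subgroups, place form (part (C3) of row (U1))

On top of `Global/UnitNormBridge.lean` (generic part: `resNorm`, `forall_algHom_norm_iff`,
`forall_algHom_norm_iff_orbit`, `resNorm_eq_tower`), this file does the product step along
`L ⊗[ℚ] ℚ_[q] ≃ L ⊗[K] (K ⊗[ℚ] ℚ_[q]) → L ⊗[K] K_𝔪` (`SemilocalH3Jn.cancelEquiv`, `projLoc`):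

* `exists_le_ker` : a ring hom to a domain kills one of finitely many jointly trivial ideals;
* `forall_algHom_norm_iff_prod` : for a finite family of surjective, jointly injective
  `ℚ_[q]`-algebra homs `π i : R → B i`, "every hom `R → PadicAlgCl q` sends `b` to norm `r`" iff
  for every `i` "every hom `B i → PadicAlgCl q` sends `π i b` to norm `r`";
* `algQB`, `piLoc` : the `ℚ_[q]`-algebra structure of `L ⊗[K] K_𝔪` (through the right factor) and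
  `projLoc ∘ cancelEquiv` as a `ℚ_[q]`-algebra hom;
* `forall_algHom_norm_iff_places` : the place form with all maximal ideals;
* `forall_algHom_norm_iff_orbit_Kloc` : orbit form at one place (`UnitNormBridge` orbit lemma for
  `B = L ⊗[K] K_𝔪`, `G = Gal(L/K)`), translates written `Objects.tensorAct _ g x`;
* `forall_algHom_norm_iff_places_orbit` (`tensorAct` form), `forall_algHom_norm_iff_places_orbit'`
  (`g • x` form) : the place form with one maximal ideal `m 𝔪` for each place and all Galois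
  translates;
* `norm_mk_eq_resNorm`, `forall_algHom_norm_iff_norm`, `forall_algHom_norm_iff_projPlace` : the same
  with the `FiniteExtLF` norms of the residue fields (the norms of
  `Middle/UnramVal.IsUnramAtKloc` and `Local.UnramUnitsCoh.unitsSub`), the last one for
  `z : L ⊗[ℚ] ℚ_T` through `projQ` / `projPlace`.

Remark on the two scalar actions: on `L ⊗[K] A` the term `g • x` elaborates to Mathlib's
`TensorProduct.leftHasSMul`, as it does in `Objects.smul_def`, `SemilocalH3.hact` and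
`Objects.val_smul_units`; the `MulSemiringAction` of `Objects` unfolds to `Objects.tensorAct A g x`.
Both are related by `Objects.smul_def` (`rfl`).
-/

set_option autoImplicit false
set_option linter.unusedSectionVars false
set_option linter.style.haveILetI false

open TensorProduct
open scoped Pointwise

namespace Fermat.Agent.S55.Global.UnramUnitsBridge

open Fermat.Agent.S55.Global.UnitNormBridge

/-! ### Abstract: a map to a domain kills one of finitely many jointly trivial ideals -/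

section Abstract

theorem exists_le_ker {R Ω ι : Type*} [CommRing R] [CommRing Ω] [IsDomain Ω] [Finite ι]
    (φ : R →+* Ω) (I : ι → Ideal R) (h : ∀ r : R, (∀ i, r ∈ I i) → r = 0) :
    ∃ i, I i ≤ RingHom.ker φ := by
  classical
  letI := Fintype.ofFinite ι
  by_contra hcon
  simp only [not_exists, SetLike.not_le_iff_exists] at hcon
  choose r hr hφ using hcon
  have hx : ∀ i, (∏ j, r j) ∈ I i := fun i => Ideal.prod_mem (I i) (Finset.mem_univ i) (hr i)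
  have h0 : (∏ j, r j) = 0 := h _ hx
  have h1 : φ (∏ j, r j) ≠ 0 := by
    rw [map_prod]
    exact Finset.prod_ne_zero_iff.2 fun i _ => fun hi => hφ i ((RingHom.mem_ker).2 hi)
  exact h1 (by rw [h0, map_zero])

variable (q : ℕ) [Fact q.Prime]

/-- **product step**: for a finite family of surjective, jointly injective `ℚ_[q]`-algebra homs
`π i : R → B i`, the condition "`‖φ b‖ = r` for all `φ : R → PadicAlgCl q`" can be tested factor
by factor. -/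
theorem forall_algHom_norm_iff_prod {ι : Type*} [Finite ι] {R : Type*} [CommRing R]
    [Algebra ℚ_[q] R] {B : ι → Type*} [∀ i, CommRing (B i)] [∀ i, Algebra ℚ_[q] (B i)]
    (π : ∀ i, R →ₐ[ℚ_[q]] B i) (hinj : ∀ r : R, (∀ i, π i r = 0) → r = 0)
    (hsurj : ∀ i, Function.Surjective (π i)) (b : R) (r : ℝ) :
    (∀ φ : R →ₐ[ℚ_[q]] PadicAlgCl q, ‖φ b‖ = r) ↔
      ∀ i, ∀ φ' : B i →ₐ[ℚ_[q]] PadicAlgCl q, ‖φ' (π i b)‖ = r := by
  constructor
  · intro h i φ'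
    exact h (φ'.comp (π i))
  · intro h φ
    obtain ⟨i, hi⟩ := exists_le_ker φ.toRingHom (fun i => RingHom.ker (π i).toRingHom)
      (fun r hr => hinj r (fun i => hr i))
    have := h i ((π i).liftOfSurjective (hsurj i) φ hi)
    rwa [AlgHom.liftOfSurjective_apply] at this

end Abstract

/-! ### The place form -/

section Generic

/-- a semiring action fixing the image of `R` commutes with the scalars of `R` -/
theorem smulCommClass_of_fixes {G R B : Type*} [Group G] [CommSemiring R] [CommRing B]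
    [Algebra R B] [MulSemiringAction G B]
    (h : ∀ (g : G) (a : R), g • algebraMap R B a = algebraMap R B a) : SMulCommClass G R B :=
  ⟨fun g a x => by rw [Algebra.smul_def, smul_mul', h, ← Algebra.smul_def]⟩

end Generic

section Places

open Fermat.Agent.S55.Global.Blocks3 Fermat.Agent.S55.Global.SemilocalH3Jn
open Fermat.Agent.S55.Global.SemilocalH3 Fermat.Agent.S55.Global.Objects2
open Fermat.Agent.S55.Global.LocalProdAbs

attribute [local instance] Algebra.TensorProduct.rightAlgebra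

variable (K L : Type) [Field K] [NumberField K] [Field L] [NumberField L] [Algebra K L]
variable (q : Nat.Primes)

/-- The `ℚ_[q]`-algebra structure of `L ⊗[K] K_𝔪`, through the right factor. -/
@[reducible] noncomputable def algQB (𝔪 : Ideal (Ksemi K q)) :
    Algebra ℚ_[(q : ℕ)] (L ⊗[K] Kloc K q 𝔪) :=
  ((algebraMap (Kloc K q 𝔪) (L ⊗[K] Kloc K q 𝔪)).comp
    (algebraMap ℚ_[(q : ℕ)] (Kloc K q 𝔪))).toAlgebra

theorem algQB_algebraMap (𝔪 : Ideal (Ksemi K q)) (a : ℚ_[(q : ℕ)]) :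
    (algQB K L q 𝔪).algebraMap a =
      (1 : L) ⊗ₜ[K] (Ideal.Quotient.mk 𝔪 ((1 : K) ⊗ₜ[ℚ] a)) := rfl

theorem isScalarTower_algQB (𝔪 : Ideal (Ksemi K q)) :
    letI := algQB K L q 𝔪
    IsScalarTower ℚ_[(q : ℕ)] (Kloc K q 𝔪) (L ⊗[K] Kloc K q 𝔪) :=
  letI := algQB K L q 𝔪
  IsScalarTower.of_algebraMap_eq (R := ℚ_[(q : ℕ)]) (S := Kloc K q 𝔪)
    (A := L ⊗[K] Kloc K q 𝔪) (fun _ => rfl)

/-- `projLoc ∘ cancelEquiv : L ⊗[ℚ] ℚ_[q] → L ⊗[K] K_𝔪` as a `ℚ_[q]`-algebra hom. -/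
noncomputable def piLoc (𝔪 : PlacesQ K q) :
    letI := algQB K L q 𝔪.asIdeal
    (L ⊗[ℚ] ℚ_[(q : ℕ)]) →ₐ[ℚ_[(q : ℕ)]] (L ⊗[K] Kloc K q 𝔪.asIdeal) :=
  letI := algQB K L q 𝔪.asIdeal
  { (projLoc K L q 𝔪).comp (cancelEquiv K L q).toRingHom with
    commutes' := fun a => by
      change projLoc K L q 𝔪 (cancelEquiv K L q ((1 : L) ⊗ₜ[ℚ] a)) = _
      rw [cancelEquiv_tmul, projLoc_tmul]
      rfl }

theorem piLoc_apply (𝔪 : PlacesQ K q) (b : L ⊗[ℚ] ℚ_[(q : ℕ)]) :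
    letI := algQB K L q 𝔪.asIdeal
    piLoc K L q 𝔪 b = projLoc K L q 𝔪 (cancelEquiv K L q b) := rfl

theorem projLoc_surjective (𝔪 : PlacesQ K q) : Function.Surjective (projLoc K L q 𝔪) := by
  classical
  intro y
  obtain ⟨r, hr⟩ := (isProdDecomp_projLoc K L q).2
    (Function.update (fun _ => 0) 𝔪 y : ∀ 𝔪' : PlacesQ K q, L ⊗[K] Kloc K q 𝔪'.asIdeal)
  refine ⟨r, ?_⟩
  have := congrFun hr 𝔪
  simpa using this

theorem piLoc_surjective (𝔪 : PlacesQ K q) : Function.Surjective (piLoc K L q 𝔪) := by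
  intro y
  obtain ⟨r, hr⟩ := projLoc_surjective K L q 𝔪 y
  refine ⟨(cancelEquiv K L q).symm r, ?_⟩
  change projLoc K L q 𝔪 (cancelEquiv K L q ((cancelEquiv K L q).symm r)) = y
  rw [RingEquiv.apply_symm_apply, hr]

theorem eq_zero_of_piLoc (r : L ⊗[ℚ] ℚ_[(q : ℕ)]) (h : ∀ 𝔪 : PlacesQ K q, piLoc K L q 𝔪 r = 0) :
    r = 0 := by
  have h2 : cancelEquiv K L q r = 0 := by
    apply (isProdDecomp_projLoc K L q).1
    funext 𝔪
    change projLoc K L q 𝔪 (cancelEquiv K L q r) = projLoc K L q 𝔪 0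
    rw [map_zero]
    exact h 𝔪
  exact (cancelEquiv K L q).injective (by rw [h2, map_zero])

theorem finite_LQ : Module.Finite ℚ_[(q : ℕ)] (L ⊗[ℚ] ℚ_[(q : ℕ)]) :=
  Module.Finite.of_surjective (Algebra.TensorProduct.commRight ℚ ℚ_[(q : ℕ)] L).toLinearMap
    (Algebra.TensorProduct.commRight ℚ ℚ_[(q : ℕ)] L).surjective

theorem finite_algQB (𝔪 : PlacesQ K q) :
    letI := algQB K L q 𝔪.asIdeal
    Module.Finite ℚ_[(q : ℕ)] (L ⊗[K] Kloc K q 𝔪.asIdeal) :=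
  letI := algQB K L q 𝔪.asIdeal
  haveI := finite_LQ L q
  Module.Finite.of_surjective (piLoc K L q 𝔪).toLinearMap (piLoc_surjective K L q 𝔪)

/-- **(C3), place form, all maximal ideals.** -/
theorem forall_algHom_norm_iff_places (b : L ⊗[ℚ] ℚ_[(q : ℕ)]) (r : ℝ) :
    (∀ φ : (L ⊗[ℚ] ℚ_[(q : ℕ)]) →ₐ[ℚ_[(q : ℕ)]] PadicAlgCl (q : ℕ), ‖φ b‖ = r) ↔
      ∀ (𝔪 : PlacesQ K q) (m : Ideal (L ⊗[K] Kloc K q 𝔪.asIdeal)) [m.IsMaximal],
        letI := algQB K L q 𝔪.asIdeal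
        resNorm (q : ℕ) m (projLoc K L q 𝔪 (cancelEquiv K L q b)) = r := by
  haveI := finite_PlacesQ K q
  letI : ∀ 𝔪 : PlacesQ K q, Algebra ℚ_[(q : ℕ)] (L ⊗[K] Kloc K q 𝔪.asIdeal) :=
    fun 𝔪 => algQB K L q 𝔪.asIdeal
  rw [forall_algHom_norm_iff_prod (q : ℕ) (ι := PlacesQ K q)
    (B := fun 𝔪 : PlacesQ K q => L ⊗[K] Kloc K q 𝔪.asIdeal) (fun 𝔪 => piLoc K L q 𝔪)
    (eq_zero_of_piLoc K L q) (fun 𝔪 => piLoc_surjective K L q 𝔪) b r]
  refine forall_congr' fun 𝔪 => ?_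
  haveI := finite_algQB K L q 𝔪
  exact forall_algHom_norm_iff (q : ℕ) (piLoc K L q 𝔪 b) r

section Galois

variable [IsGalois K L]

/-- `Gal(L/K)` is transitive on the maximal ideals of `L ⊗[K] K_𝔪`. -/
theorem exists_smul_eq_Kloc (𝔪 : Ideal (Ksemi K q)) [h𝔪 : 𝔪.IsMaximal]
    (m M : Ideal (L ⊗[K] Kloc K q 𝔪)) [m.IsMaximal] [M.IsMaximal] :
    ∃ g : L ≃ₐ[K] L, M = g • m := by
  letI := Ideal.Quotient.field 𝔪
  haveI := SemilocalH3.finiteDimensional_nf K L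
  exact SemilocalTensor.exists_smul_eq (SemilocalH3.hact K L (Kloc K q 𝔪)) m M

attribute [local instance] algQB in
/-- orbit form at one place -/
theorem forall_algHom_norm_iff_orbit_Kloc (𝔪 : PlacesQ K q)
    (m : Ideal (L ⊗[K] Kloc K q 𝔪.asIdeal)) [hm : m.IsMaximal]
    (x : L ⊗[K] Kloc K q 𝔪.asIdeal) (r : ℝ) :
    letI := algQB K L q 𝔪.asIdeal
    (∀ φ : (L ⊗[K] Kloc K q 𝔪.asIdeal) →ₐ[ℚ_[(q : ℕ)]] PadicAlgCl (q : ℕ), ‖φ x‖ = r) ↔
      ∀ g : L ≃ₐ[K] L, resNorm (q : ℕ) m (Objects.tensorAct (Kloc K q 𝔪.asIdeal) g x) = r := by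
  haveI := finite_algQB K L q 𝔪
  haveI := smulCommClass_of_fixes (G := L ≃ₐ[K] L) (R := ℚ_[(q : ℕ)])
    (B := L ⊗[K] Kloc K q 𝔪.asIdeal) (fun g a => by
      change Objects.tensorAct (Kloc K q 𝔪.asIdeal) g ((1 : L) ⊗ₜ[K] _) = (1 : L) ⊗ₜ[K] _
      rw [Objects.tensorAct_tmul, map_one])
  haveI := 𝔪.isMaximal
  have key := forall_algHom_norm_iff_orbit (q : ℕ) (G := L ≃ₐ[K] L)
    (B := L ⊗[K] Kloc K q 𝔪.asIdeal) m
  exact key (fun M hM => exists_smul_eq_Kloc K L q 𝔪.asIdeal m M) x r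

attribute [local instance] algQB in
/-- **(C3), place form, orbit version**: one maximal ideal `m 𝔪` for each place `𝔪` of `K`
above `q` and all Galois translates (`Objects.tensorAct _ g x = g • x`, `Objects.smul_def`). -/
theorem forall_algHom_norm_iff_places_orbit
    (m : ∀ 𝔪 : PlacesQ K q, Ideal (L ⊗[K] Kloc K q 𝔪.asIdeal)) [hm : ∀ 𝔪, (m 𝔪).IsMaximal]
    (b : L ⊗[ℚ] ℚ_[(q : ℕ)]) (r : ℝ) :
    (∀ φ : (L ⊗[ℚ] ℚ_[(q : ℕ)]) →ₐ[ℚ_[(q : ℕ)]] PadicAlgCl (q : ℕ), ‖φ b‖ = r) ↔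
      ∀ (𝔪 : PlacesQ K q) (g : L ≃ₐ[K] L),
        letI := algQB K L q 𝔪.asIdeal
        resNorm (q : ℕ) (m 𝔪) (Objects.tensorAct (Kloc K q 𝔪.asIdeal) g
          (projLoc K L q 𝔪 (cancelEquiv K L q b))) = r := by
  haveI := finite_PlacesQ K q
  rw [forall_algHom_norm_iff_prod (q : ℕ) (ι := PlacesQ K q)
    (B := fun 𝔪 : PlacesQ K q => L ⊗[K] Kloc K q 𝔪.asIdeal) (fun 𝔪 => piLoc K L q 𝔪)
    (eq_zero_of_piLoc K L q) (fun 𝔪 => piLoc_surjective K L q 𝔪) b r]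
  refine forall_congr' fun 𝔪 => ?_
  exact forall_algHom_norm_iff_orbit_Kloc K L q 𝔪 (m 𝔪) (piLoc K L q 𝔪 b) r

/-- The same with `g • _` (the action of `Objects`). -/
theorem forall_algHom_norm_iff_places_orbit'
    (m : ∀ 𝔪 : PlacesQ K q, Ideal (L ⊗[K] Kloc K q 𝔪.asIdeal)) [hm : ∀ 𝔪, (m 𝔪).IsMaximal]
    (b : L ⊗[ℚ] ℚ_[(q : ℕ)]) (r : ℝ) :
    (∀ φ : (L ⊗[ℚ] ℚ_[(q : ℕ)]) →ₐ[ℚ_[(q : ℕ)]] PadicAlgCl (q : ℕ), ‖φ b‖ = r) ↔
      ∀ (𝔪 : PlacesQ K q) (g : L ≃ₐ[K] L),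
        letI := algQB K L q 𝔪.asIdeal
        resNorm (q : ℕ) (m 𝔪) (g • projLoc K L q 𝔪 (cancelEquiv K L q b)) = r := by
  rw [forall_algHom_norm_iff_places_orbit K L q m b r]
  refine forall_congr' fun 𝔪 => forall_congr' fun g => ?_
  rw [Objects.smul_def]

/-- The `FiniteExtLF` norm of the residue field `(L ⊗[K] K_𝔪) ⧸ m` over `K_𝔪` (the norm of
`Middle/UnramVal.IsUnramAtKloc`) is `resNorm q m`. -/
theorem norm_mk_eq_resNorm (𝔪 : Ideal (Ksemi K q)) [h𝔪 : 𝔪.IsMaximal]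
    (m : Ideal (L ⊗[K] Kloc K q 𝔪)) [hm : m.IsMaximal] (x : L ⊗[K] Kloc K q 𝔪) :
    letI := Ideal.Quotient.field 𝔪
    haveI := finiteDimensional_Kloc K q 𝔪
    letI := FiniteExtLF.nontriviallyNormedFieldExt ℚ_[(q : ℕ)] (Kloc K q 𝔪)
    haveI := FiniteExtLF.isUltrametricDistExt ℚ_[(q : ℕ)] (Kloc K q 𝔪)
    haveI := FiniteExtLF.properSpaceExt ℚ_[(q : ℕ)] (Kloc K q 𝔪)
    letI := Ideal.Quotient.field m
    haveI := finiteDimensional_quot K L (Kloc K q 𝔪) m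
    letI := FiniteExtLF.nontriviallyNormedFieldExt (Kloc K q 𝔪) ((L ⊗[K] Kloc K q 𝔪) ⧸ m)
    letI := algQB K L q 𝔪
    ‖(Ideal.Quotient.mk m x : (L ⊗[K] Kloc K q 𝔪) ⧸ m)‖ = resNorm (q : ℕ) m x := by
  letI := Ideal.Quotient.field 𝔪
  haveI := finiteDimensional_Kloc K q 𝔪
  letI := algQB K L q 𝔪
  haveI := isScalarTower_algQB K L q 𝔪
  exact resNorm_eq_tower (q : ℕ) (Kloc K q 𝔪) (L ⊗[K] Kloc K q 𝔪) m
    (finiteDimensional_quot K L (Kloc K q 𝔪) m) x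

/-- **(C3), final form with the `FiniteExtLF` norms**: `b` has norm `r` under every
`ℚ_[q]`-algebra hom `L ⊗[ℚ] ℚ_[q] → PadicAlgCl q` iff for every place `𝔪` of `K` above `q`
all Galois translates of its `𝔪`-component have norm `r` in the residue field
`(L ⊗[K] K_𝔪) ⧸ m 𝔪` (one chosen maximal ideal `m 𝔪` for each `𝔪`). -/
theorem forall_algHom_norm_iff_norm
    (m : ∀ 𝔪 : PlacesQ K q, Ideal (L ⊗[K] Kloc K q 𝔪.asIdeal)) [hm : ∀ 𝔪, (m 𝔪).IsMaximal]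
    (b : L ⊗[ℚ] ℚ_[(q : ℕ)]) (r : ℝ) :
    (∀ φ : (L ⊗[ℚ] ℚ_[(q : ℕ)]) →ₐ[ℚ_[(q : ℕ)]] PadicAlgCl (q : ℕ), ‖φ b‖ = r) ↔
      ∀ (𝔪 : PlacesQ K q) (g : L ≃ₐ[K] L),
        letI := Ideal.Quotient.field 𝔪.asIdeal
        haveI := finiteDimensional_Kloc K q 𝔪.asIdeal
        letI := FiniteExtLF.nontriviallyNormedFieldExt ℚ_[(q : ℕ)] (Kloc K q 𝔪.asIdeal)
        haveI := FiniteExtLF.isUltrametricDistExt ℚ_[(q : ℕ)] (Kloc K q 𝔪.asIdeal)
        haveI := FiniteExtLF.properSpaceExt ℚ_[(q : ℕ)] (Kloc K q 𝔪.asIdeal)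
        letI := Ideal.Quotient.field (m 𝔪)
        haveI := finiteDimensional_quot K L (Kloc K q 𝔪.asIdeal) (m 𝔪)
        letI := FiniteExtLF.nontriviallyNormedFieldExt (Kloc K q 𝔪.asIdeal)
          ((L ⊗[K] Kloc K q 𝔪.asIdeal) ⧸ m 𝔪)
        ‖(Ideal.Quotient.mk (m 𝔪) (g • projLoc K L q 𝔪 (cancelEquiv K L q b)) :
          (L ⊗[K] Kloc K q 𝔪.asIdeal) ⧸ m 𝔪)‖ = r := by
  rw [forall_algHom_norm_iff_places_orbit' K L q m b r]
  refine forall_congr' fun 𝔪 => forall_congr' fun g => ?_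
  have h := norm_mk_eq_resNorm K L q 𝔪.asIdeal (m 𝔪)
    (g • projLoc K L q 𝔪 (cancelEquiv K L q b))
  constructor
  · intro h'
    exact h.trans h'
  · intro h'
    exact h.symm.trans h'

/-- The same for an element of `L ⊗[ℚ] ℚ_T`, through `projQ` / `projPlace`. -/
theorem forall_algHom_norm_iff_projPlace (T : Finset Nat.Primes) (p : T)
    (m : ∀ 𝔪 : PlacesQ K (p : Nat.Primes), Ideal (L ⊗[K] Kloc K (p : Nat.Primes) 𝔪.asIdeal))
    [hm : ∀ 𝔪, (m 𝔪).IsMaximal] (z : L ⊗[ℚ] QT T) (r : ℝ) :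
    (∀ φ : (L ⊗[ℚ] ℚ_[((p : Nat.Primes) : ℕ)]) →ₐ[ℚ_[((p : Nat.Primes) : ℕ)]]
        PadicAlgCl ((p : Nat.Primes) : ℕ), ‖φ (projQ L T p z)‖ = r) ↔
      ∀ (𝔪 : PlacesQ K (p : Nat.Primes)) (g : L ≃ₐ[K] L),
        letI := Ideal.Quotient.field 𝔪.asIdeal
        haveI := finiteDimensional_Kloc K (p : Nat.Primes) 𝔪.asIdeal
        letI := FiniteExtLF.nontriviallyNormedFieldExt ℚ_[((p : Nat.Primes) : ℕ)]
          (Kloc K (p : Nat.Primes) 𝔪.asIdeal)
        haveI := FiniteExtLF.isUltrametricDistExt ℚ_[((p : Nat.Primes) : ℕ)]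
          (Kloc K (p : Nat.Primes) 𝔪.asIdeal)
        haveI := FiniteExtLF.properSpaceExt ℚ_[((p : Nat.Primes) : ℕ)]
          (Kloc K (p : Nat.Primes) 𝔪.asIdeal)
        letI := Ideal.Quotient.field (m 𝔪)
        haveI := finiteDimensional_quot K L (Kloc K (p : Nat.Primes) 𝔪.asIdeal) (m 𝔪)
        letI := FiniteExtLF.nontriviallyNormedFieldExt (Kloc K (p : Nat.Primes) 𝔪.asIdeal)
          ((L ⊗[K] Kloc K (p : Nat.Primes) 𝔪.asIdeal) ⧸ m 𝔪)
        ‖(Ideal.Quotient.mk (m 𝔪) (g • projPlace K L T ⟨p, 𝔪⟩ z) :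
          (L ⊗[K] Kloc K (p : Nat.Primes) 𝔪.asIdeal) ⧸ m 𝔪)‖ = r :=
  forall_algHom_norm_iff_norm K L (p : Nat.Primes) m (projQ L T p z) r

end Galois

end Places

end Fermat.Agent.S55.Global.UnramUnitsBridge
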