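/-
S55 / GLOBAL block — row (U1), semilocal layer with local-field residue field (helper26).

Abstract semilocal setting `IsSemilocal D π` (`Bˣ ≅ Coind_D^G Eˣ`) where the residue ring `E` is a
local field ((LF) setting) finite Galois over `F`, and `D` is identified with `Gal(E/F)` by
`e : D ≃* (E ≃ₐ[F] E)`:

* `unitsV e`, `unitsι e hE hDE : unitsV e ⟶ Eˣ` : the norm-one units of `E` as a `D`-module
  (`Local/UnramUnitsCoh.unitsRep` restricted along `e`), `unitsι_injective`,
  `mem_range_unitsι_iff`, `isZero_unitsV` (`E/F` unramified, all `n > 0`);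
* `normOneSub π e hE hDE : Subgroup Bˣ` = `{u | ∀ x : G, ‖π (x • u)‖ = 1}` (`mem_normOneSub_iff`),
  `normOneSub_stable`;
* **`isZero_normOneSub`** : for `E/F` unramified, `Hⁿ(G, normOneSub) = 0` for all `n > 0`.
-/
import Fermat.Agent.S55.Global.UnramUnitsSub
import Fermat.Agent.S55.Local.UnramUnitsCoh2

set_option autoImplicit false
set_option linter.unusedSectionVars false

namespace Fermat.Agent.S55.Global.UnramUnitsSemi

open CategoryTheory CategoryTheory.Limits groupCohomology
open Fermat.Agent.S55.Global.SemilocalCoh Fermat.Agent.S55.Global.SemilocalSub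
open Fermat.Agent.S55.Global.UnramUnitsSub
open Fermat.Agent.S55.Local Fermat.Agent.S55.Local.Blocks
open Fermat.Agent.S55.Local.UnramUnitsCoh Fermat.Agent.S55.Local.UnramUnitsCoh2

variable {G : Type} [Group G] {B : Type} [CommRing B] [MulSemiringAction G B]
  {D : Subgroup G} {F E : Type}
  [NontriviallyNormedField F] [IsUltrametricDist F] [ProperSpace F]
  [NontriviallyNormedField E] [IsUltrametricDist E] [ProperSpace E]
  [NormedAlgebra F E] [FiniteDimensional F E]
  [MulSemiringAction D E] {π : B →+* E}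
  [MulDistribMulAction G Bˣ] [MulDistribMulAction D Eˣ]

/-- The norm-one units of `E` as a `D`-module, `D ≃* Gal(E/F)`. -/
noncomputable def unitsV (e : D ≃* (E ≃ₐ[F] E)) : Rep ℤ D :=
  Rep.res e.toMonoidHom (unitsRep F E)

/-- The inclusion of the norm-one units into `Eˣ`, as a morphism of `D`-modules. -/
noncomputable def unitsι (e : D ≃* (E ≃ₐ[F] E))
    (hE : ∀ (d : D) (x : Eˣ), ((d • x : Eˣ) : E) = d • (x : E))
    (hDE : ∀ (d : D) (y : E), d • y = e d y) :
    unitsV e ⟶ Rep.ofMulDistribMulAction D Eˣ :=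
  Rep.ofHom (ρ := (Rep.res e.toMonoidHom (unitsRep F E)).ρ)
    (σ := Representation.ofMulDistribMulAction D Eˣ)
    ⟨(unitsIncl F E).hom.toLinearMap, fun d => by
      refine LinearMap.ext fun a => ?_
      have h1 := Rep.hom_comm_apply (unitsIncl F E) (e d) a
      refine h1.trans ?_
      apply Additive.toMul.injective
      apply Units.ext
      change (e d) ((Additive.toMul (show Additive Eˣ from (unitsIncl F E).hom a) : Eˣ) : E) = _
      rw [← hDE, ← hE]
      rfl⟩

theorem unitsι_apply (e : D ≃* (E ≃ₐ[F] E))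
    (hE : ∀ (d : D) (x : Eˣ), ((d • x : Eˣ) : E) = d • (x : E))
    (hDE : ∀ (d : D) (y : E), d • y = e d y) (a : unitsRep F E) :
    (unitsι e hE hDE).hom (a : unitsV e) = (unitsIncl F E).hom a := rfl

theorem unitsι_injective (e : D ≃* (E ≃ₐ[F] E))
    (hE : ∀ (d : D) (x : Eˣ), ((d • x : Eˣ) : E) = d • (x : E))
    (hDE : ∀ (d : D) (y : E), d • y = e d y) :
    Function.Injective (unitsι e hE hDE).hom :=
  fun _ _ h => unitsIncl_injective (K := F) (E := E) h

theorem mem_range_unitsι_iff (e : D ≃* (E ≃ₐ[F] E))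
    (hE : ∀ (d : D) (x : Eˣ), ((d • x : Eˣ) : E) = d • (x : E))
    (hDE : ∀ (d : D) (y : E), d • y = e d y) (b : Additive Eˣ) :
    b ∈ Set.range (unitsι e hE hDE).hom ↔ ‖((Additive.toMul b : Eˣ) : E)‖ = 1 :=
  mem_range_unitsIncl_iff (K := F) (E := E) b

/-- `Hⁿ(D, U_E) = 0` for `n > 0`, `E/F` unramified. -/
theorem isZero_unitsV [IsGalois F E] (e : D ≃* (E ≃ₐ[F] E)) (hunr : IsUnram F E) (n : ℕ)
    (hn : 0 < n) : IsZero (groupCohomology (unitsV e) n) :=
  (isZero_unitsRep hunr n hn).of_iso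
    (groupCohomology.mapIso (A := unitsRep F E) (B := unitsV e) e
      (LinearEquiv.refl ℤ (unitsRep F E)) (fun _ => rfl) n)

/-- The subgroup of `Bˣ` of the elements all of whose components have norm one. -/
noncomputable def normOneSub (π : B →+* E) (e : D ≃* (E ≃ₐ[F] E))
    (hE : ∀ (d : D) (x : Eˣ), ((d • x : Eˣ) : E) = d • (x : E))
    (hDE : ∀ (d : D) (y : E), d • y = e d y) : Subgroup Bˣ :=
  compSub π (unitsι e hE hDE)

theorem mem_normOneSub_iff (e : D ≃* (E ≃ₐ[F] E))
    (hE : ∀ (d : D) (x : Eˣ), ((d • x : Eˣ) : E) = d • (x : E))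
    (hDE : ∀ (d : D) (y : E), d • y = e d y) (u : Bˣ) :
    u ∈ normOneSub π e hE hDE ↔ ∀ x : G, ‖π (((x • u : Bˣ) : Bˣ) : B)‖ = 1 := by
  unfold normOneSub
  rw [mem_compSub_iff]
  refine forall_congr' fun x => ?_
  rw [mem_range_unitsι_iff]
  rfl

theorem normOneSub_stable (e : D ≃* (E ≃ₐ[F] E))
    (hE : ∀ (d : D) (x : Eˣ), ((d • x : Eˣ) : E) = d • (x : E))
    (hDE : ∀ (d : D) (y : E), d • y = e d y) :
    IsStable G (normOneSub π e hE hDE) :=
  compSub_stable _

/-- **(U1), single orbit**: for `E/F` unramified, `Hⁿ(G, ·)` of the subgroup of `Bˣ` of elements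
with all components of norm one vanishes for `n > 0`. -/
theorem isZero_normOneSub [IsGalois F E] (h : IsSemilocal D π)
    (hB : ∀ (g : G) (u : Bˣ), ((g • u : Bˣ) : B) = g • (u : B))
    (hE : ∀ (d : D) (x : Eˣ), ((d • x : Eˣ) : E) = d • (x : E))
    (e : D ≃* (E ≃ₐ[F] E)) (hDE : ∀ (d : D) (y : E), d • y = e d y)
    (hunr : IsUnram F E) (n : ℕ) (hn : 0 < n) :
    IsZero (groupCohomology (subRep (normOneSub π e hE hDE) (normOneSub_stable e hE hDE)) n) :=
  isZero_compSub h hB hE (unitsι e hE hDE) (unitsι_injective e hE hDE) n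
    (isZero_unitsV e hunr n hn)

end Fermat.Agent.S55.Global.UnramUnitsSemi
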