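/-
S55 / GLOBAL block — row (U1), per place (helper26).

`K ⊆ L` number fields, `L/K` Galois, `G = Gal(L/K)`, `F` a local field ((LF) setting) over `K`,
`m` a maximal ideal of `L ⊗[K] F`, `E = (L ⊗[K] F) ⧸ m` with the `FiniteExtLF` spectral norm.

* `placeSubF K L F m : Subgroup (L ⊗[K] F)ˣ` = `{u | ∀ g : G, ‖mk_m (g • u)‖ = 1}`
  (`mem_placeSubF_iff`), `G`-stable (`placeSubF_stable`);
* **`isZero_placeSubF`** : if `E/F` is unramified (`UnramVal.IsUnramAt K L F m`), then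
  `Hⁿ(G, placeSubF) = 0` for all `n > 0`;
* the same at the place `(q, 𝔪)` of `K`, `F = Kloc K q 𝔪`: `placeSub`, `mem_placeSub_iff`,
  **`isZero_placeSub`** (hypothesis `UnramVal.IsUnramAtKloc K L q 𝔪 m`).
-/
import Mathlib
import Fermat.Agent.S55.Global.UnramUnitsSemi
import Fermat.Agent.S55.Global.SemilocalH3
import Fermat.Agent.S55.Middle.UnramVal

set_option autoImplicit false
set_option linter.unusedSectionVars false
set_option linter.style.haveILetI false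

open TensorProduct CategoryTheory CategoryTheory.Limits
open scoped Pointwise

namespace Fermat.Agent.S55.Global.UnramUnitsPlace

open Fermat.Agent.S55.Global.Objects
open Fermat.Agent.S55.Global.SemilocalDecomp
open Fermat.Agent.S55.Global.SemilocalCoh
open Fermat.Agent.S55.Global.SemilocalH3
open Fermat.Agent.S55.Global.UnramUnitsSub
open Fermat.Agent.S55.Global.UnramUnitsSemi
open Fermat.Agent.S55.Middle.UnramVal

attribute [local instance] Algebra.TensorProduct.rightAlgebra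
attribute [local instance] stabQuotAction

section Generic

variable (K L : Type) [Field K] [NumberField K] [Field L] [NumberField L] [Algebra K L]
variable (A : Type) [CommRing A] [Algebra K A]

/-- `W ≤ (L ⊗[K] A)ˣ` is stable under `Gal(L/K)` (generic in `A`, so that instance search happens
once and for all here). -/
def IsStableJ (W : Subgroup (L ⊗[K] A)ˣ) : Prop := IsStable (L ≃ₐ[K] L) W

/-- The sub-representation of `JRep K L A` carried by a stable subgroup. -/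
noncomputable def JSub (W : Subgroup (L ⊗[K] A)ˣ) (hW : IsStableJ K L A W) :
    Rep ℤ (L ≃ₐ[K] L) :=
  subRep W hW

/-- The inclusion `JSub ⟶ JRep K L A`. -/
noncomputable def JSubIncl (W : Subgroup (L ⊗[K] A)ˣ) (hW : IsStableJ K L A W) :
    JSub K L A W hW ⟶ JRep K L A :=
  subIncl W hW

theorem JSubIncl_injective (W : Subgroup (L ⊗[K] A)ˣ) (hW : IsStableJ K L A W) :
    Function.Injective (JSubIncl K L A W hW).hom :=
  subIncl_injective W hW

theorem mem_range_JSubIncl_iff (W : Subgroup (L ⊗[K] A)ˣ) (hW : IsStableJ K L A W)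
    (a : Additive (L ⊗[K] A)ˣ) :
    a ∈ Set.range (JSubIncl K L A W hW).hom ↔ Additive.toMul a ∈ W :=
  mem_range_subIncl_iff W hW a

end Generic

section LF

variable (K L : Type) [Field K] [NumberField K] [Field L] [NumberField L] [Algebra K L]
  [IsGalois K L]
variable (F : Type) [NontriviallyNormedField F] [IsUltrametricDist F] [ProperSpace F]
  [Algebra K F]
variable (m : Ideal (L ⊗[K] F)) [hm : m.IsMaximal]

/-- The units of `L ⊗[K] F` all of whose `Gal(L/K)`-conjugates have norm one in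
`E = (L ⊗[K] F) ⧸ m`. -/
noncomputable def placeSubF : Subgroup (L ⊗[K] F)ˣ :=
  letI := Ideal.Quotient.field m
  haveI := finiteDimensional_quot K L F m
  letI := FiniteExtLF.nontriviallyNormedFieldExt F ((L ⊗[K] F) ⧸ m)
  letI := FiniteExtLF.normedAlgebraExt F ((L ⊗[K] F) ⧸ m)
  haveI := FiniteExtLF.isUltrametricDistExt F ((L ⊗[K] F) ⧸ m)
  haveI := FiniteExtLF.properSpaceExt F ((L ⊗[K] F) ⧸ m)
  letI : MulDistribMulAction (MulAction.stabilizer (L ≃ₐ[K] L) m) ((L ⊗[K] F) ⧸ m)ˣ :=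
    Units.mulDistribMulActionRight
  normOneSub (G := L ≃ₐ[K] L) (Ideal.Quotient.mk m) (stabEquiv K L F m)
    (fun _ _ => rfl) (fun _ _ => rfl)

theorem mem_placeSubF_iff (u : (L ⊗[K] F)ˣ) :
    u ∈ placeSubF K L F m ↔ ∀ g : L ≃ₐ[K] L,
      (letI := Ideal.Quotient.field m
       haveI := finiteDimensional_quot K L F m
       letI := FiniteExtLF.nontriviallyNormedFieldExt F ((L ⊗[K] F) ⧸ m)
       ‖Ideal.Quotient.mk m (((g • u : (L ⊗[K] F)ˣ) : (L ⊗[K] F)ˣ) : L ⊗[K] F)‖ = 1) := by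
  letI := Ideal.Quotient.field m
  haveI := finiteDimensional_quot K L F m
  letI := FiniteExtLF.nontriviallyNormedFieldExt F ((L ⊗[K] F) ⧸ m)
  letI := FiniteExtLF.normedAlgebraExt F ((L ⊗[K] F) ⧸ m)
  haveI := FiniteExtLF.isUltrametricDistExt F ((L ⊗[K] F) ⧸ m)
  haveI := FiniteExtLF.properSpaceExt F ((L ⊗[K] F) ⧸ m)
  letI : MulDistribMulAction (MulAction.stabilizer (L ≃ₐ[K] L) m) ((L ⊗[K] F) ⧸ m)ˣ :=
    Units.mulDistribMulActionRight
  exact mem_normOneSub_iff (G := L ≃ₐ[K] L) (π := Ideal.Quotient.mk m) (stabEquiv K L F m)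
    (fun _ _ => rfl) (fun _ _ => rfl) u

theorem placeSubF_stable : IsStableJ K L F (placeSubF K L F m) := by
  letI := Ideal.Quotient.field m
  haveI := finiteDimensional_quot K L F m
  letI := FiniteExtLF.nontriviallyNormedFieldExt F ((L ⊗[K] F) ⧸ m)
  letI := FiniteExtLF.normedAlgebraExt F ((L ⊗[K] F) ⧸ m)
  haveI := FiniteExtLF.isUltrametricDistExt F ((L ⊗[K] F) ⧸ m)
  haveI := FiniteExtLF.properSpaceExt F ((L ⊗[K] F) ⧸ m)
  letI : MulDistribMulAction (MulAction.stabilizer (L ≃ₐ[K] L) m) ((L ⊗[K] F) ⧸ m)ˣ :=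
    Units.mulDistribMulActionRight
  exact normOneSub_stable (G := L ≃ₐ[K] L) (π := Ideal.Quotient.mk m) (stabEquiv K L F m)
    (fun _ _ => rfl) (fun _ _ => rfl)

/-- **(U1) at one orbit of places**: if `E = (L ⊗[K] F) ⧸ m` is unramified over the local field
`F`, then `Hⁿ(Gal(L/K), placeSubF) = 0` for all `n > 0`. -/
theorem isZero_placeSubF (hunr : IsUnramAt K L F m) (n : ℕ) (hn : 0 < n) :
    IsZero (groupCohomology (JSub K L F (placeSubF K L F m) (placeSubF_stable K L F m)) n) := by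
  letI := Ideal.Quotient.field m
  haveI := finiteDimensional_quot K L F m
  haveI := isGalois_quot K L F m
  letI := FiniteExtLF.nontriviallyNormedFieldExt F ((L ⊗[K] F) ⧸ m)
  letI := FiniteExtLF.normedAlgebraExt F ((L ⊗[K] F) ⧸ m)
  haveI := FiniteExtLF.isUltrametricDistExt F ((L ⊗[K] F) ⧸ m)
  haveI := FiniteExtLF.properSpaceExt F ((L ⊗[K] F) ⧸ m)
  letI : MulDistribMulAction (MulAction.stabilizer (L ≃ₐ[K] L) m) ((L ⊗[K] F) ⧸ m)ˣ :=
    Units.mulDistribMulActionRight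
  exact isZero_normOneSub (G := L ≃ₐ[K] L) (π := Ideal.Quotient.mk m) (isSemilocal K L F m)
    (fun _ _ => rfl) (fun _ _ => rfl) (stabEquiv K L F m) (fun _ _ => rfl) hunr n hn

end LF

section Kloc

open Fermat.Agent.S55.Global.Blocks3

variable (K L : Type) [Field K] [NumberField K] [Field L] [NumberField L] [Algebra K L]
  [IsGalois K L]
variable (q : Nat.Primes) (𝔪 : Ideal (Ksemi K q)) [h𝔪 : 𝔪.IsMaximal]
variable (m : Ideal (L ⊗[K] Kloc K q 𝔪)) [hm : m.IsMaximal]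

/-- The local integral units of `L ⊗[K] K_𝔪`. -/
noncomputable def placeSub : Subgroup (L ⊗[K] Kloc K q 𝔪)ˣ :=
  letI := Ideal.Quotient.field 𝔪
  haveI := finiteDimensional_Kloc K q 𝔪
  letI := FiniteExtLF.nontriviallyNormedFieldExt ℚ_[(q : ℕ)] (Kloc K q 𝔪)
  haveI := FiniteExtLF.isUltrametricDistExt ℚ_[(q : ℕ)] (Kloc K q 𝔪)
  haveI := FiniteExtLF.properSpaceExt ℚ_[(q : ℕ)] (Kloc K q 𝔪)
  placeSubF K L (Kloc K q 𝔪) m

theorem mem_placeSub_iff (u : (L ⊗[K] Kloc K q 𝔪)ˣ) :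
    u ∈ placeSub K L q 𝔪 m ↔ ∀ g : L ≃ₐ[K] L,
      (letI := Ideal.Quotient.field 𝔪
       haveI := finiteDimensional_Kloc K q 𝔪
       letI := FiniteExtLF.nontriviallyNormedFieldExt ℚ_[(q : ℕ)] (Kloc K q 𝔪)
       haveI := FiniteExtLF.isUltrametricDistExt ℚ_[(q : ℕ)] (Kloc K q 𝔪)
       haveI := FiniteExtLF.properSpaceExt ℚ_[(q : ℕ)] (Kloc K q 𝔪)
       letI := Ideal.Quotient.field m
       haveI := finiteDimensional_quot K L (Kloc K q 𝔪) m
       letI := FiniteExtLF.nontriviallyNormedFieldExt (Kloc K q 𝔪) ((L ⊗[K] Kloc K q 𝔪) ⧸ m)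
       ‖Ideal.Quotient.mk m
          (((g • u : (L ⊗[K] Kloc K q 𝔪)ˣ) : (L ⊗[K] Kloc K q 𝔪)ˣ) : L ⊗[K] Kloc K q 𝔪)‖ = 1) := by
  letI := Ideal.Quotient.field 𝔪
  haveI := finiteDimensional_Kloc K q 𝔪
  letI := FiniteExtLF.nontriviallyNormedFieldExt ℚ_[(q : ℕ)] (Kloc K q 𝔪)
  haveI := FiniteExtLF.isUltrametricDistExt ℚ_[(q : ℕ)] (Kloc K q 𝔪)
  haveI := FiniteExtLF.properSpaceExt ℚ_[(q : ℕ)] (Kloc K q 𝔪)
  exact mem_placeSubF_iff K L (Kloc K q 𝔪) m u

theorem placeSub_stable : IsStableJ K L (Kloc K q 𝔪) (placeSub K L q 𝔪 m) := by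
  letI := Ideal.Quotient.field 𝔪
  haveI := finiteDimensional_Kloc K q 𝔪
  letI := FiniteExtLF.nontriviallyNormedFieldExt ℚ_[(q : ℕ)] (Kloc K q 𝔪)
  haveI := FiniteExtLF.isUltrametricDistExt ℚ_[(q : ℕ)] (Kloc K q 𝔪)
  haveI := FiniteExtLF.properSpaceExt ℚ_[(q : ℕ)] (Kloc K q 𝔪)
  exact placeSubF_stable K L (Kloc K q 𝔪) m

/-- **(U1) at the place `(q, 𝔪)` of `K`**: if `L/K` is unramified there, then
`Hⁿ(Gal(L/K), placeSub) = 0` for all `n > 0`. -/
theorem isZero_placeSub (hunr : IsUnramAtKloc K L q 𝔪 m) (n : ℕ) (hn : 0 < n) :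
    IsZero (groupCohomology (JSub K L (Kloc K q 𝔪) (placeSub K L q 𝔪 m)
      (placeSub_stable K L q 𝔪 m)) n) := by
  letI := Ideal.Quotient.field 𝔪
  haveI := finiteDimensional_Kloc K q 𝔪
  letI := FiniteExtLF.nontriviallyNormedFieldExt ℚ_[(q : ℕ)] (Kloc K q 𝔪)
  haveI := FiniteExtLF.isUltrametricDistExt ℚ_[(q : ℕ)] (Kloc K q 𝔪)
  haveI := FiniteExtLF.properSpaceExt ℚ_[(q : ℕ)] (Kloc K q 𝔪)
  exact isZero_placeSubF K L (Kloc K q 𝔪) m hunr n hn

end Kloc

end Fermat.Agent.S55.Global.UnramUnitsPlace
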