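/-
S55 / GLOBAL block — row (U1) in the `ℚ`-based model `Jn K L T = Res (L ⊗[ℚ] ℚ_T)ˣ` (helper26).

* generic (`abstractPlaces`): for a product decomposition `π i : L ⊗[ℚ] R → L ⊗[K] A i` and
  `Gal(L/K)`-stable subgroups `W i ≤ (L ⊗[K] A i)ˣ`: `QSub π W = {u | ∀ i, π i u ∈ W i}`,
  `QSubRep`, `QSubIncl : QSubRep ⟶ Res (L ⊗[ℚ] R)ˣ`, and
  `isZero_QSubRep : (∀ i, Hⁿ(G, W i) = 0) → Hⁿ(G, QSub π W) = 0`;
* `mAt K L q 𝔪` : a chosen maximal ideal of `L ⊗[K] Kloc K q 𝔪`;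
* `WT K L T T' x` : at the place `x = (q, 𝔪)` of `K` above `T`: the local integral units
  `placeSub` if `q ∈ T'`, everything otherwise; `UTsub K L T T' ≤ (L ⊗[ℚ] ℚ_T)ˣ`, `UTn`, `UTnIncl`;
* **`isZero_UTn`** : if `L/K` is unramified at the places above `T'` and
  `Hⁿ(G, Jloc K L q 𝔪) = 0` at the places above `T \ T'`, then `Hⁿ(G, UTn K L T T') = 0`
  (`n > 0`); `isZero_UTn_three` (from local Tate `H³ = 0`), `isZero_UTn_of_subset` (`T ⊆ T'`).
* `mem_UTsub_iff` : membership in terms of norms in the residue fields.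
-/
import Mathlib
import Fermat.Agent.S55.Global.UnramUnitsPlace
import Fermat.Agent.S55.Global.SemilocalH3Jn

set_option autoImplicit false
set_option linter.unusedSectionVars false
set_option linter.style.haveILetI false

open TensorProduct CategoryTheory CategoryTheory.Limits

namespace Fermat.Agent.S55.Global.UnramUnitsQ

open Fermat.Agent.S55.Global.Objects Fermat.Agent.S55.Global.Objects2
open Fermat.Agent.S55.Global.Blocks3
open Fermat.Agent.S55.Global.LocalProdAbs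
open Fermat.Agent.S55.Global.SemilocalH3Jn
open Fermat.Agent.S55.Global.UnramUnitsSub
open Fermat.Agent.S55.Global.UnramUnitsPlace
open Fermat.Agent.S55.Middle.UnramVal

attribute [local instance] SemilocalH3.finiteDimensional_nf

/-! ### Transport along equalities of subgroups and converse of `isZero_subRep_of_range` -/

section Aux

variable {G : Type} [Group G] {M : Type} [CommGroup M] [MulDistribMulAction G M]

theorem isZero_subRep_of_eq {W W' : Subgroup M} (h : W = W') (hW : IsStable G W)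
    (hW' : IsStable G W') (n : ℕ) (hz : IsZero (groupCohomology (subRep W' hW') n)) :
    IsZero (groupCohomology (subRep W hW) n) := by
  subst h
  exact hz

/-- Any injective `Ψ : A ⟶ M` with range `W` has the cohomology of `subRep W`. -/
theorem isZero_of_range_subRep {A : Rep ℤ G} (Ψ : A ⟶ Rep.ofMulDistribMulAction G M)
    (hinj : Function.Injective Ψ.hom) (W : Subgroup M) (hW : IsStable G W)
    (hrange : ∀ a : Additive M, a ∈ Set.range Ψ.hom ↔ Additive.toMul a ∈ W) (n : ℕ)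
    (hz : IsZero (groupCohomology (subRep W hW) n)) : IsZero (groupCohomology A n) :=
  hz.of_iso ((groupCohomology.functor ℤ G n).mapIso (isoOfRange Ψ hinj W hW hrange))

end Aux

/-! ### Generic product decomposition into `K`-based factors -/

section abstractPlaces

variable (K L : Type) [Field K] [NumberField K] [Field L] [NumberField L] [Algebra K L]
variable {ι : Type} [Fintype ι] [DecidableEq ι] (A : ι → Type) [∀ i, CommRing (A i)]
  [∀ i, Algebra K (A i)] (R : Type) [CommRing R] [Algebra ℚ R]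
  (π : ∀ i, L ⊗[ℚ] R →+* L ⊗[K] A i) (φ : ∀ i, R → A i)

omit [Fintype ι] [DecidableEq ι] in
/-- The subgroup of `(L ⊗[ℚ] R)ˣ` cut out by subgroups `W i` of the factors. -/
def QSub (W : ∀ i, Subgroup (L ⊗[K] A i)ˣ) : Subgroup (L ⊗[ℚ] R)ˣ :=
  ⨅ i, (W i).comap (Units.map (π i : L ⊗[ℚ] R →* L ⊗[K] A i))

omit [Fintype ι] [DecidableEq ι] in
theorem mem_QSub_iff (W : ∀ i, Subgroup (L ⊗[K] A i)ˣ) (u : (L ⊗[ℚ] R)ˣ) :
    u ∈ QSub K L A R π W ↔ ∀ i, Units.map (π i : L ⊗[ℚ] R →* L ⊗[K] A i) u ∈ W i := by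
  simp only [QSub, Subgroup.mem_iInf, Subgroup.mem_comap]

theorem QSub_eq_prodSub (W : ∀ i, Subgroup (L ⊗[K] A i)ˣ) :
    QSub K L A R π W = prodSub π W := rfl

omit [Fintype ι] [DecidableEq ι] in
theorem units_map_smul (hφ : ∀ (i : ι) (l : L) (r : R), π i (l ⊗ₜ[ℚ] r) = l ⊗ₜ[K] φ i r)
    (i : ι) (g : L ≃ₐ[K] L) (u : (L ⊗[ℚ] R)ˣ) :
    letI := actQ K L R
    Units.map (π i : L ⊗[ℚ] R →* L ⊗[K] A i) (g • u) =
      g • Units.map (π i : L ⊗[ℚ] R →* L ⊗[K] A i) u :=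
  Units.ext (smul_of_tmul K L A R π φ i (hφ i) g (u : L ⊗[ℚ] R))

omit [Fintype ι] [DecidableEq ι] in
theorem QSub_stable (hφ : ∀ (i : ι) (l : L) (r : R), π i (l ⊗ₜ[ℚ] r) = l ⊗ₜ[K] φ i r)
    (W : ∀ i, Subgroup (L ⊗[K] A i)ˣ) (hW : ∀ i, IsStableJ K L (A i) (W i)) :
    @IsStable (L ≃ₐ[K] L) _ (L ⊗[ℚ] R)ˣ _ (actQ K L R) (QSub K L A R π W) := by
  letI := actQ K L R
  intro g u hu
  rw [mem_QSub_iff] at hu ⊢
  intro i
  rw [units_map_smul K L A R π φ hφ]
  exact hW i g _ (hu i)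

omit [Fintype ι] [DecidableEq ι] in
/-- The sub-representation of `Res (L ⊗[ℚ] R)ˣ` carried by `QSub`. -/
noncomputable def QSubRep (hφ : ∀ (i : ι) (l : L) (r : R), π i (l ⊗ₜ[ℚ] r) = l ⊗ₜ[K] φ i r)
    (W : ∀ i, Subgroup (L ⊗[K] A i)ˣ) (hW : ∀ i, IsStableJ K L (A i) (W i)) :
    Rep ℤ (L ≃ₐ[K] L) :=
  @subRep (L ≃ₐ[K] L) _ (L ⊗[ℚ] R)ˣ _ (actQ K L R) (QSub K L A R π W)
    (QSub_stable K L A R π φ hφ W hW)

omit [Fintype ι] [DecidableEq ι] in
/-- The inclusion into `Res (L ⊗[ℚ] R)ˣ`. -/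
noncomputable def QSubIncl (hφ : ∀ (i : ι) (l : L) (r : R), π i (l ⊗ₜ[ℚ] r) = l ⊗ₜ[K] φ i r)
    (W : ∀ i, Subgroup (L ⊗[K] A i)ˣ) (hW : ∀ i, IsStableJ K L (A i) (W i)) :
    QSubRep K L A R π φ hφ W hW ⟶ Rep.res (resHom K L) (JRep ℚ L R) :=
  @subIncl (L ≃ₐ[K] L) _ (L ⊗[ℚ] R)ˣ _ (actQ K L R) (QSub K L A R π W)
    (QSub_stable K L A R π φ hφ W hW)

omit [Fintype ι] [DecidableEq ι] in
theorem QSubIncl_injective (hφ : ∀ (i : ι) (l : L) (r : R), π i (l ⊗ₜ[ℚ] r) = l ⊗ₜ[K] φ i r)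
    (W : ∀ i, Subgroup (L ⊗[K] A i)ˣ) (hW : ∀ i, IsStableJ K L (A i) (W i)) :
    Function.Injective (QSubIncl K L A R π φ hφ W hW).hom :=
  @subIncl_injective (L ≃ₐ[K] L) _ (L ⊗[ℚ] R)ˣ _ (actQ K L R) (QSub K L A R π W)
    (QSub_stable K L A R π φ hφ W hW)

omit [Fintype ι] [DecidableEq ι] in
theorem mem_range_QSubIncl_iff
    (hφ : ∀ (i : ι) (l : L) (r : R), π i (l ⊗ₜ[ℚ] r) = l ⊗ₜ[K] φ i r)
    (W : ∀ i, Subgroup (L ⊗[K] A i)ˣ) (hW : ∀ i, IsStableJ K L (A i) (W i))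
    (a : Additive (L ⊗[ℚ] R)ˣ) :
    a ∈ Set.range (QSubIncl K L A R π φ hφ W hW).hom ↔
      Additive.toMul a ∈ QSub K L A R π W :=
  @mem_range_subIncl_iff (L ≃ₐ[K] L) _ (L ⊗[ℚ] R)ˣ _ (actQ K L R) (QSub K L A R π W)
    (QSub_stable K L A R π φ hφ W hW) a

/-- **Products over places**: `Hⁿ(Gal(L/K), QSub)` vanishes as soon as all
`Hⁿ(Gal(L/K), W i)` do. -/
theorem isZero_QSubRep (hπ : IsProdDecomp π)
    (hφ : ∀ (i : ι) (l : L) (r : R), π i (l ⊗ₜ[ℚ] r) = l ⊗ₜ[K] φ i r)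
    (W : ∀ i, Subgroup (L ⊗[K] A i)ˣ) (hW : ∀ i, IsStableJ K L (A i) (W i)) (n : ℕ)
    (h : ∀ i, IsZero (groupCohomology (JSub K L (A i) (W i) (hW i)) n)) :
    IsZero (groupCohomology (QSubRep K L A R π φ hφ W hW) n) := by
  letI := actQ K L R
  exact isZero_prodSub (G := L ≃ₐ[K] L) hπ (units_map_smul K L A R π φ hφ) W hW n h

end abstractPlaces

/-! ### Generic-`A` helpers for `JSub` -/

section JSubAux

variable (K L : Type) [Field K] [NumberField K] [Field L] [NumberField L] [Algebra K L]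
variable (A : Type) [CommRing A] [Algebra K A]

theorem isStableJ_top : IsStableJ K L A (⊤ : Subgroup (L ⊗[K] A)ˣ) :=
  fun _ _ _ => Subgroup.mem_top _

theorem isZero_JSub_top (n : ℕ) (h : IsZero (groupCohomology (JRep K L A) n)) :
    IsZero (groupCohomology (JSub K L A ⊤ (isStableJ_top K L A)) n) :=
  isZero_subRep_top (G := L ≃ₐ[K] L) (M := (L ⊗[K] A)ˣ) n h

theorem isZero_JSub_of_eq {W W' : Subgroup (L ⊗[K] A)ˣ} (h : W = W') (hW : IsStableJ K L A W)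
    (hW' : IsStableJ K L A W') (n : ℕ)
    (hz : IsZero (groupCohomology (JSub K L A W' hW') n)) :
    IsZero (groupCohomology (JSub K L A W hW) n) := by
  subst h
  exact hz

end JSubAux

/-! ### The `T`-units-at-`T'` subgroup of `(L ⊗[ℚ] ℚ_T)ˣ` -/

section main

variable (K L : Type) [Field K] [NumberField K] [Field L] [NumberField L] [Algebra K L]
  [IsGalois K L]

/-- A chosen maximal ideal of `L ⊗[K] Kloc K q 𝔪` (a place of `L` above the place `𝔪` of `K`). -/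
noncomputable def mAt (q : Nat.Primes) (𝔪 : Ideal (Ksemi K q)) [h𝔪 : 𝔪.IsMaximal] :
    Ideal (L ⊗[K] Kloc K q 𝔪) :=
  letI := Ideal.Quotient.field 𝔪
  Classical.choose (Ideal.exists_maximal (L ⊗[K] Kloc K q 𝔪))

instance mAt_isMaximal (q : Nat.Primes) (𝔪 : Ideal (Ksemi K q)) [h𝔪 : 𝔪.IsMaximal] :
    (mAt K L q 𝔪).IsMaximal :=
  letI := Ideal.Quotient.field 𝔪
  Classical.choose_spec (Ideal.exists_maximal (L ⊗[K] Kloc K q 𝔪))

variable (T T' : Finset Nat.Primes)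

/-- The local condition at the place `x = (q, 𝔪)` of `K` above `T`: integral units if `q ∈ T'`,
no condition otherwise. -/
noncomputable def WT (x : PlacesT K T) :
    Subgroup (L ⊗[K] Kloc K (x.1 : Nat.Primes) x.2.asIdeal)ˣ :=
  haveI := x.2.isMaximal
  if (x.1 : Nat.Primes) ∈ T' then
    placeSub K L (x.1 : Nat.Primes) x.2.asIdeal (mAt K L (x.1 : Nat.Primes) x.2.asIdeal)
  else ⊤

theorem WT_of_mem (x : PlacesT K T) (hx : (x.1 : Nat.Primes) ∈ T') :
    haveI := x.2.isMaximal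
    WT K L T T' x =
      placeSub K L (x.1 : Nat.Primes) x.2.asIdeal (mAt K L (x.1 : Nat.Primes) x.2.asIdeal) :=
  if_pos hx

theorem WT_of_not_mem (x : PlacesT K T) (hx : (x.1 : Nat.Primes) ∉ T') :
    WT K L T T' x = ⊤ :=
  if_neg hx

theorem WT_stable (x : PlacesT K T) :
    IsStableJ K L (Kloc K (x.1 : Nat.Primes) x.2.asIdeal) (WT K L T T' x) := by
  haveI := x.2.isMaximal
  by_cases hx : (x.1 : Nat.Primes) ∈ T'
  · rw [WT_of_mem K L T T' x hx]
    exact placeSub_stable K L (x.1 : Nat.Primes) x.2.asIdeal _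
  · rw [WT_of_not_mem K L T T' x hx]
    exact isStableJ_top K L _

/-- The subgroup of `(L ⊗[ℚ] ℚ_T)ˣ` of the ideles which are local integral units at all places
above `T'`. -/
noncomputable def UTsub : Subgroup (L ⊗[ℚ] QT T)ˣ :=
  QSub K L (fun x : PlacesT K T => Kloc K (x.1 : Nat.Primes) x.2.asIdeal) (QT T)
    (projPlace K L T) (WT K L T T')

theorem mem_UTsub_iff (u : (L ⊗[ℚ] QT T)ˣ) :
    u ∈ UTsub K L T T' ↔ ∀ x : PlacesT K T, (x.1 : Nat.Primes) ∈ T' →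
      haveI := x.2.isMaximal
      Units.map (projPlace K L T x : L ⊗[ℚ] QT T →* _) u ∈
        placeSub K L (x.1 : Nat.Primes) x.2.asIdeal (mAt K L (x.1 : Nat.Primes) x.2.asIdeal) := by
  unfold UTsub
  rw [mem_QSub_iff]
  refine forall_congr' fun x => ?_
  by_cases hx : (x.1 : Nat.Primes) ∈ T'
  · rw [WT_of_mem K L T T' x hx]
    exact ⟨fun h _ => h, fun h => h hx⟩
  · rw [WT_of_not_mem K L T T' x hx]
    exact ⟨fun _ h => absurd h hx, fun _ => Subgroup.mem_top _⟩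

/-- `UTsub` as a sub-representation of `Jn K L T`. -/
noncomputable def UTn : Rep ℤ (L ≃ₐ[K] L) :=
  QSubRep K L (fun x : PlacesT K T => Kloc K (x.1 : Nat.Primes) x.2.asIdeal) (QT T)
    (projPlace K L T) (fun x f => Ideal.Quotient.mk x.2.asIdeal ((1 : K) ⊗ₜ[ℚ] f x.1))
    (fun x l f => projPlace_tmul K L T x l f) (WT K L T T') (WT_stable K L T T')

/-- The inclusion `UTn ⟶ Jn K L T`. -/
noncomputable def UTnIncl : UTn K L T T' ⟶ Jn K L T :=
  QSubIncl K L (fun x : PlacesT K T => Kloc K (x.1 : Nat.Primes) x.2.asIdeal) (QT T)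
    (projPlace K L T) (fun x f => Ideal.Quotient.mk x.2.asIdeal ((1 : K) ⊗ₜ[ℚ] f x.1))
    (fun x l f => projPlace_tmul K L T x l f) (WT K L T T') (WT_stable K L T T')

theorem UTnIncl_injective : Function.Injective (UTnIncl K L T T').hom :=
  QSubIncl_injective K L _ (QT T) (projPlace K L T) _ _ (WT K L T T') (WT_stable K L T T')

theorem mem_range_UTnIncl_iff (a : Additive (L ⊗[ℚ] QT T)ˣ) :
    a ∈ Set.range (UTnIncl K L T T').hom ↔ Additive.toMul a ∈ UTsub K L T T' :=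
  mem_range_QSubIncl_iff K L _ (QT T) (projPlace K L T) _ _ (WT K L T T') (WT_stable K L T T') a

/-- **(U1) in the `ℚ`-based model.**  If `L/K` is unramified at all places above `T'` and
`Hⁿ(Gal(L/K), Jloc K L q 𝔪) = 0` at the places above `T \ T'`, then
`Hⁿ(Gal(L/K), UTn K L T T') = 0` (`n > 0`). -/
theorem isZero_UTn
    (hunr : ∀ q ∈ T, q ∈ T' → ∀ (𝔪 : Ideal (Ksemi K q)) [𝔪.IsMaximal]
      (m : Ideal (L ⊗[K] Kloc K q 𝔪)) [m.IsMaximal], IsUnramAtKloc K L q 𝔪 m)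
    (n : ℕ) (hn : 0 < n)
    (hJ : ∀ q ∈ T, q ∉ T' → ∀ (𝔪 : Ideal (Ksemi K q)) [𝔪.IsMaximal],
      IsZero (groupCohomology (Jloc K L q 𝔪) n)) :
    IsZero (groupCohomology (UTn K L T T') n) := by
  classical
  haveI : ∀ q : T, Finite (PlacesQ K (q : Nat.Primes)) := fun q => finite_PlacesQ K q
  haveI : Finite (PlacesT K T) := inferInstance
  letI := Fintype.ofFinite (PlacesT K T)
  refine isZero_QSubRep K L (fun x : PlacesT K T => Kloc K (x.1 : Nat.Primes) x.2.asIdeal)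
    (QT T) (projPlace K L T) (fun x f => Ideal.Quotient.mk x.2.asIdeal ((1 : K) ⊗ₜ[ℚ] f x.1))
    (isProdDecomp_projPlace K L T) (fun x l f => projPlace_tmul K L T x l f)
    (WT K L T T') (WT_stable K L T T') n ?_
  intro x
  haveI := x.2.isMaximal
  by_cases hx : (x.1 : Nat.Primes) ∈ T'
  · refine isZero_JSub_of_eq K L _ (WT_of_mem K L T T' x hx) _
      (placeSub_stable K L (x.1 : Nat.Primes) x.2.asIdeal _) n ?_
    exact isZero_placeSub K L (x.1 : Nat.Primes) x.2.asIdeal _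
      (hunr (x.1 : Nat.Primes) x.1.2 hx x.2.asIdeal _) n hn
  · refine isZero_JSub_of_eq K L _ (WT_of_not_mem K L T T' x hx) _ (isStableJ_top K L _) n ?_
    exact isZero_JSub_top K L _ n (hJ (x.1 : Nat.Primes) x.1.2 hx x.2.asIdeal)

/-- `H³(Gal(L/K), UTn K L T T') = 0` (local Tate `H³ = 0` at the places above `T \ T'`). -/
theorem isZero_UTn_three (h3 : Local.Reduction2.H3Vanish)
    (hunr : ∀ q ∈ T, q ∈ T' → ∀ (𝔪 : Ideal (Ksemi K q)) [𝔪.IsMaximal]
      (m : Ideal (L ⊗[K] Kloc K q 𝔪)) [m.IsMaximal], IsUnramAtKloc K L q 𝔪 m) :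
    IsZero (groupCohomology (UTn K L T T') 3) :=
  isZero_UTn K L T T' hunr 3 (by norm_num)
    (fun q _ _ 𝔪 h𝔪 => SemilocalH3.isZero_H3_Jloc K L q 𝔪 (h𝔪 := h𝔪) h3)

/-- All positive degrees when every prime of `T` is a unit prime. -/
theorem isZero_UTn_of_subset (hTT' : T ⊆ T')
    (hunr : ∀ q ∈ T, q ∈ T' → ∀ (𝔪 : Ideal (Ksemi K q)) [𝔪.IsMaximal]
      (m : Ideal (L ⊗[K] Kloc K q 𝔪)) [m.IsMaximal], IsUnramAtKloc K L q 𝔪 m)
    (n : ℕ) (hn : 0 < n) : IsZero (groupCohomology (UTn K L T T') n) :=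
  isZero_UTn K L T T' hunr n hn (fun q hq hq' => absurd (hTT' hq) hq')

end main

end Fermat.Agent.S55.Global.UnramUnitsQ
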