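/-
S55 / Global — `UnramUnitsBridgeB` (helper71): the BRIDGE (C3) of row (U1), both directions.

`UnramUnitsQ.UTsub K L T T' ≤ (L ⊗[ℚ] ℚ_T)ˣ` is defined through the `FiniteExtLF` norms of the residue
fields `(L ⊗[K] K_𝔪) ⧸ mAt` of the places of `K`; the valuation map of row (LOC-off)
(`LocOffVal.valT`) lives in the embedding model (`ℚ_[q]`-algebra homs `L ⊗[ℚ] ℚ_[q] → PadicAlgCl q`).

* `exists_comap_eq`, `surjective_of_isProdDecomp`, `exists_factor` : every ring hom from a finite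
  product decomposition (`LocalProdAbs.IsProdDecomp`) to a domain factors through ONE factor
  (`PrimeSpectrum.sigmaToPi_bijective`);
* `orbit_iff` : helper36's `UnitNormBridge.forall_algHom_norm_iff_orbit` with the commutation
  hypothesis stated on `algebraMap` (the `SMul Gal(L/K) (L ⊗[K] F)` found by instance search is
  `TensorProduct.leftHasSMul`, not the one of `Objects`' `MulSemiringAction`: they are defeq but
  not syntactically, so `SMulCommClass` has to be produced inside a generic lemma);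
* generic local field `F` over `ℚ_[q]`: `algQB` (the `ℚ_[q]`-algebra structure of `L ⊗[K] F`),
  `isScalarTower_QB`, `algebraMap_QB`, `finite_QB`,
  `mem_placeSubF_iff_algHom`, `mem_placeSubF_iff_ringHom`;
* `mem_placeSub_iff_ringHom` (the place `(q, 𝔪)` of `K`), `rho K L q 𝔪 : L ⊗[ℚ] ℚ_[q] →+* L ⊗[K] K_𝔪`,
  `rho_tmul`, `isProdDecomp_rho`, `projPlace_apply`;
* **`mem_UTsub_iff_algHom`** : `u ∈ UTsub K L T T' ↔ ∀ q ∈ T ∩ T', ∀ φ : L ⊗[ℚ] ℚ_[q] →ₐ[ℚ_[q]]
  PadicAlgCl q, ‖φ (projQ L T q u)‖ = 1`, and the ring-hom form **`mem_UTsub_iff_ringHom`**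
  (normalisation `φ (1 ⊗ c) = c` as a hypothesis: the shape of `LocOffKerA`).
-/
import Mathlib
import Fermat.Agent.S55.Global.UnramUnitsQ
import Fermat.Agent.S55.Global.UnitNormBridge

set_option autoImplicit false
set_option linter.unusedSectionVars false
set_option linter.style.haveILetI false

open TensorProduct
open scoped Pointwise

namespace Fermat.Agent.S55.Global.UnramUnitsBridgeB

open Fermat.Agent.S55.Global.Objects Fermat.Agent.S55.Global.Objects2
open Fermat.Agent.S55.Global.Blocks3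
open Fermat.Agent.S55.Global.LocalProdAbs
open Fermat.Agent.S55.Global.SemilocalH3Jn
open Fermat.Agent.S55.Global.UnramUnitsPlace
open Fermat.Agent.S55.Global.UnramUnitsQ
open Fermat.Agent.S55.Global.UnitNormBridge

attribute [local instance] Algebra.TensorProduct.rightAlgebra
attribute [local instance] SemilocalH3.finiteDimensional_nf

/-! ### Primes of a finite product decomposition -/

section Prod

theorem exists_comap_eq {ι R : Type} [Finite ι] [CommRing R] {B : ι → Type}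
    [∀ i, CommRing (B i)] {π : ∀ i, R →+* B i} (h : IsProdDecomp π) (N : Ideal R) [hN : N.IsPrime] :
    ∃ (i : ι) (M : Ideal (B i)), M.IsPrime ∧ N = M.comap (π i) := by
  let e : R ≃+* (∀ i, B i) := h.ringEquiv
  let P : PrimeSpectrum (∀ i, B i) := ⟨N.comap e.symm.toRingHom, Ideal.comap_isPrime _ _⟩
  obtain ⟨⟨i, M⟩, hM⟩ := (PrimeSpectrum.sigmaToPi_bijective B).2 P
  refine ⟨i, M.asIdeal, M.isPrime, ?_⟩
  have h1 : (Ideal.comap (Pi.evalRingHom B i) M.asIdeal) = N.comap e.symm.toRingHom := by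
    have := congrArg PrimeSpectrum.asIdeal hM
    rw [PrimeSpectrum.sigmaToPi_apply] at this
    exact this
  ext r
  rw [Ideal.mem_comap]
  have h2 : π i r = Pi.evalRingHom B i (e r) := by
    simp [e]
  rw [h2, ← Ideal.mem_comap, h1, Ideal.mem_comap]
  simp

theorem surjective_of_isProdDecomp {ι R : Type} [CommRing R] {B : ι → Type}
    [∀ i, CommRing (B i)] {π : ∀ i, R →+* B i} (h : IsProdDecomp π) (i : ι) :
    Function.Surjective (π i) := by
  classical
  intro y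
  obtain ⟨r, hr⟩ := h.2 (fun j => if hj : j = i then hj ▸ y else 0)
  refine ⟨r, ?_⟩
  have := congrFun hr i
  simpa using this

/-- Every ring hom from a finite product decomposition to a domain factors through exactly one
factor. -/
theorem exists_factor {ι R : Type} [Finite ι] [CommRing R] {B : ι → Type}
    [∀ i, CommRing (B i)] {π : ∀ i, R →+* B i} (h : IsProdDecomp π) {Ω : Type} [CommRing Ω]
    [IsDomain Ω] (φ : R →+* Ω) : ∃ (i : ι) (φ' : B i →+* Ω), ∀ r, φ' (π i r) = φ r := by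
  haveI : (RingHom.ker φ).IsPrime := RingHom.ker_isPrime φ
  obtain ⟨i, M, hM, hker⟩ := exists_comap_eq h (RingHom.ker φ)
  have hsurj := surjective_of_isProdDecomp h i
  have hle : RingHom.ker (π i) ≤ RingHom.ker φ := by
    intro a ha
    rw [hker, Ideal.mem_comap, (RingHom.mem_ker).mp ha]
    exact M.zero_mem
  refine ⟨i, RingHom.liftOfSurjective (π i) hsurj ⟨φ, hle⟩, fun r => ?_⟩
  exact RingHom.liftOfRightInverse_comp_apply _ _ _ _ r

end Prod

/-! ### The orbit form of the norm bridge, with the commutation stated on `algebraMap` -/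

section Orbit

variable (q : ℕ) [Fact q.Prime]

theorem orbit_iff {G B : Type} [Group G] [CommRing B] [MulSemiringAction G B] [Algebra ℚ_[q] B]
    [Module.Finite ℚ_[q] B]
    (hfix : ∀ (g : G) (c : ℚ_[q]), g • (algebraMap ℚ_[q] B c) = algebraMap ℚ_[q] B c)
    (m : Ideal B) [m.IsMaximal]
    (htrans : ∀ (M : Ideal B) [M.IsMaximal], ∃ g : G, M = g • m) (b : B) (r : ℝ) :
    (∀ φ : B →ₐ[ℚ_[q]] PadicAlgCl q, ‖φ b‖ = r) ↔ ∀ g : G, resNorm q m (g • b) = r := by
  haveI : SMulCommClass G ℚ_[q] B :=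
    ⟨fun g c z => by rw [Algebra.smul_def, Algebra.smul_def, smul_mul', hfix]⟩
  exact forall_algHom_norm_iff_orbit q m htrans b r

end Orbit

/-! ### One orbit of places, generic local field `F` over `ℚ_[q]` -/

section GenericF

variable (K L : Type) [Field K] [NumberField K] [Field L] [NumberField L] [Algebra K L]
  [IsGalois K L]
variable (q : ℕ) [Fact q.Prime]
variable (F : Type) [Field F] [Algebra K F] [Algebra ℚ_[q] F] [FiniteDimensional ℚ_[q] F]

/-- The `ℚ_[q]`-algebra structure of `L ⊗[K] F` (through the right factor). -/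
@[reducible] noncomputable def algQB : Algebra ℚ_[q] (L ⊗[K] F) :=
  ((algebraMap F (L ⊗[K] F)).comp (algebraMap ℚ_[q] F)).toAlgebra

theorem isScalarTower_QB :
    letI := algQB K L q F
    IsScalarTower ℚ_[q] F (L ⊗[K] F) :=
  letI := algQB K L q F
  IsScalarTower.of_algebraMap_eq fun _ => rfl

theorem algebraMap_QB (c : ℚ_[q]) :
    letI := algQB K L q F
    algebraMap ℚ_[q] (L ⊗[K] F) c = (1 : L) ⊗ₜ[K] (algebraMap ℚ_[q] F c) := rfl

theorem finite_QB :
    letI := algQB K L q F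
    Module.Finite ℚ_[q] (L ⊗[K] F) := by
  letI := algQB K L q F
  haveI := isScalarTower_QB K L q F
  haveI : Module.Finite F (L ⊗[K] F) :=
    Module.Finite.of_surjective (Algebra.TensorProduct.commRight K F L).toLinearMap
      (Algebra.TensorProduct.commRight K F L).surjective
  exact Module.Finite.trans F _

/-- Membership in `placeSubF` in terms of `ℚ_[q]`-algebra homs to `PadicAlgCl q`. -/
theorem mem_placeSubF_iff_algHom (m : Ideal (L ⊗[K] F)) [hm : m.IsMaximal] (u : (L ⊗[K] F)ˣ) :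
    letI := FiniteExtLF.nontriviallyNormedFieldExt ℚ_[q] F
    haveI := FiniteExtLF.isUltrametricDistExt ℚ_[q] F
    haveI := FiniteExtLF.properSpaceExt ℚ_[q] F
    letI := algQB K L q F
    u ∈ placeSubF K L F m ↔
      ∀ φ : (L ⊗[K] F) →ₐ[ℚ_[q]] PadicAlgCl q, ‖φ (u : L ⊗[K] F)‖ = 1 := by
  letI := FiniteExtLF.nontriviallyNormedFieldExt ℚ_[q] F
  haveI := FiniteExtLF.isUltrametricDistExt ℚ_[q] F
  haveI := FiniteExtLF.properSpaceExt ℚ_[q] F
  letI := algQB K L q F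
  haveI := isScalarTower_QB K L q F
  haveI := finite_QB K L q F
  rw [mem_placeSubF_iff]
  rw [orbit_iff q (G := L ≃ₐ[K] L) (B := L ⊗[K] F)
    (fun g c => by
      rw [algebraMap_QB]
      show tensorAct F g ((1 : L) ⊗ₜ[K] algebraMap ℚ_[q] F c) = _
      rw [tensorAct_tmul, map_one]) m
    (fun M _ => SemilocalTensor.exists_smul_eq (SemilocalH3.hact K L F) m M) (u : L ⊗[K] F) 1]
  refine forall_congr' fun g => ?_
  have h := resNorm_eq_tower q F (L ⊗[K] F) m (SemilocalH3.finiteDimensional_quot K L F m)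
    (((g • u : (L ⊗[K] F)ˣ) : (L ⊗[K] F)ˣ) : L ⊗[K] F)
  exact Eq.congr_left h

/-- The same with ring homs which are the identity on `ℚ_[q]`. -/
theorem mem_placeSubF_iff_ringHom (m : Ideal (L ⊗[K] F)) [hm : m.IsMaximal] (u : (L ⊗[K] F)ˣ) :
    letI := FiniteExtLF.nontriviallyNormedFieldExt ℚ_[q] F
    haveI := FiniteExtLF.isUltrametricDistExt ℚ_[q] F
    haveI := FiniteExtLF.properSpaceExt ℚ_[q] F
    u ∈ placeSubF K L F m ↔
      ∀ φ : (L ⊗[K] F) →+* PadicAlgCl q,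
        (∀ c : ℚ_[q], φ ((1 : L) ⊗ₜ[K] algebraMap ℚ_[q] F c) = algebraMap ℚ_[q] (PadicAlgCl q) c) →
        ‖φ (u : L ⊗[K] F)‖ = 1 := by
  letI := FiniteExtLF.nontriviallyNormedFieldExt ℚ_[q] F
  haveI := FiniteExtLF.isUltrametricDistExt ℚ_[q] F
  haveI := FiniteExtLF.properSpaceExt ℚ_[q] F
  letI := algQB K L q F
  rw [mem_placeSubF_iff_algHom K L q F m u]
  constructor
  · intro h φ hφ
    exact h { φ with commutes' := hφ }
  · intro h φ
    exact h φ.toRingHom (fun c => φ.commutes c)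

end GenericF

/-! ### The places `(q, 𝔪)` of `K` and the bridge for `UTsub` -/

section Final

variable (K L : Type) [Field K] [NumberField K] [Field L] [NumberField L] [Algebra K L]
  [IsGalois K L]

/-- Membership in `placeSub` (local integral units of `L ⊗[K] K_𝔪`) in terms of ring homs to
`PadicAlgCl q` which are the identity on `ℚ_[q]`. -/
theorem mem_placeSub_iff_ringHom (q : Nat.Primes) (𝔪 : Ideal (Ksemi K q)) [h𝔪 : 𝔪.IsMaximal]
    (m : Ideal (L ⊗[K] Kloc K q 𝔪)) [hm : m.IsMaximal] (u : (L ⊗[K] Kloc K q 𝔪)ˣ) :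
    u ∈ placeSub K L q 𝔪 m ↔
      ∀ φ : (L ⊗[K] Kloc K q 𝔪) →+* PadicAlgCl (q : ℕ),
        (∀ c : ℚ_[(q : ℕ)], φ ((1 : L) ⊗ₜ[K] (Ideal.Quotient.mk 𝔪 ((1 : K) ⊗ₜ[ℚ] c))) =
          algebraMap ℚ_[(q : ℕ)] (PadicAlgCl (q : ℕ)) c) →
        ‖φ (u : L ⊗[K] Kloc K q 𝔪)‖ = 1 := by
  letI := Ideal.Quotient.field 𝔪
  haveI := SemilocalH3.finiteDimensional_Kloc K q 𝔪
  exact mem_placeSubF_iff_ringHom K L (q : ℕ) (Kloc K q 𝔪) m u

/-- `L ⊗[ℚ] ℚ_[q] → L ⊗[K] K_𝔪`. -/
noncomputable def rho (q : Nat.Primes) (𝔪 : PlacesQ K q) :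
    L ⊗[ℚ] ℚ_[(q : ℕ)] →+* L ⊗[K] Kloc K q 𝔪.asIdeal :=
  (projLoc K L q 𝔪).comp (cancelEquiv K L q).toRingHom

theorem rho_tmul (q : Nat.Primes) (𝔪 : PlacesQ K q) (l : L) (c : ℚ_[(q : ℕ)]) :
    rho K L q 𝔪 (l ⊗ₜ[ℚ] c) = l ⊗ₜ[K] (Ideal.Quotient.mk 𝔪.asIdeal ((1 : K) ⊗ₜ[ℚ] c)) := by
  simp only [rho, RingHom.comp_apply]
  erw [cancelEquiv_tmul, projLoc_tmul]

theorem isProdDecomp_rho (q : Nat.Primes) :
    IsProdDecomp (R := L ⊗[ℚ] ℚ_[(q : ℕ)])
      (B := fun 𝔪 : PlacesQ K q => L ⊗[K] Kloc K q 𝔪.asIdeal) (rho K L q) :=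
  isProdDecomp_comp_equiv (isProdDecomp_projLoc K L q) (cancelEquiv K L q)

theorem projPlace_apply (T : Finset Nat.Primes) (x : PlacesT K T) (z : L ⊗[ℚ] QT T) :
    projPlace K L T x z = rho K L (x.1 : Nat.Primes) x.2 (projQ L T x.1 z) := rfl

variable (T T' : Finset Nat.Primes)

/-- **The bridge (C3)**: `UTsub K L T T'` (defined through the norms of the residue fields of the
`L ⊗[K] K_𝔪`) is the group of the ideles all of whose images under the `ℚ_[q]`-algebra homs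
`L ⊗[ℚ] ℚ_[q] → PadicAlgCl q`, `q ∈ T ∩ T'`, have norm one. -/
theorem mem_UTsub_iff_algHom (u : (L ⊗[ℚ] QT T)ˣ) :
    u ∈ UTsub K L T T' ↔ ∀ (q : Nat.Primes) (hq : q ∈ T), q ∈ T' →
      ∀ φ : (L ⊗[ℚ] ℚ_[(q : ℕ)]) →ₐ[ℚ_[(q : ℕ)]] PadicAlgCl (q : ℕ),
        ‖φ (projQ L T ⟨q, hq⟩ (u : L ⊗[ℚ] QT T))‖ = 1 := by
  rw [mem_UTsub_iff]
  constructor
  · intro h q hq hq' φ
    haveI := finite_PlacesQ K q
    obtain ⟨𝔪, φ', hφ'⟩ := exists_factor (isProdDecomp_rho K L q) φ.toRingHom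
    haveI := 𝔪.isMaximal
    have hx := h ⟨⟨q, hq⟩, 𝔪⟩ hq'
    rw [mem_placeSub_iff_ringHom] at hx
    have h1 := hx φ' (fun c => by
      rw [← rho_tmul, hφ']
      exact φ.commutes c)
    have h2 : φ (projQ L T ⟨q, hq⟩ (u : L ⊗[ℚ] QT T)) =
        φ' (rho K L q 𝔪 (projQ L T ⟨q, hq⟩ (u : L ⊗[ℚ] QT T))) := (hφ' _).symm
    rw [h2]
    exact h1
  · intro h x hx
    haveI := x.2.isMaximal
    rw [mem_placeSub_iff_ringHom]
    intro φ' hφ'
    let φ : (L ⊗[ℚ] ℚ_[((x.1 : Nat.Primes) : ℕ)]) →ₐ[ℚ_[((x.1 : Nat.Primes) : ℕ)]]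
        PadicAlgCl ((x.1 : Nat.Primes) : ℕ) :=
      { φ'.comp (rho K L (x.1 : Nat.Primes) x.2) with
        commutes' := fun c => by
          show φ' (rho K L (x.1 : Nat.Primes) x.2 ((1 : L) ⊗ₜ[ℚ] c)) = _
          rw [rho_tmul]
          exact hφ' c }
    exact h (x.1 : Nat.Primes) x.1.2 hx φ

/-- The bridge with ring homs normalised on `ℚ_[q]` (the shape of `Middle/LocOffKerA`). -/
theorem mem_UTsub_iff_ringHom (u : (L ⊗[ℚ] QT T)ˣ) :
    u ∈ UTsub K L T T' ↔ ∀ (q : Nat.Primes) (hq : q ∈ T), q ∈ T' →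
      ∀ φ : (L ⊗[ℚ] ℚ_[(q : ℕ)]) →+* PadicAlgCl (q : ℕ),
        (∀ c : ℚ_[(q : ℕ)], φ ((1 : L) ⊗ₜ[ℚ] c) = algebraMap ℚ_[(q : ℕ)] (PadicAlgCl (q : ℕ)) c) →
        ‖φ (projQ L T ⟨q, hq⟩ (u : L ⊗[ℚ] QT T))‖ = 1 := by
  rw [mem_UTsub_iff_algHom]
  constructor
  · intro h q hq hq' φ hφ
    exact h q hq hq' { φ with commutes' := hφ }
  · intro h q hq hq' φ
    exact h q hq hq' φ.toRingHom (fun c => φ.commutes c)

end Final

end Fermat.Agent.S55.Global.UnramUnitsBridgeB
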