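/-
S55 / Global / G.vsDim (helper73): the exact size of the Kummer group `V_S`.

`R` a Dedekind domain with fraction field `K`, `S` a set of primes, `p > 0`:
`VS K S p = {a ∈ Kˣ | p ∣ ord_v a for all v ∉ S}` (in helper56's `PDvdVal` shape), `ClS S = Cl(R)/⟨S⟩`.

* `relIndex_powSub_kumSub` : abstract count `[f⁻¹(H^p) : G^p] = [ker f : (ker f)^p] * #(H/f G)[p]`
  for `f : G →* H`, `H` `p`-torsion-free.
* `relIndex_powSub_VS` : `[V_S : (Kˣ)^p] = [U_S : U_S^p] * #Cl_S[p]` (any Dedekind domain).
* `index_range_nsmul_fg` : `[X : nX] = #X[n] * n ^ rank X` for a finitely generated abelian group.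
* `relIndex_powSub_VS_numberField(')` : number field `M ∋ μ_p`:
  `[V_S : (Mˣ)^p] = p ^ (rank 𝓞ˣ + #S + 1) * #Cl_S[p] = p ^ (#{infinite places} + #S) * #Cl_S[p]`.
-/
import Mathlib
import Fermat.Agent.S14.SUnitTheorem

set_option autoImplicit false

open IsDedekindDomain nonZeroDivisors NumberField Module

namespace Fermat.Agent.S55.Global.VSDim

/-! ## Part A: an abstract Kummer-type count in commutative groups -/

section Abstract

variable {G H C : Type*} [CommGroup G] [CommGroup H] [CommGroup C]

/-- The subgroup of `p`-th powers. -/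
def powSub (G : Type*) [CommGroup G] (p : ℕ) : Subgroup G := (powMonoidHom p : G →* G).range

theorem mem_powSub {p : ℕ} {g : G} : g ∈ powSub G p ↔ ∃ b : G, b ^ p = g := by
  simp [powSub, MonoidHom.mem_range]

/-- The `p`-torsion subgroup. -/
def torSub (C : Type*) [CommGroup C] (p : ℕ) : Subgroup C := (powMonoidHom p : C →* C).ker

theorem mem_torSub {p : ℕ} {c : C} : c ∈ torSub C p ↔ c ^ p = 1 := by
  simp [torSub, MonoidHom.mem_ker]

variable (f : G →* H) (π : H →* C) (p : ℕ)

/-- The Kummer-type subgroup `f⁻¹(H^p)`. -/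
def kumSub : Subgroup G := (powSub H p).comap f

theorem mem_kumSub {g : G} : g ∈ kumSub f p ↔ ∃ h : H, h ^ p = f g := by
  simp [kumSub, mem_powSub]

theorem powSub_le_kumSub : powSub G p ≤ kumSub f p := by
  intro g hg
  obtain ⟨b, rfl⟩ := mem_powSub.mp hg
  exact (mem_kumSub f p).mpr ⟨f b, by rw [map_pow]⟩

theorem ker_le_kumSub : f.ker ≤ kumSub f p := by
  intro g hg
  exact (mem_kumSub f p).mpr ⟨1, by rw [one_pow, (MonoidHom.mem_ker).mp hg]⟩

variable {f π p}

theorem powSub_subgroupOf_ker (htf : ∀ x : H, x ^ p = 1 → x = 1) :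
    (powSub G p).subgroupOf f.ker = powSub f.ker p := by
  ext ⟨u, hu⟩
  rw [Subgroup.mem_subgroupOf, mem_powSub, mem_powSub]
  constructor
  · rintro ⟨b, hb⟩
    have hb' : b ∈ f.ker := by
      rw [MonoidHom.mem_ker]
      apply htf
      rw [← map_pow, hb]
      exact (MonoidHom.mem_ker).mp hu
    exact ⟨⟨b, hb'⟩, Subtype.ext hb⟩
  · rintro ⟨b, hb⟩
    exact ⟨b.1, congrArg Subtype.val hb⟩

/-- **Abstract count.** `f : G → H` with `H` `p`-torsion-free, `C = H / f(G)`:
`[f⁻¹(H^p) : G^p] = [ker f : (ker f)^p] * #C[p]`. -/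
theorem relIndex_powSub_kumSub (htf : ∀ x : H, x ^ p = 1 → x = 1)
    (hπ : Function.Surjective π) (hker : π.ker = f.range) :
    (powSub G p).relIndex (kumSub f p) = (powSub f.ker p).index * Nat.card (torSub C p) := by
  classical
  set P := powSub G p with hP
  set U := f.ker with hU
  set W := kumSub f p with hW
  have hinj : Function.Injective (powMonoidHom p : H →* H) := by
    rw [injective_iff_map_eq_one]
    intro x hx
    exact htf x hx
  -- the `p`-th root on `H^p`
  let e : H ≃* powSub H p := MonoidHom.ofInjective hinj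
  have he : ∀ h : H, ((e h : powSub H p) : H) = h ^ p := fun h => rfl
  let g₀ : W →* powSub H p := (f.comp W.subtype).codRestrict (powSub H p) (fun w => w.2)
  let ψ : W →* C := π.comp (e.symm.toMonoidHom.comp g₀)
  have hroot : ∀ w : W, (e.symm (g₀ w)) ^ p = f w := by
    intro w
    have := he (e.symm (g₀ w))
    rw [MulEquiv.apply_symm_apply] at this
    exact this.symm
  have hroot' : ∀ (w : W) (h : H), h ^ p = f w → e.symm (g₀ w) = h := by
    intro w h hh
    apply hinj
    change (e.symm (g₀ w)) ^ p = h ^ p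
    rw [hroot, hh]
  have hψ : ∀ w : W, ψ w = π (e.symm (g₀ w)) := fun w => rfl
  -- range of ψ
  have hrange : ψ.range = torSub C p := by
    ext c
    rw [MonoidHom.mem_range, mem_torSub]
    constructor
    · rintro ⟨w, rfl⟩
      rw [hψ, ← map_pow, hroot]
      have : f w ∈ π.ker := by rw [hker]; exact ⟨w, rfl⟩
      exact (MonoidHom.mem_ker).mp this
    · intro hc
      obtain ⟨h, rfl⟩ := hπ c
      have h1 : h ^ p ∈ π.ker := by rw [MonoidHom.mem_ker, map_pow]; exact hc
      rw [hker] at h1
      obtain ⟨g, hg⟩ := h1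
      have hgW : g ∈ W := (mem_kumSub f p).mpr ⟨h, hg.symm⟩
      refine ⟨⟨g, hgW⟩, ?_⟩
      rw [hψ, hroot' ⟨g, hgW⟩ h hg.symm]
  -- kernel of ψ
  have hkerψ : ψ.ker = (U ⊔ P).subgroupOf W := by
    ext w
    rw [MonoidHom.mem_ker, Subgroup.mem_subgroupOf, hψ]
    constructor
    · intro hw
      have h1 : e.symm (g₀ w) ∈ π.ker := (MonoidHom.mem_ker).mpr hw
      rw [hker] at h1
      obtain ⟨b, hb⟩ := h1
      have h2 : f (b ^ p) = f w := by rw [map_pow, hb, hroot]
      have h3 : (w : G) / b ^ p ∈ U := by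
        rw [hU, MonoidHom.mem_ker, map_div, h2, div_self']
      have : (w : G) = ((w : G) / b ^ p) * b ^ p := by rw [div_mul_cancel]
      rw [this]
      exact Subgroup.mul_mem_sup h3 (mem_powSub.mpr ⟨b, rfl⟩)
    · intro hw
      obtain ⟨u, hu, q, hq, huq⟩ := Subgroup.mem_sup.mp hw
      obtain ⟨b, rfl⟩ := mem_powSub.mp hq
      have h1 : (f b) ^ p = f w := by
        rw [← huq, map_mul, (MonoidHom.mem_ker).mp hu, one_mul, map_pow]
      rw [hroot' w (f b) h1]
      have : f b ∈ π.ker := by rw [hker]; exact ⟨b, rfl⟩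
      exact (MonoidHom.mem_ker).mp this
  have hPU : P ≤ U ⊔ P := le_sup_right
  have hUPW : U ⊔ P ≤ W := sup_le (ker_le_kumSub f p) (powSub_le_kumSub f p)
  have h1 : (U ⊔ P).relIndex W = Nat.card (torSub C p) := by
    rw [Subgroup.relIndex, ← hkerψ, Subgroup.index_ker, hrange]
  have h2 : P.relIndex (U ⊔ P) = (powSub f.ker p).index := by
    rw [Subgroup.relIndex_sup_right, Subgroup.relIndex, powSub_subgroupOf_ker htf]
  rw [← Subgroup.relIndex_mul_relIndex P (U ⊔ P) W hPU hUPW, h1, h2]

end Abstract

section Dedekind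

variable {R : Type*} [CommRing R] [IsDedekindDomain R] (K : Type*) [Field K] [Algebra R K]
  [IsFractionRing R K]

/-- valuation of a nonzero element in terms of the multiplicity of the principal fractional ideal -/
theorem valuation_eq_exp_neg_count (v : HeightOneSpectrum R) (x : Kˣ) :
    v.valuation K (x : K) =
      WithZero.exp (-(FractionalIdeal.count K v (FractionalIdeal.spanSingleton R⁰ (x : K)))) := by
  classical
  obtain ⟨a, b, hb, hab⟩ := IsFractionRing.div_surjective (A := R) (x : K)
  have hb0 : b ≠ 0 := nonZeroDivisors.ne_zero hb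
  have hbK : algebraMap R K b ≠ 0 := by
    rwa [Ne, map_eq_zero_iff _ (IsFractionRing.injective R K)]
  have ha0 : a ≠ 0 := by
    rintro rfl
    rw [map_zero, zero_div] at hab
    exact x.ne_zero hab.symm
  have haK : algebraMap R K a ≠ 0 := by
    rwa [Ne, map_eq_zero_iff _ (IsFractionRing.injective R K)]
  have hmul : (x : K) * algebraMap R K b = algebraMap R K a := by
    rw [← hab, div_mul_cancel₀ _ hbK]
  have hval : v.valuation K (x : K) * v.valuation K (algebraMap R K b) =
      v.valuation K (algebraMap R K a) := by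
    rw [← map_mul, hmul]
  have hx0 : v.valuation K (x : K) ≠ 0 := (Valuation.ne_zero_iff _).mpr x.ne_zero
  have hvb0 : v.valuation K (algebraMap R K b) ≠ 0 := (Valuation.ne_zero_iff _).mpr hbK
  have hlog := congrArg WithZero.log hval
  rw [WithZero.log_mul hx0 hvb0, HeightOneSpectrum.valuation_of_algebraMap,
    HeightOneSpectrum.valuation_of_algebraMap, v.intValuation_if_neg ha0,
    v.intValuation_if_neg hb0, WithZero.log_exp, WithZero.log_exp] at hlog
  have hI : FractionalIdeal.spanSingleton R⁰ (x : K) ≠ 0 := by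
    rw [Ne, FractionalIdeal.spanSingleton_eq_zero_iff]
    exact x.ne_zero
  have hrepr : FractionalIdeal.spanSingleton R⁰ (x : K) =
      FractionalIdeal.spanSingleton R⁰ ((algebraMap R K) b)⁻¹ *
        ((Ideal.span {a} : Ideal R) : FractionalIdeal R⁰ K) := by
    rw [FractionalIdeal.coeIdeal_span_singleton, FractionalIdeal.spanSingleton_mul_spanSingleton,
      ← hab, div_eq_inv_mul]
  rw [FractionalIdeal.count_well_defined K v hI hrepr]
  rw [← WithZero.exp_log hx0]
  congr 1
  linarith

end Dedekind

section Dedekind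

variable {R : Type*} [CommRing R] [IsDedekindDomain R] (K : Type*) [Field K] [Algebra R K]
  [IsFractionRing R K] (S : Set (HeightOneSpectrum R)) (p : ℕ)

/-- a prime of `R` as an element of `(Ideal R)⁰` -/
def primeNZD (v : HeightOneSpectrum R) : (Ideal R)⁰ :=
  ⟨v.asIdeal, mem_nonZeroDivisors_of_ne_zero v.ne_bot⟩

/-- a prime of `R` as an invertible fractional ideal -/
noncomputable def primeUnit (v : HeightOneSpectrum R) : (FractionalIdeal R⁰ K)ˣ :=
  FractionalIdeal.mk0 K (primeNZD v)

theorem coe_primeUnit (v : HeightOneSpectrum R) :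
    ((primeUnit K v : (FractionalIdeal R⁰ K)ˣ) : FractionalIdeal R⁰ K) =
      (v.asIdeal : FractionalIdeal R⁰ K) :=
  FractionalIdeal.coe_mk0 K _

/-- the subgroup of invertible fractional ideals generated by the primes in `S` -/
noncomputable def HS : Subgroup (FractionalIdeal R⁰ K)ˣ := Subgroup.closure (primeUnit K '' S)

theorem count_one_unit (v : HeightOneSpectrum R) :
    FractionalIdeal.count K v (((1 : (FractionalIdeal R⁰ K)ˣ)) : FractionalIdeal R⁰ K) = 0 := by
  rw [Units.val_one]; exact FractionalIdeal.count_one K v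

theorem count_mul_unit (v : HeightOneSpectrum R) (I J : (FractionalIdeal R⁰ K)ˣ) :
    FractionalIdeal.count K v ((I * J : (FractionalIdeal R⁰ K)ˣ) : FractionalIdeal R⁰ K) =
      FractionalIdeal.count K v (I : FractionalIdeal R⁰ K) +
        FractionalIdeal.count K v (J : FractionalIdeal R⁰ K) := by
  rw [Units.val_mul]; exact FractionalIdeal.count_mul K v I.ne_zero J.ne_zero

theorem count_inv_unit (v : HeightOneSpectrum R) (I : (FractionalIdeal R⁰ K)ˣ) :
    FractionalIdeal.count K v ((I⁻¹ : (FractionalIdeal R⁰ K)ˣ) : FractionalIdeal R⁰ K) =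
      -FractionalIdeal.count K v (I : FractionalIdeal R⁰ K) := by
  rw [Units.val_inv_eq_inv_val]; exact FractionalIdeal.count_inv K v _

theorem count_pow_unit (v : HeightOneSpectrum R) (I : (FractionalIdeal R⁰ K)ˣ) (n : ℕ) :
    FractionalIdeal.count K v ((I ^ n : (FractionalIdeal R⁰ K)ˣ) : FractionalIdeal R⁰ K) =
      n * FractionalIdeal.count K v (I : FractionalIdeal R⁰ K) := by
  rw [Units.val_pow_eq_pow_val]; exact FractionalIdeal.count_pow K v n _

theorem count_div_unit (v : HeightOneSpectrum R) (I J : (FractionalIdeal R⁰ K)ˣ) :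
    FractionalIdeal.count K v ((I / J : (FractionalIdeal R⁰ K)ˣ) : FractionalIdeal R⁰ K) =
      FractionalIdeal.count K v (I : FractionalIdeal R⁰ K) -
        FractionalIdeal.count K v (J : FractionalIdeal R⁰ K) := by
  rw [div_eq_mul_inv, count_mul_unit, count_inv_unit, sub_eq_add_neg]

theorem mem_HS_iff (I : (FractionalIdeal R⁰ K)ˣ) :
    I ∈ HS K S ↔ ∀ v, v ∉ S → FractionalIdeal.count K v (I : FractionalIdeal R⁰ K) = 0 := by
  classical
  constructor
  · intro hI v hv
    induction hI using Subgroup.closure_induction with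
    | mem x hx =>
      obtain ⟨w, hw, rfl⟩ := hx
      rw [coe_primeUnit]
      apply FractionalIdeal.count_maximal_coprime
      rintro rfl
      exact hv hw
    | one => exact count_one_unit K v
    | mul x y _ _ hx hy => rw [count_mul_unit, hx, hy, add_zero]
    | inv x _ hx => rw [count_inv_unit, hx, neg_zero]
  · intro h
    have hfac := FractionalIdeal.finprod_heightOneSpectrum_factorization' K
      (I := (I : FractionalIdeal R⁰ K)) I.ne_zero
    have key : ∃ u : (FractionalIdeal R⁰ K)ˣ, u ∈ HS K S ∧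
        (u : FractionalIdeal R⁰ K) = ∏ᶠ v : HeightOneSpectrum R,
          (v.asIdeal : FractionalIdeal R⁰ K) ^ FractionalIdeal.count K v (I : FractionalIdeal R⁰ K) := by
      refine finprod_induction (fun x => ∃ u : (FractionalIdeal R⁰ K)ˣ, u ∈ HS K S ∧
        (u : FractionalIdeal R⁰ K) = x) ?_ ?_ ?_
      · exact ⟨1, Subgroup.one_mem _, rfl⟩
      · rintro x y ⟨u, hu, rfl⟩ ⟨w, hw, rfl⟩
        exact ⟨u * w, Subgroup.mul_mem _ hu hw, Units.val_mul u w⟩
      · intro v
        by_cases hv : v ∈ S
        · refine ⟨primeUnit K v ^ FractionalIdeal.count K v (I : FractionalIdeal R⁰ K),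
            Subgroup.zpow_mem _ (Subgroup.subset_closure (Set.mem_image_of_mem _ hv)) _, ?_⟩
          rw [Units.val_zpow_eq_zpow_val, coe_primeUnit]
        · exact ⟨1, Subgroup.one_mem _, by rw [h v hv, zpow_zero, Units.val_one]⟩
    obtain ⟨u, hu, hu'⟩ := key
    rw [hfac] at hu'
    have : u = I := Units.ext hu'
    rwa [← this]

/-- subgroup of the class group generated by the classes of the primes in `S` -/
noncomputable def Hcl : Subgroup (ClassGroup R) :=
  Subgroup.closure ((fun v : HeightOneSpectrum R => ClassGroup.mk0 (primeNZD v)) '' S)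

/-- the `S`-class group `Cl(R) / ⟨S⟩` -/
abbrev ClS : Type _ := ClassGroup R ⧸ Hcl S

theorem map_HS : (HS K S).map (ClassGroup.mk K) = Hcl S := by
  rw [HS, MonoidHom.map_closure, Hcl, Set.image_image]
  congr 1
  apply Set.image_congr
  intro v _
  exact ClassGroup.mk_mk0 K (primeNZD v)

theorem HS_le_comap : HS K S ≤ (Hcl S).comap (ClassGroup.mk K) := by
  rw [← Subgroup.map_le_iff_le_comap, map_HS]

/-- the divisor map modulo `S` -/
noncomputable def divS : Kˣ →* (FractionalIdeal R⁰ K)ˣ ⧸ HS K S :=
  (QuotientGroup.mk' (HS K S)).comp (toPrincipalIdeal R K)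

/-- the class map -/
noncomputable def clsS : (FractionalIdeal R⁰ K)ˣ ⧸ HS K S →* ClS S :=
  QuotientGroup.map (HS K S) (Hcl S) (ClassGroup.mk K) (HS_le_comap K S)

theorem clsS_mk (I : (FractionalIdeal R⁰ K)ˣ) :
    clsS K S (QuotientGroup.mk I) = QuotientGroup.mk (ClassGroup.mk K I) := rfl

theorem clsS_surjective : Function.Surjective (clsS K S) := by
  intro c
  obtain ⟨x, rfl⟩ := QuotientGroup.mk_surjective c
  exact ClassGroup.induction K (P := fun x => ∃ a, clsS K S a = QuotientGroup.mk x)
    (fun I => ⟨QuotientGroup.mk I, rfl⟩) x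

theorem mem_range_toPrincipalIdeal_of_mk_eq_one {I : (FractionalIdeal R⁰ K)ˣ}
    (h : ClassGroup.mk K I = 1) : I ∈ (toPrincipalIdeal R K).range := by
  rw [ClassGroup.mk_eq_one_iff] at h
  obtain ⟨x, hx⟩ := h.principal
  have hx0 : x ≠ 0 := by
    rintro rfl
    have : ((I : FractionalIdeal R⁰ K) : Submodule R K) = ⊥ := by
      rw [hx]; simp
    have h0 : (I : FractionalIdeal R⁰ K) = 0 :=
      FractionalIdeal.coeToSubmodule_eq_bot.mp this
    exact I.ne_zero h0
  refine ⟨Units.mk0 x hx0, ?_⟩
  rw [toPrincipalIdeal_eq_iff, ← FractionalIdeal.coeToSubmodule_inj,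
    FractionalIdeal.coe_spanSingleton, hx]
  rfl

theorem mk_toPrincipalIdeal (x : Kˣ) : ClassGroup.mk K (toPrincipalIdeal R K x) = 1 := by
  rw [ClassGroup.mk_eq_one_iff, coe_toPrincipalIdeal, FractionalIdeal.coe_spanSingleton]
  exact ⟨⟨(x : K), rfl⟩⟩

theorem ker_clsS : (clsS K S).ker = (divS K S).range := by
  ext y
  obtain ⟨I, rfl⟩ := QuotientGroup.mk_surjective y
  rw [MonoidHom.mem_ker, clsS_mk, QuotientGroup.eq_one_iff, ← map_HS K S, Subgroup.mem_map,
    MonoidHom.mem_range]
  constructor
  · rintro ⟨J, hJ, hJI⟩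
    have h1 : ClassGroup.mk K (I / J) = 1 := by rw [map_div, hJI, div_self']
    obtain ⟨x, hx⟩ := mem_range_toPrincipalIdeal_of_mk_eq_one K h1
    refine ⟨x, ?_⟩
    change QuotientGroup.mk (toPrincipalIdeal R K x) = _
    rw [hx, QuotientGroup.eq]
    have : (I / J)⁻¹ * I = J := by rw [inv_div, div_mul_cancel]
    rw [this]; exact hJ
  · rintro ⟨x, hx⟩
    change QuotientGroup.mk (toPrincipalIdeal R K x) = _ at hx
    rw [QuotientGroup.eq] at hx
    refine ⟨(toPrincipalIdeal R K x)⁻¹ * I, hx, ?_⟩
    rw [map_mul, map_inv, mk_toPrincipalIdeal, inv_one, one_mul]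

end Dedekind

section Dedekind

variable {R : Type*} [CommRing R] [IsDedekindDomain R] (K : Type*) [Field K] [Algebra R K]
  [IsFractionRing R K] (S : Set (HeightOneSpectrum R)) (p : ℕ)

theorem torsionFree_quot {p : ℕ} (hp : 0 < p) :
    ∀ x : (FractionalIdeal R⁰ K)ˣ ⧸ HS K S, x ^ p = 1 → x = 1 := by
  intro x hx
  obtain ⟨I, rfl⟩ := QuotientGroup.mk_surjective x
  rw [← QuotientGroup.mk_pow, QuotientGroup.eq_one_iff, mem_HS_iff] at hx
  rw [QuotientGroup.eq_one_iff, mem_HS_iff]
  intro v hv
  have h1 := hx v hv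
  rw [count_pow_unit] at h1
  rcases mul_eq_zero.mp h1 with h | h
  · exact absurd h (by exact_mod_cast hp.ne')
  · exact h

theorem count_toPrincipalIdeal (v : HeightOneSpectrum R) (a : Kˣ) :
    FractionalIdeal.count K v ((toPrincipalIdeal R K a : (FractionalIdeal R⁰ K)ˣ) :
      FractionalIdeal R⁰ K) = -WithZero.log (v.valuation K (a : K)) := by
  rw [coe_toPrincipalIdeal, valuation_eq_exp_neg_count K v a, WithZero.log_exp, neg_neg]

theorem valuation_eq_exp_iff (v : HeightOneSpectrum R) (a : Kˣ) (n : ℤ) :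
    v.valuation K (a : K) = WithZero.exp n ↔
      FractionalIdeal.count K v ((toPrincipalIdeal R K a : (FractionalIdeal R⁰ K)ˣ) :
        FractionalIdeal R⁰ K) = -n := by
  rw [coe_toPrincipalIdeal, valuation_eq_exp_neg_count K v a]
  constructor
  · intro h
    have := congrArg WithZero.log h
    rw [WithZero.log_exp, WithZero.log_exp] at this
    omega
  · intro h
    rw [h, neg_neg]

theorem ker_divS : (divS K S).ker = S.unit K := by
  ext a
  rw [MonoidHom.mem_ker]
  change (QuotientGroup.mk (toPrincipalIdeal R K a) : (FractionalIdeal R⁰ K)ˣ ⧸ HS K S) = 1 ↔ _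
  rw [QuotientGroup.eq_one_iff, mem_HS_iff]
  change _ ↔ ∀ v (_ : v ∉ S), v.valuation K (a : K) = 1
  constructor
  · intro h v hv
    have := (valuation_eq_exp_iff K v a 0).mpr (by rw [h v hv, neg_zero])
    simpa using this
  · intro h v hv
    have := (valuation_eq_exp_iff K v a 0).mp (by simpa using h v hv)
    simpa using this

/-- the Kummer group `V_S`: elements of `Kˣ` whose valuation is divisible by `p` outside `S` -/
def VS : Subgroup Kˣ where
  carrier := {a | ∀ v, v ∉ S → ∃ m : ℤ, v.valuation K (a : K) = WithZero.exp ((p : ℤ) * m)}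
  one_mem' := fun v _ => ⟨0, by simp⟩
  mul_mem' := by
    intro a b ha hb v hv
    obtain ⟨m, hm⟩ := ha v hv
    obtain ⟨n, hn⟩ := hb v hv
    exact ⟨m + n, by rw [Units.val_mul, map_mul, hm, hn, ← WithZero.exp_add, mul_add]⟩
  inv_mem' := by
    intro a ha v hv
    obtain ⟨m, hm⟩ := ha v hv
    exact ⟨-m, by rw [Units.val_inv_eq_inv_val, map_inv₀, hm, ← WithZero.exp_neg, mul_neg]⟩

theorem mem_VS {a : Kˣ} : a ∈ VS K S p ↔
    ∀ v, v ∉ S → ∃ m : ℤ, v.valuation K (a : K) = WithZero.exp ((p : ℤ) * m) := Iff.rfl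

theorem kumSub_divS {p : ℕ} (hp : 0 < p) :
    kumSub (H := (FractionalIdeal R⁰ K)ˣ ⧸ HS K S) (divS K S) p = VS K S p := by
  classical
  ext a
  rw [mem_kumSub, mem_VS]
  constructor
  · rintro ⟨x, hx⟩ v hv
    obtain ⟨I, rfl⟩ := QuotientGroup.mk_surjective x
    change (QuotientGroup.mk I : (FractionalIdeal R⁰ K)ˣ ⧸ HS K S) ^ p =
      QuotientGroup.mk (toPrincipalIdeal R K a) at hx
    rw [← QuotientGroup.mk_pow, QuotientGroup.eq, mem_HS_iff] at hx
    have h1 := hx v hv
    rw [count_mul_unit, count_inv_unit, count_pow_unit] at h1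
    refine ⟨-FractionalIdeal.count K v (I : FractionalIdeal R⁰ K), ?_⟩
    rw [valuation_eq_exp_iff]
    linarith
  · intro ha
    -- exponents of the `p`-th root ideal
    set c : HeightOneSpectrum R → ℤ := fun v =>
      FractionalIdeal.count K v ((toPrincipalIdeal R K a : (FractionalIdeal R⁰ K)ˣ) :
        FractionalIdeal R⁰ K) with hc
    set exps : HeightOneSpectrum R → ℤ := fun v => if v ∈ S then 0 else c v / p with hexps
    have hfin : ∀ᶠ v in Filter.cofinite, exps v = 0 := by
      refine (FractionalIdeal.finite_factors (K := K)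
        ((toPrincipalIdeal R K a : (FractionalIdeal R⁰ K)ˣ) : FractionalIdeal R⁰ K)).mono ?_
      intro v hv
      simp only [hexps, hc]
      split_ifs
      · rfl
      · rw [hv, Int.zero_ediv]
    have hsupp : (Function.mulSupport fun v : HeightOneSpectrum R =>
        primeUnit K v ^ exps v).Finite := by
      refine Set.Finite.subset hfin ?_
      intro v hv
      simp only [Function.mem_mulSupport] at hv
      simp only [Set.mem_compl_iff, Set.mem_ofPred_eq]
      intro h0
      apply hv
      rw [h0, zpow_zero]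
    set Iu : (FractionalIdeal R⁰ K)ˣ := ∏ᶠ v : HeightOneSpectrum R, primeUnit K v ^ exps v with hIu
    have hcoe : (Iu : FractionalIdeal R⁰ K) =
        ∏ᶠ v : HeightOneSpectrum R, (v.asIdeal : FractionalIdeal R⁰ K) ^ exps v := by
      have := MonoidHom.map_finprod (Units.coeHom (FractionalIdeal R⁰ K)) hsupp
      rw [Units.coeHom_apply] at this
      rw [hIu, this]
      apply finprod_congr
      intro v
      rw [Units.coeHom_apply, Units.val_zpow_eq_zpow_val, coe_primeUnit]
    have hcount : ∀ v, FractionalIdeal.count K v (Iu : FractionalIdeal R⁰ K) = exps v := by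
      intro v
      rw [hcoe]
      exact FractionalIdeal.count_finprod K v exps hfin
    refine ⟨QuotientGroup.mk Iu, ?_⟩
    change (QuotientGroup.mk Iu : (FractionalIdeal R⁰ K)ˣ ⧸ HS K S) ^ p =
      QuotientGroup.mk (toPrincipalIdeal R K a)
    rw [← QuotientGroup.mk_pow, QuotientGroup.eq, mem_HS_iff]
    intro v hv
    rw [count_mul_unit, count_inv_unit, count_pow_unit, hcount]
    obtain ⟨m, hm⟩ := ha v hv
    have h2 := (valuation_eq_exp_iff K v a _).mp hm
    simp only [hexps, if_neg hv, hc]
    rw [h2]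
    have hp' : (p : ℤ) ≠ 0 := by exact_mod_cast hp.ne'
    have : -((p : ℤ) * m) / (p : ℤ) = -m := by
      rw [← mul_neg, Int.mul_ediv_cancel_left _ hp']
    rw [this]
    ring

theorem index_powSub_congr {G : Type*} [CommGroup G] {U U' : Subgroup G} (h : U = U') (p : ℕ) :
    (powSub U p).index = (powSub U' p).index := by
  subst h; rfl

/-- **Size of the Kummer group, Dedekind form.**
`[V_S : (Kˣ)^p] = [U_S : U_S^p] * #Cl_S[p]`. -/
theorem relIndex_powSub_VS {p : ℕ} (hp : 0 < p) :
    (powSub Kˣ p).relIndex (VS K S p) =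
      (powSub (S.unit K) p).index * Nat.card (torSub (ClS S) p) := by
  have h := relIndex_powSub_kumSub (H := (FractionalIdeal R⁰ K)ˣ ⧸ HS K S) (C := ClS S)
    (f := divS K S) (π := clsS K S) (p := p)
    (torsionFree_quot K S hp) (clsS_surjective K S) (ker_clsS K S)
  rw [kumSub_divS K S hp, index_powSub_congr (ker_divS K S) p] at h
  exact h

end Dedekind

/-! ## Part C: `[X : nX] = #X[n] * n ^ rank X` for finitely generated abelian groups -/

section Fg

open Module

/-- finite additive group: the image of an endomorphism has index the size of the kernel -/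
theorem index_range_eq_card_ker {T : Type*} [AddCommGroup T] [Finite T] (φ : T →+ T) :
    φ.range.index = Nat.card φ.ker := by
  have h1 := AddSubgroup.card_mul_index φ.ker
  rw [AddSubgroup.index_ker] at h1
  have h2 := AddSubgroup.card_mul_index φ.range
  have h3 : 0 < Nat.card φ.range := Nat.card_pos
  have : Nat.card φ.range * φ.range.index = Nat.card φ.range * Nat.card φ.ker := by
    rw [h2, mul_comm, h1]
  exact Nat.eq_of_mul_eq_mul_left h3 this

/-- free module of finite rank: `[Q : nQ] = n ^ rank` -/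
theorem index_range_nsmul_free (Q : Type*) [AddCommGroup Q] [Module.Free ℤ Q] [Module.Finite ℤ Q]
    {n : ℕ} (hn : 0 < n) :
    (nsmulAddMonoidHom n : Q →+ Q).range.index = n ^ finrank ℤ Q := by
  classical
  have : NeZero n := ⟨hn.ne'⟩
  let ι := Module.Free.ChooseBasisIndex ℤ Q
  let b : Basis ι ℤ Q := Module.Free.chooseBasis ℤ Q
  -- reduction of coordinates mod n
  let red : Q →+ (ι → ZMod n) :=
    { toFun := fun x i => ((b.repr x i : ℤ) : ZMod n)
      map_zero' := by funext i; simp
      map_add' := fun x y => by funext i; simp }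
  have hred : ∀ x i, red x i = ((b.repr x i : ℤ) : ZMod n) := fun _ _ => rfl
  have hrepr : ∀ (c : ι → ℤ) (i : ι), b.repr (b.equivFun.symm c) i = c i := by
    intro c i
    have h := b.equivFun.apply_symm_apply c
    rw [Basis.equivFun_apply] at h
    exact congrFun h i
  have hsurj : Function.Surjective red := by
    intro g
    refine ⟨b.equivFun.symm (fun i => ((g i).val : ℤ)), ?_⟩
    funext i
    rw [hred]
    rw [hrepr]
    simp
  have hker : red.ker = (nsmulAddMonoidHom n : Q →+ Q).range := by
    ext x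
    rw [AddMonoidHom.mem_ker, AddMonoidHom.mem_range]
    constructor
    · intro hx
      have hdvd : ∀ i, (n : ℤ) ∣ b.repr x i := by
        intro i
        have := congrFun hx i
        rw [hred] at this
        exact (ZMod.intCast_zmod_eq_zero_iff_dvd _ _).mp this
      choose c hc using hdvd
      refine ⟨b.equivFun.symm c, ?_⟩
      apply b.repr.injective
      ext i
      simp only [nsmulAddMonoidHom_apply, map_nsmul, Finsupp.smul_apply]
      rw [hrepr, hc i]
      simp
    · rintro ⟨y, rfl⟩
      funext i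
      rw [hred]
      simp
  rw [← hker, AddSubgroup.index_ker]
  have hrange : red.range = ⊤ := AddMonoidHom.range_eq_top.mpr hsurj
  rw [hrange]
  have : Nat.card (⊤ : AddSubgroup (ι → ZMod n)) = Nat.card (ι → ZMod n) :=
    Nat.card_congr (Equiv.Set.univ _)
  rw [this, Nat.card_fun, Nat.card_zmod, Nat.card_eq_fintype_card,
    Module.finrank_eq_card_chooseBasisIndex]

end Fg





section Fg2

open Module

/-- **finitely generated abelian group**: `[X : nX] = #X[n] * n ^ rank X` -/
theorem index_range_nsmul_fg (X : Type*) [AddCommGroup X] [Module.Finite ℤ X] {n : ℕ}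
    (hn : 0 < n) :
    (nsmulAddMonoidHom n : X →+ X).range.index =
      Nat.card (nsmulAddMonoidHom n : X →+ X).ker * n ^ finrank ℤ X := by
  classical
  set Tm : Submodule ℤ X := Submodule.torsion ℤ X with hTm
  set T : AddSubgroup X := Tm.toAddSubgroup with hT
  set N : AddSubgroup X := (nsmulAddMonoidHom n : X →+ X).range with hN
  let Q := X ⧸ Tm
  let q : X →+ Q := Tm.mkQ.toAddMonoidHom
  have hq : Function.Surjective q := Submodule.mkQ_surjective Tm
  have hq0 : ∀ x, q x = 0 ↔ x ∈ Tm := fun x => Submodule.Quotient.mk_eq_zero Tm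
  have hcomap : (nsmulAddMonoidHom n : Q →+ Q).range.comap q = N ⊔ T := by
    ext x
    rw [AddSubgroup.mem_comap, AddMonoidHom.mem_range]
    constructor
    · rintro ⟨y, hy⟩
      obtain ⟨y', rfl⟩ := hq y
      have h1 : x - n • y' ∈ Tm := by
        rw [← hq0, map_sub, map_nsmul]
        rw [nsmulAddMonoidHom_apply] at hy
        rw [hy, sub_self]
      have hx : x = n • y' + (x - n • y') := by abel
      rw [hx]
      exact AddSubgroup.add_mem_sup ⟨y', rfl⟩ h1
    · intro hx
      obtain ⟨a, ha, t, ht, rfl⟩ := AddSubgroup.mem_sup.mp hx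
      obtain ⟨y, rfl⟩ := ha
      refine ⟨q y, ?_⟩
      have ht0 : q t = 0 := (hq0 t).mpr ht
      rw [nsmulAddMonoidHom_apply, nsmulAddMonoidHom_apply, map_add, ht0, add_zero, map_nsmul]
  have hfr : finrank ℤ Q = finrank ℤ X := by
    have h1 := Submodule.finrank_quotient_add_finrank Tm
    have h0 : finrank ℤ Tm = 0 :=
      Module.finrank_eq_zero_iff_isTorsion.mpr Submodule.torsion_isTorsion
    change finrank ℤ (X ⧸ Tm) = _
    omega
  have h_i : (N ⊔ T).index = n ^ finrank ℤ X := by
    rw [← hcomap, AddSubgroup.index_comap_of_surjective _ hq, index_range_nsmul_free Q hn, hfr]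
  -- the torsion part
  have hTfin : Finite Tm := Module.finite_of_fg_torsion Tm Submodule.torsion_isTorsion
  have hTfin' : Finite T := hTfin
  have hsub : N.addSubgroupOf T = (nsmulAddMonoidHom n : T →+ T).range := by
    ext ⟨t, ht⟩
    rw [AddSubgroup.mem_addSubgroupOf, AddMonoidHom.mem_range]
    constructor
    · rintro ⟨y, hy⟩
      have hy' : n • y = t := hy
      have hyT : y ∈ T := by
        have ht' : t ∈ Tm := ht
        rw [Submodule.mem_torsion_iff] at ht'
        obtain ⟨a, ha⟩ := ht'
        change y ∈ Tm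
        rw [Submodule.mem_torsion_iff]
        have hn0 : (n : ℤ) ∈ nonZeroDivisors ℤ :=
          mem_nonZeroDivisors_of_ne_zero (by exact_mod_cast hn.ne')
        refine ⟨a * ⟨(n : ℤ), hn0⟩, ?_⟩
        rw [Submonoid.smul_def, Submonoid.coe_mul, mul_smul]
        have : ((⟨(n : ℤ), hn0⟩ : nonZeroDivisors ℤ) : ℤ) • y = n • y := by
          simp
        rw [this, hy']
        exact ha
      exact ⟨⟨y, hyT⟩, Subtype.ext hy'⟩
    · rintro ⟨y, hy⟩
      exact ⟨y.1, congrArg Subtype.val hy⟩
  have h_ii : N.relIndex (N ⊔ T) = Nat.card (nsmulAddMonoidHom n : X →+ X).ker := by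
    rw [sup_comm, AddSubgroup.relIndex_sup_right, AddSubgroup.relIndex, hsub,
      index_range_eq_card_ker]
    -- identify the kernels
    apply Nat.card_congr
    refine
      { toFun := fun t => ⟨t.1.1, by
          have := t.2
          rw [AddMonoidHom.mem_ker] at this ⊢
          exact congrArg Subtype.val this⟩
        invFun := fun x => ⟨⟨x.1, by
          have hx := x.2
          rw [AddMonoidHom.mem_ker, nsmulAddMonoidHom_apply] at hx
          change x.1 ∈ Tm
          rw [Submodule.mem_torsion_iff]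
          have hn0 : (n : ℤ) ∈ nonZeroDivisors ℤ :=
            mem_nonZeroDivisors_of_ne_zero (by exact_mod_cast hn.ne')
          refine ⟨⟨(n : ℤ), hn0⟩, ?_⟩
          rw [Submonoid.smul_def]
          simp only [natCast_zsmul]
          exact hx⟩, by
          have hx := x.2
          rw [AddMonoidHom.mem_ker] at hx ⊢
          exact Subtype.ext hx⟩
        left_inv := fun t => rfl
        right_inv := fun x => rfl }
  have hle : N ≤ N ⊔ T := le_sup_left
  rw [← AddSubgroup.relIndex_mul_index hle, h_ii, h_i]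

end Fg2

section Mult

/-- multiplicative form of `index_range_nsmul_fg` -/
theorem index_powSub_fg (U : Type*) [CommGroup U] [Module.Finite ℤ (Additive U)] {n : ℕ}
    (hn : 0 < n) :
    (powSub U n).index = Nat.card (torSub U n) * n ^ finrank ℤ (Additive U) := by
  have h := index_range_nsmul_fg (Additive U) hn
  have h1 : (nsmulAddMonoidHom n : Additive U →+ Additive U).range =
      Subgroup.toAddSubgroup (powSub U n) := by
    ext x
    rw [AddMonoidHom.mem_range]
    change _ ↔ Additive.toMul x ∈ powSub U n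
    rw [mem_powSub]
    constructor
    · rintro ⟨y, rfl⟩
      exact ⟨Additive.toMul y, rfl⟩
    · rintro ⟨b, hb⟩
      exact ⟨Additive.ofMul b, by rw [nsmulAddMonoidHom_apply, ← ofMul_pow, hb]; rfl⟩
  have h2 : Nat.card (nsmulAddMonoidHom n : Additive U →+ Additive U).ker =
      Nat.card (torSub U n) := by
    apply Nat.card_congr
    refine
      { toFun := fun x => ⟨Additive.toMul x.1, by
          have hx := x.2
          rw [AddMonoidHom.mem_ker, nsmulAddMonoidHom_apply] at hx
          rw [mem_torSub, ← toMul_nsmul, hx, toMul_zero]⟩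
        invFun := fun u => ⟨Additive.ofMul u.1, by
          have hu := u.2
          rw [mem_torSub] at hu
          rw [AddMonoidHom.mem_ker, nsmulAddMonoidHom_apply, ← ofMul_pow, hu]
          rfl⟩
        left_inv := fun x => rfl
        right_inv := fun u => rfl }
  rw [h1, Subgroup.index_toAddSubgroup, h2] at h
  exact h

/-- finite commutative group: `#C[n] = [C : C^n]` -/
theorem card_torSub_eq_index_powSub (C : Type*) [CommGroup C] [Finite C] (n : ℕ) :
    Nat.card (torSub C n) = (powSub C n).index := by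
  have h1 := Subgroup.card_mul_index (powMonoidHom n : C →* C).ker
  rw [Subgroup.index_ker] at h1
  have h2 := Subgroup.card_mul_index (powMonoidHom n : C →* C).range
  have h3 : 0 < Nat.card (powMonoidHom n : C →* C).range := Nat.card_pos
  have : Nat.card (powMonoidHom n : C →* C).range * Nat.card (torSub C n) =
      Nat.card (powMonoidHom n : C →* C).range * (powSub C n).index := by
    rw [powSub, h2, mul_comm, torSub, h1]
  exact Nat.eq_of_mul_eq_mul_left h3 this

end Mult

section NumberFieldCase

variable (M : Type*) [Field M] [NumberField M] (S : Finset (HeightOneSpectrum (𝓞 M)))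

/-- the `p`-torsion of the `S`-units is the group of `p`-th roots of unity -/
theorem card_torSub_sUnit {p : ℕ} (hp : 0 < p) {ζ : M} (hζ : IsPrimitiveRoot ζ p) :
    Nat.card (torSub ((S : Set (HeightOneSpectrum (𝓞 M))).unit M) p) = p := by
  classical
  have : NeZero p := ⟨hp.ne'⟩
  have hcard : Nat.card (rootsOfUnity p M) = p := hζ.card_rootsOfUnity
  refine (Nat.card_congr ?_).trans hcard
  exact
    { toFun := fun u => ⟨(u.1 : Mˣ), by
        have hu := u.2
        rw [mem_torSub] at hu
        rw [mem_rootsOfUnity]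
        have := congrArg (Subtype.val) hu
        simpa using this⟩
      invFun := fun w => ⟨⟨w.1, by
        intro v _
        have hw := w.2
        rw [mem_rootsOfUnity] at hw
        have h1 : (v.valuation M ((w.1 : Mˣ) : M)) ^ p = 1 := by
          rw [← map_pow, ← Units.val_pow_eq_pow_val, hw, Units.val_one, map_one]
        exact (pow_eq_one_iff_of_nonneg zero_le hp.ne').mp h1⟩, by
        rw [mem_torSub]
        apply Subtype.ext
        have hw := w.2
        rw [mem_rootsOfUnity] at hw
        simpa using hw⟩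
      left_inv := fun u => rfl
      right_inv := fun w => rfl }

/-- `[U_S : U_S^p] = p ^ (rank 𝓞ˣ + #S + 1)` when `μ_p ⊂ M`. -/
theorem index_powSub_sUnit {p : ℕ} (hp : 0 < p) {ζ : M} (hζ : IsPrimitiveRoot ζ p) :
    (powSub ((S : Set (HeightOneSpectrum (𝓞 M))).unit M) p).index =
      p ^ (NumberField.Units.rank M + S.card + 1) := by
  have := Fermat.Agent.S14.SUnitTheorem.finite_sUnit_numberField M S
  rw [index_powSub_fg _ hp, card_torSub_sUnit M S hp hζ,
    Fermat.Agent.S14.SUnitTheorem.finrank_sUnit_numberField, pow_succ, mul_comm]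

/-- **Size of the Kummer group `V_S` of a number field containing `μ_p`.** -/
theorem relIndex_powSub_VS_numberField {p : ℕ} (hp : 0 < p) {ζ : M} (hζ : IsPrimitiveRoot ζ p) :
    (powSub Mˣ p).relIndex (VS M (S : Set (HeightOneSpectrum (𝓞 M))) p) =
      p ^ (NumberField.Units.rank M + S.card + 1) *
        Nat.card (torSub (ClS (S : Set (HeightOneSpectrum (𝓞 M)))) p) := by
  rw [relIndex_powSub_VS M (S : Set (HeightOneSpectrum (𝓞 M))) hp, index_powSub_sUnit M S hp hζ]

/-- same, with the number of infinite places -/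
theorem relIndex_powSub_VS_numberField' {p : ℕ} (hp : 0 < p) {ζ : M} (hζ : IsPrimitiveRoot ζ p) :
    (powSub Mˣ p).relIndex (VS M (S : Set (HeightOneSpectrum (𝓞 M))) p) =
      p ^ (Fintype.card (InfinitePlace M) + S.card) *
        Nat.card (torSub (ClS (S : Set (HeightOneSpectrum (𝓞 M)))) p) := by
  rw [relIndex_powSub_VS_numberField M S hp hζ]
  have h1 : NumberField.Units.rank M + 1 = Fintype.card (InfinitePlace M) := by
    have : 0 < Fintype.card (InfinitePlace M) := Fintype.card_pos
    rw [NumberField.Units.rank]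
    omega
  have : NumberField.Units.rank M + S.card + 1 = Fintype.card (InfinitePlace M) + S.card := by
    omega
  rw [this]

/-- `V_S / (Mˣ)^p` is finite. -/
theorem relIndex_powSub_VS_ne_zero {p : ℕ} (hp : 0 < p) {ζ : M} (hζ : IsPrimitiveRoot ζ p) :
    (powSub Mˣ p).relIndex (VS M (S : Set (HeightOneSpectrum (𝓞 M))) p) ≠ 0 := by
  rw [relIndex_powSub_VS_numberField M S hp hζ]
  have : Finite (ClS (S : Set (HeightOneSpectrum (𝓞 M)))) := inferInstance
  have h1 : 0 < Nat.card (torSub (ClS (S : Set (HeightOneSpectrum (𝓞 M)))) p) := Nat.card_pos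
  positivity

end NumberFieldCase

end Fermat.Agent.S55.Global.VSDim
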